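import Fermat.Agent.Jac.PullCoc

/-!
# Invertible sheaves over affine opens
-/

set_option autoImplicit false

universe u

open CategoryTheory CategoryTheory.Limits AlgebraicGeometry TopologicalSpace Opposite

namespace Fermat.Agent.Jac

variable {X Y : Scheme.{u}}

/-- a function which vanishes on a principal open is killed by a power -/
theorem exists_pow_mul_eq_zero {U : X.Opens} (hU : IsAffineOpen U) (f r : Γ(X, U))
    (h : rs (X.basicOpen_le f) r = 0) : ∃ n : ℕ, f ^ n * r = 0 := by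
  have := hU.isLocalization_basicOpen f
  have h' : algebraMap Γ(X, U) Γ(X, X.basicOpen f) r = 0 := h
  rw [IsLocalization.map_eq_zero_iff (Submonoid.powers f)] at h'
  obtain ⟨⟨_, n, rfl⟩, hn⟩ := h'
  exact ⟨n, hn⟩

/-- a function on a principal open extends after multiplication by a power -/
theorem exists_pow_mul_eq_rs {U : X.Opens} (hU : IsAffineOpen U) (f : Γ(X, U))
    (a : Γ(X, X.basicOpen f)) :
    ∃ (n : ℕ) (r : Γ(X, U)), rs (X.basicOpen_le f) r = rs (X.basicOpen_le f) f ^ n * a := by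
  have := hU.isLocalization_basicOpen f
  obtain ⟨⟨r, ⟨_, n, rfl⟩⟩, h⟩ := IsLocalization.surj (Submonoid.powers f) a
  refine ⟨n, r, ?_⟩
  rw [mul_comm, ← map_pow]
  exact h.symm

/-- a set of functions generating the unit ideal gives a cover -/
theorem le_iSup_basicOpen {U : X.Opens} (hU : IsAffineOpen U) {ι : Type*} (g : ι → Γ(X, U))
    (hg : Ideal.span (Set.range g) = ⊤) : U ≤ ⨆ i, X.basicOpen (g i) := by
  have h := (hU.iSup_basicOpen_eq_self_iff (s := Set.range g)).2 hg
  refine h.symm.le.trans (iSup_le ?_)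
  rintro ⟨_, i, rfl⟩
  exact le_iSup (fun i => X.basicOpen (g i)) i

theorem basicOpen_rs {U V : X.Opens} (h : V ≤ U) (f : Γ(X, U)) :
    X.basicOpen (rs h f) = V ⊓ X.basicOpen f := X.basicOpen_res f (homOfLE h).op

/-- an affine open is covered by finitely many principal opens with generators -/
theorem exists_finite_gen {M : X.Modules} (hM : M.IsInvertible) {U : X.Opens}
    (hU : IsAffineOpen U) : ∃ (n : ℕ) (g : Fin n → Γ(X, U))
      (s : ∀ i, Γ(M, X.basicOpen (g i))), (∀ i, IsGen M (s i)) ∧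
      Ideal.span (Set.range g) = ⊤ := by
  have h1 : ∀ x : U, ∃ (g : Γ(X, U)) (s : Γ(M, X.basicOpen g)), (x : X) ∈ X.basicOpen g ∧
      IsGen M s := by
    intro x
    obtain ⟨V, hxV, s, hs⟩ := exists_gen hM x
    obtain ⟨g, hg, hxg⟩ := hU.exists_basicOpen_le (V := V) ⟨x, hxV⟩ x.2
    exact ⟨g, res M hg s, hxg, hs.res hg⟩
  choose g s hx hs using h1
  have h2 : Ideal.span (Set.range g) = ⊤ := by
    rw [← hU.iSup_basicOpen_eq_self_iff]
    refine le_antisymm (iSup_le fun f => X.basicOpen_le _) ?_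
    intro x hxU
    exact Opens.mem_iSup.mpr ⟨⟨_, ⟨x, hxU⟩, rfl⟩, hx ⟨x, hxU⟩⟩
  obtain ⟨t, ht, ht'⟩ := (Ideal.span_eq_top_iff_finite _).1 h2
  have h3 : ∀ f : t, ∃ s : Γ(M, X.basicOpen (f : Γ(X, U))), IsGen M s := by
    rintro ⟨f, hf⟩
    obtain ⟨y, rfl⟩ := ht hf
    exact ⟨s y, hs y⟩
  choose s' hs' using h3
  refine ⟨t.card, fun i => (t.equivFin.symm i : Γ(X, U)), fun i => s' _, fun i => hs' _, ?_⟩
  rw [← ht']
  congr 1
  ext f
  constructor
  · rintro ⟨i, rfl⟩
    exact (t.equivFin.symm i).2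
  · intro hf
    exact ⟨t.equivFin ⟨f, hf⟩, by simp⟩

section

variable {M : X.Modules}

/-- equality of sections over principal opens -/
theorem eq_of_principal {U : X.Opens} (hU : IsAffineOpen U) {ι : Type*} (g : ι → Γ(X, U))
    (hg : Ideal.span (Set.range g) = ⊤) {s t : Γ(M, U)}
    (h : ∀ i, res M (X.basicOpen_le (g i)) s = res M (X.basicOpen_le (g i)) t) : s = t :=
  eq_of_locally M (fun i => X.basicOpen (g i)) U (fun i => X.basicOpen_le (g i))
    (le_iSup_basicOpen hU g hg) s t h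

/-- **a section which vanishes on a principal open is killed by a power** -/
theorem exists_pow_smul_eq_zero (hM : M.IsInvertible) {U : X.Opens} (hU : IsAffineOpen U)
    (f : Γ(X, U)) (s : Γ(M, U)) (h : res M (X.basicOpen_le f) s = 0) :
    ∃ n : ℕ, f ^ n • s = 0 := by
  obtain ⟨N, g, σ, hσ, hg⟩ := exists_finite_gen hM hU
  have h1 : ∀ i, ∃ n : ℕ, ∀ m ≥ n, res M (X.basicOpen_le (g i)) (f ^ m • s) = 0 := by
    intro i
    obtain ⟨a, ha⟩ := (hσ i).exists_smul le_rfl (res M (X.basicOpen_le (g i)) s)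
    rw [res_refl] at ha
    have hle : X.basicOpen (rs (X.basicOpen_le (g i)) f) ≤ X.basicOpen (g i) := X.basicOpen_le _
    have hle' : X.basicOpen (rs (X.basicOpen_le (g i)) f) ≤ X.basicOpen f := by
      rw [basicOpen_rs]
      exact inf_le_right
    have h2 : rs hle a = 0 := by
      apply (hσ i).smul_inj hle
      rw [zero_smul, ← res_smul, ← ha, res_res]
      have := congrArg (res M hle') h
      rw [res_res, map_zero] at this
      exact this
    obtain ⟨n, hn⟩ := exists_pow_mul_eq_zero (hU.basicOpen (g i)) (rs (X.basicOpen_le (g i)) f) a h2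
    refine ⟨n, fun m hm => ?_⟩
    rw [res_smul, ha, ← mul_smul, map_pow, ← Nat.sub_add_cancel hm, pow_add, mul_assoc, hn,
      mul_zero, zero_smul]
  choose n hn using h1
  refine ⟨∑ i, n i, eq_of_principal hU g hg fun i => ?_⟩
  rw [hn i _ (Finset.single_le_sum (f := n) (fun _ _ => Nat.zero_le _) (Finset.mem_univ i)),
    map_zero]

/-- variant for two sections which agree on a principal open -/
theorem exists_pow_smul_eq (hM : M.IsInvertible) {U : X.Opens} (hU : IsAffineOpen U)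
    (f : Γ(X, U)) (s t : Γ(M, U)) (h : res M (X.basicOpen_le f) s = res M (X.basicOpen_le f) t) :
    ∃ n : ℕ, f ^ n • s = f ^ n • t := by
  obtain ⟨n, hn⟩ := exists_pow_smul_eq_zero hM hU f (s - t) (by rw [map_sub, h, sub_self])
  exact ⟨n, sub_eq_zero.1 (by rw [← smul_sub, hn])⟩

/-- **a section over a principal open extends after multiplication by a power** -/
theorem exists_pow_smul_eq_res (hM : M.IsInvertible) {U : X.Opens} (hU : IsAffineOpen U)
    (f : Γ(X, U)) (s : Γ(M, X.basicOpen f)) :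
    ∃ (n : ℕ) (t : Γ(M, U)), res M (X.basicOpen_le f) t = rs (X.basicOpen_le f) f ^ n • s := by
  obtain ⟨N, g, σ, hσ, hg⟩ := exists_finite_gen hM hU
  -- opens
  have hle : ∀ i, X.basicOpen (rs (X.basicOpen_le (g i)) f) ≤ X.basicOpen (g i) :=
    fun i => X.basicOpen_le _
  have hle' : ∀ i, X.basicOpen (rs (X.basicOpen_le (g i)) f) ≤ X.basicOpen f := by
    intro i
    rw [basicOpen_rs]
    exact inf_le_right
  have h1 : ∀ i, ∃ n : ℕ, ∀ m ≥ n, ∃ t : Γ(M, X.basicOpen (g i)), res M (hle i) t =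
      rs (hle i) (rs (X.basicOpen_le (g i)) f) ^ m • res M (hle' i) s := by
    intro i
    obtain ⟨b, hb⟩ := (hσ i).exists_smul (hle i) (res M (hle' i) s)
    obtain ⟨n, c, hc⟩ := exists_pow_mul_eq_rs (hU.basicOpen (g i)) (rs (X.basicOpen_le (g i)) f) b
    refine ⟨n, fun m hm => ⟨rs (X.basicOpen_le (g i)) f ^ (m - n) • c • σ i, ?_⟩⟩
    rw [res_smul, res_smul, hc, hb, ← mul_smul, ← mul_smul, map_pow, ← mul_assoc, ← pow_add,
      Nat.sub_add_cancel hm]
  choose n hn using h1
  obtain ⟨n₀, hn₀⟩ : ∃ n₀, n₀ = ∑ i, n i := ⟨_, rfl⟩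
  have h2 : ∀ i, n i ≤ n₀ := fun i => by
    rw [hn₀]
    exact Finset.single_le_sum (f := n) (fun _ _ => Nat.zero_le _) (Finset.mem_univ i)
  choose t ht using fun i => hn i n₀ (h2 i)
  -- the differences are killed by a power of `f`
  have h3 : ∀ i j, ∃ k : ℕ, ∀ m ≥ k,
      rs ((inf_le_left : X.basicOpen (g i) ⊓ X.basicOpen (g j) ≤ _).trans
        (X.basicOpen_le (g i))) f ^ m •
        res M (inf_le_left : X.basicOpen (g i) ⊓ X.basicOpen (g j) ≤ _) (t i) =
      rs ((inf_le_left : X.basicOpen (g i) ⊓ X.basicOpen (g j) ≤ _).trans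
        (X.basicOpen_le (g i))) f ^ m •
        res M (inf_le_right : X.basicOpen (g i) ⊓ X.basicOpen (g j) ≤ _) (t j) := by
    intro i j
    have hW : IsAffineOpen (X.basicOpen (g i) ⊓ X.basicOpen (g j)) := by
      rw [← X.basicOpen_mul]
      exact hU.basicOpen _
    have hWU : X.basicOpen (g i) ⊓ X.basicOpen (g j) ≤ U := inf_le_left.trans (X.basicOpen_le (g i))
    have hi : X.basicOpen (rs hWU f) ≤ X.basicOpen (rs (X.basicOpen_le (g i)) f) := by
      rw [basicOpen_rs, basicOpen_rs]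
      exact inf_le_inf_right _ inf_le_left
    have hj : X.basicOpen (rs hWU f) ≤ X.basicOpen (rs (X.basicOpen_le (g j)) f) := by
      rw [basicOpen_rs, basicOpen_rs]
      exact inf_le_inf_right _ inf_le_right
    obtain ⟨k, hk⟩ := exists_pow_smul_eq hM hW (rs hWU f)
      (res M (inf_le_left : X.basicOpen (g i) ⊓ X.basicOpen (g j) ≤ _) (t i))
      (res M (inf_le_right : X.basicOpen (g i) ⊓ X.basicOpen (g j) ≤ _) (t j)) (by
        have e1 := congrArg (res M hi) (ht i)
        have e2 := congrArg (res M hj) (ht j)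
        rw [res_res, res_smul, res_res, map_pow, rs_rs, rs_rs] at e1 e2
        rw [res_res, res_res, e1, e2])
    refine ⟨k, fun m hm => ?_⟩
    rw [← Nat.sub_add_cancel hm, pow_add, mul_smul, mul_smul, hk]
  choose k hk using h3
  obtain ⟨k₀, hk₀⟩ : ∃ k₀, k₀ = ∑ i, ∑ j, k i j := ⟨_, rfl⟩
  have h4 : ∀ i j, k i j ≤ k₀ := fun i j => by
    rw [hk₀]
    exact (Finset.single_le_sum (f := k i) (fun _ _ => Nat.zero_le _) (Finset.mem_univ j)).trans
      (Finset.single_le_sum (f := fun i => ∑ j, k i j) (fun _ _ => Nat.zero_le _)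
        (Finset.mem_univ i))
  obtain ⟨T, hT, -⟩ := existsUnique_glue M (fun i => X.basicOpen (g i)) U
    (fun i => X.basicOpen_le (g i)) (le_iSup_basicOpen hU g hg)
    (fun i => rs (X.basicOpen_le (g i)) f ^ k₀ • t i) (fun i j => by
      rw [res_smul, res_smul, map_pow, map_pow, rs_rs, rs_rs]
      exact hk i j k₀ (h4 i j))
  refine ⟨k₀ + n₀, T, ?_⟩
  refine eq_of_locally M (fun i => X.basicOpen (rs (X.basicOpen_le (g i)) f)) (X.basicOpen f)
    hle' ?_ _ _ fun i => ?_
  · intro x hx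
    obtain ⟨i, hi⟩ := Opens.mem_iSup.mp (le_iSup_basicOpen hU g hg (X.basicOpen_le f hx))
    refine Opens.mem_iSup.mpr ⟨i, ?_⟩
    rw [basicOpen_rs]
    exact ⟨hi, hx⟩
  · rw [res_res, res_smul, map_pow, rs_rs]
    have e1 := congrArg (res M (hle i)) (hT i)
    rw [res_res, res_smul, map_pow, rs_rs, ht i, rs_rs, ← mul_smul, ← pow_add] at e1
    exact e1

end

end Fermat.Agent.Jac
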