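import Mathlib

set_option autoImplicit false
set_option linter.unusedSectionVars false
set_option linter.style.haveILetI false

/-!
# Invertible modules: elementary criteria
-/

open TensorProduct

namespace Fermat.Agent.Jac

section trace

variable {S N : Type*} [CommRing S] [AddCommGroup N] [Module S N]

/-- **Criterion.** If the values of the linear forms generate the unit ideal and all linear forms
satisfy `φ m • n = φ n • m`, then the module is invertible. -/
theorem invertible_of_trace
    (h1 : Ideal.span {s : S | ∃ (φ : Module.Dual S N) (m : N), φ m = s} = ⊤)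
    (h2 : ∀ (φ : Module.Dual S N) (m n : N), φ m • n = φ n • m) : Module.Invertible S N := by
  classical
  -- a finite family
  obtain ⟨ι, _, φ, m, hφm⟩ : ∃ (ι : Type) (_ : Fintype ι) (φ : ι → Module.Dual S N) (m : ι → N),
      ∑ i, φ i (m i) = 1 := by
    have h3 : (1 : S) ∈ Submodule.span S {s : S | ∃ (φ : Module.Dual S N) (m : N), φ m = s} := by
      have : (1 : S) ∈ Ideal.span {s : S | ∃ (φ : Module.Dual S N) (m : N), φ m = s} :=
        h1 ▸ Submodule.mem_top
      exact this
    obtain ⟨n, c, g, hg⟩ := Submodule.mem_span_set'.mp h3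
    choose φ m hm using fun i => (g i).2
    refine ⟨Fin n, inferInstance, fun i => c i • φ i, m, ?_⟩
    rw [← hg]
    refine Finset.sum_congr rfl fun i _ => ?_
    rw [LinearMap.smul_apply, hm i]
  -- products of forms
  have h4 : ∀ (φ ψ : Module.Dual S N) (n : N), φ n • ψ = ψ n • φ := by
    intro φ ψ n
    ext m'
    rw [LinearMap.smul_apply, LinearMap.smul_apply, smul_eq_mul, smul_eq_mul]
    have h5 : ψ (φ n • m') = ψ (φ m' • n) := by rw [h2 φ n m']
    rw [map_smul, map_smul, smul_eq_mul, smul_eq_mul] at h5
    rw [h5, mul_comm]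
  constructor
  constructor
  · -- injective
    rw [injective_iff_map_eq_zero]
    intro t ht
    -- `t = Σ_i φ_i ⊗ (contract) ...`
    have key : ∀ t : Module.Dual S N ⊗[S] N,
        t = ∑ i, (contractLeft S N t • φ i) ⊗ₜ[S] m i := by
      intro t
      induction t using TensorProduct.induction_on with
      | zero => simp
      | tmul ψ n =>
        rw [contractLeft_apply]
        have h6 : ψ ⊗ₜ[S] n = ∑ i, ψ ⊗ₜ[S] (φ i (m i) • n) := by
          rw [← TensorProduct.tmul_sum, ← Finset.sum_smul, hφm, one_smul]
        rw [h6]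
        refine Finset.sum_congr rfl fun i _ => ?_
        rw [h2 (φ i) (m i) n, TensorProduct.tmul_smul, TensorProduct.smul_tmul', h4 (φ i) ψ n]
      | add x y hx hy =>
        rw [map_add]
        conv_lhs => rw [hx, hy]
        rw [← Finset.sum_add_distrib]
        refine Finset.sum_congr rfl fun i _ => ?_
        rw [add_smul, TensorProduct.add_tmul]
    rw [key t, ht]
    simp
  · -- surjective
    intro s
    refine ⟨∑ i, (s • φ i) ⊗ₜ[S] m i, ?_⟩
    rw [map_sum]
    simp only [contractLeft_apply, LinearMap.smul_apply, smul_eq_mul]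
    rw [← Finset.mul_sum, hφm, mul_one]

end trace

section rank

variable {A S N : Type*} [CommRing A] [CommRing S] [Algebra A S] [AddCommGroup N] [Module A N]
  [Module S N] [IsScalarTower A S N]

/-- A linear form with value `f ^ 2` at `v` and the exchange identity up to `f ^ 2`, from a map
`S → N` given by `v` with determinant `f`. -/
theorem exists_form {ι : Type*} [Fintype ι] [DecidableEq ι] (eS : Module.Basis ι A S)
    (eN : Module.Basis ι A N) (v : N) :
    ∃ β : N →ₗ[A] S, (∀ s : S, β (s • v) =
        (LinearMap.toMatrix eS eN ((LinearMap.toSpanSingleton S N v).restrictScalars A)).det • s) ∧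
      ∀ n : N, β n • v =
        (LinearMap.toMatrix eS eN ((LinearMap.toSpanSingleton S N v).restrictScalars A)).det • n := by
  classical
  set α : S →ₗ[A] N := (LinearMap.toSpanSingleton S N v).restrictScalars A with hα
  set M := LinearMap.toMatrix eS eN α with hM
  refine ⟨Matrix.toLin eN eS M.adjugate, fun s => ?_, fun n => ?_⟩
  · have h1 : s • v = α s := rfl
    rw [h1, ← LinearMap.comp_apply]
    have h2 : (Matrix.toLin eN eS M.adjugate).comp α = M.det • LinearMap.id := by
      have h3 : α = Matrix.toLin eS eN M := by rw [hM, Matrix.toLin_toMatrix]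
      rw [h3, ← Matrix.toLin_mul, Matrix.adjugate_mul, map_smul, Matrix.toLin_one]
    rw [h2]
    rfl
  · have h1 : Matrix.toLin eN eS M.adjugate n • v = α (Matrix.toLin eN eS M.adjugate n) := rfl
    rw [h1, ← LinearMap.comp_apply]
    have h2 : α.comp (Matrix.toLin eN eS M.adjugate) = M.det • LinearMap.id := by
      have h3 : α = Matrix.toLin eS eN M := by rw [hM, Matrix.toLin_toMatrix]
      rw [h3, ← Matrix.toLin_mul, Matrix.mul_adjugate, map_smul, Matrix.toLin_one]
    rw [h2]
    rfl

/-- the exchange identity up to the square of the determinant -/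
theorem sq_det_smul_exchange {ι : Type*} [Fintype ι] [DecidableEq ι] (eS : Module.Basis ι A S)
    (eN : Module.Basis ι A N) (v : N) (φ : Module.Dual S N) (m n : N) :
    (LinearMap.toMatrix eS eN ((LinearMap.toSpanSingleton S N v).restrictScalars A)).det ^ 2 •
      (φ m • n - φ n • m) = 0 := by
  obtain ⟨β, hβ1, hβ2⟩ := exists_form eS eN v
  set D := (LinearMap.toMatrix eS eN ((LinearMap.toSpanSingleton S N v).restrictScalars A)).det
  have h2 : ∀ a : A, ∀ s : S, ∀ x : N, a • s • x = s • a • x := fun a s x => smul_comm a s x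
  have e1 : D • φ m = β m * φ v := by
    have h3 : φ (D • m) = D • φ m := by
      rw [← IsScalarTower.algebraMap_smul S D m, map_smul, smul_eq_mul, Algebra.smul_def]
    rw [← h3, ← hβ2 m, map_smul, smul_eq_mul]
  have e2 : D • φ n = β n * φ v := by
    have h3 : φ (D • n) = D • φ n := by
      rw [← IsScalarTower.algebraMap_smul S D n, map_smul, smul_eq_mul, Algebra.smul_def]
    rw [← h3, ← hβ2 n, map_smul, smul_eq_mul]
  have e3 : D • m = β m • v := (hβ2 m).symm
  have e4 : D • n = β n • v := (hβ2 n).symm
  rw [pow_two, mul_smul, smul_sub, smul_sub]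
  have e5 : D • D • φ m • n = (D • φ m) • (D • n) := by
    rw [smul_assoc, h2 D (φ m) n]
  have e6 : D • D • φ n • m = (D • φ n) • (D • m) := by
    rw [smul_assoc, h2 D (φ n) m]
  rw [e5, e6, e1, e2, e3, e4, smul_smul, smul_smul]
  rw [show β m * φ v * β n = β n * φ v * β m by ring, sub_self]

/-- **Criterion.** `S` and `N` free over `A` of the same finite rank, and `N` is generated by one
element modulo every maximal ideal of `A`: then `N` is an invertible `S`-module. -/
theorem invertible_of_cyclic_fibres {ι : Type*} [Finite ι] (eS : Module.Basis ι A S)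
    (eN : Module.Basis ι A N)
    (h : ∀ 𝔫 : Ideal A, 𝔫.IsMaximal → ∃ v : N, ∀ n : N, ∃ s : S, n - s • v ∈ 𝔫 • (⊤ : Submodule A N)) :
    Module.Invertible S N := by
  classical
  haveI := Fintype.ofFinite ι
  -- the determinants
  let D : N → A := fun v =>
    (LinearMap.toMatrix eS eN ((LinearMap.toSpanSingleton S N v).restrictScalars A)).det
  have hD : ∀ 𝔫 : Ideal A, 𝔫.IsMaximal → ∃ v : N, D v ∉ 𝔫 := by
    intro 𝔫 h𝔫
    obtain ⟨v, hv⟩ := h 𝔫 h𝔫
    refine ⟨v, fun hmem => ?_⟩
    set α : S →ₗ[A] N := (LinearMap.toSpanSingleton S N v).restrictScalars A with hα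
    -- a right inverse modulo `𝔫`
    choose s hs using fun i : ι => hv (eN i)
    set M := LinearMap.toMatrix eS eN α with hM
    let T : Matrix ι ι A := Matrix.of fun i j => eS.repr (s j) i
    have h1 : ∀ i j, (M * T) i j - (1 : Matrix ι ι A) i j ∈ 𝔫 := by
      intro i j
      have h2 : (M * T) i j = eN.repr (s j • v) i := by
        have h3 : M * T = LinearMap.toMatrix eN eN (α.comp (Matrix.toLin eN eS T)) := by
          rw [LinearMap.toMatrix_comp eN eS eN, LinearMap.toMatrix_toLin]
        rw [h3, LinearMap.toMatrix_apply, LinearMap.comp_apply, Matrix.toLin_self]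
        have h4 : ∑ i, T i j • eS i = s j := by
          have := eS.sum_repr (s j)
          simpa [T] using this
        rw [h4]
        rfl
      have h5 : (1 : Matrix ι ι A) i j = eN.repr (eN j) i := by
        rw [Module.Basis.repr_self, Matrix.one_apply, Finsupp.single_apply]
        by_cases hij : i = j
        · rw [if_pos hij, if_pos hij.symm]
        · rw [if_neg hij, if_neg (Ne.symm hij)]
      rw [h2, h5, ← Finsupp.sub_apply, ← map_sub]
      have h6 := hs j
      have h7 : eN.coord i (s j • v - eN j) ∈ 𝔫 := by
        have h8 : s j • v - eN j ∈ 𝔫 • (⊤ : Submodule A N) := by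
          rw [← neg_sub]; exact Submodule.neg_mem _ h6
        have h9 : Submodule.map (eN.coord i) (𝔫 • (⊤ : Submodule A N)) ≤ 𝔫 := by
          rw [Submodule.map_smul'']
          intro x hx
          refine Submodule.smul_induction_on hx ?_ ?_
          · intro a ha b _
            exact Ideal.mul_mem_right _ _ ha
          · intro x y hx hy
            exact 𝔫.add_mem hx hy
        exact h9 (Submodule.mem_map_of_mem h8)
      simpa using h7
    -- determinants modulo `𝔫`
    let q := Ideal.Quotient.mk 𝔫
    have h10 : (M * T).map q = 1 := by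
      ext i j
      rw [Matrix.map_apply]
      have := h1 i j
      rw [← Ideal.Quotient.eq] at this
      rw [this, Matrix.one_apply, Matrix.one_apply]
      split_ifs
      · exact map_one _
      · exact map_zero _
    have h11 : q (M.det * T.det) = 1 := by
      rw [← Matrix.det_mul, RingHom.map_det, RingHom.mapMatrix_apply, h10, Matrix.det_one]
    rw [map_mul, (Ideal.Quotient.eq_zero_iff_mem).mpr hmem, zero_mul] at h11
    haveI := Ideal.Quotient.nontrivial_iff.mpr h𝔫.ne_top
    exact zero_ne_one h11
  -- the ideal generated by the squares of the determinants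
  have htop : Ideal.span (Set.range fun v : N => D v ^ 2) = ⊤ := by
    by_contra hne
    obtain ⟨𝔫, h𝔫, hle⟩ := Ideal.exists_le_maximal _ hne
    obtain ⟨v, hv⟩ := hD 𝔫 h𝔫
    exact hv (h𝔫.isPrime.mem_of_pow_mem 2 (hle (Ideal.subset_span ⟨v, rfl⟩)))
  -- the forms
  have hform : ∀ v : N, ∃ φ : Module.Dual S N, φ v = algebraMap A S (D v ^ 2) := by
    intro v
    obtain ⟨β, hβ1, hβ2⟩ := exists_form eS eN v
    refine ⟨{ toFun := fun n => D v • β n
              map_add' := fun a b => by rw [map_add, smul_add]
              map_smul' := fun s n => ?_ }, ?_⟩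
    · -- `f β (s n) = s f β n`
      have h1 : (β (s • n) - s * β n) • v = 0 := by
        rw [sub_smul, hβ2, mul_smul, hβ2, smul_comm, sub_self]
      have h2 := hβ1 (β (s • n) - s * β n)
      rw [h1, map_zero] at h2
      have h3 : D v • β (s • n) = D v • (s * β n) := by
        rw [← sub_eq_zero, ← smul_sub]; exact h2.symm
      rw [RingHom.id_apply, h3, smul_eq_mul, Algebra.mul_smul_comm]
    · have h1 : β v = D v • (1 : S) := by
        have := hβ1 1
        rwa [one_smul] at this
      change D v • β v = _
      rw [h1, smul_smul, Algebra.algebraMap_eq_smul_one, pow_two]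
  refine invertible_of_trace ?_ ?_
  · rw [Ideal.eq_top_iff_one]
    have h1 : (1 : A) ∈ Ideal.span (Set.range fun v : N => D v ^ 2) := htop ▸ Submodule.mem_top
    have h2 := Ideal.mem_map_of_mem (algebraMap A S) h1
    rw [map_one, Ideal.map_span] at h2
    refine Ideal.span_mono ?_ h2
    rintro _ ⟨_, ⟨v, rfl⟩, rfl⟩
    obtain ⟨φ, hφ⟩ := hform v
    exact ⟨φ, v, hφ⟩
  · intro φ m n
    -- killed by all `D v ^ 2`
    have h1 : ∀ v : N, D v ^ 2 • (φ m • n - φ n • m) = 0 := fun v =>
      sq_det_smul_exchange eS eN v φ m n
    have h2 : ∀ a ∈ Ideal.span (Set.range fun v : N => D v ^ 2), a • (φ m • n - φ n • m) = 0 := by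
      intro a ha
      refine Submodule.span_induction (p := fun a _ => a • (φ m • n - φ n • m) = 0) ?_ ?_ ?_ ?_ ha
      · rintro _ ⟨v, rfl⟩
        exact h1 v
      · exact zero_smul _ _
      · intro a b _ _ ha hb
        rw [add_smul, ha, hb, add_zero]
      · intro c a _ ha
        rw [smul_assoc, ha, smul_zero]
    have h3 := h2 1 (htop ▸ Submodule.mem_top)
    rw [one_smul, sub_eq_zero] at h3
    exact h3

end rank

end Fermat.Agent.Jac
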