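import Fermat.Agent.Jac.PicC

/-!
# The Picard group of a scheme, as the group of classes of pointed cocycles
-/

set_option autoImplicit false

universe u

open CategoryTheory CategoryTheory.Limits AlgebraicGeometry TopologicalSpace Opposite

namespace Fermat.Agent.Jac

variable {X Y Z : Scheme.{u}}

namespace CocOn

variable {ι κ : Type u}

/-- shrinking a covering does not change the sheaf -/
theorem iso_of_le {c d : CocOn X ι} (hU : ∀ i, d.U i ≤ c.U i)
    (ht : ∀ i j (W : X.Opens) (hi : W ≤ d.U i) (hj : W ≤ d.U j),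
      d.t i j hi hj = c.t i j (hi.trans (hU i)) (hj.trans (hU j))) :
    ∃ e : d.toMod ≅ c.toMod, ∀ i, ap e.hom (d.U i) (d.gen i) = res c.toMod (hU i) (c.gen i) := by
  refine d.exists_iso (fun i => res c.toMod (hU i) (c.gen i)) (fun i => (c.isGen_gen i).res _) ?_
  intro i j
  rw [res_res, res_res, ht]
  exact c.res_gen i j _ _

/-- reindexing a covering does not change the sheaf -/
@[reducible] noncomputable def reindex (c : CocOn X ι) (σ : κ → ι) (h : ⨆ k, c.U (σ k) = ⊤) : CocOn X κ where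
  U k := c.U (σ k)
  cover := h
  g i j := c.g (σ i) (σ j)
  g_self i := c.g_self _
  g_mul i j k W hi hj hk := c.g_mul _ _ _ W hi hj hk

theorem reindex_iso (c : CocOn X ι) (σ : κ → ι) (h : ⨆ k, c.U (σ k) = ⊤) :
    ∃ e : (c.reindex σ h).toMod ≅ c.toMod,
      ∀ k, ap e.hom (c.U (σ k)) ((c.reindex σ h).gen k) = c.gen (σ k) := by
  refine (c.reindex σ h).exists_iso (fun k => c.gen (σ k)) (fun k => c.isGen_gen (σ k)) ?_
  intro i j
  exact c.res_gen (σ i) (σ j) _ _

/-- the product of two cocycles -/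
@[reducible] noncomputable def mul (c d : CocOn X ι) (h : ⨆ i, c.U i ⊓ d.U i = ⊤) : CocOn X ι where
  U i := c.U i ⊓ d.U i
  cover := h
  g i j := c.t i j (inf_le_left.trans inf_le_left) (inf_le_right.trans inf_le_left) *
    d.t i j (inf_le_left.trans inf_le_right) (inf_le_right.trans inf_le_right)
  g_self i := by rw [t_self, t_self, one_mul]
  g_mul i j k W hi hj hk := by
    simp only [map_mul, rs_t]
    rw [← c.t_mul i j k (hi.trans inf_le_left) (hj.trans inf_le_left) (hk.trans inf_le_left),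
      ← d.t_mul i j k (hi.trans inf_le_right) (hj.trans inf_le_right) (hk.trans inf_le_right)]
    ring

theorem mul_t (c d : CocOn X ι) (h : ⨆ i, c.U i ⊓ d.U i = ⊤) (i j : ι) {W : X.Opens}
    (hi : W ≤ c.U i ⊓ d.U i) (hj : W ≤ c.U j ⊓ d.U j) :
    (c.mul d h).t i j hi hj = c.t i j (hi.trans inf_le_left) (hj.trans inf_le_left) *
      d.t i j (hi.trans inf_le_right) (hj.trans inf_le_right) := by
  change rs _ (_ * _) = _
  rw [map_mul, rs_t, rs_t]

/-- the inverse cocycle -/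
@[reducible] noncomputable def inv (c : CocOn X ι) : CocOn X ι where
  U := c.U
  cover := c.cover
  g i j := c.t j i inf_le_right inf_le_left
  g_self i := by rw [t_self]
  g_mul i j k W hi hj hk := by
    simp only [rs_t]
    rw [mul_comm, t_mul]

theorem inv_t (c : CocOn X ι) (i j : ι) {W : X.Opens} (hi : W ≤ c.U i) (hj : W ≤ c.U j) :
    c.inv.t i j hi hj = c.t j i hj hi := by
  change rs (le_inf hi hj) (c.t j i (inf_le_right : c.U i ⊓ c.U j ≤ c.U j) inf_le_left) = _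
  rw [rs_t]

/-- products of isomorphic cocycles are isomorphic -/
noncomputable def IsoData.mul {c d : CocOn X ι} {c' d' : CocOn X κ} (D : IsoData c c')
    (E : IsoData d d') (h : ⨆ i, c.U i ⊓ d.U i = ⊤) (h' : ⨆ i, c'.U i ⊓ d'.U i = ⊤) :
    IsoData (c.mul d h) (c'.mul d' h') where
  a i k := rs (inf_le_inf inf_le_left inf_le_left) (D.a i k) *
    rs (inf_le_inf inf_le_right inf_le_right) (E.a i k)
  isUnit i k := ((D.isUnit i k).map _).mul ((E.isUnit i k).map _)
  left i j k W hi hj hk := by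
    rw [mul_t, map_mul, map_mul]
    simp only [rs_rs]
    rw [← D.left i j k W (hi.trans inf_le_left) (hj.trans inf_le_left) (hk.trans inf_le_left),
      ← E.left i j k W (hi.trans inf_le_right) (hj.trans inf_le_right) (hk.trans inf_le_right)]
    ring
  right i k l W hi hk hl := by
    rw [mul_t, map_mul, map_mul]
    simp only [rs_rs]
    rw [← D.right i k l W (hi.trans inf_le_left) (hk.trans inf_le_left) (hl.trans inf_le_left),
      ← E.right i k l W (hi.trans inf_le_right) (hk.trans inf_le_right) (hl.trans inf_le_right)]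
    ring

end CocOn

/-- A pointed cocycle: the covering is indexed by the points. -/
structure PCoc (X : Scheme.{u}) extends CocOn X X where
  mem : ∀ x, x ∈ U x

namespace PCoc

theorem iSup_eq_top {U : X → X.Opens} (h : ∀ x, x ∈ U x) : ⨆ x, U x = ⊤ := by
  rw [eq_top_iff]
  intro x _
  exact Opens.mem_iSup.mpr ⟨x, h x⟩

noncomputable instance : One (PCoc X) where
  one :=
    { U := fun _ => ⊤
      cover := iSup_eq_top fun _ => trivial
      g := fun _ _ => 1
      g_self := fun _ => rfl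
      g_mul := fun _ _ _ _ _ _ _ => by simp
      mem := fun _ => trivial }

noncomputable instance : Mul (PCoc X) where
  mul c d :=
    { toCocOn := c.toCocOn.mul d.toCocOn (iSup_eq_top fun x => ⟨c.mem x, d.mem x⟩)
      mem := fun x => ⟨c.mem x, d.mem x⟩ }

noncomputable instance : Inv (PCoc X) where
  inv c :=
    { toCocOn := c.toCocOn.inv
      mem := c.mem }

theorem mul_U (c d : PCoc X) (x : X) : (c * d).U x = c.U x ⊓ d.U x := rfl

theorem mul_t (c d : PCoc X) (i j : X) {W : X.Opens}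
    (hi : W ≤ c.U i ⊓ d.U i) (hj : W ≤ c.U j ⊓ d.U j) :
    (c * d).t i j hi hj = c.t i j (hi.trans inf_le_left) (hj.trans inf_le_left) *
      d.t i j (hi.trans inf_le_right) (hj.trans inf_le_right) :=
  CocOn.mul_t c.toCocOn d.toCocOn _ i j hi hj

theorem one_t (i j : X) {W : X.Opens} (hi : W ≤ ⊤) (hj : W ≤ ⊤) :
    (1 : PCoc X).t i j hi hj = 1 := map_one _

theorem inv_t (c : PCoc X) (i j : X) {W : X.Opens} (hi : W ≤ c.U i) (hj : W ≤ c.U j) :
    (c⁻¹).t i j hi hj = c.t j i hj hi := CocOn.inv_t c.toCocOn i j hi hj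

/-- isomorphism of the associated sheaves -/
def Rel (c d : PCoc X) : Prop := Nonempty (c.toMod ≅ d.toMod)

theorem rel_iff (c d : PCoc X) : Rel c d ↔ Nonempty (CocOn.IsoData c.toCocOn d.toCocOn) :=
  CocOn.nonempty_iso_iff

instance setoid (X : Scheme.{u}) : Setoid (PCoc X) where
  r := Rel
  iseqv := ⟨fun _ => ⟨Iso.refl _⟩, fun ⟨i⟩ => ⟨i.symm⟩, fun ⟨i⟩ ⟨j⟩ => ⟨i ≪≫ j⟩⟩

theorem Rel.symm {c d : PCoc X} (h : Rel c d) : Rel d c := h.map Iso.symm

theorem Rel.trans {c d e : PCoc X} (h : Rel c d) (h' : Rel d e) : Rel c e := by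
  obtain ⟨i⟩ := h
  obtain ⟨j⟩ := h'
  exact ⟨i ≪≫ j⟩

theorem rel_of_le {c d : PCoc X} (hU : ∀ i, d.U i ≤ c.U i)
    (ht : ∀ i j (W : X.Opens) (hi : W ≤ d.U i) (hj : W ≤ d.U j),
      d.t i j hi hj = c.t i j (hi.trans (hU i)) (hj.trans (hU j))) : Rel c d :=
  ⟨(CocOn.iso_of_le hU ht).choose.symm⟩

theorem Rel.mul {c d c' d' : PCoc X} (h : Rel c c') (h' : Rel d d') : Rel (c * d) (c' * d') := by
  rw [rel_iff] at h h' ⊢
  obtain ⟨D⟩ := h
  obtain ⟨E⟩ := h'
  exact ⟨D.mul E _ _⟩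

theorem rel_mul_inv (d : PCoc X) : Rel (d * d⁻¹) 1 := by
  refine Rel.symm (rel_of_le (fun _ => le_top) ?_)
  intro i j W hi hj
  rw [mul_t, inv_t, one_t]
  exact d.t_symm i j _ _

theorem rel_mul_one (d : PCoc X) : Rel (d * 1) d := by
  refine Rel.symm (rel_of_le (fun _ => inf_le_left) ?_)
  intro i j W hi hj
  rw [mul_t, one_t, mul_one]

theorem rel_one_mul (d : PCoc X) : Rel (1 * d) d := by
  refine Rel.symm (rel_of_le (fun _ => inf_le_right) ?_)
  intro i j W hi hj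
  rw [mul_t, one_t, one_mul]

theorem rel_assoc (a b c : PCoc X) : Rel (a * b * c) (a * (b * c)) := by
  refine rel_of_le (fun i => ?_) ?_
  · change a.U i ⊓ (b.U i ⊓ c.U i) ≤ (a.U i ⊓ b.U i) ⊓ c.U i
    exact (inf_assoc _ _ _).symm.le
  · intro i j W hi hj
    rw [mul_t, mul_t, mul_t, mul_t, mul_assoc]

theorem rel_comm (a b : PCoc X) : Rel (a * b) (b * a) := by
  refine rel_of_le (fun i => ?_) ?_
  · change b.U i ⊓ a.U i ≤ a.U i ⊓ b.U i
    exact (inf_comm _ _).le
  · intro i j W hi hj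
    rw [mul_t, mul_t, mul_comm]

theorem Rel.refl (c : PCoc X) : Rel c c := ⟨Iso.refl _⟩

theorem Rel.inv {c c' : PCoc X} (h : Rel c c') : Rel c⁻¹ c'⁻¹ := by
  have h1 : Rel c⁻¹ (c⁻¹ * (c' * c'⁻¹)) :=
    (rel_mul_one _).symm.trans ((Rel.refl _).mul (rel_mul_inv c').symm)
  have h2 : Rel (c⁻¹ * (c' * c'⁻¹)) (c⁻¹ * (c * c'⁻¹)) :=
    (Rel.refl _).mul (h.symm.mul (Rel.refl _))
  have h3 : Rel (c⁻¹ * (c * c'⁻¹)) ((c * c⁻¹) * c'⁻¹) :=
    (rel_assoc _ _ _).symm.trans ((rel_comm _ _).mul (Rel.refl _))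
  have h4 : Rel ((c * c⁻¹) * c'⁻¹) c'⁻¹ :=
    ((rel_mul_inv c).mul (Rel.refl _)).trans (rel_one_mul _)
  exact h1.trans (h2.trans (h3.trans h4))

end PCoc

/-- The Picard group of a scheme. -/
def PicC (X : Scheme.{u}) : Type u := Quotient (PCoc.setoid X)

namespace PicC

/-- the class of a cocycle -/
def mk (c : PCoc X) : PicC X := Quotient.mk _ c

theorem mk_eq_mk {c d : PCoc X} : mk c = mk d ↔ Nonempty (c.toMod ≅ d.toMod) := Quotient.eq

theorem mk_surjective : Function.Surjective (mk (X := X)) := Quotient.mk_surjective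

noncomputable instance : One (PicC X) := ⟨mk 1⟩
noncomputable instance : Mul (PicC X) :=
  ⟨Quotient.map₂ (· * ·) fun _ _ h _ _ h' => PCoc.Rel.mul h h'⟩
noncomputable instance : Inv (PicC X) := ⟨Quotient.map (·⁻¹) fun _ _ h => PCoc.Rel.inv h⟩

theorem mk_mul (c d : PCoc X) : mk (c * d) = mk c * mk d := rfl
theorem mk_one : mk (1 : PCoc X) = 1 := rfl
theorem mk_inv (c : PCoc X) : mk c⁻¹ = (mk c)⁻¹ := rfl

noncomputable instance : CommGroup (PicC X) where
  mul_assoc a b c := by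
    obtain ⟨a, rfl⟩ := mk_surjective a
    obtain ⟨b, rfl⟩ := mk_surjective b
    obtain ⟨c, rfl⟩ := mk_surjective c
    exact Quotient.sound (PCoc.rel_assoc a b c)
  one_mul a := by
    obtain ⟨a, rfl⟩ := mk_surjective a
    exact Quotient.sound (PCoc.rel_one_mul a)
  mul_one a := by
    obtain ⟨a, rfl⟩ := mk_surjective a
    exact Quotient.sound (PCoc.rel_mul_one a)
  inv_mul_cancel a := by
    obtain ⟨a, rfl⟩ := mk_surjective a
    exact Quotient.sound ((PCoc.rel_comm _ _).trans (PCoc.rel_mul_inv a))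
  mul_comm a b := by
    obtain ⟨a, rfl⟩ := mk_surjective a
    obtain ⟨b, rfl⟩ := mk_surjective b
    exact Quotient.sound (PCoc.rel_comm a b)

/-- the class of an invertible sheaf -/
noncomputable def cls (M : X.Modules) (hM : M.IsInvertible) : PicC X :=
  mk ⟨(exists_coc hM).choose, (exists_coc hM).choose_spec.choose⟩

theorem cls_spec {M : X.Modules} (hM : M.IsInvertible) (c : PCoc X) :
    cls M hM = mk c ↔ Nonempty (M ≅ c.toMod) := by
  obtain ⟨e⟩ := (exists_coc hM).choose_spec.choose_spec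
  rw [cls, mk_eq_mk]
  constructor
  · rintro ⟨e'⟩
    exact ⟨e ≪≫ e'⟩
  · rintro ⟨e'⟩
    exact ⟨e.symm ≪≫ e'⟩

theorem cls_eq_cls {M N : X.Modules} (hM : M.IsInvertible) (hN : N.IsInvertible) :
    cls M hM = cls N hN ↔ Nonempty (M ≅ N) := by
  obtain ⟨c, hc⟩ := mk_surjective (cls N hN)
  rw [← hc, cls_spec]
  obtain ⟨e⟩ := (cls_spec hN c).1 hc.symm
  constructor
  · rintro ⟨e'⟩
    exact ⟨e' ≪≫ e.symm⟩
  · rintro ⟨e'⟩
    exact ⟨e' ≪≫ e⟩

theorem cls_toMod (c : PCoc X) : cls c.toMod (c.isInvertible_toMod) = mk c :=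
  (cls_spec _ c).2 ⟨Iso.refl _⟩

theorem exists_cls (p : PicC X) : ∃ (M : X.Modules) (hM : M.IsInvertible), cls M hM = p := by
  obtain ⟨c, rfl⟩ := mk_surjective p
  exact ⟨_, _, cls_toMod c⟩

theorem cls_unit (h : (unitMod X).IsInvertible) : cls (unitMod X) h = 1 := by
  rw [← mk_one, cls_spec]
  have h1 := exists_iso_of_gen (M := (1 : PCoc X).toMod) (N := unitMod X) (1 : PCoc X).cover
    (fun i => (1 : PCoc X).isGen_gen i) (fun _ => isGen_one _)
    ((1 : PCoc X).compat_gen _ (fun i j => by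
      rw [PCoc.one_t, one_smul]))
  exact ⟨h1.choose.symm⟩

end PicC

namespace PCoc

/-- the pullback of a pointed cocycle. -/
noncomputable def pullback (f : X ⟶ Y) (c : PCoc Y) : PCoc X where
  toCocOn := (c.toCocOn.pullback f).reindex (fun x : X => f x)
    (iSup_eq_top (U := fun x => f ⁻¹ᵁ c.U (f x)) fun x => c.mem (f x))
  mem x := c.mem (f x)

theorem pullback_t (f : X ⟶ Y) (c : PCoc Y) (x y : X) {W : X.Opens} {V : Y.Opens}
    (hx : V ≤ c.U (f x)) (hy : V ≤ c.U (f y)) (hW : W ≤ f ⁻¹ᵁ V) :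
    (c.pullback f).t x y (hW.trans (pre_mono f hx)) (hW.trans (pre_mono f hy)) =
      rs hW (pf f V (c.t (f x) (f y) hx hy)) := by
  rw [← CocOn.pullback_t]
  exact (CocOn.rs_t (c.toCocOn.pullback f) (f x) (f y) (pre_mono f hx) (pre_mono f hy) hW).symm

theorem pullback_iso (f : X ⟶ Y) (c : PCoc Y) :
    Nonempty ((Scheme.Modules.pullback f).obj c.toMod ≅ (c.pullback f).toMod) := by
  obtain ⟨e, -⟩ := c.toCocOn.exists_pullback_iso f
  obtain ⟨e', -⟩ := (c.toCocOn.pullback f).reindex_iso (fun x : X => f x)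
    (iSup_eq_top (U := fun x => f ⁻¹ᵁ c.U (f x)) fun x => c.mem (f x))
  exact ⟨e ≪≫ e'.symm⟩

theorem Rel.pullback (f : X ⟶ Y) {c d : PCoc Y} (h : Rel c d) :
    Rel (c.pullback f) (d.pullback f) := by
  obtain ⟨e⟩ := h
  obtain ⟨e1⟩ := c.pullback_iso f
  obtain ⟨e2⟩ := d.pullback_iso f
  exact ⟨e1.symm ≪≫ (Scheme.Modules.pullback f).mapIso e ≪≫ e2⟩

theorem rel_pullback_mul (f : X ⟶ Y) (c d : PCoc Y) :
    Rel ((c * d).pullback f) (c.pullback f * d.pullback f) := by
  refine rel_of_le (fun _ => le_rfl) ?_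
  intro i j W hi hj
  have hV : W ≤ f ⁻¹ᵁ ((c.U (f i) ⊓ d.U (f i)) ⊓ (c.U (f j) ⊓ d.U (f j))) := le_inf hi hj
  have h1 := (c * d).pullback_t f i j (V := (c.U (f i) ⊓ d.U (f i)) ⊓ (c.U (f j) ⊓ d.U (f j)))
    inf_le_left inf_le_right hV
  have h2 := c.pullback_t f i j (V := (c.U (f i) ⊓ d.U (f i)) ⊓ (c.U (f j) ⊓ d.U (f j)))
    (inf_le_left.trans inf_le_left) (inf_le_right.trans inf_le_left) hV
  have h3 := d.pullback_t f i j (V := (c.U (f i) ⊓ d.U (f i)) ⊓ (c.U (f j) ⊓ d.U (f j)))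
    (inf_le_left.trans inf_le_right) (inf_le_right.trans inf_le_right) hV
  rw [mul_t] at h1
  rw [mul_t]
  refine Eq.trans ?_ h1.symm
  rw [map_mul, map_mul, ← h2, ← h3]

end PCoc

namespace PicC

/-- pullback of classes -/
noncomputable def pb (f : X ⟶ Y) : PicC Y →* PicC X :=
  MonoidHom.mk' (Quotient.map (fun c => c.pullback f) fun _ _ h => PCoc.Rel.pullback f h)
    fun a b => by
      obtain ⟨a, rfl⟩ := mk_surjective a
      obtain ⟨b, rfl⟩ := mk_surjective b
      exact Quotient.sound (PCoc.rel_pullback_mul f a b)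

theorem pb_mk (f : X ⟶ Y) (c : PCoc Y) : pb f (mk c) = mk (c.pullback f) := rfl

theorem cls_pullback (f : X ⟶ Y) {M : Y.Modules} (hM : M.IsInvertible) :
    cls ((Scheme.Modules.pullback f).obj M) (hM.pullback f) = pb f (cls M hM) := by
  obtain ⟨c, hc⟩ := mk_surjective (cls M hM)
  obtain ⟨e⟩ := (cls_spec hM c).1 hc.symm
  rw [← hc, pb_mk, cls_spec]
  obtain ⟨e'⟩ := c.pullback_iso f
  exact ⟨(Scheme.Modules.pullback f).mapIso e ≪≫ e'⟩

theorem pb_comp (f : X ⟶ Y) (g : Y ⟶ Z) (p : PicC Z) : pb (f ≫ g) p = pb f (pb g p) := by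
  obtain ⟨M, hM, rfl⟩ := exists_cls p
  rw [← cls_pullback, ← cls_pullback, ← cls_pullback, cls_eq_cls]
  exact ⟨((Scheme.Modules.pullbackComp f g).app M).symm⟩

theorem pb_id (p : PicC X) : pb (𝟙 X) p = p := by
  obtain ⟨M, hM, rfl⟩ := exists_cls p
  rw [← cls_pullback, cls_eq_cls]
  exact ⟨(Scheme.Modules.pullbackId X).app M⟩

end PicC

end Fermat.Agent.Jac
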