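import Fermat.Agent.Jac.AffMod
import Fermat.Agent.Jac.PicGrp
import Fermat.Agent.Jac.InvCrit

/-!
# Sections of invertible sheaves over affine opens form invertible modules
-/

set_option autoImplicit false

universe u

open CategoryTheory CategoryTheory.Limits AlgebraicGeometry TopologicalSpace Opposite

namespace Fermat.Agent.Jac

variable {X Y : Scheme.{u}} {M : X.Modules}

theorem isUnit_rs_basicOpen {U : X.Opens} (f : Γ(X, U)) : IsUnit (rs (X.basicOpen_le f) f) :=
  RingedSpace.isUnit_res_basicOpen _ f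

/-- **locally generating sections span** -/
theorem span_eq_top_of_gen (hM : M.IsInvertible) {W : X.Opens} (hW : IsAffineOpen W) {ι : Type*}
    (g : ι → Γ(X, W)) (hg : Ideal.span (Set.range g) = ⊤) (τ : ι → Γ(M, W))
    (hτ : ∀ i, IsGen M (res M (X.basicOpen_le (g i)) (τ i))) :
    Submodule.span Γ(X, W) (Set.range τ) = ⊤ := by
  rw [eq_top_iff]
  intro z _
  refine Submodule.mem_of_span_eq_top_of_smul_pow_mem _ _ hg z ?_
  rintro ⟨_, i, rfl⟩
  obtain ⟨a, ha⟩ := (hτ i).exists_smul le_rfl (res M (X.basicOpen_le (g i)) z)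
  rw [res_refl] at ha
  obtain ⟨n, b, hb⟩ := exists_pow_mul_eq_rs hW (g i) a
  obtain ⟨m, hm⟩ := exists_pow_smul_eq hM hW (g i) (g i ^ n • z) (b • τ i) (by
    rw [res_smul, res_smul, ha, hb, ← mul_smul, map_pow])
  refine ⟨m + n, ?_⟩
  change (g i) ^ (m + n) • z ∈ _
  rw [pow_add, mul_smul, hm]
  exact Submodule.smul_mem _ _ (Submodule.smul_mem _ _ (Submodule.subset_span ⟨i, rfl⟩))

/-- finitely many global sections which generate locally -/
theorem exists_global_gen (hM : M.IsInvertible) {U : X.Opens} (hU : IsAffineOpen U) :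
    ∃ (n : ℕ) (g : Fin n → Γ(X, U)) (τ : Fin n → Γ(M, U)),
      (∀ i, IsGen M (res M (X.basicOpen_le (g i)) (τ i))) ∧ Ideal.span (Set.range g) = ⊤ := by
  obtain ⟨n, g, s, hs, hg⟩ := exists_finite_gen hM hU
  choose m τ hτ using fun i => exists_pow_smul_eq_res hM hU (g i) (s i)
  refine ⟨n, g, τ, fun i => ?_, hg⟩
  rw [hτ]
  exact (hs i).smul_unit ((isUnit_rs_basicOpen (g i)).pow _)

/-- a linear map between sections over an affine open is compatible with relations over principal
opens -/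
theorem lin_of_rel {N : X.Modules} (hM : M.IsInvertible) {V : X.Opens}
    (hV : IsAffineOpen V) (F : Γ(M, V) →+ Γ(N, V)) (hF : ∀ (r : Γ(X, V)) m, F (r • m) = r • F m)
    (f : Γ(X, V)) (a b : Γ(M, V)) (r : Γ(X, X.basicOpen f))
    (h : res M (X.basicOpen_le f) b = r • res M (X.basicOpen_le f) a) :
    res N (X.basicOpen_le f) (F b) = r • res N (X.basicOpen_le f) (F a) := by
  obtain ⟨n, c, hc⟩ := exists_pow_mul_eq_rs hV f r
  obtain ⟨m, hm⟩ := exists_pow_smul_eq hM hV f (f ^ n • b) (c • a) (by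
    rw [res_smul, res_smul, h, hc, ← mul_smul, map_pow])
  have h1 := congrArg F hm
  rw [hF, hF, hF, hF] at h1
  have h2 := congrArg (res N (X.basicOpen_le f)) h1
  rw [res_smul, res_smul, res_smul, res_smul, hc, map_pow, map_pow] at h2
  have hu := (isUnit_rs_basicOpen f)
  have h3 : rs (X.basicOpen_le f) f ^ (m + n) • res N (X.basicOpen_le f) (F b) =
      rs (X.basicOpen_le f) f ^ (m + n) • (r • res N (X.basicOpen_le f) (F a)) := by
    rw [pow_add, mul_smul, h2, ← mul_smul, ← mul_smul]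
    congr 1
    ring
  exact ((hu.pow (m + n)).smul_left_cancel).1 h3

section pairing

variable {ι : Type u} (c : CocOn X ι)

theorem existsUnique_pair {V : X.Opens} (m : c.Sec V) (φ : c.inv.Sec V) :
    ∃! f : Γ(X, V), ∀ i, rs (inf_le_left : V ⊓ c.U i ≤ V) f = m.1 i * φ.1 i := by
  refine existsUnique_glueO (fun i => V ⊓ c.U i) V (fun _ => inf_le_left)
    (iSup_inf_cover c.cover _) _ ?_
  intro i j
  have hV : (V ⊓ c.U i) ⊓ (V ⊓ c.U j) ≤ V := inf_le_left.trans inf_le_left
  have hi : (V ⊓ c.U i) ⊓ (V ⊓ c.U j) ≤ c.U i := inf_le_left.trans inf_le_right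
  have hj : (V ⊓ c.U i) ⊓ (V ⊓ c.U j) ≤ c.U j := inf_le_right.trans inf_le_right
  have h1 := m.v_eq i j hV hi hj
  have h2 := φ.v_eq i j hV hi hj
  rw [CocOn.inv_t] at h2
  have h3 := c.t_symm i j hi hj
  rw [map_mul, map_mul]
  change m.v i hV hi * φ.v i hV hi = m.v j hV hj * φ.v j hV hj
  rw [h1, h2]
  linear_combination (m.v j hV hj * φ.v j hV hj) * h3

/-- the pairing of a section with a section of the inverse sheaf -/
noncomputable def pair {V : X.Opens} (m : c.Sec V) (φ : c.inv.Sec V) : Γ(X, V) :=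
  (existsUnique_pair c m φ).exists.choose

theorem rs_pair {V : X.Opens} (m : c.Sec V) (φ : c.inv.Sec V) (i : ι) {W : X.Opens}
    (hV : W ≤ V) (hi : W ≤ c.U i) : rs hV (pair c m φ) = m.v i hV hi * φ.v i hV hi := by
  have h := (existsUnique_pair c m φ).exists.choose_spec i
  have h1 := congrArg (rs (le_inf hV hi)) h
  rw [rs_rs, map_mul] at h1
  exact h1

theorem eq_of_charts {V : X.Opens} {a b : Γ(X, V)}
    (h : ∀ i, rs (inf_le_left : V ⊓ c.U i ≤ V) a = rs (inf_le_left : V ⊓ c.U i ≤ V) b) : a = b :=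
  eq_of_locallyO (fun i => V ⊓ c.U i) V (fun _ => inf_le_left) (iSup_inf_cover c.cover _) _ _ h

/-- the linear form on sections attached to a section of the inverse sheaf -/
noncomputable def pairL {V : X.Opens} (φ : c.inv.Sec V) : Γ(c.toMod, V) →ₗ[Γ(X, V)] Γ(X, V) where
  toFun m := pair c m φ
  map_add' m m' := by
    refine eq_of_charts c fun i => ?_
    rw [map_add]
    have h1 := rs_pair c m φ i (inf_le_left : V ⊓ c.U i ≤ V) inf_le_right
    have h2 := rs_pair c m' φ i (inf_le_left : V ⊓ c.U i ≤ V) inf_le_right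
    have h3 := rs_pair c (show c.Sec V from m + m') φ i (inf_le_left : V ⊓ c.U i ≤ V) inf_le_right
    refine h3.trans (Eq.trans ?_ (congrArg₂ (· + ·) h1 h2).symm)
    exact (congrArg (· * _) (CocOn.add_v c m m' i inf_le_left inf_le_right)).trans
      (add_mul _ _ _)
  map_smul' r m := by
    refine eq_of_charts c fun i => ?_
    rw [RingHom.id_apply, smul_eq_mul, map_mul]
    have h1 := rs_pair c m φ i (inf_le_left : V ⊓ c.U i ≤ V) inf_le_right
    have h3 := rs_pair c (show c.Sec V from r • m) φ i (inf_le_left : V ⊓ c.U i ≤ V) inf_le_right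
    refine h3.trans (Eq.trans ?_ (congrArg (_ * ·) h1).symm)
    exact (congrArg (· * _) (CocOn.smul_v c r m i inf_le_left inf_le_right)).trans
      (mul_assoc _ _ _)

theorem pairL_smul {V : X.Opens} (φ : c.inv.Sec V) (m n : Γ(c.toMod, V)) :
    pairL c φ m • n = pairL c φ n • m := by
  apply CocOn.Sec.ext (c := c)
  intro i
  have h1 := CocOn.smul_v c (pairL c φ m) n i (inf_le_left : V ⊓ c.U i ≤ V) inf_le_right
  have h2 := CocOn.smul_v c (pairL c φ n) m i (inf_le_left : V ⊓ c.U i ≤ V) inf_le_right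
  have h3 := rs_pair c m φ i (inf_le_left : V ⊓ c.U i ≤ V) inf_le_right
  have h4 := rs_pair c n φ i (inf_le_left : V ⊓ c.U i ≤ V) inf_le_right
  refine h1.trans (Eq.trans ?_ h2.symm)
  change rs _ (pair c m φ) * _ = rs _ (pair c n φ) * _
  rw [h3, h4]
  change _ * CocOn.Sec.v (c := c) n i _ _ = _ * CocOn.Sec.v (c := c) m i _ _
  ring

theorem isUnit_v_of_gen {V W : X.Opens} (m : Γ(c.toMod, V)) (h : W ≤ V)
    (hm : IsGen c.toMod (res c.toMod h m)) (i : ι) (hi : W ≤ c.U i) :
    IsUnit (CocOn.Sec.v (c := c) m i h hi) := by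
  obtain ⟨a, ha, h1⟩ := hm.exists_unit ((c.isGen_gen i).res hi)
  have h2 := congrArg (fun z : c.Sec W => z.v i le_rfl hi) h1
  have h3 : (CocOn.Sec.v (c := c) (c.resS hi (c.genS i)) i le_rfl hi) =
      a * CocOn.Sec.v (c := c) m i h hi := by
    refine Eq.trans h2 ((CocOn.smul_v c a (c.resS h m) i le_rfl hi).trans ?_)
    rw [rs_refl]
    exact congrArg (a * ·) (CocOn.resS_v c h m i le_rfl hi)
  rw [CocOn.resS_v, CocOn.genS_v, CocOn.t_self] at h3
  exact IsUnit.of_mul_eq_one _ ((mul_comm _ _).trans h3.symm)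

theorem span_pairL {V : X.Opens} (hV : IsAffineOpen V) :
    Ideal.span {s : Γ(X, V) | ∃ (φ : c.inv.Sec V) (m : Γ(c.toMod, V)), pairL c φ m = s} = ⊤ := by
  rw [← hV.iSup_basicOpen_eq_self_iff]
  refine le_antisymm (iSup_le fun f => X.basicOpen_le _) ?_
  intro x hx
  obtain ⟨n, g, τ, hτ, hg⟩ := exists_global_gen c.isInvertible_toMod hV
  obtain ⟨n', g', τ', hτ', hg'⟩ := exists_global_gen c.inv.isInvertible_toMod hV
  obtain ⟨l, hl⟩ := Opens.mem_iSup.mp (le_iSup_basicOpen hV g hg hx)
  obtain ⟨l', hl'⟩ := Opens.mem_iSup.mp (le_iSup_basicOpen hV g' hg' hx)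
  obtain ⟨i, hi⟩ := Opens.mem_iSup.mp (show x ∈ ⨆ i, c.U i by rw [c.cover]; trivial)
  refine Opens.mem_iSup.mpr ⟨⟨pairL c (τ' l') (τ l), τ' l', τ l, rfl⟩, ?_⟩
  let W : X.Opens := X.basicOpen (g l) ⊓ X.basicOpen (g' l') ⊓ c.U i
  have hWl : W ≤ X.basicOpen (g l) := inf_le_left.trans inf_le_left
  have hWl' : W ≤ X.basicOpen (g' l') := inf_le_left.trans inf_le_right
  have hWi : W ≤ c.U i := inf_le_right
  have hWV : W ≤ V := hWl.trans (X.basicOpen_le _)
  have h1 := isUnit_v_of_gen c (τ l) hWV (by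
    have := (hτ l).res hWl
    rwa [res_res] at this) i hWi
  have h2 := isUnit_v_of_gen c.inv (τ' l') hWV (by
    have := (hτ' l').res hWl'
    rwa [res_res] at this) i hWi
  have h3 : IsUnit (rs hWV (pairL c (τ' l') (τ l))) := by
    have h4 := rs_pair c (τ l) (τ' l') i hWV hWi
    refine h4 ▸ h1.mul h2
  have h5 := X.basicOpen_of_isUnit h3
  rw [basicOpen_rs] at h5
  have h6 : W ≤ X.basicOpen (pairL c (τ' l') (τ l)) := h5.ge.trans inf_le_right
  exact h6 ⟨⟨hl, hl'⟩, hi⟩

end pairing

/-- a module with sufficiently many forms of rank one is invertible -/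
theorem invertible_of_forms {S N : Type*} [CommRing S] [AddCommGroup N] [Module S N]
    {ι : Type*} (φ : ι → Module.Dual S N)
    (h1 : Ideal.span {s : S | ∃ (i : ι) (m : N), φ i m = s} = ⊤)
    (h2 : ∀ (i : ι) (m n : N), φ i m • n = φ i n • m) : Module.Invertible S N := by
  refine invertible_of_trace (eq_top_iff.2 (h1.symm.le.trans (Ideal.span_mono ?_)))
    fun ψ m n => ?_
  · rintro _ ⟨i, m, rfl⟩
    exact ⟨φ i, m, rfl⟩
  · have key : ∀ s ∈ Ideal.span {s : S | ∃ (i : ι) (m : N), φ i m = s},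
        s • (ψ m • n) = s • (ψ n • m) := by
      intro s hs
      induction hs using Submodule.span_induction with
      | mem s hs =>
        obtain ⟨i, p, rfl⟩ := hs
        have e1 : φ i p * ψ m = φ i m * ψ p := by
          rw [← smul_eq_mul, ← smul_eq_mul, ← map_smul, h2, map_smul]
        have e2 : φ i p * ψ n = φ i n * ψ p := by
          rw [← smul_eq_mul, ← smul_eq_mul, ← map_smul, h2, map_smul]
        rw [← mul_smul, ← mul_smul, e1, e2, mul_comm (φ i m), mul_comm (φ i n), mul_smul, mul_smul,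
          h2]
      | zero => rw [zero_smul, zero_smul]
      | add s t _ _ hs ht => rw [add_smul, add_smul, hs, ht]
      | smul a s _ hs => rw [smul_assoc, smul_assoc, hs]
    have := key 1 (h1 ▸ Submodule.mem_top)
    rwa [one_smul, one_smul] at this

/-- **the sections of an invertible sheaf over an affine open form an invertible module** -/
theorem invertible_sections (hM : M.IsInvertible) {V : X.Opens} (hV : IsAffineOpen V) :
    Module.Invertible Γ(X, V) Γ(M, V) := by
  obtain ⟨c, -, ⟨e⟩⟩ := exists_coc hM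
  have h1 : Module.Invertible Γ(X, V) Γ(c.toMod, V) :=
    invertible_of_forms (fun φ : c.inv.Sec V => pairL c φ) (span_pairL c hV) (pairL_smul c)
  let E : Γ(c.toMod, V) ≃ₗ[Γ(X, V)] Γ(M, V) :=
    LinearEquiv.ofBijective
      { toFun := ap e.inv V
        map_add' := map_add _
        map_smul' := fun r m => ap_smul e.inv r m } (bijective_ap e.inv V)
  exact .congr E

theorem basicOpen_pf (f : X ⟶ Y) {U : Y.Opens} (g : Γ(Y, U)) :
    X.basicOpen (pf f U g) = f ⁻¹ᵁ Y.basicOpen g := (Scheme.preimage_basicOpen f g).symm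

/-- **the sections of the pullback over an affine open are generated by the sections of the sheaf
over an affine open** -/
theorem span_pullback (f : X ⟶ Y) {N : Y.Modules} (hN : N.IsInvertible) {U : Y.Opens}
    (hU : IsAffineOpen U) {W : X.Opens} (hW : IsAffineOpen W) (h : W ≤ f ⁻¹ᵁ U) :
    Submodule.span Γ(X, W) (Set.range fun s : Γ(N, U) => res _ h (ps f N U s)) = ⊤ := by
  obtain ⟨n, g, τ, hτ, hg⟩ := exists_global_gen hN hU
  have h1 : Ideal.span (Set.range fun i => rs h (pf f U (g i))) = ⊤ := by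
    have h2 := congrArg (Ideal.map ((rs h).comp (pf f U))) hg
    rw [Ideal.map_span, Ideal.map_top, ← Set.range_comp] at h2
    exact h2
  have h2 := span_eq_top_of_gen (hN.pullback f) hW (fun i => rs h (pf f U (g i))) h1
    (fun i => res _ h (ps f N U (τ i))) (fun i => by
      have h3 : X.basicOpen (rs h (pf f U (g i))) ≤ f ⁻¹ᵁ Y.basicOpen (g i) := by
        rw [basicOpen_rs, basicOpen_pf]
        exact inf_le_right
      have h4 := ((hτ i).pullback f hN).res h3
      rw [ps_res, res_res] at h4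
      rw [res_res]
      exact h4)
  rw [eq_top_iff, ← h2, Submodule.span_le]
  rintro _ ⟨i, rfl⟩
  exact Submodule.subset_span ⟨τ i, rfl⟩

end Fermat.Agent.Jac
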