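import Mathlib

set_option autoImplicit false
set_option linter.style.haveILetI false

/-!
# Base change of invertible modules along ring homomorphisms: abstract lemmas
-/

open TensorProduct

universe u

namespace Fermat.Agent.Jac

section One

variable {S S' : Type*} [CommRing S] [CommRing S'] [Algebra S S']
  {M N : Type*} [AddCommGroup M] [Module S M]
  [AddCommGroup N] [Module S' N] [Module S N] [IsScalarTower S S' N]

/-- A linear map between invertible modules whose image generates is a base change. -/
theorem isBaseChange_of_span [Module.Invertible S M] [Module.Invertible S' N]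
    (f : M →ₗ[S] N) (h : Submodule.span S' (Set.range f) = ⊤) : IsBaseChange S' f := by
  have hb : Function.Bijective (f.liftBaseChange S') := by
    apply Module.Invertible.bijective_of_surjective
    rw [← LinearMap.range_eq_top, eq_top_iff, ← h, Submodule.span_le]
    rintro _ ⟨m, rfl⟩
    exact ⟨1 ⊗ₜ m, by simp⟩
  exact IsBaseChange.of_equiv (LinearEquiv.ofBijective _ hb) (fun m => by simp)

theorem injective_of_isBaseChange_flat [Module.Flat S M] (f : M →ₗ[S] N) (h : IsBaseChange S' f)
    (hinj : Function.Injective (algebraMap S S')) : Function.Injective f := by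
  have h1 : Function.Injective ((Algebra.linearMap S S').rTensor M) :=
    Module.Flat.rTensor_preserves_injective_linearMap _ hinj
  have h2 : ∀ m, f m = h.equiv ((Algebra.linearMap S S').rTensor M
      ((TensorProduct.lid S M).symm m)) := by
    intro m
    rw [TensorProduct.lid_symm_apply, LinearMap.rTensor_tmul, h.equiv_tmul]
    simp
  intro m m' hm
  rw [h2, h2] at hm
  exact (TensorProduct.lid S M).symm.injective (h1 (h.equiv.injective hm))

end One

section Square

variable {S T S' T' : Type*} [CommRing S] [CommRing T] [CommRing S'] [CommRing T']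
  [Algebra S T] [Algebra S' T'] [Algebra S S'] [Algebra T T'] [Algebra S T']
  [IsScalarTower S T T'] [IsScalarTower S S' T']
  {M N : Type*} [AddCommGroup M] [Module T M] [Module S M] [IsScalarTower S T M]
  [AddCommGroup N] [Module T' N] [Module S' N] [IsScalarTower S' T' N]
  [Module T N] [IsScalarTower T T' N] [Module S N] [IsScalarTower S T' N]
  [IsScalarTower S S' N] [IsScalarTower S T N]

theorem invertible_span_image [Module.Invertible T M]
    (hinj : Function.Injective (algebraMap S' T')) (f : M →ₗ[T] N) (hf : IsBaseChange T' f)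
    (M0 : Submodule S M) [Module.Invertible S M0] (h0 : Submodule.span T (M0 : Set M) = ⊤) :
    Module.Invertible S' (Submodule.span S' (f '' M0)) := by
  have hM0 : IsBaseChange T M0.subtype := isBaseChange_of_span M0.subtype (by simpa using h0)
  let g0 : M0 →ₗ[S] N := (f.restrictScalars S).comp M0.subtype
  have hg0 : IsBaseChange T' g0 := hM0.comp hf
  let ι : M0 →ₗ[S] S' ⊗[S] M0 := TensorProduct.mk S S' M0 1
  have hι : IsBaseChange S' ι := TensorProduct.isBaseChange S M0 S'
  let g : S' ⊗[S] M0 →ₗ[S'] N := g0.liftBaseChange S'
  have hg1 : ((g : S' ⊗[S] M0 →ₗ[S'] N).restrictScalars S).comp ι = g0 := by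
    ext m
    change g (1 ⊗ₜ m) = g0 m
    simp [g]
  have hg : IsBaseChange T' g := by
    apply IsBaseChange.of_comp hι
    rw [hg1]
    exact hg0
  have hginj : Function.Injective g := injective_of_isBaseChange_flat g hg hinj
  have hrange : LinearMap.range g = Submodule.span S' (f '' M0) := by
    rw [LinearMap.range_liftBaseChange]
    congr 1
    ext n
    constructor
    · rintro ⟨m, rfl⟩
      exact ⟨m.1, m.2, rfl⟩
    · rintro ⟨m, hm, rfl⟩
      exact ⟨⟨m, hm⟩, rfl⟩
  rw [← hrange]
  exact .congr (LinearEquiv.ofInjective g hginj)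

end Square

section Semi

/-- The base change of an invertible module along a ring homomorphism. -/
theorem exists_bcMod {T T' : Type u} [CommRing T] [CommRing T'] (σ : T →+* T') (M : Type u)
    [AddCommGroup M] [Module T M] [Module.Invertible T M] :
    ∃ (N : Type u) (_ : AddCommGroup N) (_ : Module T' N) (_ : Module.Invertible T' N)
      (f : M →+ N), (∀ t m, f (t • m) = σ t • f m) ∧ Submodule.span T' (Set.range f) = ⊤ := by
  letI := σ.toAlgebra
  refine ⟨T' ⊗[T] M, inferInstance, inferInstance, inferInstance,
    (TensorProduct.mk T T' M 1).toAddMonoidHom, fun t m => ?_, ?_⟩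
  · change (1 : T') ⊗ₜ[T] (t • m) = σ t • ((1 : T') ⊗ₜ[T] m)
    rw [TensorProduct.tmul_smul, TensorProduct.smul_tmul', TensorProduct.smul_tmul']
    congr 1
  · rw [eq_top_iff]
    rintro z -
    induction z using TensorProduct.induction_on with
    | zero => exact zero_mem _
    | tmul a m =>
      have h : (a ⊗ₜ[T] m : T' ⊗[T] M) = a • ((1 : T') ⊗ₜ[T] m) := by
        rw [TensorProduct.smul_tmul', smul_eq_mul, mul_one]
      rw [h]
      exact Submodule.smul_mem _ _ (Submodule.subset_span ⟨m, rfl⟩)
    | add x y hx hy => exact add_mem hx hy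

/-- the span of the image of a span under a semilinear map -/
theorem span_image_span {S S' : Type*} [CommRing S] [CommRing S'] (σ : S →+* S')
    {M N : Type*} [AddCommGroup M] [Module S M] [AddCommGroup N] [Module S' N]
    (f : M →+ N) (hf : ∀ s m, f (s • m) = σ s • f m) (s : Set M) :
    Submodule.span S' (f '' (Submodule.span S s : Set M)) = Submodule.span S' (f '' s) := by
  apply le_antisymm
  · rw [Submodule.span_le]
    rintro _ ⟨m, hm, rfl⟩
    change m ∈ Submodule.span S s at hm
    change f m ∈ Submodule.span S' (f '' s)
    induction hm using Submodule.span_induction with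
    | mem x hx => exact Submodule.subset_span ⟨x, hx, rfl⟩
    | zero => rw [map_zero]; exact zero_mem _
    | add x y _ _ hx hy => rw [map_add]; exact add_mem hx hy
    | smul a x _ hx => rw [hf]; exact Submodule.smul_mem _ _ hx
  · exact Submodule.span_mono (Set.image_mono Submodule.subset_span)

/-- **Semilinear maps out of a base change.** -/
theorem exists_lift_of_span {S S' S'' : Type*} [CommRing S] [CommRing S'] [CommRing S'']
    (σ : S →+* S') (τ : S' →+* S'')
    {M N Q : Type*} [AddCommGroup M] [Module S M] [AddCommGroup N] [Module S' N] [AddCommGroup Q]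
    [Module S'' Q] [Module.Invertible S M] [Module.Invertible S' N]
    (f : M →+ N) (hf : ∀ s m, f (s • m) = σ s • f m)
    (hs : Submodule.span S' (Set.range f) = ⊤)
    (g : M →+ Q) (hg : ∀ s m, g (s • m) = τ (σ s) • g m) :
    ∃ g' : N →+ Q, (∀ s n, g' (s • n) = τ s • g' n) ∧ ∀ m, g' (f m) = g m := by
  letI := σ.toAlgebra
  letI : Module S N := Module.compHom N σ
  haveI : IsScalarTower S S' N := ⟨fun a b c => by
    change (σ a * b) • c = σ a • b • c
    rw [mul_smul]⟩
  letI : Module S' Q := Module.compHom Q τ
  letI : Module S Q := Module.compHom Q (τ.comp σ)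
  haveI : IsScalarTower S S' Q := ⟨fun a b c => by
    change τ (σ a * b) • c = τ (σ a) • τ b • c
    rw [map_mul, mul_smul]⟩
  let fl : M →ₗ[S] N := { f with map_smul' := fun s m => hf s m }
  let gl : M →ₗ[S] Q := { g with map_smul' := fun s m => hg s m }
  have hbc : IsBaseChange S' fl := isBaseChange_of_span fl hs
  exact ⟨(hbc.lift gl).toAddMonoidHom, fun s n => (hbc.lift gl).map_smul s n,
    fun m => hbc.lift_eq gl m⟩

/-- A semilinear map between invertible modules along a bijective ring homomorphism is bijective
as soon as its image generates. -/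
theorem bijective_of_span {S : Type*} [CommRing S]
    {M N : Type*} [AddCommGroup M] [Module S M] [AddCommGroup N] [Module S N]
    [Module.Invertible S M] [Module.Invertible S N]
    (f : M →ₗ[S] N) (hs : Submodule.span S (Set.range f) = ⊤) : Function.Bijective f := by
  apply Module.Invertible.bijective_of_surjective
  rw [← LinearMap.range_eq_top, ← hs, ← LinearMap.coe_range, Submodule.span_eq]

theorem invertible_span_of_semilinear {S T S' T' : Type*} [CommRing S] [CommRing T] [CommRing S']
    [CommRing T'] (J : S →+* T) (J' : S' →+* T') (σ0 : S →+* S') (σ : T →+* T')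
    (hcomm : ∀ s, σ (J s) = J' (σ0 s)) (hinj : Function.Injective J')
    {M N : Type*} [AddCommGroup M] [Module T M] [Module S M] (hM : ∀ (s : S) (m : M), s • m = J s • m)
    [AddCommGroup N] [Module T' N] [Module S' N] (hN : ∀ (s : S') (n : N), s • n = J' s • n)
    [Module.Invertible T M] [Module.Invertible T' N]
    (f : M →+ N) (hf : ∀ t m, f (t • m) = σ t • f m) (hs : Submodule.span T' (Set.range f) = ⊤)
    (M0 : Submodule S M) [Module.Invertible S M0] (h0 : Submodule.span T (M0 : Set M) = ⊤) :
    Module.Invertible S' (Submodule.span S' (f '' M0)) := by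
  letI := J.toAlgebra
  letI := J'.toAlgebra
  letI := σ0.toAlgebra
  letI := σ.toAlgebra
  letI := (σ.comp J).toAlgebra
  haveI : IsScalarTower S T T' := IsScalarTower.of_algebraMap_eq fun _ => rfl
  haveI : IsScalarTower S S' T' := IsScalarTower.of_algebraMap_eq fun s => hcomm s
  letI : Module T N := Module.compHom N σ
  letI : Module S N := Module.compHom N (σ.comp J)
  haveI : IsScalarTower S T M := ⟨fun a b c => by
    change (J a * b) • c = a • b • c
    rw [mul_smul, hM]⟩
  haveI : IsScalarTower S' T' N := ⟨fun a b c => by
    change (J' a * b) • c = a • b • c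
    rw [mul_smul, hN]⟩
  haveI : IsScalarTower T T' N := ⟨fun a b c => by
    change (σ a * b) • c = σ a • b • c
    rw [mul_smul]⟩
  haveI : IsScalarTower S T' N := ⟨fun a b c => by
    change (σ (J a) * b) • c = σ (J a) • b • c
    rw [mul_smul]⟩
  haveI : IsScalarTower S S' N := ⟨fun a b c => by
    change (σ0 a * b) • c = σ (J a) • b • c
    rw [mul_smul, hN (σ0 a), hcomm]⟩
  haveI : IsScalarTower S T N := ⟨fun a b c => by
    change σ (J a * b) • c = σ (J a) • σ b • c
    rw [map_mul, mul_smul]⟩
  let fl : M →ₗ[T] N := { f with map_smul' := fun s m => hf s m }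
  exact invertible_span_image (S := S) (S' := S') hinj fl (isBaseChange_of_span fl hs) M0 h0

end Semi

end Fermat.Agent.Jac
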