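import Fermat.Agent.Jac.Def
import Fermat.Agent.Jac.BCAbs

set_option autoImplicit false
set_option linter.style.haveILetI false

/-!
# Base change of line bundles (block BC)
-/

open TensorProduct

universe u

namespace Fermat.Agent.Jac

variable {k : Type u} [Field k] (X : CurveData k)

section Loc

variable (A : Type u) [CommRing A] [Algebra k A]

theorem CurveData.isUnit_xA : IsUnit (X.xA A) := .of_mul_eq_one _ (X.xA_yA A)
theorem CurveData.isUnit_yA : IsUnit (X.yA A) :=
  .of_mul_eq_one _ (by rw [mul_comm]; exact X.xA_yA A)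

instance CurveData.isLocalization0 : IsLocalization.Away (X.x0 A) (X.R A) where
  toIsLocalizationMap := by
    refine (isLocalization_iff (Submonoid.powers (X.x0 A)) (X.R A)).mpr ⟨?_, ?_, ?_⟩ |>.1
    · rintro ⟨_, n, rfl⟩
      change IsUnit (X.J0 A (X.x0 A ^ n))
      rw [map_pow, X.J0_x0]
      exact (X.isUnit_xA A).pow n
    · intro z
      obtain ⟨n, r, h⟩ := X.exists_pow_mul_xA A z
      refine ⟨⟨r, ⟨_, n, rfl⟩⟩, ?_⟩
      change z * X.J0 A (X.x0 A ^ n) = X.J0 A r
      rw [map_pow, X.J0_x0, mul_comm, h]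
    · intro x y h
      exact ⟨1, by rw [X.J0_injective A h]⟩

instance CurveData.isLocalizationi : IsLocalization.Away (X.yi A) (X.R A) where
  toIsLocalizationMap := by
    refine (isLocalization_iff (Submonoid.powers (X.yi A)) (X.R A)).mpr ⟨?_, ?_, ?_⟩ |>.1
    · rintro ⟨_, n, rfl⟩
      change IsUnit (X.Ji A (X.yi A ^ n))
      rw [map_pow, X.Ji_yi]
      exact (X.isUnit_yA A).pow n
    · intro z
      obtain ⟨n, r, h⟩ := X.exists_pow_mul_yA A z
      refine ⟨⟨r, ⟨_, n, rfl⟩⟩, ?_⟩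
      change z * X.Ji A (X.yi A ^ n) = X.Ji A r
      rw [map_pow, X.Ji_yi, mul_comm, h]
    · intro x y h
      exact ⟨1, by rw [X.Ji_injective A h]⟩

end Loc

namespace LB

variable {X} {A : Type u} [CommRing A] [Algebra k A] (L : LB X A)

attribute [instance] LB.inv0 LB.invi

instance isLocalizedModule0 :
    IsLocalizedModule (Submonoid.powers (X.x0 A)) L.M0.subtype where
  map_units := by
    rintro ⟨_, n, rfl⟩
    rw [Module.End.isUnit_iff]
    have hu : IsUnit (X.J0 A (X.x0 A ^ n)) := by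
      rw [map_pow, X.J0_x0]
      exact (X.isUnit_xA A).pow n
    obtain ⟨v, hv⟩ := hu
    refine ⟨fun m m' h => ?_, fun m => ⟨(↑v⁻¹ : X.R A) • m, ?_⟩⟩
    · simp only [Module.algebraMap_end_apply] at h
      rw [L.smul0, L.smul0, ← hv] at h
      have h2 := congrArg ((↑v⁻¹ : X.R A) • ·) h
      simpa [smul_smul] using h2
    · simp only [Module.algebraMap_end_apply]
      rw [L.smul0, ← hv, smul_smul, Units.mul_inv, one_smul]
  surj m := by
    obtain ⟨n, hn⟩ := L.ex0 m
    refine ⟨⟨⟨_, hn⟩, ⟨_, n, rfl⟩⟩, ?_⟩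
    change (X.x0 A ^ n) • m = X.xA A ^ n • m
    rw [L.smul0, map_pow, X.J0_x0]
  exists_of_eq h := ⟨1, by rw [Subtype.ext h]⟩

instance isLocalizedModulei :
    IsLocalizedModule (Submonoid.powers (X.yi A)) L.Mi.subtype where
  map_units := by
    rintro ⟨_, n, rfl⟩
    rw [Module.End.isUnit_iff]
    have hu : IsUnit (X.Ji A (X.yi A ^ n)) := by
      rw [map_pow, X.Ji_yi]
      exact (X.isUnit_yA A).pow n
    obtain ⟨v, hv⟩ := hu
    refine ⟨fun m m' h => ?_, fun m => ⟨(↑v⁻¹ : X.R A) • m, ?_⟩⟩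
    · simp only [Module.algebraMap_end_apply] at h
      rw [L.smuli, L.smuli, ← hv] at h
      have h2 := congrArg ((↑v⁻¹ : X.R A) • ·) h
      simpa [smul_smul] using h2
    · simp only [Module.algebraMap_end_apply]
      rw [L.smuli, ← hv, smul_smul, Units.mul_inv, one_smul]
  surj m := by
    obtain ⟨n, hn⟩ := L.exi m
    refine ⟨⟨⟨_, hn⟩, ⟨_, n, rfl⟩⟩, ?_⟩
    change (X.yi A ^ n) • m = X.yA A ^ n • m
    rw [L.smuli, map_pow, X.Ji_yi]
  exists_of_eq h := ⟨1, by rw [Subtype.ext h]⟩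

/-- `M` is the base change of `M0` -/
theorem isBaseChange0 : IsBaseChange (X.R A) L.M0.subtype :=
  IsLocalizedModule.isBaseChange (Submonoid.powers (X.x0 A)) (X.R A) _

/-- `M` is the base change of `Mi` -/
theorem isBaseChangei : IsBaseChange (X.R A) L.Mi.subtype :=
  IsLocalizedModule.isBaseChange (Submonoid.powers (X.yi A)) (X.R A) _

instance invertible : Module.Invertible (X.R A) L.M :=
  Module.Invertible.of_isLocalization (Submonoid.powers (X.x0 A)) L.M0.subtype

theorem span_M0 : Submodule.span (X.R A) (L.M0 : Set L.M) = ⊤ := by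
  rw [eq_top_iff]
  rintro m -
  obtain ⟨n, hn⟩ := L.ex0 m
  have h : m = X.yA A ^ n • X.xA A ^ n • m := by
    rw [smul_smul, ← mul_pow, mul_comm, X.xA_yA, one_pow, one_smul]
  rw [h]
  exact Submodule.smul_mem _ _ (Submodule.subset_span hn)

theorem span_Mi : Submodule.span (X.R A) (L.Mi : Set L.M) = ⊤ := by
  rw [eq_top_iff]
  rintro m -
  obtain ⟨n, hn⟩ := L.exi m
  have h : m = X.xA A ^ n • X.yA A ^ n • m := by
    rw [smul_smul, ← mul_pow, X.xA_yA, one_pow, one_smul]
  rw [h]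
  exact Submodule.smul_mem _ _ (Submodule.subset_span hn)

section Map

variable {L}
variable {A' : Type u} [CommRing A'] [Algebra k A'] {A'' : Type u} [CommRing A''] [Algebra k A'']
  {h : A →ₐ[k] A'} {h' : A' →ₐ[k] A''} {L' : LB X A'} {L'' : LB X A''}

theorem _root_.Fermat.Agent.Jac.CurveData.bb_id (r : X.R A) : X.bb (AlgHom.id k A) r = r := by
  rw [CurveData.bb, Algebra.TensorProduct.map_id]
  rfl

theorem _root_.Fermat.Agent.Jac.CurveData.bb_comp (h : A →ₐ[k] A') (h' : A' →ₐ[k] A'')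
    (r : X.R A) : X.bb (h'.comp h) r = X.bb h' (X.bb h r) := by
  induction r using TensorProduct.induction_on with
  | zero => simp
  | tmul a b => simp [CurveData.bb]
  | add r s hr hs => rw [map_add, hr, hs, map_add, map_add]

namespace Map

theorem smul0 (F : Map h L L') (r : X.R0 A) (m : L.M) : F.f (r • m) = X.b0 h r • F.f m := by
  rw [L.smul0, F.map_smul, L'.smul0, X.bb_J0]

theorem smuli (F : Map h L L') (r : X.Ri A) (m : L.M) : F.f (r • m) = X.bi h r • F.f m := by
  rw [L.smuli, F.map_smul, L'.smuli, X.bb_Ji]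

theorem smulA (F : Map h L L') (a : A) (m : L.M) : F.f (a • m) = h a • F.f m := by
  rw [L.smulA, F.map_smul, L'.smulA]
  congr 1

theorem mem0 (F : Map h L L') {m : L.M} (hm : m ∈ L.M0) : F.f m ∈ L'.M0 := by
  rw [← F.span0]
  exact Submodule.subset_span ⟨m, hm, rfl⟩

theorem memi (F : Map h L L') {m : L.M} (hm : m ∈ L.Mi) : F.f m ∈ L'.Mi := by
  rw [← F.spani]
  exact Submodule.subset_span ⟨m, hm, rfl⟩

/-- restriction to `M0` -/
def f0 (F : Map h L L') : L.M0 →+ L'.M0 where
  toFun m := ⟨F.f m, F.mem0 m.2⟩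
  map_zero' := Subtype.ext (map_zero F.f)
  map_add' m m' := Subtype.ext (map_add F.f m.1 m'.1)

/-- restriction to `Mi` -/
def fi (F : Map h L L') : L.Mi →+ L'.Mi where
  toFun m := ⟨F.f m, F.memi m.2⟩
  map_zero' := Subtype.ext (map_zero F.f)
  map_add' m m' := Subtype.ext (map_add F.f m.1 m'.1)

@[simp] theorem f0_coe (F : Map h L L') (m : L.M0) : (F.f0 m : L'.M) = F.f m := rfl
@[simp] theorem fi_coe (F : Map h L L') (m : L.Mi) : (F.fi m : L'.M) = F.f m := rfl

theorem f0_smul (F : Map h L L') (r : X.R0 A) (m : L.M0) : F.f0 (r • m) = X.b0 h r • F.f0 m :=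
  Subtype.ext (F.smul0 r m.1)

theorem fi_smul (F : Map h L L') (r : X.Ri A) (m : L.Mi) : F.fi (r • m) = X.bi h r • F.fi m :=
  Subtype.ext (F.smuli r m.1)

theorem span_range0 (F : Map h L L') :
    Submodule.span (X.R0 A') (Set.range F.f0) = ⊤ := by
  have hinj : Function.Injective (Submodule.map L'.M0.subtype) :=
    Submodule.map_injective_of_injective L'.M0.injective_subtype
  apply hinj
  rw [Submodule.map_span, Submodule.map_subtype_top]
  refine Eq.trans (congrArg _ ?_) F.span0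
  ext m
  constructor
  · rintro ⟨_, ⟨m, rfl⟩, rfl⟩
    exact ⟨m.1, m.2, rfl⟩
  · rintro ⟨m, hm, rfl⟩
    exact ⟨_, ⟨⟨m, hm⟩, rfl⟩, rfl⟩

theorem span_rangei (F : Map h L L') :
    Submodule.span (X.Ri A') (Set.range F.fi) = ⊤ := by
  have hinj : Function.Injective (Submodule.map L'.Mi.subtype) :=
    Submodule.map_injective_of_injective L'.Mi.injective_subtype
  apply hinj
  rw [Submodule.map_span, Submodule.map_subtype_top]
  refine Eq.trans (congrArg _ ?_) F.spani
  ext m
  constructor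
  · rintro ⟨_, ⟨m, rfl⟩, rfl⟩
    exact ⟨m.1, m.2, rfl⟩
  · rintro ⟨m, hm, rfl⟩
    exact ⟨_, ⟨⟨m, hm⟩, rfl⟩, rfl⟩

theorem span_range (F : Map h L L') : Submodule.span (X.R A') (Set.range F.f) = ⊤ := by
  rw [eq_top_iff, ← L'.span_M0, Submodule.span_le, ← F.span0]
  have h1 : Submodule.span (X.R0 A') (F.f '' L.M0) ≤
      (Submodule.span (X.R A') (Set.range F.f)).restrictScalars (X.R0 A') := by
    rw [Submodule.span_le]
    rintro _ ⟨m, -, rfl⟩
    exact Submodule.subset_span ⟨m, rfl⟩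
  exact h1

/-- identity -/
def id (L : LB X A) : Map (AlgHom.id k A) L L where
  f := AddMonoidHom.id _
  map_smul r m := by rw [X.bb_id]; rfl
  span0 := by
    change Submodule.span _ ((fun m => m) '' (L.M0 : Set L.M)) = _
    rw [Set.image_id', Submodule.span_eq]
  spani := by
    change Submodule.span _ ((fun m => m) '' (L.Mi : Set L.M)) = _
    rw [Set.image_id', Submodule.span_eq]

/-- composition -/
def comp (G : Map h' L' L'') (F : Map h L L') : Map (h'.comp h) L L'' where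
  f := G.f.comp F.f
  map_smul r m := by
    rw [AddMonoidHom.comp_apply, F.map_smul, G.map_smul, X.bb_comp]
    rfl
  span0 := by
    rw [← G.span0, ← F.span0, span_image_span (X.b0 h').toRingHom G.f G.smul0, ← Set.image_comp]
    rfl
  spani := by
    rw [← G.spani, ← F.spani, span_image_span (X.bi h').toRingHom G.f G.smuli, ← Set.image_comp]
    rfl

/-- change of the ring homomorphism -/
def congr (F : Map h L L') {g : A →ₐ[k] A'} (e : h = g) : Map g L L' := e ▸ F

theorem exists_cancel (F : Map h L L') (G : Map (h'.comp h) L L'') :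
    ∃ H : Map h' L' L'', ∀ m, H.f (F.f m) = G.f m := by
  obtain ⟨g, hg, hgf⟩ := exists_lift_of_span (X.bb h).toRingHom (X.bb h').toRingHom F.f F.map_smul
    F.span_range G.f (fun s m => by rw [G.map_smul, X.bb_comp]; rfl)
  have hg0 : ∀ (s : X.R0 A') n, g (s • n) = (X.b0 h').toRingHom s • g n := fun s n => by
    rw [L'.smul0, hg, L''.smul0]
    congr 1
    exact X.bb_J0 h' s
  have hgi : ∀ (s : X.Ri A') n, g (s • n) = (X.bi h').toRingHom s • g n := fun s n => by
    rw [L'.smuli, hg, L''.smuli]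
    congr 1
    exact X.bb_Ji h' s
  refine ⟨⟨g, hg, ?_, ?_⟩, hgf⟩
  · rw [← F.span0, span_image_span _ g hg0, ← Set.image_comp, ← G.span0]
    congr 1
    exact Set.image_congr fun m _ => hgf m
  · rw [← F.spani, span_image_span _ g hgi, ← Set.image_comp, ← G.spani]
    congr 1
    exact Set.image_congr fun m _ => hgf m

section IsoMap

variable {L₁ L₂ : LB X A} (F : Map (AlgHom.id k A) L₁ L₂)

/-- an isomorphism of line bundles as a linear map -/
def lin : L₁.M →ₗ[X.R A] L₂.M where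
  toFun := F.f
  map_add' := F.f.map_add
  map_smul' r m := (F.map_smul r m).trans (by rw [X.bb_id]; rfl)

/-- an isomorphism of line bundles as a linear map -/
def lin0 : L₁.M0 →ₗ[X.R0 A] L₂.M0 where
  toFun := F.f0
  map_add' := F.f0.map_add
  map_smul' r m := Subtype.ext ((congrArg F.f (L₁.smul0 r m.1)).trans
    ((F.map_smul _ m.1).trans (by rw [X.bb_id]; exact (L₂.smul0 r _).symm)))

/-- an isomorphism of line bundles as a linear map -/
def lini : L₁.Mi →ₗ[X.Ri A] L₂.Mi where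
  toFun := F.fi
  map_add' := F.fi.map_add
  map_smul' r m := Subtype.ext ((congrArg F.f (L₁.smuli r m.1)).trans
    ((F.map_smul _ m.1).trans (by rw [X.bb_id]; exact (L₂.smuli r _).symm)))

/-- an isomorphism of line bundles is bijective -/
theorem bijective : Function.Bijective F.f := bijective_of_span F.lin F.span_range
theorem bijective0 : Function.Bijective F.f0 := by
  have h0 : Submodule.span (X.R0 A) (Set.range F.lin0) = ⊤ := F.span_range0
  have h2 : Module.Invertible (X.R0 A) L₁.M0 := L₁.inv0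
  have h1 : Function.Surjective F.lin0 := by
    rw [← LinearMap.range_eq_top, ← h0, ← LinearMap.coe_range, Submodule.span_eq]
  exact Module.Invertible.bijective_of_surjective h1
theorem bijectivei : Function.Bijective F.fi := by
  have h0 : Submodule.span (X.Ri A) (Set.range F.lini) = ⊤ := F.span_rangei
  have h1 : Function.Surjective F.lini := by
    rw [← LinearMap.range_eq_top, ← h0, ← LinearMap.coe_range, Submodule.span_eq]
  exact Module.Invertible.bijective_of_surjective h1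

/-- the linear equivalence given by an isomorphism of line bundles -/
noncomputable def equiv : L₁.M ≃ₗ[X.R A] L₂.M := LinearEquiv.ofBijective F.lin F.bijective
/-- the linear equivalence given by an isomorphism of line bundles -/
noncomputable def equiv0 : L₁.M0 ≃ₗ[X.R0 A] L₂.M0 := LinearEquiv.ofBijective F.lin0 F.bijective0
/-- the linear equivalence given by an isomorphism of line bundles -/
noncomputable def equivi : L₁.Mi ≃ₗ[X.Ri A] L₂.Mi := LinearEquiv.ofBijective F.lini F.bijectivei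

theorem equiv_apply (m : L₁.M) : F.equiv m = F.f m := rfl
theorem equiv0_coe (m : L₁.M0) : (F.equiv0 m : L₂.M) = F.f m := rfl
theorem equivi_coe (m : L₁.Mi) : (F.equivi m : L₂.M) = F.f m := rfl

end IsoMap

theorem mem0_iff {L₁ L₂ : LB X A} (F : Map (AlgHom.id k A) L₁ L₂) (m : L₁.M) :
    F.f m ∈ L₂.M0 ↔ m ∈ L₁.M0 := by
  refine ⟨fun hm => ?_, F.mem0⟩
  obtain ⟨m', hm'⟩ := F.bijective0.2 ⟨_, hm⟩
  have h1 : F.f m' = F.f m := congrArg Subtype.val hm'
  rw [← F.bijective.1 h1]
  exact m'.2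

theorem memi_iff {L₁ L₂ : LB X A} (F : Map (AlgHom.id k A) L₁ L₂) (m : L₁.M) :
    F.f m ∈ L₂.Mi ↔ m ∈ L₁.Mi := by
  refine ⟨fun hm => ?_, F.memi⟩
  obtain ⟨m', hm'⟩ := F.bijectivei.2 ⟨_, hm⟩
  have h1 : F.f m' = F.f m := congrArg Subtype.val hm'
  rw [← F.bijective.1 h1]
  exact m'.2

end Map

/-! ### `BC` and `Iso` -/

theorem BC.comp (b : BC h L L') (b' : BC h' L' L'') : BC (h'.comp h) L L'' := by
  obtain ⟨F⟩ := b
  obtain ⟨G⟩ := b'
  exact ⟨G.comp F⟩

theorem BC.cancel (b : BC h L L') (b' : BC (h'.comp h) L L'') : BC h' L' L'' := by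
  obtain ⟨F⟩ := b
  obtain ⟨G⟩ := b'
  obtain ⟨H, -⟩ := F.exists_cancel G
  exact ⟨H⟩

theorem Iso.refl (L : LB X A) : Iso L L := ⟨Map.id L⟩

theorem BC.iso_of_bc {L₁ L₂ : LB X A'} (b : BC h L L₁) (b' : BC h L L₂) : Iso L₁ L₂ :=
  BC.cancel b (by rwa [AlgHom.id_comp])

theorem Iso.symm {L₁ L₂ : LB X A} (i : Iso L₁ L₂) : Iso L₂ L₁ :=
  BC.cancel i (by rw [AlgHom.id_comp]; exact Iso.refl L₁)

theorem Iso.trans {L₁ L₂ L₃ : LB X A} (i : Iso L₁ L₂) (j : Iso L₂ L₃) : Iso L₁ L₃ := by
  have := BC.comp i j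
  rwa [AlgHom.id_comp] at this

theorem BC.congr {L₁ L₂ : LB X A} {L₁' L₂' : LB X A'} (i : Iso L₁ L₂) (j : Iso L₁' L₂')
    (b : BC h L₁ L₁') : BC h L₂ L₂' := by
  have h1 := BC.comp b j
  rw [AlgHom.id_comp] at h1
  have h2 := BC.comp i.symm h1
  rwa [AlgHom.comp_id] at h2

theorem BC.congr_left {L₁ L₂ : LB X A} {L' : LB X A'} (i : Iso L₁ L₂) (b : BC h L₁ L') :
    BC h L₂ L' := b.congr i (Iso.refl _)

theorem BC.congr_right {L : LB X A} {L₁' L₂' : LB X A'} (j : Iso L₁' L₂') (b : BC h L L₁') :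
    BC h L L₂' := b.congr (Iso.refl _) j

/-- base changes of isomorphic line bundles are isomorphic -/
theorem BC.iso {L₁ L₂ : LB X A} {L₁' L₂' : LB X A'} (b : BC h L₁ L₁') (b' : BC h L₂ L₂')
    (i : Iso L₁ L₂) : Iso L₁' L₂' := (b.congr_left i).iso_of_bc b'

theorem iso_iff {L₁ L₂ : LB X A} : Iso L₁ L₂ ↔ ∃ e : L₁.M ≃ₗ[X.R A] L₂.M,
    (∀ m, e m ∈ L₂.M0 ↔ m ∈ L₁.M0) ∧ ∀ m, e m ∈ L₂.Mi ↔ m ∈ L₁.Mi := by
  constructor
  · rintro ⟨F⟩
    exact ⟨F.equiv, F.mem0_iff, F.memi_iff⟩
  · rintro ⟨e, h0, hi⟩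
    refine ⟨⟨e.toLinearMap.toAddMonoidHom, fun r m => by rw [X.bb_id]; exact e.map_smul r m,
      ?_, ?_⟩⟩
    · have h1 : (e '' (L₁.M0 : Set L₁.M)) = (L₂.M0 : Set L₂.M) := by
        ext m
        constructor
        · rintro ⟨m, hm, rfl⟩
          exact (h0 m).mpr hm
        · intro hm
          exact ⟨e.symm m, (h0 _).mp (by rwa [e.apply_symm_apply]), e.apply_symm_apply m⟩
      change Submodule.span _ (e '' (L₁.M0 : Set L₁.M)) = _
      rw [h1, Submodule.span_eq]
    · have h1 : (e '' (L₁.Mi : Set L₁.M)) = (L₂.Mi : Set L₂.M) := by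
        ext m
        constructor
        · rintro ⟨m, hm, rfl⟩
          exact (hi m).mpr hm
        · intro hm
          exact ⟨e.symm m, (hi _).mp (by rwa [e.apply_symm_apply]), e.apply_symm_apply m⟩
      change Submodule.span _ (e '' (L₁.Mi : Set L₁.M)) = _
      rw [h1, Submodule.span_eq]

end Map

end LB

end Fermat.Agent.Jac
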