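import Fermat.Agent.Jac.BC

set_option autoImplicit false
set_option linter.style.haveILetI false

/-!
# Base change of line bundles as a base change over the base ring
-/

open TensorProduct

universe u

namespace Fermat.Agent.Jac

section Abs

variable {A A' S S' : Type*} [CommRing A] [CommRing A'] [CommRing S] [CommRing S']
  [Algebra A A'] [Algebra A S] [Algebra A' S'] [Algebra A S'] [IsScalarTower A A' S']
  (σ : S →+* S') (hσ : ∀ a, σ (algebraMap A S a) = algebraMap A S' a)
  (g : S →ₗ[A] S') (hg : ∀ s, g s = σ s) (hpush : IsBaseChange A' g)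
  {M N : Type*} [AddCommGroup M] [AddCommGroup N] [Module S M] [Module A M] [IsScalarTower A S M]
  [Module S' N] [Module A' N] [IsScalarTower A' S' N] [Module A N] [IsScalarTower A A' N]
  [Module.Invertible S M] [Module.Invertible S' N]

include hσ hg hpush in
theorem isBaseChange_of_semilinear (φ : M →+ N) (hφ : ∀ s m, φ (s • m) = σ s • φ m)
    (hs : Submodule.span S' (Set.range φ) = ⊤) (f : M →ₗ[A] N) (hf : ∀ m, f m = φ m) :
    IsBaseChange A' f := by
  letI := σ.toAlgebra
  haveI : IsScalarTower A S S' := IsScalarTower.of_algebraMap_eq fun a => (hσ a).symm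
  letI : Module S N := Module.compHom N σ
  haveI : IsScalarTower S S' N := ⟨fun a b c => by
    change (σ a * b) • c = σ a • b • c
    rw [mul_smul]⟩
  let fl : M →ₗ[S] N := { φ with map_smul' := fun s m => hφ s m }
  have hbc : IsBaseChange S' fl := isBaseChange_of_span fl hs
  haveI : Algebra.IsPushout A A' S S' := by
    rw [Algebra.isPushout_iff]
    have h1 : (IsScalarTower.toAlgHom A S S').toLinearMap = g := by
      ext s
      exact (hg s).symm
    rw [h1]
    exact hpush
  refine IsBaseChange.of_equiv ((Algebra.IsPushout.cancelBaseChange A A' S S' M).symm ≪≫ₗ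
    hbc.equiv.restrictScalars A') fun m => ?_
  rw [LinearEquiv.trans_apply, Algebra.IsPushout.cancelBaseChange_symm_tmul, map_one,
    LinearEquiv.restrictScalars_apply, hbc.equiv_tmul, one_smul, hf]
  rfl

end Abs

variable {k : Type u} [Field k] {X : CurveData k} {A : Type u} [CommRing A] [Algebra k A]
  {A' : Type u} [CommRing A'] [Algebra k A']

section Tensor

variable (P : Type u) [CommRing P] [Algebra k P]

theorem isBaseChange_of_tensor (h : A →ₐ[k] A') [Algebra A A'] (hh : ∀ a, algebraMap A A' a = h a)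
    {M N : Type*} [AddCommGroup M] [AddCommGroup N] [Module (A ⊗[k] P) M] [Module A M]
    [IsScalarTower A (A ⊗[k] P) M]
    [Module (A' ⊗[k] P) N] [Module A' N] [IsScalarTower A' (A' ⊗[k] P) N] [Module A N]
    [IsScalarTower A A' N]
    [Module.Invertible (A ⊗[k] P) M] [Module.Invertible (A' ⊗[k] P) N]
    (φ : M →+ N) (hφ : ∀ (s : A ⊗[k] P) (m : M), φ (s • m) =
      Algebra.TensorProduct.map h (AlgHom.id k P) s • φ m)
    (hs : Submodule.span (A' ⊗[k] P) (Set.range φ) = ⊤) (f : M →ₗ[A] N) (hf : ∀ m, f m = φ m) :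
    IsBaseChange A' f := by
  haveI : IsScalarTower k A A' := IsScalarTower.of_algebraMap_eq fun x => by
    rw [hh, h.commutes]
  have hlin : IsBaseChange A' (Algebra.linearMap A A') := IsBaseChange.linearMap A A'
  have hpush : IsBaseChange A' (AlgebraTensorModule.map (Algebra.linearMap A A')
      (LinearMap.id (R := k) (M := P))) := isBaseChange_tensorProduct_map A' hlin
  refine isBaseChange_of_semilinear (A := A) (A' := A') (S := A ⊗[k] P) (S' := A' ⊗[k] P)
    (Algebra.TensorProduct.map h (AlgHom.id k P)).toRingHom (fun a => ?_)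
    (AlgebraTensorModule.map (Algebra.linearMap A A') (LinearMap.id (R := k) (M := P)))
    (fun s => ?_) hpush φ hφ hs f hf
  · change (Algebra.TensorProduct.map h (AlgHom.id k P)) (a ⊗ₜ 1) =
      (algebraMap A A' a) ⊗ₜ[k] (1 : P)
    rw [hh]
    simp
  · induction s using TensorProduct.induction_on with
    | zero => simp
    | tmul a b =>
      change (Algebra.linearMap A A' a) ⊗ₜ[k] b = (Algebra.TensorProduct.map h (AlgHom.id k P)) (a ⊗ₜ b)
      rw [Algebra.linearMap_apply, hh]
      simp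
    | add r s hr hs => rw [map_add, map_add, hr, hs]

end Tensor

namespace LB.Map

variable {h : A →ₐ[k] A'} {L : LB X A} {L' : LB X A'} (φ : LB.Map h L L')
  [Algebra A A'] (hh : ∀ a, algebraMap A A' a = h a) [Module A L'.M] [IsScalarTower A A' L'.M]

include hh

/-- `M'` is the base change of `M` to `A'` -/
theorem isBaseChangeM (f : L.M →ₗ[A] L'.M) (hf : ∀ m, f m = φ.f m) : IsBaseChange A' f :=
  isBaseChange_of_tensor X.B h hh φ.f φ.map_smul φ.span_range f hf

/-- `M0'` is the base change of `M0` to `A'` -/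
theorem isBaseChange_A0 (f : L.A0 →ₗ[A] L'.A0) (hf : ∀ m, (f m : L'.M) = φ.f m) :
    IsBaseChange A' f := by
  letI : Module (A ⊗[k] X.B0) L.A0 := inferInstanceAs (Module (X.R0 A) L.M0)
  letI : Module (A' ⊗[k] X.B0) L'.A0 := inferInstanceAs (Module (X.R0 A') L'.M0)
  haveI : IsScalarTower A (A ⊗[k] X.B0) L.A0 := ⟨fun a r m => Subtype.ext (smul_assoc a r m.1)⟩
  haveI : IsScalarTower A' (A' ⊗[k] X.B0) L'.A0 :=
    ⟨fun a r m => Subtype.ext (smul_assoc a r m.1)⟩
  haveI : Module.Invertible (A ⊗[k] X.B0) L.A0 := L.inv0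
  haveI : Module.Invertible (A' ⊗[k] X.B0) L'.A0 := L'.inv0
  exact isBaseChange_of_tensor (M := L.A0) (N := L'.A0) X.B0 h hh φ.f0 φ.f0_smul
    φ.span_range0 f fun m => Subtype.ext (hf m)

/-- `Mi'` is the base change of `Mi` to `A'` -/
theorem isBaseChange_Ai (f : L.Ai →ₗ[A] L'.Ai) (hf : ∀ m, (f m : L'.M) = φ.f m) :
    IsBaseChange A' f := by
  letI : Module (A ⊗[k] X.Bi) L.Ai := inferInstanceAs (Module (X.Ri A) L.Mi)
  letI : Module (A' ⊗[k] X.Bi) L'.Ai := inferInstanceAs (Module (X.Ri A') L'.Mi)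
  haveI : IsScalarTower A (A ⊗[k] X.Bi) L.Ai := ⟨fun a r m => Subtype.ext (smul_assoc a r m.1)⟩
  haveI : IsScalarTower A' (A' ⊗[k] X.Bi) L'.Ai :=
    ⟨fun a r m => Subtype.ext (smul_assoc a r m.1)⟩
  haveI : Module.Invertible (A ⊗[k] X.Bi) L.Ai := L.invi
  haveI : Module.Invertible (A' ⊗[k] X.Bi) L'.Ai := L'.invi
  exact isBaseChange_of_tensor (M := L.Ai) (N := L'.Ai) X.Bi h hh φ.fi φ.fi_smul
    φ.span_rangei f fun m => Subtype.ext (hf m)

end LB.Map

end Fermat.Agent.Jac
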