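import Fermat.Agent.Jac.BC

set_option autoImplicit false
set_option linter.style.haveILetI false

/-!
# Existence of base changes, and base change of the structure sheaf
-/

open TensorProduct

universe u

namespace Fermat.Agent.Jac

variable {k : Type u} [Field k] {X : CurveData k} {A : Type u} [CommRing A] [Algebra k A]
  {A' : Type u} [CommRing A'] [Algebra k A']

namespace LB

/-- **Existence of base changes**, with the map. -/
theorem exists_map (h : A →ₐ[k] A') (L : LB X A) : ∃ L' : LB X A', Nonempty (Map h L L') := by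
  obtain ⟨N, iN1, iN2, iN3, f, hf, hs⟩ := exists_bcMod (X.bb h).toRingHom L.M
  letI mA : Module A' N := Module.compHom N (algebraMap A' (X.R A'))
  letI m0 : Module (X.R0 A') N := Module.compHom N (X.J0 A').toRingHom
  letI mi : Module (X.Ri A') N := Module.compHom N (X.Ji A').toRingHom
  haveI tA : IsScalarTower A' (X.R A') N := ⟨fun a b c => by
    change (a • b) • c = algebraMap A' (X.R A') a • b • c
    rw [Algebra.smul_def, mul_smul]⟩
  haveI t0 : IsScalarTower (X.R0 A') (X.R A') N := ⟨fun a b c => by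
    change (X.J0 A' a * b) • c = X.J0 A' a • b • c
    rw [mul_smul]⟩
  haveI ti : IsScalarTower (X.Ri A') (X.R A') N := ⟨fun a b c => by
    change (X.Ji A' a * b) • c = X.Ji A' a • b • c
    rw [mul_smul]⟩
  have hi0 : Module.Invertible (X.R0 A') (Submodule.span (X.R0 A') (f '' L.M0)) :=
    invertible_span_of_semilinear (S := X.R0 A) (T := X.R A) (S' := X.R0 A') (T' := X.R A')
      (X.J0 A).toRingHom (X.J0 A').toRingHom (X.b0 h).toRingHom (X.bb h).toRingHom
      (fun s => X.bb_J0 h s) (X.J0_injective A') (fun s m => L.smul0 s m) (fun s n => rfl) f hf hs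
      L.M0 L.span_M0
  have hii : Module.Invertible (X.Ri A') (Submodule.span (X.Ri A') (f '' L.Mi)) :=
    invertible_span_of_semilinear (S := X.Ri A) (T := X.R A) (S' := X.Ri A') (T' := X.R A')
      (X.Ji A).toRingHom (X.Ji A').toRingHom (X.bi h).toRingHom (X.bb h).toRingHom
      (fun s => X.bb_Ji h s) (X.Ji_injective A') (fun s m => L.smuli s m) (fun s n => rfl) f hf hs
      L.Mi L.span_Mi
  have s0 : ∀ (r : X.R0 A') (n : N), r • n = X.J0 A' r • n := fun _ _ => rfl
  have si : ∀ (r : X.Ri A') (n : N), r • n = X.Ji A' r • n := fun _ _ => rfl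
  have hf' : ∀ (r : X.R A) (m : L.M), f (r • m) = X.bb h r • f m := hf
  have hx : ∀ n : ℕ, (X.bb h) (X.xA A ^ n) = X.xA A' ^ n := fun n => by
    rw [map_pow]
    simp [CurveData.bb, CurveData.xA]
  have hy : ∀ n : ℕ, (X.bb h) (X.yA A ^ n) = X.yA A' ^ n := fun n => by
    rw [map_pow]
    simp [CurveData.bb, CurveData.yA]
  refine ⟨{ M := N, M0 := Submodule.span (X.R0 A') (f '' L.M0),
            Mi := Submodule.span (X.Ri A') (f '' L.Mi), inv0 := hi0, invi := hii,
            ex0 := fun m => ?_, exi := fun m => ?_ }, ⟨⟨f, hf, rfl, rfl⟩⟩⟩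
  · have hm : m ∈ Submodule.span (X.R A') (Set.range f) := hs ▸ Submodule.mem_top
    have hup : ∀ (n n' : ℕ) (z : N), X.xA A' ^ n • z ∈ Submodule.span (X.R0 A') (f '' L.M0) →
        X.xA A' ^ (n' + n) • z ∈ Submodule.span (X.R0 A') (f '' L.M0) := by
      intro n n' z hz
      have h1 := Submodule.smul_mem _ (X.x0 A' ^ n') hz
      have h2 : X.x0 A' ^ n' • X.xA A' ^ n • z = X.xA A' ^ (n' + n) • z := by
        rw [s0, map_pow, X.J0_x0, smul_smul, pow_add]
      rwa [h2] at h1
    induction hm using Submodule.span_induction with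
    | mem z hz =>
      obtain ⟨m, rfl⟩ := hz
      obtain ⟨n, hn⟩ := L.ex0 m
      refine ⟨n, Submodule.subset_span ⟨_, hn, ?_⟩⟩
      rw [hf', hx]
    | zero => exact ⟨0, by rw [smul_zero]; exact zero_mem _⟩
    | add y z _ _ hy hz =>
      obtain ⟨n, hn⟩ := hy
      obtain ⟨n', hn'⟩ := hz
      refine ⟨n + n', ?_⟩
      rw [smul_add]
      refine add_mem ?_ (hup _ _ _ hn')
      rw [add_comm]
      exact hup _ _ _ hn
    | smul r z _ hz =>
      obtain ⟨n, hn⟩ := hz
      obtain ⟨n', r', hr'⟩ := X.exists_pow_mul_xA A' r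
      refine ⟨n' + n, ?_⟩
      have h1 := Submodule.smul_mem _ r' hn
      have h2 : r' • X.xA A' ^ n • z = X.xA A' ^ (n' + n) • r • z := by
        rw [s0, ← hr', smul_smul, smul_smul, pow_add]
        congr 1
        ring
      rwa [h2] at h1
  · have hm : m ∈ Submodule.span (X.R A') (Set.range f) := hs ▸ Submodule.mem_top
    have hup : ∀ (n n' : ℕ) (z : N), X.yA A' ^ n • z ∈ Submodule.span (X.Ri A') (f '' L.Mi) →
        X.yA A' ^ (n' + n) • z ∈ Submodule.span (X.Ri A') (f '' L.Mi) := by
      intro n n' z hz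
      have h1 := Submodule.smul_mem _ (X.yi A' ^ n') hz
      have h2 : X.yi A' ^ n' • X.yA A' ^ n • z = X.yA A' ^ (n' + n) • z := by
        rw [si, map_pow, X.Ji_yi, smul_smul, pow_add]
      rwa [h2] at h1
    induction hm using Submodule.span_induction with
    | mem z hz =>
      obtain ⟨m, rfl⟩ := hz
      obtain ⟨n, hn⟩ := L.exi m
      refine ⟨n, Submodule.subset_span ⟨_, hn, ?_⟩⟩
      rw [hf', hy]
    | zero => exact ⟨0, by rw [smul_zero]; exact zero_mem _⟩
    | add y z _ _ hy hz =>
      obtain ⟨n, hn⟩ := hy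
      obtain ⟨n', hn'⟩ := hz
      refine ⟨n + n', ?_⟩
      rw [smul_add]
      refine add_mem ?_ (hup _ _ _ hn')
      rw [add_comm]
      exact hup _ _ _ hn
    | smul r z _ hz =>
      obtain ⟨n, hn⟩ := hz
      obtain ⟨n', r', hr'⟩ := X.exists_pow_mul_yA A' r
      refine ⟨n' + n, ?_⟩
      have h1 := Submodule.smul_mem _ r' hn
      have h2 : r' • X.yA A' ^ n • z = X.yA A' ^ (n' + n) • r • z := by
        rw [si, ← hr', smul_smul, smul_smul, pow_add]
        congr 1
        ring
      rwa [h2] at h1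

/-- **Existence of base changes** -/
theorem exists_bc (h : A →ₐ[k] A') (L : LB X A) : ∃ L' : LB X A', BC h L L' := exists_map h L

theorem span_one0 (X : CurveData k) (h : A →ₐ[k] A') :
    Submodule.span (X.R0 A') (X.bb h '' (LinearMap.range (Algebra.linearMap (X.R0 A) (X.R A)) :
      Set (X.R A))) = LinearMap.range (Algebra.linearMap (X.R0 A') (X.R A')) := by
  apply le_antisymm
  · rw [Submodule.span_le]
    rintro _ ⟨_, ⟨r, rfl⟩, rfl⟩
    exact ⟨X.b0 h r, (X.bb_J0 h r).symm⟩
  · rintro _ ⟨r, rfl⟩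
    have h1 : (1 : X.R A') ∈ Submodule.span (X.R0 A')
        (X.bb h '' (LinearMap.range (Algebra.linearMap (X.R0 A) (X.R A)) : Set (X.R A))) :=
      Submodule.subset_span ⟨1, ⟨1, map_one (X.J0 A)⟩, map_one (X.bb h)⟩
    have h2 := Submodule.smul_mem _ r h1
    rwa [Algebra.smul_def, mul_one] at h2

theorem span_onei (X : CurveData k) (h : A →ₐ[k] A') :
    Submodule.span (X.Ri A') (X.bb h '' (LinearMap.range (Algebra.linearMap (X.Ri A) (X.R A)) :
      Set (X.R A))) = LinearMap.range (Algebra.linearMap (X.Ri A') (X.R A')) := by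
  apply le_antisymm
  · rw [Submodule.span_le]
    rintro _ ⟨_, ⟨r, rfl⟩, rfl⟩
    exact ⟨X.bi h r, (X.bb_Ji h r).symm⟩
  · rintro _ ⟨r, rfl⟩
    have h1 : (1 : X.R A') ∈ Submodule.span (X.Ri A')
        (X.bb h '' (LinearMap.range (Algebra.linearMap (X.Ri A) (X.R A)) : Set (X.R A))) :=
      Submodule.subset_span ⟨1, ⟨1, map_one (X.Ji A)⟩, map_one (X.bb h)⟩
    have h2 := Submodule.smul_mem _ r h1
    rwa [Algebra.smul_def, mul_one] at h2

/-- the base change of the structure sheaf -/
noncomputable def Map.one (X : CurveData k) (h : A →ₐ[k] A') :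
    Map h (LB.one X A) (LB.one X A') where
  f := (X.bb h : X.R A →+ X.R A')
  map_smul r m := (X.bb h).map_mul r m
  span0 := span_one0 X h
  spani := span_onei X h

/-- the base change of the structure sheaf -/
theorem BC.one (X : CurveData k) (h : A →ₐ[k] A') : BC h (LB.one X A) (LB.one X A') :=
  ⟨Map.one X h⟩

end LB

end Fermat.Agent.Jac
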