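import Fermat.Agent.Jac.Def

set_option autoImplicit false

/-!
# S25: statements of the blocks of the algebra world
-/

universe u

open TensorProduct

namespace Fermat.Agent.Jac

variable {k : Type u} [Field k] (X : CurveData k)

/-- base change exists (block BC) -/
def BCExists : Prop :=
  ∀ {A : Type u} [CommRing A] [Algebra k A] {A' : Type u} [CommRing A'] [Algebra k A']
    (h : A →ₐ[k] A') (L : LB X A), ∃ L' : LB X A', LB.BC h L L'

/-- **Main theorem of the algebra world** (block CHARTSMAIN): the functor of rigidified line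
bundles of degree `0` is covered by finitely many open subfunctors represented by smooth affine
schemes. -/
structure ChartsData where
  ι : Type u
  fin : Finite ι
  R : ι → Type u
  [cr : ∀ i, CommRing (R i)]
  [alg : ∀ i, Algebra k (R i)]
  L : ∀ i, LB X (R i)
  fintype : ∀ i, Algebra.FiniteType k (R i)
  smooth : ∀ i, Algebra.Smooth k (R i)
  rig : ∀ i, (L i).Rig
  deg : ∀ i, (L i).Deg0
  mono : ∀ (i : ι) {A : Type u} [CommRing A] [Algebra k A] (g g' : R i →ₐ[k] A) (M : LB X A),
    LB.BC g (L i) M → LB.BC g' (L i) M → g = g'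
  isOpen : ∀ (i : ι) {A : Type u} [CommRing A] [Algebra k A] (M : LB X A), M.Rig →
    ∀ {K : Type u} [Field K] [IsAlgClosed K] [Algebra k K] (φ : A →ₐ[k] K) (r : R i →ₐ[k] K)
      (M' : LB X K), LB.BC φ M M' → LB.BC r (L i) M' →
    ∃ f : A, φ f ≠ 0 ∧ ∃ (s : R i →ₐ[k] Localization.Away f) (M'' : LB X (Localization.Away f)),
      LB.BC s (L i) M'' ∧ LB.BC (IsScalarTower.toAlgHom k A (Localization.Away f)) M M''
  cover₂ : ∀ {K : Type u} [Field K] [IsAlgClosed K] [Algebra k K] (M M' : LB X K),
    M.chi = 1 - (X.genus : ℤ) → M'.chi = 1 - (X.genus : ℤ) →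
    ∃ i : ι, (∃ r : R i →ₐ[k] K, LB.BC r (L i) M) ∧ ∃ r' : R i →ₐ[k] K, LB.BC r' (L i) M'

attribute [instance] ChartsData.cr ChartsData.alg

/-- Block UC: existence of extensions over valuation rings with algebraically closed field of
fractions -/
def UCStmt : Prop :=
  ∀ {V : Type u} [CommRing V] [IsDomain V] [ValuationRing V] [Algebra k V]
    {K : Type u} [Field K] [IsAlgClosed K] [Algebra k K] [Algebra V K] [IsScalarTower k V K]
    [IsFractionRing V K] (M : LB X K), M.chi = 1 - (X.genus : ℤ) →
    ∃ L : LB X V, L.Rig ∧ L.Deg0 ∧ LB.BC (IsScalarTower.toAlgHom k V K) L M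

/-- Block FAM: every line bundle of degree `0` over an algebraically closed field `K` is connected
to the trivial one by a family over an affine `K`-scheme of finite type which is a domain (hence
geometrically integral). -/
def FamStmt : Prop :=
  ∀ {K : Type u} [Field K] [IsAlgClosed K] [Algebra k K] (L : LB X K),
    L.chi = 1 - (X.genus : ℤ) →
    ∃ (A : Type u) (_ : CommRing A) (_ : Algebra k A) (_ : Algebra K A)
      (_ : IsScalarTower k K A) (_ : IsDomain A) (_ : Algebra.FiniteType K A)
      (M : LB X A) (φ₀ φ₁ : A →ₐ[K] K),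
      M.Rig ∧ M.Deg0 ∧ LB.BC (φ₀.restrictScalars k) M (LB.one X K) ∧
      LB.BC (φ₁.restrictScalars k) M L

/-- Block COH: the Euler characteristic is locally constant -/
def ChiStmt : Prop :=
  ∀ {A : Type u} [CommRing A] [Algebra k A] (L : LB X A) {K : Type u} [Field K] [Algebra k K]
    (φ : A →ₐ[k] K) (L' : LB X K), LB.BC φ L L' →
    ∃ f : A, φ f ≠ 0 ∧ ∀ {K' : Type u} [Field K'] [Algebra k K'] (φ' : A →ₐ[k] K') (L'' : LB X K'),
      φ' f ≠ 0 → LB.BC φ' L L'' → L''.chi = L'.chi

/-- the Euler characteristic is invariant under extension of the base field (block COH) -/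
def ChiBCStmt : Prop :=
  ∀ {K : Type u} [Field K] [Algebra k K] {K' : Type u} [Field K'] [Algebra k K'] (h : K →ₐ[k] K')
    (L : LB X K) (L' : LB X K'), LB.BC h L L' → L'.chi = L.chi

/-- Block BASIC: global functions on `C × Spec A` -/
def H0OneStmt : Prop :=
  ∀ {A : Type u} [CommRing A] [Algebra k A] (r : X.R0 A) (s : X.Ri A), X.J0 A r = X.Ji A s →
    ∃ a : A, r = algebraMap A (X.R0 A) a ∧ s = algebraMap A (X.Ri A) a

end Fermat.Agent.Jac
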