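import Fermat.Agent.Jac.Def
import Fermat.Agent.Jac.Stmts

/-!
# Basic facts about the two charts

`IsChart S x y`: what the two charts of `CurveData` have in common. Bases of `S`, `B` over `k`, and
of their base changes; the structure sheaf has only constant global sections.
-/

set_option autoImplicit false

universe u

open TensorProduct Polynomial Module

namespace Fermat.Agent.Jac

theorem isDedekindDomain_of_ringEquiv {R S : Type*} [CommRing R] [CommRing S] (e : R ≃+* S)
    [IsDedekindDomain S] : IsDedekindDomain R := by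
  have h1 : IsDomain R := e.toMulEquiv.isDomain S
  have h2 : IsNoetherianRing R := isNoetherianRing_of_ringEquiv S e.symm
  have h3 := Ring.DimensionLEOne.of_ringEquiv e
  have h4 := IsIntegrallyClosed.of_equiv e.symm
  exact { h1, h2, h3, h4 with }

/-- one of the two charts of `CurveData` -/
structure IsChart {k : Type u} [Field k] {B : Type u} [CommRing B] [Algebra k B]
    (S : Subalgebra k B) (x y : B) : Prop where
  xy : x * y = 1
  mem : x ∈ S
  loc : ∀ b : B, ∃ n : ℕ, x ^ n * b ∈ S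
  fin : (aeval (⟨x, mem⟩ : S) : k[X] →ₐ[k] S).toRingHom.Finite
  trans : Transcendental k x
  ded : IsDedekindDomain S

/-! ### bases of the form `x ^ n * w j` -/

section PolyBasis

variable {A : Type*} [CommRing A] {R : Type*} [CommRing R] [Algebra A R] {d : Type*}
  {x : R} {w : d → R} (b : Basis (d × ℕ) A R) (hb : ∀ j n, b (j, n) = x ^ n * w j)
include hb

theorem repr_aeval_mul (p : A[X]) (j : d) (i : d × ℕ) :
    b.repr (aeval x p * w j) i = open Classical in if i.1 = j then p.coeff i.2 else 0 := by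
  classical
  obtain ⟨j', n'⟩ := i
  induction p using Polynomial.induction_on' with
  | add p q hp hq =>
    rw [map_add, add_mul, map_add, Finsupp.add_apply, hp, hq, coeff_add]
    split_ifs <;> simp
  | monomial n a =>
    rw [aeval_monomial, mul_assoc, ← hb, ← Algebra.smul_def, map_smul, Finsupp.smul_apply,
      Basis.repr_self, Finsupp.single_apply, coeff_monomial]
    simp only [Prod.mk.injEq]
    by_cases h1 : j = j' <;> by_cases h2 : n = n' <;> simp [h1, h2, eq_comm]

theorem repr_sum_aeval_mul [Fintype d] (p : d → A[X]) (i : d × ℕ) :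
    b.repr (∑ j, aeval x (p j) * w j) i = (p i.1).coeff i.2 := by
  classical
  rw [map_sum, Finsupp.finsetSum_apply]
  simp_rw [repr_aeval_mul b hb]
  simp

/-- every element is a unique combination of the `w j` with polynomial coefficients -/
theorem bijective_sum_aeval_mul [Fintype d] :
    Function.Bijective fun p : d → A[X] => ∑ j, aeval x (p j) * w j := by
  classical
  constructor
  · intro p q hpq
    funext j
    ext n
    have := congrArg (fun r => b.repr r (j, n)) hpq
    simp only [repr_sum_aeval_mul b hb] at this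
    exact this
  · intro r
    have h1 : r ∈ Submodule.span A (Set.range b) := b.mem_span r
    induction h1 using Submodule.span_induction with
    | mem r hr =>
      obtain ⟨⟨j, n⟩, rfl⟩ := hr
      refine ⟨Pi.single j (X ^ n), ?_⟩
      dsimp only
      rw [Finset.sum_eq_single j (fun i _ hi => by rw [Pi.single_eq_of_ne hi]; simp)
        (fun hj => absurd (Finset.mem_univ _) hj), Pi.single_eq_same, hb]
      simp
    | zero => exact ⟨0, by simp⟩
    | add r s _ _ hr hs =>
      obtain ⟨p, rfl⟩ := hr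
      obtain ⟨q, rfl⟩ := hs
      exact ⟨p + q, by simp [add_mul, Finset.sum_add_distrib]⟩
    | smul a r _ hr =>
      obtain ⟨p, rfl⟩ := hr
      exact ⟨a • p, by simp [Finset.smul_sum]⟩

/-- `p x` is a nonzerodivisor for `p` monic -/
theorem aeval_mem_nonZeroDivisors_of_basis [Finite d] {p : A[X]} (hp : p.Monic) :
    aeval x p ∈ nonZeroDivisors R := by
  have := Fintype.ofFinite d
  rw [mem_nonZeroDivisors_iff_right]
  intro r hr
  obtain ⟨q, rfl⟩ := (bijective_sum_aeval_mul b hb).2 r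
  have h1 : (∑ j, aeval x (q j * p) * w j) = ∑ j, aeval x (0 : A[X]) * w j := by
    dsimp only at hr
    simp only [map_zero, zero_mul, Finset.sum_const_zero]
    rw [← hr, Finset.sum_mul]
    refine Finset.sum_congr rfl fun j _ => ?_
    rw [map_mul]
    ring
  have h2 := (bijective_sum_aeval_mul b hb).1 (a₁ := fun j => q j * p) (a₂ := fun _ => 0) h1
  have h3 : q = 0 := funext fun j => hp.mul_left_eq_zero_iff.1 (congrFun h2 j)
  simp [h3]

/-- the family `w` as a basis over polynomials in `x` -/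
theorem exists_basis_aeval_of_basis [Finite d] :
    letI : Algebra A[X] R := (aeval x).toAlgebra
    ∃ c : Basis d A[X] R, ∀ j, c j = w j := by
  classical
  have := Fintype.ofFinite d
  let alg : Algebra A[X] R := (aeval x).toAlgebra
  let Φ : (d → A[X]) →ₗ[A[X]] R :=
    { toFun := fun p => ∑ j, aeval x (p j) * w j
      map_add' := fun p q => by simp [add_mul, Finset.sum_add_distrib]
      map_smul' := fun r p => by
        simp only [Pi.smul_apply, smul_eq_mul, map_mul, RingHom.id_apply, Finset.smul_sum,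
          mul_assoc]
        rfl }
  refine ⟨.ofEquivFun (LinearEquiv.ofBijective Φ (bijective_sum_aeval_mul b hb)).symm,
    fun j => ?_⟩
  rw [Basis.coe_ofEquivFun, LinearEquiv.symm_symm]
  change ∑ i, aeval x ((Pi.single j 1 : d → A[X]) i) * w i = w j
  rw [Finset.sum_eq_single j (fun i _ hi => by rw [Pi.single_eq_of_ne hi]; simp)
    (fun hj => absurd (Finset.mem_univ _) hj), Pi.single_eq_same]
  simp

theorem finite_aeval_of_basis [Finite d] : (aeval x : A[X] →ₐ[A] R).toRingHom.Finite := by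
  let alg : Algebra A[X] R := (aeval x).toAlgebra
  obtain ⟨c, -⟩ := exists_basis_aeval_of_basis b hb
  exact Module.Finite.of_basis c

theorem free_aeval_of_basis [Finite d] :
    letI : Algebra A[X] R := (aeval x).toAlgebra
    Module.Free A[X] R := by
  let alg : Algebra A[X] R := (aeval x).toAlgebra
  obtain ⟨c, -⟩ := exists_basis_aeval_of_basis b hb
  exact Module.Free.of_basis c

end PolyBasis

namespace IsChart

variable {k : Type u} [Field k] {B : Type u} [CommRing B] [Algebra k B] {S : Subalgebra k B}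
  {x y : B} (h : IsChart S x y)
include h

theorem isUnit : IsUnit x := .of_mul_eq_one _ h.xy

theorem isLocalization : IsLocalization.Away (⟨x, h.mem⟩ : S) B where
  map_units := by
    rintro ⟨_, n, rfl⟩
    simpa using h.isUnit.pow n
  surj b := by
    obtain ⟨n, hn⟩ := h.loc b
    exact ⟨⟨⟨_, hn⟩, ⟨_, n, rfl⟩⟩, by simp [mul_comm]⟩
  exists_of_eq {a b} hab := ⟨1, by
    have : a = b := Subtype.ext hab
    rw [this]⟩

theorem isDomain : IsDomain B := by
  have := h.ded
  have hn : Nontrivial B := ⟨0, 1, fun h01 => zero_ne_one (α := S) (Subtype.ext h01)⟩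
  have : NoZeroDivisors B := ⟨fun {a b} hab => by
    obtain ⟨n, hn⟩ := h.loc a
    obtain ⟨m, hm⟩ := h.loc b
    have h0 : (⟨_, hn⟩ : S) * ⟨_, hm⟩ = 0 := Subtype.ext (by
      change x ^ n * a * (x ^ m * b) = 0
      rw [mul_mul_mul_comm, hab, mul_zero])
    rcases mul_eq_zero.1 h0 with h1 | h1
    · left
      exact (h.isUnit.pow n).mul_right_eq_zero.1 (congrArg Subtype.val h1)
    · right
      exact (h.isUnit.pow m).mul_right_eq_zero.1 (congrArg Subtype.val h1)⟩
  exact NoZeroDivisors.to_isDomain B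

theorem exists_basis : ∃ (d : ℕ) (w : Fin d → S) (b : Basis (Fin d × ℕ) k S),
    ∀ j n, b (j, n) = (⟨x, h.mem⟩ : S) ^ n * w j := by
  have := h.ded
  let alg : Algebra k[X] S := (aeval (⟨x, h.mem⟩ : S)).toAlgebra
  have hdef : ∀ (p : k[X]) (s : S), p • s = aeval (⟨x, h.mem⟩ : S) p * s := fun p s => rfl
  have : Module.Finite k[X] S := h.fin
  have hinj : Function.Injective (aeval (⟨x, h.mem⟩ : S) : k[X] →ₐ[k] S) := by
    have h1 : Transcendental k (⟨x, h.mem⟩ : S) := fun ⟨p, hp, hp0⟩ => h.trans ⟨p, hp, by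
      have h2 := congrArg S.val hp0
      rw [← aeval_algHom_apply, map_zero] at h2
      exact h2⟩
    exact transcendental_iff_injective.1 h1
  have : FaithfulSMul k[X] S := (faithfulSMul_iff_algebraMap_injective _ _).2 hinj
  have : IsTorsionFree k[X] S := inferInstance
  have tow : IsScalarTower k k[X] S := IsScalarTower.of_algebraMap_eq fun a =>
    (aeval_C (⟨x, h.mem⟩ : S) a).symm
  let v := Module.finBasis k[X] S
  refine ⟨_, v, (Polynomial.basisMonomials k).smulTower' v, fun j n => ?_⟩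
  rw [Basis.smulTower'_apply, hdef]
  simp


theorem linearIndependent_zpow {d : ℕ} {w : Fin d → S} (b : Basis (Fin d × ℕ) k S)
    (hb : ∀ j n, b (j, n) = (⟨x, h.mem⟩ : S) ^ n * w j) (u : Bˣ) (hu : (u : B) = x) :
    LinearIndependent k fun i : Fin d × ℤ => ((u ^ i.2 : Bˣ) : B) * w i.1 := by
  classical
  rw [linearIndependent_iff']
  intro s g hg
  -- clear denominators
  obtain ⟨N, hN⟩ : ∃ N : ℕ, ∀ i ∈ s, 0 ≤ i.2 + N := by
    refine ⟨s.sup fun i => (-i.2).toNat, fun i hi => ?_⟩
    have := Finset.le_sup (f := fun i : Fin d × ℤ => (-i.2).toNat) hi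
    omega
  have h1 : ∑ i ∈ s, g i • b (i.1, (i.2 + N).toNat) = 0 := by
    have h2 : S.val (∑ i ∈ s, g i • b (i.1, (i.2 + N).toNat)) =
        ((u ^ N : Bˣ) : B) * ∑ i ∈ s, g i • (((u ^ i.2 : Bˣ) : B) * w i.1) := by
      rw [map_sum, Finset.mul_sum]
      refine Finset.sum_congr rfl fun i hi => ?_
      have h4 : u ^ ((i.2 + N).toNat) = u ^ N * u ^ i.2 := by
        rw [← zpow_natCast, Int.toNat_of_nonneg (hN i hi), add_comm, zpow_add, zpow_natCast]
      rw [map_smul, hb, map_mul, map_pow, mul_smul_comm, ← mul_assoc, ← Units.val_mul,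
        ← h4, Units.val_pow_eq_pow_val, hu]
      rfl
    rw [hg, mul_zero] at h2
    exact Subtype.val_injective h2
  have h3 : LinearIndependent k fun i : s => b (i.1.1, (i.1.2 + N).toNat) := by
    refine b.linearIndependent.comp (fun i : s => (i.1.1, (i.1.2 + N).toNat)) ?_
    rintro ⟨⟨j, n⟩, hi⟩ ⟨⟨j', n'⟩, hi'⟩ hij
    have h4 := hN _ hi
    have h5 := hN _ hi'
    simp only [Prod.mk.injEq] at hij
    simp only at h4 h5
    ext
    · exact congrArg _ hij.1
    · simp only
      omega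
  rw [linearIndependent_iff'] at h3
  intro i hi
  refine h3 s.attach (fun i => g i) ?_ ⟨i, hi⟩ (Finset.mem_attach _ _)
  rw [← h1]
  exact Finset.sum_attach s fun i => g i • b (i.1, (i.2 + N).toNat)

theorem span_zpow {d : ℕ} {w : Fin d → S} (b : Basis (Fin d × ℕ) k S)
    (hb : ∀ j n, b (j, n) = (⟨x, h.mem⟩ : S) ^ n * w j) (u : Bˣ) (hu : (u : B) = x) :
    ⊤ ≤ Submodule.span k (Set.range fun i : Fin d × ℤ => ((u ^ i.2 : Bˣ) : B) * w i.1) := by
  intro z _
  obtain ⟨n, hn⟩ := h.loc z
  -- elements of `S`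
  have h1 : ∀ s : S, ∀ m : ℤ, ((u ^ m : Bˣ) : B) * s ∈
      Submodule.span k (Set.range fun i : Fin d × ℤ => ((u ^ i.2 : Bˣ) : B) * w i.1) := by
    intro s m
    induction b.mem_span s using Submodule.span_induction with
    | mem r hr =>
      obtain ⟨⟨j, l⟩, rfl⟩ := hr
      refine Submodule.subset_span ⟨(j, m + l), ?_⟩
      dsimp only
      rw [hb, zpow_add, Units.val_mul, zpow_natCast, Units.val_pow_eq_pow_val, hu, mul_assoc]
      rfl
    | zero => simp
    | add r s _ _ hr hs =>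
      change ((u ^ m : Bˣ) : B) * (r + s) ∈ _
      rw [mul_add]
      exact add_mem hr hs
    | smul a r _ hr =>
      change ((u ^ m : Bˣ) : B) * (a • (r : B)) ∈ _
      rw [mul_smul_comm]
      exact Submodule.smul_mem _ _ hr
  have h2 := h1 ⟨_, hn⟩ (-n)
  change ((u ^ (-n : ℤ) : Bˣ) : B) * (x ^ n * z) ∈ _ at h2
  rwa [zpow_neg, zpow_natCast, ← hu, ← Units.val_pow_eq_pow_val, Units.inv_mul_cancel_left] at h2

/-- the basis `x ^ n * w j` of `B` -/
theorem exists_basis_zpow {d : ℕ} {w : Fin d → S} (b : Basis (Fin d × ℕ) k S)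
    (hb : ∀ j n, b (j, n) = (⟨x, h.mem⟩ : S) ^ n * w j) (u : Bˣ) (hu : (u : B) = x) :
    ∃ b' : Basis (Fin d × ℤ) k B, ∀ i, b' i = ((u ^ i.2 : Bˣ) : B) * w i.1 :=
  ⟨.mk (h.linearIndependent_zpow b hb u hu) (h.span_zpow b hb u hu), fun i => by simp⟩

/-- the number of basis elements is the dimension of `B / (x - 1)` -/
theorem finrank_quot {d : ℕ} {w : Fin d → S} (b : Basis (Fin d × ℕ) k S)
    (hb : ∀ j n, b (j, n) = (⟨x, h.mem⟩ : S) ^ n * w j) :
    finrank k (B ⧸ Ideal.span {x - 1}) = d := by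
  classical
  let u : Bˣ := ⟨x, y, h.xy, by rw [mul_comm]; exact h.xy⟩
  obtain ⟨b', hb'⟩ := h.exists_basis_zpow b hb u rfl
  let φ : B →ₗ[k] (Fin d → k) := b'.constr k fun i => Pi.single i.1 1
  have hφ : ∀ i, φ (b' i) = Pi.single i.1 1 := fun i => b'.constr_basis k _ i
  have hx : ∀ z, φ (x * z) = φ z := by
    intro z
    induction b'.mem_span z using Submodule.span_induction with
    | mem z hz =>
      obtain ⟨⟨j, n⟩, rfl⟩ := hz
      have h1 : x * b' (j, n) = b' (j, n + 1) := by
        rw [hb', hb', zpow_add_one, mul_comm _ u, Units.val_mul, mul_assoc]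
      rw [h1, hφ, hφ]
    | zero => simp
    | add r s _ _ hr hs => rw [mul_add, map_add, map_add, hr, hs]
    | smul a r _ hr => rw [mul_smul_comm, map_smul, map_smul, hr]
  have hsurj : Function.Surjective φ := by
    rw [← LinearMap.range_eq_top, ← top_le_iff, ← (Pi.basisFun k (Fin d)).span_eq,
      Submodule.span_le]
    rintro _ ⟨j, rfl⟩
    exact ⟨b' (j, 0), by rw [hφ, Pi.basisFun_apply]⟩
  have hker : (Ideal.span {x - 1}).restrictScalars k = LinearMap.ker φ := by
    apply le_antisymm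
    · intro z hz
      rw [Submodule.restrictScalars_mem, Ideal.mem_span_singleton'] at hz
      obtain ⟨z, rfl⟩ := hz
      rw [LinearMap.mem_ker, mul_sub, mul_one, map_sub, mul_comm, hx, sub_self]
    · intro z hz
      have h1 : ∀ z, z - ∑ j, φ z j • b' (j, 0) ∈ Ideal.span {x - 1} := by
        intro z
        induction b'.mem_span z using Submodule.span_induction with
        | mem z hz =>
          obtain ⟨⟨j, n⟩, rfl⟩ := hz
          rw [hφ, Finset.sum_eq_single j (fun i _ hi => by rw [Pi.single_eq_of_ne hi, zero_smul])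
            (fun hj => absurd (Finset.mem_univ _) hj), Pi.single_eq_same, one_smul, hb', hb',
            zpow_zero, ← sub_mul]
          apply Ideal.mul_mem_right
          rw [← Ideal.Quotient.eq_zero_iff_mem, map_sub, sub_eq_zero]
          have h2 : Units.map (Ideal.Quotient.mk (Ideal.span {x - 1})).toMonoidHom u = 1 := by
            ext
            change Ideal.Quotient.mk (Ideal.span {x - 1}) x = 1
            rw [← map_one (Ideal.Quotient.mk (Ideal.span {x - 1})), Ideal.Quotient.eq]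
            exact Ideal.subset_span rfl
          have h3 := congrArg (Units.val) (map_zpow
            (Units.map (Ideal.Quotient.mk (Ideal.span {x - 1})).toMonoidHom) u n)
          rw [h2, one_zpow] at h3
          rw [Units.val_one, map_one]
          exact h3
        | zero => simp
        | add r s _ _ hr hs =>
          have h4 : r + s - ∑ j, φ (r + s) j • b' (j, 0) =
              (r - ∑ j, φ r j • b' (j, 0)) + (s - ∑ j, φ s j • b' (j, 0)) := by
            simp only [map_add, Pi.add_apply, add_smul, Finset.sum_add_distrib]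
            ring
          rw [h4]
          exact add_mem hr hs
        | smul a r _ hr =>
          have h4 : a • r - ∑ j, φ (a • r) j • b' (j, 0) =
              a • (r - ∑ j, φ r j • b' (j, 0)) := by
            simp only [map_smul, Pi.smul_apply, smul_eq_mul, mul_smul, smul_sub, Finset.smul_sum]
          rw [h4]
          exact Submodule.smul_of_tower_mem _ a hr
      have h5 := h1 z
      rw [LinearMap.mem_ker.1 hz] at h5
      simpa using h5
  have e1 := (Submodule.Quotient.restrictScalarsEquiv k (Ideal.span {x - 1})).symm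
  have e2 := (Submodule.quotEquivOfEq _ _ hker).trans (φ.quotKerEquivOfSurjective hsurj)
  rw [(e1.trans e2).finrank_eq, finrank_fin_fun]

theorem pos_of_basis {d : ℕ} (b : Basis (Fin d × ℕ) k S) : 0 < d := by
  have := h.ded
  obtain ⟨i⟩ := b.index_nonempty
  exact i.1.pos

end IsChart

namespace CurveData

variable {k : Type u} [Field k] (X : CurveData k)

theorem isDedekindDomain_B0 : IsDedekindDomain X.B0 := by
  have := X.ded0 k
  exact isDedekindDomain_of_ringEquiv (Algebra.TensorProduct.lid k X.B0).symm.toRingEquiv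
theorem isDedekindDomain_Bi : IsDedekindDomain X.Bi := by
  have := X.dedi k
  exact isDedekindDomain_of_ringEquiv (Algebra.TensorProduct.lid k X.Bi).symm.toRingEquiv

theorem isDomain_B : IsDomain X.B :=
  (⟨X.xy, X.x_mem, X.loc0, X.fin0, X.trans, X.isDedekindDomain_B0⟩ :
    IsChart X.B0 X.x X.y).isDomain

theorem transcendental_y : Transcendental k X.y := by
  intro h
  have := X.isDomain_B
  let _ : Invertible X.y := ⟨X.x, X.xy, by rw [mul_comm]; exact X.xy⟩
  exact X.trans h.invOf

theorem chart0 : IsChart X.B0 X.x X.y :=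
  ⟨X.xy, X.x_mem, X.loc0, X.fin0, X.trans, X.isDedekindDomain_B0⟩
theorem charti : IsChart X.Bi X.y X.x :=
  ⟨by rw [mul_comm]; exact X.xy, X.y_mem, X.loci, X.fini, X.transcendental_y,
    X.isDedekindDomain_Bi⟩

theorem isLocalization_B0 : IsLocalization.Away (⟨X.x, X.x_mem⟩ : X.B0) X.B :=
  X.chart0.isLocalization
theorem isLocalization_Bi : IsLocalization.Away (⟨X.y, X.y_mem⟩ : X.Bi) X.B :=
  X.charti.isLocalization

/-- the unit `x` of `B` -/
def xu : X.Bˣ := ⟨X.x, X.y, X.xy, by rw [mul_comm]; exact X.xy⟩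

theorem val_xu : (X.xu : X.B) = X.x := rfl
theorem val_inv_xu : ((X.xu⁻¹ : X.Bˣ) : X.B) = X.y := rfl

/-- the degree of `x : C → ℙ¹` -/
noncomputable def deg : ℕ := finrank k (X.B ⧸ Ideal.span {X.x - 1})

theorem span_y_sub_one : Ideal.span {X.y - 1} = Ideal.span {X.x - 1} := by
  have h1 : X.y - 1 = (X.x - 1) * (-X.y) := by linear_combination X.xy
  have h2 : X.x - 1 = (X.y - 1) * (-X.x) := by linear_combination X.xy
  apply le_antisymm <;> rw [Ideal.span_singleton_le_iff_mem, Ideal.mem_span_singleton]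
  · exact ⟨_, h1⟩
  · exact ⟨_, h2⟩

theorem exists_basis0 : ∃ (w : Fin X.deg → X.B0) (b : Basis (Fin X.deg × ℕ) k X.B0),
    ∀ j n, b (j, n) = (⟨X.x, X.x_mem⟩ : X.B0) ^ n * w j := by
  obtain ⟨d, w, b, hb⟩ := X.chart0.exists_basis
  have h : X.deg = d := X.chart0.finrank_quot b hb
  subst h
  exact ⟨w, b, hb⟩
theorem exists_basisi : ∃ (w : Fin X.deg → X.Bi) (b : Basis (Fin X.deg × ℕ) k X.Bi),
    ∀ j n, b (j, n) = (⟨X.y, X.y_mem⟩ : X.Bi) ^ n * w j := by
  obtain ⟨d, w, b, hb⟩ := X.charti.exists_basis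
  have h : X.deg = d := by
    rw [deg, ← X.span_y_sub_one]
    exact X.charti.finrank_quot b hb
  subst h
  exact ⟨w, b, hb⟩

/-- a basis of `B0` over `k[x]` -/
noncomputable def w0 : Fin X.deg → X.B0 := X.exists_basis0.choose
/-- a basis of `Bi` over `k[y]` -/
noncomputable def wi : Fin X.deg → X.Bi := X.exists_basisi.choose
/-- the basis `x ^ n * w0 j` of `B0` over `k` -/
noncomputable def basis0 : Basis (Fin X.deg × ℕ) k X.B0 := X.exists_basis0.choose_spec.choose
/-- the basis `y ^ n * wi j` of `Bi` over `k` -/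
noncomputable def basisi : Basis (Fin X.deg × ℕ) k X.Bi := X.exists_basisi.choose_spec.choose
theorem basis0_apply (j : Fin X.deg) (n : ℕ) :
    X.basis0 (j, n) = (⟨X.x, X.x_mem⟩ : X.B0) ^ n * X.w0 j :=
  X.exists_basis0.choose_spec.choose_spec j n
theorem basisi_apply (j : Fin X.deg) (n : ℕ) :
    X.basisi (j, n) = (⟨X.y, X.y_mem⟩ : X.Bi) ^ n * X.wi j :=
  X.exists_basisi.choose_spec.choose_spec j n

theorem deg_pos : 0 < X.deg := X.chart0.pos_of_basis X.basis0

/-- the basis `x ^ n * w0 j`, `n : ℤ`, of `B` over `k` -/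
noncomputable def basisB0 : Basis (Fin X.deg × ℤ) k X.B :=
  (X.chart0.exists_basis_zpow X.basis0 X.basis0_apply X.xu rfl).choose
/-- the basis `y ^ n * wi j`, `n : ℤ`, of `B` over `k` -/
noncomputable def basisBi : Basis (Fin X.deg × ℤ) k X.B :=
  (X.charti.exists_basis_zpow X.basisi X.basisi_apply X.xu⁻¹ rfl).choose
theorem basisB0_apply (j : Fin X.deg) (n : ℤ) :
    X.basisB0 (j, n) = ((X.xu ^ n : X.Bˣ) : X.B) * X.w0 j :=
  (X.chart0.exists_basis_zpow X.basis0 X.basis0_apply X.xu rfl).choose_spec (j, n)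
theorem basisBi_apply (j : Fin X.deg) (n : ℤ) :
    X.basisBi (j, n) = ((X.xu⁻¹ ^ n : X.Bˣ) : X.B) * X.wi j :=
  (X.charti.exists_basis_zpow X.basisi X.basisi_apply X.xu⁻¹ rfl).choose_spec (j, n)

/-! ### base change to `A` -/

variable (A : Type u) [CommRing A] [Algebra k A]

/-- the unit `x` of `R A` -/
noncomputable def uA : (X.R A)ˣ :=
  ⟨X.xA A, X.yA A, X.xA_yA A, by rw [mul_comm]; exact X.xA_yA A⟩

theorem val_uA : (X.uA A : X.R A) = X.xA A := rfl
theorem val_inv_uA : (((X.uA A)⁻¹ : (X.R A)ˣ) : X.R A) = X.yA A := rfl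

theorem uA_isUnit : IsUnit (X.xA A) := ⟨X.uA A, rfl⟩
theorem uA_inv_isUnit : IsUnit (X.yA A) := ⟨(X.uA A)⁻¹, rfl⟩

theorem uA_eq : X.uA A = Units.map
    (Algebra.TensorProduct.includeRight : X.B →ₐ[k] X.R A).toRingHom.toMonoidHom X.xu :=
  Units.ext rfl

theorem one_tmul_xu_zpow (n : ℤ) (b : X.B) :
    (1 : A) ⊗ₜ[k] (((X.xu ^ n : X.Bˣ) : X.B) * b) =
      (((X.uA A) ^ n : (X.R A)ˣ) : X.R A) * 1 ⊗ₜ b := by
  rw [uA_eq, ← map_zpow]
  change _ = (1 : A) ⊗ₜ[k] ((X.xu ^ n : X.Bˣ) : X.B) * 1 ⊗ₜ b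
  rw [Algebra.TensorProduct.tmul_mul_tmul, one_mul]

/-- the basis `x ^ n * w0 j` of `R0 A` over `A` -/
noncomputable def basis0A : Basis (Fin X.deg × ℕ) A (X.R0 A) :=
  Algebra.TensorProduct.basis A X.basis0
/-- the basis `y ^ n * wi j` of `Ri A` over `A` -/
noncomputable def basisiA : Basis (Fin X.deg × ℕ) A (X.Ri A) :=
  Algebra.TensorProduct.basis A X.basisi
/-- the basis `x ^ n * w0 j`, `n : ℤ`, of `R A` over `A` -/
noncomputable def basisR0 : Basis (Fin X.deg × ℤ) A (X.R A) :=
  Algebra.TensorProduct.basis A X.basisB0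
/-- the basis `y ^ n * wi j`, `n : ℤ`, of `R A` over `A` -/
noncomputable def basisRi : Basis (Fin X.deg × ℤ) A (X.R A) :=
  Algebra.TensorProduct.basis A X.basisBi

theorem basis0A_apply (j : Fin X.deg) (n : ℕ) :
    X.basis0A A (j, n) = X.x0 A ^ n * 1 ⊗ₜ X.w0 j := by
  rw [basis0A, Algebra.TensorProduct.basis_apply, basis0_apply, x0,
    Algebra.TensorProduct.tmul_pow, Algebra.TensorProduct.tmul_mul_tmul, one_pow, one_mul]
theorem basisiA_apply (j : Fin X.deg) (n : ℕ) :
    X.basisiA A (j, n) = X.yi A ^ n * 1 ⊗ₜ X.wi j := by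
  rw [basisiA, Algebra.TensorProduct.basis_apply, basisi_apply, yi,
    Algebra.TensorProduct.tmul_pow, Algebra.TensorProduct.tmul_mul_tmul, one_pow, one_mul]
theorem basisR0_apply (j : Fin X.deg) (n : ℤ) :
    X.basisR0 A (j, n) = (((X.uA A) ^ n : (X.R A)ˣ) : X.R A) * 1 ⊗ₜ (X.w0 j : X.B) := by
  rw [basisR0, Algebra.TensorProduct.basis_apply, basisB0_apply, one_tmul_xu_zpow]
theorem basisRi_apply (j : Fin X.deg) (n : ℤ) :
    X.basisRi A (j, n) = (((X.uA A)⁻¹ ^ n : (X.R A)ˣ) : X.R A) * 1 ⊗ₜ (X.wi j : X.B) := by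
  rw [basisRi, Algebra.TensorProduct.basis_apply, basisBi_apply, inv_zpow', inv_zpow',
    one_tmul_xu_zpow]

theorem bijective_sum0 : Function.Bijective fun p : Fin X.deg → A[X] =>
    ∑ j, aeval (X.x0 A) (p j) * 1 ⊗ₜ X.w0 j :=
  bijective_sum_aeval_mul (X.basis0A A) (X.basis0A_apply A)
theorem bijective_sumi : Function.Bijective fun p : Fin X.deg → A[X] =>
    ∑ j, aeval (X.yi A) (p j) * 1 ⊗ₜ X.wi j :=
  bijective_sum_aeval_mul (X.basisiA A) (X.basisiA_apply A)

theorem finite_aeval_x0 : (aeval (X.x0 A) : A[X] →ₐ[A] X.R0 A).toRingHom.Finite :=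
  finite_aeval_of_basis (X.basis0A A) (X.basis0A_apply A)
theorem finite_aeval_yi : (aeval (X.yi A) : A[X] →ₐ[A] X.Ri A).toRingHom.Finite :=
  finite_aeval_of_basis (X.basisiA A) (X.basisiA_apply A)

theorem exists_basis_aeval_x0 :
    letI : Algebra A[X] (X.R0 A) := (aeval (X.x0 A)).toAlgebra
    ∃ c : Basis (Fin X.deg) A[X] (X.R0 A), ∀ j, c j = 1 ⊗ₜ X.w0 j :=
  exists_basis_aeval_of_basis (X.basis0A A) (X.basis0A_apply A)
theorem exists_basis_aeval_yi :
    letI : Algebra A[X] (X.Ri A) := (aeval (X.yi A)).toAlgebra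
    ∃ c : Basis (Fin X.deg) A[X] (X.Ri A), ∀ j, c j = 1 ⊗ₜ X.wi j :=
  exists_basis_aeval_of_basis (X.basisiA A) (X.basisiA_apply A)

variable {A}

theorem aeval_x0_mem_nonZeroDivisors {p : A[X]} (hp : p.Monic) :
    aeval (X.x0 A) p ∈ nonZeroDivisors (X.R0 A) :=
  aeval_mem_nonZeroDivisors_of_basis (X.basis0A A) (X.basis0A_apply A) hp
theorem aeval_yi_mem_nonZeroDivisors {p : A[X]} (hp : p.Monic) :
    aeval (X.yi A) p ∈ nonZeroDivisors (X.Ri A) :=
  aeval_mem_nonZeroDivisors_of_basis (X.basisiA A) (X.basisiA_apply A) hp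

theorem J0_mem_nonZeroDivisors {r : X.R0 A} (hr : r ∈ nonZeroDivisors (X.R0 A)) :
    X.J0 A r ∈ nonZeroDivisors (X.R A) := by
  rw [mem_nonZeroDivisors_iff_right] at hr ⊢
  intro z hz
  obtain ⟨n, s, hs⟩ := X.exists_pow_mul_xA A z
  have h1 : s * r = 0 := X.J0_injective A (by
    rw [map_mul, ← hs, mul_assoc, hz, mul_zero, map_zero])
  have h2 := hr s h1
  rw [h2, map_zero] at hs
  exact ((X.uA_isUnit A).pow n).mul_right_eq_zero.1 hs
theorem Ji_mem_nonZeroDivisors {r : X.Ri A} (hr : r ∈ nonZeroDivisors (X.Ri A)) :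
    X.Ji A r ∈ nonZeroDivisors (X.R A) := by
  rw [mem_nonZeroDivisors_iff_right] at hr ⊢
  intro z hz
  obtain ⟨n, s, hs⟩ := X.exists_pow_mul_yA A z
  have h1 : s * r = 0 := X.Ji_injective A (by
    rw [map_mul, ← hs, mul_assoc, hz, mul_zero, map_zero])
  have h2 := hr s h1
  rw [h2, map_zero] at hs
  exact ((X.uA_inv_isUnit A).pow n).mul_right_eq_zero.1 hs

theorem J0_aeval (p : A[X]) : X.J0 A (aeval (X.x0 A) p) = aeval (X.xA A) p := by
  rw [← J0_x0, aeval_algHom_apply]
theorem Ji_aeval (p : A[X]) : X.Ji A (aeval (X.yi A) p) = aeval (X.yA A) p := by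
  rw [← Ji_yi, aeval_algHom_apply]

theorem aeval_xA_mem_nonZeroDivisors {p : A[X]} (hp : p.Monic) :
    aeval (X.xA A) p ∈ nonZeroDivisors (X.R A) := by
  rw [← J0_aeval]
  exact X.J0_mem_nonZeroDivisors (X.aeval_x0_mem_nonZeroDivisors hp)
theorem aeval_yA_mem_nonZeroDivisors {p : A[X]} (hp : p.Monic) :
    aeval (X.yA A) p ∈ nonZeroDivisors (X.R A) := by
  rw [← Ji_aeval]
  exact X.Ji_mem_nonZeroDivisors (X.aeval_yi_mem_nonZeroDivisors hp)

variable (A)

theorem isLocalization_R0 : IsLocalization.Away (X.x0 A) (X.R A) where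
  map_units := by
    rintro ⟨_, n, rfl⟩
    dsimp only
    rw [map_pow, algebraMap0, J0_x0]
    exact (X.uA_isUnit A).pow n
  surj z := by
    obtain ⟨n, r, hr⟩ := X.exists_pow_mul_xA A z
    refine ⟨⟨r, ⟨_, n, rfl⟩⟩, ?_⟩
    dsimp only
    rw [map_pow, algebraMap0, J0_x0, mul_comm, hr]
    rfl
  exists_of_eq {a b} hab := ⟨1, by rw [X.J0_injective A hab]⟩
theorem isLocalization_Ri : IsLocalization.Away (X.yi A) (X.R A) where
  map_units := by
    rintro ⟨_, n, rfl⟩
    dsimp only
    rw [map_pow, algebraMapi, Ji_yi]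
    exact (X.uA_inv_isUnit A).pow n
  surj z := by
    obtain ⟨n, r, hr⟩ := X.exists_pow_mul_yA A z
    refine ⟨⟨r, ⟨_, n, rfl⟩⟩, ?_⟩
    dsimp only
    rw [map_pow, algebraMapi, Ji_yi, mul_comm, hr]
    rfl
  exists_of_eq {a b} hab := ⟨1, by rw [X.Ji_injective A hab]⟩

/-! ### the structure sheaf -/

variable {A}

/-- a function which is regular on both charts is constant -/
theorem exists_eq_algebraMap {m : X.R A} (h0 : m ∈ Set.range (X.J0 A))
    (hi : m ∈ Set.range (X.Ji A)) : ∃ a : A, m = algebraMap A (X.R A) a := by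
  classical
  let 𝓐 := Basis.ofVectorSpace k A
  let e : X.R A ≃ₗ[k] _ := TensorProduct.equivFinsuppOfBasisLeft 𝓐 (N := X.B)
  have h0' : ∀ i, e m i ∈ X.B0 := by
    obtain ⟨r, rfl⟩ := h0
    clear hi
    intro i
    induction r using TensorProduct.induction_on with
    | zero => simp
    | tmul a b =>
      have h1 : X.J0 A (a ⊗ₜ b) = a ⊗ₜ (b : X.B) := by simp [CurveData.J0]
      rw [h1]
      change TensorProduct.equivFinsuppOfBasisLeft 𝓐 (N := X.B) (a ⊗ₜ (b : X.B)) i ∈ X.B0
      rw [TensorProduct.equivFinsuppOfBasisLeft_apply_tmul_apply]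
      exact X.B0.smul_mem b.2 _
    | add r s hr hs =>
      rw [map_add, map_add, Finsupp.add_apply]
      exact add_mem hr hs
  have hi' : ∀ i, e m i ∈ X.Bi := by
    obtain ⟨r, rfl⟩ := hi
    intro i
    clear h0' h0
    induction r using TensorProduct.induction_on with
    | zero => simp
    | tmul a b =>
      have h1 : X.Ji A (a ⊗ₜ b) = a ⊗ₜ (b : X.B) := by simp [CurveData.Ji]
      rw [h1]
      change TensorProduct.equivFinsuppOfBasisLeft 𝓐 (N := X.B) (a ⊗ₜ (b : X.B)) i ∈ X.Bi
      rw [TensorProduct.equivFinsuppOfBasisLeft_apply_tmul_apply]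
      exact X.Bi.smul_mem b.2 _
    | add r s hr hs =>
      rw [map_add, map_add, Finsupp.add_apply]
      exact add_mem hr hs
  have h : ∀ i, ∃ c : k, e m i = algebraMap k X.B c := by
    intro i
    have h1 : e m i ∈ X.B0 ⊓ X.Bi := ⟨h0' i, hi' i⟩
    rw [X.inter] at h1
    obtain ⟨c, hc⟩ := h1
    exact ⟨c, hc.symm⟩
  choose c hc using h
  refine ⟨(e m).sum fun i _ => c i • 𝓐 i, ?_⟩
  have h1 : m = (e m).sum fun i n => 𝓐 i ⊗ₜ[k] n := by
    conv_lhs => rw [← e.symm_apply_apply m]
    exact TensorProduct.equivFinsuppOfBasisLeft_symm_apply 𝓐 (e m)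
  conv_lhs => rw [h1]
  rw [Finsupp.sum, Finsupp.sum, map_sum]
  refine Finset.sum_congr rfl fun i _ => ?_
  rw [hc i, Algebra.algebraMap_eq_smul_one, TensorProduct.tmul_smul, TensorProduct.smul_tmul']
  rfl

/-- global functions on `C × Spec A` are constant -/
theorem h0OneStmt : H0OneStmt X := fun {A} _ _ r s h => by
  obtain ⟨a, ha⟩ := X.exists_eq_algebraMap (m := X.J0 A r) ⟨r, rfl⟩ ⟨s, h.symm⟩
  refine ⟨a, X.J0_injective A ?_, X.Ji_injective A ?_⟩
  · rw [ha]
    exact ((X.J0 A).commutes a).symm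
  · rw [← h, ha]
    exact ((X.Ji A).commutes a).symm

end CurveData

/-- global sections of the structure sheaf -/
theorem LB.H0_one {k : Type u} [Field k] (X : CurveData k) (A : Type u) [CommRing A]
    [Algebra k A] : (LB.one X A).H0 = LinearMap.range (Algebra.linearMap A (X.R A)) := by
  apply le_antisymm
  · rintro m ⟨h0, hi⟩
    obtain ⟨a, ha⟩ := X.exists_eq_algebraMap (m := m) h0 hi
    exact ⟨a, ha.symm⟩
  · rintro _ ⟨a, rfl⟩
    exact ⟨⟨algebraMap A _ a, (X.J0 A).commutes a⟩, ⟨algebraMap A _ a, (X.Ji A).commutes a⟩⟩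

end Fermat.Agent.Jac
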