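import Fermat.Agent.Jac.Basic

/-!
# Points of the two charts
-/

set_option autoImplicit false

universe u

open TensorProduct Polynomial Module

namespace Fermat.Agent.Jac

namespace IsChart

variable {k : Type u} [Field k] {B : Type u} [CommRing B] [Algebra k B] {S : Subalgebra k B}
  {x y : B} (h : IsChart S x y)
include h

/-- extension of points -/
theorem exists_extend {A : Type*} [CommRing A] [Algebra k A] (σ : S →ₐ[k] A)
    (hσ : IsUnit (σ ⟨x, h.mem⟩)) : ∃ τ : B →ₐ[k] A, τ.comp S.val = σ := by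
  have := h.isLocalization
  refine ⟨IsLocalization.liftAlgHom (A := k) (M := Submonoid.powers (⟨x, h.mem⟩ : S)) (f := σ) ?_,
    ?_⟩
  · rintro ⟨_, n, rfl⟩
    change IsUnit (σ (⟨x, h.mem⟩ ^ n))
    rw [map_pow]
    exact hσ.pow n
  · ext s
    simp only [AlgHom.comp_apply]
    exact IsLocalization.lift_eq _ s

theorem ext_of_comp {A : Type*} [CommRing A] [Algebra k A] {τ τ' : B →ₐ[k] A}
    (hτ : τ.comp S.val = τ'.comp S.val) : τ = τ' := by
  ext b
  obtain ⟨n, hn⟩ := h.loc b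
  have h1 := DFunLike.congr_fun hτ (⟨_, hn⟩ : S)
  have h2 := DFunLike.congr_fun hτ (⟨x, h.mem⟩ : S)
  change τ (x ^ n * b) = τ' (x ^ n * b) at h1
  change τ x = τ' x at h2
  rw [map_mul, map_mul, map_pow, map_pow, h2] at h1
  exact ((h.isUnit.map τ').pow n).mul_left_cancel h1

/-- `x - a` is not a unit -/
theorem not_isUnit_sub {K : Type*} [Field K] [Algebra k K] (a : K) :
    ¬ IsUnit ((1 : K) ⊗ₜ[k] (⟨x, h.mem⟩ : S) - algebraMap K (K ⊗[k] S) a) := by
  intro hu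
  obtain ⟨d, w, b, hb⟩ := h.exists_basis
  have hd := h.pos_of_basis b
  let b' : Basis (Fin d × ℕ) K (K ⊗[k] S) := Algebra.TensorProduct.basis K b
  have hb' : ∀ j n, b' (j, n) = ((1 : K) ⊗ₜ[k] (⟨x, h.mem⟩ : S)) ^ n * 1 ⊗ₜ w j := fun j n => by
    change Algebra.TensorProduct.basis K b _ = _
    rw [Algebra.TensorProduct.basis_apply, hb, Algebra.TensorProduct.tmul_pow,
      Algebra.TensorProduct.tmul_mul_tmul, one_pow, one_mul]
  have hbij := bijective_sum_aeval_mul b' hb'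
  obtain ⟨z, hz⟩ := hu.exists_left_inv
  obtain ⟨p, hp⟩ := hbij.2 (z * 1 ⊗ₜ w ⟨0, hd⟩)
  have h1 := congrArg (fun t => t * ((1 : K) ⊗ₜ[k] (⟨x, h.mem⟩ : S) -
    algebraMap K (K ⊗[k] S) a)) hp
  simp only at h1
  rw [mul_right_comm, hz, one_mul, Finset.sum_mul] at h1
  have h2 : ∀ i, aeval ((1 : K) ⊗ₜ[k] (⟨x, h.mem⟩ : S)) (p i) * 1 ⊗ₜ[k] w i *
      ((1 : K) ⊗ₜ[k] (⟨x, h.mem⟩ : S) - algebraMap K (K ⊗[k] S) a) =
      aeval ((1 : K) ⊗ₜ[k] (⟨x, h.mem⟩ : S)) (p i * (X - C a)) * 1 ⊗ₜ[k] w i := by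
    intro i
    rw [map_mul, map_sub, aeval_X, aeval_C]
    ring
  simp_rw [h2] at h1
  have h3 : (∑ i, aeval ((1 : K) ⊗ₜ[k] (⟨x, h.mem⟩ : S)) (Pi.single (M := fun _ => K[X])
      (⟨0, hd⟩ : Fin d) 1 i) * 1 ⊗ₜ[k] w i) = (1 : K) ⊗ₜ[k] w ⟨0, hd⟩ := by
    rw [Finset.sum_eq_single ⟨0, hd⟩ (fun i _ hi => by rw [Pi.single_eq_of_ne hi]; simp)
      (fun hj => absurd (Finset.mem_univ _) hj), Pi.single_eq_same]
    simp
  rw [← h3] at h1
  have h4 := congrFun (hbij.1 h1) ⟨0, hd⟩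
  rw [Pi.single_eq_same] at h4
  have h5 := congrArg (eval a) h4
  simp at h5

/-- over an algebraically closed field `x` takes every value -/
theorem exists_point [Algebra.FiniteType k S] {K : Type*} [Field K] [IsAlgClosed K] [Algebra k K]
    (a : K) : ∃ σ : S →ₐ[k] K, σ ⟨x, h.mem⟩ = a := by
  obtain ⟨M, hM, hmem⟩ := exists_max_ideal_of_mem_nonunits (h.not_isUnit_sub a)
  let L := (K ⊗[k] S) ⧸ M
  let _ : Field L := Ideal.Quotient.field M
  have : Module.Finite K L := finite_of_finite_type_of_isJacobsonRing K L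
  have : Algebra.IsIntegral K L := Algebra.IsIntegral.of_finite K L
  have hbij : Function.Bijective (algebraMap K L) :=
    IsAlgClosed.algebraMap_bijective_of_isIntegral
  let e : K ≃ₐ[K] L := AlgEquiv.ofBijective (Algebra.ofId K L) hbij
  let f : K ⊗[k] S →ₐ[K] K := e.symm.toAlgHom.comp (Ideal.Quotient.mkₐ K M)
  refine ⟨(f.restrictScalars k).comp Algebra.TensorProduct.includeRight, ?_⟩
  have h1 : f ((1 : K) ⊗ₜ[k] (⟨x, h.mem⟩ : S) - algebraMap K (K ⊗[k] S) a) = 0 := by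
    have h2 : Ideal.Quotient.mkₐ K M ((1 : K) ⊗ₜ[k] (⟨x, h.mem⟩ : S) -
      algebraMap K (K ⊗[k] S) a) = 0 := Ideal.Quotient.eq_zero_iff_mem.2 hmem
    change e.symm.toAlgHom (Ideal.Quotient.mkₐ K M _) = 0
    rw [h2, map_zero]
  rw [map_sub, AlgHom.commutes, sub_eq_zero] at h1
  exact h1

/-- `x` takes every value finitely often -/
theorem finite_points {K : Type*} [Field K] [Algebra k K] (a : K) :
    {σ : S →ₐ[k] K | σ ⟨x, h.mem⟩ = a}.Finite := by
  obtain ⟨d, w, b, hb⟩ := h.exists_basis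
  -- integral equations of the `w j`
  have h1 : ∀ j, ∃ q : k[X][X], q.Monic ∧
      eval₂ (aeval (⟨x, h.mem⟩ : S) : k[X] →ₐ[k] S).toRingHom (w j) q = 0 := fun j =>
    h.fin.to_isIntegral (w j)
  choose q hq hq0 using h1
  let r : Fin d → K[X] := fun j => (q j).map (aeval a : k[X] →ₐ[k] K).toRingHom
  have hr : ∀ j, r j ≠ 0 := fun j => ((hq j).map _).ne_zero
  refine Set.Finite.of_finite_image (f := fun σ j => σ (w j))
    (Set.Finite.subset (Set.Finite.pi' fun j => ((r j).rootSet_finite K)) ?_) ?_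
  · rintro _ ⟨σ, hσ, rfl⟩ j
    rw [mem_rootSet]
    refine ⟨hr j, ?_⟩
    have h2 := congrArg σ (hq0 j)
    rw [map_zero] at h2
    rw [← h2]
    change _ = (σ : S →+* K) _
    rw [hom_eval₂, coe_aeval_eq_eval, eval_map]
    congr 1
    apply Polynomial.ringHom_ext
    · intro c
      simp
    · simpa using hσ.symm
  · intro σ hσ τ hτ hστ
    have h3 : ∀ i, σ (b i) = τ (b i) := by
      rintro ⟨j, n⟩
      rw [hb, map_mul, map_mul, map_pow, map_pow, (hσ : σ ⟨x, h.mem⟩ = a), (hτ : τ ⟨x, h.mem⟩ = a)]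
      exact congrArg _ (congrFun hστ j)
    have h4 : σ.toLinearMap = τ.toLinearMap := b.ext h3
    exact AlgHom.toLinearMap_injective h4

end IsChart

namespace CurveData

variable {k : Type u} [Field k] (X : CurveData k)

theorem finiteType_B0 : Algebra.FiniteType k X.B0 := by
  have := X.smooth0
  infer_instance
theorem finiteType_Bi : Algebra.FiniteType k X.Bi := by
  have := X.smoothi
  infer_instance

section Extend

variable {A : Type*} [CommRing A] [Algebra k A]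

/-- a section of `V₀` on which `x` is invertible is a section of `V₀ ∩ V∞` -/
theorem exists_extend_B0 (σ : X.B0 →ₐ[k] A) (hσ : IsUnit (σ ⟨X.x, X.x_mem⟩)) :
    ∃ τ : X.B →ₐ[k] A, τ.comp X.B0.val = σ := X.chart0.exists_extend σ hσ
theorem exists_extend_Bi (σ : X.Bi →ₐ[k] A) (hσ : IsUnit (σ ⟨X.y, X.y_mem⟩)) :
    ∃ τ : X.B →ₐ[k] A, τ.comp X.Bi.val = σ := X.charti.exists_extend σ hσ
theorem ext_B0 {τ τ' : X.B →ₐ[k] A} (h : τ.comp X.B0.val = τ'.comp X.B0.val) : τ = τ' :=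
  X.chart0.ext_of_comp h
theorem ext_Bi {τ τ' : X.B →ₐ[k] A} (h : τ.comp X.Bi.val = τ'.comp X.Bi.val) : τ = τ' :=
  X.charti.ext_of_comp h

theorem map_x_mul_map_y (τ : X.B →ₐ[k] A) : τ X.x * τ X.y = 1 := by
  rw [← map_mul, X.xy, map_one]
theorem isUnit_map_x (τ : X.B →ₐ[k] A) : IsUnit (τ X.x) := .of_mul_eq_one _ (X.map_x_mul_map_y τ)

/-- sections of `V₀ ∩ V∞` are the sections of `V₀` on which `x` is invertible -/
noncomputable def extend0 : {σ : X.B0 →ₐ[k] A // IsUnit (σ ⟨X.x, X.x_mem⟩)} ≃ (X.B →ₐ[k] A) where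
  toFun σ := (X.exists_extend_B0 σ.1 σ.2).choose
  invFun τ := ⟨τ.comp X.B0.val, X.isUnit_map_x τ⟩
  left_inv σ := Subtype.ext (X.exists_extend_B0 σ.1 σ.2).choose_spec
  right_inv τ := X.ext_B0 (X.exists_extend_B0 _ (X.isUnit_map_x τ)).choose_spec

end Extend

section Points

variable {K : Type*} [Field K] [Algebra k K]

theorem exists_point_B0 [IsAlgClosed K] (a : K) : ∃ σ : X.B0 →ₐ[k] K, σ ⟨X.x, X.x_mem⟩ = a :=
  have := X.finiteType_B0
  X.chart0.exists_point a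
theorem exists_point_Bi [IsAlgClosed K] (a : K) : ∃ σ : X.Bi →ₐ[k] K, σ ⟨X.y, X.y_mem⟩ = a :=
  have := X.finiteType_Bi
  X.charti.exists_point a
theorem exists_point_B [IsAlgClosed K] {a : K} (ha : a ≠ 0) : ∃ σ : X.B →ₐ[k] K, σ X.x = a := by
  obtain ⟨σ, hσ⟩ := X.exists_point_B0 a
  obtain ⟨τ, rfl⟩ := X.exists_extend_B0 σ (by rw [hσ]; exact ha.isUnit)
  exact ⟨τ, hσ⟩

theorem finite_points_B0 (a : K) : {σ : X.B0 →ₐ[k] K | σ ⟨X.x, X.x_mem⟩ = a}.Finite :=
  X.chart0.finite_points a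
theorem finite_points_Bi (a : K) : {σ : X.Bi →ₐ[k] K | σ ⟨X.y, X.y_mem⟩ = a}.Finite :=
  X.charti.finite_points a
theorem finite_points_B (a : K) : {σ : X.B →ₐ[k] K | σ X.x = a}.Finite := by
  refine Set.Finite.of_finite_image (f := fun σ => σ.comp X.B0.val)
    ((X.finite_points_B0 a).subset ?_) fun σ _ τ _ h => X.ext_B0 h
  rintro _ ⟨σ, hσ, rfl⟩
  exact hσ

theorem infinite_points_B [IsAlgClosed K] : Infinite (X.B →ₐ[k] K) := by
  have : Infinite K := IsAlgClosed.instInfinite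
  have h1 : Infinite {a : K // a ≠ 0} := by
    have := (Set.finite_singleton (0 : K)).infinite_compl
    exact this.to_subtype
  choose f hf using fun a : {a : K // a ≠ 0} => X.exists_point_B a.2
  refine Infinite.of_injective f fun a b hab => Subtype.ext ?_
  rw [← hf a, hab, hf b]
theorem infinite_points_B0 [IsAlgClosed K] : Infinite (X.B0 →ₐ[k] K) := by
  have := X.infinite_points_B (K := K)
  exact Infinite.of_injective (fun σ : X.B →ₐ[k] K => σ.comp X.B0.val) fun σ τ h => X.ext_B0 h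
theorem infinite_points_Bi [IsAlgClosed K] : Infinite (X.Bi →ₐ[k] K) := by
  have := X.infinite_points_B (K := K)
  exact Infinite.of_injective (fun σ : X.B →ₐ[k] K => σ.comp X.Bi.val) fun σ τ h => X.ext_Bi h

/-- the points of `C` outside `V₀` lie over `y = 0` -/
theorem finite_points_Bi_not_B :
    {σ : X.Bi →ₐ[k] K | ¬ ∃ τ : X.B →ₐ[k] K, τ.comp X.Bi.val = σ}.Finite := by
  refine (X.finite_points_Bi (0 : K)).subset fun σ hσ => ?_
  by_contra h
  exact hσ (X.exists_extend_Bi σ (Ne.isUnit h))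

end Points

/-- a point of `C` outside `V₀`: `y` vanishes -/
theorem map_y_eq_zero_or {K : Type*} [Field K] [Algebra k K] (σ : X.Bi →ₐ[k] K) :
    σ ⟨X.y, X.y_mem⟩ = 0 ∨ ∃ τ : X.B →ₐ[k] K, τ.comp X.Bi.val = σ := by
  by_cases h : σ ⟨X.y, X.y_mem⟩ = 0
  · exact Or.inl h
  · exact Or.inr (X.exists_extend_Bi σ (Ne.isUnit h))
theorem map_x_eq_zero_or {K : Type*} [Field K] [Algebra k K] (σ : X.B0 →ₐ[k] K) :
    σ ⟨X.x, X.x_mem⟩ = 0 ∨ ∃ τ : X.B →ₐ[k] K, τ.comp X.B0.val = σ := by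
  by_cases h : σ ⟨X.x, X.x_mem⟩ = 0
  · exact Or.inl h
  · exact Or.inr (X.exists_extend_B0 σ (Ne.isUnit h))

end CurveData

end Fermat.Agent.Jac
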