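import Fermat.Agent.Jac.ChCyc

/-!
# Coordinates with respect to a basis of `V`
-/

set_option autoImplicit false

namespace Fermat.Agent.Jac

open LaurentPolynomial Submodule

section

variable {A M : Type*} [CommRing A] [AddCommGroup M] [Module A M] [Module A[T;T⁻¹] M]
  [IsScalarTower A A[T;T⁻¹] M]

omit [Module A M] [IsScalarTower A A[T;T⁻¹] M] in
theorem coeff_T_mul (n m : ℤ) (f : A[T;T⁻¹]) : (T n * f).coeff m = f.coeff (m - n) := by
  induction f using LaurentPolynomial.induction_on' with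
  | add p q hp hq => rw [mul_add, AddMonoidAlgebra.coeff_add, AddMonoidAlgebra.coeff_add,
      Finsupp.add_apply, Finsupp.add_apply, hp, hq]
  | C_mul_T l a =>
    rw [mul_comm, mul_assoc, ← T_add, coeff_C_mul_T, coeff_C_mul_T]
    by_cases h : l + n = m
    · rw [if_pos h, if_pos (by omega)]
    · rw [if_neg h, if_neg (by omega)]

theorem C_smul' (a : A) (m : M) : (C a : A[T;T⁻¹]) • m = a • m := by
  rw [← algebraMap_smul A[T;T⁻¹] a m]; rfl

variable {N0 Ni : Submodule A M} (h : Split N0 Ni) {ι : Type*} [Finite ι]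
  (e : Module.Basis ι A (secV N0 Ni))

include h

theorem Split.repr_secV (v : secV N0 Ni) (i : ι) :
    (h.basis e).repr (v : M) i = C (e.repr v i) := by
  classical
  have := Fintype.ofFinite ι
  have h1 : (v : M) = ∑ l, (C (e.repr v l) : A[T;T⁻¹]) • h.basis e l := by
    conv_lhs => rw [← e.sum_repr v]
    rw [AddSubmonoidClass.coe_finsetSum]
    refine Finset.sum_congr rfl fun l _ => ?_
    rw [C_smul', h.basis_apply e l]
    rfl
  have h2 := (h.basis e).repr_sum_self (fun l => (C (e.repr v l) : A[T;T⁻¹]))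
  rw [← h1] at h2
  exact congrFun h2 i

/-- elements of `N0` have coordinates in `A[T]`. -/
theorem Split.coeff_eq_zero_of_mem_N0 {m : M} (hm : m ∈ N0) (i : ι) {n : ℤ} (hn : n < 0) :
    ((h.basis e).repr m i).coeff n = 0 := by
  obtain ⟨k, hk⟩ := h.exi m
  obtain ⟨v, hv⟩ := h.exists_sum k hm hk
  rw [hv, map_sum, Finsupp.finsetSum_apply, AddMonoidAlgebra.coeff_sum, Finsupp.finsetSum_apply]
  refine Finset.sum_eq_zero fun l _ => ?_
  rw [map_smul, Finsupp.smul_apply, h.repr_secV e, smul_eq_mul, coeff_T_mul, C_apply, if_neg]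
  omega

/-- elements of `W` have coordinates in `A[T⁻¹]`. -/
theorem Split.coeff_eq_zero_of_mem_twT {m : M} (hm : m ∈ twT Ni) (i : ι) {n : ℤ} (hn : 0 < n) :
    ((h.basis e).repr m i).coeff n = 0 := by
  obtain ⟨k, hk⟩ := h.ex0 m
  have hk' : (T (-(k + 1 : ℕ)) : A[T;T⁻¹]) • ((T k : A[T;T⁻¹]) • m) ∈ Ni := by
    rw [T_smul_T_smul]
    have : (-(k + 1 : ℕ) + (k : ℤ) : ℤ) = -1 := by push_cast; ring
    rw [this]
    exact hm
  obtain ⟨v, hv⟩ := h.exists_sum (k + 1) hk hk'
  have hm' : m = (T (-k) : A[T;T⁻¹]) • ((T k : A[T;T⁻¹]) • m) := by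
    rw [T_smul_T_smul]; simp
  rw [hm', hv, Finset.smul_sum, map_sum, Finsupp.finsetSum_apply, AddMonoidAlgebra.coeff_sum,
    Finsupp.finsetSum_apply]
  refine Finset.sum_eq_zero fun l hl => ?_
  rw [T_smul_T_smul, map_smul, Finsupp.smul_apply, h.repr_secV e, smul_eq_mul, coeff_T_mul,
    C_apply, if_neg]
  rw [Finset.mem_range] at hl
  omega

theorem Split.mem_N0_iff (m : M) :
    m ∈ N0 ↔ ∀ i, ∀ n : ℤ, n < 0 → ((h.basis e).repr m i).coeff n = 0 := by
  classical
  have := Fintype.ofFinite ι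
  refine ⟨fun hm i n hn => h.coeff_eq_zero_of_mem_N0 e hm i hn, fun hm => ?_⟩
  rw [← (h.basis e).sum_repr m]
  refine N0.sum_mem fun i _ => ?_
  rw [lp_eq_sum ((h.basis e).repr m i) _ (Finset.Subset.refl _), Finset.sum_smul]
  refine N0.sum_mem fun n hn => ?_
  rw [mul_smul, C_smul']
  refine N0.smul_mem _ (h.st0_int ?_ ?_)
  · by_contra hn'
    exact (Finsupp.mem_support_iff.mp hn) (hm i n (not_le.mp hn'))
  · rw [h.basis_apply e]; exact (e i).2.1

theorem Split.mem_twT_iff (m : M) :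
    m ∈ twT Ni ↔ ∀ i, ∀ n : ℤ, 0 < n → ((h.basis e).repr m i).coeff n = 0 := by
  classical
  have := Fintype.ofFinite ι
  refine ⟨fun hm i n hn => h.coeff_eq_zero_of_mem_twT e hm i hn, fun hm => ?_⟩
  rw [← (h.basis e).sum_repr m]
  refine (twT Ni).sum_mem fun i _ => ?_
  rw [lp_eq_sum ((h.basis e).repr m i) _ (Finset.Subset.refl _), Finset.sum_smul]
  refine (twT Ni).sum_mem fun n hn => ?_
  rw [mul_smul, C_smul']
  refine (twT Ni).smul_mem _ ?_
  rw [mem_twT, T_smul_T_smul, add_comm, ← T_smul_T_smul]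
  refine h.sti_int ?_ ?_
  · by_contra hn'
    exact (Finsupp.mem_support_iff.mp hn) (hm i n (not_le.mp hn'))
  · rw [h.basis_apply e]; exact (e i).2.2

theorem Split.mem_Ni_iff (m : M) :
    m ∈ Ni ↔ ∀ i, ∀ n : ℤ, 0 ≤ n → ((h.basis e).repr m i).coeff n = 0 := by
  have h1 : m ∈ Ni ↔ (T 1 : A[T;T⁻¹]) • m ∈ twT Ni := by
    rw [mem_twT, T_smul_T_smul]; simp
  rw [h1, h.mem_twT_iff e]
  refine forall_congr' fun i => ⟨fun H n hn => ?_, fun H n hn => ?_⟩
  · have := H (n + 1) (by omega)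
    rw [map_smul, Finsupp.smul_apply, smul_eq_mul, coeff_T_mul] at this
    simpa using this
  · rw [map_smul, Finsupp.smul_apply, smul_eq_mul, coeff_T_mul]
    exact H _ (by omega)

end

end Fermat.Agent.Jac
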