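import Fermat.Agent.Jac.Def

/-!
# Line bundles over fields are subsheaves of `O(n)`
-/

set_option autoImplicit false

universe u

open TensorProduct

namespace Fermat.Agent.Jac

theorem finite_maximalSpectrum_of_finite (κ Q : Type*) [Field κ] [CommRing Q] [Algebra κ Q]
    [Module.Finite κ Q] : Finite (MaximalSpectrum Q) := by
  have h2 : IsArtinianRing Q := IsArtinianRing.of_finite κ _
  infer_instance

section FieldBase

variable {k : Type u} [Field k] (X : CurveData k) (κ : Type u) [Field κ] [Algebra k κ]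

theorem CurveData.y_not_unit : ¬ IsUnit (⟨X.y, X.y_mem⟩ : X.Bi) := by
  intro h
  obtain ⟨z, hz⟩ := h.exists_right_inv
  have h1 : (z : X.B) = X.x := by
    have h2 : X.y * (z : X.B) = 1 := congrArg Subtype.val hz
    calc (z : X.B) = X.x * X.y * z := by rw [X.xy, one_mul]
      _ = X.x := by rw [mul_assoc, h2, mul_one]
  have h3 : X.x ∈ X.B0 ⊓ X.Bi := ⟨X.x_mem, h1 ▸ z.2⟩
  rw [X.inter, Algebra.mem_bot] at h3
  obtain ⟨a, ha⟩ := h3
  refine X.trans ?_
  rw [← ha]
  exact isAlgebraic_algebraMap a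

theorem CurveData.yi_not_unit : ¬ IsUnit (X.yi κ) := by
  intro h
  obtain ⟨z, hz⟩ := h.exists_right_inv
  -- a retraction of `k → κ`
  obtain ⟨ρ, hρ⟩ := (Algebra.linearMap k κ).exists_leftInverse_of_injective
    (LinearMap.ker_eq_bot.2 (algebraMap k κ).injective)
  let f : κ ⊗[k] X.Bi →ₗ[k] X.Bi :=
    (TensorProduct.lid k X.Bi).toLinearMap ∘ₗ (LinearMap.rTensor X.Bi ρ)
  have hf : ∀ (b : X.Bi) (z : κ ⊗[k] X.Bi), f ((1 ⊗ₜ b) * z) = b * f z := by
    intro b z
    induction z using TensorProduct.induction_on with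
    | zero => simp
    | tmul a c => simp [f]
    | add r s hr hs => rw [mul_add, map_add, hr, hs, map_add, mul_add]
  have h1 : f (1 ⊗ₜ (1 : X.Bi)) = 1 := by
    have h2 : ρ 1 = 1 := by
      have := LinearMap.congr_fun hρ 1
      simpa using this
    simp [f, h2]
  refine X.y_not_unit (IsUnit.of_mul_eq_one (f z) ?_)
  rw [← hf]
  change f (X.yi κ * z) = 1
  rw [hz, Algebra.TensorProduct.one_def, h1]

theorem CurveData.exists_finset_mod_y : ∃ s : Finset X.Bi, ∀ b : X.Bi,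
    ∃ c ∈ Submodule.span k (s : Set X.Bi), ∃ b' : X.Bi, b = c + ⟨X.y, X.y_mem⟩ * b' := by
  let y : X.Bi := ⟨X.y, X.y_mem⟩
  let _ : Module (Polynomial k) X.Bi :=
    Module.compHom X.Bi (Polynomial.aeval y : Polynomial k →ₐ[k] X.Bi).toRingHom
  have h : Module.Finite (Polynomial k) X.Bi := X.fini
  obtain ⟨s, hs⟩ := h
  refine ⟨s, fun b => ?_⟩
  have hb : b ∈ Submodule.span (Polynomial k) (s : Set X.Bi) := by rw [hs]; trivial
  induction hb using Submodule.span_induction with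
  | mem z hz => exact ⟨z, Submodule.subset_span hz, 0, by simp⟩
  | zero => exact ⟨0, zero_mem _, 0, by simp⟩
  | add z w _ _ hz hw =>
    obtain ⟨c, hc, b', rfl⟩ := hz
    obtain ⟨c', hc', b'', rfl⟩ := hw
    exact ⟨c + c', add_mem hc hc', b' + b'', by ring⟩
  | smul p z _ hz =>
    obtain ⟨c, hc, b', rfl⟩ := hz
    have h1 : p • (c + y * b') = Polynomial.aeval y p * (c + y * b') := rfl
    have h2 : Polynomial.aeval y p = algebraMap k X.Bi (p.coeff 0) +
        y * Polynomial.aeval y p.divX := by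
      conv_lhs => rw [← Polynomial.X_mul_divX_add p]
      rw [map_add, map_mul, Polynomial.aeval_X, Polynomial.aeval_C, add_comm]
    refine ⟨p.coeff 0 • c, Submodule.smul_mem _ _ hc,
      Polynomial.aeval y p.divX * c + Polynomial.aeval y p * b', ?_⟩
    rw [h1, h2, Algebra.smul_def]
    ring

theorem CurveData.exists_finset_mod_yi (A : Type u) [CommRing A] [Algebra k A] :
    ∃ s : Set (X.Ri A), s.Finite ∧ ∀ z : X.Ri A, ∃ c ∈ Submodule.span A s, ∃ z' : X.Ri A,
      z = c + X.yi A * z' := by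
  obtain ⟨s, hs⟩ := X.exists_finset_mod_y
  refine ⟨(fun b : X.Bi => (1 ⊗ₜ b : A ⊗[k] X.Bi)) '' s, s.finite_toSet.image _, fun z => ?_⟩
  induction z using TensorProduct.induction_on with
  | zero => exact ⟨0, zero_mem _, 0, by simp⟩
  | tmul a b =>
    obtain ⟨c, hc, b', rfl⟩ := hs b
    refine ⟨a ⊗ₜ c, ?_, a ⊗ₜ b', ?_⟩
    · induction hc using Submodule.span_induction with
      | mem z hz =>
        have h1 : (a ⊗ₜ z : A ⊗[k] X.Bi) = a • (1 ⊗ₜ z) := by
          rw [TensorProduct.smul_tmul', smul_eq_mul, mul_one]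
        rw [h1]
        exact Submodule.smul_mem _ _ (Submodule.subset_span ⟨z, hz, rfl⟩)
      | zero => rw [tmul_zero]; exact zero_mem _
      | add z w _ _ hz hw => rw [tmul_add]; exact add_mem hz hw
      | smul r z _ hz =>
        rw [tmul_smul, ← algebraMap_smul A r]
        exact Submodule.smul_mem _ _ hz
    · rw [tmul_add, CurveData.yi, Algebra.TensorProduct.tmul_mul_tmul, one_mul]
  | add r s hr hs =>
    obtain ⟨c, hc, b', rfl⟩ := hr
    obtain ⟨c', hc', b'', rfl⟩ := hs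
    exact ⟨c + c', add_mem hc hc', b' + b'', by ring⟩

/-- the divisor `y = 0` is finite -/
theorem CurveData.finite_mod_yi (A : Type u) [CommRing A] [Algebra k A] :
    Module.Finite A (X.Ri A ⧸ Ideal.span {X.yi A}) := by
  obtain ⟨s, hfin, hs⟩ := X.exists_finset_mod_yi A
  let π : X.Ri A →ₗ[A] (X.Ri A ⧸ Ideal.span {X.yi A}) :=
    (Ideal.Quotient.mkₐ A (Ideal.span {X.yi A})).toLinearMap
  rw [Module.finite_def, Submodule.fg_def]
  refine ⟨π '' s, hfin.image _, ?_⟩
  rw [eq_top_iff]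
  rintro z -
  obtain ⟨z, rfl⟩ := Ideal.Quotient.mkₐ_surjective A _ z
  obtain ⟨c, hc, z', rfl⟩ := hs z
  rw [← Submodule.map_span]
  refine ⟨c, hc, ?_⟩
  change Ideal.Quotient.mk _ c = Ideal.Quotient.mk _ (c + X.yi A * z')
  rw [Ideal.Quotient.eq, sub_add_cancel_left, Ideal.neg_mem_iff]
  exact Ideal.mul_mem_right _ _ (Ideal.mem_span_singleton_self _)

theorem CurveData.finite_maximalSpectrum :
    Finite (MaximalSpectrum (X.Ri κ ⧸ Ideal.span {X.yi κ})) :=
  @finite_maximalSpectrum_of_finite κ (X.Ri κ ⧸ Ideal.span {X.yi κ}) _ _ _ (X.finite_mod_yi κ)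

end FieldBase

section Local

variable {k : Type u} [Field k] {X : CurveData k} {A : Type u} [CommRing A] [Algebra k A]
  (L : LB X A)

theorem LB.xA_pow_smul_cancel (n : ℕ) {m m' : L.M} (h : X.xA A ^ n • m = X.xA A ^ n • m') :
    m = m' := by
  have h1 := congrArg (fun z => X.yA A ^ n • z) h
  simp only [smul_smul, ← mul_pow, mul_comm (X.yA A), X.xA_yA, one_pow, one_smul] at h1
  exact h1

theorem LB.yA_pow_smul_cancel (n : ℕ) {m m' : L.M} (h : X.yA A ^ n • m = X.yA A ^ n • m') :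
    m = m' := by
  have h1 := congrArg (fun z => X.xA A ^ n • z) h
  simp only [smul_smul, ← mul_pow, X.xA_yA, one_pow, one_smul] at h1
  exact h1

/-- `M` is the localization of `Mi` at `y` -/
theorem LB.isLocalizedModule_i :
    IsLocalizedModule (Submonoid.powers (X.yi A)) (L.Mi.subtype) where
  map_units := by
    rintro ⟨_, n, rfl⟩
    rw [Module.End.isUnit_iff]
    constructor
    · intro m m' h
      have h' : X.yi A ^ n • m = X.yi A ^ n • m' := h
      rw [L.smuli, L.smuli, map_pow, X.Ji_yi] at h'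
      exact L.yA_pow_smul_cancel n h'
    · intro m
      refine ⟨X.xA A ^ n • m, ?_⟩
      change X.yi A ^ n • (X.xA A ^ n • m) = m
      rw [L.smuli, map_pow, X.Ji_yi, smul_smul, ← mul_pow, mul_comm, X.xA_yA, one_pow, one_smul]
  surj m := by
    obtain ⟨n, hn⟩ := L.exi m
    refine ⟨⟨⟨_, hn⟩, ⟨_, n, rfl⟩⟩, ?_⟩
    change X.yi A ^ n • m = X.yA A ^ n • m
    rw [L.smuli, map_pow, X.Ji_yi]
  exists_of_eq {m m'} h := ⟨1, by rw [Subtype.ext h]⟩

/-- `M` is the localization of `M0` at `x` -/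
theorem LB.isLocalizedModule_0 :
    IsLocalizedModule (Submonoid.powers (X.x0 A)) (L.M0.subtype) where
  map_units := by
    rintro ⟨_, n, rfl⟩
    rw [Module.End.isUnit_iff]
    constructor
    · intro m m' h
      have h' : X.x0 A ^ n • m = X.x0 A ^ n • m' := h
      rw [L.smul0, L.smul0, map_pow, X.J0_x0] at h'
      exact L.xA_pow_smul_cancel n h'
    · intro m
      refine ⟨X.yA A ^ n • m, ?_⟩
      change X.x0 A ^ n • (X.yA A ^ n • m) = m
      rw [L.smul0, map_pow, X.J0_x0, smul_smul, ← mul_pow, X.xA_yA, one_pow, one_smul]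
  surj m := by
    obtain ⟨n, hn⟩ := L.ex0 m
    refine ⟨⟨⟨_, hn⟩, ⟨_, n, rfl⟩⟩, ?_⟩
    change X.x0 A ^ n • m = X.xA A ^ n • m
    rw [L.smul0, map_pow, X.J0_x0]
  exists_of_eq {m m'} h := ⟨1, by rw [Subtype.ext h]⟩

/-- extension of a linear form on `Mi` to `M` -/
theorem LB.exists_extend_i (L' : LB X A) (a : L.Mi →ₗ[X.Ri A] L'.M) :
    ∃ s : L.M →ₗ[X.R A] L'.M, ∀ m : L.Mi, s m = a m := by
  have hloc := L.isLocalizedModule_i
  have hloc' := L'.isLocalizedModule_i
  obtain ⟨s, hs⟩ : ∃ s : L.M →ₗ[X.Ri A] L'.M, ∀ m : L.Mi, s m = a m :=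
    ⟨IsLocalizedModule.lift (Submonoid.powers (X.yi A)) L.Mi.subtype a
      (fun y => hloc'.map_units y), fun m => LinearMap.congr_fun
        (IsLocalizedModule.lift_comp (Submonoid.powers (X.yi A)) L.Mi.subtype a
          (fun y => hloc'.map_units y)) m⟩
  refine ⟨{ toFun := s, map_add' := map_add s, map_smul' := fun r m => ?_ }, hs⟩
  obtain ⟨n, r', hr⟩ := X.exists_pow_mul_yA A r
  apply L'.yA_pow_smul_cancel n
  have h1 : X.yA A ^ n • s (r • m) = s ((X.yA A ^ n * r) • m) := by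
    rw [← X.Ji_yi, ← map_pow, ← L'.smuli, ← map_smul, L.smuli, smul_smul]
  rw [h1, hr, ← L.smuli, map_smul, L'.smuli, ← hr, RingHom.id_apply, smul_smul]

end Local

section Form

/-- an invertible module has a linear form which is surjective modulo an ideal with semilocal
quotient -/
theorem exists_form_mod {S N : Type u} [CommRing S] [AddCommGroup N] [Module S N]
    [Module.Invertible S N] (J : Ideal S) [Finite (MaximalSpectrum (S ⧸ J))] :
    ∃ a : N →ₗ[S] S, ∀ r : S, ∃ n : N, r - a n ∈ J := by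
  classical
  obtain ⟨e⟩ := Module.Invertible.free_iff_linearEquiv.mp
    (inferInstance : Module.Free (S ⧸ J) ((S ⧸ J) ⊗[S] N))
  let f : N →ₗ[S] (S ⧸ J) := (e.toLinearMap.restrictScalars S) ∘ₗ
    (TensorProduct.mk S (S ⧸ J) N 1)
  obtain ⟨a, ha⟩ := Module.projective_lifting_property (Submodule.mkQ J) f
    (Submodule.mkQ_surjective J)
  refine ⟨a, fun r => ?_⟩
  have hs : Function.Surjective (TensorProduct.mk S (S ⧸ J) N 1) :=
    TensorProduct.mk_surjective S N (S ⧸ J) Ideal.Quotient.mk_surjective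
  obtain ⟨n, hn⟩ := hs (e.symm (Ideal.Quotient.mk J r))
  refine ⟨n, ?_⟩
  rw [← Ideal.Quotient.eq]
  have h1 : Submodule.mkQ J (a n) = f n := LinearMap.congr_fun ha n
  have h2 : f n = Ideal.Quotient.mk J r := by
    change e (TensorProduct.mk S (S ⧸ J) N 1 n) = _
    rw [hn, LinearEquiv.apply_symm_apply]
  rw [← h2, ← h1]
  rfl

/-- elements of invertible modules over domains are proportional -/
theorem exists_proportional {S N : Type u} [CommRing S] [IsDomain S] [AddCommGroup N] [Module S N]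
    [Module.Invertible S N] : ∃ e : N →ₗ[S] S, Function.Injective e ∧
      ∀ m n : N, e m • n = e n • m := by
  obtain ⟨I, ⟨e⟩⟩ := Module.Invertible.exists_linearEquiv_ideal (R := S) (M := N)
  have hinj : Function.Injective (I.subtype ∘ₗ e.toLinearMap) :=
    Subtype.val_injective.comp e.injective
  refine ⟨I.subtype ∘ₗ e.toLinearMap, hinj, fun m n => hinj ?_⟩
  rw [map_smul, map_smul, smul_eq_mul, smul_eq_mul, mul_comm]

end Form

section Emb

variable {k : Type u} [Field k] {X : CurveData k} {κ : Type u} [Field κ] [Algebra k κ]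

theorem CurveData.eq_zero_of_J0_mul {r : X.R0 κ} (hr : r ≠ 0) {z : X.R κ}
    (h : X.J0 κ r * z = 0) : z = 0 := by
  have hd : IsDomain (X.R0 κ) := (X.ded0 κ).toIsDomain
  obtain ⟨n, r', hr'⟩ := X.exists_pow_mul_xA κ z
  have h1 : X.J0 κ (r * r') = 0 := by
    rw [map_mul, ← hr', mul_left_comm, h, mul_zero]
  have h2 : r * r' = 0 := X.J0_injective κ (by rw [h1, map_zero])
  have h3 : r' = 0 := (mul_eq_zero.1 h2).resolve_left hr
  rw [h3, map_zero] at hr'
  calc z = (X.yA κ ^ n) * (X.xA κ ^ n * z) := by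
        rw [← mul_assoc, ← mul_pow, mul_comm (X.yA κ), X.xA_yA, one_pow, one_mul]
    _ = 0 := by rw [hr', mul_zero]

/-- a linear form which vanishes at a nonzero element vanishes -/
theorem LB.eq_zero_of_apply_eq_zero (L : LB X κ) (s : L.M →ₗ[X.R κ] X.R κ) {m : L.M}
    (hm : m ≠ 0) (h : s m = 0) : s = 0 := by
  have hd : IsDomain (X.R0 κ) := (X.ded0 κ).toIsDomain
  have hinv := L.inv0
  obtain ⟨e, he, hp⟩ := exists_proportional (S := X.R0 κ) (N := L.M0)
  -- we may assume `m ∈ M0`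
  obtain ⟨n, hn⟩ := L.ex0 m
  have hn0 : (⟨_, hn⟩ : L.M0) ≠ 0 := by
    intro h0
    apply hm
    apply L.xA_pow_smul_cancel n
    rw [smul_zero]
    exact congrArg Subtype.val h0
  have hen : e ⟨_, hn⟩ ≠ 0 := fun h0 => hn0 (he (by rw [h0, map_zero]))
  have h0 : ∀ m' ∈ L.M0, s m' = 0 := by
    intro m' hm'
    have h1 := congrArg (fun z : L.M0 => s (z : L.M)) (hp ⟨_, hn⟩ ⟨m', hm'⟩)
    simp only [Submodule.coe_smul] at h1
    rw [L.smul0, L.smul0, map_smul, map_smul, map_smul, h, smul_zero, smul_zero,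
      smul_eq_mul] at h1
    exact CurveData.eq_zero_of_J0_mul hen h1
  ext m'
  obtain ⟨j, hj⟩ := L.ex0 m'
  have h1 := h0 _ hj
  rw [map_smul, smul_eq_mul] at h1
  rw [LinearMap.zero_apply]
  calc s m' = X.yA κ ^ j * (X.xA κ ^ j * s m') := by
        rw [← mul_assoc, ← mul_pow, mul_comm (X.yA κ), X.xA_yA, one_pow, one_mul]
    _ = 0 := by rw [h1, mul_zero]

/-- **Line bundles over fields embed in `O(n)`**, with image `O(n)` near `y = 0`. -/
theorem LB.exists_emb (L : LB X κ) : ∃ n0 : ℕ, ∀ n ≥ n0, ∃ s : L.M →ₗ[X.R κ] X.R κ,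
    Function.Injective s ∧ (∀ m ∈ L.M0, ∃ r, s m = X.J0 κ r) ∧
    (∀ m ∈ L.Mi, ∃ r, s m = X.xA κ ^ n * X.Ji κ r) ∧
    (∀ r : X.Ri κ, ∃ m ∈ L.Mi, ∃ t : X.Ri κ,
      X.xA κ ^ n * X.Ji κ r = s m + X.xA κ ^ n * X.Ji κ (X.yi κ * t)) ∧
    (∀ (m : L.M) (r : X.Ri κ), s m = X.xA κ ^ n * X.Ji κ r → m ∈ L.Mi) := by
  have hinvi := L.invi
  have hinv0 := L.inv0
  have hfm := X.finite_maximalSpectrum κ
  obtain ⟨a, ha⟩ := exists_form_mod (S := X.Ri κ) (N := L.Mi) (Ideal.span {X.yi κ})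
  obtain ⟨s, hs'⟩ : ∃ s : L.M →ₗ[X.R κ] X.R κ, ∀ m : L.Mi, s (m : L.M) = X.Ji κ (a m) :=
    L.exists_extend_i (LB.one X κ) ((Algebra.linearMap (X.Ri κ) (X.R κ)) ∘ₗ a)
  -- the form is nonzero, hence injective
  have hs0 : s ≠ 0 := by
    intro h0
    obtain ⟨m, hm⟩ := ha 1
    have h1 : a m = 0 := by
      apply X.Ji_injective κ
      rw [← hs', h0, map_zero, LinearMap.zero_apply]
    rw [h1, sub_zero, Ideal.mem_span_singleton] at hm
    exact X.yi_not_unit κ (isUnit_of_dvd_one hm)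
  have hinj : Function.Injective s := by
    rw [injective_iff_map_eq_zero]
    intro m hm
    by_contra h0
    exact hs0 (L.eq_zero_of_apply_eq_zero s h0 hm)
  -- poles of the form on `V0`
  obtain ⟨n0, hn0⟩ : ∃ n0 : ℕ, ∀ m ∈ L.M0, ∃ r, X.xA κ ^ n0 * s m = X.J0 κ r := by
    have hfin : Module.Finite (X.R0 κ) L.M0 := inferInstance
    have hfg : L.M0.FG := Module.Finite.iff_fg.1 hfin
    obtain ⟨t, ht⟩ := hfg
    have h1 : ∀ z : L.M, ∃ n : ℕ, ∀ n' ≥ n, ∃ r, X.xA κ ^ n' * s z = X.J0 κ r := by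
      intro z
      obtain ⟨n, r, hr⟩ := X.exists_pow_mul_xA κ (s z)
      refine ⟨n, fun n' hn' => ⟨X.x0 κ ^ (n' - n) * r, ?_⟩⟩
      rw [map_mul, map_pow, X.J0_x0, ← hr, ← mul_assoc, ← pow_add, Nat.sub_add_cancel hn']
    choose f hf using h1
    refine ⟨t.sup f, fun m hm => ?_⟩
    rw [← ht] at hm
    induction hm using Submodule.span_induction with
    | mem z hz => exact hf z _ (Finset.le_sup hz)
    | zero => exact ⟨0, by rw [map_zero, mul_zero, map_zero]⟩
    | add z w _ _ hz hw =>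
      obtain ⟨r, hr⟩ := hz
      obtain ⟨r', hr'⟩ := hw
      exact ⟨r + r', by rw [map_add, mul_add, hr, hr', map_add]⟩
    | smul b z _ hz =>
      obtain ⟨r, hr⟩ := hz
      refine ⟨b * r, ?_⟩
      rw [L.smul0, map_smul, smul_eq_mul, mul_left_comm, hr, map_mul]
  refine ⟨n0, fun n hn => ⟨X.xA κ ^ n • s, ?_, ?_, ?_, ?_, ?_⟩⟩
  · intro m m' h
    apply hinj
    have h1 : X.xA κ ^ n * s m = X.xA κ ^ n * s m' := h
    have h2 := congrArg (fun z => X.yA κ ^ n * z) h1
    simp only [← mul_assoc, ← mul_pow, mul_comm (X.yA κ), X.xA_yA, one_pow, one_mul] at h2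
    exact h2
  · intro m hm
    obtain ⟨r, hr⟩ := hn0 m hm
    refine ⟨X.x0 κ ^ (n - n0) * r, ?_⟩
    rw [map_mul, map_pow, X.J0_x0, ← hr, ← mul_assoc, ← pow_add, Nat.sub_add_cancel hn]
    rfl
  · intro m hm
    exact ⟨a ⟨m, hm⟩, by rw [← hs']; rfl⟩
  · intro r
    obtain ⟨m, hm⟩ := ha r
    obtain ⟨t, ht⟩ := Ideal.mem_span_singleton'.1 hm
    refine ⟨m, m.2, t, ?_⟩
    have h1 : r = a m + X.yi κ * t := by rw [mul_comm, ht]; ring
    conv_lhs => rw [h1, map_add, mul_add, ← hs']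
    rfl
  · intro m r h
    have h1 : X.xA κ ^ n * s m = X.xA κ ^ n * X.Ji κ r := h
    have h2 : s m = X.Ji κ r := by
      have h2 := congrArg (fun z => X.yA κ ^ n * z) h1
      simp only [← mul_assoc, ← mul_pow, mul_comm (X.yA κ), X.xA_yA, one_pow, one_mul] at h2
      exact h2
    obtain ⟨j, hj⟩ := L.exi m
    -- `y ^ j r` is in the image of `a`
    have h3 : a ⟨_, hj⟩ = X.yi κ ^ j * r := by
      apply X.Ji_injective κ
      rw [← hs', map_smul, h2, map_mul, map_pow, X.Ji_yi, smul_eq_mul]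
    -- `1 - y t` is in the image of `a`
    obtain ⟨m1, hm1⟩ := ha 1
    obtain ⟨t, ht⟩ := Ideal.mem_span_singleton'.1 hm1
    have h4 : ∀ i : ℕ, ∃ m2 : L.Mi, (1 - (X.yi κ * t) ^ i) * r = a m2 := by
      intro i
      induction i with
      | zero => exact ⟨0, by simp⟩
      | succ i ih =>
        obtain ⟨m2, h5⟩ := ih
        refine ⟨m2 + ((X.yi κ * t) ^ i * r) • m1, ?_⟩
        rw [map_add, map_smul, ← h5, smul_eq_mul]
        have h6 : a m1 = 1 - X.yi κ * t := by rw [mul_comm, ht]; ring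
        rw [h6]
        ring
    obtain ⟨m2, hm2⟩ := h4 j
    have h5 : s m = s ((m2 + t ^ j • (⟨_, hj⟩ : L.Mi) : L.Mi) : L.M) := by
      rw [h2, hs', map_add, map_smul, ← hm2, h3, smul_eq_mul]
      congr 1
      ring
    rw [hinj h5]
    exact Subtype.mem _

end Emb

end Fermat.Agent.Jac
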