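import Fermat.Agent.Jac.FibLin

/-! Two-chart curves inside a function field and pairs of fractional ideals. -/

set_option autoImplicit false
set_option linter.all false

namespace Fermat.Agent.Jac

open nonZeroDivisors

universe u

/-- a function field with two Dedekind charts glued along `x` -/
structure FC (K B0 Bi F : Type u) [Field K] [CommRing B0] [CommRing Bi] [Field F] [Algebra K B0]
    [Algebra K Bi] [Algebra K F] [Algebra B0 F] [Algebra Bi F] where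
  x : F
  x_ne : x ≠ 0
  x_mem : ∃ b : B0, algebraMap B0 F b = x
  y_mem : ∃ b : Bi, algebraMap Bi F b = x⁻¹
  loc : ∀ f : F, (∃ n : ℕ, ∃ b : B0, algebraMap B0 F b = x ^ n * f) ↔
    (∃ n : ℕ, ∃ b : Bi, algebraMap Bi F b = x⁻¹ ^ n * f)
  quo0 : ∀ I : Ideal B0, I ≠ ⊥ → FiniteDimensional K (B0 ⧸ I)
  quoi : ∀ I : Ideal Bi, I ≠ ⊥ → FiniteDimensional K (Bi ⧸ I)

variable {K B0 Bi F : Type u} [Field K] [CommRing B0] [CommRing Bi] [Field F] [Algebra K B0]
    [Algebra K Bi] [Algebra K F] [Algebra B0 F] [Algebra Bi F]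

namespace FC

/-- the other chart first -/
def symm (C : FC K B0 Bi F) : FC K Bi B0 F where
  x := C.x⁻¹
  x_ne := inv_ne_zero C.x_ne
  x_mem := C.y_mem
  y_mem := by simpa using C.x_mem
  loc f := by simpa using (C.loc f).symm
  quo0 := C.quoi
  quoi := C.quo0

@[simp] theorem symm_x (C : FC K B0 Bi F) : C.symm.x = C.x⁻¹ := rfl

variable [IsDomain B0] [IsDedekindDomain B0] [IsFractionRing B0 F] [IsDomain Bi]
  [IsDedekindDomain Bi] [IsFractionRing Bi F] [IsScalarTower K B0 F] [IsScalarTower K Bi F]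

/-- the localization of a fractional ideal at `x` -/
def locK (x : F) (I : FractionalIdeal B0⁰ F) (K : Type u) [Field K] [Algebra K B0] [Algebra K F]
    [IsScalarTower K B0 F] (hx : ∃ b : B0, algebraMap B0 F b = x) : Submodule K F where
  carrier := {f | ∃ n : ℕ, x ^ n * f ∈ I}
  zero_mem' := ⟨0, by rw [mul_zero]; exact I.1.zero_mem⟩
  add_mem' := by
    rintro a b ⟨n, hn⟩ ⟨m, hm⟩
    obtain ⟨c, hc⟩ := hx
    have key : ∀ (k : ℕ) (z : F), z ∈ I → x ^ k * z ∈ I := fun k z hz => by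
      have := I.1.smul_mem (c ^ k) hz
      rwa [Algebra.smul_def, map_pow, hc] at this
    refine ⟨n + m, ?_⟩
    have h1 : x ^ (n + m) * (a + b) = x ^ m * (x ^ n * a) + x ^ n * (x ^ m * b) := by ring
    rw [h1]
    exact I.1.add_mem (key m _ hn) (key n _ hm)
  smul_mem' := by
    rintro c f ⟨n, hn⟩
    refine ⟨n, ?_⟩
    have h1 : x ^ n * (c • f) = (algebraMap K B0 c) • (x ^ n * f) := by
      rw [Algebra.smul_def, Algebra.smul_def, ← IsScalarTower.algebraMap_apply]; ring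
    rw [h1]
    exact I.1.smul_mem _ hn

/-- a fractional ideal as a `K`-subspace -/
def subK (K : Type u) [Field K] [Algebra K B0] [Algebra K F] [IsScalarTower K B0 F]
    (I : FractionalIdeal B0⁰ F) : Submodule K F :=
  (I : Submodule B0 F).restrictScalars K

end FC

theorem mem_subK [IsScalarTower K B0 F] {I : FractionalIdeal B0⁰ F} {f : F} :
    f ∈ FC.subK K I ↔ f ∈ I := Iff.rfl

theorem mem_locK [IsScalarTower K B0 F] {x : F} {I : FractionalIdeal B0⁰ F} {f : F}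
    {hx : ∃ b : B0, algebraMap B0 F b = x} :
    f ∈ FC.locK x I K hx ↔ ∃ n : ℕ, x ^ n * f ∈ I := Iff.rfl

/-- a line bundle, as a pair of fractional ideals -/
structure Pr (C : FC K B0 Bi F) where
  I0 : FractionalIdeal B0⁰ F
  Ii : FractionalIdeal Bi⁰ F
  ne0 : I0 ≠ 0
  nei : Ii ≠ 0
  glue : ∀ f : F, (∃ n : ℕ, C.x ^ n * f ∈ I0) ↔ (∃ n : ℕ, C.x⁻¹ ^ n * f ∈ Ii)

namespace Pr

variable {C : FC K B0 Bi F}

@[ext] theorem ext' {L L' : Pr C} (h0 : L.I0 = L'.I0) (hi : L.Ii = L'.Ii) : L = L' := by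
  cases L; cases L'; subst h0; subst hi; rfl

theorem x_smul_mem (C : FC K B0 Bi F) {I : FractionalIdeal B0⁰ F} {f : F} (hf : f ∈ I) (n : ℕ) :
    C.x ^ n * f ∈ I := by
  obtain ⟨c, hc⟩ := C.x_mem
  have := I.1.smul_mem (c ^ n) hf
  rwa [Algebra.smul_def, map_pow, hc] at this

theorem y_smul_mem (C : FC K B0 Bi F) {I : FractionalIdeal Bi⁰ F} {f : F} (hf : f ∈ I) (n : ℕ) :
    C.x⁻¹ ^ n * f ∈ I := x_smul_mem C.symm hf n

theorem x_mem_mono (C : FC K B0 Bi F) {I : FractionalIdeal B0⁰ F} {f : F} {n m : ℕ} (h : n ≤ m)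
    (hf : C.x ^ n * f ∈ I) : C.x ^ m * f ∈ I := by
  obtain ⟨k, rfl⟩ := Nat.exists_eq_add_of_le h
  have := x_smul_mem C hf k
  rwa [← mul_assoc, ← pow_add, add_comm] at this

theorem y_mem_mono (C : FC K B0 Bi F) {I : FractionalIdeal Bi⁰ F} {f : F} {n m : ℕ} (h : n ≤ m)
    (hf : C.x⁻¹ ^ n * f ∈ I) : C.x⁻¹ ^ m * f ∈ I := x_mem_mono C.symm h hf

/-- swapping the charts -/
def symm (L : Pr C) : Pr C.symm where
  I0 := L.Ii
  Ii := L.I0
  ne0 := L.nei
  nei := L.ne0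
  glue f := by simpa using (L.glue f).symm

@[simp] theorem symm_I0 (L : Pr C) : L.symm.I0 = L.Ii := rfl
@[simp] theorem symm_Ii (L : Pr C) : L.symm.Ii = L.I0 := rfl

variable [IsDomain B0] [IsDedekindDomain B0] [IsFractionRing B0 F] [IsDomain Bi]
  [IsDedekindDomain Bi] [IsFractionRing Bi F] [IsScalarTower K B0 F] [IsScalarTower K Bi F]

omit [IsDomain B0] [IsDedekindDomain B0] [IsFractionRing B0 F] [IsScalarTower K B0 F]
  [IsScalarTower K Bi F] [IsDomain Bi] [IsDedekindDomain Bi] [IsFractionRing Bi F] in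
theorem glue_mul_aux (C : FC K B0 Bi F) (I J : FractionalIdeal B0⁰ F) (I' J' : FractionalIdeal Bi⁰ F)
    (hI : ∀ f : F, (∃ n : ℕ, C.x ^ n * f ∈ I) → (∃ n : ℕ, C.x⁻¹ ^ n * f ∈ I'))
    (hJ : ∀ f : F, (∃ n : ℕ, C.x ^ n * f ∈ J) → (∃ n : ℕ, C.x⁻¹ ^ n * f ∈ J')) (f : F)
    (hf : ∃ n : ℕ, C.x ^ n * f ∈ I * J) : ∃ n : ℕ, C.x⁻¹ ^ n * f ∈ I' * J' := by
  obtain ⟨n, hn⟩ := hf
  have key : ∀ g : F, g ∈ I * J → ∃ m : ℕ, C.x⁻¹ ^ m * g ∈ I' * J' := by
    intro g hg
    rw [← FractionalIdeal.mem_coe, FractionalIdeal.coe_mul] at hg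
    induction hg using Submodule.mul_induction_on' with
    | mem_mul_mem a ha b hb =>
      obtain ⟨p, hp⟩ := hI a ⟨0, by simpa using ha⟩
      obtain ⟨q, hq⟩ := hJ b ⟨0, by simpa using hb⟩
      refine ⟨p + q, ?_⟩
      have : C.x⁻¹ ^ (p + q) * (a * b) = (C.x⁻¹ ^ p * a) * (C.x⁻¹ ^ q * b) := by ring
      rw [this]
      exact FractionalIdeal.mul_mem_mul hp hq
    | add a ha b hb iha ihb =>
      obtain ⟨p, hp⟩ := iha
      obtain ⟨q, hq⟩ := ihb
      refine ⟨p + q, ?_⟩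
      rw [mul_add]
      exact (I' * J').1.add_mem (y_mem_mono C (Nat.le_add_right p q) hp)
        (y_mem_mono C (Nat.le_add_left q p) hq)
  obtain ⟨m, hm⟩ := key _ hn
  -- x⁻¹ ^ m * (x ^ n * f)
  refine ⟨m, ?_⟩
  have h1 : C.x⁻¹ ^ n * C.x ^ n = 1 := by
    rw [← mul_pow, inv_mul_cancel₀ C.x_ne, one_pow]
  have h2 : C.x⁻¹ ^ m * f = C.x⁻¹ ^ n * (C.x⁻¹ ^ m * (C.x ^ n * f)) := by
    rw [show C.x⁻¹ ^ n * (C.x⁻¹ ^ m * (C.x ^ n * f)) =
      (C.x⁻¹ ^ n * C.x ^ n) * (C.x⁻¹ ^ m * f) by ring, h1, one_mul]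
  rw [h2]
  exact y_smul_mem C hm n

/-- the product of pairs -/
def mul (L L' : Pr C) : Pr C where
  I0 := L.I0 * L'.I0
  Ii := L.Ii * L'.Ii
  ne0 := mul_ne_zero L.ne0 L'.ne0
  nei := mul_ne_zero L.nei L'.nei
  glue f := by
    refine ⟨glue_mul_aux C _ _ _ _ (fun f h => (L.glue f).mp h) (fun f h => (L'.glue f).mp h) f,
      fun h => ?_⟩
    have := glue_mul_aux C.symm L.Ii L'.Ii L.I0 L'.I0
      (fun f h => by simpa using (L.glue f).mpr (by simpa using h))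
      (fun f h => by simpa using (L'.glue f).mpr (by simpa using h)) f (by simpa using h)
    simpa using this

theorem glue_inv_aux (C : FC K B0 Bi F) (I : FractionalIdeal B0⁰ F) (I' : FractionalIdeal Bi⁰ F)
    (hI0 : I ≠ 0) (hI'0 : I' ≠ 0)
    (hI : ∀ f : F, (∃ n : ℕ, C.x⁻¹ ^ n * f ∈ I') → (∃ n : ℕ, C.x ^ n * f ∈ I)) (f : F)
    (hf : ∃ n : ℕ, C.x ^ n * f ∈ I⁻¹) : ∃ n : ℕ, C.x⁻¹ ^ n * f ∈ I'⁻¹ := by
  classical
  obtain ⟨n, hn⟩ := hf
  rw [FractionalIdeal.mem_inv_iff hI0] at hn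
  obtain ⟨S, hS⟩ := (FractionalIdeal.fg_of_isNoetherianRing le_rfl I' :
    (I' : Submodule Bi F).FG)
  -- each generator
  have key : ∀ g : F, g ∈ I' → ∃ m : ℕ, ∃ b : Bi, algebraMap Bi F b = C.x⁻¹ ^ m * (f * g) := by
    intro g hg
    obtain ⟨p, hp⟩ := hI g ⟨0, by simpa using hg⟩
    have h1 := hn _ hp
    rw [FractionalIdeal.mem_one_iff] at h1
    obtain ⟨b, hb⟩ := h1
    refine (C.loc (f * g)).mp ⟨n + p, b, ?_⟩
    rw [hb]; ring
  have key2 : ∀ T : Finset F, (∀ g ∈ T, g ∈ I') → ∃ m : ℕ, ∀ g ∈ T, ∃ b : Bi,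
      algebraMap Bi F b = C.x⁻¹ ^ m * (f * g) := by
    intro T
    induction T using Finset.induction_on with
    | empty => intro _; exact ⟨0, by simp⟩
    | insert a T ha ih =>
      intro hT
      obtain ⟨m, hm⟩ := ih fun g hg => hT g (Finset.mem_insert_of_mem hg)
      obtain ⟨p, b, hb⟩ := key a (hT a (Finset.mem_insert_self a T))
      obtain ⟨c, hc⟩ := C.y_mem
      refine ⟨m + p, fun g hg => ?_⟩
      rcases Finset.mem_insert.mp hg with rfl | hg
      · refine ⟨c ^ m * b, ?_⟩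
        rw [map_mul, map_pow, hc, hb]; ring
      · obtain ⟨b', hb'⟩ := hm g hg
        refine ⟨c ^ p * b', ?_⟩
        rw [map_mul, map_pow, hc, hb']; ring
  obtain ⟨m, hm⟩ := key2 S fun g hg => by
    have : g ∈ (I' : Submodule Bi F) := hS ▸ Submodule.subset_span hg
    exact this
  refine ⟨m, ?_⟩
  rw [FractionalIdeal.mem_inv_iff hI'0]
  suffices h : ∀ g ∈ Submodule.span Bi (S : Set F), ∃ b : Bi, algebraMap Bi F b =
      C.x⁻¹ ^ m * f * g by
    intro g hg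
    rw [FractionalIdeal.mem_one_iff]
    exact h g (by rw [hS]; exact hg)
  intro g hg
  induction hg using Submodule.span_induction with
  | mem g hg =>
    obtain ⟨b, hb⟩ := hm g hg
    exact ⟨b, by rw [hb]; ring⟩
  | zero => exact ⟨0, by simp⟩
  | add a b ha hb iha ihb =>
    obtain ⟨p, hp⟩ := iha
    obtain ⟨q, hq⟩ := ihb
    exact ⟨p + q, by rw [map_add, hp, hq]; ring⟩
  | smul c g hg ih =>
    obtain ⟨p, hp⟩ := ih
    exact ⟨c * p, by rw [map_mul, hp, Algebra.smul_def]; ring⟩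

/-- the inverse of a pair -/
noncomputable def inv (L : Pr C) : Pr C where
  I0 := L.I0⁻¹
  Ii := L.Ii⁻¹
  ne0 := inv_ne_zero L.ne0
  nei := inv_ne_zero L.nei
  glue f := by
    refine ⟨glue_inv_aux C _ _ L.ne0 L.nei (fun f h => (L.glue f).mpr h) f, fun h => ?_⟩
    have := glue_inv_aux C.symm L.Ii L.I0 L.nei L.ne0
      (fun f h => by simpa using (L.glue f).mp (by simpa using h)) f (by simpa using h)
    simpa using this

/-- the trivial pair -/
def one : Pr C where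
  I0 := 1
  Ii := 1
  ne0 := one_ne_zero
  nei := one_ne_zero
  glue f := by
    simp only [FractionalIdeal.mem_one_iff]
    exact C.loc f

/-- principal pairs -/
def prin (f : F) (hf : f ≠ 0) : Pr C where
  I0 := FractionalIdeal.spanSingleton B0⁰ f
  Ii := FractionalIdeal.spanSingleton Bi⁰ f
  ne0 := by rwa [ne_eq, FractionalIdeal.spanSingleton_eq_zero_iff]
  nei := by rwa [ne_eq, FractionalIdeal.spanSingleton_eq_zero_iff]
  glue g := by
    simp only [FractionalIdeal.mem_spanSingleton]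
    have h := C.loc (f⁻¹ * g)
    constructor
    · rintro ⟨n, b, hb⟩
      obtain ⟨m, c, hc⟩ := h.mp ⟨n, b, by
        have : C.x ^ n * (f⁻¹ * g) = f⁻¹ * (C.x ^ n * g) := by ring
        rw [this, ← hb, Algebra.smul_def]; field_simp⟩
      exact ⟨m, c, by rw [Algebra.smul_def, hc]; field_simp⟩
    · rintro ⟨n, b, hb⟩
      obtain ⟨m, c, hc⟩ := h.mpr ⟨n, b, by
        have : C.x⁻¹ ^ n * (f⁻¹ * g) = f⁻¹ * (C.x⁻¹ ^ n * g) := by ring
        rw [this, ← hb, Algebra.smul_def]; field_simp⟩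
      exact ⟨m, c, by rw [Algebra.smul_def, hc]; field_simp⟩

section chi

variable (L : Pr C)

/-- sections on the first chart -/
def s0 : Submodule K F := FC.subK K L.I0
/-- sections on the second chart -/
def si : Submodule K F := FC.subK K L.Ii
/-- sections on the overlap -/
def sB : Submodule K F := FC.locK C.x L.I0 K C.x_mem

theorem mem_s0 {f : F} : f ∈ L.s0 ↔ f ∈ L.I0 := Iff.rfl
theorem mem_si {f : F} : f ∈ L.si ↔ f ∈ L.Ii := Iff.rfl
theorem mem_sB {f : F} : f ∈ L.sB ↔ ∃ n : ℕ, C.x ^ n * f ∈ L.I0 := Iff.rfl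
theorem mem_sB' {f : F} : f ∈ L.sB ↔ ∃ n : ℕ, C.x⁻¹ ^ n * f ∈ L.Ii := L.glue f

theorem s0_le : L.s0 ≤ L.sB := fun f hf => ⟨0, by rw [pow_zero, one_mul]; exact hf⟩
theorem si_le : L.si ≤ L.sB := fun f hf => by
  rw [mem_sB']
  exact ⟨0, by rw [pow_zero, one_mul]; exact hf⟩

/-- the Euler characteristic -/
noncomputable def chi : ℤ := pchi L.s0 L.si L.sB

/-- finite-dimensionality of the cohomology -/
def Fin : Prop := PFin L.s0 L.si L.sB

end chi

end Pr

end Fermat.Agent.Jac
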