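import Fermat.Agent.Jac.Def
import Fermat.Agent.Jac.FibF

set_option autoImplicit false
set_option linter.all false

/-! The curve over a field as a pair of Dedekind domains in the function field. -/

universe u

open TensorProduct nonZeroDivisors Polynomial

namespace Fermat.Agent.Jac

variable {k : Type u} [Field k] (X : CurveData k) (K : Type u) [Field K] [Algebra k K]

instance CurveData.ffDed0 : IsDedekindDomain (X.R0 K) := X.ded0 K
instance CurveData.ffDedi : IsDedekindDomain (X.Ri K) := X.dedi K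
instance CurveData.ffDom0 : IsDomain (X.R0 K) := inferInstance
instance CurveData.ffDomi : IsDomain (X.Ri K) := inferInstance

theorem CurveData.ff_isUnit_xA (A : Type u) [CommRing A] [Algebra k A] : IsUnit (X.xA A) :=
  IsUnit.of_mul_eq_one _ (X.xA_yA A)

instance CurveData.ffDomR : IsDomain (X.R K) := by
  haveI : Nontrivial (X.R K) := (X.J0_injective K).nontrivial
  haveI : NoZeroDivisors (X.R K) := by
    refine ⟨fun {a b} hab => ?_⟩
    obtain ⟨n, r, hr⟩ := X.exists_pow_mul_xA K a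
    obtain ⟨m, s, hs⟩ := X.exists_pow_mul_xA K b
    have hu : IsUnit (X.xA K) := X.ff_isUnit_xA K
    have h1 : r * s = 0 := by
      apply X.J0_injective K
      rw [map_mul, ← hr, ← hs, map_zero]
      linear_combination (X.xA K ^ n * X.xA K ^ m) * hab
    rcases mul_eq_zero.mp h1 with h | h
    · left
      rw [h, map_zero] at hr
      exact (hu.pow n).mul_right_eq_zero.mp hr
    · right
      rw [h, map_zero] at hs
      exact (hu.pow m).mul_right_eq_zero.mp hs
  exact NoZeroDivisors.to_isDomain _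

/-- the function field -/
abbrev CurveData.FF : Type u := FractionRing (X.R K)

/-- `x` in the function field -/
noncomputable def CurveData.xF : X.FF K := algebraMap (X.R K) (X.FF K) (X.xA K)

theorem CurveData.xF_ne : X.xF K ≠ 0 := ((X.ff_isUnit_xA K).map _).ne_zero

theorem CurveData.xF_inv : (X.xF K)⁻¹ = algebraMap (X.R K) (X.FF K) (X.yA K) := by
  apply inv_eq_of_mul_eq_one_right
  rw [CurveData.xF, ← map_mul, X.xA_yA, map_one]

theorem CurveData.algebraMapF0 (r : X.R0 K) :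
    algebraMap (X.R0 K) (X.FF K) r = algebraMap (X.R K) (X.FF K) (X.J0 K r) := by
  rw [IsScalarTower.algebraMap_apply (X.R0 K) (X.R K) (X.FF K)]; rfl
theorem CurveData.algebraMapFi (r : X.Ri K) :
    algebraMap (X.Ri K) (X.FF K) r = algebraMap (X.R K) (X.FF K) (X.Ji K r) := by
  rw [IsScalarTower.algebraMap_apply (X.Ri K) (X.R K) (X.FF K)]; rfl

theorem CurveData.injF : Function.Injective (algebraMap (X.R K) (X.FF K)) :=
  IsFractionRing.injective (X.R K) (X.FF K)
theorem CurveData.injF0 : Function.Injective (algebraMap (X.R0 K) (X.FF K)) := fun a b h => by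
  rw [X.algebraMapF0, X.algebraMapF0] at h
  exact X.J0_injective K (X.injF K h)
theorem CurveData.injFi : Function.Injective (algebraMap (X.Ri K) (X.FF K)) := fun a b h => by
  rw [X.algebraMapFi, X.algebraMapFi] at h
  exact X.Ji_injective K (X.injF K h)

/-- being defined on the overlap, seen from the first chart -/
theorem CurveData.ff_mem_range0 (f : X.FF K) :
    (∃ r : X.R K, algebraMap (X.R K) (X.FF K) r = f) ↔
      ∃ n : ℕ, ∃ b : X.R0 K, algebraMap (X.R0 K) (X.FF K) b = X.xF K ^ n * f := by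
  constructor
  · rintro ⟨r, rfl⟩
    obtain ⟨n, b, hb⟩ := X.exists_pow_mul_xA K r
    exact ⟨n, b, by rw [X.algebraMapF0, ← hb, map_mul, map_pow]; rfl⟩
  · rintro ⟨n, b, hb⟩
    refine ⟨X.yA K ^ n * X.J0 K b, ?_⟩
    rw [map_mul, ← X.algebraMapF0, hb, map_pow, ← X.xF_inv, inv_pow, inv_mul_cancel_left₀]
    exact pow_ne_zero n (X.xF_ne K)
theorem CurveData.ff_mem_rangei (f : X.FF K) :
    (∃ r : X.R K, algebraMap (X.R K) (X.FF K) r = f) ↔
      ∃ n : ℕ, ∃ b : X.Ri K, algebraMap (X.Ri K) (X.FF K) b = (X.xF K)⁻¹ ^ n * f := by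
  constructor
  · rintro ⟨r, rfl⟩
    obtain ⟨n, b, hb⟩ := X.exists_pow_mul_yA K r
    exact ⟨n, b, by rw [X.algebraMapFi, ← hb, map_mul, map_pow, X.xF_inv]⟩
  · rintro ⟨n, b, hb⟩
    refine ⟨X.xA K ^ n * X.Ji K b, ?_⟩
    rw [map_mul, ← X.algebraMapFi, hb, map_pow]
    change X.xF K ^ n * _ = f
    rw [inv_pow, mul_inv_cancel_left₀]
    exact pow_ne_zero n (X.xF_ne K)

instance CurveData.ffFrac0 : IsFractionRing (X.R0 K) (X.FF K) := by
  haveI : FaithfulSMul (X.R0 K) (X.FF K) :=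
    (faithfulSMul_iff_algebraMap_injective _ _).mpr (X.injF0 K)
  refine IsFractionRing.of_field _ _ fun z => ?_
  obtain ⟨a, b, hb⟩ := IsFractionRing.div_surjective (A := X.R K) z
  obtain ⟨n, r, hr⟩ := (X.ff_mem_range0 K (algebraMap _ _ a)).mp ⟨a, rfl⟩
  obtain ⟨m, s, hs⟩ := (X.ff_mem_range0 K (algebraMap _ _ b)).mp ⟨b, rfl⟩
  obtain ⟨x0, hx0⟩ : ∃ x0 : X.R0 K, algebraMap _ (X.FF K) x0 = X.xF K :=
    ⟨X.x0 K, by rw [X.algebraMapF0, X.J0_x0]; rfl⟩
  refine ⟨r * x0 ^ m, s * x0 ^ n, ?_⟩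
  rw [← hb.2, map_mul, map_mul, hr, hs, map_pow, map_pow, hx0]
  rw [show X.xF K ^ n * algebraMap (X.R K) (X.FF K) a * X.xF K ^ m =
    (X.xF K ^ n * X.xF K ^ m) * algebraMap (X.R K) (X.FF K) a by ring,
    show X.xF K ^ m * algebraMap (X.R K) (X.FF K) b * X.xF K ^ n =
    (X.xF K ^ n * X.xF K ^ m) * algebraMap (X.R K) (X.FF K) b by ring]
  rw [mul_div_mul_left]
  exact mul_ne_zero (pow_ne_zero _ (X.xF_ne K)) (pow_ne_zero _ (X.xF_ne K))

instance CurveData.ffFraci : IsFractionRing (X.Ri K) (X.FF K) := by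
  haveI : FaithfulSMul (X.Ri K) (X.FF K) :=
    (faithfulSMul_iff_algebraMap_injective _ _).mpr (X.injFi K)
  refine IsFractionRing.of_field _ _ fun z => ?_
  obtain ⟨a, b, hb⟩ := IsFractionRing.div_surjective (A := X.R K) z
  obtain ⟨n, r, hr⟩ := (X.ff_mem_rangei K (algebraMap _ _ a)).mp ⟨a, rfl⟩
  obtain ⟨m, s, hs⟩ := (X.ff_mem_rangei K (algebraMap _ _ b)).mp ⟨b, rfl⟩
  obtain ⟨y0, hy0⟩ : ∃ y0 : X.Ri K, algebraMap _ (X.FF K) y0 = (X.xF K)⁻¹ :=
    ⟨X.yi K, by rw [X.algebraMapFi, X.Ji_yi, X.xF_inv]⟩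
  refine ⟨r * y0 ^ m, s * y0 ^ n, ?_⟩
  rw [← hb.2, map_mul, map_mul, hr, hs, map_pow, map_pow, hy0]
  rw [show (X.xF K)⁻¹ ^ n * algebraMap (X.R K) (X.FF K) a * (X.xF K)⁻¹ ^ m =
    ((X.xF K)⁻¹ ^ n * (X.xF K)⁻¹ ^ m) * algebraMap (X.R K) (X.FF K) a by ring,
    show (X.xF K)⁻¹ ^ m * algebraMap (X.R K) (X.FF K) b * (X.xF K)⁻¹ ^ n =
    ((X.xF K)⁻¹ ^ n * (X.xF K)⁻¹ ^ m) * algebraMap (X.R K) (X.FF K) b by ring]
  rw [mul_div_mul_left]
  exact mul_ne_zero (pow_ne_zero _ (inv_ne_zero (X.xF_ne K)))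
    (pow_ne_zero _ (inv_ne_zero (X.xF_ne K)))

/-- quotients of a domain finite over `K[x]` are finite-dimensional -/
theorem ff_finiteDimensional_quot {K S : Type u} [Field K] [CommRing S] [IsDomain S]
    [Algebra K S] (f : Polynomial K →ₐ[K] S) (hf : f.toRingHom.Finite)
    (I : Ideal S) (hI : I ≠ ⊥) : FiniteDimensional K (S ⧸ I) := by
  letI : Algebra K[X] S := f.toRingHom.toAlgebra
  haveI : Module.Finite K[X] S := hf
  obtain ⟨a, ha, ha0⟩ := Submodule.exists_mem_ne_zero_of_ne_bot hI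
  have h1 : I.comap (algebraMap K[X] S) ≠ ⊥ := by
    by_cases hinj : Function.Injective f
    · haveI : FaithfulSMul K[X] S := (faithfulSMul_iff_algebraMap_injective _ _).mpr hinj
      exact Ideal.comap_ne_bot_of_integral_mem ha0 ha (Algebra.IsIntegral.isIntegral a)
    · intro h
      apply hinj
      rw [injective_iff_map_eq_zero]
      intro p hp
      have h2 : p ∈ I.comap (algebraMap K[X] S) := by
        rw [Ideal.mem_comap]
        change f p ∈ I
        rw [hp]
        exact zero_mem _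
      rwa [h] at h2
  obtain ⟨p, hp⟩ := (IsPrincipalIdealRing.principal (I.comap (algebraMap K[X] S))).1
  have hp0 : p ≠ 0 := fun h => h1 (by
    rw [hp, h]
    exact Submodule.span_zero_singleton _)
  have h2 : (algebraMap K (K[X] ⧸ I.comap (algebraMap K[X] S))).Finite := by
    rw [RingHom.finite_algebraMap]
    have h3 : FiniteDimensional K (AdjoinRoot p) := (AdjoinRoot.powerBasis hp0).finite
    have h4 : I.comap (algebraMap K[X] S) = Ideal.span {p} := hp
    rw [h4]
    exact h3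
  have h5 : (Ideal.quotientMap (I := I.comap (algebraMap K[X] S)) I (algebraMap K[X] S)
      le_rfl).Finite := by
    refine RingHom.Finite.of_comp_finite (f := Ideal.Quotient.mk _) ?_
    rw [Ideal.quotientMap_comp_mk]
    exact RingHom.Finite.comp (RingHom.Finite.of_surjective _ Ideal.Quotient.mk_surjective) hf
  have h6 := h5.comp h2
  refine RingHom.finite_algebraMap.mp ?_
  convert h6 using 1
  ext c
  change _ = Ideal.Quotient.mk I (f (algebraMap K K[X] c))
  rw [f.commutes]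
  rfl

theorem ff_finite_baseChange {k : Type u} [Field k] {S : Type u} [CommRing S] [Algebra k S] (x : S)
    (h : (Polynomial.aeval x : Polynomial k →ₐ[k] S).toRingHom.Finite)
    (A : Type u) [CommRing A] [Algebra k A] :
    (Polynomial.aeval ((1 : A) ⊗ₜ[k] x) : Polynomial A →ₐ[A] A ⊗[k] S).toRingHom.Finite := by
  classical
  letI : Algebra k[X] S := (Polynomial.aeval x : Polynomial k →ₐ[k] S).toRingHom.toAlgebra
  haveI : Module.Finite k[X] S := h
  letI : Algebra A[X] (A ⊗[k] S) :=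
    (Polynomial.aeval ((1 : A) ⊗ₜ[k] x) : Polynomial A →ₐ[A] A ⊗[k] S).toRingHom.toAlgebra
  obtain ⟨s, hs⟩ := (Module.Finite.fg_top : (⊤ : Submodule k[X] S).FG)
  suffices h : Module.Finite A[X] (A ⊗[k] S) from h
  refine ⟨⟨s.image fun b => (1 : A) ⊗ₜ[k] b, ?_⟩⟩
  rw [eq_top_iff]
  rintro z -
  have hsm : ∀ (p : A[X]) (z : A ⊗[k] S), p • z = Polynomial.aeval ((1 : A) ⊗ₜ[k] x) p * z :=
    fun p z => Algebra.smul_def p z
  have hsm' : ∀ (p : k[X]) (z : S), p • z = Polynomial.aeval x p * z :=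
    fun p z => Algebra.smul_def p z
  have key : ∀ p : k[X], Polynomial.aeval ((1 : A) ⊗ₜ[k] x) (p.map (algebraMap k A)) =
      (1 : A) ⊗ₜ[k] Polynomial.aeval x p := by
    intro p
    rw [Polynomial.aeval_map_algebraMap]
    exact Polynomial.aeval_algHom_apply
      (Algebra.TensorProduct.includeRight : S →ₐ[k] A ⊗[k] S) x p
  induction z using TensorProduct.induction_on with
  | zero => exact zero_mem _
  | add a b ha hb => exact add_mem ha hb
  | tmul a b =>
    have hb : b ∈ Submodule.span k[X] (s : Set S) := hs ▸ Submodule.mem_top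
    induction hb using Submodule.span_induction with
    | mem b hb =>
      have h1 : a ⊗ₜ[k] b = (Polynomial.C a : A[X]) • ((1 : A) ⊗ₜ[k] b) := by
        rw [hsm, Polynomial.aeval_C, Algebra.TensorProduct.algebraMap_apply]
        simp
      rw [h1]
      exact Submodule.smul_mem _ _ (Submodule.subset_span (by
        rw [Finset.coe_image]
        exact ⟨b, hb, rfl⟩))
    | zero => rw [TensorProduct.tmul_zero]; exact zero_mem _
    | add b c _ _ hb hc => rw [TensorProduct.tmul_add]; exact add_mem hb hc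
    | smul p b _ hb =>
      have h1 : a ⊗ₜ[k] (p • b) = (p.map (algebraMap k A)) • (a ⊗ₜ[k] b) := by
        rw [hsm, key, hsm', Algebra.TensorProduct.tmul_mul_tmul, one_mul]
      rw [h1]
      exact Submodule.smul_mem _ _ hb


theorem CurveData.ff_quo0 (I : Ideal (X.R0 K)) (hI : I ≠ ⊥) : FiniteDimensional K (X.R0 K ⧸ I) :=
  ff_finiteDimensional_quot _ (ff_finite_baseChange _ X.fin0 K) I hI
theorem CurveData.ff_quoi (I : Ideal (X.Ri K)) (hI : I ≠ ⊥) : FiniteDimensional K (X.Ri K ⧸ I) :=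
  ff_finiteDimensional_quot _ (ff_finite_baseChange _ X.fini K) I hI

/-- the curve over a field, inside its function field -/
noncomputable def CurveData.fc : FC K (X.R0 K) (X.Ri K) (X.FF K) where
  x := X.xF K
  x_ne := X.xF_ne K
  x_mem := ⟨X.x0 K, by rw [X.algebraMapF0, X.J0_x0]; rfl⟩
  y_mem := ⟨X.yi K, by rw [X.algebraMapFi, X.Ji_yi, X.xF_inv]⟩
  loc f := (X.ff_mem_range0 K f).symm.trans (X.ff_mem_rangei K f)
  quo0 := X.ff_quo0 K
  quoi := X.ff_quoi K

@[simp] theorem CurveData.fc_x : (X.fc K).x = X.xF K := rfl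

end Fermat.Agent.Jac
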