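import Mathlib

set_option autoImplicit false

/-!
# Choosing linear combinations with coefficients in a finite set

`S` is a set of more than two elements of a field `k`.  If two finite families of functionals on
`d`-dimensional spaces over a field `K ⊃ k` are spanning, then there is a matrix `t` with entries in
`S` such that the `d` combinations with coefficients `t i j` form a basis of the dual space, for both
families.
-/

open Module

namespace Fermat.Agent.Jac

namespace Grid

section Hyper

variable {k K J : Type*} [Field k] [Field K] [Algebra k K] [Fintype J]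

/-- two hyperplanes do not cover `S ^ J` -/
theorem exists_sum_ne_zero (S : Finset k) (hS : 2 < S.card) {a a' : J → K} (ha : a ≠ 0)
    (ha' : a' ≠ 0) : ∃ s : J → k, (∀ j, s j ∈ S) ∧ ∑ j, algebraMap k K (s j) * a j ≠ 0 ∧
      ∑ j, algebraMap k K (s j) * a' j ≠ 0 := by
  classical
  -- the sums as functions of one coordinate
  have key : ∀ (b : J → K) (s : J → k) (j : J) (u : k),
      ∑ i, algebraMap k K (Function.update s j u i) * b i =
        ∑ i, algebraMap k K (s i) * b i + (algebraMap k K u - algebraMap k K (s j)) * b j := by
    intro b s j u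
    rw [← Finset.add_sum_erase _ _ (Finset.mem_univ j),
      ← Finset.add_sum_erase (a := j) Finset.univ (fun i => algebraMap k K (s i) * b i)
        (Finset.mem_univ j), Function.update_self]
    have : ∑ x ∈ Finset.univ.erase j, algebraMap k K (Function.update s j u x) * b x =
        ∑ x ∈ Finset.univ.erase j, algebraMap k K (s x) * b x := by
      refine Finset.sum_congr rfl fun x hx => ?_
      rw [Function.update_of_ne (Finset.ne_of_mem_erase hx)]
    rw [this]
    ring
  have hinj : ∀ (b : J → K) (s : J → k) (j : J), b j ≠ 0 → ∀ u v : k,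
      ∑ i, algebraMap k K (Function.update s j u i) * b i = 0 →
      ∑ i, algebraMap k K (Function.update s j v i) * b i = 0 → u = v := by
    intro b s j hb u v hu hv
    rw [key] at hu hv
    have h1 : (algebraMap k K u - algebraMap k K v) * b j = 0 := by
      linear_combination hu - hv
    exact (algebraMap k K).injective (sub_eq_zero.1 ((mul_eq_zero.1 h1).resolve_right hb))
  -- good values of one coordinate
  have hone : ∀ (b : J → K) (s : J → k) (j : J), b j ≠ 0 →
      (S.filter fun u => ∑ i, algebraMap k K (Function.update s j u i) * b i = 0).card ≤ 1 := by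
    intro b s j hb
    rw [Finset.card_le_one]
    intro u hu v hv
    exact hinj b s j hb u v (Finset.mem_filter.1 hu).2 (Finset.mem_filter.1 hv).2
  have hexists : ∀ (b b' : J → K) (s s' : J → k) (j j' : J), b j ≠ 0 → b' j' ≠ 0 → ∃ u ∈ S,
      ∑ i, algebraMap k K (Function.update s j u i) * b i ≠ 0 ∧
      ∑ i, algebraMap k K (Function.update s' j' u i) * b' i ≠ 0 := by
    intro b b' s s' j j' hb hb'
    by_contra hc
    push Not at hc
    have : S ⊆ (S.filter fun u => ∑ i, algebraMap k K (Function.update s j u i) * b i = 0) ∪
        (S.filter fun u => ∑ i, algebraMap k K (Function.update s' j' u i) * b' i = 0) := by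
      intro u hu
      rw [Finset.mem_union, Finset.mem_filter, Finset.mem_filter]
      by_cases h : ∑ i, algebraMap k K (Function.update s j u i) * b i = 0
      · exact Or.inl ⟨hu, h⟩
      · exact Or.inr ⟨hu, hc u hu h⟩
    have h1 := (Finset.card_le_card this).trans (Finset.card_union_le _ _)
    have h2 := hone b s j hb
    have h3 := hone b' s' j' hb'
    omega
  obtain ⟨c, hc⟩ : S.Nonempty := Finset.card_pos.1 (by omega)
  have hmem : ∀ (s : J → k) (j : J) (u : k), (∀ i, s i ∈ S) → u ∈ S →
      ∀ i, Function.update s j u i ∈ S := by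
    intro s j u hs hu i
    rcases eq_or_ne i j with rfl | h
    · rw [Function.update_self]; exact hu
    · rw [Function.update_of_ne h]; exact hs i
  by_cases hcase : ∃ j, a j ≠ 0 ∧ a' j ≠ 0
  · obtain ⟨j, hj, hj'⟩ := hcase
    obtain ⟨u, hu, h1, h2⟩ := hexists a a' (fun _ => c) (fun _ => c) j j hj hj'
    exact ⟨_, hmem _ j u (fun _ => hc) hu, h1, h2⟩
  · push Not at hcase
    obtain ⟨j, hj⟩ := Function.ne_iff.1 ha
    obtain ⟨j', hj'⟩ := Function.ne_iff.1 ha'
    have hj0 : a j' = 0 := by
      by_contra h
      exact hj' (hcase j' h)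
    obtain ⟨u, hu, h1, -⟩ := hexists a a (fun _ => c) (fun _ => c) j j hj hj
    obtain ⟨v, hv, h2, -⟩ := hexists a' a' (Function.update (fun _ => c) j u)
      (Function.update (fun _ => c) j u) j' j' hj' hj'
    refine ⟨_, hmem _ j' v (hmem _ j u (fun _ => hc) hu) hv, ?_, h2⟩
    rw [key, hj0, mul_zero, add_zero]
    exact h1

end Hyper

section Rows

variable {k K J V V' : Type*} [Field k] [Field K] [Algebra k K] [Fintype J]
  [AddCommGroup V] [Module K V] [AddCommGroup V'] [Module K V']

/-- the combination of the functionals `l j` with coefficients `s j` -/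
noncomputable def comb (s : J → k) (l : J → Dual K V) : Dual K V :=
  ∑ j, algebraMap k K (s j) • l j

theorem comb_apply (s : J → k) (l : J → Dual K V) (v : V) :
    comb s l v = ∑ j, algebraMap k K (s j) * l j v := by
  rw [comb, LinearMap.sum_apply]
  rfl

omit [Fintype J] in
theorem exists_functional {W : Submodule K (Dual K V)} (hW : finrank K W < finrank K V)
    {l : J → Dual K V} (hl : Submodule.span K (Set.range l) = ⊤) :
    ∃ φ : Dual K (Dual K V), (∀ w ∈ W, φ w = 0) ∧ (fun j => φ (l j)) ≠ 0 := by
  have h1 : ∃ j, l j ∉ W := by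
    by_contra hc
    push Not at hc
    have h2 : W = ⊤ := by
      rw [eq_top_iff, ← hl, Submodule.span_le]
      rintro _ ⟨j, rfl⟩
      exact hc j
    rw [h2, finrank_top, Subspace.dual_finrank_eq] at hW
    exact lt_irrefl _ hW
  obtain ⟨j, hj⟩ := h1
  obtain ⟨φ, hφ, hφ'⟩ := Submodule.exists_dual_map_eq_bot_of_notMem hj inferInstance
  refine ⟨φ, fun w hw => ?_, fun h0 => hφ (congrFun h0 j)⟩
  have : φ w ∈ W.map φ := ⟨w, hw, rfl⟩
  rw [hφ'] at this
  exact this

theorem exists_rows (S : Finset k) (hS : 2 < S.card) {l : J → Dual K V} {l' : J → Dual K V'}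
    (hl : Submodule.span K (Set.range l) = ⊤) (hl' : Submodule.span K (Set.range l') = ⊤)
    (m : ℕ) (hm : m ≤ finrank K V) (hm' : m ≤ finrank K V') :
    ∃ t : Fin m → J → k, (∀ i j, t i j ∈ S) ∧ LinearIndependent K (fun i => comb (t i) l) ∧
      LinearIndependent K (fun i => comb (t i) l') := by
  induction m with
  | zero => exact ⟨fun i => i.elim0, fun i => i.elim0, linearIndependent_empty_type,
      linearIndependent_empty_type⟩
  | succ m ih =>
    obtain ⟨t, ht, h1, h2⟩ := ih (Nat.le_of_succ_le hm) (Nat.le_of_succ_le hm')
    have hW : finrank K (Submodule.span K (Set.range fun i => comb (t i) l)) < finrank K V := by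
      rw [finrank_span_eq_card h1, Fintype.card_fin]
      exact hm
    have hW' : finrank K (Submodule.span K (Set.range fun i => comb (t i) l')) <
        finrank K V' := by
      rw [finrank_span_eq_card h2, Fintype.card_fin]
      exact hm'
    obtain ⟨φ, hφ, hφ0⟩ := exists_functional hW hl
    obtain ⟨φ', hφ', hφ0'⟩ := exists_functional hW' hl'
    obtain ⟨s, hs, h3, h4⟩ := exists_sum_ne_zero S hS hφ0 hφ0'
    refine ⟨Fin.cons s t, ?_, ?_, ?_⟩
    · intro i
      induction i using Fin.cases with
      | zero => exact hs
      | succ i => exact ht i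
    · have e : (fun i => comb ((Fin.cons s t : Fin (m + 1) → J → k) i) l) =
          Fin.cons (comb s l) (fun i => comb (t i) l) := by
        ext1 i
        induction i using Fin.cases with
        | zero => rfl
        | succ i => rfl
      rw [e, linearIndependent_finCons]
      refine ⟨h1, fun hmem => h3 ?_⟩
      rw [← hφ _ hmem, comb, map_sum]
      exact Finset.sum_congr rfl fun j _ => by rw [map_smul, smul_eq_mul]
    · have e : (fun i => comb ((Fin.cons s t : Fin (m + 1) → J → k) i) l') =
          Fin.cons (comb s l') (fun i => comb (t i) l') := by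
        ext1 i
        induction i using Fin.cases with
        | zero => rfl
        | succ i => rfl
      rw [e, linearIndependent_finCons]
      refine ⟨h2, fun hmem => h4 ?_⟩
      rw [← hφ' _ hmem, comb, map_sum]
      exact Finset.sum_congr rfl fun j _ => by rw [map_smul, smul_eq_mul]

/-- a basis of the dual space gives coordinates -/
theorem bijective_of_linearIndependent [FiniteDimensional K V] {d : ℕ} (hd : finrank K V = d) {l : Fin d → Dual K V}
    (hl : LinearIndependent K l) : Function.Bijective fun (v : V) (i : Fin d) => l i v := by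
  have h1 : Function.Injective (LinearMap.pi l : V →ₗ[K] (Fin d → K)) := by
    rw [← LinearMap.ker_eq_bot, LinearMap.ker_eq_bot']
    intro v hv
    have h2 : Submodule.span K (Set.range l) = ⊤ := by
      apply Submodule.eq_top_of_finrank_eq
      rw [finrank_span_eq_card hl, Fintype.card_fin, Subspace.dual_finrank_eq, hd]
    have h3 : ∀ f : Dual K V, f v = 0 := by
      intro f
      have hf : f ∈ Submodule.span K (Set.range l) := by rw [h2]; trivial
      induction hf using Submodule.span_induction with
      | mem x hx =>
        obtain ⟨i, rfl⟩ := hx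
        exact congrFun hv i
      | zero => rfl
      | add x y _ _ hx hy => rw [LinearMap.add_apply, hx, hy, add_zero]
      | smul a x _ hx => rw [LinearMap.smul_apply, hx, smul_zero]
    exact (forall_dual_apply_eq_zero_iff K v).1 h3
  have h2 : Function.Surjective (LinearMap.pi l : V →ₗ[K] (Fin d → K)) := by
    rw [← LinearMap.injective_iff_surjective_of_finrank_eq_finrank]
    · exact h1
    · rw [hd, finrank_fin_fun]
  exact ⟨h1, h2⟩

end Rows

end Grid

/-- **Grid lemma.** Two spanning families of functionals, one matrix with entries in `S`. -/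
theorem exists_grid {k : Type*} [Field k] (S : Finset k) (hS : 2 < S.card) {J : Type*} [Fintype J]
    {d : ℕ} {K : Type*} [Field K] [Algebra k K]
    {V V' : Type*} [AddCommGroup V] [Module K V] [FiniteDimensional K V]
    [AddCommGroup V'] [Module K V'] [FiniteDimensional K V']
    (hd : finrank K V = d) (hd' : finrank K V' = d) {l : J → Dual K V} {l' : J → Dual K V'}
    (hl : Submodule.span K (Set.range l) = ⊤) (hl' : Submodule.span K (Set.range l') = ⊤) :
    ∃ t : Fin d → J → k, (∀ i j, t i j ∈ S) ∧
      Function.Bijective (fun (v : V) (i : Fin d) => ∑ j, algebraMap k K (t i j) * l j v) ∧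
      Function.Bijective (fun (v : V') (i : Fin d) => ∑ j, algebraMap k K (t i j) * l' j v) := by
  obtain ⟨t, ht, h1, h2⟩ := Grid.exists_rows S hS hl hl' d hd.ge hd'.ge
  refine ⟨t, ht, ?_, ?_⟩
  · have := Grid.bijective_of_linearIndependent hd h1
    simpa only [Grid.comb_apply] using this
  · have := Grid.bijective_of_linearIndependent hd' h2
    simpa only [Grid.comb_apply] using this

/-- **Grid lemma**, uniform version: finitely many matrices over the infinite field `k` suffice for
all fields `K ⊃ k`. -/
theorem exists_finset_grid (k : Type*) [Field k] [Infinite k] (J : Type*) [Fintype J] (d : ℕ) :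
    ∃ T : Finset (Fin d → J → k), ∀ {K : Type*} [Field K] [Algebra k K]
      {V V' : Type*} [AddCommGroup V] [Module K V] [FiniteDimensional K V]
      [AddCommGroup V'] [Module K V'] [FiniteDimensional K V']
      (_ : finrank K V = d) (_ : finrank K V' = d) {l : J → Dual K V} {l' : J → Dual K V'}
      (_ : Submodule.span K (Set.range l) = ⊤) (_ : Submodule.span K (Set.range l') = ⊤),
      ∃ t ∈ T,
        Function.Bijective (fun (v : V) (i : Fin d) => ∑ j, algebraMap k K (t i j) * l j v) ∧
        Function.Bijective (fun (v : V') (i : Fin d) => ∑ j, algebraMap k K (t i j) * l' j v) := by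
  classical
  obtain ⟨S, hS⟩ := Infinite.exists_subset_card_eq k 3
  refine ⟨Fintype.piFinset fun _ => Fintype.piFinset fun _ => S, ?_⟩
  intro K _ _ V V' _ _ _ _ _ _ hd hd' l l' hl hl'
  obtain ⟨t, ht, h1, h2⟩ := exists_grid S (by omega) hd hd' hl hl'
  exact ⟨t, Fintype.mem_piFinset.2 fun i => Fintype.mem_piFinset.2 fun j => ht i j, h1, h2⟩

end Fermat.Agent.Jac
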