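import Fermat.Agent.Jac.Good
import Fermat.Agent.Jac.Grid
import Fermat.Agent.Jac.Emb
import Fermat.Agent.Jac.FibBridge

set_option autoImplicit false
set_option linter.style.haveILetI false

/-!
# Existence of good frames

Over a field `K ⊃ k`, two line bundles without cohomology are good for one frame out of a finite
family of frames, which does not depend on `K`.
-/

universe u

open TensorProduct LaurentPolynomial

namespace Fermat.Agent.Jac

namespace GoodEx

variable {k : Type u} [Field k] {X : CurveData k} {K : Type u} [Field K] [Algebra k K]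

/-- an invertible module over `S` has a surjective form with values in a residue field of `S` -/
theorem exists_form_of_surjective {S P F : Type u} [CommRing S] [Field F] [Algebra S F]
    (hs : Function.Surjective (algebraMap S F)) [AddCommGroup P] [Module S P]
    [Module.Invertible S P] : ∃ r : P →ₗ[S] F, Function.Surjective r := by
  obtain ⟨e⟩ := Module.Invertible.free_iff_linearEquiv.mp
    (inferInstance : Module.Free F (F ⊗[S] P))
  refine ⟨(e.toLinearMap.restrictScalars S) ∘ₗ (TensorProduct.mk S F P 1), fun a => ?_⟩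
  obtain ⟨m, hm⟩ := TensorProduct.mk_surjective S P F hs (e.symm a)
  refine ⟨m, ?_⟩
  change e (TensorProduct.mk S F P 1 m) = a
  rw [hm, LinearEquiv.apply_symm_apply]

/-- rigidifications exist over fields -/
theorem exists_rig (N : LB X K) : N.Rig := by
  letI : Algebra (X.Ri K) K := (X.eA K).toRingHom.toAlgebra
  haveI := N.invi
  have hs : Function.Surjective (algebraMap (X.Ri K) K) := fun a =>
    ⟨algebraMap K (X.Ri K) a, (X.eA K).commutes a⟩
  obtain ⟨r, hr⟩ := exists_form_of_surjective (P := N.Mi) hs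
  have hb : ∀ (b : X.Ri K) (m : N.Mi), r (b • m) = X.eA K b * r m := by
    intro b m
    rw [map_smul, Algebra.smul_def]
    rfl
  refine ⟨{ toFun := r
            map_add' := map_add r
            map_smul' := fun a m => ?_ }, hb, hr⟩
  have h1 : a • m = (algebraMap K (X.Ri K) a) • m := by
    rw [algebraMap_smul]
  rw [h1, hb, RingHom.id_apply, smul_eq_mul]
  congr 1
  exact (X.eA K).commutes a

/-- the functional on `W = x Ni` given by a rigidification -/
theorem exists_functional (N : LB X K) : ∃ w : twT N.Ai →ₗ[K] K,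
    (∀ (β : X.Bi) (m m' : twT N.Ai), (m' : N.M) = N.act β m →
      w m' = algebraMap k K (X.e β) * w m) ∧ Function.Surjective w := by
  obtain ⟨r, hr, hs⟩ := exists_rig N
  let φ : twT N.Ai →ₗ[K] N.Mi :=
    { toFun := fun m => ⟨(T (-1) : K[T;T⁻¹]) • (m : N.M), m.2⟩
      map_add' := fun m m' => by ext; simp [smul_add]
      map_smul' := fun c m => Subtype.ext (smul_comm _ _ _) }
  refine ⟨r ∘ₗ φ, fun β m m' h => ?_, fun a => ?_⟩
  · have h1 : φ m' = (1 ⊗ₜ β : X.Ri K) • φ m := by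
      apply Subtype.ext
      change (T (-1) : K[T;T⁻¹]) • (m' : N.M) = (1 ⊗ₜ β : X.Ri K) •
        ((T (-1) : K[T;T⁻¹]) • (m : N.M))
      rw [h, ← map_smul, LB.act_apply, N.smuli]
      simp [CurveData.Ji]
    rw [LinearMap.comp_apply, LinearMap.comp_apply, h1, hr]
    congr 1
    simp [CurveData.eA]
  · obtain ⟨m, hm⟩ := hs a
    refine ⟨⟨(T 1 : K[T;T⁻¹]) • (m : N.M), ?_⟩, ?_⟩
    · rw [mem_twT, T_smul_T_smul]
      simp
    · rw [LinearMap.comp_apply, ← hm]
      congr 1
      apply Subtype.ext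
      change (T (-1) : K[T;T⁻¹]) • (T 1 : K[T;T⁻¹]) • (m : N.M) = m
      rw [T_smul_T_smul]
      simp

section Split

variable {N : LB X K} (h : Split N.A0 N.Ai) (w : twT N.Ai →ₗ[K] K)

/-- the restriction of `w` to `V` -/
noncomputable def wV : secV N.A0 N.Ai →ₗ[K] K :=
  w ∘ₗ Submodule.inclusion (show secV N.A0 N.Ai ≤ twT N.Ai from fun _ hm => hm.2)

/-- the functionals `w ∘ c_n` on `M` -/
noncomputable def th (n : ℤ) : N.M →ₗ[K] K := wV w ∘ₗ h.cfV ∘ₗ mulT K N.M (-n)

theorem th_apply (n : ℤ) (m : N.M) :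
    th h w n m = wV w (h.cfV ((T (-n) : K[T;T⁻¹]) • m)) := rfl

theorem th_T (n i : ℤ) (m : N.M) : th h w n ((T i : K[T;T⁻¹]) • m) = th h w (n - i) m := by
  rw [th_apply, th_apply, T_smul_T_smul]
  congr 4
  ring

include h in
theorem cfV_eq_zero_of_memi {m : N.M} (hm : m ∈ N.Ai) : h.cfV m = 0 := by
  apply Subtype.ext
  rw [h.coe_cfV, (N.A0.projection_apply_eq_zero_iff h.compl).mpr hm]
  simp

include h in
theorem cfV_eq_zero_of_mem0 {m : N.M} (hm : m ∈ N.A0)
    (hm' : (T (-1) : K[T;T⁻¹]) • m ∈ N.A0) : h.cfV m = 0 := by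
  apply Subtype.ext
  rw [h.coe_cfV, N.A0.projection_apply_of_mem_left h.compl hm,
    (N.Ai.projection_apply_eq_zero_iff h.compl.symm).mpr hm']
  simp

theorem th_eq_zero_of_mem0 {n : ℤ} (hn : n < 0) {m : N.M} (hm : m ∈ N.A0) :
    th h w n m = 0 := by
  rw [th_apply, cfV_eq_zero_of_mem0 h, map_zero]
  · exact h.st0_int (by omega) hm
  · rw [T_smul_T_smul]
    exact h.st0_int (by omega) hm

theorem th_eq_zero_of_memi {e : ℕ} {n : ℤ} (hn : (e : ℤ) < n) {m : N.M}
    (hm : (T (-(e + 1 : ℤ)) : K[T;T⁻¹]) • m ∈ N.Ai) : th h w n m = 0 := by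
  rw [th_apply, cfV_eq_zero_of_memi h, map_zero]
  have h1 : (T (-n) : K[T;T⁻¹]) • m =
      (T (-n + (e + 1)) : K[T;T⁻¹]) • (T (-(e + 1 : ℤ)) : K[T;T⁻¹]) • m := by
    rw [T_smul_T_smul]
    congr 2
    ring
  rw [h1]
  exact h.sti_int (by omega) hm

theorem th_coe (n : ℤ) (v : secV N.A0 N.Ai) :
    th h w n (v : N.M) = if n = 0 then wV w v else 0 := by
  rw [th_apply]
  split_ifs with hn
  · rw [hn, neg_zero, T_zero, one_smul, h.cfV_coe]
  · rw [h.cfV_T_smul v (by omega), map_zero]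

variable {w}

include h in
/-- the functional does not vanish on `V` -/
theorem exists_wV_eq_one (heig : ∀ (β : X.Bi) (m m' : twT N.Ai), (m' : N.M) = N.act β m →
      w m' = algebraMap k K (X.e β) * w m) (hsurj : Function.Surjective w) :
    ∃ v : secV N.A0 N.Ai, wV w v = 1 := by
  obtain ⟨m, hm⟩ := hsurj 1
  obtain ⟨a, ha, b, hb, hab⟩ := h.exists_add (m : N.M)
  have hbW : b ∈ twT N.Ai := h.sti b hb
  have haW : a ∈ twT N.Ai := by
    have : a = (m : N.M) - b := by rw [hab]; abel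
    rw [this]
    exact (twT N.Ai).sub_mem m.2 hbW
  have hxb : (T 1 : K[T;T⁻¹]) • b ∈ twT N.Ai := by
    rw [mem_twT, T_smul_T_smul]
    simpa using hb
  have hwb : w ⟨b, hbW⟩ = 0 := by
    rw [heig ⟨X.y, X.y_mem⟩ ⟨_, hxb⟩ ⟨b, hbW⟩, X.e_y, map_zero, zero_mul]
    change b = N.act X.y ((T 1 : K[T;T⁻¹]) • b)
    rw [LB.act_y, T_smul_T_smul]
    simp
  refine ⟨⟨a, ha, haW⟩, ?_⟩
  have h1 : m = ⟨a, haW⟩ + ⟨b, hbW⟩ := Subtype.ext hab
  rw [h1, map_add, hwb, add_zero] at hm
  exact hm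

theorem x0_pow_smul (n : ℕ) (m : N.M) : (X.x0 K ^ n) • m = (T (n : ℤ) : K[T;T⁻¹]) • m := by
  rw [N.smul0, map_pow, X.J0_x0, LB.smul_lam, X.lam_T_nat]

/-- the coefficients of a polynomial multiple of `v` -/
theorem th_aeval_smul (f : Polynomial K) (v : secV N.A0 N.Ai) (n : ℕ) :
    th h w n ((Polynomial.aeval (X.x0 K) f : X.R0 K) • (v : N.M)) = f.coeff n * wV w v := by
  rw [Polynomial.aeval_eq_sum_range, Finset.sum_smul, map_sum]
  have h1 : ∀ i ∈ Finset.range (f.natDegree + 1),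
      th h w n ((f.coeff i • X.x0 K ^ i) • (v : N.M)) =
        if i = n then f.coeff n * wV w v else 0 := by
    intro i _
    rw [smul_assoc, map_smul, x0_pow_smul, th_T, th_coe, smul_eq_mul]
    by_cases hi : i = n
    · rw [if_pos hi, if_pos (by omega), hi]
    · rw [if_neg hi, if_neg (by omega), mul_zero]
  rw [Finset.sum_congr rfl h1, Finset.sum_ite_eq']
  split_ifs with h2
  · rfl
  · rw [Finset.mem_range] at h2
    rw [Polynomial.coeff_eq_zero_of_natDegree_lt (by omega), zero_mul]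

variable {d : ℕ} {wB : Fin d → X.B0} (b₀ : Module.Basis (Fin d × ℕ) k X.B0)
  (hb₀ : ∀ j n, b₀ (j, n) = ⟨X.x, X.x_mem⟩ ^ n * wB j)

include b₀ hb₀ in
/-- a vector killed by the functionals `v ↦ w (c_n (b_j v))` is zero -/
theorem eq_zero_of_th (heig : ∀ (β : X.Bi) (m m' : twT N.Ai), (m' : N.M) = N.act β m →
      w m' = algebraMap k K (X.e β) * w m) (hsurj : Function.Surjective w)
    {e : ℕ} (he : ∀ j, X.y ^ e * (wB j : X.B) ∈ X.Bi) {v : secV N.A0 N.Ai}
    (hv : ∀ j, ∀ n : ℕ, n ≤ e → th h w n (N.act (wB j) (v : N.M)) = 0) : v = 0 := by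
  -- step 1
  have h1 : ∀ j, ∀ n : ℤ, th h w n (N.act (wB j) (v : N.M)) = 0 := by
    intro j n
    rcases lt_or_ge n 0 with hn | hn
    · exact th_eq_zero_of_mem0 h w hn (LB.act_mem0 (wB j).2 v.2.1)
    · rcases lt_or_ge (e : ℤ) n with hn' | hn'
      · apply th_eq_zero_of_memi h w hn'
        have h2 : (T (-(e + 1 : ℤ)) : K[T;T⁻¹]) • N.act (wB j) (v : N.M) =
            N.act (X.y ^ e * (wB j : X.B)) ((T (-1) : K[T;T⁻¹]) • (v : N.M)) := by
          rw [← map_smul, LB.act_apply, LB.act_apply, LB.smul_lam, LB.smul_lam, X.lam_T_neg_one,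
            smul_smul, smul_smul]
          congr 1
          rw [show (-(e + 1 : ℤ)) = -((e + 1 : ℕ) : ℤ) by push_cast; ring, X.lam_T_neg_nat]
          have h3 : (1 ⊗ₜ (X.y ^ e * (wB j : X.B)) : X.R K) =
              X.yA K ^ e * (1 ⊗ₜ (wB j : X.B)) := by
            rw [CurveData.yA, Algebra.TensorProduct.tmul_pow, Algebra.TensorProduct.tmul_mul_tmul,
              one_pow, one_mul]
          rw [h3]
          ring
        rw [h2]
        exact LB.act_memi (he j) v.2.2
      · lift n to ℕ using hn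
        exact hv j n (by omega)
  -- step 2
  have h2 : ∀ c : X.B0, ∀ n : ℤ, th h w n (N.act c (v : N.M)) = 0 := by
    intro c
    have hc : c ∈ Submodule.span k (Set.range b₀) := by rw [b₀.span_eq]; trivial
    induction hc using Submodule.span_induction with
    | mem c hc =>
      obtain ⟨⟨j, i⟩, rfl⟩ := hc
      intro n
      rw [hb₀]
      have h3 : N.act ((⟨X.x, X.x_mem⟩ ^ i * wB j : X.B0) : X.B) (v : N.M) =
          (T (i : ℤ) : K[T;T⁻¹]) • N.act (wB j) (v : N.M) := by
        rw [LB.act_apply, LB.act_apply, LB.smul_lam, X.lam_T_nat, smul_smul]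
        congr 1
        rw [CurveData.xA, Algebra.TensorProduct.tmul_pow, Algebra.TensorProduct.tmul_mul_tmul,
          one_pow, one_mul]
        rfl
      rw [h3, th_T]
      exact h1 j _
    | zero =>
      intro n
      have h3 : N.act ((0 : X.B0) : X.B) (v : N.M) = 0 := by
        rw [ZeroMemClass.coe_zero, map_zero]; rfl
      rw [h3, map_zero]
    | add c c' _ _ hc hc' =>
      intro n
      have h3 : N.act ((c + c' : X.B0) : X.B) (v : N.M) =
          N.act c (v : N.M) + N.act c' (v : N.M) := by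
        rw [Subalgebra.coe_add, map_add]; rfl
      rw [h3, map_add, hc, hc', add_zero]
    | smul a c _ hc =>
      intro n
      have h3 : N.act ((a • c : X.B0) : X.B) (v : N.M) =
          algebraMap k K a • N.act c (v : N.M) := by
        rw [Subalgebra.coe_smul, Algebra.smul_def, map_mul, ← LB.act_k]
        rfl
      rw [h3, map_smul, hc, smul_zero]
  -- step 3
  have h3 : ∀ r : X.R0 K, ∀ n : ℤ, th h w n (r • (v : N.M)) = 0 := by
    intro r n
    induction r using TensorProduct.induction_on with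
    | zero => exact (congrArg (th h w n) (zero_smul (X.R0 K) (v : N.M))).trans (map_zero _)
    | tmul a c =>
      have h4 : (a ⊗ₜ[k] c : X.R0 K) • (v : N.M) = a • N.act c (v : N.M) := by
        rw [LB.act_apply, N.smulA, smul_smul, N.smul0]
        congr 1
        rw [Algebra.TensorProduct.algebraMap_apply, Algebra.TensorProduct.tmul_mul_tmul,
          Algebra.algebraMap_self, RingHom.id_apply, mul_one, one_mul]
        simp [CurveData.J0]
      rw [h4, map_smul, h2, smul_zero]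
    | add r s hr hs => rw [add_smul, map_add, hr, hs, add_zero]
  -- step 4
  by_contra hv0
  obtain ⟨v', hv'⟩ := exists_wV_eq_one h heig hsurj
  haveI := N.inv0
  obtain ⟨E, hE, hp⟩ := exists_proportional (S := X.R0 K) (N := N.M0)
  let v0 : N.M0 := ⟨v, v.2.1⟩
  let v1 : N.M0 := ⟨v', v'.2.1⟩
  have hr : E v0 ≠ 0 := by
    intro h0
    apply hv0
    have h4 : v0 = 0 := hE (by rw [h0, map_zero])
    have h5 : (v0 : N.M) = 0 := by rw [h4]; rfl
    exact Subtype.ext h5
  haveI hfd : FiniteDimensional K (X.R0 K ⧸ Ideal.span {E v0}) :=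
    X.ff_quo0 K _ (by rwa [Ne, Ideal.span_singleton_eq_bot])
  obtain ⟨f, hf, hf0⟩ := IsIntegral.of_finite K (Ideal.Quotient.mk (Ideal.span {E v0}) (X.x0 K))
  have h4 : Polynomial.aeval (X.x0 K) f ∈ Ideal.span {E v0} := by
    rw [← Ideal.Quotient.eq_zero_iff_mem]
    have h5 : Ideal.Quotient.mk (Ideal.span {E v0}) (Polynomial.aeval (X.x0 K) f) =
        Polynomial.aeval (Ideal.Quotient.mk (Ideal.span {E v0}) (X.x0 K)) f :=
      (Polynomial.aeval_algHom_apply (Ideal.Quotient.mkₐ K (Ideal.span {E v0})) (X.x0 K) f).symm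
    rw [h5]
    exact hf0
  obtain ⟨s, hs⟩ := Ideal.mem_span_singleton'.1 h4
  have h5 : (Polynomial.aeval (X.x0 K) f : X.R0 K) • (v' : N.M) = (s * E v1) • (v : N.M) := by
    have h6 := congrArg Subtype.val (hp v0 v1)
    rw [← hs, mul_smul, mul_smul]
    congr 1
  apply hf.ne_zero
  ext n
  have h6 := h3 (s * E v1) n
  rw [← h5, th_aeval_smul, hv', mul_one] at h6
  rw [h6, Polynomial.coeff_zero]

end Split

section Dim

/-- if `V` represents the quotient `P / x P` of an invertible module then it has the dimension of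
`S / x S` -/
theorem exists_linearEquiv_quot {F S P V : Type u} [Field F] [CommRing S] [Algebra F S]
    [AddCommGroup P] [Module S P] [Module F P] [IsScalarTower F S P] [Module.Invertible S P]
    [AddCommGroup V] [Module F V] (x : S) [Module.Finite F (S ⧸ Ideal.span {x})] (φ : V →ₗ[F] P)
    (h1 : ∀ m : P, ∃ v m', m = φ v + x • m') (h2 : ∀ v m', φ v = x • m' → v = 0) :
    Nonempty (V ≃ₗ[F] (S ⧸ Ideal.span {x})) := by
  haveI : Finite (MaximalSpectrum (S ⧸ Ideal.span {x})) :=
    finite_maximalSpectrum_of_finite F (S ⧸ Ideal.span {x})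
  obtain ⟨e⟩ := Module.Invertible.free_iff_linearEquiv.mp
    (inferInstance : Module.Free (S ⧸ Ideal.span {x}) ((S ⧸ Ideal.span {x}) ⊗[S] P))
  let ψ : P →ₗ[S] (S ⧸ Ideal.span {x}) := (e.toLinearMap.restrictScalars S) ∘ₗ
    (TensorProduct.mk S (S ⧸ Ideal.span {x}) P 1)
  have hψs : Function.Surjective ψ := by
    intro a
    obtain ⟨m, hm⟩ := TensorProduct.mk_surjective S P (S ⧸ Ideal.span {x})
      Ideal.Quotient.mk_surjective (e.symm a)
    refine ⟨m, ?_⟩
    change e (TensorProduct.mk S (S ⧸ Ideal.span {x}) P 1 m) = a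
    rw [hm, LinearEquiv.apply_symm_apply]
  have hψx : ∀ m, ψ (x • m) = 0 := by
    intro m
    rw [map_smul, Algebra.smul_def]
    have : algebraMap S (S ⧸ Ideal.span {x}) x = 0 :=
      Ideal.Quotient.eq_zero_iff_mem.2 (Ideal.mem_span_singleton_self x)
    rw [this, zero_mul]
  have hψ0 : ∀ m, ψ m = 0 → ∃ m', m = x • m' := by
    intro m hm
    have h3 : TensorProduct.mk S (S ⧸ Ideal.span {x}) P 1 m = 0 := by
      apply e.injective
      rw [map_zero]
      exact hm
    have h4 : (Submodule.Quotient.mk m : P ⧸ (Ideal.span {x} • (⊤ : Submodule S P))) = 0 := by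
      have h5 := TensorProduct.quotTensorEquivQuotSMul_mk_tmul (I := Ideal.span {x}) (M := P) 1 m
      rw [one_smul] at h5
      rw [← h5]
      have h6 : (Ideal.Quotient.mk (Ideal.span {x}) 1) ⊗ₜ[S] m = 0 := h3
      rw [h6, map_zero]
    rw [Submodule.Quotient.mk_eq_zero, Submodule.ideal_span_singleton_smul,
      Submodule.mem_smul_pointwise_iff_exists] at h4
    obtain ⟨m', -, hm'⟩ := h4
    exact ⟨m', hm'.symm⟩
  refine ⟨LinearEquiv.ofBijective (ψ.restrictScalars F ∘ₗ φ) ⟨?_, ?_⟩⟩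
  · rw [injective_iff_map_eq_zero]
    intro v hv
    obtain ⟨m', hm'⟩ := hψ0 _ hv
    exact h2 v m' hm'
  · intro a
    obtain ⟨m, rfl⟩ := hψs a
    obtain ⟨v, m', hm⟩ := h1 m
    refine ⟨v, ?_⟩
    rw [hm, map_add, hψx, add_zero]
    rfl

variable {d : ℕ} {wB : Fin d → X.B0} (b₀ : Module.Basis (Fin d × ℕ) k X.B0)
  (hb₀ : ∀ j n, b₀ (j, n) = ⟨X.x, X.x_mem⟩ ^ n * wB j)

include b₀ hb₀ in
variable (K) in
/-- `R0 / x` has dimension `d` -/
theorem exists_quot_equiv : Nonempty ((X.R0 K ⧸ Ideal.span {X.x0 K}) ≃ₗ[K] (Fin d → K)) := by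
  classical
  let b : Module.Basis (Fin d × ℕ) K (X.R0 K) := b₀.baseChange K
  have hb : ∀ j n, b (j, n + 1) = X.x0 K * b (j, n) := by
    intro j n
    change b₀.baseChange K (j, n + 1) = X.x0 K * b₀.baseChange K (j, n)
    rw [Module.Basis.baseChange_apply, Module.Basis.baseChange_apply, hb₀, hb₀, CurveData.x0,
      Algebra.TensorProduct.tmul_mul_tmul, one_mul, pow_succ']
    congr 1
    ring
  let ρ : X.R0 K →ₗ[K] (Fin d → K) := LinearMap.pi fun j => b.coord (j, 0)
  have hρ : ∀ r j, ρ r j = b.repr r (j, 0) := fun r j => rfl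
  have hρs : Function.Surjective ρ := by
    intro c
    refine ⟨∑ j, c j • b (j, 0), ?_⟩
    ext i
    rw [hρ, map_sum, Finsupp.finsetSum_apply]
    rw [Finset.sum_eq_single i]
    · simp
    · intro j _ hj
      rw [map_smul, Finsupp.smul_apply, b.repr_self, Finsupp.single_apply, if_neg, smul_zero]
      intro h0
      exact hj (congrArg Prod.fst h0)
    · intro h0
      exact absurd (Finset.mem_univ i) h0
  let f : X.R0 K →ₗ[K] (X.R0 K ⧸ Ideal.span {X.x0 K}) :=
    (Ideal.Quotient.mkₐ K (Ideal.span {X.x0 K})).toLinearMap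
  have hfs : Function.Surjective f := Ideal.Quotient.mkₐ_surjective K _
  have hker : LinearMap.ker f = LinearMap.ker ρ := by
    ext r
    rw [LinearMap.mem_ker, LinearMap.mem_ker]
    have h1 : f r = 0 ↔ r ∈ Ideal.span {X.x0 K} := Ideal.Quotient.eq_zero_iff_mem
    rw [h1, Ideal.mem_span_singleton']
    constructor
    · rintro ⟨s, rfl⟩
      have h2 : ρ ∘ₗ (LinearMap.mulLeft K (X.x0 K)) = 0 := by
        refine b.ext fun jn => ?_
        obtain ⟨j, n⟩ := jn
        rw [LinearMap.comp_apply, LinearMap.mulLeft_apply, ← hb]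
        ext i
        rw [hρ, b.repr_self, Finsupp.single_apply, if_neg]
        · rfl
        · intro h0
          exact absurd (congrArg Prod.snd h0) (Nat.succ_ne_zero n)
      rw [mul_comm]
      exact LinearMap.congr_fun h2 s
    · intro h2
      have h3 : r ∈ (Ideal.span {X.x0 K} : Ideal (X.R0 K)) := by
        rw [← b.linearCombination_repr r, Finsupp.linearCombination_apply]
        refine Submodule.sum_mem _ fun jn _ => ?_
        obtain ⟨j, n⟩ := jn
        change b.repr r (j, n) • b (j, n) ∈ _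
        cases n with
        | zero =>
          have h4 : b.repr r (j, 0) = 0 := by rw [← hρ, h2]; rfl
          rw [h4, zero_smul]
          exact zero_mem _
        | succ n =>
          rw [hb]
          exact Submodule.smul_of_tower_mem _ _
            (Ideal.mul_mem_right _ _ (Ideal.mem_span_singleton_self _))
      exact Ideal.mem_span_singleton'.1 h3
  exact ⟨(f.quotKerEquivOfSurjective hfs).symm ≪≫ₗ Submodule.quotEquivOfEq _ _ hker ≪≫ₗ
    (ρ.quotKerEquivOfSurjective hρs)⟩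

include b₀ hb₀ in
/-- the dimension of `V` -/
theorem exists_secV_equiv {N : LB X K} (h : Split N.A0 N.Ai) :
    Nonempty (secV N.A0 N.Ai ≃ₗ[K] (Fin d → K)) := by
  obtain ⟨e⟩ := exists_quot_equiv K b₀ hb₀
  haveI : Module.Finite K (X.R0 K ⧸ Ideal.span {X.x0 K}) := Module.Finite.equiv e.symm
  haveI := N.inv0
  let φ : secV N.A0 N.Ai →ₗ[K] N.M0 :=
    { toFun := fun v => ⟨v, v.2.1⟩
      map_add' := fun _ _ => rfl
      map_smul' := fun _ _ => rfl }
  obtain ⟨e'⟩ := exists_linearEquiv_quot (P := N.M0) (X.x0 K) φ (fun m => by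
    obtain ⟨a, ha, b, hb, hab⟩ := h.exists_add ((T (-1) : K[T;T⁻¹]) • (m : N.M))
    have h1 : (m : N.M) = (T 1 : K[T;T⁻¹]) • a + (T 1 : K[T;T⁻¹]) • b := by
      rw [← smul_add, ← hab, T_smul_T_smul]
      simp
    have h2 : (T 1 : K[T;T⁻¹]) • b ∈ secV N.A0 N.Ai := by
      refine ⟨?_, ?_⟩
      · have : (T 1 : K[T;T⁻¹]) • b = (m : N.M) - (T 1 : K[T;T⁻¹]) • a := by rw [h1]; abel
        rw [this]
        exact N.A0.sub_mem m.2 (h.st0 _ ha)
      · rw [T_smul_T_smul]
        simpa using hb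
    refine ⟨⟨_, h2⟩, ⟨a, ha⟩, Subtype.ext ?_⟩
    have h3 : X.x0 K • a = (T 1 : K[T;T⁻¹]) • a := by
      have := x0_pow_smul 1 a
      rwa [pow_one] at this
    change (m : N.M) = (T 1 : K[T;T⁻¹]) • b + X.x0 K • a
    rw [h3, h1]
    exact add_comm _ _) (fun v m' hv => by
    have h3 : X.x0 K • (m' : N.M) = (T 1 : K[T;T⁻¹]) • (m' : N.M) := by
      have := x0_pow_smul 1 (m' : N.M)
      rwa [pow_one] at this
    have h4 : (v : N.M) = (T 1 : K[T;T⁻¹]) • (m' : N.M) := by
      rw [← h3]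
      exact congrArg Subtype.val hv
    have h5 : (T (-1) : K[T;T⁻¹]) • (v : N.M) = m' := by
      rw [h4, T_smul_T_smul]
      simp
    have h6 : (m' : N.M) = 0 := h.eq_zero_of_mem m'.2 (by rw [← h5]; exact v.2.2)
    apply Subtype.ext
    rw [h4, h6, smul_zero]
    rfl)
  exact ⟨e' ≪≫ₗ e⟩

end Dim

end GoodEx

open GoodEx in
/-- **Existence of good frames**: two line bundles without cohomology over a field `K ⊃ k` are good
for one frame out of a finite family. -/
theorem exists_good_pair {k : Type u} [Field k] [Infinite k] {X : CurveData k} {d : ℕ}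
    {wB : Fin d → X.B0} (b₀ : Module.Basis (Fin d × ℕ) k X.B0)
    (hb₀ : ∀ j n, b₀ (j, n) = ⟨X.x, X.x_mem⟩ ^ n * wB j) :
    ∃ (I : Type) (_ : Finite I) (q : I → Frame X), (∀ i, (q i).d = d) ∧
      ∀ (K : Type u) [Field K] [Algebra k K] (N N' : LB X K), IsCompl N.A0 N.Ai →
        IsCompl N'.A0 N'.Ai → ∃ i, N.Good (q i) ∧ N'.Good (q i) := by
  classical
  -- the bound for the poles
  have hex : ∀ j, ∃ n : ℕ, X.y ^ n * (wB j : X.B) ∈ X.Bi := fun j => X.loci _
  choose n₀ hn₀ using hex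
  obtain ⟨e, he⟩ : ∃ e : ℕ, ∀ j, n₀ j ≤ e := ⟨Finset.univ.sup n₀, fun j =>
    Finset.le_sup (Finset.mem_univ j)⟩
  have hBi : ∀ j, X.y ^ e * (wB j : X.B) ∈ X.Bi := by
    intro j
    obtain ⟨c, hc⟩ := Nat.exists_eq_add_of_le (he j)
    rw [hc, add_comm, pow_add, mul_assoc]
    exact X.Bi.mul_mem (X.Bi.pow_mem X.y_mem c) (hn₀ j)
  obtain ⟨S, hS⟩ := exists_finset_grid k (Fin (d * (e + 1))) d
  let bb : Fin (d * (e + 1)) → X.B := fun j => wB (finProdFinEquiv.symm j).1
  let nn : Fin (d * (e + 1)) → ℤ := fun j => ((finProdFinEquiv.symm j).2 : ℕ)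
  let q : (Fin d → Fin (d * (e + 1)) → k) → Frame X := fun t => ⟨d, d * (e + 1), bb, nn, t⟩
  refine ⟨Fin S.card, inferInstance, fun i => q (S.equivFin.symm i), fun _ => rfl, ?_⟩
  intro K _ _ N N' hN hN'
  -- the functionals span the dual space
  have key : ∀ N : LB X K, ∀ h : Split N.A0 N.Ai, ∃ w : twT N.Ai →ₗ[K] K,
      (∀ (β : X.Bi) (m m' : twT N.Ai), (m' : N.M) = N.act β m →
        w m' = algebraMap k K (X.e β) * w m) ∧ Function.Surjective w ∧
      Submodule.span K (Set.range fun j => (LinearMap.proj j : (Fin (d * (e + 1)) → K) →ₗ[K] K) ∘ₗ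
        h.coords0 N.act bb nn w) = ⊤ := by
    intro N h
    obtain ⟨w, hw1, hw2⟩ := exists_functional N
    obtain ⟨E⟩ := exists_secV_equiv b₀ hb₀ h
    haveI : Module.Finite K (secV N.A0 N.Ai) := Module.Finite.equiv E.symm
    refine ⟨w, hw1, hw2, ?_⟩
    apply Submodule.span_eq_top_of_ne_zero
    intro v hv
    by_contra hc
    push Not at hc
    apply hv
    refine eq_zero_of_th h b₀ hb₀ hw1 hw2 hBi fun j n hn => ?_
    have h1 := hc _ ⟨finProdFinEquiv (j, ⟨n, Nat.lt_succ_of_le hn⟩), rfl⟩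
    have h2 : th h w n (N.act (wB j) (v : N.M)) =
        h.coords0 N.act bb nn w v (finProdFinEquiv (j, ⟨n, Nat.lt_succ_of_le hn⟩)) := by
      rw [Split.coords0_apply]
      simp only [bb, nn, Equiv.symm_apply_apply]
      rfl
    rw [h2]
    exact h1
  obtain ⟨w, hw1, hw2, hw3⟩ := key N (N.split hN)
  obtain ⟨w', hw1', hw2', hw3'⟩ := key N' (N'.split hN')
  obtain ⟨E⟩ := exists_secV_equiv b₀ hb₀ (N.split hN)
  obtain ⟨E'⟩ := exists_secV_equiv b₀ hb₀ (N'.split hN')
  haveI : Module.Finite K (secV N.A0 N.Ai) := Module.Finite.equiv E.symm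
  haveI : Module.Finite K (secV N'.A0 N'.Ai) := Module.Finite.equiv E'.symm
  have hd : Module.finrank K (secV N.A0 N.Ai) = d := by
    rw [E.finrank_eq, Module.finrank_fin_fun]
  have hd' : Module.finrank K (secV N'.A0 N'.Ai) = d := by
    rw [E'.finrank_eq, Module.finrank_fin_fun]
  obtain ⟨t, ht, h1, h2⟩ := hS hd hd' hw3 hw3'
  refine ⟨S.equivFin ⟨t, ht⟩, ?_⟩
  change N.Good (q (S.equivFin.symm (S.equivFin ⟨t, ht⟩))) ∧
    N'.Good (q (S.equivFin.symm (S.equivFin ⟨t, ht⟩)))
  rw [Equiv.symm_apply_apply]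
  exact ⟨⟨N.split hN, w, ⟨hw1, hw2, h1⟩⟩, ⟨N'.split hN', w', ⟨hw1', hw2', h2⟩⟩⟩

end Fermat.Agent.Jac
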