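import Fermat.Agent.Jac.BC

set_option autoImplicit false

/-!
# Rigidifications: base change, existence over local rings
-/

universe u

open TensorProduct

namespace Fermat.Agent.Jac

variable {k : Type u} [Field k] {X : CurveData k}
  {A : Type u} [CommRing A] [Algebra k A] {A' : Type u} [CommRing A'] [Algebra k A']

theorem CurveData.eA_bi (h : A →ₐ[k] A') (r : X.Ri A) : X.eA A' (X.bi h r) = h (X.eA A r) := by
  induction r using TensorProduct.induction_on with
  | zero => simp
  | tmul a b => simp [CurveData.eA, CurveData.bi, Algebra.ofId_apply]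
  | add r s hr hs => rw [map_add, map_add, hr, hs, map_add, map_add]

namespace LB

/-- constructor for rigidifications -/
theorem Rig.of_addMonoidHom {L : LB X A} (g : L.Mi →+ A)
    (hg : ∀ (b : X.Ri A) (m : L.Mi), g (b • m) = X.eA A b * g m) (h1 : ∃ m, g m = 1) : L.Rig := by
  refine ⟨{ toFun := g
            map_add' := map_add g
            map_smul' := fun a m => ?_ }, hg, fun a => ?_⟩
  · have h2 : a • m = algebraMap A (X.Ri A) a • m := (algebraMap_smul (X.Ri A) a m).symm
    rw [h2, hg, AlgHom.commutes]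
    rfl
  · obtain ⟨m, hm⟩ := h1
    refine ⟨algebraMap A (X.Ri A) a • m, ?_⟩
    change g (algebraMap A (X.Ri A) a • m) = a
    rw [hg, hm, AlgHom.commutes, mul_one]
    rfl

/-- the base change of a rigidified line bundle is rigidified -/
theorem Rig.bc {h : A →ₐ[k] A'} {L : LB X A} {L' : LB X A'} (hb : BC h L L') (hL : L.Rig) :
    L'.Rig := by
  obtain ⟨F⟩ := hb
  obtain ⟨r, hr, hrs⟩ := hL
  obtain ⟨g, hg, hgf⟩ := exists_lift_of_span (X.bi h).toRingHom (X.eA A').toRingHom F.fi F.fi_smul
    F.span_rangei ((h : A →+* A').toAddMonoidHom.comp r.toAddMonoidHom) (fun s m => by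
      change h (r (s • m)) = X.eA A' (X.bi h s) • h (r m)
      rw [hr, map_mul, CurveData.eA_bi]
      rfl)
  refine Rig.of_addMonoidHom g (fun b m => hg b m) ?_
  obtain ⟨m, hm⟩ := hrs 1
  refine ⟨F.fi m, (hgf m).trans ?_⟩
  change h (r m) = 1
  rw [hm, map_one]

/-- over a local ring every line bundle can be rigidified -/
theorem rig_of_isLocalRing [IsLocalRing A] (L : LB X A) : L.Rig := by
  obtain ⟨N, _, _, _, f, hf, hs⟩ := exists_bcMod (X.eA A).toRingHom L.Mi
  have hfree : Module.Free A N := inferInstance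
  obtain ⟨e⟩ := Module.Invertible.free_iff_linearEquiv.mp hfree
  have hf' : ∀ (b : X.Ri A) (m : L.Mi), f (b • m) = X.eA A b • f m := hf
  -- the range of `f` is a submodule
  have h1 : ∀ n ∈ Submodule.span A (Set.range f), ∃ m, f m = n := by
    intro n hn
    refine Submodule.span_induction (p := fun n _ => ∃ m, f m = n) ?_ ?_ ?_ ?_ hn
    · rintro _ ⟨m, rfl⟩
      exact ⟨m, rfl⟩
    · exact ⟨0, map_zero f⟩
    · rintro _ _ _ _ ⟨m, rfl⟩ ⟨m', rfl⟩
      exact ⟨m + m', map_add f m m'⟩
    · rintro a _ _ ⟨m, rfl⟩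
      refine ⟨algebraMap A (X.Ri A) a • m, ?_⟩
      rw [hf', AlgHom.commutes]
      rfl
  refine Rig.of_addMonoidHom ((e : N →+ A).comp f) (fun b m => ?_) ?_
  · change e (f (b • m)) = X.eA A b * e (f m)
    rw [hf', map_smul]
    rfl
  · obtain ⟨m, hm⟩ := h1 (e.symm 1) (hs ▸ Submodule.mem_top)
    refine ⟨m, ?_⟩
    change e (f m) = 1
    rw [hm, e.apply_symm_apply]

/-- over a field every line bundle can be rigidified -/
theorem rig_of_field {K : Type u} [Field K] [Algebra k K] (L : LB X K) : L.Rig :=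
  rig_of_isLocalRing L

end LB

end Fermat.Agent.Jac
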