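import Fermat.Agent.Jac.Tens

set_option autoImplicit false

/-!
# Rigidifications of tensor products
-/

universe u

open TensorProduct

namespace Fermat.Agent.Jac.LB

variable {k : Type u} [Field k] {X : CurveData k}
  {A : Type u} [CommRing A] [Algebra k A]

/-- the tensor product of two rigidified line bundles is rigidified -/
theorem Rig.tens {L L' L'' : LB X A} (hT : Tens L L' L'') (hL : L.Rig) (hL' : L'.Rig) :
    L''.Rig := by
  obtain ⟨β, hβ0, hβi⟩ := hT
  obtain ⟨r, hr, hrs⟩ := hL
  obtain ⟨r', hr', hrs'⟩ := hL'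
  have := X.isLocSi A
  have := L.invi
  have := L'.invi
  have := L''.invi
  let e := LinearEquiv.ofBijective (Half.t0 (X.Si A) hβi) (Half.t0_bijective (X.Si A) hβi)
  let g : L.Mi ⊗[X.Ri A] L'.Mi →+ A := TensorProduct.liftAddHom
    { toFun := fun m =>
        { toFun := fun m' => r m * r' m'
          map_zero' := by rw [map_zero, mul_zero]
          map_add' := fun a b => by rw [map_add, mul_add] }
      map_zero' := by ext m'; change r 0 * r' m' = 0; rw [map_zero, zero_mul]
      map_add' := fun a b => by
        ext m'; change r (a + b) * r' m' = r a * r' m' + r b * r' m'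
        rw [map_add, add_mul] }
    (fun b m m' => by
      change r (b • m) * r' m' = r m * r' (b • m')
      rw [hr, hr']
      ring)
  have hg : ∀ m m', g (m ⊗ₜ m') = r m * r' m' := fun m m' => rfl
  have hgs : ∀ (b : X.Ri A) (t : L.Mi ⊗[X.Ri A] L'.Mi), g (b • t) = X.eA A b * g t := by
    intro b t
    induction t using TensorProduct.induction_on with
    | zero => rw [smul_zero, map_zero, mul_zero]
    | tmul m m' => rw [TensorProduct.smul_tmul', hg, hg, hr, mul_assoc]
    | add x y hx hy => rw [smul_add, map_add, map_add, hx, hy, mul_add]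
  have hG : ∀ (b : X.Ri A) (m : L''.Mi), g (e.symm (b • m)) = X.eA A b * g (e.symm m) := by
    intro b m
    rw [map_smul, hgs]
  refine ⟨{ toFun := fun m => g (e.symm m)
            map_add' := fun a b => by rw [map_add, map_add]
            map_smul' := fun a m => ?_ }, hG, ?_⟩
  · have h1 : a • m = algebraMap A (X.Ri A) a • m := (algebraMap_smul (X.Ri A) a m).symm
    rw [h1, hG, AlgHom.commutes]
    rfl
  · intro a
    obtain ⟨m, hm⟩ := hrs a
    obtain ⟨m', hm'⟩ := hrs' 1
    refine ⟨e (m ⊗ₜ m'), ?_⟩
    change g (e.symm (e (m ⊗ₜ m'))) = a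
    rw [e.symm_apply_apply, hg, hm, hm', mul_one]

end Fermat.Agent.Jac.LB
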