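import Fermat.Agent.Jac.Cl
import Fermat.Agent.Jac.RigTens
import Fermat.Agent.Jac.RigPf

set_option autoImplicit false

/-!
# The class groups of line bundles on `C × Spec A`: the package
-/

universe u

namespace Fermat.Agent.Jac

variable {k : Type u} [Field k] (X : CurveData k)

theorem rigPkg : RigPkg X where
  rig_bc := LB.Rig.bc
  rig_field := LB.rig_of_field
  rig_tens := LB.Rig.tens

/-- **GROUP**: the class groups -/
noncomputable def clPkg : ClPkg X := (rigPkg X).clPkg

theorem bcExists : BCExists X := fun h L => LB.exists_bc h L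

variable {X} {A : Type u} [CommRing A] [Algebra k A] {A' : Type u} [CommRing A'] [Algebra k A']

theorem clPkg_mul_iff {L L' L'' : LB X A} :
    (clPkg X).cl L'' = (clPkg X).cl L * (clPkg X).cl L' ↔ LB.Tens L L' L'' := cl_mul_iff

theorem clPkg_eq_iff {L L' : LB X A} : (clPkg X).cl L = (clPkg X).cl L' ↔ LB.Iso L L' := cl_eq

theorem clPkg_one : (clPkg X).cl (LB.one X A) = 1 := rfl

end Fermat.Agent.Jac
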