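import Fermat.Agent.Jac.LBMap2

/-!
# Cohomology of line bundles: final statements (block COH)
-/

set_option autoImplicit false
set_option linter.unusedSectionVars false

universe u v u' v'

namespace Fermat.Agent.Jac

open TensorProduct Module

variable {k : Type u} [Field k] {X : CurveData k}

section general

variable {A : Type u} [CommRing A] [Algebra k A]
  {A' : Type u} [CommRing A'] [Algebra k A'] {h : A →ₐ[k] A'} {L : LB X A} {L' : LB X A'}

namespace LB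

/-- `H¹` is finitely generated -/
theorem finite_H1 (L : LB X A) : Module.Finite A L.H1 := finite_quot_sup L.isLat0 L.isLati

/-- `H⁰` is finite dimensional over a field -/
theorem finite_H0 {K : Type u} [Field K] [Algebra k K] (L : LB X K) :
    FiniteDimensional K L.H0 := finiteDimensional_inf L.isLat0 L.isLati

theorem chi_eq' {K : Type u} [Field K] [Algebra k K] (L : LB X K) :
    L.chi = Jac.chi L.A0 L.Ai := rfl

/-- if `H¹ = 0` then `H⁰` is finitely generated projective -/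
theorem finite_projective_H0 (L : LB X A) (htop : L.A0 ⊔ L.Ai = ⊤) :
    Module.Finite A L.H0 ∧ Module.Projective A L.H0 :=
  finite_projective_inf L.isLat0 L.isLati htop

/-- `H¹ = 0` is stable under base change -/
theorem BC.sup_eq_top (hb : LB.BC h L L') (htop : L.A0 ⊔ L.Ai = ⊤) : L'.A0 ⊔ L'.Ai = ⊤ := by
  obtain ⟨i1, i2, i3, f, hh, hf, hx, h0, hi⟩ := hb.exists_isBaseChange
  rw [← h0, ← hi]
  exact bc_sup_eq_top hf htop

/-- `H⁰ = H¹ = 0` is stable under base change -/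
theorem BC.isCompl (hb : LB.BC h L L') (hc : IsCompl L.A0 L.Ai) : IsCompl L'.A0 L'.Ai := by
  obtain ⟨i1, i2, i3, f, hh, hf, hx, h0, hi⟩ := hb.exists_isBaseChange
  rw [← h0, ← hi]
  refine ⟨disjoint_iff.mpr ?_, codisjoint_iff.mpr (bc_sup_eq_top hf hc.sup_eq_top)⟩
  rw [← bc_inf L.isLati hc.sup_eq_top hf, hc.inf_eq_bot, bc, Submodule.span_eq_bot]
  rintro _ ⟨w, hw, rfl⟩
  rw [(Submodule.mem_bot A).mp hw, map_zero]

/-- `H⁰` commutes with base change if `H¹ = 0` -/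
theorem Map.span_H0 (φ : LB.Map h L L') (htop : L.A0 ⊔ L.Ai = ⊤) :
    Submodule.span A' (φ.f '' L.H0) = L'.H0 := by
  let i1 : Algebra A A' := h.toRingHom.toAlgebra
  let i2 : Module A L'.M := Module.compHom L'.M h.toRingHom
  have i3 : IsScalarTower A A' L'.M := ⟨fun a b c => by
    rw [Algebra.smul_def, mul_smul]; rfl⟩
  let f : L.M →ₗ[A] L'.M :=
    { toFun := φ.f
      map_add' := map_add φ.f
      map_smul' := fun a m => φ.map_smulA a m }
  have hf : IsBaseChange A' f := φ.isBaseChange (fun a => rfl) f fun m => rfl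
  have h1 := bc_inf L.isLati htop hf
  rw [φ.bc_A0 f fun m => rfl, φ.bc_Ai f fun m => rfl] at h1
  exact h1

/-- **openness of `H⁰ = H¹ = 0`** -/
theorem isCompl_open {K : Type u} [Field K] [Algebra k K] (φ : A →ₐ[k] K) (L : LB X A)
    (L' : LB X K) (hb : LB.BC φ L L') (hc : IsCompl L'.A0 L'.Ai) :
    ∃ s : A, φ s ≠ 0 ∧ ∀ {A'' : Type u} [CommRing A''] [Algebra k A''] (g : A →ₐ[k] A'')
      (L'' : LB X A''), IsUnit (g s) → LB.BC g L L'' → IsCompl L''.A0 L''.Ai := by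
  obtain ⟨i1, i2, i3, f, hh, hf, hx, h0, hi⟩ := hb.exists_isBaseChange
  rw [← h0, ← hi] at hc
  obtain ⟨s, hs, hs'⟩ := exists_isCompl L.isLat0 L.isLati hf hc
  refine ⟨s, by rw [← hh]; exact hs, ?_⟩
  intro A'' _ _ g L'' hu hb''
  obtain ⟨j1, j2, j3, f', hh', hf', hx', h0', hi'⟩ := hb''.exists_isBaseChange
  rw [← h0', ← hi']
  exact hs' A'' L''.M f' hf' (by rw [hh']; exact hu)

/-- **openness of `H¹ = 0`** -/
theorem sup_open {K : Type u} [Field K] [Algebra k K] (φ : A →ₐ[k] K) (L : LB X A)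
    (L' : LB X K) (hb : LB.BC φ L L') (hc : L'.A0 ⊔ L'.Ai = ⊤) :
    ∃ s : A, φ s ≠ 0 ∧ ∀ {A'' : Type u} [CommRing A''] [Algebra k A''] (g : A →ₐ[k] A'')
      (L'' : LB X A''), IsUnit (g s) → LB.BC g L L'' → L''.A0 ⊔ L''.Ai = ⊤ := by
  obtain ⟨i1, i2, i3, f, hh, hf, hx, h0, hi⟩ := hb.exists_isBaseChange
  rw [← h0, ← hi] at hc
  obtain ⟨s, hs, hs'⟩ := exists_smul_mem_sup L.isLat0 L.isLati hf hc
  refine ⟨s, by rw [← hh]; exact hs, ?_⟩
  intro A'' _ _ g L'' hu hb''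
  obtain ⟨j1, j2, j3, f', hh', hf', hx', h0', hi'⟩ := hb''.exists_isBaseChange
  rw [← h0', ← hi', ← bc_sup]
  exact bc_eq_top_of_smul hf' hs' (by rw [hh']; exact hu)

/-- `H⁰ = H¹ = 0` at all geometric points implies `H⁰ = H¹ = 0` -/
theorem isCompl_of_forall (L : LB X A)
    (H : ∀ p : PrimeSpectrum A, ∃ (K : Type u) (_ : Field K) (_ : Algebra k K) (φ : A →ₐ[k] K)
      (L' : LB X K), RingHom.ker φ = p.asIdeal ∧ LB.BC φ L L' ∧ IsCompl L'.A0 L'.Ai) :
    IsCompl L.A0 L.Ai := by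
  have htop : L.A0 ⊔ L.Ai = ⊤ := by
    apply eq_top_of_forall_prime
    intro p
    obtain ⟨K, _, _, φ, L', hp, hb, hc⟩ := H p
    obtain ⟨i1, i2, i3, f, hh, hf, hx, h0, hi⟩ := hb.exists_isBaseChange
    rw [← h0, ← hi] at hc
    obtain ⟨s, hs, hs'⟩ := exists_smul_mem_sup L.isLat0 L.isLati hf hc.sup_eq_top
    refine ⟨s, fun hsp => hs ?_, hs'⟩
    rw [← hp] at hsp
    rw [hh]
    exact hsp
  have hbot : L.A0 ⊓ L.Ai = ⊥ := by
    apply eq_bot_of_forall_prime
    intro p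
    obtain ⟨K, _, _, φ, L', hp, hb, hc⟩ := H p
    obtain ⟨i1, i2, i3, f, hh, hf, hx, h0, hi⟩ := hb.exists_isBaseChange
    rw [← h0, ← hi] at hc
    obtain ⟨s, hs, hs'⟩ := exists_smul_inf L.isLat0 L.isLati htop hf hc.inf_eq_bot
    refine ⟨s, fun hsp => hs ?_, hs'⟩
    rw [← hp] at hsp
    rw [hh]
    exact hsp
  exact ⟨disjoint_iff.mpr hbot, codisjoint_iff.mpr htop⟩

/-- the Euler characteristic of a fibre -/
theorem BC.chi_eq_chiAt {K : Type u} [Field K] [Algebra k K] {φ : A →ₐ[k] K} {L' : LB X K}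
    (hb : LB.BC φ L L') (q : PrimeSpectrum K) :
    L'.chi = chiAt L.A0 L.Ai (q.comap (φ : A →+* K)) := by
  obtain ⟨i1, i2, i3, f, hh, hf, hx, h0, hi⟩ := hb.exists_isBaseChange
  have h1 := chi_bc L.isLat0 L.isLati hf q
  rw [h0, hi] at h1
  have h2 : algebraMap A K = (φ : A →+* K) := RingHom.ext hh
  rw [h2] at h1
  exact h1

end LB

end general

/-- **Block COH: the Euler characteristic is locally constant** -/
theorem chiStmt (X : CurveData k) : ChiStmt X := by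
  intro A _ _ L K _ _ φ L' hb
  let p : PrimeSpectrum A := (⊥ : PrimeSpectrum K).comap (φ : A →+* K)
  have hlc := isLocallyConstant_chiAt L.isLat0 L.isLati
  have hopen : IsOpen {q | chiAt L.A0 L.Ai q = chiAt L.A0 L.Ai p} :=
    hlc.isOpen_fiber (chiAt L.A0 L.Ai p)
  obtain ⟨_, ⟨s, rfl⟩, hs, hs'⟩ := PrimeSpectrum.isTopologicalBasis_basic_opens.exists_subset_of_mem_open
    (show p ∈ {q | chiAt L.A0 L.Ai q = chiAt L.A0 L.Ai p} from rfl) hopen
  have hmem : ∀ {K' : Type u} [Field K'] [Algebra k K'] (φ' : A →ₐ[k] K') (q : PrimeSpectrum K'),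
      q.comap (φ' : A →+* K') ∈ PrimeSpectrum.basicOpen s ↔ φ' s ≠ 0 := by
    intro K' _ _ φ' q
    rw [PrimeSpectrum.mem_basicOpen]
    change ¬ (φ' s ∈ q.asIdeal) ↔ _
    have hq : q.asIdeal = ⊥ := (Ideal.eq_bot_or_top q.asIdeal).resolve_right q.2.ne_top
    rw [hq, Ideal.mem_bot]
  refine ⟨s, (hmem φ ⊥).mp hs, ?_⟩
  intro K' _ _ φ' L'' hφ' hb'
  rw [hb.chi_eq_chiAt ⊥, hb'.chi_eq_chiAt ⊥]
  exact hs' ((hmem φ' ⊥).mpr hφ')

/-- **Block COH: the Euler characteristic is invariant under field extensions** -/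
theorem chiBCStmt (X : CurveData k) : ChiBCStmt X := by
  intro K _ _ K' _ _ h L L' hb
  rw [hb.chi_eq_chiAt ⊥]
  have h1 : L.chi = chiAt L.A0 L.Ai ((⊥ : PrimeSpectrum K).comap (algebraMap K K)) := by
    have hf : IsBaseChange K (LinearMap.id : L.M →ₗ[K] L.M) :=
      IsBaseChange.ofEquiv (LinearEquiv.refl K L.M)
    have h2 := chi_bc L.isLat0 L.isLati hf ⊥
    have h3 : ∀ E : Submodule K L.M, bc K (LinearMap.id : L.M →ₗ[K] L.M) E = E := fun E => by
      rw [bc]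
      have : (LinearMap.id : L.M →ₗ[K] L.M) '' (E : Set L.M) = E := Set.image_id _
      rw [this, Submodule.span_eq]
    rw [h3, h3] at h2
    exact h2
  rw [h1]
  congr 1
  exact Subsingleton.elim _ _

end Fermat.Agent.Jac
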