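import Fermat.Agent.Jac.ChDecomp

/-!
# Cyclic covectors

`M` a `Λ = A[T;T⁻¹]`-module with an action of `B` (`x` acts as `T`), lattices `N0`, `Ni` with
`M = N0 ⊕ Ni`, `W = T Ni`, `V = N0 ∩ W`, and a functional `u` on `W` on which `Bi` acts through a
point `e : Bi → k`.  The functionals `v ↦ u (c_n (b v))` on `V` give a canonical basis of `V`
if they form a basis of the dual for chosen `(b_i, n_i)`.
-/

set_option autoImplicit false

namespace Fermat.Agent.Jac

open LaurentPolynomial Submodule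

section

variable {A M : Type*} [CommRing A] [AddCommGroup M] [Module A M] [Module A[T;T⁻¹] M]
  [IsScalarTower A A[T;T⁻¹] M]

/-- `W = T Ni`. -/
def twT (Ni : Submodule A M) : Submodule A M where
  carrier := {m | (T (-1) : A[T;T⁻¹]) • m ∈ Ni}
  zero_mem' := by simp
  add_mem' := fun {a b} ha hb => by
    change (T (-1) : A[T;T⁻¹]) • (a + b) ∈ Ni
    rw [smul_add]; exact Ni.add_mem ha hb
  smul_mem' := fun c m hm => by
    change (T (-1) : A[T;T⁻¹]) • (c • m) ∈ Ni
    rw [smul_comm]; exact Ni.smul_mem c hm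

theorem mem_twT {Ni : Submodule A M} {m : M} :
    m ∈ twT Ni ↔ (T (-1) : A[T;T⁻¹]) • m ∈ Ni := Iff.rfl

theorem mem_secV_iff {N0 Ni : Submodule A M} {m : M} :
    m ∈ secV N0 Ni ↔ m ∈ N0 ∧ m ∈ twT Ni := Iff.rfl

/-- multiplication by `T n` as an `A`-linear map. -/
noncomputable def mulT (A M : Type*) [CommRing A] [AddCommGroup M] [Module A M] [Module A[T;T⁻¹] M]
    [IsScalarTower A A[T;T⁻¹] M] (n : ℤ) : M →ₗ[A] M where
  toFun m := (T n : A[T;T⁻¹]) • m
  map_add' := smul_add _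
  map_smul' c m := smul_comm _ _ _

@[simp] theorem mulT_apply (n : ℤ) (m : M) : mulT A M n m = (T n : A[T;T⁻¹]) • m := rfl

namespace Split

variable {N0 Ni : Submodule A M} (h : Split N0 Ni)

theorem cf_mem_aux (m : M) :
    (T 1 : A[T;T⁻¹]) • (Ni.projection N0 h.compl.symm
      ((T (-1) : A[T;T⁻¹]) • (N0.projection Ni h.compl m))) ∈ secV N0 Ni := by
  set a := N0.projection Ni h.compl m with ha
  have haN : a ∈ N0 := N0.projection_apply_mem h.compl m
  set b := Ni.projection N0 h.compl.symm ((T (-1) : A[T;T⁻¹]) • a) with hb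
  have hbN : b ∈ Ni := Ni.projection_apply_mem h.compl.symm _
  have hc : (T (-1) : A[T;T⁻¹]) • a - b ∈ N0 := Ni.sub_projection_mem h.compl.symm _
  refine ⟨?_, ?_⟩
  · have h1 := h.st0 _ hc
    rw [smul_sub, T_smul_T_smul] at h1
    have h2 : (T (1 + -1) : A[T;T⁻¹]) • a = a := by simp
    rw [h2] at h1
    have h3 := N0.sub_mem haN h1
    rwa [sub_sub_cancel] at h3
  · rw [T_smul_T_smul]
    simpa using hbN

/-- the coefficient map `c_0 : M = ⊕ Tⁿ V → V`. -/
noncomputable def cfV : M →ₗ[A] secV N0 Ni :=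
  LinearMap.codRestrict (secV N0 Ni)
    (mulT A M 1 ∘ₗ Ni.projection N0 h.compl.symm ∘ₗ mulT A M (-1) ∘ₗ N0.projection Ni h.compl)
    h.cf_mem_aux

theorem coe_cfV (m : M) : (h.cfV m : M) = (T 1 : A[T;T⁻¹]) • (Ni.projection N0 h.compl.symm
      ((T (-1) : A[T;T⁻¹]) • (N0.projection Ni h.compl m))) := rfl

theorem cfV_coe (v : secV N0 Ni) : h.cfV (v : M) = v := by
  ext
  rw [coe_cfV, N0.projection_apply_of_mem_left h.compl v.2.1,
    Ni.projection_apply_of_mem_left h.compl.symm v.2.2, T_smul_T_smul]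
  simp

theorem cfV_T_smul (v : secV N0 Ni) {n : ℤ} (hn : n ≠ 0) :
    h.cfV ((T n : A[T;T⁻¹]) • (v : M)) = 0 := by
  ext
  rw [coe_cfV]
  rcases lt_or_gt_of_ne hn with hn | hn
  · have h1 : (T n : A[T;T⁻¹]) • (v : M) ∈ Ni := by
      have : (T n : A[T;T⁻¹]) • (v : M) = (T (n + 1) : A[T;T⁻¹]) • ((T (-1) : A[T;T⁻¹]) • (v : M)) := by
        rw [T_smul_T_smul]; congr 2; ring
      rw [this]
      exact h.sti_int (by omega) v.2.2
    rw [(N0.projection_apply_eq_zero_iff h.compl).mpr h1]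
    simp
  · have h1 : (T n : A[T;T⁻¹]) • (v : M) ∈ N0 := h.st0_int hn.le v.2.1
    rw [N0.projection_apply_of_mem_left h.compl h1, T_smul_T_smul]
    have h2 : (T (-1 + n) : A[T;T⁻¹]) • (v : M) ∈ N0 := h.st0_int (by omega) v.2.1
    rw [(Ni.projection_apply_eq_zero_iff h.compl.symm).mpr h2]
    simp

end Split

end

variable {k A B M : Type*} [Field k] [CommRing A] [Algebra k A] [CommRing B] [Algebra k B]
  [AddCommGroup M] [Module A M] [Module A[T;T⁻¹] M] [IsScalarTower A A[T;T⁻¹] M]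

/-- the functionals `v ↦ u (c_{n_j} (b_j v))`. -/
noncomputable def Split.coords0 {N0 Ni : Submodule A M} (h : Split N0 Ni)
    (act : B →+* Module.End A[T;T⁻¹] M) {m : ℕ} (b : Fin m → B) (n : Fin m → ℤ)
    (u : twT Ni →ₗ[A] A) : secV N0 Ni →ₗ[A] (Fin m → A) :=
  LinearMap.pi fun j => u ∘ₗ
    (Submodule.inclusion (show secV N0 Ni ≤ twT Ni from fun _ hm => hm.2)) ∘ₗ h.cfV ∘ₗ
    mulT A M (-n j) ∘ₗ ((act (b j)).restrictScalars A) ∘ₗ (secV N0 Ni).subtype

/-- the canonical coordinates `v ↦ (Σ_j t_ij u (c_{n_j} (b_j v)))_i`. -/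
noncomputable def Split.coords {N0 Ni : Submodule A M} (h : Split N0 Ni)
    (act : B →+* Module.End A[T;T⁻¹] M) {d m : ℕ} (b : Fin m → B) (n : Fin m → ℤ)
    (t : Matrix (Fin d) (Fin m) k)
    (u : twT Ni →ₗ[A] A) : secV N0 Ni →ₗ[A] (Fin d → A) :=
  (t.map (algebraMap k A)).mulVecLin ∘ₗ h.coords0 act b n u

theorem Split.coords0_apply {N0 Ni : Submodule A M} (h : Split N0 Ni)
    (act : B →+* Module.End A[T;T⁻¹] M) {m : ℕ} (b : Fin m → B) (n : Fin m → ℤ)
    (u : twT Ni →ₗ[A] A) (v : secV N0 Ni) (j : Fin m) :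
    h.coords0 act b n u v j = u (Submodule.inclusion
      (show secV N0 Ni ≤ twT Ni from fun _ hm => hm.2)
      (h.cfV ((T (-n j) : A[T;T⁻¹]) • act (b j) (v : M)))) := rfl

theorem Split.coords_apply {N0 Ni : Submodule A M} (h : Split N0 Ni)
    (act : B →+* Module.End A[T;T⁻¹] M) {d m : ℕ} (b : Fin m → B) (n : Fin m → ℤ)
    (t : Matrix (Fin d) (Fin m) k)
    (u : twT Ni →ₗ[A] A) (v : secV N0 Ni) (i : Fin d) :
    h.coords act b n t u v i = ∑ j, algebraMap k A (t i j) * h.coords0 act b n u v j := rfl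

/-- the data of a chart: an eigenfunctional `u` for the action of `Bi` through `e`, such that the
coordinates are bijective. -/
structure CycData {Bi : Subalgebra k B} (act : B →+* Module.End A[T;T⁻¹] M) (e : Bi →ₐ[k] k)
    {d m : ℕ} (b : Fin m → B) (n : Fin m → ℤ) (t : Matrix (Fin d) (Fin m) k)
    {N0 Ni : Submodule A M} (h : Split N0 Ni)
    (u : twT Ni →ₗ[A] A) : Prop where
  eigen : ∀ (β : Bi) (w w' : twT Ni), (w' : M) = act β w → u w' = algebraMap k A (e β) * u w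
  surj : Function.Surjective u
  bij : Function.Bijective (h.coords act b n t u)

end Fermat.Agent.Jac
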