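import Fermat.Agent.Jac.Def
import Fermat.Agent.Jac.ChCyc

/-!
# Frames and good bundles

The charts of the Jacobian: bundles `N` without cohomology (`M = N0 ⊕ Ni`) with a rigidification,
such that the canonical coordinates on `V = N0 ∩ x Ni` given by a frame are bijective.
-/

universe u

set_option autoImplicit false

open TensorProduct LaurentPolynomial

namespace Fermat.Agent.Jac

variable {k : Type u} [Field k] {X : CurveData k} {A : Type u} [CommRing A] [Algebra k A]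

/-- a finite list of pairs `(b_j, n_j)`, `b_j` a function, `n_j` an exponent, and a matrix of
coefficients -/
structure Frame (X : CurveData k) where
  d : ℕ
  m : ℕ
  b : Fin m → X.B
  n : Fin m → ℤ
  t : Matrix (Fin d) (Fin m) k

variable (X A) in
/-- `x` as a unit -/
noncomputable def CurveData.xU : (X.R A)ˣ where
  val := X.xA A
  inv := X.yA A
  val_inv := X.xA_yA A
  inv_val := by rw [mul_comm]; exact X.xA_yA A

variable (X A) in
/-- `A[T;T⁻¹] → A ⊗ B`, `T ↦ x` -/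
noncomputable def CurveData.lam : A[T;T⁻¹] →+* X.R A :=
  LaurentPolynomial.eval₂ (algebraMap A (X.R A)) (X.xU A)

theorem CurveData.lam_C (a : A) : X.lam A (C a) = algebraMap A (X.R A) a :=
  LaurentPolynomial.eval₂_C ..

theorem CurveData.lam_T (n : ℤ) : X.lam A (T n) = ((X.xU A ^ n : (X.R A)ˣ) : X.R A) :=
  LaurentPolynomial.eval₂_T ..

theorem CurveData.lam_T_one : X.lam A (T 1) = X.xA A := by
  rw [CurveData.lam_T, zpow_one]; rfl

theorem CurveData.lam_T_neg_one : X.lam A (T (-1)) = X.yA A := by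
  rw [CurveData.lam_T, zpow_neg_one]; rfl

theorem CurveData.lam_T_nat (n : ℕ) : X.lam A (T n) = X.xA A ^ n := by
  rw [CurveData.lam_T, zpow_natCast, Units.val_pow_eq_pow_val]; rfl

theorem CurveData.lam_T_neg_nat (n : ℕ) : X.lam A (T (-n)) = X.yA A ^ n := by
  rw [CurveData.lam_T, zpow_neg, zpow_natCast, ← inv_pow, Units.val_pow_eq_pow_val]; rfl

namespace LB

variable (N : LB X A)

/-- `T` acts as `x` -/
noncomputable instance modL : Module A[T;T⁻¹] N.M := Module.compHom N.M (X.lam A)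

theorem smul_lam (f : A[T;T⁻¹]) (m : N.M) : f • m = X.lam A f • m := rfl

instance towerL : IsScalarTower A A[T;T⁻¹] N.M :=
  ⟨fun a f m => by
    rw [smul_lam, smul_lam, smul_eq_C_mul, map_mul, CurveData.lam_C, mul_smul,
      ← N.smulA]⟩

/-- the action of `B` -/
noncomputable def act : X.B →+* Module.End A[T;T⁻¹] N.M where
  toFun b :=
    { toFun := fun m => (1 ⊗ₜ b : X.R A) • m
      map_add' := smul_add _
      map_smul' := fun f m => by
        simp only [RingHom.id_apply]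
        rw [smul_lam, smul_lam, smul_smul, smul_smul, mul_comm] }
  map_one' := by
    ext m
    change (1 ⊗ₜ 1 : X.R A) • m = m
    rw [← Algebra.TensorProduct.one_def, one_smul]
  map_mul' b c := by
    ext m
    change (1 ⊗ₜ (b * c) : X.R A) • m = (1 ⊗ₜ b : X.R A) • (1 ⊗ₜ c : X.R A) • m
    rw [smul_smul, Algebra.TensorProduct.tmul_mul_tmul, one_mul]
  map_zero' := by
    ext m
    change (1 ⊗ₜ 0 : X.R A) • m = 0
    rw [tmul_zero, zero_smul]
  map_add' b c := by
    ext m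
    change (1 ⊗ₜ (b + c) : X.R A) • m = (1 ⊗ₜ b : X.R A) • m + (1 ⊗ₜ c : X.R A) • m
    rw [tmul_add, add_smul]

theorem act_apply (b : X.B) (m : N.M) : N.act b m = (1 ⊗ₜ b : X.R A) • m := rfl

/-- good bundles (with respect to a frame) -/
def Good (q : Frame X) (N : LB X A) : Prop :=
  ∃ (h : Split N.A0 N.Ai) (u : twT N.Ai →ₗ[A] A), CycData N.act X.e q.b q.n q.t h u

/-- lattices without cohomology -/
theorem split (N : LB X A) (hc : IsCompl N.A0 N.Ai) : Split N.A0 N.Ai where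
  st0 m hm := by
    rw [smul_lam, X.lam_T_one, ← X.J0_x0, ← N.smul0]
    exact N.M0.smul_mem _ hm
  sti m hm := by
    rw [smul_lam, X.lam_T_neg_one, ← X.Ji_yi, ← N.smuli]
    exact N.Mi.smul_mem _ hm
  ex0 m := by
    obtain ⟨n, hn⟩ := N.ex0 m
    exact ⟨n, by rw [smul_lam, X.lam_T_nat]; exact hn⟩
  exi m := by
    obtain ⟨n, hn⟩ := N.exi m
    exact ⟨n, by rw [smul_lam, X.lam_T_neg_nat]; exact hn⟩
  compl := hc

variable {N}

theorem Good.isCompl {q : Frame X} (h : N.Good q) : IsCompl N.A0 N.Ai := h.choose.compl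

theorem act_x (m : N.M) : N.act X.x m = (T 1 : A[T;T⁻¹]) • m := by
  rw [act_apply, smul_lam, X.lam_T_one]; rfl

theorem act_y (m : N.M) : N.act X.y m = (T (-1) : A[T;T⁻¹]) • m := by
  rw [act_apply, smul_lam, X.lam_T_neg_one]; rfl

theorem act_k (c : k) (m : N.M) : N.act (algebraMap k X.B c) m = algebraMap k A c • m := by
  rw [act_apply, N.smulA]
  congr 1
  rw [Algebra.TensorProduct.algebraMap_apply, Algebra.algebraMap_self, RingHom.id_apply,
    Algebra.algebraMap_eq_smul_one, ← TensorProduct.smul_tmul, Algebra.algebraMap_eq_smul_one]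

theorem act_mem0 {b : X.B} (hb : b ∈ X.B0) {m : N.M} (hm : m ∈ N.A0) : N.act b m ∈ N.A0 := by
  have h1 : (1 ⊗ₜ b : X.R A) = X.J0 A (1 ⊗ₜ ⟨b, hb⟩) := by simp [CurveData.J0]
  rw [act_apply, h1, ← N.smul0]
  exact N.M0.smul_mem _ hm

theorem act_memi {b : X.B} (hb : b ∈ X.Bi) {m : N.M} (hm : m ∈ N.Ai) : N.act b m ∈ N.Ai := by
  have h1 : (1 ⊗ₜ b : X.R A) = X.Ji A (1 ⊗ₜ ⟨b, hb⟩) := by simp [CurveData.Ji]
  rw [act_apply, h1, ← N.smuli]
  exact N.Mi.smul_mem _ hm

/-- a good bundle is rigidified -/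
theorem Good.rig {q : Frame X} (h : N.Good q) : N.Rig := by
  obtain ⟨hs, u, hu⟩ := h
  have hmem : ∀ m : N.Mi, (T 1 : A[T;T⁻¹]) • (m : N.M) ∈ twT N.Ai := by
    intro m
    rw [mem_twT, T_smul_T_smul]
    simp
  let φ : N.Mi →ₗ[A] twT N.Ai :=
    { toFun := fun m => ⟨(T 1 : A[T;T⁻¹]) • (m : N.M), hmem m⟩
      map_add' := fun m m' => by ext; simp [smul_add]
      map_smul' := fun c m => Subtype.ext (smul_comm _ _ _) }
  refine ⟨u ∘ₗ φ, fun b m => ?_, fun a => ?_⟩
  · induction b using TensorProduct.induction_on with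
    | zero =>
      have h0 : (0 : X.Ri A) • m = 0 := Subtype.ext (zero_smul (X.Ri A) (m : N.M))
      exact (congrArg (u ∘ₗ φ) h0).trans (by
        rw [map_zero]
        exact ((congrArg (· * (u ∘ₗ φ) m) (map_zero (X.eA A))).trans (zero_mul _)).symm)
    | tmul a b =>
      have h1 : (a ⊗ₜ b : X.Ri A) • m = a • ((1 ⊗ₜ b : X.Ri A) • m) := by
        rw [← smul_assoc, TensorProduct.smul_tmul', smul_eq_mul, mul_one]
      rw [h1, map_smul, smul_eq_mul]
      have h2 : (u ∘ₗ φ) ((1 ⊗ₜ b : X.Ri A) • m) = algebraMap k A (X.e b) * (u ∘ₗ φ) m := by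
        refine hu.eigen b (φ m) (φ ((1 ⊗ₜ b : X.Ri A) • m)) ?_
        change (T 1 : A[T;T⁻¹]) • ((1 ⊗ₜ b : X.Ri A) • (m : N.M)) =
          N.act b ((T 1 : A[T;T⁻¹]) • (m : N.M))
        rw [map_smul, act_apply, N.smuli]
        simp [CurveData.Ji]
      rw [h2, ← mul_assoc]
      congr 1
    | add b b' hb hb' => rw [add_smul, map_add, hb, hb', map_add, add_mul]
  · obtain ⟨w, hw⟩ := hu.surj a
    refine ⟨⟨_, w.2⟩, ?_⟩
    rw [← hw, LinearMap.comp_apply]
    congr 1
    ext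
    change (T 1 : A[T;T⁻¹]) • (T (-1) : A[T;T⁻¹]) • (w : N.M) = w
    rw [T_smul_T_smul]; simp

end LB

/-- the functor represented by a chart: matrix representations of `B` over `A[T;T⁻¹]` with a
covector. -/
structure IsRho (q : Frame X) (ρ : X.B →ₐ[k] Matrix (Fin q.d) (Fin q.d) A[T;T⁻¹])
    (u : Fin q.d → A) : Prop where
  map_x : ρ X.x = Matrix.scalar (Fin q.d) (T 1)
  mem0 : ∀ b ∈ X.B0, ∀ i l, ∀ n : ℤ, n < 0 → (ρ b i l).coeff n = 0
  memi : ∀ b ∈ X.Bi, ∀ i l, ∀ n : ℤ, 0 < n → (ρ b i l).coeff n = 0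
  eigen : ∀ (b : X.Bi) (l : Fin q.d),
    ∑ i, u i * (ρ b i l).coeff 0 = algebraMap k A (X.e b) * u l
  frame : ∀ i l : Fin q.d, ∑ j, algebraMap k A (q.t i j) * ∑ r, u r * (ρ (q.b j) r l).coeff (q.n j) =
    if i = l then 1 else 0
  surj : ∃ c : Fin q.d → A, ∑ i, u i * c i = 1

/-- `(ρ, u)` are the matrices of the good bundle `N` with respect to the canonical basis `e` of
`V = N0 ∩ x Ni`. -/
structure LB.HasRho (q : Frame X) (N : LB X A)
    (ρ : X.B →ₐ[k] Matrix (Fin q.d) (Fin q.d) A[T;T⁻¹]) (u : Fin q.d → A)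
    (h : Split N.A0 N.Ai) (w : twT N.Ai →ₗ[A] A)
    (e : Module.Basis (Fin q.d) A (secV N.A0 N.Ai)) : Prop where
  cyc : CycData N.act X.e q.b q.n q.t h w
  coords : ∀ i, h.coords N.act q.b q.n q.t w (e i) = Pi.single i 1
  act : ∀ b l, N.act b (e l : N.M) = ∑ i, ρ b i l • ((e i : secV N.A0 N.Ai) : N.M)
  val : ∀ i, w ⟨e i, (e i).2.2⟩ = u i

end Fermat.Agent.Jac
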