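import Fermat.Agent.Jac.LiftGood
import Fermat.Agent.Jac.Good

set_option autoImplicit false

/-!
# Good line bundles lift along nilpotent thickenings
-/

universe u

open TensorProduct LaurentPolynomial

namespace Fermat.Agent.Jac

/-- bijectivity of coordinates lifts along nilpotent thickenings -/
theorem bijective_of_reduction_nil {A V V₁ : Type*} [CommRing A] {I : Ideal A}
    (hI : IsNilpotent I) [AddCommGroup V] [Module A V] [AddCommGroup V₁] (π : V →+ V₁)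
    (hπ : Function.Surjective π) (hk : ∀ v, π v = 0 → v ∈ I • (⊤ : Submodule A V)) {d : ℕ}
    (c : V →ₗ[A] (Fin d → A)) (c₁ : V₁ → (Fin d → A ⧸ I))
    (hc : ∀ v i, Ideal.Quotient.mk I (c v i) = c₁ (π v) i) (hc₁ : Function.Bijective c₁) :
    Function.Bijective c := by
  have hs : Function.Surjective c := by
    rw [← LinearMap.range_eq_top]
    refine eq_top_of_sup_smul hI (eq_top_iff.2 fun y _ ↦ ?_)
    obtain ⟨v₁, hv₁⟩ := hc₁.2 fun i ↦ Ideal.Quotient.mk I (y i)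
    obtain ⟨v, rfl⟩ := hπ v₁
    have h1 : ∀ i, y i - c v i ∈ I := fun i ↦ by
      rw [← Ideal.Quotient.eq_zero_iff_mem, map_sub, hc, hv₁, sub_self]
    have h2 : y = c v + ∑ i, (y i - c v i) • Pi.single i (1 : A) := by
      ext j
      simp [Finset.sum_apply, Pi.single_apply]
    rw [h2]
    refine add_mem (Submodule.mem_sup_left ⟨v, rfl⟩) (Submodule.mem_sup_right
      (Submodule.sum_mem _ fun i _ ↦ Submodule.smul_mem_smul (h1 i) trivial))
  refine ⟨?_, hs⟩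
  obtain ⟨s, hs'⟩ := Module.projective_lifting_property c LinearMap.id hs
  have hs1 : ∀ y, c (s y) = y := fun y ↦ LinearMap.congr_fun hs' y
  rw [← LinearMap.ker_eq_bot]
  refine eq_bot_of_le_smul hI fun v hv ↦ ?_
  rw [LinearMap.mem_ker] at hv
  have h0 : π v = 0 := by
    apply hc₁.1
    ext i
    rw [← hc, hv]
    have h1 := hc 0 i
    rw [map_zero, map_zero] at h1
    rw [← h1]
  let p : V →ₗ[A] V := LinearMap.id - s ∘ₗ c
  have hp : p v = v := by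
    change v - s (c v) = v
    rw [hv, map_zero, sub_zero]
  have h3 : p v ∈ (I • (⊤ : Submodule A V)).map p := ⟨v, hk v h0, rfl⟩
  rw [Submodule.map_smul'', hp] at h3
  refine Submodule.smul_mono le_rfl ?_ h3
  rintro _ ⟨w, -, rfl⟩
  rw [LinearMap.mem_ker]
  change c (w - s (c w)) = 0
  rw [map_sub, hs1, sub_self]

variable {k : Type u} [Field k] {X : CurveData k} {A : Type u} [CommRing A] [Algebra k A]

theorem lam_T_nil {A' : Type u} [CommRing A'] [Algebra k A'] (h : A →ₐ[k] A') (n : ℤ) :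
    X.bb h (X.lam A (T n)) = X.lam A' (T n) := by
  rw [X.lam_T, X.lam_T]
  have h1 : Units.map (X.bb h : X.R A →* X.R A') (X.xU A) = X.xU A' := by
    ext
    simp [CurveData.xU, CurveData.xA, CurveData.bb]
  have h2 : ((Units.map (X.bb h : X.R A →* X.R A') (X.xU A ^ n) : (X.R A')ˣ) : X.R A') =
      X.bb h ((X.xU A ^ n : (X.R A)ˣ) : X.R A) := rfl
  rw [← h2, map_zpow, h1]

namespace LB

variable {A' : Type u} [CommRing A'] [Algebra k A'] {h : A →ₐ[k] A'} {L : LB X A} {L₁ : LB X A'}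

theorem Map.T_smul_nil (F : LB.Map h L L₁) (n : ℤ) (m : L.M) :
    F.f ((T n : A[T;T⁻¹]) • m) = (T n : A'[T;T⁻¹]) • F.f m := by
  rw [smul_lam, smul_lam, F.map_smul, lam_T_nil]

theorem Map.act_nil (F : LB.Map h L L₁) (b : X.B) (m : L.M) :
    F.f (L.act b m) = L₁.act b (F.f m) := by
  rw [act_apply, act_apply, F.map_smul]
  simp [CurveData.bb]

theorem Map.proj0_nil (F : LB.Map h L L₁) (H : IsCompl L.A0 L.Ai) (H₁ : IsCompl L₁.A0 L₁.Ai)
    (m : L.M) : F.f (L.A0.projection L.Ai H m) = L₁.A0.projection L₁.Ai H₁ (F.f m) := by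
  have h1 : m ∈ L.A0 ⊔ L.Ai := by rw [H.sup_eq_top]; trivial
  obtain ⟨a, ha, b, hb, rfl⟩ := Submodule.mem_sup.1 h1
  rw [map_add, map_add, map_add, map_add, Submodule.projection_apply_of_mem_left H ha,
    (Submodule.projection_apply_eq_zero_iff H).2 hb,
    Submodule.projection_apply_of_mem_left H₁ (show F.f a ∈ L₁.A0 from F.mem0 ha),
    (Submodule.projection_apply_eq_zero_iff H₁).2 (show F.f b ∈ L₁.Ai from F.memi hb), map_zero]

theorem Map.proji_nil (F : LB.Map h L L₁) (H : IsCompl L.Ai L.A0) (H₁ : IsCompl L₁.Ai L₁.A0)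
    (m : L.M) : F.f (L.Ai.projection L.A0 H m) = L₁.Ai.projection L₁.A0 H₁ (F.f m) := by
  have h1 : m ∈ L.Ai ⊔ L.A0 := by rw [H.sup_eq_top]; trivial
  obtain ⟨a, ha, b, hb, rfl⟩ := Submodule.mem_sup.1 h1
  rw [map_add, map_add, map_add, map_add, Submodule.projection_apply_of_mem_left H ha,
    (Submodule.projection_apply_eq_zero_iff H).2 hb,
    Submodule.projection_apply_of_mem_left H₁ (show F.f a ∈ L₁.Ai from F.memi ha),
    (Submodule.projection_apply_eq_zero_iff H₁).2 (show F.f b ∈ L₁.A0 from F.mem0 hb), map_zero]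

theorem Map.cfV_nil (F : LB.Map h L L₁) (H : Split L.A0 L.Ai) (H₁ : Split L₁.A0 L₁.Ai)
    (m : L.M) : F.f (H.cfV m : L.M) = (H₁.cfV (F.f m) : L₁.M) := by
  rw [Split.coe_cfV, Split.coe_cfV, F.T_smul_nil, F.proji_nil H.compl.symm H₁.compl.symm,
    F.T_smul_nil, F.proj0_nil H.compl H₁.compl]

theorem Map.mem_twT_nil (F : LB.Map h L L₁) {m : L.M} (hm : m ∈ twT L.Ai) :
    F.f m ∈ twT L₁.Ai := by
  rw [mem_twT, ← F.T_smul_nil]
  exact F.memi hm

theorem Map.mem_secV_nil (F : LB.Map h L L₁) {m : L.M} (hm : m ∈ secV L.A0 L.Ai) :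
    F.f m ∈ secV L₁.A0 L₁.Ai :=
  ⟨F.mem0 hm.1, F.mem_twT_nil hm.2⟩

/-- restriction to `V = M0 ∩ x Mi` -/
noncomputable def Map.fV_nil (F : LB.Map h L L₁) : secV L.A0 L.Ai →+ secV L₁.A0 L₁.Ai where
  toFun m := ⟨F.f m, F.mem_secV_nil m.2⟩
  map_zero' := Subtype.ext (map_zero F.f)
  map_add' m n := Subtype.ext (map_add F.f (m : L.M) (n : L.M))

theorem Map.coords0_nil (F : LB.Map h L L₁) (H : Split L.A0 L.Ai) (H₁ : Split L₁.A0 L₁.Ai)
    (u : twT L.Ai →ₗ[A] A) (u₁ : twT L₁.Ai →ₗ[A'] A')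
    (hu : ∀ w : twT L.Ai, h (u w) = u₁ ⟨F.f w, F.mem_twT_nil w.2⟩) {m : ℕ} (b : Fin m → X.B)
    (n : Fin m → ℤ) (v : secV L.A0 L.Ai) (j : Fin m) :
    h (H.coords0 L.act b n u v j) = H₁.coords0 L₁.act b n u₁ (F.fV_nil v) j := by
  rw [Split.coords0_apply, Split.coords0_apply, hu]
  congr 1
  ext
  change F.f (H.cfV _ : L.M) = _
  rw [F.cfV_nil H H₁, F.T_smul_nil, F.act_nil]
  rfl

theorem Map.coords_nil (F : LB.Map h L L₁) (H : Split L.A0 L.Ai) (H₁ : Split L₁.A0 L₁.Ai)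
    (u : twT L.Ai →ₗ[A] A) (u₁ : twT L₁.Ai →ₗ[A'] A')
    (hu : ∀ w : twT L.Ai, h (u w) = u₁ ⟨F.f w, F.mem_twT_nil w.2⟩) {d m : ℕ} (b : Fin m → X.B)
    (n : Fin m → ℤ) (t : Matrix (Fin d) (Fin m) k) (v : secV L.A0 L.Ai) (i : Fin d) :
    h (H.coords L.act b n t u v i) = H₁.coords L₁.act b n t u₁ (F.fV_nil v) i := by
  rw [Split.coords_apply, Split.coords_apply, map_sum]
  refine Finset.sum_congr rfl fun j _ ↦ ?_
  rw [map_mul, AlgHom.commutes, F.coords0_nil H H₁ u u₁ hu]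

section Lift

variable {I : Ideal A} {L' : LB X A} {L : LB X (A ⧸ I)}

theorem Map.fV_surj_nil (F : LB.Map (Ideal.Quotient.mkₐ k I) L' L) (H : Split L'.A0 L'.Ai)
    (H₁ : Split L.A0 L.Ai) : Function.Surjective F.fV_nil := by
  intro v
  have h1 : ∃ m, F.f m = v.1 := F.surj0_nil (Ideal.Quotient.mkₐ_surjective k I) v.2.1 |>.imp
    fun _ h ↦ h.2
  obtain ⟨m, hm⟩ := h1
  refine ⟨H.cfV m, Subtype.ext ?_⟩
  change F.f (H.cfV m : L'.M) = v
  rw [F.cfV_nil H H₁, hm, H₁.cfV_coe]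

theorem Map.fV_ker_nil (F : LB.Map (Ideal.Quotient.mkₐ k I) L' L) (H : Split L'.A0 L'.Ai)
    (v : secV L'.A0 L'.Ai) (hv : F.fV_nil v = 0) :
    v ∈ I • (⊤ : Submodule A (secV L'.A0 L'.Ai)) := by
  have h1 := F.ker_nil (m := v) (congrArg Subtype.val hv)
  have h2 : H.cfV (v : L'.M) ∈ (I • (⊤ : Submodule A L'.M)).map H.cfV := ⟨_, h1, rfl⟩
  rw [Submodule.map_smul'', H.cfV_coe] at h2
  exact Submodule.smul_mono le_rfl le_top h2

/-- the rigidification given by a functional on `x Mi` -/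
theorem exists_rig_of_eigen {L : LB X A} (H : Split L.A0 L.Ai) (u : twT L.Ai →ₗ[A] A)
    (hu : ∀ (β : X.Bi) (w w' : twT L.Ai), (w' : L.M) = L.act β w →
      u w' = algebraMap k A (X.e β) * u w) (hs : Function.Surjective u) :
    ∃ r : L.Mi →ₗ[A] A, (∀ (b : X.Ri A) (m : L.Mi), r (b • m) = X.eA A b * r m) ∧
      Function.Surjective r ∧ ∀ (m : L.Mi) (w : twT L.Ai), (T 1 : A[T;T⁻¹]) • (m : L.M) = w →
        r m = u w := by
  have hmem : ∀ m : L.Mi, (T 1 : A[T;T⁻¹]) • (m : L.M) ∈ twT L.Ai := by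
    intro m
    rw [mem_twT, T_smul_T_smul]
    simp
  let φ : L.Mi →ₗ[A] twT L.Ai :=
    { toFun := fun m => ⟨(T 1 : A[T;T⁻¹]) • (m : L.M), hmem m⟩
      map_add' := fun m m' => by ext; simp [smul_add]
      map_smul' := fun c m => Subtype.ext (smul_comm _ _ _) }
  refine ⟨u ∘ₗ φ, fun b m => ?_, fun a => ?_, fun m w h ↦ ?_⟩
  · induction b using TensorProduct.induction_on with
    | zero =>
      have h0 : (0 : X.Ri A) • m = 0 := Subtype.ext (zero_smul (X.Ri A) (m : L.M))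
      exact (congrArg (u ∘ₗ φ) h0).trans (by
        rw [map_zero]
        exact ((congrArg (· * (u ∘ₗ φ) m) (map_zero (X.eA A))).trans (zero_mul _)).symm)
    | tmul a b =>
      have h1 : (a ⊗ₜ b : X.Ri A) • m = a • ((1 ⊗ₜ b : X.Ri A) • m) := by
        rw [← smul_assoc, TensorProduct.smul_tmul', smul_eq_mul, mul_one]
      rw [h1, map_smul, smul_eq_mul]
      have h2 : (u ∘ₗ φ) ((1 ⊗ₜ b : X.Ri A) • m) = algebraMap k A (X.e b) * (u ∘ₗ φ) m := by
        refine hu b (φ m) (φ ((1 ⊗ₜ b : X.Ri A) • m)) ?_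
        change (T 1 : A[T;T⁻¹]) • ((1 ⊗ₜ b : X.Ri A) • (m : L.M)) =
          L.act b ((T 1 : A[T;T⁻¹]) • (m : L.M))
        rw [map_smul, act_apply, L.smuli]
        simp [CurveData.Ji]
      rw [h2, ← mul_assoc]
      congr 1
    | add b b' hb hb' => rw [add_smul, map_add, hb, hb', map_add, add_mul]
  · obtain ⟨w, hw⟩ := hs a
    refine ⟨⟨_, w.2⟩, ?_⟩
    rw [← hw, LinearMap.comp_apply]
    congr 1
    ext
    change (T 1 : A[T;T⁻¹]) • (T (-1) : A[T;T⁻¹]) • (w : L.M) = w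
    rw [T_smul_T_smul]; simp
  · exact congrArg u (Subtype.ext h)

/-- **Good line bundles lift along nilpotent thickenings** -/
theorem good_lift {q : Frame X} (hI : IsNilpotent I) (h : LB.BC (Ideal.Quotient.mkₐ k I) L' L)
    (hL : L.Good q) : L'.Good q := by
  have hc : IsCompl L'.A0 L'.Ai := isCompl_lift hI h hL.isCompl
  have H : Split L'.A0 L'.Ai := L'.split hc
  obtain ⟨H₁, u₁, hu₁⟩ := hL
  obtain ⟨F⟩ := h
  obtain ⟨r₁, hr₁, hrs₁, hru₁⟩ := exists_rig_of_eigen H₁ u₁ hu₁.eigen hu₁.surj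
  obtain ⟨r, hr, hrs, hrr⟩ := exists_lift_rig hI F r₁ hr₁ hrs₁
  let ψ : twT L'.Ai →ₗ[A] L'.Mi :=
    { toFun := fun w => ⟨(T (-1) : A[T;T⁻¹]) • (w : L'.M), w.2⟩
      map_add' := fun m m' => by ext; simp [smul_add]
      map_smul' := fun c m => Subtype.ext (smul_comm _ _ _) }
  have hcomp : ∀ w : twT L'.Ai, Ideal.Quotient.mkₐ k I ((r ∘ₗ ψ) w) =
      u₁ ⟨F.f w, F.mem_twT_nil w.2⟩ := fun w ↦ by
    refine (hrr (ψ w)).trans (hru₁ _ _ ?_)
    change (T 1 : (A ⧸ I)[T;T⁻¹]) • F.f ((T (-1) : A[T;T⁻¹]) • (w : L'.M)) = F.f w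
    rw [F.T_smul_nil, T_smul_T_smul]
    simp
  refine ⟨H, r ∘ₗ ψ, ?_, ?_, ?_⟩
  · intro β w w' hw
    have h1 : ψ w' = (1 ⊗ₜ β : X.Ri A) • ψ w := by
      ext
      change (T (-1) : A[T;T⁻¹]) • (w' : L'.M) =
        (1 ⊗ₜ β : X.Ri A) • (T (-1) : A[T;T⁻¹]) • (w : L'.M)
      rw [hw, ← map_smul, act_apply, L'.smuli]
      simp [CurveData.Ji]
    rw [LinearMap.comp_apply, h1, hr, LinearMap.comp_apply]
    congr 1
    simp [CurveData.eA, Algebra.ofId_apply]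
  · intro a
    obtain ⟨m, hm⟩ := hrs a
    have h2 : (T (-1) : A[T;T⁻¹]) • (T 1 : A[T;T⁻¹]) • (m : L'.M) = m := by
      rw [T_smul_T_smul]; simp
    refine ⟨⟨(T 1 : A[T;T⁻¹]) • (m : L'.M), ?_⟩, ?_⟩
    · rw [mem_twT, h2]
      exact m.2
    · rw [LinearMap.comp_apply, ← hm]
      congr 1
      exact Subtype.ext h2
  · exact bijective_of_reduction_nil hI F.fV_nil (F.fV_surj_nil H H₁) (F.fV_ker_nil H)
      (H.coords L'.act q.b q.n q.t (r ∘ₗ ψ)) (H₁.coords L.act q.b q.n q.t u₁)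
      (fun v i ↦ F.coords_nil H H₁ (r ∘ₗ ψ) u₁ hcomp q.b q.n q.t v i) hu₁.bij

end Lift

end LB

end Fermat.Agent.Jac
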