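import Fermat.Agent.Jac.CohOpen

/-!
# Openness of the locus where a map of modules is bijective
-/

set_option autoImplicit false
set_option linter.unusedSectionVars false

universe u v w u' v' w' u'' v'' w''

namespace Fermat.Agent.Jac

open TensorProduct

variable {A : Type u} [CommRing A] {P : Type v} [AddCommGroup P] [Module A P]
  {F : Type w} [AddCommGroup F] [Module A F]

/-- a surjective map onto a projective module which is injective after base change to a field has a
kernel killed by a function. -/
theorem exists_smul_ker [Module.Finite A P] [Module.Projective A F] (c : P →ₗ[A] F)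
    (hs : Function.Surjective c) {K : Type u'} [Field K] [Algebra A K]
    {P' : Type v'} [AddCommGroup P'] [Module A P'] [Module K P'] [IsScalarTower A K P']
    {F' : Type w'} [AddCommGroup F'] [Module A F'] [Module K F'] [IsScalarTower A K F']
    {jP : P →ₗ[A] P'} (hP : IsBaseChange K jP) {jF : F →ₗ[A] F'}
    (c' : P' →ₗ[K] F') (hc : ∀ p, c' (jP p) = jF (c p)) (hinj : Function.Injective c') :
    ∃ s : A, algebraMap A K s ≠ 0 ∧ ∀ p, c p = 0 → s • p = 0 := by
  obtain ⟨σ, hσ⟩ := Module.projective_lifting_property c LinearMap.id hs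
  have hσ' : ∀ f, c (σ f) = f := fun f => LinearMap.congr_fun hσ f
  let N : Submodule A P := LinearMap.ker c
  let R : P →ₗ[A] N := (LinearMap.id - σ.comp c).codRestrict N fun p => by
    rw [LinearMap.mem_ker]
    change c (p - σ (c p)) = 0
    rw [map_sub, hσ', sub_self]
  have hR : ∀ n : N, R n = n := fun n => by
    apply Subtype.ext
    change (n : P) - σ (c n) = n
    rw [show c n = 0 from n.2, map_zero, sub_zero]
  have : Module.Finite A N := Module.Finite.of_surjective R fun n => ⟨n, hR n⟩
  have h1 := isBaseChange_restrict hP N R hR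
  have h2 : Subsingleton ((bc K jP N).restrictScalars A) := by
    have hle : bc K jP N ≤ ⊥ := by
      rw [bc, Submodule.span_le]
      rintro _ ⟨n, hn, rfl⟩
      have h3 : c' (jP n) = 0 := by rw [hc, show c n = 0 from hn, map_zero]
      exact (Submodule.mem_bot K).mpr (hinj (by rw [h3, map_zero]))
    refine ⟨fun a b => Subtype.ext ?_⟩
    rw [(Submodule.mem_bot K).mp (hle a.2), (Submodule.mem_bot K).mp (hle b.2)]
  have h3 : Subsingleton (K ⊗[A] N) := h1.equiv.toEquiv.subsingleton
  obtain ⟨s, hs, hs'⟩ := exists_smul_eq_zero K h3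
  exact ⟨s, hs, fun p hp => congrArg Subtype.val (hs' ⟨p, hp⟩)⟩

/-- a map onto a finite module which is surjective after base change to a field has a
cokernel killed by a function. -/
theorem exists_smul_range [Module.Finite A F] (c : P →ₗ[A] F)
    {K : Type u'} [Field K] [Algebra A K]
    {P' : Type v'} [AddCommGroup P'] [Module A P'] [Module K P'] [IsScalarTower A K P']
    {F' : Type w'} [AddCommGroup F'] [Module A F'] [Module K F'] [IsScalarTower A K F']
    {jP : P →ₗ[A] P'} (hP : IsBaseChange K jP) {jF : F →ₗ[A] F'} (hF : IsBaseChange K jF)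
    (c' : P' →ₗ[K] F') (hc : ∀ p, c' (jP p) = jF (c p)) (hsur : Function.Surjective c') :
    ∃ s : A, algebraMap A K s ≠ 0 ∧ ∀ f, s • f ∈ LinearMap.range c := by
  let S : Submodule A F := LinearMap.range c
  have htop : bc K jF S = ⊤ := by
    rw [eq_top_iff]
    rintro f' -
    obtain ⟨p', rfl⟩ := hsur f'
    induction p' using hP.inductionOn with
    | zero => rw [map_zero]; exact zero_mem _
    | tmul p => rw [hc]; exact mem_bc ⟨p, rfl⟩
    | smul s n hn => rw [map_smul]; exact Submodule.smul_mem _ _ hn
    | add a b ha hb => rw [map_add]; exact add_mem ha hb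
  have h1 := isBaseChange_quot hF S
  have h2 : Subsingleton (F' ⧸ bc K jF S) := subsingleton_quot_of_eq_top htop
  have h3 : Subsingleton (K ⊗[A] (F ⧸ S)) := h1.equiv.toEquiv.subsingleton
  obtain ⟨s, hs, hs'⟩ := exists_smul_eq_zero K h3
  refine ⟨s, hs, fun f => ?_⟩
  have h4 := hs' (S.mkQ f)
  rw [← map_smul, Submodule.mkQ_apply] at h4
  exact (Submodule.Quotient.mk_eq_zero _).mp h4

section

variable {A' : Type u'} [CommRing A'] [Algebra A A']
  {P' : Type v'} [AddCommGroup P'] [Module A P'] [Module A' P'] [IsScalarTower A A' P']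
  {F' : Type w'} [AddCommGroup F'] [Module A F'] [Module A' F'] [IsScalarTower A A' F']
  {jP : P →ₗ[A] P'} {jF : F →ₗ[A] F'} {c : P →ₗ[A] F} {c' : P' →ₗ[A'] F'}

theorem surjective_of_smul_range (hF : IsBaseChange A' jF)
    (hc : ∀ p, c' (jP p) = jF (c p)) {s : A} (hs : ∀ f, s • f ∈ LinearMap.range c)
    (hu : IsUnit (algebraMap A A' s)) : Function.Surjective c' := by
  have h1 := bc_eq_top_of_smul hF hs hu
  rw [← LinearMap.range_eq_top, eq_top_iff, ← h1, bc, Submodule.span_le]
  rintro _ ⟨_, ⟨p, rfl⟩, rfl⟩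
  exact ⟨jP p, hc p⟩

/-- base change of a surjective map onto a projective module with kernel killed by a function which
becomes invertible -/
theorem bijective_of_smul_ker [Module.Projective A F] (hs : Function.Surjective c)
    (hP : IsBaseChange A' jP) (hF : IsBaseChange A' jF)
    (hc : ∀ p, c' (jP p) = jF (c p)) {s : A} (hk : ∀ p, c p = 0 → s • p = 0)
    (hu : IsUnit (algebraMap A A' s)) : Function.Bijective c' := by
  obtain ⟨σ, hσ⟩ := Module.projective_lifting_property c LinearMap.id hs
  have hσ' : ∀ f, c (σ f) = f := fun f => LinearMap.congr_fun hσ f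
  let σ' : F' →ₗ[A'] P' := hF.lift (jP.comp σ)
  have hσ'' : ∀ f, σ' (jF f) = jP (σ f) := fun f => hF.lift_eq _ _
  have h1 : ∀ p', σ' (c' p') = p' := fun p' => by
    induction p' using hP.inductionOn with
    | zero => rw [map_zero, map_zero]
    | tmul p =>
      rw [hc, hσ'']
      have h2 : c (σ (c p) - p) = 0 := by rw [map_sub, hσ', sub_self]
      have h3 : s • (jP (σ (c p)) - jP p) = 0 := by
        rw [← map_sub, ← map_smul, hk _ h2, map_zero]
      have h4 : jP (σ (c p)) - jP p = 0 := by
        have h5 : ((hu.unit⁻¹ : A'ˣ) : A') • (s • (jP (σ (c p)) - jP p)) =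
            jP (σ (c p)) - jP p := by
          rw [← algebraMap_smul A' s (jP (σ (c p)) - jP p), smul_smul, IsUnit.val_inv_mul, one_smul]
        rw [← h5, h3, smul_zero]
      exact sub_eq_zero.mp h4
    | smul s n hn => rw [map_smul, map_smul, hn]
    | add a b ha hb => rw [map_add, map_add, ha, hb]
  refine ⟨fun a b hab => by rw [← h1 a, ← h1 b, hab], fun f' => ?_⟩
  induction f' using hF.inductionOn with
  | zero => exact ⟨0, map_zero _⟩
  | tmul f =>
    obtain ⟨p, rfl⟩ := hs f
    exact ⟨jP p, hc p⟩
  | smul s n hn =>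
    obtain ⟨p, rfl⟩ := hn
    exact ⟨s • p, map_smul _ _ _⟩
  | add a b ha hb =>
    obtain ⟨p, rfl⟩ := ha
    obtain ⟨q, rfl⟩ := hb
    exact ⟨p + q, map_add _ _ _⟩

/-- base change of a bijective map -/
theorem bijective_of_bijective (hb : Function.Bijective c)
    (hP : IsBaseChange A' jP) (hF : IsBaseChange A' jF)
    (hc : ∀ p, c' (jP p) = jF (c p)) : Function.Bijective c' := by
  let e := LinearEquiv.ofBijective c hb
  let σ' : F' →ₗ[A'] P' := hF.lift (jP.comp (e.symm : F →ₗ[A] P))
  have hσ'' : ∀ f, σ' (jF f) = jP (e.symm f) := fun f => hF.lift_eq _ _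
  have h1 : ∀ p', σ' (c' p') = p' := fun p' => by
    induction p' using hP.inductionOn with
    | zero => rw [map_zero, map_zero]
    | tmul p =>
      rw [hc, hσ'']
      congr 1
      exact e.symm_apply_apply p
    | smul s n hn => rw [map_smul, map_smul, hn]
    | add a b ha hb => rw [map_add, map_add, ha, hb]
  have h2 : ∀ f', c' (σ' f') = f' := fun f' => by
    induction f' using hF.inductionOn with
    | zero => rw [map_zero, map_zero]
    | tmul f =>
      rw [hσ'', hc]
      congr 1
      exact e.apply_symm_apply f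
    | smul s n hn => rw [map_smul, map_smul, hn]
    | add a b ha hb => rw [map_add, map_add, ha, hb]
  exact ⟨fun a b hab => by rw [← h1 a, ← h1 b, hab], fun f' => ⟨_, h2 f'⟩⟩

end

/-- **openness of bijectivity** -/
theorem exists_bijective [Module.Finite A P] [Module.Finite A F] [Module.Projective A F]
    (c : P →ₗ[A] F) {K : Type u'} [Field K] [Algebra A K]
    {P' : Type v'} [AddCommGroup P'] [Module A P'] [Module K P'] [IsScalarTower A K P']
    {F' : Type w'} [AddCommGroup F'] [Module A F'] [Module K F'] [IsScalarTower A K F']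
    {jP : P →ₗ[A] P'} (hP : IsBaseChange K jP) {jF : F →ₗ[A] F'} (hF : IsBaseChange K jF)
    (c' : P' →ₗ[K] F') (hc : ∀ p, c' (jP p) = jF (c p)) (hbij : Function.Bijective c') :
    ∃ s : A, algebraMap A K s ≠ 0 ∧ ∀ (A'' : Type u'') [CommRing A''] [Algebra A A'']
      (P'' : Type v'') [AddCommGroup P''] [Module A P''] [Module A'' P''] [IsScalarTower A A'' P'']
      (F'' : Type w'') [AddCommGroup F''] [Module A F''] [Module A'' F''] [IsScalarTower A A'' F'']
      (jP'' : P →ₗ[A] P'') (jF'' : F →ₗ[A] F'') (c'' : P'' →ₗ[A''] F''),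
      IsBaseChange A'' jP'' → IsBaseChange A'' jF'' → (∀ p, c'' (jP'' p) = jF'' (c p)) →
      IsUnit (algebraMap A A'' s) → Function.Bijective c'' := by
  obtain ⟨s1, hs1, hs1'⟩ := exists_smul_range c hP hF c' hc hbij.2
  let A1 := Localization.Away s1
  let P1 := A1 ⊗[A] P
  let F1 := A1 ⊗[A] F
  let fP : P →ₗ[A] P1 := TensorProduct.mk A A1 P 1
  let fF : F →ₗ[A] F1 := TensorProduct.mk A A1 F 1
  have hfP : IsBaseChange A1 fP := TensorProduct.isBaseChange A P A1
  have hfF : IsBaseChange A1 fF := TensorProduct.isBaseChange A F A1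
  let c1 : P1 →ₗ[A1] F1 := c.baseChange A1
  have hc1 : ∀ p, c1 (fP p) = fF (c p) := fun p => LinearMap.baseChange_tmul _ _ _
  have hs : Function.Surjective c1 := surjective_of_smul_range (P := P) (jP := fP) hfF hc1 hs1'
    (IsLocalization.Away.algebraMap_isUnit s1)
  -- `K` as an `A₁`-algebra
  let _ : Algebra A1 K := (IsLocalization.Away.lift s1 (g := algebraMap A K)
    (isUnit_iff_ne_zero.mpr hs1) : A1 →+* K).toAlgebra
  have : IsScalarTower A A1 K := IsScalarTower.of_algebraMap_eq' (by
    ext a
    exact (IsLocalization.Away.lift_eq s1 (isUnit_iff_ne_zero.mpr hs1) a).symm)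
  let _ : Module A1 P' := Module.compHom P' (algebraMap A1 K)
  have : IsScalarTower A1 K P' := ⟨fun a b c => by
    rw [Algebra.smul_def, mul_smul]; rfl⟩
  have : IsScalarTower A A1 P' := IsScalarTower.to₁₂₄ A A1 K P'
  let _ : Module A1 F' := Module.compHom F' (algebraMap A1 K)
  have : IsScalarTower A1 K F' := ⟨fun a b c => by
    rw [Algebra.smul_def, mul_smul]; rfl⟩
  have : IsScalarTower A A1 F' := IsScalarTower.to₁₂₄ A A1 K F'
  let gP : P1 →ₗ[A1] P' := hfP.lift jP
  let gF : F1 →ₗ[A1] F' := hfF.lift jF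
  have hgP : (gP.restrictScalars A).comp fP = jP := by
    ext w
    exact hfP.lift_eq _ _
  have hgP' : IsBaseChange K gP := by
    apply IsBaseChange.of_comp hfP
    rw [hgP]; exact hP
  have hgF : ∀ f, gF (fF f) = jF f := fun f => hfF.lift_eq _ _
  have hcomm : ∀ p, c' (gP p) = gF (c1 p) := fun p => by
    induction p using hfP.inductionOn with
    | zero => rw [map_zero, map_zero, map_zero, map_zero]
    | tmul p =>
      have h1 : gP (fP p) = jP p := LinearMap.congr_fun hgP p
      rw [h1, hc1, hgF, hc]
    | smul s n hn =>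
      rw [gP.map_smul, c1.map_smul, gF.map_smul, ← algebraMap_smul K s (gP n), c'.map_smul,
        algebraMap_smul, hn]
    | add a b ha hb => rw [map_add, map_add, map_add, map_add, ha, hb]
  obtain ⟨s2, hs2, hs2'⟩ := exists_smul_ker c1 hs hgP' (jF := gF) c' hcomm hbij.1
  obtain ⟨n, a, ha⟩ := IsLocalization.Away.surj s1 s2
  refine ⟨s1 * a, ?_, ?_⟩
  · rw [map_mul]
    refine mul_ne_zero hs1 ?_
    have h1 : algebraMap A K a = algebraMap A1 K (algebraMap A A1 a) :=
      IsScalarTower.algebraMap_apply A A1 K a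
    rw [h1, ← ha, map_mul, map_pow, ← IsScalarTower.algebraMap_apply A A1 K]
    exact mul_ne_zero hs2 (pow_ne_zero _ hs1)
  · intro A'' _ _ P'' _ _ _ _ F'' _ _ _ _ jP'' jF'' c'' hP'' hF'' hc'' hu
    rw [map_mul, IsUnit.mul_iff] at hu
    obtain ⟨hu1, hua⟩ := hu
    let _ : Algebra A1 A'' := (IsLocalization.Away.lift s1 (g := algebraMap A A'') hu1 :
      A1 →+* A'').toAlgebra
    have : IsScalarTower A A1 A'' := IsScalarTower.of_algebraMap_eq' (by
      ext a
      exact (IsLocalization.Away.lift_eq s1 hu1 a).symm)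
    let _ : Module A1 P'' := Module.compHom P'' (algebraMap A1 A'')
    have : IsScalarTower A1 A'' P'' := ⟨fun a b c => by
      rw [Algebra.smul_def, mul_smul]; rfl⟩
    have : IsScalarTower A A1 P'' := IsScalarTower.to₁₂₄ A A1 A'' P''
    let _ : Module A1 F'' := Module.compHom F'' (algebraMap A1 A'')
    have : IsScalarTower A1 A'' F'' := ⟨fun a b c => by
      rw [Algebra.smul_def, mul_smul]; rfl⟩
    have : IsScalarTower A A1 F'' := IsScalarTower.to₁₂₄ A A1 A'' F''
    let hP2 : P1 →ₗ[A1] P'' := hfP.lift jP''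
    let hF2 : F1 →ₗ[A1] F'' := hfF.lift jF''
    have hhP : (hP2.restrictScalars A).comp fP = jP'' := by
      ext w
      exact hfP.lift_eq _ _
    have hhF : (hF2.restrictScalars A).comp fF = jF'' := by
      ext w
      exact hfF.lift_eq _ _
    have hhP' : IsBaseChange A'' hP2 := by
      apply IsBaseChange.of_comp hfP
      rw [hhP]; exact hP''
    have hhF' : IsBaseChange A'' hF2 := by
      apply IsBaseChange.of_comp hfF
      rw [hhF]; exact hF''
    have hcomm2 : ∀ p, c'' (hP2 p) = hF2 (c1 p) := fun p => by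
      induction p using hfP.inductionOn with
      | zero => rw [map_zero, map_zero, map_zero, map_zero]
      | tmul p =>
        have h1 : hP2 (fP p) = jP'' p := LinearMap.congr_fun hhP p
        have h2 : hF2 (fF (c p)) = jF'' (c p) := LinearMap.congr_fun hhF (c p)
        rw [h1, hc1, h2, hc'']
      | smul s n hn =>
        rw [hP2.map_smul, c1.map_smul, hF2.map_smul, ← algebraMap_smul A'' s (hP2 n),
          c''.map_smul, algebraMap_smul, hn]
      | add a b ha hb => rw [map_add, map_add, map_add, map_add, ha, hb]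
    apply bijective_of_smul_ker hs hhP' hhF' hcomm2 (s := algebraMap A A1 a)
    · intro p hp
      rw [← ha, mul_comm, mul_smul, hs2' p hp, smul_zero]
    · rw [← IsScalarTower.algebraMap_apply A A1 A'']
      exact hua

end Fermat.Agent.Jac
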