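import Fermat.Agent.Jac.ChRho

/-!
# Uniqueness of the matrices of a good bundle
-/

universe u

set_option autoImplicit false
set_option linter.style.haveILetI false

open TensorProduct LaurentPolynomial

namespace Fermat.Agent.Jac

/-- two surjective functionals on an invertible module, with values in an algebra, differ by a
unit -/
theorem exists_unit_of_invertible {S A M : Type*} [CommRing S] [CommRing A] [Algebra S A]
    [AddCommGroup M] [Module S M] [Module.Invertible S M] (f g : M →+ A)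
    (hf : ∀ (s : S) (m : M), f (s • m) = algebraMap S A s * f m)
    (hg : ∀ (s : S) (m : M), g (s • m) = algebraMap S A s * g m)
    (hfs : Function.Surjective f) (hgs : Function.Surjective g) :
    ∃ c : Aˣ, ∀ m, g m = c * f m := by
  let f' : M →ₗ[S] A := { f with map_smul' := fun s m => (hf s m).trans (Algebra.smul_def s _).symm }
  let g' : M →ₗ[S] A := { g with map_smul' := fun s m => (hg s m).trans (Algebra.smul_def s _).symm }
  let F : A ⊗[S] M →ₗ[A] A := f'.liftBaseChange A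
  let G : A ⊗[S] M →ₗ[A] A := g'.liftBaseChange A
  have hF : ∀ m, F (1 ⊗ₜ m) = f m := fun m => by
    show f'.liftBaseChange A (1 ⊗ₜ m) = f m
    rw [LinearMap.liftBaseChange_tmul, one_smul]
    rfl
  have hG : ∀ m, G (1 ⊗ₜ m) = g m := fun m => by
    show g'.liftBaseChange A (1 ⊗ₜ m) = g m
    rw [LinearMap.liftBaseChange_tmul, one_smul]
    rfl
  have hFs : Function.Surjective F := fun a => by
    obtain ⟨m, rfl⟩ := hfs a
    exact ⟨1 ⊗ₜ m, hF m⟩
  have hGs : Function.Surjective G := fun a => by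
    obtain ⟨m, rfl⟩ := hgs a
    exact ⟨1 ⊗ₜ m, hG m⟩
  have hFb := Module.Invertible.bijective_of_surjective hFs
  have hGb := Module.Invertible.bijective_of_surjective hGs
  obtain ⟨t, ht⟩ := hFs 1
  obtain ⟨t', ht'⟩ := hGs 1
  have h1 : ∀ z, G z = G t * F z := by
    intro z
    have h2 : z = F z • t := hFb.1 (by rw [map_smul, ht, smul_eq_mul, mul_one])
    conv_lhs => rw [h2]
    rw [map_smul, smul_eq_mul, mul_comm]
  have h2 : ∀ z, F z = F t' * G z := by
    intro z
    have h2 : z = G z • t' := hGb.1 (by rw [map_smul, ht', smul_eq_mul, mul_one])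
    conv_lhs => rw [h2]
    rw [map_smul, smul_eq_mul, mul_comm]
  have h3 : G t * F t' = 1 := by rw [← h1, ht']
  refine ⟨⟨G t, F t', h3, by rw [mul_comm]; exact h3⟩, fun m => ?_⟩
  rw [← hG, h1, hF]

variable {k : Type u} [Field k] {X : CurveData k} {A : Type u} [CommRing A] [Algebra k A]

namespace LB

variable {N : LB X A}

/-- multiplication by `T` from `Ni` to `T Ni` -/
noncomputable def twMap (N : LB X A) : N.Mi →ₗ[A] twT N.Ai where
  toFun m := ⟨(T 1 : A[T;T⁻¹]) • (m : N.M), by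
    rw [mem_twT, T_smul_T_smul]
    simp⟩
  map_add' m m' := Subtype.ext (smul_add _ _ _)
  map_smul' c m := Subtype.ext (smul_comm _ _ _)

theorem coe_twMap (m : N.Mi) : (N.twMap m : N.M) = (T 1 : A[T;T⁻¹]) • (m : N.M) := rfl

theorem twMap_surjective : Function.Surjective N.twMap := by
  intro w
  refine ⟨⟨_, w.2⟩, Subtype.ext ?_⟩
  change (T 1 : A[T;T⁻¹]) • (T (-1) : A[T;T⁻¹]) • (w : N.M) = w
  rw [T_smul_T_smul]; simp

theorem eigen_smul {w : twT N.Ai →ₗ[A] A}
    (hw : ∀ (β : X.Bi) (v v' : twT N.Ai), (v' : N.M) = N.act β v →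
      w v' = algebraMap k A (X.e β) * w v) (b : X.Ri A) (m : N.Mi) :
    w (N.twMap (b • m)) = X.eA A b * w (N.twMap m) := by
  induction b using TensorProduct.induction_on with
  | zero =>
    have h0 : (0 : X.Ri A) • m = 0 := Subtype.ext (zero_smul (X.Ri A) (m : N.M))
    have h1 : X.eA A 0 = 0 := map_zero (X.eA A)
    exact (congrArg (fun z => w (N.twMap z)) h0).trans
      ((by rw [map_zero, map_zero] : w (N.twMap (0 : N.Mi)) = 0).trans
        ((congrArg (· * w (N.twMap m)) h1).trans (zero_mul _)).symm)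
  | tmul a b =>
    have h1 : (a ⊗ₜ b : X.Ri A) • m = a • ((1 ⊗ₜ b : X.Ri A) • m) := by
      rw [← smul_assoc, TensorProduct.smul_tmul', smul_eq_mul, mul_one]
    rw [h1, map_smul, map_smul, smul_eq_mul]
    have h2 : w (N.twMap ((1 ⊗ₜ b : X.Ri A) • m)) = algebraMap k A (X.e b) * w (N.twMap m) := by
      refine hw b (N.twMap m) (N.twMap ((1 ⊗ₜ b : X.Ri A) • m)) ?_
      change (T 1 : A[T;T⁻¹]) • ((1 ⊗ₜ b : X.Ri A) • (m : N.M)) =
        N.act b ((T 1 : A[T;T⁻¹]) • (m : N.M))
      rw [map_smul, act_apply, N.smuli]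
      simp [CurveData.Ji]
    rw [h2, ← mul_assoc]
    congr 1
  | add b b' hb hb' => rw [add_smul, map_add, map_add, hb, hb', map_add, add_mul]

/-- the eigenfunctional is unique up to a unit -/
theorem eigen_unique {w1 w2 : twT N.Ai →ₗ[A] A}
    (h1 : ∀ (β : X.Bi) (v v' : twT N.Ai), (v' : N.M) = N.act β v →
      w1 v' = algebraMap k A (X.e β) * w1 v) (hs1 : Function.Surjective w1)
    (h2 : ∀ (β : X.Bi) (v v' : twT N.Ai), (v' : N.M) = N.act β v →
      w2 v' = algebraMap k A (X.e β) * w2 v) (hs2 : Function.Surjective w2) :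
    ∃ c : Aˣ, ∀ v, w2 v = c * w1 v := by
  letI : Algebra (X.Ri A) A := (X.eA A).toRingHom.toAlgebra
  haveI := N.invi
  obtain ⟨c, hc⟩ := exists_unit_of_invertible (S := X.Ri A) (A := A) (M := N.Mi)
    (w1 ∘ₗ N.twMap).toAddMonoidHom (w2 ∘ₗ N.twMap).toAddMonoidHom
    (fun s m => eigen_smul h1 s m) (fun s m => eigen_smul h2 s m)
    (hs1.comp twMap_surjective) (hs2.comp twMap_surjective)
  refine ⟨c, fun v => ?_⟩
  obtain ⟨m, rfl⟩ := N.twMap_surjective v
  exact hc m

/-- the matrices of a good bundle are unique -/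
theorem HasRho.unique {q : Frame X} {ρ1 ρ2 : X.B →ₐ[k] Matrix (Fin q.d) (Fin q.d) A[T;T⁻¹]}
    {u1 u2 : Fin q.d → A} {h1 h2 : Split N.A0 N.Ai} {w1 w2 : twT N.Ai →ₗ[A] A}
    {e1 e2 : Module.Basis (Fin q.d) A (secV N.A0 N.Ai)}
    (H1 : N.HasRho q ρ1 u1 h1 w1 e1) (H2 : N.HasRho q ρ2 u2 h2 w2 e2) : ρ1 = ρ2 ∧ u1 = u2 := by
  obtain ⟨c, hc⟩ := eigen_unique H1.cyc.eigen H1.cyc.surj H2.cyc.eigen H2.cyc.surj
  have hco : ∀ v, h2.coords N.act q.b q.n q.t w2 v =
      (c : A) • h1.coords N.act q.b q.n q.t w1 v := by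
    intro v
    ext i
    rw [Pi.smul_apply, smul_eq_mul, Split.coords_apply, Split.coords_apply, Finset.mul_sum]
    refine Finset.sum_congr rfl fun j _ => ?_
    rw [Split.coords0_apply, Split.coords0_apply, hc]
    ring
  have he : ∀ i, (c : A) • e2 i = e1 i := by
    intro i
    apply H1.cyc.bij.1
    rw [map_smul, ← hco, H2.coords, H1.coords]
  constructor
  · refine AlgHom.ext fun b => Matrix.ext fun i l => ?_
    rw [← H1.repr_act b l i, ← he l]
    have h3 : N.act b (((c : A) • e2 l : secV N.A0 N.Ai) : N.M) =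
        ∑ i, ρ2 b i l • ((e1 i : secV N.A0 N.Ai) : N.M) := by
      have h4 : (((c : A) • e2 l : secV N.A0 N.Ai) : N.M) =
          (C (c : A) : A[T;T⁻¹]) • ((e2 l : secV N.A0 N.Ai) : N.M) := by
        rw [C_smul']; rfl
      rw [h4, map_smul, H2.act, Finset.smul_sum]
      refine Finset.sum_congr rfl fun i _ => ?_
      rw [smul_comm, C_smul', ← he i]
      rfl
    rw [h3, h1.repr_sum_smul e1]
  · funext i
    rw [← H1.val i, ← H2.val i, hc, ← smul_eq_mul, ← map_smul]
    congr 1
    apply Subtype.ext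
    have := congrArg (Subtype.val) (he i)
    exact this.symm

end LB

end Fermat.Agent.Jac
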