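import Fermat.Agent.Jac.RigOpen
import Fermat.Agent.Jac.RhoUniq
import Fermat.Agent.Jac.ClMain
import Fermat.Agent.Jac.LBCoh
import Fermat.Agent.Jac.MapOpen
import Fermat.Agent.Jac.LiftGoodQ

/-!
# Good bundles form an open subfunctor
-/

set_option autoImplicit false
set_option linter.unusedSectionVars false

universe u v u' v'

namespace Fermat.Agent.Jac

open TensorProduct Module LaurentPolynomial

section general

variable {A : Type u} [CommRing A] {W : Type v} [AddCommGroup W] [Module A W]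
  {A' : Type u'} [CommRing A'] [Algebra A A'] {W' : Type v'} [AddCommGroup W'] [Module A W']
  [Module A' W'] [IsScalarTower A A' W'] {f : W →ₗ[A] W'}

/-- base change of a direct summand -/
theorem isBaseChange_summand (hf : IsBaseChange A' f) (H : Submodule A W)
    (R : W →ₗ[A] H) (hR : ∀ w : H, R w = w) (H' : Submodule A' W') (hH : bc A' f H = H')
    (j : H →ₗ[A] H') (hj : ∀ w, (j w : W') = f w) : IsBaseChange A' j := by
  subst hH
  have h1 := isBaseChange_restrict hf H R hR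
  have h2 : j = ((f.comp H.subtype).codRestrict ((bc A' f H).restrictScalars A)
      fun w => mem_bc w.2 : H →ₗ[A] bc A' f H) := LinearMap.ext fun w => Subtype.ext (hj w)
  rw [h2]
  exact h1

end general

variable {k : Type u} [Field k] {X : CurveData k} {A : Type u} [CommRing A] [Algebra k A]
  {A' : Type u} [CommRing A'] [Algebra k A'] {g : A →ₐ[k] A'} {N : LB X A} {N' : LB X A'}

namespace LB

theorem twT_eq (N : LB X A) : (twT N.Ai : Submodule A N.M) = tw N.xE 1 N.Ai := by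
  ext m
  rw [mem_twT, mem_tw, pow_one, xE_inv_apply, smul_lam, X.lam_T_neg_one]

theorem secV_eq (N : LB X A) :
    (secV N.A0 N.Ai : Submodule A N.M) = N.A0 ⊓ tw N.xE 1 N.Ai := by
  rw [← twT_eq]
  rfl

theorem sup_tw_eq_top (N : LB X A) (hc : IsCompl N.A0 N.Ai) : N.A0 ⊔ tw N.xE 1 N.Ai = ⊤ := by
  rw [eq_top_iff, ← hc.sup_eq_top]
  exact sup_le_sup_left (le_tw N.isLati 1) _

theorem finite_projective_secV (N : LB X A) (hc : IsCompl N.A0 N.Ai) :
    Module.Finite A (secV N.A0 N.Ai) ∧ Module.Projective A (secV N.A0 N.Ai) := by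
  rw [secV_eq]
  exact finite_projective_inf N.isLat0 (N.isLati.tw_inv 1) (N.sup_tw_eq_top hc)

/-- `V` commutes with base change -/
theorem Map.isBaseChange_secV (F : LB.Map g N N') (hc : IsCompl N.A0 N.Ai) [Algebra A A']
    (hh : ∀ a, algebraMap A A' a = g a) [Module A N'.M] [IsScalarTower A A' N'.M]
    (j : secV N.A0 N.Ai →ₗ[A] secV N'.A0 N'.Ai) (hj : ∀ v, (j v : N'.M) = F.f v) :
    IsBaseChange A' j := by
  let f : N.M →ₗ[A] N'.M :=
    { toFun := F.f
      map_add' := map_add F.f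
      map_smul' := fun a m => by
        rw [F.map_smulA, ← hh, algebraMap_smul]
        rfl }
  have hf : IsBaseChange A' f := F.isBaseChange hh f fun m => rfl
  have hx : IsBC f N.xE N'.xE := F.isBC f fun m => rfl
  have h0 : bc A' f N.A0 = N'.A0 := F.bc_A0 f fun m => rfl
  have hi : bc A' f N.Ai = N'.Ai := F.bc_Ai f fun m => rfl
  obtain ⟨R, hR⟩ := N.isLat0.exists_retraction
  obtain ⟨σ, hσ1, hσ2, hσ3⟩ := exists_lift (N.isLati.tw_inv 1) (N.sup_tw_eq_top hc)
  have hmem : ∀ w : N.M, (R w : N.M) - σ (R w) ∈ secV N.A0 N.Ai := fun w => by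
    rw [secV_eq]
    exact ⟨N.A0.sub_mem (R w).2 (hσ2 _), hσ3 _⟩
  refine isBaseChange_summand hf (secV N.A0 N.Ai)
    (((LinearMap.id - σ).comp (N.A0.subtype.comp R)).codRestrict (secV N.A0 N.Ai) hmem)
    (fun w => ?_) (secV N'.A0 N'.Ai) ?_ j hj
  · apply Subtype.ext
    have h1 : (R w.1 : N.M) = w.1 := congrArg Subtype.val (hR ⟨w.1, w.2.1⟩)
    change (R w.1 : N.M) - σ (R w.1) = w.1
    have h2 : w.1 ∈ tw N.xE 1 N.Ai := by
      rw [← twT_eq]
      exact w.2.2
    rw [h1, hσ1 w.1 h2, sub_zero]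
  · rw [secV_eq, secV_eq, bc_inf (N.isLati.tw_inv 1) (N.sup_tw_eq_top hc) hf, bc_tw hx, h0, hi]

/-- a rigidification gives an eigenfunctional -/
theorem Rig.exists_eigenO (hr : N.Rig) : ∃ w : twT N.Ai →ₗ[A] A,
    (∀ (β : X.Bi) (v v' : twT N.Ai), (v' : N.M) = N.act β v →
      w v' = algebraMap k A (X.e β) * w v) ∧ Function.Surjective w := by
  obtain ⟨r, hr1, hr2⟩ := hr
  let μ : twT N.Ai →ₗ[A] N.Mi :=
    { toFun := fun m => ⟨(T (-1) : A[T;T⁻¹]) • (m : N.M), m.2⟩
      map_add' := fun m m' => Subtype.ext (smul_add _ _ _)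
      map_smul' := fun c m => Subtype.ext (smul_comm _ _ _) }
  have hμ : ∀ m : N.Mi, μ (N.twMap m) = m := fun m => Subtype.ext (by
    change (T (-1) : A[T;T⁻¹]) • (T 1 : A[T;T⁻¹]) • (m : N.M) = m
    rw [T_smul_T_smul]; simp)
  refine ⟨r ∘ₗ μ, fun β v v' hv => ?_, fun a => ?_⟩
  · have h1 : μ v' = (1 ⊗ₜ β : X.Ri A) • μ v := Subtype.ext (by
      change (T (-1) : A[T;T⁻¹]) • (v' : N.M) = (1 ⊗ₜ β : X.Ri A) • (T (-1) : A[T;T⁻¹]) • (v : N.M)
      rw [hv, ← map_smul, act_apply, N.smuli]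
      simp [CurveData.Ji])
    rw [LinearMap.comp_apply, LinearMap.comp_apply, h1, hr1]
    congr 1
    simp [CurveData.eA, Algebra.ofId_apply]
  · obtain ⟨m, hm⟩ := hr2 a
    exact ⟨N.twMap m, by rw [LinearMap.comp_apply, hμ, hm]⟩

theorem act_mem_twTO (N : LB X A) (β : X.Bi) {v : N.M} (hv : v ∈ twT N.Ai) :
    N.act β v ∈ twT N.Ai := by
  rw [mem_twT, ← map_smul]
  exact act_memi β.2 hv

/-- base change of eigenfunctionals -/
theorem Map.exists_eigen_mapO (F : LB.Map g N N') (w : twT N.Ai →ₗ[A] A)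
    (he : ∀ (β : X.Bi) (v v' : twT N.Ai), (v' : N.M) = N.act β v →
      w v' = algebraMap k A (X.e β) * w v) (hs : Function.Surjective w) :
    ∃ w' : twT N'.Ai →ₗ[A'] A',
      (∀ (β : X.Bi) (v v' : twT N'.Ai), (v' : N'.M) = N'.act β v →
        w' v' = algebraMap k A' (X.e β) * w' v) ∧ Function.Surjective w' ∧
      ∀ m : twT N.Ai, g (w m) = w' ⟨F.f m, F.mem_twT_nil m.2⟩ := by
  let i1 : Algebra A A' := g.toRingHom.toAlgebra
  have hh : ∀ a, algebraMap A A' a = g a := fun a => rfl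
  let i2 : Module A N'.M := Module.compHom N'.M g.toRingHom
  have i3 : IsScalarTower A A' N'.M := ⟨fun a b c => by
    rw [Algebra.smul_def, mul_smul]; rfl⟩
  let f : N.M →ₗ[A] N'.M :=
    { toFun := F.f
      map_add' := map_add F.f
      map_smul' := fun a m => F.map_smulA a m }
  have hf : IsBaseChange A' f := F.isBaseChange hh f fun m => rfl
  have hx : IsBC f N.xE N'.xE := F.isBC f fun m => rfl
  have hi : bc A' f N.Ai = N'.Ai := F.bc_Ai f fun m => rfl
  let j : twT N.Ai →ₗ[A] twT N'.Ai :=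
    { toFun := fun m => ⟨F.f m, F.mem_twT_nil m.2⟩
      map_add' := fun m m' => Subtype.ext (map_add F.f (m : N.M) (m' : N.M))
      map_smul' := fun a m => Subtype.ext (F.map_smulA a (m : N.M)) }
  have hR : ∃ R : N.M →ₗ[A] twT N.Ai, ∀ w : twT N.Ai, R w = w := by
    rw [twT_eq]
    exact (N.isLati.tw_inv 1).exists_retraction
  obtain ⟨R, hR⟩ := hR
  have hj : IsBaseChange A' j := isBaseChange_summand hf (twT N.Ai) R hR (twT N'.Ai)
    (by rw [twT_eq, twT_eq, bc_tw hx, hi]) j fun m => rfl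
  let w' : twT N'.Ai →ₗ[A'] A' := hj.lift ((Algebra.linearMap A A').comp w)
  have hw' : ∀ m, w' (j m) = g (w m) := fun m => hj.lift_eq _ _
  refine ⟨w', fun β v v' hv => ?_, fun a => ?_, fun m => (hw' m).symm⟩
  · let aβ : twT N'.Ai →ₗ[A'] twT N'.Ai :=
      { toFun := fun m => ⟨N'.act β m, N'.act_mem_twTO β m.2⟩
        map_add' := fun m m' => Subtype.ext (map_add _ (m : N'.M) (m' : N'.M))
        map_smul' := fun a m => Subtype.ext (by
          change N'.act β (a • (m : N'.M)) = a • N'.act β (m : N'.M)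
          rw [← algebraMap_smul A'[T;T⁻¹] a (m : N'.M), LinearMap.map_smul, algebraMap_smul]) }
    have hv' : v' = aβ v := Subtype.ext hv
    rw [hv']
    clear hv' hv
    induction v using hj.inductionOn with
    | zero => rw [map_zero, map_zero, mul_zero]
    | tmul m =>
      have h1 : aβ (j m) = j ⟨N.act β m, N.act_mem_twTO β m.2⟩ := Subtype.ext (F.act_nil β m).symm
      rw [h1, hw', hw', he β m ⟨N.act β m, N.act_mem_twTO β m.2⟩ rfl, map_mul, AlgHom.commutes]
    | smul s n hn =>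
      rw [aβ.map_smul, w'.map_smul, w'.map_smul, hn, smul_eq_mul, smul_eq_mul]; ring
    | add a b ha hb => rw [map_add, map_add, map_add, ha, hb]; ring
  · obtain ⟨m, hm⟩ := hs 1
    exact ⟨a • j m, by rw [w'.map_smul, hw', hm, map_one, smul_eq_mul, mul_one]⟩

end LB

/-- scaling the functional scales the coordinates -/
theorem coords_scale {B M : Type*} [CommRing B] [Algebra k B] [AddCommGroup M] [Module A M]
    [Module A[T;T⁻¹] M] [IsScalarTower A A[T;T⁻¹] M] {N0 Ni : Submodule A M} (h : Split N0 Ni)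
    (act : B →+* Module.End A[T;T⁻¹] M) {d m : ℕ} (b : Fin m → B) (n : Fin m → ℤ)
    (t : Matrix (Fin d) (Fin m) k) {w w' : twT Ni →ₗ[A] A} {c : A}
    (hw : ∀ v, w' v = c * w v) (v : secV N0 Ni) :
    h.coords act b n t w' v = c • h.coords act b n t w v := by
  ext i
  rw [h.coords_apply, Pi.smul_apply, h.coords_apply, smul_eq_mul, Finset.mul_sum]
  refine Finset.sum_congr rfl fun j _ => ?_
  rw [h.coords0_apply, h.coords0_apply, hw]
  ring

theorem bijective_coords_scale {B M : Type*} [CommRing B] [Algebra k B] [AddCommGroup M]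
    [Module A M] [Module A[T;T⁻¹] M] [IsScalarTower A A[T;T⁻¹] M] {N0 Ni : Submodule A M}
    (h : Split N0 Ni) (act : B →+* Module.End A[T;T⁻¹] M) {d m : ℕ} (b : Fin m → B)
    (n : Fin m → ℤ) (t : Matrix (Fin d) (Fin m) k) {w w' : twT Ni →ₗ[A] A} {c : Aˣ}
    (hw : ∀ v, w' v = c * w v) (hb : Function.Bijective (h.coords act b n t w)) :
    Function.Bijective (h.coords act b n t w') := by
  have h1 : (h.coords act b n t w' : secV N0 Ni → (Fin d → A)) =
      (fun z => (c : A) • z) ∘ (h.coords act b n t w) := by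
    ext1 v
    exact coords_scale h act b n t hw v
  rw [h1]
  refine Function.Bijective.comp ⟨fun a b hab => ?_, fun z => ⟨(c⁻¹ : Aˣ) • z, ?_⟩⟩ hb
  · have h2 : (c⁻¹ : Aˣ) • ((c : A) • a) = (c⁻¹ : Aˣ) • ((c : A) • b) := congrArg _ hab
    rwa [← Units.smul_def, inv_smul_smul, ← Units.smul_def, inv_smul_smul] at h2
  · change (c : A) • ((c⁻¹ : Aˣ) • z) = z
    rw [← Units.smul_def, smul_inv_smul]

/-- good bundles with given `IsCompl` and eigenfunctional are detected after base change -/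
theorem LB.Map.exists_coords_open {q : Frame X} {K : Type u} [Field K] [Algebra k K]
    {φ : A →ₐ[k] K} {L' : LB X K} (F : LB.Map φ N L') (hc : IsCompl N.A0 N.Ai)
    (hr : N.Rig) (hg : L'.Good q) :
    ∃ s : A, φ s ≠ 0 ∧ ∀ {A'' : Type u} [CommRing A''] [Algebra k A''] (g : A →ₐ[k] A'')
      (L'' : LB X A''), IsUnit (g s) → LB.BC g N L'' → L''.Good q := by
  obtain ⟨w, hwe, hws⟩ := hr.exists_eigenO
  obtain ⟨w1, hw1e, hw1s, hw1⟩ := F.exists_eigen_mapO w hwe hws
  obtain ⟨h', u', hu'⟩ := hg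
  obtain ⟨c, hc'⟩ := LB.eigen_unique hu'.eigen hu'.surj hw1e hw1s
  have hbij : Function.Bijective (h'.coords L'.act q.b q.n q.t w1) :=
    bijective_coords_scale h' L'.act q.b q.n q.t hc' hu'.bij
  let H := N.split hc
  have hfp := N.finite_projective_secV hc
  have := hfp.1
  -- instances
  let i1 : Algebra A K := φ.toRingHom.toAlgebra
  have hh : ∀ a, algebraMap A K a = φ a := fun a => rfl
  let i2 : Module A L'.M := Module.compHom L'.M φ.toRingHom
  have i3 : IsScalarTower A K L'.M := ⟨fun a b c => by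
    rw [Algebra.smul_def, mul_smul]; rfl⟩
  let j : secV N.A0 N.Ai →ₗ[A] secV L'.A0 L'.Ai :=
    { toFun := F.fV_nil
      map_add' := map_add F.fV_nil
      map_smul' := fun a m => Subtype.ext (F.map_smulA a (m : N.M)) }
  have hj : IsBaseChange K j := F.isBaseChange_secV hc hh j fun v => rfl
  have hpow : IsBaseChange K ((Algebra.linearMap A K).compLeft (Fin q.d)) :=
    IsBaseChange.finitePow (Fin q.d) (IsBaseChange.linearMap A K)
  obtain ⟨s, hs, hs'⟩ := exists_bijective (H.coords N.act q.b q.n q.t w) hj hpow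
    (h'.coords L'.act q.b q.n q.t w1) (fun v => by
      ext i
      exact (F.coords_nil H h' w w1 hw1 q.b q.n q.t v i).symm) hbij
  refine ⟨s, hs, ?_⟩
  intro A'' _ _ g L'' hu hb
  have hc'' : IsCompl L''.A0 L''.Ai := hb.isCompl hc
  obtain ⟨F''⟩ := hb
  obtain ⟨w2, hw2e, hw2s, hw2⟩ := F''.exists_eigen_mapO w hwe hws
  let H'' := L''.split hc''
  let j1 : Algebra A A'' := g.toRingHom.toAlgebra
  have hh'' : ∀ a, algebraMap A A'' a = g a := fun a => rfl
  let j2 : Module A L''.M := Module.compHom L''.M g.toRingHom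
  have j3 : IsScalarTower A A'' L''.M := ⟨fun a b c => by
    rw [Algebra.smul_def, mul_smul]; rfl⟩
  let j'' : secV N.A0 N.Ai →ₗ[A] secV L''.A0 L''.Ai :=
    { toFun := F''.fV_nil
      map_add' := map_add F''.fV_nil
      map_smul' := fun a m => Subtype.ext (F''.map_smulA a (m : N.M)) }
  have hj'' : IsBaseChange A'' j'' := F''.isBaseChange_secV hc hh'' j'' fun v => rfl
  have hpow'' : IsBaseChange A'' ((Algebra.linearMap A A'').compLeft (Fin q.d)) :=
    IsBaseChange.finitePow (Fin q.d) (IsBaseChange.linearMap A A'')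
  refine ⟨H'', w2, hw2e, hw2s, ?_⟩
  exact hs' A'' _ _ j'' _ (H''.coords L''.act q.b q.n q.t w2) hj'' hpow'' (fun v => by
      ext i
      exact (F''.coords_nil H H'' w w2 hw2 q.b q.n q.t v i).symm) hu

/-- **good bundles form an open subfunctor** -/
theorem LB.good_open' (q : Frame X) {K : Type u} [Field K] [Algebra k K] (φ : A →ₐ[k] K)
    (L : LB X A) (L' : LB X K) (hb : LB.BC φ L L') (hg : L'.Good q) :
    ∃ s : A, φ s ≠ 0 ∧ ∀ {A'' : Type u} [CommRing A''] [Algebra k A''] (g : A →ₐ[k] A'')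
      (L'' : LB X A''), IsUnit (g s) → LB.BC g L L'' → L''.Good q := by
  obtain ⟨s1, hs1, hs1'⟩ := LB.isCompl_open φ L L' hb hg.isCompl
  obtain ⟨s2, hs2, hs2'⟩ := LB.exists_rig_open φ L
  let s := s1 * s2
  have hφs : φ s ≠ 0 := by rw [map_mul]; exact mul_ne_zero hs1 hs2
  let A1 := Localization.Away s
  let τ : A →ₐ[k] A1 := IsScalarTower.toAlgHom k A A1
  have hτs : IsUnit (τ s) := IsLocalization.Away.algebraMap_isUnit s
  have hτ1 : IsUnit (τ s1) := isUnit_of_mul_isUnit_left (by rw [← map_mul]; exact hτs)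
  have hτ2 : IsUnit (τ s2) := isUnit_of_mul_isUnit_right (by rw [← map_mul]; exact hτs)
  obtain ⟨L1, hL1⟩ := bcExists X τ L
  have hc1 : IsCompl L1.A0 L1.Ai := hs1' τ L1 hτ1 hL1
  have hr1 : L1.Rig := hs2' τ L1 hτ2 hL1
  have key : ∀ {A'' : Type u} [CommRing A''] [Algebra k A''] (g : A →ₐ[k] A'')
      (_ : IsUnit (g s)), ∃ g1 : A1 →ₐ[k] A'', g1.comp τ = g := by
    intro A'' _ _ g hu
    refine ⟨{ toRingHom := IsLocalization.Away.lift s (g := (g : A →+* A'')) hu
              commutes' := fun c => ?_ }, ?_⟩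
    · change IsLocalization.Away.lift s (g := (g : A →+* A'')) hu (algebraMap k A1 c) = _
      rw [IsScalarTower.algebraMap_apply k A A1]
      exact (IsLocalization.Away.lift_eq s (g := (g : A →+* A'')) hu
        (algebraMap k A c)).trans (g.commutes c)
    · ext a
      exact IsLocalization.Away.lift_eq s hu a
  obtain ⟨φ1, hφ1⟩ := key φ (isUnit_iff_ne_zero.mpr hφs)
  have hb1 : LB.BC φ1 L1 L' := LB.BC.cancel hL1 (by rw [hφ1]; exact hb)
  obtain ⟨F⟩ := hb1
  obtain ⟨s3, hs3, hs3'⟩ := F.exists_coords_open hc1 hr1 hg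
  obtain ⟨n, a, ha⟩ := IsLocalization.Away.surj s s3
  refine ⟨s * a, ?_, ?_⟩
  · rw [map_mul]
    refine mul_ne_zero hφs fun h0 => hs3 ?_
    have h1 : φ1 s3 * φ1 (τ s) ^ n = φ1 (τ a) := by
      rw [← map_pow, ← map_mul]
      exact congrArg φ1 ha
    have h2 : φ1 (τ a) = 0 := by
      rw [← AlgHom.comp_apply, hφ1, h0]
    have h3 : φ1 (τ s) ≠ 0 := by
      rw [← AlgHom.comp_apply, hφ1]; exact hφs
    rw [h2] at h1
    exact (mul_eq_zero.mp h1).resolve_right (pow_ne_zero n h3)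
  · intro A'' _ _ g L'' hu hb''
    rw [map_mul, IsUnit.mul_iff] at hu
    obtain ⟨g1, hg1⟩ := key g hu.1
    have hb1'' : LB.BC g1 L1 L'' := LB.BC.cancel hL1 (by rw [hg1]; exact hb'')
    refine hs3' g1 L'' ?_ hb1''
    have h1 : g1 s3 * g1 (τ s) ^ n = g1 (τ a) := by
      rw [← map_pow, ← map_mul]
      exact congrArg g1 ha
    have h2 : IsUnit (g1 (τ a)) := by
      rw [← AlgHom.comp_apply, hg1]; exact hu.2
    rw [← h1] at h2
    exact isUnit_of_mul_isUnit_left h2

/-- the form needed for charts -/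
theorem LB.good_open (q : Frame X) {K : Type u} [Field K] [IsAlgClosed K] [Algebra k K]
    (φ : A →ₐ[k] K) (L : LB X A) (L' : LB X K) (hb : LB.BC φ L L') (hg : L'.Good q) :
    ∃ f : A, φ f ≠ 0 ∧ ∀ L'' : LB X (Localization.Away f),
      LB.BC (IsScalarTower.toAlgHom k A (Localization.Away f)) L L'' → L''.Good q := by
  obtain ⟨s, hs, hs'⟩ := LB.good_open' q φ L L' hb hg
  exact ⟨s, hs, fun L'' hb'' => hs' _ L'' (IsLocalization.Away.algebraMap_isUnit s) hb''⟩

end Fermat.Agent.Jac
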