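import Fermat.Agent.Jac.ChOne
import Fermat.Agent.Jac.GoodEx
import Fermat.Agent.Jac.GoodOpen

/-!
# The charts and the covering lemma
-/

universe u

set_option autoImplicit false

namespace Fermat.Agent.Jac

open LaurentPolynomial

variable {k : Type u} [Field k] {X : CurveData k}

/-- **the chart of a frame** -/
theorem exists_oneChart [IsAlgClosed k] (q : Frame X) (hd : q.d = X.deg) :
    ∃ C : OneChart X, ∀ {A : Type u} [CommRing A] [Algebra k A] (L : LB X A),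
      C.Good L ↔ L.Good q := by
  exact exists_oneChart_of q hd fun φ L L' hb hg => LB.good_open q φ L L' hb hg

/-- isomorphic bundles: `Tw` determines the bundle up to isomorphism -/
theorem ClPkg.iso_of_cl_eq (T : ClPkg X) {A : Type u} [CommRing A] [Algebra k A] {N N' : LB X A}
    (h : T.cl N = T.cl N') : LB.BC (AlgHom.id k A) N N' := by
  rw [← T.map_cl, (T.map_cl _ N N).2 (LB.Iso.refl N), h]

/-- the covering lemma for the charts, from the covering lemma for bundles without cohomology -/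
theorem exists_cover_charts [IsAlgClosed k] (T : ClPkg X)
    (hcov : ∃ (I : Type u) (_ : Finite I) (𝒩 : I → LB X k),
      ∀ {K : Type u} [Field K] [IsAlgClosed K] [Algebra k K] (L L' : LB X K),
        L.chi = 1 - (X.genus : ℤ) → L'.chi = 1 - (X.genus : ℤ) →
        ∃ i, (∀ N, T.Tw (𝒩 i) L N → IsCompl N.A0 N.Ai) ∧
          ∀ N, T.Tw (𝒩 i) L' N → IsCompl N.A0 N.Ai) :
    ∃ (I : Type u) (_ : Finite I) (𝒩 : I → LB X k) (q : I → OneChart X),
      ∀ {K : Type u} [Field K] [IsAlgClosed K] [Algebra k K] (L L' : LB X K),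
        L.chi = 1 - (X.genus : ℤ) → L'.chi = 1 - (X.genus : ℤ) →
        ∃ i, (∀ N, T.Tw (𝒩 i) L N → (q i).Good N) ∧ ∀ N, T.Tw (𝒩 i) L' N → (q i).Good N := by
  have : Infinite k := IsAlgClosed.instInfinite
  obtain ⟨I, hI, 𝒩, hcov⟩ := hcov
  obtain ⟨J, hJ, q, hd, hq⟩ := exists_good_pair X.basis0 X.basis0_apply
  have hC : ∀ j : J, ∃ C : OneChart X, ∀ {A : Type u} [CommRing A] [Algebra k A] (L : LB X A),
      C.Good L ↔ L.Good (q j) := fun j => exists_oneChart (q j) (hd j)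
  choose C hC using hC
  refine ⟨I × ULift.{u} J, inferInstance, fun i => 𝒩 i.1, fun i => C i.2.down, ?_⟩
  intro K _ _ _ L L' hL hL'
  obtain ⟨i, h1, h2⟩ := hcov L L' hL hL'
  obtain ⟨N, hN⟩ : ∃ N, T.Tw (𝒩 i) L N := ClPkg.exists_tw _
  obtain ⟨N', hN'⟩ : ∃ N, T.Tw (𝒩 i) L' N := ClPkg.exists_tw _
  obtain ⟨j, hj, hj'⟩ := hq K N N' (h1 N hN) (h2 N' hN')
  refine ⟨(i, ⟨j⟩), fun N₁ hN₁ => ?_, fun N₁ hN₁ => ?_⟩
  · rw [hC]
    exact hj.bc (T.iso_of_cl_eq (hN.trans hN₁.symm))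
  · rw [hC]
    exact hj'.bc (T.iso_of_cl_eq (hN'.trans hN₁.symm))

end Fermat.Agent.Jac
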