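import Mathlib

/-!
# Lattice pairs without cohomology

`A` a commutative ring, `Λ = A[T;T⁻¹]`, `M` a `Λ`-module with two `A`-submodules `N0` (stable by `T`)
and `Ni` (stable by `T⁻¹`).  If `M = N0 ⊕ Ni` then, with `V = N0 ∩ T Ni`, `N0 = V[T]`,
`Ni = T⁻¹ V[T⁻¹]` and `M = V[T, T⁻¹]`.
-/

set_option autoImplicit false

namespace Fermat.Agent.Jac

open LaurentPolynomial Submodule

variable {A M : Type*} [CommRing A] [AddCommGroup M] [Module A M] [Module A[T;T⁻¹] M]
  [IsScalarTower A A[T;T⁻¹] M]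

theorem coeff_C_mul_T {A : Type*} [CommRing A] (a : A) (n m : ℤ) :
    (C a * T n : A[T;T⁻¹]).coeff m = if n = m then a else 0 := by
  rw [← single_eq_C_mul_T, AddMonoidAlgebra.coeff_single, Finsupp.single_apply]

theorem lp_eq_sum {A : Type*} [CommRing A] (f : A[T;T⁻¹]) (S : Finset ℤ)
    (hS : f.coeff.support ⊆ S) : f = ∑ n ∈ S, C (f.coeff n) * T n := by
  ext m
  rw [AddMonoidAlgebra.coeff_sum, Finsupp.finset_sum_apply]
  simp only [coeff_C_mul_T]
  rw [Finset.sum_ite_eq']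
  split_ifs with h
  · rfl
  · by_contra h0
    exact h (hS (Finsupp.mem_support_iff.mpr h0))

/-- the hypotheses `H⁰ = H¹ = 0` for a pair of lattices. -/
structure Split (N0 Ni : Submodule A M) : Prop where
  st0 : ∀ m ∈ N0, (T 1 : A[T;T⁻¹]) • m ∈ N0
  sti : ∀ m ∈ Ni, (T (-1) : A[T;T⁻¹]) • m ∈ Ni
  ex0 : ∀ m : M, ∃ n : ℕ, (T n : A[T;T⁻¹]) • m ∈ N0
  exi : ∀ m : M, ∃ n : ℕ, (T (-n) : A[T;T⁻¹]) • m ∈ Ni
  compl : IsCompl N0 Ni

/-- `V = N0 ∩ T Ni`. -/
def secV (N0 Ni : Submodule A M) : Submodule A M where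
  carrier := {m | m ∈ N0 ∧ (T (-1) : A[T;T⁻¹]) • m ∈ Ni}
  zero_mem' := by simp
  add_mem' := fun {a b} ha hb => ⟨N0.add_mem ha.1 hb.1, by rw [smul_add]; exact Ni.add_mem ha.2 hb.2⟩
  smul_mem' := fun c m hm => ⟨N0.smul_mem c hm.1, by
    rw [smul_comm]; exact Ni.smul_mem c hm.2⟩

theorem mem_secV {N0 Ni : Submodule A M} {m : M} :
    m ∈ secV N0 Ni ↔ m ∈ N0 ∧ (T (-1) : A[T;T⁻¹]) • m ∈ Ni := Iff.rfl

omit [Module A M] [IsScalarTower A A[T;T⁻¹] M] in
theorem T_smul_T_smul (m n : ℤ) (v : M) :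
    (T m : A[T;T⁻¹]) • (T n : A[T;T⁻¹]) • v = (T (m + n) : A[T;T⁻¹]) • v := by
  rw [smul_smul, T_add]

namespace Split

variable {N0 Ni : Submodule A M} (h : Split N0 Ni)
include h

theorem st0_nat (n : ℕ) {m : M} (hm : m ∈ N0) : (T n : A[T;T⁻¹]) • m ∈ N0 := by
  induction n with
  | zero => simpa using hm
  | succ n ih =>
    have := h.st0 _ ih
    rw [T_smul_T_smul] at this
    convert this using 2
    push_cast
    ring_nf

theorem sti_nat (n : ℕ) {m : M} (hm : m ∈ Ni) : (T (-n) : A[T;T⁻¹]) • m ∈ Ni := by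
  induction n with
  | zero => simpa using hm
  | succ n ih =>
    have := h.sti _ ih
    rw [T_smul_T_smul] at this
    convert this using 2
    push_cast
    ring_nf

theorem st0_int {n : ℤ} (hn : 0 ≤ n) {m : M} (hm : m ∈ N0) : (T n : A[T;T⁻¹]) • m ∈ N0 := by
  lift n to ℕ using hn
  exact h.st0_nat n hm

theorem sti_int {n : ℤ} (hn : n ≤ 0) {m : M} (hm : m ∈ Ni) : (T n : A[T;T⁻¹]) • m ∈ Ni := by
  obtain ⟨k, rfl⟩ : ∃ k : ℕ, n = -k := ⟨n.natAbs, by omega⟩
  exact h.sti_nat k hm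

theorem eq_zero_of_mem {m : M} (h0 : m ∈ N0) (hi : m ∈ Ni) : m = 0 := by
  have := h.compl.disjoint
  rw [Submodule.disjoint_def] at this
  exact this m h0 hi

theorem exists_add (m : M) : ∃ a ∈ N0, ∃ b ∈ Ni, m = a + b := by
  have : m ∈ N0 ⊔ Ni := by rw [h.compl.sup_eq_top]; trivial
  obtain ⟨a, ha, b, hb, hab⟩ := Submodule.mem_sup.mp this
  exact ⟨a, ha, b, hb, hab.symm⟩

/-- elements of `N0 ∩ Tⁿ Ni` are `Σ_{i<n} Tⁱ vᵢ`. -/
theorem exists_sum (n : ℕ) : ∀ {m : M}, m ∈ N0 → (T (-n) : A[T;T⁻¹]) • m ∈ Ni →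
    ∃ v : ℕ → secV N0 Ni, m = ∑ i ∈ Finset.range n, (T i : A[T;T⁻¹]) • (v i : M) := by
  induction n with
  | zero =>
    intro m h0 hi
    refine ⟨fun _ => 0, ?_⟩
    simp only [CharP.cast_eq_zero, neg_zero, T_zero, one_smul] at hi
    simpa using h.eq_zero_of_mem h0 hi
  | succ n ih =>
    intro m h0 hi
    obtain ⟨a, ha, b, hb, hab⟩ := h.exists_add ((T (-1) : A[T;T⁻¹]) • m)
    have hm : m = (T 1 : A[T;T⁻¹]) • a + (T 1 : A[T;T⁻¹]) • b := by
      rw [← smul_add, ← hab, T_smul_T_smul]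
      simp
    have hv : (T 1 : A[T;T⁻¹]) • b ∈ secV N0 Ni := by
      refine ⟨?_, ?_⟩
      · have : (T 1 : A[T;T⁻¹]) • b = m - (T 1 : A[T;T⁻¹]) • a := by rw [hm]; abel
        rw [this]
        exact N0.sub_mem h0 (h.st0 _ ha)
      · rw [T_smul_T_smul]
        simpa using hb
    have ha' : (T (-n) : A[T;T⁻¹]) • a ∈ Ni := by
      have : a = (T (-1) : A[T;T⁻¹]) • m - b := by rw [hab]; abel
      rw [this, smul_sub, T_smul_T_smul]
      refine Ni.sub_mem ?_ (h.sti_nat n hb)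
      convert hi using 2
      push_cast
      ring_nf
    obtain ⟨v, hv'⟩ := ih ha ha'
    refine ⟨fun i => if i = 0 then ⟨_, hv⟩ else v (i - 1), ?_⟩
    rw [Finset.sum_range_succ']
    simp only [Nat.add_eq_zero_iff, one_ne_zero, and_false, if_false, Nat.add_sub_cancel, if_true,
      CharP.cast_eq_zero, T_zero, one_smul]
    conv_lhs => rw [hm, hv']
    rw [Finset.smul_sum]
    congr 1
    refine Finset.sum_congr rfl fun i _ => ?_
    rw [T_smul_T_smul]
    congr 2
    push_cast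
    ring

theorem span_secV : Submodule.span A[T;T⁻¹] (secV N0 Ni : Set M) = ⊤ := by
  rw [eq_top_iff]
  rintro m -
  obtain ⟨n, hn⟩ := h.ex0 m
  obtain ⟨k, hk⟩ := h.exi ((T n : A[T;T⁻¹]) • m)
  obtain ⟨v, hv⟩ := h.exists_sum k hn hk
  have : m = (T (-n) : A[T;T⁻¹]) • ((T n : A[T;T⁻¹]) • m) := by
    rw [T_smul_T_smul]; simp
  rw [this, hv]
  refine Submodule.smul_mem _ _ (Submodule.sum_mem _ fun i _ => Submodule.smul_mem _ _ ?_)
  exact Submodule.subset_span (v i).2

/-- uniqueness of the expansion. -/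
theorem finsupp_eq_zero (g : ℤ →₀ secV N0 Ni)
    (hg : ∑ n ∈ g.support, (T n : A[T;T⁻¹]) • ((g n : secV N0 Ni) : M) = 0) : g = 0 := by
  classical
  by_contra hne
  have hs : g.support.Nonempty := Finsupp.support_nonempty_iff.mpr hne
  set n₀ := g.support.min' hs with hn₀
  have hmem : n₀ ∈ g.support := Finset.min'_mem _ hs
  have h1 : (T (-n₀) : A[T;T⁻¹]) • ∑ n ∈ g.support, (T n : A[T;T⁻¹]) • ((g n : secV N0 Ni) : M) = 0 := by
    rw [hg, smul_zero]
  rw [Finset.smul_sum, ← Finset.add_sum_erase _ _ hmem, T_smul_T_smul, neg_add_cancel, T_zero,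
    one_smul] at h1
  have h2 : ((g n₀ : secV N0 Ni) : M) = 0 := by
    have hN : (T (-1) : A[T;T⁻¹]) • ((g n₀ : secV N0 Ni) : M) ∈ N0 := by
      have h3 : ((g n₀ : secV N0 Ni) : M) = - ∑ n ∈ g.support.erase n₀,
          (T (-n₀) : A[T;T⁻¹]) • (T n : A[T;T⁻¹]) • ((g n : secV N0 Ni) : M) :=
        eq_neg_of_add_eq_zero_left h1
      rw [h3, smul_neg, Finset.smul_sum]
      refine N0.neg_mem (N0.sum_mem fun n hn => ?_)
      rw [T_smul_T_smul, T_smul_T_smul]
      have hlt : n₀ < n := by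
        rw [Finset.mem_erase] at hn
        exact lt_of_le_of_ne (Finset.min'_le _ _ hn.2) (Ne.symm hn.1)
      exact h.st0_int (by omega) (g n).2.1
    have h4 := h.eq_zero_of_mem hN (g n₀).2.2
    have h5 : ((g n₀ : secV N0 Ni) : M) =
        (T 1 : A[T;T⁻¹]) • ((T (-1) : A[T;T⁻¹]) • ((g n₀ : secV N0 Ni) : M)) := by
      rw [T_smul_T_smul]; simp
    rw [h5, h4, smul_zero]
  rw [Finsupp.mem_support_iff] at hmem
  exact hmem (Subtype.ext h2)

end Split

section basis

variable {N0 Ni : Submodule A M} (h : Split N0 Ni) {ι : Type*} [Finite ι]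
  (e : Module.Basis ι A (secV N0 Ni))
include h

theorem Split.linearIndependent : LinearIndependent A[T;T⁻¹] (fun i => ((e i : secV N0 Ni) : M)) := by
  classical
  haveI := Fintype.ofFinite ι
  rw [Fintype.linearIndependent_iff]
  intro f hf
  have key : ∀ n : ℤ, ∑ i, ((f i).coeff n) • e i = 0 := by
    -- the finsupp of the coefficients
    let S : Finset ℤ := Finset.univ.biUnion fun i => (f i).coeff.support
    let g : ℤ →₀ secV N0 Ni := Finsupp.onFinset S (fun n => ∑ i, ((f i).coeff n) • e i) (by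
      intro n hn
      by_contra hS
      apply hn
      refine Finset.sum_eq_zero fun i _ => ?_
      have : (f i).coeff n = 0 := by
        by_contra h0
        exact hS (Finset.mem_biUnion.mpr ⟨i, Finset.mem_univ _, Finsupp.mem_support_iff.mpr h0⟩)
      rw [this, zero_smul])
    have hg : g = 0 := by
      apply h.finsupp_eq_zero
      have h1 : ∑ n ∈ g.support, (T n : A[T;T⁻¹]) • ((g n : secV N0 Ni) : M) =
          ∑ n ∈ S, (T n : A[T;T⁻¹]) • ((g n : secV N0 Ni) : M) := by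
        refine Finset.sum_subset Finsupp.support_onFinset_subset fun n _ hn => ?_
        rw [Finsupp.notMem_support_iff.mp hn]
        simp
      rw [h1]
      have h2 : ∀ i, f i • ((e i : secV N0 Ni) : M) =
          ∑ n ∈ S, (T n : A[T;T⁻¹]) • (((f i).coeff n) • ((e i : secV N0 Ni) : M)) := by
        intro i
        have h3 : f i = ∑ n ∈ S, C ((f i).coeff n) * T n :=
          lp_eq_sum (f i) S (Finset.subset_biUnion_of_mem (fun i => (f i).coeff.support)
            (Finset.mem_univ i))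
        conv_lhs => rw [h3, Finset.sum_smul]
        refine Finset.sum_congr rfl fun n _ => ?_
        rw [mul_comm, mul_smul]
        congr 1
        rw [← algebraMap_smul A[T;T⁻¹] ((f i).coeff n) ((e i : secV N0 Ni) : M)]
        rfl
      rw [← hf, Finset.sum_congr rfl (fun i _ => h2 i), Finset.sum_comm]
      refine Finset.sum_congr rfl fun n _ => ?_
      rw [← Finset.smul_sum]
      congr 1
      simp [g, Finsupp.onFinset_apply]
    intro n
    have := DFunLike.congr_fun hg n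
    simpa [g, Finsupp.onFinset_apply] using this
  intro i
  ext n
  have := (Fintype.linearIndependent_iff.mp e.linearIndependent) (fun i => (f i).coeff n) (key n) i
  simpa using this

omit [Finite ι] in
theorem Split.span_eq_top : ⊤ ≤ Submodule.span A[T;T⁻¹] (Set.range fun i => ((e i : secV N0 Ni) : M)) := by
  rw [← h.span_secV]
  rw [Submodule.span_le]
  intro m hm
  have h1 : (⟨m, hm⟩ : secV N0 Ni) ∈ Submodule.span A (Set.range e) := by
    rw [e.span_eq]; trivial
  have h2 : m ∈ (Submodule.span A (Set.range e)).map (secV N0 Ni).subtype := ⟨_, h1, rfl⟩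
  rw [Submodule.map_span] at h2
  have h3 : Submodule.span A ((secV N0 Ni).subtype '' Set.range e) ≤
      (Submodule.span A[T;T⁻¹] (Set.range fun i => ((e i : secV N0 Ni) : M))).restrictScalars A := by
    rw [Submodule.span_le]
    rintro _ ⟨_, ⟨i, rfl⟩, rfl⟩
    exact Submodule.subset_span ⟨i, rfl⟩
  exact h3 h2

/-- the `Λ`-basis of `M` given by an `A`-basis of `V`. -/
noncomputable def Split.basis : Module.Basis ι A[T;T⁻¹] M :=
  Module.Basis.mk (h.linearIndependent e) (h.span_eq_top e)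

@[simp] theorem Split.basis_apply (i : ι) : h.basis e i = ((e i : secV N0 Ni) : M) := by
  rw [Split.basis, Module.Basis.mk_apply]

end basis

end Fermat.Agent.Jac
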