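import Fermat.Agent.Jac.ChVec

/-!
# The good bundle given by a matrix representation
-/

universe u

set_option autoImplicit false

open TensorProduct LaurentPolynomial

namespace Fermat.Agent.Jac

variable {k : Type u} [Field k] {X : CurveData k} {A : Type u} [CommRing A] [Algebra k A] {d : ℕ}

namespace Vec

variable {ρ : X.B →ₐ[k] Matrix (Fin d) (Fin d) A[T;T⁻¹]}

/-- truncation -/
noncomputable def trunc (p : ℤ → Prop) [DecidablePred p] (m : Vec ρ) : Vec ρ :=
  fun i => AddMonoidAlgebra.ofCoeff (((m : Fin d → A[T;T⁻¹]) i).coeff.filter p)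

theorem cf_trunc (p : ℤ → Prop) [DecidablePred p] (m : Vec ρ) (i : Fin d) (n : ℤ) :
    cf (trunc p m) i n = if p n then cf m i n else 0 :=
  Finsupp.filter_apply _ _ _

end Vec

open Vec

section

variable {ρ : X.B →ₐ[k] Matrix (Fin d) (Fin d) A[T;T⁻¹]}
  (hx : ρ X.x = Matrix.scalar (Fin d) (T 1))
  {N : LB X A} (ψ : N.M ≃+ Vec ρ) (h1 : ∀ (r : X.R A) (m : N.M), ψ (r • m) = r • ψ m)
  (h2 : ∀ m, m ∈ N.M0 ↔ ∀ i n, n < 0 → Vec.cf (ψ m) i n = 0)
  (h3 : ∀ m, m ∈ N.Mi ↔ ∀ i n, -1 < n → Vec.cf (ψ m) i n = 0)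

include h1 in
theorem psi_smulA (a : A) (m : N.M) : ψ (a • m) = a • ψ m := by
  rw [N.smulA, h1, algebraMap_smul]

include h1 in
theorem psi_smulL (f : A[T;T⁻¹]) (m : N.M) : ψ (f • m) = X.lam A f • ψ m := by
  rw [LB.smul_lam, h1]

include h1 hx in
theorem psi_T (s : ℤ) (m : N.M) (i : Fin d) (n : ℤ) :
    cf (ψ ((T s : A[T;T⁻¹]) • m)) i n = cf (ψ m) i (n - s) := by
  rw [psi_smulL ψ h1, cf_T hx]

include h2 in
theorem psi_mem0 {m : N.M} : m ∈ N.A0 ↔ ∀ i n, n < 0 → Vec.cf (ψ m) i n = 0 := h2 m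

include h3 in
theorem psi_memi {m : N.M} : m ∈ N.Ai ↔ ∀ i n, -1 < n → Vec.cf (ψ m) i n = 0 := h3 m

include h2 h3 in
theorem psi_isCompl : IsCompl N.A0 N.Ai := by
  constructor
  · rw [Submodule.disjoint_def]
    intro m hm0 hmi
    rw [psi_mem0 ψ h2] at hm0
    rw [psi_memi ψ h3] at hmi
    apply ψ.injective
    rw [map_zero]
    refine Vec.ext' fun i n => ?_
    rw [cf_zero]
    by_cases hn : n < 0
    · exact hm0 i n hn
    · exact hmi i n (by omega)
  · rw [codisjoint_iff, eq_top_iff]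
    rintro m -
    have h : m = ψ.symm (trunc (fun n => 0 ≤ n) (ψ m)) + ψ.symm (trunc (fun n => n < 0) (ψ m)) := by
      apply ψ.injective
      rw [map_add, AddEquiv.apply_symm_apply, AddEquiv.apply_symm_apply]
      refine Vec.ext' fun i n => ?_
      rw [cf_add, cf_trunc, cf_trunc]
      by_cases hn : n < 0
      · rw [if_neg (by omega), if_pos hn, zero_add]
      · rw [if_pos (by omega), if_neg hn, add_zero]
    rw [h]
    refine Submodule.add_mem_sup ?_ ?_
    · rw [psi_mem0 ψ h2]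
      intro i n hn
      rw [AddEquiv.apply_symm_apply, cf_trunc, if_neg (by omega)]
    · rw [psi_memi ψ h3]
      intro i n hn
      rw [AddEquiv.apply_symm_apply, cf_trunc, if_neg (by omega)]

include h2 h3 in
theorem psi_proj0 (hc : IsCompl N.A0 N.Ai) (m : N.M) :
    ψ (N.A0.projection N.Ai hc m) = trunc (fun n => 0 ≤ n) (ψ m) := by
  have h : m = ψ.symm (trunc (fun n => 0 ≤ n) (ψ m)) + ψ.symm (trunc (fun n => n < 0) (ψ m)) := by
    apply ψ.injective
    rw [map_add, AddEquiv.apply_symm_apply, AddEquiv.apply_symm_apply]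
    refine Vec.ext' fun i n => ?_
    rw [cf_add, cf_trunc, cf_trunc]
    by_cases hn : n < 0
    · rw [if_neg (by omega), if_pos hn, zero_add]
    · rw [if_pos (by omega), if_neg hn, add_zero]
  conv_lhs => rw [h]
  rw [map_add, N.A0.projection_apply_of_mem_left hc, (N.A0.projection_apply_eq_zero_iff hc).2,
    add_zero, AddEquiv.apply_symm_apply]
  · rw [psi_memi ψ h3]
    intro i n hn
    rw [AddEquiv.apply_symm_apply, cf_trunc, if_neg (by omega)]
  · rw [psi_mem0 ψ h2]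
    intro i n hn
    rw [AddEquiv.apply_symm_apply, cf_trunc, if_neg (by omega)]

include h2 h3 in
theorem psi_proji (hc : IsCompl N.Ai N.A0) (m : N.M) :
    ψ (N.Ai.projection N.A0 hc m) = trunc (fun n => n < 0) (ψ m) := by
  have h : m = ψ.symm (trunc (fun n => n < 0) (ψ m)) + ψ.symm (trunc (fun n => 0 ≤ n) (ψ m)) := by
    apply ψ.injective
    rw [map_add, AddEquiv.apply_symm_apply, AddEquiv.apply_symm_apply]
    refine Vec.ext' fun i n => ?_
    rw [cf_add, cf_trunc, cf_trunc]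
    by_cases hn : n < 0
    · rw [if_pos hn, if_neg (by omega), add_zero]
    · rw [if_neg hn, if_pos (by omega), zero_add]
  conv_lhs => rw [h]
  rw [map_add, N.Ai.projection_apply_of_mem_left hc, (N.Ai.projection_apply_eq_zero_iff hc).2,
    add_zero, AddEquiv.apply_symm_apply]
  · rw [psi_mem0 ψ h2]
    intro i n hn
    rw [AddEquiv.apply_symm_apply, cf_trunc, if_neg (by omega)]
  · rw [psi_memi ψ h3]
    intro i n hn
    rw [AddEquiv.apply_symm_apply, cf_trunc, if_neg (by omega)]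

include hx h1 h2 h3 in
theorem psi_cfV (hs : Split N.A0 N.Ai) (m : N.M) (i : Fin d) (n : ℤ) :
    cf (ψ (hs.cfV m : N.M)) i n = if n = 0 then cf (ψ m) i 0 else 0 := by
  rw [Split.coe_cfV, psi_T hx ψ h1, psi_proji ψ h2 h3, cf_trunc, psi_T hx ψ h1,
    psi_proj0 ψ h2 h3, cf_trunc]
  by_cases hn : n = 0
  · subst hn
    simp
  · rw [if_neg hn]
    by_cases h : n - 1 < 0
    · rw [if_pos h, if_neg (by omega)]
    · rw [if_neg h]

include hx h1 h3 in
theorem psi_mem_twT {m : N.M} : m ∈ twT N.Ai ↔ ∀ i n, 0 < n → cf (ψ m) i n = 0 := by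
  rw [mem_twT, psi_memi ψ h3]
  constructor
  · intro h i n hn
    have := h i (n - 1) (by omega)
    rwa [psi_T hx ψ h1, show n - 1 - -1 = n by ring] at this
  · intro h i n hn
    rw [psi_T hx ψ h1]
    exact h i _ (by omega)

include hx h1 h2 h3 in
theorem psi_mem_secV {m : N.M} : m ∈ secV N.A0 N.Ai ↔ ∀ i n, n ≠ 0 → cf (ψ m) i n = 0 := by
  rw [mem_secV_iff, psi_mem_twT hx ψ h1 h3, psi_mem0 ψ h2]
  constructor
  · rintro ⟨h, h'⟩ i n hn
    rcases lt_or_gt_of_ne hn with hn | hn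
    · exact h i n hn
    · exact h' i n hn
  · intro h
    exact ⟨fun i n hn => h i n hn.ne, fun i n hn => h i n hn.ne'⟩

/-- the coordinates on `V` -/
noncomputable def psiEquiv (hx : ρ X.x = Matrix.scalar (Fin d) (T 1))
    (h1 : ∀ (r : X.R A) (m : N.M), ψ (r • m) = r • ψ m)
    (h2 : ∀ m, m ∈ N.M0 ↔ ∀ i n, n < 0 → Vec.cf (ψ m) i n = 0)
    (h3 : ∀ m, m ∈ N.Mi ↔ ∀ i n, -1 < n → Vec.cf (ψ m) i n = 0) :
    secV N.A0 N.Ai ≃ₗ[A] (Fin d → A) where
  toFun m i := cf (ψ (m : N.M)) i 0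
  map_add' m m' := by
    funext i
    rw [Submodule.coe_add, map_add, cf_add]
    rfl
  map_smul' a m := by
    funext i
    rw [Submodule.coe_smul, psi_smulA ψ h1, cf_smul]
    rfl
  invFun a := ⟨ψ.symm (∑ i, a i • vec ρ i 0), by
    rw [psi_mem_secV hx ψ h1 h2 h3]
    intro i n hn
    rw [AddEquiv.apply_symm_apply, cf_sum]
    refine Finset.sum_eq_zero fun j _ => ?_
    rw [cf_smul, cf_vec, if_neg (fun h => hn h.2.symm), mul_zero]⟩
  left_inv m := by
    apply Subtype.ext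
    apply ψ.injective
    simp only [AddEquiv.apply_symm_apply]
    refine Vec.ext' fun i n => ?_
    rw [cf_sum]
    by_cases hn : n = 0
    · subst hn
      rw [Finset.sum_eq_single i]
      · rw [cf_smul, cf_vec, if_pos ⟨rfl, rfl⟩, mul_one]
      · intro j _ hj
        rw [cf_smul, cf_vec, if_neg (fun h => hj h.1), mul_zero]
      · exact fun h => (h (Finset.mem_univ _)).elim
    · rw [(psi_mem_secV hx ψ h1 h2 h3).1 m.2 i n hn]
      refine Finset.sum_eq_zero fun j _ => ?_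
      rw [cf_smul, cf_vec, if_neg (fun h => hn h.2.symm), mul_zero]
  right_inv a := by
    funext i
    simp only [AddEquiv.apply_symm_apply]
    rw [cf_sum, Finset.sum_eq_single i]
    · rw [cf_smul, cf_vec, if_pos ⟨rfl, rfl⟩, mul_one]
    · intro j _ hj
      rw [cf_smul, cf_vec, if_neg (fun h => hj h.1), mul_zero]
    · exact fun h => (h (Finset.mem_univ _)).elim

/-- the basis of `V` -/
noncomputable def psiBasis (hx : ρ X.x = Matrix.scalar (Fin d) (T 1))
    (h1 : ∀ (r : X.R A) (m : N.M), ψ (r • m) = r • ψ m)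
    (h2 : ∀ m, m ∈ N.M0 ↔ ∀ i n, n < 0 → Vec.cf (ψ m) i n = 0)
    (h3 : ∀ m, m ∈ N.Mi ↔ ∀ i n, -1 < n → Vec.cf (ψ m) i n = 0) :
    Module.Basis (Fin d) A (secV N.A0 N.Ai) :=
  Module.Basis.ofEquivFun (psiEquiv ψ hx h1 h2 h3)

theorem psi_basis (j : Fin d) : ψ (psiBasis ψ hx h1 h2 h3 j : N.M) = vec ρ j 0 := by
  rw [psiBasis, Module.Basis.coe_ofEquivFun]
  change ψ (ψ.symm _) = _
  rw [AddEquiv.apply_symm_apply, Finset.sum_eq_single j]
  · rw [Pi.single_eq_same, one_smul]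
  · intro i _ hi
    rw [Pi.single_eq_of_ne hi, zero_smul]
  · exact fun h => (h (Finset.mem_univ _)).elim

/-- the covector -/
noncomputable def psiU (h1 : ∀ (r : X.R A) (m : N.M), ψ (r • m) = r • ψ m) (u : Fin d → A) :
    twT N.Ai →ₗ[A] A where
  toFun m := ∑ i, u i * cf (ψ (m : N.M)) i 0
  map_add' m m' := by
    rw [← Finset.sum_add_distrib]
    refine Finset.sum_congr rfl fun i _ => ?_
    rw [Submodule.coe_add, map_add, cf_add, mul_add]
  map_smul' a m := by
    rw [RingHom.id_apply, smul_eq_mul, Finset.mul_sum]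
    refine Finset.sum_congr rfl fun i _ => ?_
    rw [Submodule.coe_smul, psi_smulA ψ h1, cf_smul]
    ring

theorem psiU_apply (u : Fin d → A) (m : twT N.Ai) :
    psiU ψ h1 u m = ∑ i, u i * cf (ψ (m : N.M)) i 0 := rfl

end

section final

variable (q : Frame X) {ρ : X.B →ₐ[k] Matrix (Fin q.d) (Fin q.d) A[T;T⁻¹]} {u : Fin q.d → A}
  (h : IsRho q ρ u) {N : LB X A} (ψ : N.M ≃+ Vec ρ)
  (h1 : ∀ (r : X.R A) (m : N.M), ψ (r • m) = r • ψ m)
  (h2 : ∀ m, m ∈ N.M0 ↔ ∀ i n, n < 0 → Vec.cf (ψ m) i n = 0)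
  (h3 : ∀ m, m ∈ N.Mi ↔ ∀ i n, -1 < n → Vec.cf (ψ m) i n = 0)

include h1 in
theorem psi_act (b : X.B) (m : N.M) (i : Fin q.d) (n : ℤ) :
    cf (ψ (N.act b m)) i n = ∑ l, (ρ b i l * (ψ m : Fin q.d → A[T;T⁻¹]) l).coeff n := by
  rw [LB.act_apply, h1, cf_tmul]

include h1 in
theorem psi_act_basis (b : X.B) {m : N.M} {l : Fin q.d} (hm : ψ m = vec ρ l 0) (i : Fin q.d)
    (n : ℤ) : cf (ψ (N.act b m)) i n = (ρ b i l).coeff n := by
  rw [psi_act q ψ h1, hm, Finset.sum_eq_single l]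
  · have : ∀ v : A[T;T⁻¹], v = (vec ρ l 0 : Fin q.d → A[T;T⁻¹]) l → (ρ b i l * v).coeff n =
        (ρ b i l).coeff n := by
      rintro _ rfl
      rw [vec, Pi.single_eq_same, T_zero, mul_one]
    exact this _ rfl
  · intro j _ hj
    have : ∀ v : A[T;T⁻¹], v = (vec ρ l 0 : Fin q.d → A[T;T⁻¹]) j → (ρ b i j * v).coeff n = 0 := by
      rintro _ rfl
      rw [vec, Pi.single_eq_of_ne hj, mul_zero]
      rfl
    exact this _ rfl
  · exact fun h => (h (Finset.mem_univ _)).elim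

include h h1 h2 h3 in
/-- the good bundle of `(ρ, u)` -/
theorem hasRho_of_psi : ∃ (hs : Split N.A0 N.Ai) (w : twT N.Ai →ₗ[A] A)
    (e : Module.Basis (Fin q.d) A (secV N.A0 N.Ai)), N.HasRho q ρ u hs w e := by
  have hs := N.split (psi_isCompl ψ h2 h3)
  have hx := h.map_x
  let w := psiU ψ h1 u
  let e := psiBasis ψ hx h1 h2 h3
  have he : ∀ j, ψ (e j : N.M) = vec ρ j 0 := psi_basis hx ψ h1 h2 h3
  have hco : ∀ l, hs.coords N.act q.b q.n q.t w (e l) = Pi.single l 1 := by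
    intro l
    funext i
    rw [Split.coords_apply]
    have hf := h.frame i l
    rw [Pi.single_apply, ← hf]
    refine Finset.sum_congr rfl fun j _ => ?_
    congr 1
    rw [Split.coords0_apply, psiU_apply]
    refine Finset.sum_congr rfl fun r _ => ?_
    rw [Submodule.coe_inclusion, psi_cfV hx ψ h1 h2 h3, if_pos rfl, psi_T hx ψ h1,
      psi_act_basis q ψ h1 _ (he l), zero_sub, neg_neg]
  refine ⟨hs, w, e, ⟨?_, ?_, ?_⟩, hco, ?_, ?_⟩
  · -- eigen
    intro β m m' hm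
    have hmT := (psi_mem_twT hx ψ h1 h3).1 m.2
    rw [psiU_apply, psiU_apply, hm]
    have e1 : ∀ i, cf (ψ (N.act β (m : N.M))) i 0 =
        ∑ l, (ρ β i l).coeff 0 * cf (ψ (m : N.M)) l 0 := by
      intro i
      rw [psi_act q ψ h1]
      refine Finset.sum_congr rfl fun l _ => ?_
      have := coeff_mul_top (f := ρ β i l) (g := (ψ (m : N.M) : Fin q.d → A[T;T⁻¹]) l) (a := 0)
        (b := 0) (fun n hn => h.memi β β.2 i l n hn) (fun n hn => hmT l n hn)
      rw [add_zero] at this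
      exact this
    simp_rw [e1, Finset.mul_sum]
    rw [Finset.sum_comm]
    refine Finset.sum_congr rfl fun l _ => ?_
    rw [← mul_assoc, ← h.eigen β l, Finset.sum_mul]
    refine Finset.sum_congr rfl fun i _ => ?_
    ring
  · -- surj
    intro a
    obtain ⟨c, hc⟩ := h.surj
    let m : N.M := ψ.symm (∑ i, (a * c i) • vec ρ i 0)
    have hm : ψ m = ∑ i, (a * c i) • vec ρ i 0 := ψ.apply_symm_apply _
    have hcf : ∀ i n, cf (ψ m) i n = if n = 0 then a * c i else 0 := by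
      intro i n
      rw [hm, cf_sum]
      by_cases hn : n = 0
      · subst hn
        rw [if_pos rfl, Finset.sum_eq_single i]
        · rw [cf_smul, cf_vec, if_pos ⟨rfl, rfl⟩, mul_one]
        · intro j _ hj
          rw [cf_smul, cf_vec, if_neg (fun h => hj h.1), mul_zero]
        · exact fun h => (h (Finset.mem_univ _)).elim
      · rw [if_neg hn]
        refine Finset.sum_eq_zero fun j _ => ?_
        rw [cf_smul, cf_vec, if_neg (fun h => hn h.2.symm), mul_zero]
    refine ⟨⟨m, (psi_mem_twT hx ψ h1 h3).2 fun i n hn => ?_⟩, ?_⟩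
    · rw [hcf, if_neg hn.ne']
    · rw [psiU_apply]
      simp_rw [hcf, if_true]
      calc ∑ i, u i * (a * c i) = a * ∑ i, u i * c i := by
            rw [Finset.mul_sum]
            exact Finset.sum_congr rfl fun i _ => by ring
        _ = a := by rw [hc, mul_one]
  · -- bij
    have hE : hs.coords N.act q.b q.n q.t w = (e.equivFun : _ →ₗ[A] _) := by
      refine e.ext fun l => ?_
      rw [hco l, LinearEquiv.coe_coe]
      funext i
      rw [Pi.single_apply, Module.Basis.equivFun_self]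
      simp [eq_comm]
    rw [hE]
    exact e.equivFun.bijective
  · -- act
    intro b l
    apply ψ.injective
    rw [map_sum]
    refine Vec.ext' fun i n => ?_
    rw [psi_act_basis q ψ h1 b (he l), cf_sum, Finset.sum_eq_single i]
    · rw [psi_smulL ψ h1, cf_lam hx, he i]
      have : ∀ v : A[T;T⁻¹], v = (vec ρ i 0 : Fin q.d → A[T;T⁻¹]) i → (ρ b i l * v).coeff n =
          (ρ b i l).coeff n := by
        rintro _ rfl
        rw [vec, Pi.single_eq_same, T_zero, mul_one]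
      exact (this _ rfl).symm
    · intro j _ hj
      rw [psi_smulL ψ h1, cf_lam hx, he j]
      have : ∀ v : A[T;T⁻¹], v = (vec ρ j 0 : Fin q.d → A[T;T⁻¹]) i → (ρ b j l * v).coeff n = 0 := by
        rintro _ rfl
        rw [vec, Pi.single_eq_of_ne (Ne.symm hj), mul_zero]
        rfl
      exact this _ rfl
    · exact fun h => (h (Finset.mem_univ _)).elim
  · -- val
    intro i
    rw [psiU_apply, Finset.sum_eq_single i]
    · rw [he i, cf_vec, if_pos ⟨rfl, rfl⟩, mul_one]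
    · intro j _ hj
      rw [he i, cf_vec, if_neg (fun h => hj h.1.symm), mul_zero]
    · exact fun h => (h (Finset.mem_univ _)).elim

end final

/-- **Block (β)**: every `(ρ, u)` over a ring of finite type comes from a good bundle. -/
theorem exists_lb [IsAlgClosed k] [Algebra.FiniteType k A] (q : Frame X)
    {w : Fin q.d → X.B0} (b0 : Module.Basis (Fin q.d × ℕ) k X.B0)
    (hb0 : ∀ j n, b0 (j, n) = ⟨X.x, X.x_mem⟩ ^ n * w j)
    {v : Fin q.d → X.Bi} (bi : Module.Basis (Fin q.d × ℕ) k X.Bi)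
    (hbi : ∀ j n, bi (j, n) = ⟨X.y, X.y_mem⟩ ^ n * v j)
    (ρ : X.B →ₐ[k] Matrix (Fin q.d) (Fin q.d) A[T;T⁻¹]) (u : Fin q.d → A) (h : IsRho q ρ u) :
    ∃ (N : LB X A) (hs : Split N.A0 N.Ai) (w : twT N.Ai →ₗ[A] A)
      (e : Module.Basis (Fin q.d) A (secV N.A0 N.Ai)), N.HasRho q ρ u hs w e := by
  obtain ⟨N, ψ, h1, h2, h3⟩ := exists_LB_of_rho h.map_x h.mem0 h.memi b0 hb0 bi hbi
  exact ⟨N, hasRho_of_psi q h ψ h1 h2 h3⟩

end Fermat.Agent.Jac
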