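import Fermat.Agent.Jac.Good

/-!
# The universal pair `(ρ, u)`

The functor of pairs `(ρ, u)` (see `IsRho`) is represented by a `k`-algebra of finite type.
-/

universe u

set_option autoImplicit false
set_option linter.style.haveILetI false

open TensorProduct LaurentPolynomial

namespace Fermat.Agent.Jac

namespace ChRep

variable {k : Type u} [Field k]

section MapM

variable {A A' : Type u} [CommRing A] [Algebra k A] [CommRing A'] [Algebra k A'] {d : ℕ}

/-- coefficientwise application of a homomorphism to a matrix of Laurent polynomials -/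
noncomputable def mapM (d : ℕ) (g : A →ₐ[k] A') :
    Matrix (Fin d) (Fin d) A[T;T⁻¹] →ₐ[k] Matrix (Fin d) (Fin d) A'[T;T⁻¹] :=
  (AddMonoidAlgebra.mapAlgHom ℤ g).mapMatrix

theorem coeff_mapM (g : A →ₐ[k] A') (M : Matrix (Fin d) (Fin d) A[T;T⁻¹]) (i l : Fin d) (n : ℤ) :
    (mapM d g M i l).coeff n = g ((M i l).coeff n) := by
  rw [mapM, AlgHom.mapMatrix_apply, Matrix.map_apply, AddMonoidAlgebra.coeff_mapAlgHom]

theorem matL_ext {M M' : Matrix (Fin d) (Fin d) A[T;T⁻¹]}
    (h : ∀ i l n, (M i l).coeff n = (M' i l).coeff n) : M = M' :=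
  Matrix.ext fun i l => LaurentPolynomial.ext (h i l)

theorem mapM_scalar (g : A →ₐ[k] A') (n : ℤ) :
    mapM d g (Matrix.scalar (Fin d) (T n)) = Matrix.scalar (Fin d) (T n) := by
  refine matL_ext fun i l m => ?_
  rw [coeff_mapM]
  by_cases h : i = l
  · subst h
    simp only [Matrix.scalar_apply, Matrix.diagonal_apply_eq, T_apply]
    split_ifs <;> simp
  · simp only [Matrix.scalar_apply, Matrix.diagonal_apply_ne _ h]
    simp

theorem coeff_T_mul (f : A[T;T⁻¹]) (n m : ℤ) : (T n * f).coeff m = f.coeff (m - n) := by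
  have h := AddMonoidAlgebra.coeff_single_mul_apply f (1 : A) n m
  rw [one_mul] at h
  rw [sub_eq_neg_add]
  exact h

theorem coeff_scalar_mul (M : Matrix (Fin d) (Fin d) A[T;T⁻¹]) (n m : ℤ) (i l : Fin d) :
    ((Matrix.scalar (Fin d) (T n : A[T;T⁻¹]) * M) i l).coeff m = (M i l).coeff (m - n) := by
  rw [Matrix.scalar_apply, Matrix.diagonal_mul, coeff_T_mul]

theorem scalar_T_pow (a : ℕ) (n : ℤ) :
    (Matrix.scalar (Fin d) (T n : A[T;T⁻¹])) ^ a = Matrix.scalar (Fin d) (T (a * n)) := by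
  rw [← map_pow, T_pow]

end MapM

variable {X : CurveData k} {q : Frame X} {A : Type u} [CommRing A] [Algebra k A]
  {ρ : X.B →ₐ[k] Matrix (Fin q.d) (Fin q.d) A[T;T⁻¹]} {w : Fin q.d → A}

theorem map_y (h : IsRho q ρ w) : ρ X.y = Matrix.scalar (Fin q.d) (T (-1)) := by
  have h1 : ρ X.x * ρ X.y = 1 := by rw [← map_mul, X.xy, map_one]
  have h2 : Matrix.scalar (Fin q.d) (T (-1) : A[T;T⁻¹]) * ρ X.x = 1 := by
    rw [h.map_x, ← map_mul, ← T_add, neg_add_cancel, T_zero, map_one]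
  calc ρ X.y = (Matrix.scalar (Fin q.d) (T (-1) : A[T;T⁻¹]) * ρ X.x) * ρ X.y := by
        rw [h2, one_mul]
    _ = _ := by rw [mul_assoc, h1, mul_one]

theorem coeff_x_pow_mul (h : IsRho q ρ w) (a : ℕ) (b : X.B) (i l : Fin q.d) (n : ℤ) :
    (ρ (X.x ^ a * b) i l).coeff n = (ρ b i l).coeff (n - a) := by
  rw [map_mul, map_pow, h.map_x, scalar_T_pow, coeff_scalar_mul, mul_one]

theorem coeff_y_pow_mul (h : IsRho q ρ w) (a : ℕ) (b : X.B) (i l : Fin q.d) (n : ℤ) :
    (ρ (X.y ^ a * b) i l).coeff n = (ρ b i l).coeff (n + a) := by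
  rw [map_mul, map_pow, map_y h, scalar_T_pow, coeff_scalar_mul]
  congr 1
  ring

/-- bounds for the degrees -/
noncomputable def lo (X : CurveData k) (b : X.B) : ℕ := (X.loc0 b).choose
noncomputable def hi (X : CurveData k) (b : X.B) : ℕ := (X.loci b).choose

theorem coeff_eq_zero (h : IsRho q ρ w) (b : X.B) (i l : Fin q.d) {n : ℤ}
    (hn : n ∉ Finset.Icc (-(lo X b : ℤ)) (hi X b)) : (ρ b i l).coeff n = 0 := by
  rw [Finset.mem_Icc, not_and_or] at hn
  rcases hn with hn | hn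
  · have h1 := h.mem0 _ (X.loc0 b).choose_spec i l (n + lo X b) (by omega)
    rw [coeff_x_pow_mul h] at h1
    rw [← h1]
    congr 1
    show n = n + lo X b - lo X b
    ring
  · have h1 := h.memi _ (X.loci b).choose_spec i l (n - hi X b) (by omega)
    rw [coeff_y_pow_mul h] at h1
    rw [← h1]
    congr 1
    show n = n - hi X b + hi X b
    ring

variable (q)

/-- a pair `(ρ, u)` over some algebra -/
structure Test where
  A : Type u
  [cr : CommRing A]
  [alg : Algebra k A]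
  ρ : X.B →ₐ[k] Matrix (Fin q.d) (Fin q.d) A[T;T⁻¹]
  w : Fin q.d → A
  h : IsRho q ρ w

attribute [instance] Test.cr Test.alg

/-- the symbols -/
abbrev Sym : Type u := (X.B × Fin q.d × Fin q.d × ℤ) ⊕ Fin q.d

variable {q}

/-- evaluation of the symbols -/
noncomputable def Test.ev (τ : Test q) : MvPolynomial (Sym q) k →ₐ[k] τ.A :=
  MvPolynomial.aeval (Sum.elim (fun s => (τ.ρ s.1 s.2.1 s.2.2.1).coeff s.2.2.2) τ.w)

variable (q)

/-- the relations -/
noncomputable def relI : Ideal (MvPolynomial (Sym q) k) := ⨅ τ : Test q, RingHom.ker τ.ev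

/-- the universal algebra -/
abbrev UR : Type u := MvPolynomial (Sym q) k ⧸ relI q

variable {q}

/-- the universal coefficients -/
noncomputable def cf (b : X.B) (i l : Fin q.d) (n : ℤ) : UR q :=
  Ideal.Quotient.mk (relI q) (MvPolynomial.X (Sum.inl (b, i, l, n)))

/-- the universal covector -/
noncomputable def uw (i : Fin q.d) : UR q :=
  Ideal.Quotient.mk (relI q) (MvPolynomial.X (Sum.inr i))

/-- the homomorphism of a test object -/
noncomputable def Test.hom (τ : Test q) : UR q →ₐ[k] τ.A :=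
  Ideal.Quotient.liftₐ (relI q) τ.ev fun _ ha => (Ideal.mem_iInf.1 ha τ : _)

theorem Test.hom_mk (τ : Test q) (a : MvPolynomial (Sym q) k) :
    τ.hom (Ideal.Quotient.mk (relI q) a) = τ.ev a := rfl

theorem Test.hom_cf (τ : Test q) (b : X.B) (i l : Fin q.d) (n : ℤ) :
    τ.hom (cf b i l n) = (τ.ρ b i l).coeff n := by
  rw [cf, Test.hom_mk, Test.ev, MvPolynomial.aeval_X]
  rfl

theorem Test.hom_uw (τ : Test q) (i : Fin q.d) : τ.hom (uw i) = τ.w i := by
  rw [uw, Test.hom_mk, Test.ev, MvPolynomial.aeval_X]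
  rfl

theorem UR_ext {r r' : UR q} (h : ∀ τ : Test q, τ.hom r = τ.hom r') : r = r' := by
  obtain ⟨a, rfl⟩ := Ideal.Quotient.mk_surjective r
  obtain ⟨a', rfl⟩ := Ideal.Quotient.mk_surjective r'
  rw [Ideal.Quotient.eq, relI, Ideal.mem_iInf]
  intro τ
  rw [RingHom.mem_ker, map_sub, sub_eq_zero]
  exact h τ

theorem UR_hom_ext {A : Type u} [CommRing A] [Algebra k A] {g g' : UR q →ₐ[k] A}
    (h : ∀ b i l n, g (cf b i l n) = g' (cf b i l n)) (h' : ∀ i, g (uw i) = g' (uw i)) :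
    g = g' := by
  apply Ideal.Quotient.algHom_ext
  apply MvPolynomial.algHom_ext
  rintro (⟨b, i, l, n⟩ | i)
  · exact h b i l n
  · exact h' i

theorem cf_eq_zero (b : X.B) (i l : Fin q.d) {n : ℤ}
    (hn : n ∉ Finset.Icc (-(lo X b : ℤ)) (hi X b)) : cf (q := q) b i l n = 0 :=
  UR_ext fun τ => by rw [τ.hom_cf, map_zero, coeff_eq_zero τ.h b i l hn]

/-- the universal matrices -/
noncomputable def ρfun (b : X.B) : Matrix (Fin q.d) (Fin q.d) (UR q)[T;T⁻¹] := fun i l =>
  AddMonoidAlgebra.ofCoeff (Finsupp.onFinset (Finset.Icc (-(lo X b : ℤ)) (hi X b))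
    (fun n => cf b i l n) fun n hn => by
      by_contra h
      exact hn (cf_eq_zero b i l h))

theorem coeff_ρfun (b : X.B) (i l : Fin q.d) (n : ℤ) :
    (ρfun (q := q) b i l).coeff n = cf b i l n := rfl

theorem Test.mapM_ρfun (τ : Test q) (b : X.B) : mapM q.d τ.hom (ρfun b) = τ.ρ b :=
  matL_ext fun i l n => by rw [coeff_mapM, coeff_ρfun, τ.hom_cf]

theorem mat_ext {M M' : Matrix (Fin q.d) (Fin q.d) (UR q)[T;T⁻¹]}
    (h : ∀ τ : Test q, mapM q.d τ.hom M = mapM q.d τ.hom M') : M = M' :=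
  matL_ext fun i l n => UR_ext fun τ => by rw [← coeff_mapM, ← coeff_mapM, h τ]

/-- the universal representation -/
noncomputable def ρU : X.B →ₐ[k] Matrix (Fin q.d) (Fin q.d) (UR q)[T;T⁻¹] where
  toFun := ρfun
  map_one' := mat_ext fun τ => by rw [τ.mapM_ρfun, map_one, map_one]
  map_mul' a b := mat_ext fun τ => by
    rw [map_mul, τ.mapM_ρfun, τ.mapM_ρfun, τ.mapM_ρfun, map_mul]
  map_zero' := mat_ext fun τ => by rw [τ.mapM_ρfun, map_zero, map_zero]
  map_add' a b := mat_ext fun τ => by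
    rw [map_add, τ.mapM_ρfun, τ.mapM_ρfun, τ.mapM_ρfun, map_add]
  commutes' c := mat_ext fun τ => by rw [τ.mapM_ρfun, AlgHom.commutes, AlgHom.commutes]

theorem coeff_ρU (b : X.B) (i l : Fin q.d) (n : ℤ) :
    (ρU (q := q) b i l).coeff n = cf b i l n := rfl

theorem Test.mapM_ρU (τ : Test q) (b : X.B) : mapM q.d τ.hom (ρU b) = τ.ρ b := τ.mapM_ρfun b

theorem isRho : IsRho q (ρU (q := q)) uw where
  map_x := mat_ext fun τ => by rw [τ.mapM_ρU, τ.h.map_x, mapM_scalar]
  mem0 b hb i l n hn := UR_ext fun τ => by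
    rw [coeff_ρU, τ.hom_cf, map_zero, τ.h.mem0 b hb i l n hn]
  memi b hb i l n hn := UR_ext fun τ => by
    rw [coeff_ρU, τ.hom_cf, map_zero, τ.h.memi b hb i l n hn]
  eigen b l := UR_ext fun τ => by
    rw [map_sum, map_mul, τ.hom_uw, AlgHom.commutes, ← τ.h.eigen b l]
    exact Finset.sum_congr rfl fun i _ => by rw [map_mul, τ.hom_uw, coeff_ρU, τ.hom_cf]
  frame i l := UR_ext fun τ => by
    have h1 := τ.h.frame i l
    rw [map_sum]
    refine Eq.trans (Finset.sum_congr rfl fun j _ => ?_) (h1.trans ?_)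
    · rw [map_mul, AlgHom.commutes, map_sum]
      congr 1
      exact Finset.sum_congr rfl fun r _ => by rw [map_mul, τ.hom_uw, coeff_ρU, τ.hom_cf]
    · split_ifs
      · rw [map_one]
      · rw [map_zero]
  surj := by
    rcases Nat.eq_zero_or_pos q.d with hd | hd
    · refine ⟨fun _ => 0, UR_ext fun τ => ?_⟩
      obtain ⟨c, hc⟩ := τ.h.surj
      haveI : IsEmpty (Fin q.d) := by rw [hd]; infer_instance
      rw [Finset.univ_eq_empty, Finset.sum_empty] at hc ⊢
      rw [map_zero, map_one, hc]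
    · let i₀ : Fin q.d := ⟨0, hd⟩
      refine ⟨fun r => ∑ j, algebraMap k (UR q) (q.t i₀ j) *
        (ρU (q := q) (q.b j) r i₀).coeff (q.n j), UR_ext fun τ => ?_⟩
      have h1 := τ.h.frame i₀ i₀
      rw [if_pos rfl] at h1
      rw [map_one, ← h1, map_sum]
      simp only [map_mul, map_sum, AlgHom.commutes, τ.hom_uw, coeff_ρU, τ.hom_cf, Finset.mul_sum]
      rw [Finset.sum_comm]
      refine Finset.sum_congr rfl fun j _ => Finset.sum_congr rfl fun r _ => ?_
      ring

/-- generators of `B0` over `k[x]` -/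
theorem exists_gens (X : CurveData k) : ∃ s : Finset X.B, ∀ b ∈ X.B0, ∀ S : Subalgebra k X.B,
    X.x ∈ S → (∀ g ∈ s, g ∈ S) → b ∈ S := by
  classical
  letI : Algebra (Polynomial k) X.B0 :=
    (Polynomial.aeval (⟨X.x, X.x_mem⟩ : X.B0) : Polynomial k →ₐ[k] X.B0).toRingHom.toAlgebra
  haveI : Module.Finite (Polynomial k) X.B0 := X.fin0
  obtain ⟨s, hs⟩ := Module.Finite.fg_top (R := Polynomial k) (M := X.B0)
  refine ⟨s.image Subtype.val, fun b hb S hx hg => ?_⟩
  have h1 : (⟨b, hb⟩ : X.B0) ∈ Submodule.span (Polynomial k) (s : Set X.B0) := by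
    rw [hs]; trivial
  have h2 : ∀ c : X.B0, c ∈ Submodule.span (Polynomial k) (s : Set X.B0) → (c : X.B) ∈ S := by
    intro c hc
    induction hc using Submodule.span_induction with
    | mem g hg' => exact hg _ (Finset.mem_image_of_mem _ hg')
    | zero => exact S.zero_mem
    | add a b _ _ ha hb => exact S.add_mem ha hb
    | smul p a _ ha =>
      have h3 : ((p • a : X.B0) : X.B) = Polynomial.aeval X.x p * (a : X.B) := by
        have h4 : p • a = Polynomial.aeval (⟨X.x, X.x_mem⟩ : X.B0) p * a := rfl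
        rw [h4]
        show ((Polynomial.aeval (⟨X.x, X.x_mem⟩ : X.B0) p : X.B0) : X.B) * _ = _
        congr 1
        exact (Polynomial.aeval_algHom_apply X.B0.val (⟨X.x, X.x_mem⟩ : X.B0) p).symm
      rw [h3]
      refine S.mul_mem ?_ ha
      exact (Algebra.adjoin_le (Set.singleton_subset_iff.2 hx))
        (Polynomial.aeval_mem_adjoin_singleton k X.x)
  exact h2 _ h1

/-- the universal algebra is of finite type -/
theorem finiteType : Algebra.FiniteType k (UR q) := by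
  classical
  obtain ⟨s, hs⟩ := exists_gens X
  let S : Set (UR q) := (⋃ g ∈ s, ⋃ n ∈ Finset.Icc (-(lo X g : ℤ)) (hi X g),
    Set.range fun p : Fin q.d × Fin q.d => cf (q := q) g p.1 p.2 n) ∪ Set.range uw
  have hSfin : S.Finite := by
    refine Set.Finite.union ?_ (Set.finite_range _)
    exact s.finite_toSet.biUnion fun g _ =>
      (Finset.Icc (-(lo X g : ℤ)) (hi X g)).finite_toSet.biUnion fun n _ => Set.finite_range _
  set R' := Algebra.adjoin k S with hR'
  have hS : ∀ g ∈ s, ∀ i l n, cf (q := q) g i l n ∈ R' := by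
    intro g hg i l n
    by_cases hn : n ∈ Finset.Icc (-(lo X g : ℤ)) (hi X g)
    · apply Algebra.subset_adjoin
      left
      rw [Set.mem_iUnion₂]
      refine ⟨g, hg, ?_⟩
      rw [Set.mem_iUnion₂]
      exact ⟨n, hn, ⟨(i, l), rfl⟩⟩
    · rw [cf_eq_zero g i l hn]
      exact R'.zero_mem
  let φ : R' →ₐ[k] UR q := R'.val
  let 𝒮 : Subalgebra k X.B := ((mapM q.d φ).range).comap (ρU (q := q))
  have hx : X.x ∈ 𝒮 := ⟨Matrix.scalar (Fin q.d) (T 1),
    (mapM_scalar φ 1).trans (isRho (q := q)).map_x.symm⟩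
  have hy : X.y ∈ 𝒮 := ⟨Matrix.scalar (Fin q.d) (T (-1)),
    (mapM_scalar φ (-1)).trans (map_y (isRho (q := q))).symm⟩
  have hg : ∀ g ∈ s, g ∈ 𝒮 := by
    intro g hg
    let M : Matrix (Fin q.d) (Fin q.d) R'[T;T⁻¹] := fun i l =>
      AddMonoidAlgebra.ofCoeff (Finsupp.onFinset (Finset.Icc (-(lo X g : ℤ)) (hi X g))
        (fun n => ⟨cf g i l n, hS g hg i l n⟩) fun n hn => by
          by_contra h
          exact hn (Subtype.ext (cf_eq_zero g i l h)))
    exact ⟨M, matL_ext fun i l n => by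
      exact coeff_mapM φ M i l n⟩
  have h0 : ∀ b ∈ X.B0, b ∈ 𝒮 := fun b hb => hs b hb 𝒮 hx hg
  have hall : ∀ b : X.B, b ∈ 𝒮 := by
    intro b
    obtain ⟨n, hn⟩ := X.loc0 b
    have h1 := 𝒮.mul_mem (𝒮.pow_mem hy n) (h0 _ hn)
    rwa [← mul_assoc, ← mul_pow, mul_comm X.y X.x, X.xy, one_pow, one_mul] at h1
  have hcf : ∀ b i l n, cf (q := q) b i l n ∈ R' := by
    intro b i l n
    obtain ⟨M, hM⟩ := hall b
    have h1 := coeff_mapM φ M i l n
    have h2 : mapM q.d φ M = ρU (q := q) b := hM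
    rw [h2, coeff_ρU] at h1
    rw [h1]
    exact ((M i l).coeff n).2
  refine ⟨Subalgebra.fg_def.2 ⟨S, hSfin, ?_⟩⟩
  rw [eq_top_iff]
  rintro r -
  obtain ⟨a, rfl⟩ := Ideal.Quotient.mk_surjective r
  induction a using MvPolynomial.induction_on with
  | C c => exact R'.algebraMap_mem c
  | add a b ha hb => rw [map_add]; exact R'.add_mem ha hb
  | mul_X a s ha =>
    rw [map_mul]
    refine R'.mul_mem ha ?_
    rcases s with ⟨b, i, l, n⟩ | i
    · exact hcf b i l n
    · exact Algebra.subset_adjoin (Or.inr ⟨i, rfl⟩)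

end ChRep

open ChRep in
/-- **The universal pair** `(ρ, u)`. -/
theorem exists_rep {k : Type u} [Field k] {X : CurveData k} (q : Frame X) :
    ∃ (R : Type u) (_ : CommRing R) (_ : Algebra k R) (_ : Algebra.FiniteType k R)
      (ρ : X.B →ₐ[k] Matrix (Fin q.d) (Fin q.d) R[T;T⁻¹]) (u : Fin q.d → R),
      IsRho q ρ u ∧
      (∀ (A : Type u) [CommRing A] [Algebra k A]
        (ρ' : X.B →ₐ[k] Matrix (Fin q.d) (Fin q.d) A[T;T⁻¹]) (u' : Fin q.d → A),
        IsRho q ρ' u' → ∃ g : R →ₐ[k] A,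
          (∀ b i l n, g ((ρ b i l).coeff n) = (ρ' b i l).coeff n) ∧ ∀ i, g (u i) = u' i) ∧
      ∀ (A : Type u) [CommRing A] [Algebra k A] (g g' : R →ₐ[k] A),
        (∀ b i l n, g ((ρ b i l).coeff n) = g' ((ρ b i l).coeff n)) →
        (∀ i, g (u i) = g' (u i)) → g = g' := by
  refine ⟨UR q, inferInstance, inferInstance, finiteType, ρU, uw, isRho, ?_, ?_⟩
  · intro A _ _ ρ' u' h
    let τ : Test q := ⟨A, ρ', u', h⟩
    exact ⟨τ.hom, fun b i l n => by rw [coeff_ρU]; exact τ.hom_cf b i l n,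
      fun i => τ.hom_uw i⟩
  · intro A _ _ g g' h h'
    exact UR_hom_ext h h'

end Fermat.Agent.Jac
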