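import Fermat.Agent.Jac.Stmts

set_option autoImplicit false

/-!
# S25: assembly of the charts (block CHARTSMAIN)

From a family of charts `OneChart X` (one for each projective frame), the class groups
`ClPkg X` and the covering lemma we produce `ChartsData X`.
-/

universe u

open TensorProduct

namespace Fermat.Agent.Jac

variable {k : Type u} [Field k]

/-- the class groups of `C × Spec A` -/
structure ClPkg (X : CurveData k) where
  Cl : ∀ (A : Type u) [CommRing A] [Algebra k A], Type (u + 1)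
  [grp : ∀ (A : Type u) [CommRing A] [Algebra k A], CommGroup (Cl A)]
  cl : ∀ {A : Type u} [CommRing A] [Algebra k A], LB X A → Cl A
  surj : ∀ {A : Type u} [CommRing A] [Algebra k A] (c : Cl A), ∃ L : LB X A, cl L = c
  map : ∀ {A : Type u} [CommRing A] [Algebra k A] {A' : Type u} [CommRing A'] [Algebra k A']
    (_ : A →ₐ[k] A'), Cl A →* Cl A'
  map_comp : ∀ {A : Type u} [CommRing A] [Algebra k A] {A' : Type u} [CommRing A'] [Algebra k A']
    {A'' : Type u} [CommRing A''] [Algebra k A''] (h : A →ₐ[k] A') (h' : A' →ₐ[k] A'') (c : Cl A),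
    map (h'.comp h) c = map h' (map h c)
  map_cl : ∀ {A : Type u} [CommRing A] [Algebra k A] {A' : Type u} [CommRing A'] [Algebra k A']
    (h : A →ₐ[k] A') (L : LB X A) (L' : LB X A'), map h (cl L) = cl L' ↔ LB.BC h L L'
  rig_mul : ∀ {A : Type u} [CommRing A] [Algebra k A] (L L' L'' : LB X A),
    cl L'' = cl L * cl L' → L.Rig → L'.Rig → L''.Rig
  rig_bc : ∀ {A : Type u} [CommRing A] [Algebra k A] {A' : Type u} [CommRing A'] [Algebra k A']
    (h : A →ₐ[k] A') (L : LB X A) (L' : LB X A'), LB.BC h L L' → L.Rig → L'.Rig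
  rig_field : ∀ {K : Type u} [Field K] [Algebra k K] (L : LB X K), L.Rig

attribute [instance] ClPkg.grp

/-- a chart -/
structure OneChart (X : CurveData k) where
  R : Type u
  [cr : CommRing R]
  [alg : Algebra k R]
  fintype : Algebra.FiniteType k R
  smooth : Algebra.Smooth k R
  N : LB X R
  rig : N.Rig
  Good : ∀ {A : Type u} [CommRing A] [Algebra k A], LB X A → Prop
  good_N : Good N
  good_bc : ∀ {A : Type u} [CommRing A] [Algebra k A] {A' : Type u} [CommRing A'] [Algebra k A']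
    (h : A →ₐ[k] A') (L : LB X A) (L' : LB X A'), LB.BC h L L' → Good L → Good L'
  good_chi : ∀ {K : Type u} [Field K] [Algebra k K] (L : LB X K), Good L → L.chi = 0
  good_open : ∀ {A : Type u} [CommRing A] [Algebra k A] {K : Type u} [Field K] [IsAlgClosed K]
    [Algebra k K] (φ : A →ₐ[k] K) (L : LB X A) (L' : LB X K), LB.BC φ L L' → Good L' →
    ∃ f : A, φ f ≠ 0 ∧ ∀ L'' : LB X (Localization.Away f),
      LB.BC (IsScalarTower.toAlgHom k A (Localization.Away f)) L L'' → Good L''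
  univ : ∀ {A : Type u} [CommRing A] [Algebra k A] (L : LB X A), Good L → L.Rig →
    ∃ g : R →ₐ[k] A, LB.BC g N L
  uniq : ∀ {A : Type u} [CommRing A] [Algebra k A] (L : LB X A) (g g' : R →ₐ[k] A),
    LB.BC g N L → LB.BC g' N L → g = g'

attribute [instance] OneChart.cr OneChart.alg

namespace ClPkg

variable {X : CurveData k} (T : ClPkg X)

section

variable {A : Type u} [CommRing A] [Algebra k A] {A' : Type u} [CommRing A'] [Algebra k A']
  {A'' : Type u} [CommRing A''] [Algebra k A'']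

include T in
theorem exists_bc (h : A →ₐ[k] A') (L : LB X A) : ∃ L' : LB X A', LB.BC h L L' := by
  obtain ⟨L', hL'⟩ := T.surj (T.map h (T.cl L))
  exact ⟨L', (T.map_cl h L L').1 hL'.symm⟩

include T in
theorem bc_comp {h : A →ₐ[k] A'} {h' : A' →ₐ[k] A''} {L : LB X A} {L' : LB X A'} {L'' : LB X A''}
    (h1 : LB.BC h L L') (h2 : LB.BC h' L' L'') : LB.BC (h'.comp h) L L'' := by
  rw [← T.map_cl] at h1 h2 ⊢
  rw [T.map_comp, h1, h2]

end

/-- the twist of `L` by (the base change of) `𝒩`, as a relation -/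
def Tw (𝒩 : LB X k) {A : Type u} [CommRing A] [Algebra k A] (L N : LB X A) : Prop :=
  T.cl N = T.cl L * T.map (Algebra.ofId k A) (T.cl 𝒩)

variable {T} {𝒩 : LB X k} {A : Type u} [CommRing A] [Algebra k A] {A' : Type u} [CommRing A']
  [Algebra k A']

theorem exists_tw (L : LB X A) : ∃ N, T.Tw 𝒩 L N := T.surj _

theorem exists_untw (N : LB X A) : ∃ L, T.Tw 𝒩 L N := by
  obtain ⟨L, hL⟩ := T.surj (T.cl N * (T.map (Algebra.ofId k A) (T.cl 𝒩))⁻¹)
  refine ⟨L, ?_⟩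
  rw [Tw, hL, inv_mul_cancel_right]

/-- twists and base change -/
theorem Tw.bc {h : A →ₐ[k] A'} {L N : LB X A} {L' N' : LB X A'} (hN : T.Tw 𝒩 L N)
    (hN' : T.Tw 𝒩 L' N') : LB.BC h L L' ↔ LB.BC h N N' := by
  rw [← T.map_cl, ← T.map_cl]
  rw [Tw] at hN hN'
  have h1 : T.map (Algebra.ofId k A') (T.cl 𝒩) = T.map h (T.map (Algebra.ofId k A) (T.cl 𝒩)) := by
    rw [← T.map_comp, show h.comp (Algebra.ofId k A) = Algebra.ofId k A' from
      Subsingleton.elim _ _]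
  rw [hN, hN', map_mul, h1]
  exact (mul_left_inj _).symm

theorem Tw.rig {L N : LB X A} (hN : T.Tw 𝒩 L N) (hL : L.Rig) : N.Rig := by
  obtain ⟨𝒩', h𝒩'⟩ := T.exists_bc (Algebra.ofId k A) 𝒩
  refine T.rig_mul L 𝒩' N ?_ hL (T.rig_bc _ _ _ h𝒩' (T.rig_field 𝒩))
  rw [Tw] at hN
  rw [hN, (T.map_cl _ _ _).2 h𝒩']

theorem Tw.rig' {L N : LB X A} (hN : T.Tw 𝒩 L N) (hL : N.Rig) : L.Rig := by
  obtain ⟨𝒩₁, h𝒩₁⟩ := T.surj ((T.cl 𝒩)⁻¹)
  obtain ⟨𝒩', h𝒩'⟩ := T.exists_bc (Algebra.ofId k A) 𝒩₁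
  refine T.rig_mul N 𝒩' L ?_ hL (T.rig_bc _ _ _ h𝒩' (T.rig_field 𝒩₁))
  rw [Tw] at hN
  rw [hN, ← (T.map_cl _ _ _).2 h𝒩', h𝒩₁, map_inv, mul_inv_cancel_right]

end ClPkg

section Main

variable {X : CurveData k} (T : ClPkg X)

/-- **CHARTSMAIN** -/
theorem exists_chartsData
    (hchi : ∀ {K : Type u} [Field K] [IsAlgClosed K] [Algebra k K] (L L' L'' : LB X K),
      T.cl L'' = T.cl L * T.cl L' → L''.chi = L.chi + L'.chi - (1 - (X.genus : ℤ)))
    (hchibc : ∀ {K : Type u} [Field K] [IsAlgClosed K] [Algebra k K] (L : LB X k) (L' : LB X K),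
      LB.BC (Algebra.ofId k K) L L' → L'.chi = L.chi)
    (hcov : ∃ (I : Type u) (_ : Finite I) (𝒩 : I → LB X k) (q : I → OneChart X),
      ∀ {K : Type u} [Field K] [IsAlgClosed K] [Algebra k K] (L L' : LB X K),
        L.chi = 1 - (X.genus : ℤ) → L'.chi = 1 - (X.genus : ℤ) →
        ∃ i, (∀ N, T.Tw (𝒩 i) L N → (q i).Good N) ∧ ∀ N, T.Tw (𝒩 i) L' N → (q i).Good N) :
    Nonempty (ChartsData X) := by
  obtain ⟨I, hI, 𝒩, q, hcov⟩ := hcov
  have hL : ∀ i : I, ∃ L : LB X (q i).R, T.Tw (𝒩 i) L (q i).N := fun i => ClPkg.exists_untw _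
  choose L hL using hL
  -- the charts with `chi (𝒩 i) = 0`
  have hzero : ∀ (i : I) {K : Type u} [Field K] [IsAlgClosed K] [Algebra k K] (M N : LB X K),
      M.chi = 1 - (X.genus : ℤ) → T.Tw (𝒩 i) M N → (q i).Good N → (𝒩 i).chi = 0 := by
    intro i K _ _ _ M N hM hN hgood
    obtain ⟨𝒩', h𝒩'⟩ := T.exists_bc (Algebra.ofId k K) (𝒩 i)
    have h1 := hchi M 𝒩' N (by rw [← (T.map_cl _ _ _).2 h𝒩']; exact hN)
    rw [hchibc _ _ h𝒩', (q i).good_chi N hgood, hM] at h1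
    linarith
  have hdeg : ∀ (i : I), (𝒩 i).chi = 0 → (L i).Deg0 := by
    intro i hi K _ _ _ h L' hL'
    obtain ⟨N', hN'⟩ : ∃ N', T.Tw (𝒩 i) L' N' := ClPkg.exists_tw _
    have h1 : LB.BC h (q i).N N' := (ClPkg.Tw.bc (hL i) hN').1 hL'
    have h2 := (q i).good_bc h _ _ h1 (q i).good_N
    obtain ⟨𝒩', h𝒩'⟩ := T.exists_bc (Algebra.ofId k K) (𝒩 i)
    have h3 := hchi L' 𝒩' N' (by rw [← (T.map_cl _ _ _).2 h𝒩']; exact hN')
    rw [hchibc _ _ h𝒩', (q i).good_chi N' h2, hi] at h3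
    linarith
  -- representability
  have hrep : ∀ (i : I) {A : Type u} [CommRing A] [Algebra k A] (M N : LB X A), M.Rig →
      T.Tw (𝒩 i) M N → (q i).Good N → ∃ r : (q i).R →ₐ[k] A, LB.BC r (L i) M := by
    intro i A _ _ M N hM hN hgood
    obtain ⟨g, hg⟩ := (q i).univ N hgood (hN.rig hM)
    exact ⟨g, (ClPkg.Tw.bc (hL i) hN).2 hg⟩
  have hcov' : ∀ {K : Type u} [Field K] [IsAlgClosed K] [Algebra k K] (M M' : LB X K),
        M.chi = 1 - (X.genus : ℤ) → M'.chi = 1 - (X.genus : ℤ) →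
        ∃ (i : I) (_ : (𝒩 i).chi = 0) (r r' : (q i).R →ₐ[k] K),
          LB.BC r (L i) M ∧ LB.BC r' (L i) M' := by
    intro K _ _ _ M M' hM hM'
    obtain ⟨i, h1, h2⟩ := hcov M M' hM hM'
    obtain ⟨N, hN⟩ : ∃ N, T.Tw (𝒩 i) M N := ClPkg.exists_tw _
    obtain ⟨N', hN'⟩ : ∃ N', T.Tw (𝒩 i) M' N' := ClPkg.exists_tw _
    obtain ⟨r, hr⟩ := hrep i M N (T.rig_field M) hN (h1 N hN)
    obtain ⟨r', hr'⟩ := hrep i M' N' (T.rig_field M') hN' (h2 N' hN')
    exact ⟨i, hzero i M N hM hN (h1 N hN), r, r', hr, hr'⟩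
  refine ⟨({
    ι := {i : I // (𝒩 i).chi = 0}
    fin := inferInstance
    R := fun i => (q i.1).R
    L := fun i => L i.1
    fintype := fun i => (q i.1).fintype
    smooth := fun i => (q i.1).smooth
    rig := fun i => (hL i.1).rig' (q i.1).rig
    deg := fun i => hdeg i.1 i.2
    mono := ?_
    isOpen := ?_
    cover₂ := ?_ } : ChartsData X)⟩
  · intro i A _ _ g g' M h1 h2
    obtain ⟨N, hN⟩ : ∃ N, T.Tw (𝒩 i.1) M N := ClPkg.exists_tw _
    exact (q i.1).uniq N g g' ((ClPkg.Tw.bc (hL i.1) hN).1 h1) ((ClPkg.Tw.bc (hL i.1) hN).1 h2)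
  · intro i A _ _ M hM K _ _ _ φ r M' h1 h2
    obtain ⟨N, hN⟩ : ∃ N, T.Tw (𝒩 i.1) M N := ClPkg.exists_tw _
    obtain ⟨N', hN'⟩ : ∃ N', T.Tw (𝒩 i.1) M' N' := ClPkg.exists_tw _
    have h3 : LB.BC φ N N' := (ClPkg.Tw.bc hN hN').1 h1
    have h4 : LB.BC r (q i.1).N N' := (ClPkg.Tw.bc (hL i.1) hN').1 h2
    obtain ⟨f, hf, hf'⟩ := (q i.1).good_open φ N N' h3 ((q i.1).good_bc r _ _ h4 (q i.1).good_N)
    obtain ⟨M'', hM''⟩ := T.exists_bc (IsScalarTower.toAlgHom k A (Localization.Away f)) M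
    obtain ⟨N'', hN''⟩ : ∃ N'', T.Tw (𝒩 i.1) M'' N'' := ClPkg.exists_tw _
    obtain ⟨s, hs⟩ := hrep i.1 M'' N'' (T.rig_bc _ _ _ hM'' hM) hN''
      (hf' N'' ((ClPkg.Tw.bc hN hN'').1 hM''))
    exact ⟨f, hf, s, M'', hs, hM''⟩
  · intro K _ _ _ M M' hM hM'
    obtain ⟨i, hi, r, r', hr, hr'⟩ := hcov' M M' hM hM'
    exact ⟨⟨i, hi⟩, ⟨r, hr⟩, r', hr'⟩

end Main

end Fermat.Agent.Jac
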