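import Fermat.Agent.Jac.ChRho

/-!
# Bundles with the same matrices are base changes of each other
-/

universe u

set_option autoImplicit false

open TensorProduct LaurentPolynomial

namespace Fermat.Agent.Jac

variable {k : Type u} [Field k] {X : CurveData k} {A : Type u} [CommRing A] [Algebra k A]
  {A' : Type u} [CommRing A'] [Algebra k A']

/-- change of the coefficients of Laurent polynomials -/
noncomputable def mapLP (g : A →+* A') : A[T;T⁻¹] →+* A'[T;T⁻¹] :=
  AddMonoidAlgebra.mapRingHom ℤ g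

theorem coeff_mapLP (g : A →+* A') (f : A[T;T⁻¹]) (n : ℤ) :
    (mapLP g f).coeff n = g (f.coeff n) := AddMonoidAlgebra.coeff_mapRingHom _ _ _

theorem mapLP_C (g : A →+* A') (a : A) : mapLP g (C a) = C (g a) := by
  ext n
  rw [coeff_mapLP, C_apply, C_apply]
  split_ifs <;> simp

theorem mapLP_T (g : A →+* A') (m : ℤ) : mapLP g (T m) = T m := by
  ext n
  rw [coeff_mapLP, T_apply, T_apply]
  split_ifs <;> simp

theorem LB.smul_mem0 (N : LB X A) (P : Submodule (X.R0 A) N.M) {v : N.M} (hv : v ∈ P) {n : ℤ}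
    (hn : 0 ≤ n) (a : A) : (C a * T n : A[T;T⁻¹]) • v ∈ P := by
  lift n to ℕ using hn
  have h : (C a * T n : A[T;T⁻¹]) • v = (algebraMap A (X.R0 A) a * X.x0 A ^ n) • v := by
    rw [LB.smul_lam, map_mul, X.lam_C, X.lam_T_nat, N.smul0, map_mul, map_pow, X.J0_x0,
      AlgHom.commutes]
  rw [h]
  exact P.smul_mem _ hv

theorem LB.smul_memi (N : LB X A) (P : Submodule (X.Ri A) N.M) {v : N.M} (hv : v ∈ P) {n : ℤ}
    (hn : n ≤ 0) (a : A) : (C a * T n : A[T;T⁻¹]) • v ∈ P := by
  obtain ⟨m, rfl⟩ : ∃ m : ℕ, n = -m := ⟨n.natAbs, by omega⟩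
  have h : (C a * T (-m) : A[T;T⁻¹]) • v = (algebraMap A (X.Ri A) a * X.yi A ^ m) • v := by
    rw [LB.smul_lam, map_mul, X.lam_C, X.lam_T_neg_nat, N.smuli, map_mul, map_pow, X.Ji_yi,
      AlgHom.commutes]
  rw [h]
  exact P.smul_mem _ hv

theorem LB.HasRho.bc_of_compat {q : Frame X} {N : LB X A} {N' : LB X A'}
    {ρ : X.B →ₐ[k] Matrix (Fin q.d) (Fin q.d) A[T;T⁻¹]} {u : Fin q.d → A}
    {h : Split N.A0 N.Ai} {w : twT N.Ai →ₗ[A] A}
    {e : Module.Basis (Fin q.d) A (secV N.A0 N.Ai)}
    {ρ' : X.B →ₐ[k] Matrix (Fin q.d) (Fin q.d) A'[T;T⁻¹]} {u' : Fin q.d → A'}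
    {h' : Split N'.A0 N'.Ai} {w' : twT N'.Ai →ₗ[A'] A'}
    {e' : Module.Basis (Fin q.d) A' (secV N'.A0 N'.Ai)}
    (H : N.HasRho q ρ u h w e) (H' : N'.HasRho q ρ' u' h' w' e') (g : A →ₐ[k] A')
    (hg : ∀ b i l n, g ((ρ b i l).coeff n) = (ρ' b i l).coeff n) : LB.BC g N N' := by
  classical
  let f : N.M →+ N'.M :=
    { toFun := fun m => ∑ l, mapLP (g : A →+* A') ((h.basis e).repr m l) • (e' l : N'.M)
      map_zero' := by simp
      map_add' := fun m m' => by
        simp only [map_add, Finsupp.add_apply, add_smul, Finset.sum_add_distrib] }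
  have hf : ∀ m, f m = ∑ l, mapLP (g : A →+* A') ((h.basis e).repr m l) • (e' l : N'.M) :=
    fun _ => rfl
  have hsmul : ∀ (p : A[T;T⁻¹]) (m : N.M), f (p • m) = mapLP (g : A →+* A') p • f m := by
    intro p m
    rw [hf, hf, Finset.smul_sum]
    refine Finset.sum_congr rfl fun l _ => ?_
    rw [map_smul, Finsupp.smul_apply, smul_eq_mul, map_mul, mul_smul]
  have hfe : ∀ l, f (e l : N.M) = (e' l : N'.M) := by
    intro l
    rw [hf, ← h.basis_apply e l, Finset.sum_eq_single l]
    · rw [Module.Basis.repr_self, Finsupp.single_eq_same, map_one, one_smul]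
    · intro i _ hi
      rw [Module.Basis.repr_self, Finsupp.single_eq_of_ne hi, map_zero, zero_smul]
    · intro hl; exact absurd (Finset.mem_univ l) hl
  have hrho : ∀ b i l, mapLP (g : A →+* A') (ρ b i l) = ρ' b i l := by
    intro b i l
    ext n
    rw [coeff_mapLP]
    exact hg b i l n
  have hact : ∀ (b : X.B) (m : N.M), f (N.act b m) = N'.act b (f m) := by
    intro b m
    have hm : m = ∑ l, (h.basis e).repr m l • (e l : N.M) := by
      conv_lhs => rw [← (h.basis e).sum_repr m]
      simp only [h.basis_apply]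
    rw [hm, map_sum, map_sum, map_sum, map_sum]
    refine Finset.sum_congr rfl fun l _ => ?_
    rw [map_smul, hsmul, hsmul, map_smul, H.act, map_sum, hfe, H'.act]
    congr 1
    refine Finset.sum_congr rfl fun i _ => ?_
    rw [hsmul, hfe, hrho]
  refine ⟨⟨f, ?_, ?_, ?_⟩⟩
  · intro r m
    induction r using TensorProduct.induction_on with
    | zero => rw [zero_smul, map_zero, map_zero, zero_smul]
    | tmul a b =>
      have h1 : (a ⊗ₜ b : X.R A) • m = (C a : A[T;T⁻¹]) • N.act b m := by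
        rw [LB.act_apply, C_smul', N.smulA, smul_smul]
        congr 1
        simp [Algebra.TensorProduct.algebraMap_apply]
      have h2 : X.bb g (a ⊗ₜ b : X.R A) • f m = (C (g a) : A'[T;T⁻¹]) • N'.act b (f m) := by
        rw [LB.act_apply, C_smul', N'.smulA, smul_smul]
        congr 1
        simp [Algebra.TensorProduct.algebraMap_apply, CurveData.bb]
      rw [h1, h2, hsmul, hact, mapLP_C]
      rfl
    | add r s hr hs => rw [add_smul, map_add, hr, hs, map_add, add_smul]
  · apply le_antisymm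
    · rw [Submodule.span_le]
      rintro _ ⟨m, hm, rfl⟩
      refine (h'.mem_N0_iff e' _).2 fun i n hn => ?_
      rw [hf, h'.repr_sum_smul e', coeff_mapLP, (h.mem_N0_iff e m).1 hm i n hn, map_zero]
    · intro m hm
      have hm' := (h'.mem_N0_iff e' m).1 hm
      rw [← (h'.basis e').sum_repr m]
      refine Submodule.sum_mem _ fun i _ => ?_
      rw [lp_eq_sum ((h'.basis e').repr m i) _ (Finset.Subset.refl _), Finset.sum_smul]
      refine Submodule.sum_mem _ fun n hn => ?_
      have h2 : h'.basis e' i ∈ Submodule.span (X.R0 A') (f '' (N.M0 : Set N.M)) :=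
        Submodule.subset_span ⟨(e i : N.M), (e i).2.1, by rw [hfe, h'.basis_apply]⟩
      refine N'.smul_mem0 _ h2 ?_ _
      by_contra hn'
      exact (Finsupp.mem_support_iff.mp hn) (hm' i n (not_le.mp hn'))
  · apply le_antisymm
    · rw [Submodule.span_le]
      rintro _ ⟨m, hm, rfl⟩
      refine (h'.mem_Ni_iff e' _).2 fun i n hn => ?_
      rw [hf, h'.repr_sum_smul e', coeff_mapLP, (h.mem_Ni_iff e m).1 hm i n hn, map_zero]
    · intro m hm
      have hm' := (h'.mem_Ni_iff e' m).1 hm
      rw [← (h'.basis e').sum_repr m]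
      refine Submodule.sum_mem _ fun i _ => ?_
      rw [lp_eq_sum ((h'.basis e').repr m i) _ (Finset.Subset.refl _), Finset.sum_smul]
      refine Submodule.sum_mem _ fun n hn => ?_
      have h1 : (C (((h'.basis e').repr m i).coeff n) * T n : A'[T;T⁻¹]) • h'.basis e' i =
          (C (((h'.basis e').repr m i).coeff n) * T (n + 1) : A'[T;T⁻¹]) •
            ((T (-1) : A'[T;T⁻¹]) • (e' i : N'.M)) := by
        rw [h'.basis_apply, smul_smul, mul_assoc, ← T_add]
        congr 3
        ring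
      rw [h1]
      have h2 : (T (-1) : A'[T;T⁻¹]) • (e' i : N'.M) ∈
          Submodule.span (X.Ri A') (f '' (N.Mi : Set N.M)) :=
        Submodule.subset_span ⟨(T (-1) : A[T;T⁻¹]) • (e i : N.M), (e i).2.2, by
          rw [hsmul, hfe, mapLP_T]⟩
      refine N'.smul_memi _ h2 ?_ _
      by_contra hn'
      exact (Finsupp.mem_support_iff.mp hn) (hm' i n (by omega))

end Fermat.Agent.Jac
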