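import Fermat.Agent.Jac.LBMap

/-!
# Base change of line bundles is base change of modules
-/

set_option autoImplicit false
set_option linter.unusedSectionVars false

universe u v u' v'

namespace Fermat.Agent.Jac

open TensorProduct Module

section general

variable {A : Type u} [CommRing A] {W : Type v} [AddCommGroup W] [Module A W]
  {A' : Type u'} [CommRing A'] [Algebra A A'] {W' : Type v'} [AddCommGroup W'] [Module A W']
  [Module A' W'] [IsScalarTower A A' W'] {f : W →ₗ[A] W'} {x : W ≃ₗ[A] W} {x' : W' ≃ₗ[A'] W'}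
  {E : Submodule A W}

/-- the linear extension `A' ⊗ E → W'` -/
noncomputable def liftE (A' : Type u') [CommRing A'] [Algebra A A'] [Module A' W']
    [IsScalarTower A A' W'] (f : W →ₗ[A] W') (E : Submodule A W) : A' ⊗[A] E →ₗ[A'] W' :=
  AlgebraTensorModule.lift (LinearMap.toSpanSingleton A' (E →ₗ[A] W') (f.comp E.subtype))

theorem liftE_tmul (a : A') (e : E) : liftE A' f E (a ⊗ₜ e) = a • f e := rfl

theorem isBaseChange_of_exhaust (hx : IsBC f x x') (hst : ∀ w ∈ E, x w ∈ E)
    (hex : ∀ w, ∃ m : ℕ, (x ^ m) w ∈ E) (hex' : ∀ w', ∃ m : ℕ, (x' ^ m) w' ∈ bc A' f E)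
    (hinj : Function.Injective (liftE A' f E)) : IsBaseChange A' f := by
  let F : A' ⊗[A] W →ₗ[A'] W' :=
    AlgebraTensorModule.lift (LinearMap.toSpanSingleton A' (W →ₗ[A] W') f)
  have hF : ∀ (a : A') (w : W), F (a ⊗ₜ w) = a • f w := fun a w => rfl
  let ι : A' ⊗[A] E →ₗ[A'] A' ⊗[A] W := E.subtype.baseChange A'
  have hFι : ∀ z, F (ι z) = liftE A' f E z := fun z => by
    induction z using TensorProduct.induction_on with
    | zero => rw [map_zero, map_zero, map_zero]
    | tmul a e => rfl
    | add a b ha hb => rw [map_add, map_add, map_add, ha, hb]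
  have hstι : ∀ (m : ℕ) (z : A' ⊗[A] W), z ∈ LinearMap.range ι →
      ((bcAut A' x) ^ m) z ∈ LinearMap.range ι := fun m z hz => by
    induction m with
    | zero => exact hz
    | succ m ih =>
      rw [pow_succ', LinearEquiv.mul_apply]
      obtain ⟨t, ht⟩ := ih
      rw [← ht]
      clear ht hz
      induction t using TensorProduct.induction_on with
      | zero => rw [map_zero, map_zero]; exact zero_mem _
      | tmul a e => exact ⟨a ⊗ₜ ⟨x e, hst _ e.2⟩, rfl⟩
      | add a b ha hb => rw [map_add, map_add]; exact add_mem ha hb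
  have hexι : ∀ z : A' ⊗[A] W, ∃ m : ℕ, ((bcAut A' x) ^ m) z ∈ LinearMap.range ι := fun z => by
    induction z using TensorProduct.induction_on with
    | zero => exact ⟨0, by rw [map_zero]; exact zero_mem _⟩
    | tmul a w =>
      obtain ⟨m, hm⟩ := hex w
      refine ⟨m, a ⊗ₜ ⟨_, hm⟩, ?_⟩
      have h1 : (a ⊗ₜ[A] w : A' ⊗[A] W) = a • (TensorProduct.mk A A' W 1 w) := by
        rw [TensorProduct.mk_apply, smul_tmul', smul_eq_mul, mul_one]
      rw [h1, map_smul, (isBC_mk (A' := A') x).pow]
      change a ⊗ₜ[A] ((x ^ m) w) = a • (1 ⊗ₜ (x ^ m) w)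
      rw [smul_tmul', smul_eq_mul, mul_one]
    | add a b ha hb =>
      obtain ⟨m, hm⟩ := ha
      obtain ⟨n, hn⟩ := hb
      refine ⟨m + n, ?_⟩
      rw [map_add]
      refine add_mem ?_ ?_
      · rw [add_comm, pow_add, LinearEquiv.mul_apply]; exact hstι n _ hm
      · rw [pow_add, LinearEquiv.mul_apply]; exact hstι m _ hn
  have hFx : ∀ (m : ℕ) (z : A' ⊗[A] W), F (((bcAut A' x) ^ m) z) = (x' ^ m) (F z) := fun m z => by
    induction m with
    | zero => rfl
    | succ m ih =>
      rw [pow_succ', LinearEquiv.mul_apply, pow_succ', LinearEquiv.mul_apply, ← ih]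
      generalize ((bcAut A' x) ^ m) z = z
      induction z using TensorProduct.induction_on with
      | zero => simp
      | tmul a w =>
        have h1 : bcAut A' x (a ⊗ₜ w) = a ⊗ₜ x w := rfl
        rw [h1, hF, hF, map_smul, hx.comm]
      | add a b ha hb => rw [map_add, map_add, ha, hb, map_add, map_add]
  have hbij : Function.Bijective F := by
    constructor
    · rw [injective_iff_map_eq_zero]
      intro z hz
      obtain ⟨m, t, ht⟩ := hexι z
      have h1 : liftE A' f E t = 0 := by rw [← hFι, ht, hFx, hz, map_zero]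
      have h2 : t = 0 := hinj (by rw [h1, map_zero])
      rw [h2, map_zero] at ht
      have h3 := congrArg ((bcAut A' x)⁻¹ ^ m) ht
      rw [map_zero, inv_pow_apply_pow] at h3
      exact h3.symm
    · intro w'
      obtain ⟨m, hm⟩ := hex' w'
      have h1 : (x' ^ m) w' ∈ LinearMap.range F := by
        have h2 : bc A' f E ≤ LinearMap.range F := by
          rw [bc, Submodule.span_le]
          rintro _ ⟨w, hw, rfl⟩
          exact ⟨1 ⊗ₜ w, by rw [hF, one_smul]⟩
        exact h2 hm
      obtain ⟨z, hz⟩ := h1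
      refine ⟨((bcAut A' x)⁻¹ ^ m) z, ?_⟩
      have h3 := hFx m (((bcAut A' x)⁻¹ ^ m) z)
      rw [pow_apply_inv_pow, hz] at h3
      exact ((x' ^ m).injective h3).symm
  exact IsBaseChange.of_equiv (LinearEquiv.ofBijective F hbij) fun w => by
    change F (1 ⊗ₜ w) = f w
    rw [hF, one_smul]

end general

section pushout

/-- base change of invertible modules along a pushout square of rings -/
theorem bijective_of_pushout {A A' S S' : Type*} [CommRing A] [CommRing A'] [CommRing S]
    [CommRing S'] [Algebra A A'] [Algebra A S] [Algebra A' S'] [Algebra S S'] [Algebra A S']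
    [IsScalarTower A A' S'] [IsScalarTower A S S'] [Algebra.IsPushout A A' S S']
    {N N' : Type*} [AddCommGroup N] [Module S N] [Module A N] [IsScalarTower A S N]
    [AddCommGroup N'] [Module S' N'] [Module A' N'] [IsScalarTower A' S' N']
    [Module.Invertible S N] [Module.Invertible S' N'] (g : N →+ N')
    (hg : ∀ (s : S) (n : N), g (s • n) = algebraMap S S' s • g n)
    (hspan : Submodule.span S' (Set.range g) = ⊤) (T : A' ⊗[A] N →ₗ[A'] N')
    (hT : ∀ n, T (1 ⊗ₜ n) = g n) : Function.Bijective T := by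
  let _ : Module S N' := Module.compHom N' (algebraMap S S')
  have : IsScalarTower S S' N' := ⟨fun a b c => by
    rw [Algebra.smul_def, mul_smul]; rfl⟩
  let g' : N →ₗ[S] N' := { g with map_smul' := hg }
  let G : S' ⊗[S] N →ₗ[S'] N' :=
    AlgebraTensorModule.lift (LinearMap.toSpanSingleton S' (N →ₗ[S] N') g')
  have hG : ∀ s m, G (s ⊗ₜ m) = s • g m := fun s m => rfl
  have hGs : Function.Surjective G := by
    rw [← LinearMap.range_eq_top, eq_top_iff, ← hspan, Submodule.span_le]
    rintro _ ⟨n, rfl⟩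
    exact ⟨1 ⊗ₜ n, by rw [hG, one_smul]⟩
  have hGb : Function.Bijective G := Module.Invertible.bijective_of_surjective hGs
  let e := Algebra.IsPushout.cancelBaseChange A A' S S' N
  have key : ∀ z : A' ⊗[A] N, T z = G (e.symm z) := fun z => by
    induction z using TensorProduct.induction_on with
    | zero => rw [map_zero, map_zero, map_zero]
    | tmul a m =>
      have h1 : e.symm (a ⊗ₜ m) = algebraMap A' S' a ⊗ₜ m :=
        Algebra.IsPushout.cancelBaseChange_symm_tmul _ _ _ _ _ a m
      have h2 : (a ⊗ₜ[A] m : A' ⊗[A] N) = a • (1 ⊗ₜ m) := by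
        rw [smul_tmul', smul_eq_mul, mul_one]
      rw [h1, hG, h2, map_smul, hT, algebraMap_smul]
    | add a b ha hb => rw [map_add, map_add, map_add, ha, hb]
  have : (T : A' ⊗[A] N → N') = G ∘ e.symm := funext key
  rw [this]
  exact hGb.comp e.symm.bijective

end pushout

section LB

variable {k : Type u} [Field k] {X : CurveData k} {A : Type u} [CommRing A] [Algebra k A]
  {A' : Type u} [CommRing A'] [Algebra k A'] {h : A →ₐ[k] A'} {L : LB X A} {L' : LB X A'}

theorem LB.Map.injective_liftE (φ : LB.Map h L L') [Algebra A A']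
    (hh : ∀ a, algebraMap A A' a = h a) [Module A L'.M] [IsScalarTower A A' L'.M]
    (f : L.M →ₗ[A] L'.M) (hf : ∀ m, f m = φ.f m) : Function.Injective (liftE A' f L.A0) := by
  have : IsScalarTower k A A' := IsScalarTower.of_algebraMap_eq fun c => by rw [hh, h.commutes]
  let _ : Algebra (A ⊗[k] X.B0) (A' ⊗[k] X.B0) := (X.b0 h).toRingHom.toAlgebra
  have halg : ∀ r : A ⊗[k] X.B0, algebraMap (A ⊗[k] X.B0) (A' ⊗[k] X.B0) r = X.b0 h r :=
    fun r => rfl
  have : IsScalarTower A (A ⊗[k] X.B0) (A' ⊗[k] X.B0) :=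
    IsScalarTower.of_algebraMap_eq (R := A) (S := A ⊗[k] X.B0) (A := A' ⊗[k] X.B0) fun a => by
      rw [halg]
      change (algebraMap A A' a) ⊗ₜ[k] (1 : X.B0) = X.b0 h (a ⊗ₜ 1)
      rw [hh]
      simp [CurveData.b0]
  have hpush : Algebra.IsPushout A A' (A ⊗[k] X.B0) (A' ⊗[k] X.B0) := by
    apply Algebra.IsPushout.tensorProduct_tensorProduct
    ext b
    change X.b0 h (1 ⊗ₜ b) = 1 ⊗ₜ b
    simp [CurveData.b0]
  have hinv : Module.Invertible (A ⊗[k] X.B0) L.A0 := L.inv0
  have hinv' : Module.Invertible (A' ⊗[k] X.B0) L'.A0 := L'.inv0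
  have ht : IsScalarTower A (A ⊗[k] X.B0) L.A0 :=
    ⟨fun a r m => Subtype.ext (smul_assoc a r m.1)⟩
  have ht' : IsScalarTower A' (A' ⊗[k] X.B0) L'.A0 :=
    ⟨fun a r m => Subtype.ext (smul_assoc a r m.1)⟩
  have hmem : ∀ m : L.A0, φ.f m.1 ∈ L'.A0 := fun m => by
    change φ.f m.1 ∈ L'.M0
    rw [← φ.span0]; exact Submodule.subset_span ⟨m.1, m.2, rfl⟩
  let g : L.A0 →+ L'.A0 :=
    { toFun := fun m => ⟨φ.f m.1, hmem m⟩
      map_zero' := Subtype.ext (map_zero φ.f)
      map_add' := fun m m' => Subtype.ext (map_add φ.f m.1 m'.1) }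
  have hrange : ∀ z, liftE A' f L.A0 z ∈ L'.A0 := fun z => by
    induction z using TensorProduct.induction_on with
    | zero => rw [map_zero]; exact zero_mem _
    | tmul a m =>
      rw [liftE_tmul, hf]
      exact L'.A0.smul_mem _ (hmem m)
    | add a b ha hb => rw [map_add]; exact add_mem ha hb
  let T : A' ⊗[A] L.A0 →ₗ[A'] L'.A0 := (liftE A' f L.A0).codRestrict _ hrange
  have hbij : Function.Bijective T := by
    refine bijective_of_pushout (S := A ⊗[k] X.B0) (S' := A' ⊗[k] X.B0) g
      (fun s n => Subtype.ext (φ.map_smul0 s n.1)) ?_ T fun n => Subtype.ext ?_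
    · rw [eq_top_iff]
      rintro ⟨w, hw⟩ -
      have hw' : w ∈ Submodule.span (X.R0 A') (φ.f '' L.M0) := by rw [φ.span0]; exact hw
      rw [Submodule.mem_span_iff_exists_finset_subset] at hw'
      obtain ⟨c, t, ht, -, hc⟩ := hw'
      choose m hm using fun y : t => ht y.2
      have h1 : (⟨w, hw⟩ : L'.A0) = ∑ y : t, (c y.1 : A' ⊗[k] X.B0) • g ⟨m y, (hm y).1⟩ := by
        apply Subtype.ext
        rw [Submodule.coe_sum]
        change w = _
        rw [← hc, ← Finset.sum_coe_sort t fun y => c y • y]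
        refine Finset.sum_congr rfl fun y _ => ?_
        change c y.1 • y.1 = c y.1 • φ.f (m y)
        rw [(hm y).2]
      rw [h1]
      exact Submodule.sum_mem _ fun y _ =>
        Submodule.smul_mem _ _ (Submodule.subset_span ⟨_, rfl⟩)
    · change liftE A' f L.A0 (1 ⊗ₜ n) = φ.f n.1
      rw [liftE_tmul, one_smul, hf]
  intro z z' hz
  exact hbij.1 (Subtype.ext hz)

/-- **base change of line bundles is base change of modules** -/
theorem LB.Map.isBaseChange (φ : LB.Map h L L') [Algebra A A']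
    (hh : ∀ a, algebraMap A A' a = h a) [Module A L'.M] [IsScalarTower A A' L'.M]
    (f : L.M →ₗ[A] L'.M) (hf : ∀ m, f m = φ.f m) : IsBaseChange A' f := by
  refine isBaseChange_of_exhaust (φ.isBC f hf) L.isLat0.stable L.isLat0.ex_mem (fun w => ?_)
    (φ.injective_liftE hh f hf)
  rw [φ.bc_A0 f hf]
  exact L'.isLat0.ex_mem w

/-- the data of a base change, in terms of lattices -/
theorem LB.BC.exists_isBaseChange (hb : LB.BC h L L') :
    ∃ (_ : Algebra A A') (_ : Module A L'.M) (_ : IsScalarTower A A' L'.M) (f : L.M →ₗ[A] L'.M),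
      (∀ a, algebraMap A A' a = h a) ∧ IsBaseChange A' f ∧ IsBC f L.xE L'.xE ∧
      bc A' f L.A0 = L'.A0 ∧ bc A' f L.Ai = L'.Ai := by
  obtain ⟨φ⟩ := hb
  let i1 : Algebra A A' := h.toRingHom.toAlgebra
  let i2 : Module A L'.M := Module.compHom L'.M h.toRingHom
  have i3 : IsScalarTower A A' L'.M := ⟨fun a b c => by
    rw [Algebra.smul_def, mul_smul]; rfl⟩
  let f : L.M →ₗ[A] L'.M :=
    { toFun := φ.f
      map_add' := map_add φ.f
      map_smul' := fun a m => φ.map_smulA a m }
  exact ⟨i1, i2, i3, f, fun a => rfl, φ.isBaseChange (fun a => rfl) f fun m => rfl,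
    φ.isBC f fun m => rfl, φ.bc_A0 f fun m => rfl, φ.bc_Ai f fun m => rfl⟩

end LB

end Fermat.Agent.Jac
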