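import Fermat.Agent.Jac.RhoMk
import Fermat.Agent.Jac.ChRep
import Fermat.Agent.Jac.LBMap2
import Fermat.Agent.Jac.LBCoh

/-!
# Base change of good bundles
-/

universe u

set_option autoImplicit false

namespace Fermat.Agent.Jac

open LaurentPolynomial Submodule TensorProduct

section general

variable {A M : Type*} [CommRing A] [AddCommGroup M] [Module A M]

theorem eq_of_le_of_sup {P Q N0 Ni : Submodule A M} (hP : P ≤ N0) (hQ : Q ≤ Ni) (hPQ : P ⊔ Q = ⊤)
    (hd : N0 ⊓ Ni = ⊥) : N0 = P := by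
  refine le_antisymm (fun m hm => ?_) hP
  have h1 : m ∈ P ⊔ Q := by rw [hPQ]; trivial
  obtain ⟨p, hp, r, hr, rfl⟩ := Submodule.mem_sup.mp h1
  have h2 : r ∈ N0 ⊓ Ni := by
    refine ⟨?_, hQ hr⟩
    have := N0.sub_mem hm (hP hp)
    rwa [add_sub_cancel_left] at this
  rw [hd, Submodule.mem_bot] at h2
  rw [h2, add_zero]
  exact hp

variable [Module A[T;T⁻¹] M] [IsScalarTower A A[T;T⁻¹] M]

/-- a basis of `V` obtained from a homogeneous basis of `M`. -/
theorem exists_basis_secV {ι : Type*} {N0 Ni : Submodule A M} (h : Split N0 Ni)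
    (b : Module.Basis (ℤ × ι) A M) (v : ι → M) (hb : ∀ i, b i = (T i.1 : A[T;T⁻¹]) • v i.2)
    (hv : ∀ i, v i ∈ secV N0 Ni) :
    ∃ e : Module.Basis ι A (secV N0 Ni), ∀ i, (e i : M) = v i := by
  classical
  have hsup : ∀ n : ℤ, span A (b '' {i | n ≤ i.1}) ⊔ span A (b '' {i | i.1 < n}) = ⊤ := by
    intro n
    rw [← span_union, ← Set.image_union, ← b.span_eq, ← Set.image_univ]
    congr 2
    ext i
    simp only [Set.mem_union, Set.mem_ofPred_eq, Set.mem_univ, iff_true]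
    exact le_or_gt _ _
  have hdis : N0 ⊓ Ni = ⊥ := h.compl.inf_eq_bot
  have h0 : N0 = span A (b '' {i | (0 : ℤ) ≤ i.1}) := by
    refine eq_of_le_of_sup ?_ ?_ (hsup 0) hdis
    · rw [span_le]
      rintro _ ⟨i, hi, rfl⟩
      rw [hb]
      exact h.st0_int hi (hv _).1
    · rw [span_le]
      rintro _ ⟨i, hi, rfl⟩
      rw [hb]
      have h1 : (T i.1 : A[T;T⁻¹]) • v i.2 =
          (T (i.1 + 1) : A[T;T⁻¹]) • (T (-1) : A[T;T⁻¹]) • v i.2 := by
        rw [T_smul_T_smul]; congr 2; ring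
      rw [h1]
      have h2 : i.1 < 0 := hi
      exact h.sti_int (by omega) (hv _).2
  have hi : twT Ni = span A (b '' {i | i.1 < (1 : ℤ)}) := by
    refine eq_of_le_of_sup (Q := span A (b '' {i | (1 : ℤ) ≤ i.1})) (Ni := twT N0) ?_ ?_ ?_ ?_
    · rw [span_le]
      rintro _ ⟨i, hi, rfl⟩
      rw [SetLike.mem_coe, mem_twT, hb, T_smul_T_smul, add_comm, ← T_smul_T_smul]
      have h2 : i.1 < 1 := hi
      exact h.sti_int (by omega) (hv _).2
    · rw [span_le]
      rintro _ ⟨i, hi, rfl⟩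
      rw [SetLike.mem_coe, mem_twT, hb, T_smul_T_smul]
      have h2 : 1 ≤ i.1 := hi
      exact h.st0_int (by omega) (hv _).1
    · rw [sup_comm]; exact hsup 1
    · rw [eq_bot_iff]
      rintro m ⟨hm1, hm2⟩
      have h3 := h.eq_zero_of_mem hm2 hm1
      have h4 : m = (T 1 : A[T;T⁻¹]) • (T (-1) : A[T;T⁻¹]) • m := by
        rw [T_smul_T_smul]; simp
      rw [Submodule.mem_bot, h4, h3, smul_zero]
  have hli : LinearIndependent A v := by
    have h1 : v = b ∘ fun i => ((0 : ℤ), i) := by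
      funext i
      rw [Function.comp_apply, hb, T_zero, one_smul]
    rw [h1]
    exact b.linearIndependent.comp _ (Prod.mk_right_injective 0)
  have hli' : LinearIndependent A (fun i => (⟨v i, hv i⟩ : secV N0 Ni)) :=
    LinearIndependent.of_comp (secV N0 Ni).subtype hli
  have hspan : ⊤ ≤ span A (Set.range fun i => (⟨v i, hv i⟩ : secV N0 Ni)) := by
    rintro ⟨m, hm⟩ -
    have h1 : m ∈ span A (b '' {i | (0 : ℤ) ≤ i.1}) := by rw [← h0]; exact hm.1
    have h2 : m ∈ span A (b '' {i | i.1 < (1 : ℤ)}) := by rw [← hi]; exact hm.2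
    rw [b.mem_span_image] at h1 h2
    have h3 : m ∈ span A (Set.range v) := by
      rw [← b.linearCombination_repr m, Finsupp.linearCombination_apply, Finsupp.sum]
      refine Submodule.sum_mem _ fun i hi => Submodule.smul_mem _ _ ?_
      have h4 : i.1 = 0 := by
        have := h1 hi
        have := h2 hi
        simp only [Set.mem_ofPred_eq] at *
        omega
      rw [hb, h4, T_zero, one_smul]
      exact Submodule.subset_span ⟨_, rfl⟩
    have h5 : Set.range v = (secV N0 Ni).subtype '' Set.range (fun i => (⟨v i, hv i⟩ : secV N0 Ni)) := by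
      rw [← Set.range_comp]; rfl
    rw [h5, ← Submodule.map_span] at h3
    obtain ⟨z, hz, hz'⟩ := h3
    have h6 : (⟨m, hm⟩ : secV N0 Ni) = z := Subtype.ext hz'.symm
    rw [h6]
    exact hz
  exact ⟨Module.Basis.mk hli' hspan, fun i => by rw [Module.Basis.mk_apply]⟩

end general

variable {k : Type u} [Field k] {X : CurveData k} {A : Type u} [CommRing A] [Algebra k A]
  {A' : Type u} [CommRing A'] [Algebra k A'] {g : A →ₐ[k] A'}
  {q : Frame X} {N : LB X A} {N' : LB X A'}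

theorem mapL_C_mul_T (g : A →ₐ[k] A') (a : A) (n : ℤ) :
    AddMonoidAlgebra.mapAlgHom ℤ g (C a * T n : A[T;T⁻¹]) = (C (g a) * T n : A'[T;T⁻¹]) := by
  ext m
  rw [AddMonoidAlgebra.coeff_mapAlgHom, coeff_C_mul_T, coeff_C_mul_T]
  split_ifs
  · rfl
  · exact map_zero g

theorem bb_xU (g : A →ₐ[k] A') :
    Units.map (X.bb g : X.R A →* X.R A') (X.xU A) = X.xU A' := by
  ext
  change X.bb g (1 ⊗ₜ X.x) = 1 ⊗ₜ X.x
  simp [CurveData.bb]

theorem bb_lam (g : A →ₐ[k] A') (f : A[T;T⁻¹]) :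
    X.bb g (X.lam A f) = X.lam A' (AddMonoidAlgebra.mapAlgHom ℤ g f) := by
  induction f using LaurentPolynomial.induction_on' with
  | add p q hp hq => rw [map_add, map_add, map_add, map_add, hp, hq]
  | C_mul_T n a =>
    rw [mapL_C_mul_T, map_mul, map_mul, map_mul, CurveData.lam_C, CurveData.lam_C,
      CurveData.lam_T, CurveData.lam_T, ← bb_xU g, ← map_zpow]
    congr 1

theorem LB.Map.map_smulL (φ : LB.Map g N N') (f : A[T;T⁻¹]) (m : N.M) :
    φ.f (f • m) = (AddMonoidAlgebra.mapAlgHom ℤ g f : A'[T;T⁻¹]) • φ.f m := by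
  rw [LB.smul_lam, φ.map_smul, bb_lam]; rfl

theorem LB.Map.map_T (φ : LB.Map g N N') (n : ℤ) (m : N.M) :
    φ.f ((T n : A[T;T⁻¹]) • m) = (T n : A'[T;T⁻¹]) • φ.f m := by
  rw [φ.map_smulL]
  congr 1
  have := mapL_C_mul_T g 1 n
  rwa [map_one, map_one, map_one, one_mul, one_mul] at this

theorem LB.Map.map_act (φ : LB.Map g N N') (b : X.B) (m : N.M) :
    φ.f (N.act b m) = N'.act b (φ.f m) := by
  rw [LB.act_apply, LB.act_apply, φ.map_smul]
  simp [CurveData.bb]

theorem LB.Map.map_mem0 (φ : LB.Map g N N') {m : N.M} (hm : m ∈ N.A0) : φ.f m ∈ N'.A0 := by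
  change φ.f m ∈ N'.M0
  rw [← φ.span0]
  exact Submodule.subset_span ⟨m, hm, rfl⟩

theorem LB.Map.map_memi (φ : LB.Map g N N') {m : N.M} (hm : m ∈ N.Ai) : φ.f m ∈ N'.Ai := by
  change φ.f m ∈ N'.Mi
  rw [← φ.spani]
  exact Submodule.subset_span ⟨m, hm, rfl⟩

theorem LB.Map.map_mem_secV (φ : LB.Map g N N') {m : N.M} (hm : m ∈ secV N.A0 N.Ai) :
    φ.f m ∈ secV N'.A0 N'.Ai :=
  ⟨φ.map_mem0 hm.1, by rw [← φ.map_T]; exact φ.map_memi hm.2⟩

theorem LB.Map.exists_basis (φ : LB.Map g N N') (h : Split N.A0 N.Ai) (h' : Split N'.A0 N'.Ai)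
    {ι : Type*} [Finite ι] (e : Module.Basis ι A (secV N.A0 N.Ai)) :
    ∃ e' : Module.Basis ι A' (secV N'.A0 N'.Ai), ∀ i, (e' i : N'.M) = φ.f (e i : N.M) := by
  let i1 : Algebra A A' := g.toRingHom.toAlgebra
  let i2 : Module A N'.M := Module.compHom N'.M g.toRingHom
  have i3 : IsScalarTower A A' N'.M := ⟨fun a b c => by
    rw [Algebra.smul_def, mul_smul]; rfl⟩
  let f : N.M →ₗ[A] N'.M :=
    { toFun := φ.f
      map_add' := map_add φ.f
      map_smul' := fun a m => φ.map_smulA a m }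
  have hf : IsBaseChange A' f := φ.isBaseChange (fun a => rfl) f fun m => rfl
  let b0 : Module.Basis (ℤ × ι) A N.M :=
    (AddMonoidAlgebra.basis ℤ A).smulTower (h.basis e)
  refine exists_basis_secV h' (hf.basis b0) (fun i => φ.f (e i : N.M)) (fun i => ?_)
    fun i => φ.map_mem_secV (e i).2
  rw [hf.basis_apply]
  change φ.f (b0 i) = _
  rw [← φ.map_T]
  congr 1
  rw [Module.Basis.smulTower_apply, h.basis_apply]
  rfl

variable {ρ : X.B →ₐ[k] Matrix (Fin q.d) (Fin q.d) A[T;T⁻¹]} {u : Fin q.d → A}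
    {h : Split N.A0 N.Ai} {w : twT N.Ai →ₗ[A] A}
    {e : Module.Basis (Fin q.d) A (secV N.A0 N.Ai)}

/-- base change of `(ρ, u)` -/
theorem IsRho.map (g : A →ₐ[k] A') (H : IsRho q ρ u) :
    IsRho q ((ChRep.mapM q.d g).comp ρ) (fun i => g (u i)) where
  map_x := by rw [AlgHom.comp_apply, H.map_x, ChRep.mapM_scalar]
  mem0 b hb i l n hn := by
    rw [AlgHom.comp_apply, ChRep.coeff_mapM, H.mem0 b hb i l n hn, map_zero]
  memi b hb i l n hn := by
    rw [AlgHom.comp_apply, ChRep.coeff_mapM, H.memi b hb i l n hn, map_zero]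
  eigen b l := by
    have := congrArg g (H.eigen b l)
    rw [map_sum, map_mul, g.commutes] at this
    rw [← this]
    refine Finset.sum_congr rfl fun i _ => ?_
    rw [AlgHom.comp_apply, ChRep.coeff_mapM, map_mul]
  frame i l := by
    have := congrArg g (H.frame i l)
    rw [map_sum, apply_ite g, map_one, map_zero] at this
    rw [← this]
    refine Finset.sum_congr rfl fun j _ => ?_
    rw [map_mul, g.commutes, map_sum]
    congr 1
    refine Finset.sum_congr rfl fun r _ => ?_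
    rw [AlgHom.comp_apply, ChRep.coeff_mapM, map_mul]
  surj := by
    obtain ⟨c, hc⟩ := H.surj
    refine ⟨fun i => g (c i), ?_⟩
    have := congrArg g hc
    rw [map_sum, map_one] at this
    rw [← this]
    refine Finset.sum_congr rfl fun i _ => ?_
    rw [map_mul]

/-- **base change of good bundles** -/
theorem LB.HasRho.bc (H : N.HasRho q ρ u h w e) (φ : LB.Map g N N') :
    ∃ (h' : Split N'.A0 N'.Ai) (w' : twT N'.Ai →ₗ[A'] A')
      (e' : Module.Basis (Fin q.d) A' (secV N'.A0 N'.Ai)),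
      N'.HasRho q ((ChRep.mapM q.d g).comp ρ) (fun i => g (u i)) h' w' e' ∧
      ∀ i, (e' i : N'.M) = φ.f (e i : N.M) := by
  have h' : Split N'.A0 N'.Ai := N'.split (LB.BC.isCompl ⟨φ⟩ h.compl)
  obtain ⟨e', he'⟩ := φ.exists_basis h h' e
  refine ⟨h', _, e', LB.hasRho_of_act h' e' (H.isRho.map g) fun b l => ?_, he'⟩
  rw [he', ← φ.map_act, H.act, map_sum]
  refine Finset.sum_congr rfl fun i _ => ?_
  rw [φ.map_smulL, he']
  rfl

theorem LB.HasRho.good (H : N.HasRho q ρ u h w e) : N.Good q := ⟨h, w, H.cyc⟩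

theorem LB.Good.exists_hasRho (H : N.Good q) :
    ∃ (ρ : X.B →ₐ[k] Matrix (Fin q.d) (Fin q.d) A[T;T⁻¹]) (u : Fin q.d → A)
      (h : Split N.A0 N.Ai) (w : twT N.Ai →ₗ[A] A)
      (e : Module.Basis (Fin q.d) A (secV N.A0 N.Ai)), N.HasRho q ρ u h w e := by
  obtain ⟨h, w, hw⟩ := H
  obtain ⟨ρ, u, e, he⟩ := LB.exists_hasRho hw
  exact ⟨ρ, u, h, w, e, he⟩

/-- **good bundles are stable under base change** -/
theorem LB.Good.bc (H : N.Good q) (hb : LB.BC g N N') : N'.Good q := by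
  obtain ⟨ρ, u, h, w, e, he⟩ := H.exists_hasRho
  obtain ⟨φ⟩ := hb
  obtain ⟨h', w', e', H', -⟩ := he.bc φ
  exact H'.good

/-- good bundles have Euler characteristic zero -/
theorem LB.Good.chi_eq_zero {K : Type u} [Field K] [Algebra k K] {L : LB X K} (H : L.Good q) :
    L.chi = 0 := by
  have hc := H.isCompl
  have h0 : L.H0 = ⊥ := hc.inf_eq_bot
  have h1 : L.A0 ⊔ L.Ai = ⊤ := hc.sup_eq_top
  have : Subsingleton L.H1 := by
    change Subsingleton (L.M ⧸ (L.A0 ⊔ L.Ai))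
    rw [h1]
    infer_instance
  have h2 : Module.finrank K L.H0 = 0 := by rw [h0]; exact finrank_bot K L.M
  have h3 : Module.finrank K L.H1 = 0 := Module.finrank_zero_of_subsingleton
  rw [LB.chi, h2, h3]
  simp

end Fermat.Agent.Jac
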