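import Fermat.Agent.Jac.LiftInv

set_option autoImplicit false

/-!
# Lifting two-chart data along surjections with nilpotent kernel (abstract form)
-/

universe u

open TensorProduct

namespace Fermat.Agent.Jac

section Abs

variable {R0 R : Type u} [CommRing R0] [CommRing R] [Algebra R0 R]

/-- the extension of scalars is exhausted by the powers of `1/x` -/
theorem exists_pow_smul_eq_tmul (x0 : R0)
    (hx : ∀ r : R, ∃ (n : ℕ) (r0 : R0), algebraMap R0 R x0 ^ n * r = algebraMap R0 R r0)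
    {P : Type*} [AddCommMonoid P] [Module R0 P] (t : R ⊗[R0] P) :
    ∃ (n : ℕ) (p : P), algebraMap R0 R x0 ^ n • t = 1 ⊗ₜ[R0] p := by
  induction t using TensorProduct.induction_on with
  | zero => exact ⟨0, 0, by simp⟩
  | tmul r p =>
    obtain ⟨n, r', hr⟩ := hx r
    refine ⟨n, r' • p, ?_⟩
    rw [TensorProduct.smul_tmul', smul_eq_mul, hr, ← TensorProduct.smul_tmul, Algebra.smul_def,
      mul_one]
  | add s t hs ht =>
    obtain ⟨n, p, hp⟩ := hs
    obtain ⟨m, q, hq⟩ := ht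
    refine ⟨n + m, x0 ^ m • p + x0 ^ n • q, ?_⟩
    have h1 : ∀ (a : ℕ) (p : P), (1 : R) ⊗ₜ[R0] (x0 ^ a • p) =
        algebraMap R0 R x0 ^ a • ((1 : R) ⊗ₜ[R0] p) := by
      intro a p
      rw [TensorProduct.smul_tmul', ← TensorProduct.smul_tmul, Algebra.smul_def, map_pow,
        smul_eq_mul]
    rw [smul_add, TensorProduct.tmul_add, h1, h1, ← hp, ← hq, smul_smul, smul_smul]
    congr 2
    · ring
    · ring

theorem one_tmul_injective (hinj : Function.Injective (algebraMap R0 R)) (P : Type*)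
    [AddCommGroup P] [Module R0 P] [Module.Flat R0 P] :
    Function.Injective (fun p : P => (1 : R) ⊗ₜ[R0] p) := by
  have h := Module.Flat.rTensor_preserves_injective_linearMap (M := P)
    (Algebra.linearMap R0 R) hinj
  intro p q hpq
  have h1 : LinearMap.rTensor P (Algebra.linearMap R0 R) (1 ⊗ₜ[R0] p) =
      LinearMap.rTensor P (Algebra.linearMap R0 R) (1 ⊗ₜ[R0] q) := by
    rw [LinearMap.rTensor_tmul, LinearMap.rTensor_tmul, Algebra.linearMap_apply, map_one]
    exact hpq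
  have h2 := congrArg (TensorProduct.lid R0 P) (h h1)
  simpa using h2

end Abs

/-- **two charts**: lifting along nilpotent kernels -/
theorem exists_lift_abs {R0' Ri' R' R0 Ri R : Type u} [CommRing R0'] [CommRing Ri'] [CommRing R']
    [CommRing R0] [CommRing Ri] [CommRing R] (j0' : R0' →+* R') (ji' : Ri' →+* R')
    (j0 : R0 →+* R) (ji : Ri →+* R) (π0 : R0' →+* R0) (πi : Ri' →+* Ri) (π : R' →+* R)
    (c0 : ∀ r, π (j0' r) = j0 (π0 r)) (ci : ∀ r, π (ji' r) = ji (πi r))
    (hs0 : Function.Surjective π0) (hsi : Function.Surjective πi)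
    (hn0 : IsNilpotent (RingHom.ker π0)) (hni : IsNilpotent (RingHom.ker πi))
    (hn : IsNilpotent (RingHom.ker π))
    (inj0 : Function.Injective j0') (inji : Function.Injective ji')
    (x0 : R0') (yi : Ri') (hxy : j0' x0 * ji' yi = 1)
    (hx : ∀ r : R', ∃ (n : ℕ) (r0 : R0'), j0' x0 ^ n * r = j0' r0)
    (hy : ∀ r : R', ∃ (n : ℕ) (r0 : Ri'), ji' yi ^ n * r = ji' r0)
    {M M0 Mi : Type u} [AddCommGroup M] [Module R M] [Module.Invertible R M]
    [AddCommGroup M0] [Module R0 M0] [Module.Invertible R0 M0]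
    [AddCommGroup Mi] [Module Ri Mi] [Module.Invertible Ri Mi]
    (ι0 : M0 →+ M) (hι0 : ∀ r m, ι0 (r • m) = j0 r • ι0 m)
    (ιi : Mi →+ M) (hιi : ∀ r m, ιi (r • m) = ji r • ιi m)
    (e0 : ∀ m : M, ∃ (n : ℕ) (m0 : M0), π (j0' x0) ^ n • m = ι0 m0)
    (ei : ∀ m : M, ∃ (n : ℕ) (m0 : Mi), π (ji' yi) ^ n • m = ιi m0) :
    ∃ (M' P0 Pi : Type u) (_ : AddCommGroup M') (_ : Module R' M') (_ : AddCommGroup P0)
      (_ : Module R0' P0) (_ : AddCommGroup Pi) (_ : Module Ri' Pi)
      (κ0 : P0 →+ M') (κi : Pi →+ M') (F : M' →+ M) (f0 : P0 →+ M0) (fi : Pi →+ Mi),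
      Module.Invertible R0' P0 ∧ Module.Invertible Ri' Pi ∧
      (∀ r p, κ0 (r • p) = j0' r • κ0 p) ∧ (∀ r p, κi (r • p) = ji' r • κi p) ∧
      Function.Injective κ0 ∧ Function.Injective κi ∧
      (∀ r m, F (r • m) = π r • F m) ∧ Function.Surjective f0 ∧ Function.Surjective fi ∧
      (∀ p, F (κ0 p) = ι0 (f0 p)) ∧ (∀ p, F (κi p) = ιi (fi p)) ∧
      (∀ m, ∃ (n : ℕ) (p : P0), j0' x0 ^ n • m = κ0 p) ∧
      (∀ m, ∃ (n : ℕ) (p : Pi), ji' yi ^ n • m = κi p) := by
  classical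
  let _ : Algebra R0' R' := j0'.toAlgebra
  let _ : Algebra Ri' R' := ji'.toAlgebra
  let _ : Algebra R' R := π.toAlgebra
  let _ : Algebra R0' R0 := π0.toAlgebra
  let _ : Algebra Ri' Ri := πi.toAlgebra
  let _ : Module R' M := Module.compHom M π
  let _ : Module R0' M0 := Module.compHom M0 π0
  let _ : Module Ri' Mi := Module.compHom Mi πi
  let _ : Module R0' M := Module.compHom M (π.comp j0')
  let _ : Module Ri' M := Module.compHom M (π.comp ji')
  have : IsScalarTower R' R M := IsScalarTower.of_algebraMap_smul fun _ _ => rfl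
  have : IsScalarTower R0' R0 M0 := IsScalarTower.of_algebraMap_smul fun _ _ => rfl
  have : IsScalarTower Ri' Ri Mi := IsScalarTower.of_algebraMap_smul fun _ _ => rfl
  have : IsScalarTower R0' R' M := IsScalarTower.of_algebraMap_smul fun _ _ => rfl
  have : IsScalarTower Ri' R' M := IsScalarTower.of_algebraMap_smul fun _ _ => rfl
  obtain ⟨P0, _, _, _, f0, hf0⟩ := exists_lift_invertible (R' := R0') (R := R0) hs0 hn0 M0
  obtain ⟨Pi, _, _, _, fi, hfi⟩ := exists_lift_invertible (R' := Ri') (R := Ri) hsi hni Mi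
  let g0 : P0 →ₗ[R0'] M :=
    { toFun := fun p => ι0 (f0 p)
      map_add' := fun p q => by rw [map_add, map_add]
      map_smul' := fun r p => by
        rw [map_smul]
        change ι0 (π0 r • f0 p) = (π (j0' r)) • ι0 (f0 p)
        rw [hι0, c0] }
  let gi : Pi →ₗ[Ri'] M :=
    { toFun := fun p => ιi (fi p)
      map_add' := fun p q => by rw [map_add, map_add]
      map_smul' := fun r p => by
        rw [map_smul]
        change ιi (πi r • fi p) = (π (ji' r)) • ιi (fi p)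
        rw [hιi, ci] }
  let F : R' ⊗[R0'] P0 →ₗ[R'] M := LinearMap.liftBaseChange R' g0
  let G : R' ⊗[Ri'] Pi →ₗ[R'] M := LinearMap.liftBaseChange R' gi
  have hF1 : ∀ p, F (1 ⊗ₜ p) = ι0 (f0 p) := fun p => LinearMap.liftBaseChange_one_tmul _ _ _
  have hG1 : ∀ p, G (1 ⊗ₜ p) = ιi (fi p) := fun p => LinearMap.liftBaseChange_one_tmul _ _ _
  have hsmul : ∀ (r : R') (m : M), r • m = π r • m := fun r m => rfl
  have hF : Function.Surjective F := by
    intro m
    obtain ⟨n, m0, hn⟩ := e0 m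
    obtain ⟨p, hp⟩ := hf0 m0
    refine ⟨ji' yi ^ n • (1 ⊗ₜ p), ?_⟩
    rw [map_smul, hF1, hp, ← hn, hsmul, smul_smul, map_pow, ← mul_pow, ← map_mul,
      mul_comm (ji' yi), hxy, map_one, one_pow, one_smul]
  have hG : Function.Surjective G := by
    intro m
    obtain ⟨n, m0, hn⟩ := ei m
    obtain ⟨p, hp⟩ := hfi m0
    refine ⟨j0' x0 ^ n • (1 ⊗ₜ p), ?_⟩
    rw [map_smul, hG1, hp, ← hn, hsmul, smul_smul, map_pow, ← mul_pow, ← map_mul, hxy, map_one,
      one_pow, one_smul]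
  obtain ⟨φ, hφ⟩ := exists_lift_equiv (R' := R') (R := R) hn G hG F hF
  have hi0 : Function.Injective (fun p : P0 => (1 : R') ⊗ₜ[R0'] p) := one_tmul_injective inj0 P0
  have hii : Function.Injective (fun p : Pi => (1 : R') ⊗ₜ[Ri'] p) := one_tmul_injective inji Pi
  refine ⟨R' ⊗[R0'] P0, P0, Pi, inferInstance, inferInstance, inferInstance, inferInstance,
    inferInstance, inferInstance,
    { toFun := fun p => (1 : R') ⊗ₜ[R0'] p
      map_zero' := TensorProduct.tmul_zero _ _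
      map_add' := fun p q => TensorProduct.tmul_add _ _ _ },
    { toFun := fun p => φ ((1 : R') ⊗ₜ[Ri'] p)
      map_zero' := by rw [TensorProduct.tmul_zero, map_zero]
      map_add' := fun p q => by rw [TensorProduct.tmul_add, map_add] },
    F.toAddMonoidHom, f0.toAddMonoidHom, fi.toAddMonoidHom, inferInstance, inferInstance,
    fun r p => ?_, fun r p => ?_, hi0, φ.injective.comp hii, fun r m => ?_, hf0, hfi,
    fun p => hF1 p, fun p => ?_, fun m => ?_, fun m => ?_⟩
  · change (1 : R') ⊗ₜ[R0'] (r • p) = j0' r • ((1 : R') ⊗ₜ[R0'] p)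
    rw [TensorProduct.smul_tmul', ← TensorProduct.smul_tmul, Algebra.smul_def, smul_eq_mul]
    rfl
  · change φ ((1 : R') ⊗ₜ[Ri'] (r • p)) = ji' r • φ ((1 : R') ⊗ₜ[Ri'] p)
    rw [← map_smul, TensorProduct.smul_tmul', ← TensorProduct.smul_tmul, Algebra.smul_def,
      smul_eq_mul]
    rfl
  · change F (r • m) = π r • F m
    rw [map_smul]
    rfl
  · change F (φ (1 ⊗ₜ p)) = ιi (fi p)
    rw [hφ, hG1]
  · exact exists_pow_smul_eq_tmul x0 hx m
  · obtain ⟨n, p, hp⟩ := exists_pow_smul_eq_tmul yi hy (φ.symm m)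
    refine ⟨n, p, ?_⟩
    change ji' yi ^ n • m = φ (1 ⊗ₜ p)
    rw [← hp, map_smul, LinearEquiv.apply_symm_apply]
    rfl

end Fermat.Agent.Jac
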