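import Fermat.Agent.Jac.Def
import Fermat.Agent.Jac.LiftAbs

set_option autoImplicit false

/-!
# Lifting line bundles along surjections with nilpotent kernel
-/

universe u

open TensorProduct

namespace Fermat.Agent.Jac

variable {k : Type u} [Field k] {X : CurveData k} {A : Type u} [CommRing A] [Algebra k A]

/-- multiplication by `x` on an `X.R A`-module is bijective -/
theorem yA_pow_smul_xA_pow_smul (X : CurveData k) {M : Type*} [AddCommGroup M] [Module (X.R A) M]
    (n : ℕ) (m : M) : X.yA A ^ n • X.xA A ^ n • m = m := by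
  rw [smul_smul, ← mul_pow, mul_comm (X.yA A), X.xA_yA, one_pow, one_smul]

theorem xA_pow_smul_yA_pow_smul (X : CurveData k) {M : Type*} [AddCommGroup M] [Module (X.R A) M]
    (n : ℕ) (m : M) : X.xA A ^ n • X.yA A ^ n • m = m := by
  rw [smul_smul, ← mul_pow, X.xA_yA, one_pow, one_smul]

namespace LB

/-- the module of sections over `(V₀ ∩ V∞) × Spec A` is invertible -/
theorem invertible_M (L : LB X A) : Module.Invertible (X.R A) L.M := by
  have := L.inv0
  let F : X.R A ⊗[X.R0 A] L.M0 →ₗ[X.R A] L.M := LinearMap.liftBaseChange (X.R A) L.M0.subtype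
  have hF : ∀ p : L.M0, F (1 ⊗ₜ p) = p := fun p => by
    simp [F]
  have hbij : Function.Bijective F := by
    constructor
    · rw [injective_iff_map_eq_zero]
      intro t ht
      obtain ⟨n, p, hp⟩ := exists_pow_smul_eq_tmul (R0 := X.R0 A) (R := X.R A) (X.x0 A)
        (fun r => by
          simp only [X.algebraMap0, X.J0_x0]
          exact X.exists_pow_mul_xA A r) t
      rw [X.algebraMap0, X.J0_x0] at hp
      have h1 : (p : L.M) = 0 := by
        rw [← hF p, ← hp, map_smul, ht, smul_zero]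
      have h2 : X.xA A ^ n • t = 0 := by
        rw [hp, show p = 0 from Subtype.ext h1, TensorProduct.tmul_zero]
      rw [← yA_pow_smul_xA_pow_smul (A := A) X n t, h2, smul_zero]
    · intro m
      obtain ⟨n, hn⟩ := L.ex0 m
      refine ⟨X.yA A ^ n • (1 ⊗ₜ ⟨X.xA A ^ n • m, hn⟩), ?_⟩
      rw [map_smul, hF]
      exact yA_pow_smul_xA_pow_smul X n m
  exact Module.Invertible.congr (LinearEquiv.ofBijective F hbij)

variable {A' : Type u} [CommRing A'] [Algebra k A'] (h : A →ₐ[k] A')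

theorem ker_map_isNilpotent (hs : Function.Surjective h) (hn : IsNilpotent (RingHom.ker h))
    (C : Type u) [CommRing C] [Algebra k C] :
    IsNilpotent (RingHom.ker (Algebra.TensorProduct.map h (AlgHom.id k C))) := by
  rw [Algebra.TensorProduct.rTensor_ker h hs]
  obtain ⟨n, hn⟩ := hn
  refine ⟨n, ?_⟩
  rw [← Ideal.map_pow, hn, Ideal.zero_eq_bot, Ideal.map_bot, Ideal.zero_eq_bot]

theorem map_surjective (hs : Function.Surjective h) (C : Type u) [CommRing C] [Algebra k C] :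
    Function.Surjective (Algebra.TensorProduct.map h (AlgHom.id k C)) :=
  TensorProduct.map_surjective hs Function.surjective_id

section OfMaps

variable {M P0 Pi : Type u} [AddCommGroup M] [Module (X.R A) M] [AddCommGroup P0]
  [Module (X.R0 A) P0] [AddCommGroup Pi] [Module (X.Ri A) Pi] (κ0 : P0 →+ M) (κi : Pi →+ M)
  (h0 : Module.Invertible (X.R0 A) P0) (hi : Module.Invertible (X.Ri A) Pi)
  (s0 : ∀ r p, κ0 (r • p) = X.J0 A r • κ0 p) (si : ∀ r p, κi (r • p) = X.Ji A r • κi p)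
  (j0 : Function.Injective κ0) (ji : Function.Injective κi)
  (e0 : ∀ m, ∃ (n : ℕ) (p : P0), X.xA A ^ n • m = κ0 p)
  (ei : ∀ m, ∃ (n : ℕ) (p : Pi), X.yA A ^ n • m = κi p)

/-- the line bundle given by semilinear maps -/
noncomputable def ofMaps : LB X A :=
  letI : Module A M := Module.compHom M (algebraMap A (X.R A))
  letI : Module (X.R0 A) M := Module.compHom M (X.J0 A).toRingHom
  letI : Module (X.Ri A) M := Module.compHom M (X.Ji A).toRingHom
  letI : IsScalarTower A (X.R A) M := IsScalarTower.of_algebraMap_smul fun _ _ => rfl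
  letI : IsScalarTower (X.R0 A) (X.R A) M := IsScalarTower.of_algebraMap_smul fun _ _ => rfl
  letI : IsScalarTower (X.Ri A) (X.R A) M := IsScalarTower.of_algebraMap_smul fun _ _ => rfl
  let K0 : P0 →ₗ[X.R0 A] M :=
    { toFun := κ0
      map_add' := κ0.map_add
      map_smul' := s0 }
  let Ki : Pi →ₗ[X.Ri A] M :=
    { toFun := κi
      map_add' := κi.map_add
      map_smul' := si }
  { M := M
    M0 := LinearMap.range K0
    Mi := LinearMap.range Ki
    inv0 := .congr (LinearEquiv.ofInjective K0 j0)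
    invi := .congr (LinearEquiv.ofInjective Ki ji)
    ex0 := fun m => by
      obtain ⟨n, p, h⟩ := e0 m
      exact ⟨n, p, h.symm⟩
    exi := fun m => by
      obtain ⟨n, p, h⟩ := ei m
      exact ⟨n, p, h.symm⟩ }

theorem mem_ofMaps_M0 (m : M) :
    m ∈ (ofMaps κ0 κi h0 hi s0 si j0 ji e0 ei).M0 ↔ ∃ p, κ0 p = m := Iff.rfl
theorem mem_ofMaps_Mi (m : M) :
    m ∈ (ofMaps κ0 κi h0 hi s0 si j0 ji e0 ei).Mi ↔ ∃ p, κi p = m := Iff.rfl

theorem BC_ofMaps (h : A →ₐ[k] A') (L : LB X A') (F : M →+ L.M)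
    (hF : ∀ r m, F (r • m) = X.bb h r • F m) (f0 : P0 →+ L.M0) (fi : Pi →+ L.Mi)
    (hf0 : Function.Surjective f0) (hfi : Function.Surjective fi)
    (c0 : ∀ p, F (κ0 p) = f0 p) (ci : ∀ p, F (κi p) = fi p) :
    BC h (ofMaps κ0 κi h0 hi s0 si j0 ji e0 ei) L := by
  refine ⟨{ f := F, map_smul := hF, span0 := ?_, spani := ?_ }⟩
  · apply le_antisymm
    · rw [Submodule.span_le]
      rintro _ ⟨m, hm, rfl⟩
      obtain ⟨p, rfl⟩ := (mem_ofMaps_M0 κ0 κi h0 hi s0 si j0 ji e0 ei m).1 hm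
      have h1 : F (κ0 p) ∈ L.M0 := by
        rw [c0]
        exact (f0 p).2
      exact h1
    · intro m hm
      obtain ⟨p, hp⟩ := hf0 ⟨m, hm⟩
      apply Submodule.subset_span
      have h1 : F (κ0 p) = m := by rw [c0, hp]
      exact ⟨κ0 p, (mem_ofMaps_M0 κ0 κi h0 hi s0 si j0 ji e0 ei _).2 ⟨p, rfl⟩, h1⟩
  · apply le_antisymm
    · rw [Submodule.span_le]
      rintro _ ⟨m, hm, rfl⟩
      obtain ⟨p, rfl⟩ := (mem_ofMaps_Mi κ0 κi h0 hi s0 si j0 ji e0 ei m).1 hm
      have h1 : F (κi p) ∈ L.Mi := by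
        rw [ci]
        exact (fi p).2
      exact h1
    · intro m hm
      obtain ⟨p, hp⟩ := hfi ⟨m, hm⟩
      apply Submodule.subset_span
      have h1 : F (κi p) = m := by rw [ci, hp]
      exact ⟨κi p, (mem_ofMaps_Mi κ0 κi h0 hi s0 si j0 ji e0 ei _).2 ⟨p, rfl⟩, h1⟩

end OfMaps

/-- **line bundles lift along surjections with nilpotent kernel** -/
theorem exists_lift (hs : Function.Surjective h) (hn : IsNilpotent (RingHom.ker h))
    (L : LB X A') : ∃ L' : LB X A, LB.BC h L' L := by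
  have := L.inv0
  have := L.invi
  have := L.invertible_M
  have hbx : X.bb h (X.xA A) = X.xA A' := by simp [CurveData.bb, CurveData.xA]
  have hby : X.bb h (X.yA A) = X.yA A' := by simp [CurveData.bb, CurveData.yA]
  have H := exists_lift_abs (R0' := X.R0 A) (Ri' := X.Ri A) (R' := X.R A) (R0 := X.R0 A')
    (Ri := X.Ri A') (R := X.R A') (X.J0 A).toRingHom (X.Ji A).toRingHom (X.J0 A').toRingHom
    (X.Ji A').toRingHom (X.b0 h).toRingHom (X.bi h).toRingHom (X.bb h).toRingHom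
    (X.bb_J0 h) (X.bb_Ji h) (map_surjective h hs X.B0) (map_surjective h hs X.Bi)
    (ker_map_isNilpotent h hs hn X.B0) (ker_map_isNilpotent h hs hn X.Bi)
    (ker_map_isNilpotent h hs hn X.B) (X.J0_injective A) (X.Ji_injective A) (X.x0 A) (X.yi A)
    (by
      change X.J0 A (X.x0 A) * X.Ji A (X.yi A) = 1
      rw [X.J0_x0, X.Ji_yi, X.xA_yA])
    (fun r => by
      change ∃ n r0, X.J0 A (X.x0 A) ^ n * r = X.J0 A r0
      rw [X.J0_x0]
      exact X.exists_pow_mul_xA A r)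
    (fun r => by
      change ∃ n r0, X.Ji A (X.yi A) ^ n * r = X.Ji A r0
      rw [X.Ji_yi]
      exact X.exists_pow_mul_yA A r)
    (M := L.M) (M0 := L.M0) (Mi := L.Mi) L.M0.subtype.toAddMonoidHom
    (fun r m => L.smul0 r m) L.Mi.subtype.toAddMonoidHom (fun r m => L.smuli r m)
    (fun m => by
      change ∃ n m0, X.bb h (X.J0 A (X.x0 A)) ^ n • m = _
      rw [X.J0_x0, hbx]
      obtain ⟨n, hn⟩ := L.ex0 m
      exact ⟨n, ⟨_, hn⟩, rfl⟩)
    (fun m => by
      change ∃ n m0, X.bb h (X.Ji A (X.yi A)) ^ n • m = _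
      rw [X.Ji_yi, hby]
      obtain ⟨n, hn⟩ := L.exi m
      exact ⟨n, ⟨_, hn⟩, rfl⟩)
  obtain ⟨M', P0, Pi, _, _, _, _, _, _, κ0, κi, F, f0, fi, h0, hi, s0, si, j0, ji, hF, hf0, hfi,
    c0, ci, e0, ei⟩ := H
  have e0' : ∀ m, ∃ (n : ℕ) (p : P0), X.xA A ^ n • m = κ0 p := fun m => by
    obtain ⟨n, p, hp⟩ := e0 m
    refine ⟨n, p, ?_⟩
    rw [← hp, ← X.J0_x0]
    rfl
  have ei' : ∀ m, ∃ (n : ℕ) (p : Pi), X.yA A ^ n • m = κi p := fun m => by
    obtain ⟨n, p, hp⟩ := ei m
    refine ⟨n, p, ?_⟩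
    rw [← hp, ← X.Ji_yi]
    rfl
  exact ⟨ofMaps κ0 κi h0 hi s0 si j0 ji e0' ei',
    BC_ofMaps κ0 κi h0 hi s0 si j0 ji e0' ei' h L F hF f0 fi hf0 hfi c0 ci⟩

end LB

end Fermat.Agent.Jac
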