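import Fermat.Agent.Jac.Def

set_option autoImplicit false

/-!
# Smoothness of the rings representing families of line bundles
-/

universe u

namespace Fermat.Agent.Jac

variable {k : Type u} [Field k] {X : CurveData k}

section BCcomp

variable {A A' A'' : Type u} [CommRing A] [Algebra k A] [CommRing A'] [Algebra k A']
    [CommRing A''] [Algebra k A''] {h : A →ₐ[k] A'} {h' : A' →ₐ[k] A''} {L : LB X A}
    {L' : LB X A'} {L'' : LB X A''}

theorem SmoothR.bb_comp (r : X.R A) : X.bb (h'.comp h) r = X.bb h' (X.bb h r) := by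
  induction r using TensorProduct.induction_on with
  | zero => simp
  | tmul a b => simp [CurveData.bb]
  | add r s hr hs => rw [map_add, map_add, hr, hs, map_add]

theorem SmoothR.map_smul0 (F : LB.Map h L L') (r : X.R0 A) (m : L.M) :
    F.f (r • m) = X.b0 h r • F.f m := by
  rw [L.smul0, F.map_smul, X.bb_J0, L'.smul0]

theorem SmoothR.map_smuli (F : LB.Map h L L') (r : X.Ri A) (m : L.M) :
    F.f (r • m) = X.bi h r • F.f m := by
  rw [L.smuli, F.map_smul, X.bb_Ji, L'.smuli]

/-- composition of base changes -/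
theorem BC_comp (H : LB.BC h L L') (H' : LB.BC h' L' L'') :
    LB.BC (h'.comp h) L L'' := by
  obtain ⟨F⟩ := H
  obtain ⟨G⟩ := H'
  refine ⟨⟨G.f.comp F.f, fun r m ↦ ?_, ?_, ?_⟩⟩
  · rw [AddMonoidHom.comp_apply, F.map_smul, G.map_smul, ← SmoothR.bb_comp]
    rfl
  · rw [← G.span0, ← F.span0]
    refine le_antisymm (Submodule.span_mono ?_) (Submodule.span_le.2 ?_)
    · rintro _ ⟨m, hm, rfl⟩
      exact ⟨F.f m, Submodule.subset_span ⟨m, hm, rfl⟩, rfl⟩
    · rintro _ ⟨m, hm, rfl⟩
      refine Submodule.span_induction (p := fun m' _ ↦ G.f m' ∈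
        Submodule.span (X.R0 A'') ((G.f.comp F.f) '' (L.M0 : Set L.M))) ?_ ?_ ?_ ?_ hm
      · rintro _ ⟨n, hn, rfl⟩
        exact Submodule.subset_span ⟨n, hn, rfl⟩
      · rw [map_zero]
        exact zero_mem _
      · intro m n _ _ hm hn
        rw [map_add]
        exact add_mem hm hn
      · intro r m _ hm
        rw [SmoothR.map_smul0]
        exact Submodule.smul_mem _ _ hm
  · rw [← G.spani, ← F.spani]
    refine le_antisymm (Submodule.span_mono ?_) (Submodule.span_le.2 ?_)
    · rintro _ ⟨m, hm, rfl⟩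
      exact ⟨F.f m, Submodule.subset_span ⟨m, hm, rfl⟩, rfl⟩
    · rintro _ ⟨m, hm, rfl⟩
      refine Submodule.span_induction (p := fun m' _ ↦ G.f m' ∈
        Submodule.span (X.Ri A'') ((G.f.comp F.f) '' (L.Mi : Set L.M))) ?_ ?_ ?_ ?_ hm
      · rintro _ ⟨n, hn, rfl⟩
        exact Submodule.subset_span ⟨n, hn, rfl⟩
      · rw [map_zero]
        exact zero_mem _
      · intro m n _ _ hm hn
        rw [map_add]
        exact add_mem hm hn
      · intro r m _ hm
        rw [SmoothR.map_smuli]
        exact Submodule.smul_mem _ _ hm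

end BCcomp

/-- **Smoothness of a ring representing a family of line bundles**, from lifting along square-zero
thickenings. -/
theorem smooth_of_universal {R : Type u} [CommRing R] [Algebra k R] [Algebra.FiniteType k R]
    (Good : ∀ (A : Type u) [CommRing A] [Algebra k A], LB X A → Prop) (N : LB X R)
    (huniv : ∀ (A : Type u) [CommRing A] [Algebra k A] (L : LB X A), Good A L →
      ∃! g : R →ₐ[k] A, LB.BC g N L)
    (hbc : ∀ (A : Type u) [CommRing A] [Algebra k A] (h : R →ₐ[k] A), ∃ L : LB X A,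
      LB.BC h N L ∧ Good A L)
    (hlift : ∀ (A : Type u) [CommRing A] [Algebra k A] (I : Ideal A), I ^ 2 = ⊥ →
      ∀ L : LB X (A ⧸ I), Good (A ⧸ I) L →
        ∃ L' : LB X A, LB.BC (Ideal.Quotient.mkₐ k I) L' L ∧ Good A L') :
    Algebra.Smooth k R := by
  have h1 : Algebra.FormallySmooth k R := by
    refine Algebra.FormallySmooth.of_comp_surjective fun A _ _ I hI f ↦ ?_
    obtain ⟨L, hL, hG⟩ := hbc (A ⧸ I) f
    obtain ⟨L', hL', hG'⟩ := hlift A I hI L hG
    obtain ⟨g, hg, -⟩ := huniv A L' hG'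
    exact ⟨g, (huniv (A ⧸ I) L hG).unique (BC_comp hg hL') hL⟩
  have : IsNoetherianRing k := inferInstance
  exact ⟨h1, (Algebra.FinitePresentation.of_finiteType).1 inferInstance⟩

end Fermat.Agent.Jac
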