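import Fermat.Agent.Jac.LiftGoodQ
import Fermat.Agent.Jac.LiftLB
import Fermat.Agent.Jac.SmoothR
import Fermat.Agent.Jac.Stmts

set_option autoImplicit false

/-!
# Smoothness of the charts
-/

universe u

namespace Fermat.Agent.Jac

variable {k : Type u} [Field k] {X : CurveData k}

/-- **Smoothness of the chart rings** -/
theorem smooth_chart (hbc : BCExists X) (q : Frame X) {R : Type u} [CommRing R] [Algebra k R]
    [Algebra.FiniteType k R] (N : LB X R) (hN : N.Good q)
    (good_bc : ∀ {A : Type u} [CommRing A] [Algebra k A] {A' : Type u} [CommRing A'] [Algebra k A']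
      (h : A →ₐ[k] A') (L : LB X A) (L' : LB X A'), LB.BC h L L' → L.Good q → L'.Good q)
    (univ : ∀ {A : Type u} [CommRing A] [Algebra k A] (L : LB X A), L.Good q →
      ∃ g : R →ₐ[k] A, LB.BC g N L)
    (uniq : ∀ {A : Type u} [CommRing A] [Algebra k A] (L : LB X A) (g g' : R →ₐ[k] A),
      LB.BC g N L → LB.BC g' N L → g = g') : Algebra.Smooth k R := by
  refine smooth_of_universal (fun A _ _ L ↦ L.Good q) N (fun A _ _ L hL ↦ ?_) (fun A _ _ h ↦ ?_)
    (fun A _ _ I hI L hL ↦ ?_)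
  · obtain ⟨g, hg⟩ := univ L hL
    exact ⟨g, hg, fun g' hg' ↦ uniq L g' g hg' hg⟩
  · obtain ⟨L, hL⟩ := hbc h N
    exact ⟨L, hL, good_bc h N L hL hN⟩
  · have hn : IsNilpotent I := ⟨2, hI⟩
    have hker : RingHom.ker (Ideal.Quotient.mkₐ k I) = I := by
      ext a
      rw [RingHom.mem_ker, Ideal.Quotient.mkₐ_eq_mk, Ideal.Quotient.eq_zero_iff_mem]
    obtain ⟨L', hL'⟩ := LB.exists_lift (Ideal.Quotient.mkₐ k I)
      (Ideal.Quotient.mkₐ_surjective k I) (by rw [hker]; exact hn) L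
    exact ⟨L', hL', LB.good_lift hn hL' hL⟩

end Fermat.Agent.Jac
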