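import Fermat.Agent.Jac.Basic
import Fermat.Agent.Jac.ChartsMain
import Fermat.Agent.Jac.ChLB
import Fermat.Agent.Jac.ChRep
import Fermat.Agent.Jac.ClMain
import Fermat.Agent.Jac.RhoBC
import Fermat.Agent.Jac.RhoMap
import Fermat.Agent.Jac.RhoUniq
import Fermat.Agent.Jac.SmoothQ

/-!
# The chart of a frame

For every frame `q` with `q.d = deg x`, the functor of rigidified bundles which are good with
respect to `q` is represented by a smooth `k`-algebra of finite type.
-/

universe u

set_option autoImplicit false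

namespace Fermat.Agent.Jac

open LaurentPolynomial

variable {k : Type u} [Field k] {X : CurveData k}

/-- the universal good bundle -/
theorem exists_universal [IsAlgClosed k] (q : Frame X) (hd : q.d = X.deg) :
    ∃ (R : Type u) (_ : CommRing R) (_ : Algebra k R) (_ : Algebra.FiniteType k R) (N : LB X R),
      N.Good q ∧
      (∀ {A : Type u} [CommRing A] [Algebra k A] (L : LB X A), L.Good q →
        ∃ g : R →ₐ[k] A, LB.BC g N L) ∧
      ∀ {A : Type u} [CommRing A] [Algebra k A] (L : LB X A) (g g' : R →ₐ[k] A),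
        LB.BC g N L → LB.BC g' N L → g = g' := by
  obtain ⟨R, i1, i2, i3, ρ, u, hρ, huniv, huniq⟩ := exists_rep q
  obtain ⟨N, hs, w, e, hN⟩ : ∃ (N : LB X R) (hs : Split N.A0 N.Ai) (w : twT N.Ai →ₗ[R] R)
      (e : Module.Basis (Fin q.d) R (secV N.A0 N.Ai)), N.HasRho q ρ u hs w e := by
    obtain ⟨d, m, b, n, t⟩ := q
    obtain rfl : d = X.deg := hd
    exact exists_lb _ X.basis0 X.basis0_apply X.basisi X.basisi_apply ρ u hρ
  refine ⟨R, i1, i2, i3, N, hN.good, ?_, ?_⟩
  · intro A _ _ L hL
    obtain ⟨ρ', u', h', w', e', hL'⟩ := hL.exists_hasRho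
    obtain ⟨g, hg, -⟩ := huniv A ρ' u' hL'.isRho
    exact ⟨g, hN.bc_of_compat hL' g hg⟩
  · intro A _ _ L g g' hg hg'
    obtain ⟨φ⟩ := hg
    obtain ⟨φ'⟩ := hg'
    obtain ⟨h1, w1, e1, H1, -⟩ := hN.bc φ
    obtain ⟨h2, w2, e2, H2, -⟩ := hN.bc φ'
    obtain ⟨hρ', hu'⟩ := H1.unique H2
    refine huniq A g g' (fun b i l n => ?_) fun i => congrFun hu' i
    have h3 := congrArg (fun r : X.B →ₐ[k] Matrix (Fin q.d) (Fin q.d) A[T;T⁻¹] =>
      (r b i l).coeff n) hρ'
    simpa only [AlgHom.comp_apply, ChRep.coeff_mapM] using h3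

/-- **the chart of a frame** -/
theorem exists_oneChart_of [IsAlgClosed k] (q : Frame X) (hd : q.d = X.deg)
    (good_open : ∀ {A : Type u} [CommRing A] [Algebra k A] {K : Type u} [Field K] [IsAlgClosed K]
      [Algebra k K] (φ : A →ₐ[k] K) (L : LB X A) (L' : LB X K), LB.BC φ L L' → L'.Good q →
      ∃ f : A, φ f ≠ 0 ∧ ∀ L'' : LB X (Localization.Away f),
        LB.BC (IsScalarTower.toAlgHom k A (Localization.Away f)) L L'' → L''.Good q) :
    ∃ C : OneChart X, ∀ {A : Type u} [CommRing A] [Algebra k A] (L : LB X A),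
      C.Good L ↔ L.Good q := by
  obtain ⟨R, i1, i2, i3, N, hN, huniv, huniq⟩ := exists_universal q hd
  refine ⟨{
    R := R
    fintype := i3
    smooth := smooth_chart (bcExists X) q N hN (fun h L L' hb hL => hL.bc hb) huniv huniq
    N := N
    rig := hN.rig
    Good := fun L => L.Good q
    good_N := hN
    good_bc := fun h L L' hb hL => hL.bc hb
    good_chi := fun L hL => hL.chi_eq_zero
    good_open := good_open
    univ := fun L hL _ => huniv L hL
    uniq := huniq }, fun L => Iff.rfl⟩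

end Fermat.Agent.Jac
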