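import Fermat.Agent.Jac.Good
import Fermat.Agent.Jac.ChCoord

/-!
# The matrices of a good bundle
-/

universe u

set_option autoImplicit false

namespace Fermat.Agent.Jac

open LaurentPolynomial Submodule

section

variable {A M : Type*} [CommRing A] [AddCommGroup M] [Module A M] [Module A[T;T⁻¹] M]
  [IsScalarTower A A[T;T⁻¹] M] {N0 Ni : Submodule A M} (h : Split N0 Ni)
  {ι : Type*} [Fintype ι] (e : Module.Basis ι A (secV N0 Ni))

include h

theorem Split.cfV_lp (v : secV N0 Ni) (f : A[T;T⁻¹]) :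
    h.cfV (f • (v : M)) = f.coeff 0 • v := by
  classical
  conv_lhs => rw [lp_eq_sum f _ (Finset.Subset.refl _), Finset.sum_smul, map_sum]
  have h1 : ∀ n, h.cfV ((C (f.coeff n) * T n : A[T;T⁻¹]) • (v : M)) =
      if n = 0 then f.coeff 0 • v else 0 := by
    intro n
    rw [mul_smul, C_smul', map_smul]
    split_ifs with hn
    · subst hn
      rw [T_zero, one_smul, h.cfV_coe]
    · rw [h.cfV_T_smul v hn, smul_zero]
  rw [Finset.sum_congr rfl fun n _ => h1 n, Finset.sum_ite_eq']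
  split_ifs with h0
  · rfl
  · rw [Finsupp.notMem_support_iff.mp h0, zero_smul]

/-- the coefficient maps in coordinates. -/
theorem Split.cfV_eq (n : ℤ) (m : M) :
    h.cfV ((T (-n) : A[T;T⁻¹]) • m) = ∑ i, ((h.basis e).repr m i).coeff n • e i := by
  conv_lhs => rw [← (h.basis e).sum_repr m, Finset.smul_sum, map_sum]
  refine Finset.sum_congr rfl fun i _ => ?_
  rw [smul_smul, h.basis_apply e, h.cfV_lp, coeff_T_mul]
  congr 2
  ring

theorem Split.repr_sum_smul (f : ι → A[T;T⁻¹]) (i : ι) :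
    (h.basis e).repr (∑ l, f l • ((e l : secV N0 Ni) : M)) i = f i := by
  have h1 : ∑ l, f l • ((e l : secV N0 Ni) : M) = ∑ l, f l • h.basis e l := by
    simp only [h.basis_apply]
  rw [h1, (h.basis e).repr_sum_self]

end

variable {k : Type u} [Field k] {X : CurveData k} {A : Type u} [CommRing A] [Algebra k A]
  {q : Frame X} {N : LB X A}

/-- the action of `B` on `N.M` in coordinates. -/
theorem LB.HasRho.repr_act {ρ : X.B →ₐ[k] Matrix (Fin q.d) (Fin q.d) A[T;T⁻¹]} {u : Fin q.d → A}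
    {h : Split N.A0 N.Ai} {w : twT N.Ai →ₗ[A] A}
    {e : Module.Basis (Fin q.d) A (secV N.A0 N.Ai)} (H : N.HasRho q ρ u h w e)
    (b : X.B) (l i : Fin q.d) : (h.basis e).repr (N.act b (e l : N.M)) i = ρ b i l := by
  rw [H.act, h.repr_sum_smul e]

/-- every good bundle has matrices. -/
theorem LB.exists_hasRho {h : Split N.A0 N.Ai} {w : twT N.Ai →ₗ[A] A}
    (hw : CycData N.act X.e q.b q.n q.t h w) :
    ∃ (ρ : X.B →ₐ[k] Matrix (Fin q.d) (Fin q.d) A[T;T⁻¹]) (u : Fin q.d → A)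
      (e : Module.Basis (Fin q.d) A (secV N.A0 N.Ai)), N.HasRho q ρ u h w e := by
  classical
  let E : secV N.A0 N.Ai ≃ₗ[A] (Fin q.d → A) :=
    LinearEquiv.ofBijective (h.coords N.act q.b q.n q.t w) hw.bij
  let e : Module.Basis (Fin q.d) A (secV N.A0 N.Ai) := Module.Basis.ofEquivFun E
  let ρ : X.B →ₐ[k] Matrix (Fin q.d) (Fin q.d) A[T;T⁻¹] :=
    { toRingHom := (LinearMap.toMatrixAlgEquiv (h.basis e)).toRingEquiv.toRingHom.comp N.act
      commutes' := fun c => by
        have h1 : N.act (algebraMap k X.B c) =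
            (C (algebraMap k A c) : A[T;T⁻¹]) • (1 : Module.End A[T;T⁻¹] N.M) := by
          ext m
          rw [LB.act_k, LinearMap.smul_apply, C_smul']; rfl
        change (LinearMap.toMatrixAlgEquiv (h.basis e)) (N.act (algebraMap k X.B c)) = _
        rw [h1, map_smul, map_one]
        ext i j
        rw [Matrix.smul_apply, Matrix.algebraMap_matrix_apply]
        by_cases hij : i = j
        · subst hij
          rw [Matrix.one_apply_eq, if_pos rfl, smul_eq_mul, mul_one]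
          rfl
        · rw [Matrix.one_apply_ne hij, if_neg hij, smul_zero] }
  refine ⟨ρ, fun i => w ⟨e i, (e i).2.2⟩, e, ⟨hw, fun i => ?_, fun b l => ?_, fun i => rfl⟩⟩
  · change E (e i) = _
    rw [Module.Basis.coe_ofEquivFun, LinearEquiv.apply_symm_apply]
  · conv_lhs => rw [← (h.basis e).sum_repr (N.act b (e l : N.M))]
    refine Finset.sum_congr rfl fun i _ => ?_
    rw [h.basis_apply]
    congr 1
    change _ = (LinearMap.toMatrixAlgEquiv (h.basis e)) (N.act b) i l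
    rw [LinearMap.toMatrixAlgEquiv_apply, h.basis_apply]

variable {ρ : X.B →ₐ[k] Matrix (Fin q.d) (Fin q.d) A[T;T⁻¹]} {u : Fin q.d → A}
    {h : Split N.A0 N.Ai} {w : twT N.Ai →ₗ[A] A}
    {e : Module.Basis (Fin q.d) A (secV N.A0 N.Ai)}

theorem Split.Ni_le_twT {A M : Type*} [CommRing A] [AddCommGroup M] [Module A M]
    [Module A[T;T⁻¹] M] [IsScalarTower A A[T;T⁻¹] M] {N0 Ni : Submodule A M} (h : Split N0 Ni) :
    Ni ≤ twT Ni := fun m hm => h.sti m hm

/-- `w` vanishes on `Ni = T⁻¹ W` since `x` has a pole at the base point. -/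
theorem CycData.map_Ni (hw : CycData N.act X.e q.b q.n q.t h w) {m : N.M} (hm : m ∈ N.Ai) :
    w ⟨m, h.Ni_le_twT hm⟩ = 0 := by
  have h1 : (T 1 : A[T;T⁻¹]) • m ∈ twT N.Ai := by
    rw [mem_twT, T_smul_T_smul]; simpa using hm
  have h2 := hw.eigen ⟨X.y, X.y_mem⟩ ⟨_, h1⟩ ⟨m, h.Ni_le_twT hm⟩ (by
    change m = N.act X.y ((T 1 : A[T;T⁻¹]) • m)
    rw [LB.act_y, T_smul_T_smul]; simp)
  rw [h2, X.e_y, map_zero, zero_mul]

/-- for `m ∈ W`, `m - c_0(m) ∈ Ni`. -/
theorem Split.sub_cfV_mem {A M : Type*} [CommRing A] [AddCommGroup M] [Module A M]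
    [Module A[T;T⁻¹] M] [IsScalarTower A A[T;T⁻¹] M] {N0 Ni : Submodule A M} (h : Split N0 Ni)
    {m : M} (hm : m ∈ twT Ni) : m - h.cfV m ∈ Ni := by
  have h1 : (T (-1) : A[T;T⁻¹]) • (N0.projection Ni h.compl m) ∈ Ni := by
    have h2 : N0.projection Ni h.compl m = m - (m - N0.projection Ni h.compl m) := by abel
    rw [h2, smul_sub]
    exact Ni.sub_mem hm (h.sti _ (N0.sub_projection_mem h.compl m))
  rw [h.coe_cfV, Ni.projection_apply_of_mem_left h.compl.symm h1, T_smul_T_smul]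
  simpa using N0.sub_projection_mem h.compl m

/-- the value of `w` on `m ∈ W` is the value on `c_0(m)`. -/
theorem CycData.eq_cfV (hw : CycData N.act X.e q.b q.n q.t h w) {m : N.M} (hm : m ∈ twT N.Ai) :
    w ⟨m, hm⟩ = w ⟨h.cfV m, (h.cfV m).2.2⟩ := by
  have h1 := hw.map_Ni (h.sub_cfV_mem hm)
  have h2 : (⟨m - h.cfV m, h.Ni_le_twT (h.sub_cfV_mem hm)⟩ : twT N.Ai) =
      ⟨m, hm⟩ - ⟨h.cfV m, (h.cfV m).2.2⟩ := rfl
  rw [h2, map_sub, sub_eq_zero] at h1
  exact h1

theorem LB.HasRho.w_secV (H : N.HasRho q ρ u h w e) (v : secV N.A0 N.Ai) :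
    w ⟨v, v.2.2⟩ = ∑ i, u i * e.repr v i := by
  have h1 : (⟨v, v.2.2⟩ : twT N.Ai) = ∑ i, e.repr v i • ⟨(e i : N.M), (e i).2.2⟩ := by
    ext
    rw [AddSubmonoidClass.coe_finsetSum]
    conv_lhs => rw [← e.sum_repr v]
    rw [AddSubmonoidClass.coe_finsetSum]
    rfl
  rw [h1, map_sum]
  refine Finset.sum_congr rfl fun i _ => ?_
  rw [map_smul, H.val, smul_eq_mul, mul_comm]

theorem act_mem_twT {b : X.B} (hb : b ∈ X.Bi) {m : N.M} (hm : m ∈ twT N.Ai) :
    N.act b m ∈ twT N.Ai := by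
  rw [mem_twT, ← map_smul (N.act b)]
  exact LB.act_memi hb hm

/-- the matrices of a good bundle satisfy the equations of the chart. -/
theorem LB.HasRho.isRho (H : N.HasRho q ρ u h w e) : IsRho q ρ u := by
  classical
  refine ⟨?_, ?_, ?_, ?_, ?_, ?_⟩
  · ext i l : 2
    rw [← H.repr_act, LB.act_x, map_smul, Finsupp.smul_apply, ← h.basis_apply e l,
      Module.Basis.repr_self]
    by_cases hil : i = l
    · subst hil; simp
    · rw [Finsupp.single_apply, if_neg (Ne.symm hil), smul_zero, Matrix.scalar_apply,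
        Matrix.diagonal_apply_ne _ hil]
  · intro b hb i l n hn
    rw [← H.repr_act]
    exact h.coeff_eq_zero_of_mem_N0 _ (LB.act_mem0 hb (e l).2.1) i hn
  · intro b hb i l n hn
    rw [← H.repr_act]
    exact h.coeff_eq_zero_of_mem_twT _ (act_mem_twT hb (e l).2.2) i hn
  · intro b l
    have h1 := H.cyc.eigen b ⟨_, (e l).2.2⟩ ⟨_, act_mem_twT b.2 (e l).2.2⟩ rfl
    rw [H.val, H.cyc.eq_cfV, H.w_secV] at h1
    rw [← h1]
    refine Finset.sum_congr rfl fun i _ => ?_
    congr 1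
    have h2 := h.cfV_eq e 0 (N.act b (e l : N.M))
    rw [neg_zero, T_zero, one_smul] at h2
    rw [h2, e.repr_sum_self, H.repr_act]
  · intro i l
    have h1 := congrFun (H.coords l) i
    rw [h.coords_apply, Pi.single_apply] at h1
    rw [← h1]
    refine Finset.sum_congr rfl fun j _ => ?_
    congr 1
    rw [h.coords0_apply, h.cfV_eq e]
    have h2 := H.w_secV (∑ i, ((h.basis e).repr (N.act (q.b j) (e l : N.M)) i).coeff (q.n j) • e i)
    rw [e.repr_sum_self] at h2
    refine Eq.trans ?_ h2.symm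
    refine Finset.sum_congr rfl fun i _ => ?_
    rw [H.repr_act]
  · obtain ⟨x, hx⟩ := H.cyc.surj 1
    refine ⟨fun i => e.repr (h.cfV (x : N.M)) i, ?_⟩
    rw [← H.w_secV, ← H.cyc.eq_cfV x.2]
    exact hx

end Fermat.Agent.Jac
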