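import Fermat.Agent.Jac.Fib

set_option autoImplicit false
set_option linter.unusedSectionVars false
set_option linter.style.haveILetI false

/-!
# Invertibility of families over a ring of finite type
-/

open TensorProduct Polynomial

namespace Fermat.Agent.Jac

section fibre

variable {k : Type*} [Field k] [IsAlgClosed k] {B : Type*} [CommRing B] [IsDedekindDomain B]
  [Algebra k[X] B] {ι : Type*} [Finite ι] (eB : Module.Basis ι k[X] B)

include eB in
/-- over a point: a module which is free of the rank of `B` is generated by one element modulo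
`x - a` -/
theorem exists_generator_fibre {N : Type*} [AddCommGroup N] [Module k[X] N] [Module B N]
    [IsScalarTower k[X] B N] (eN : Module.Basis ι k[X] N) (a : k) :
    ∃ v : N, ∀ n : N, ∃ (b : B) (n' : N), n - b • v = (X - C a : k[X]) • n' := by
  haveI : Module.Invertible B N := invertible_of_basis eB eN
  haveI : Module.Finite k[X] B := Module.Finite.of_basis eB
  set J : Ideal B := Ideal.span {algebraMap k[X] B (X - C a)} with hJ
  haveI : Finite (MaximalSpectrum (B ⧸ J)) := by
    letI : Algebra k B := ((algebraMap k[X] B).comp C).toAlgebra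
    haveI : IsScalarTower k k[X] B := IsScalarTower.of_algebraMap_eq fun c => rfl
    haveI : Module.Finite k (B ⧸ J) := by
      -- a finite generating set of `B` over `k[X]` generates `B / J` over `k`
      obtain ⟨s, hs⟩ := (Module.Finite.fg_top : (⊤ : Submodule k[X] B).FG)
      classical
      refine ⟨⟨s.image (Ideal.Quotient.mk J), ?_⟩⟩
      rw [eq_top_iff]
      rintro x -
      obtain ⟨b, rfl⟩ := Ideal.Quotient.mk_surjective x
      have hb : b ∈ Submodule.span k[X] (s : Set B) := hs ▸ Submodule.mem_top
      refine Submodule.span_induction (p := fun b _ => Ideal.Quotient.mk J b ∈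
        Submodule.span k ((s.image (Ideal.Quotient.mk J) : Finset (B ⧸ J)) : Set (B ⧸ J)))
        ?_ ?_ ?_ ?_ hb
      · intro y hy
        exact Submodule.subset_span (Finset.mem_coe.mpr (Finset.mem_image_of_mem _ hy))
      · rw [map_zero]; exact Submodule.zero_mem _
      · intro y z _ _ hy hz
        rw [map_add]; exact Submodule.add_mem _ hy hz
      · intro c y _ hy
        have h1 : Ideal.Quotient.mk J (c • y) = (c.eval a) • Ideal.Quotient.mk J y := by
          rw [Algebra.smul_def, map_mul]
          have h2 : Ideal.Quotient.mk J (algebraMap k[X] B c) =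
              Ideal.Quotient.mk J (algebraMap k[X] B (C (c.eval a))) := by
            rw [Ideal.Quotient.eq, ← map_sub]
            obtain ⟨q, hq⟩ := X_sub_C_dvd_sub_C_eval (p := c) (a := a)
            rw [hq, map_mul]
            exact Ideal.mul_mem_right _ _ (Ideal.subset_span rfl)
          rw [h2, Algebra.smul_def]
          rfl
        rw [h1]
        exact Submodule.smul_mem _ _ hy
    haveI : IsArtinianRing (B ⧸ J) := IsArtinianRing.of_finite k (B ⧸ J)
    infer_instance
  obtain ⟨v, hv⟩ := exists_generator_mod (B := B) (N := N) J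
  refine ⟨v, fun n => ?_⟩
  obtain ⟨b, hb⟩ := hv n
  refine ⟨b, ?_⟩
  refine Submodule.smul_induction_on hb ?_ ?_
  · intro r hr m _
    obtain ⟨b', rfl⟩ := Ideal.mem_span_singleton'.mp hr
    refine ⟨b' • m, ?_⟩
    rw [mul_comm, mul_smul, IsScalarTower.algebraMap_smul]
  · rintro x y ⟨n₁, rfl⟩ ⟨n₂, rfl⟩
    exact ⟨n₁ + n₂, by rw [smul_add]⟩

end fibre

section family

variable {k : Type*} [Field k] [IsAlgClosed k] {B : Type*} [CommRing B] [IsDedekindDomain B]
  [Algebra k[X] B] {ι : Type*} [Finite ι] (eB : Module.Basis ι k[X] B)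
  {R : Type*} [CommRing R] [Algebra k R] [Algebra.FiniteType k R]
  {S : Type*} [CommRing S] [Algebra R[X] S] (eS : Module.Basis ι R[X] S) (g : B →+* S)
  (hg : ∀ c : k[X], g (algebraMap k[X] B c) = algebraMap R[X] S (c.map (algebraMap k R)))
  {N : Type*} [AddCommGroup N] [Module R[X] N] [Module S N] [IsScalarTower R[X] S N]
  (eN : Module.Basis ι R[X] N)

include eB eS hg eN in
/-- **Invertibility of a family over a ring of finite type.** -/
theorem invertible_family : Module.Invertible S N := by
  classical
  refine invertible_of_cyclic_fibres eS eN fun 𝔫 h𝔫 => ?_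
  -- the point
  obtain ⟨ψ, hψ⟩ : ∃ ψ : R[X] →ₐ[k] k, RingHom.ker ψ = 𝔫 := by
    letI : Field (R[X] ⧸ 𝔫) := Ideal.Quotient.field 𝔫
    haveI : Algebra.FiniteType k (R[X] ⧸ 𝔫) :=
      Algebra.FiniteType.of_surjective (Ideal.Quotient.mkₐ k 𝔫) (Ideal.Quotient.mkₐ_surjective k 𝔫)
    haveI : Module.Finite k (R[X] ⧸ 𝔫) := finite_of_finite_type_of_isJacobsonRing k (R[X] ⧸ 𝔫)
    have hbij := IsAlgClosed.algebraMap_bijective_of_isIntegral (k := k) (K := R[X] ⧸ 𝔫)
    let e : k ≃ₐ[k] (R[X] ⧸ 𝔫) := AlgEquiv.ofBijective (Algebra.ofId k _) hbij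
    refine ⟨(e.symm : (R[X] ⧸ 𝔫) →ₐ[k] k).comp (Ideal.Quotient.mkₐ k 𝔫), ?_⟩
    ext r
    rw [RingHom.mem_ker, AlgHom.comp_apply]
    constructor
    · intro h
      have h1 : e.symm (Ideal.Quotient.mkₐ k 𝔫 r) = 0 := h
      rw [map_eq_zero_iff _ e.symm.injective] at h1
      exact Ideal.Quotient.eq_zero_iff_mem.mp h1
    · intro h
      have h1 : Ideal.Quotient.mkₐ k 𝔫 r = 0 := Ideal.Quotient.eq_zero_iff_mem.mpr h
      rw [h1, map_zero]
  let φ : R →ₐ[k] k := ψ.comp (Algebra.ofId R R[X] |>.restrictScalars k)
  set a : k := ψ X with ha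
  have hφC : ∀ r : R, ψ (C r) = φ r := fun r => rfl
  let Φ : R[X] →+* k[X] := mapRingHom (φ : R →+* k)
  letI : Algebra R[X] k[X] := Φ.toAlgebra
  have hΦ : ∀ c : R[X], algebraMap R[X] k[X] c = c.map (φ : R →+* k) := fun c => rfl
  have hΦk : ∀ c : k[X], algebraMap R[X] k[X] (c.map (algebraMap k R)) = c := by
    intro c
    rw [hΦ, Polynomial.map_map]
    have h1 : (φ : R →+* k).comp (algebraMap k R) = RingHom.id k := by
      ext x
      exact φ.commutes x
    rw [h1, Polynomial.map_id]
  -- the fibre
  let T : Type _ := k[X] ⊗[R[X]] N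
  let act : S →+* Module.End k[X] (k[X] ⊗[R[X]] N) :=
    { toFun := fun s => LinearMap.baseChange k[X] (Module.toModuleEnd R[X] (S := S) N s)
      map_one' := by
        apply LinearMap.ext
        intro t
        induction t using TensorProduct.induction_on with
        | zero => simp
        | tmul c n => simp
        | add x y hx hy => rw [map_add, hx, hy, map_add]
      map_mul' := fun s t => by
        apply LinearMap.ext
        intro u
        induction u using TensorProduct.induction_on with
        | zero => simp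
        | tmul c n => simp [mul_smul]
        | add x y hx hy => rw [map_add, hx, hy, map_add]
      map_zero' := by
        apply LinearMap.ext
        intro t
        induction t using TensorProduct.induction_on with
        | zero => simp
        | tmul c n => simp
        | add x y hx hy => rw [map_add, hx, hy, map_add]
      map_add' := fun s t => by
        apply LinearMap.ext
        intro u
        induction u using TensorProduct.induction_on with
        | zero => simp
        | tmul c n => simp [add_smul, TensorProduct.tmul_add]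
        | add x y hx hy => rw [map_add, hx, hy, map_add] }
  have hact : ∀ (s : S) (c : k[X]) (n : N), act s (c ⊗ₜ n) = c ⊗ₜ (s • n) := fun s c n => rfl
  letI mB : Module B (k[X] ⊗[R[X]] N) := Module.compHom _ (act.comp g)
  have hB : ∀ (b : B) (t : k[X] ⊗[R[X]] N), b • t = act (g b) t := fun b t => rfl
  haveI : IsScalarTower k[X] B (k[X] ⊗[R[X]] N) := by
    constructor
    intro c b t
    rw [hB, hB, Algebra.smul_def, map_mul, hg, map_mul, Module.End.mul_apply]
    induction act (g b) t using TensorProduct.induction_on with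
    | zero => simp
    | tmul d n =>
      rw [hact, IsScalarTower.algebraMap_smul, TensorProduct.tmul_smul, TensorProduct.smul_tmul',
        Algebra.smul_def, hΦk, TensorProduct.smul_tmul', smul_eq_mul]
    | add x y hx hy => rw [map_add, hx, hy, smul_add]
  obtain ⟨w, hw⟩ := exists_generator_fibre (k := k) eB (eN.baseChange k[X]) a
  -- the projection
  have hsurj : ∀ t : k[X] ⊗[R[X]] N, ∃ n : N, (1 : k[X]) ⊗ₜ[R[X]] n = t := by
    intro t
    induction t using TensorProduct.induction_on with
    | zero => exact ⟨0, TensorProduct.tmul_zero _ _⟩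
    | tmul c n =>
      refine ⟨(c.map (algebraMap k R)) • n, ?_⟩
      rw [TensorProduct.tmul_smul, TensorProduct.smul_tmul', Algebra.smul_def, hΦk, mul_one]
    | add x y hx hy =>
      obtain ⟨n₁, rfl⟩ := hx
      obtain ⟨n₂, rfl⟩ := hy
      exact ⟨n₁ + n₂, TensorProduct.tmul_add _ _ _⟩
  have hker : ∀ n : N, (1 : k[X]) ⊗ₜ[R[X]] n = 0 → n ∈ 𝔫 • (⊤ : Submodule R[X] N) := by
    intro n hn
    haveI := Fintype.ofFinite ι
    rw [← eN.sum_repr n]
    refine Submodule.sum_mem _ fun i _ => Submodule.smul_mem_smul ?_ Submodule.mem_top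
    have h1 : (eN.baseChange k[X]).repr ((1 : k[X]) ⊗ₜ[R[X]] n) i = algebraMap R[X] k[X] (eN.repr n i) := by
      rw [Module.Basis.baseChange_repr_tmul, Algebra.smul_def, mul_one]
    rw [hn, map_zero, Finsupp.zero_apply, hΦ] at h1
    rw [← hψ, RingHom.mem_ker]
    have h2 : ψ (eN.repr n i) = ((eN.repr n i).map (φ : R →+* k)).eval a := by
      rw [eval_map]
      conv_lhs => rw [← (eN.repr n i).sum_C_mul_X_pow_eq]
      rw [Polynomial.eval₂_eq_sum, Polynomial.sum_def, Polynomial.sum_def, map_sum]
      refine Finset.sum_congr rfl fun j _ => ?_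
      rw [map_mul, map_pow, hφC]
      rfl
    rw [h2, ← h1, eval_zero]
  obtain ⟨v, hv⟩ := hsurj w
  refine ⟨v, fun n => ?_⟩
  obtain ⟨b, t, hbt⟩ := hw (1 ⊗ₜ n)
  obtain ⟨n', hn'⟩ := hsurj t
  refine ⟨g b, ?_⟩
  rw [← hv, hB, hact, ← TensorProduct.tmul_sub, ← hn'] at hbt
  -- `X - a` comes from `R[X]`
  set c : R[X] := X - C (algebraMap k R a) with hc
  have h1 : algebraMap R[X] k[X] c = X - C a := by
    rw [hΦ, hc, Polynomial.map_sub, Polynomial.map_X, Polynomial.map_C]
    have : (φ : R →+* k) (algebraMap k R a) = a := φ.commutes a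
    rw [this]
  have h0 : c • (1 : k[X]) = X - C a := by rw [Algebra.smul_def, h1, mul_one]
  have h2 : (X - C a : k[X]) • ((1 : k[X]) ⊗ₜ[R[X]] n') = (1 : k[X]) ⊗ₜ[R[X]] (c • n') := by
    rw [TensorProduct.tmul_smul, TensorProduct.smul_tmul', TensorProduct.smul_tmul', h0,
      smul_eq_mul, mul_one]
  rw [h2, ← sub_eq_zero, ← TensorProduct.tmul_sub] at hbt
  have h3 := hker _ hbt
  have h4 : c • n' ∈ 𝔫 • (⊤ : Submodule R[X] N) := by
    refine Submodule.smul_mem_smul ?_ Submodule.mem_top
    rw [← hψ, RingHom.mem_ker, hc, map_sub, hφC]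
    have : φ (algebraMap k R a) = a := φ.commutes a
    rw [this, ha, sub_self]
  have h5 := Submodule.add_mem _ h3 h4
  rwa [sub_add_cancel] at h5

end family

end Fermat.Agent.Jac
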