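import Fermat.Agent.Jac.Def
import Fermat.Agent.Jac.UnivInv

set_option autoImplicit false
set_option linter.unusedSectionVars false
set_option linter.style.haveILetI false

/-!
# Invertibility of families on the charts of a curve
-/

universe u

open TensorProduct Polynomial

namespace Fermat.Agent.Jac

section basis

variable {A M : Type*} [CommRing A] [AddCommGroup M] [Module A M] [Module A[X] M]
  [IsScalarTower A A[X] M] {ι : Type*} [Finite ι]

/-- a basis over `A` of the form `X ^ n • e j` gives a basis over `A[X]` -/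
theorem exists_polyBasis (b : Module.Basis (ι × ℕ) A M) (e : ι → M)
    (h : ∀ j n, b (j, n) = (X : A[X]) ^ n • e j) : ∃ B : Module.Basis ι A[X] M, ∀ i, B i = e i := by
  classical
  haveI := Fintype.ofFinite ι
  let F : (ι → A[X]) →ₗ[A[X]] M := Fintype.linearCombination A[X] e
  -- the basis of the source over `A`
  let b₁ : Module.Basis (Σ _ : ι, ℕ) A (ι → A[X]) := Pi.basis fun _ => Polynomial.basisMonomials A
  let b₂ : Module.Basis (Σ _ : ι, ℕ) A M := b.reindex (Equiv.sigmaEquivProd ι ℕ).symm
  have hF : F.restrictScalars A = (b₁.equiv b₂ (Equiv.refl _)).toLinearMap := by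
    refine b₁.ext fun i => ?_
    obtain ⟨j, n⟩ := i
    rw [LinearEquiv.coe_coe, Module.Basis.equiv_apply, LinearMap.restrictScalars_apply,
      Equiv.refl_apply, Module.Basis.reindex_apply]
    have h1 : b₁ ⟨j, n⟩ = Pi.single j (monomial n (1 : A)) := by
      rw [Pi.basis_apply, Polynomial.coe_basisMonomials]
    have h2 : F (b₁ ⟨j, n⟩) = (X : A[X]) ^ n • e j := by
      rw [h1, Fintype.linearCombination_apply_single, ← Polynomial.X_pow_eq_monomial]
    rw [h2, ← h]
    rfl
  have hbij : Function.Bijective F := by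
    have : (F : (ι → A[X]) → M) = (b₁.equiv b₂ (Equiv.refl _)) := by
      funext c
      exact LinearMap.congr_fun hF c
    rw [this]
    exact LinearEquiv.bijective _
  let E := LinearEquiv.ofBijective F hbij
  refine ⟨Module.Basis.ofEquivFun E.symm, fun i => ?_⟩
  rw [Module.Basis.coe_ofEquivFun]
  change F (Pi.single i 1) = e i
  rw [Fintype.linearCombination_apply_single, one_smul]

end basis

section transport

/-- Dedekind domains and ring isomorphisms -/
theorem isDedekindDomain_of_equiv {A B : Type*} [CommRing A] [CommRing B] (e : A ≃+* B)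
    [h : IsDedekindDomain A] : IsDedekindDomain B := by
  haveI : IsDomain B := e.symm.injective.isDomain (e.symm : B →+* A)
  haveI : IsNoetherianRing B := isNoetherianRing_of_ringEquiv A e
  haveI hic : IsIntegrallyClosed B := IsIntegrallyClosed.of_equiv e
  haveI hdim : Ring.DimensionLEOne B := by
    constructor
    intro p hp0 hp
    have h1 : (p.comap (e : A →+* B)).IsPrime := Ideal.comap_isPrime _ _
    have h2 : p.comap (e : A →+* B) ≠ ⊥ := by
      intro h0
      apply hp0
      rw [eq_bot_iff]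
      intro x hx
      have h3 : e.symm x ∈ p.comap (e : A →+* B) := by
        rw [Ideal.mem_comap]
        simpa using hx
      rw [h0, Ideal.mem_bot] at h3
      rw [Ideal.mem_bot]
      have := congrArg e h3
      simpa using this
    have h3 : (p.comap (e : A →+* B)).IsMaximal := Ring.DimensionLEOne.maximalOfPrime h2 h1
    have h4 : p = (p.comap (e : A →+* B)).map (e : A →+* B) :=
      (Ideal.map_comap_of_surjective (e : A →+* B) e.surjective p).symm
    rw [h4]
    exact Ideal.map_isMaximal_of_equiv e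
  haveI : IsDedekindRing B :=
    { toIsNoetherian := inferInstance, toDimensionLEOne := hdim, toIsIntegralClosure := hic }
  exact {}

end transport

variable {k : Type u} [Field k] (X : CurveData k)

theorem CurveData.ded_B0 : IsDedekindDomain X.B0 := by
  haveI := X.ded0 k
  exact isDedekindDomain_of_equiv (Algebra.TensorProduct.lid k X.B0).toRingEquiv

theorem CurveData.ded_Bi : IsDedekindDomain X.Bi := by
  haveI := X.dedi k
  exact isDedekindDomain_of_equiv (Algebra.TensorProduct.lid k X.Bi).toRingEquiv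

section general

variable {k : Type*} [Field k] [IsAlgClosed k] {B : Type*} [CommRing B] [IsDedekindDomain B]
  [Algebra k B] (x : B) {ι : Type*} [Finite ι] (w : ι → B) (b₀ : Module.Basis (ι × ℕ) k B)
  (hb₀ : ∀ j n, b₀ (j, n) = x ^ n * w j)
  {R : Type*} [CommRing R] [Algebra k R] [Algebra.FiniteType k R] {N : Type*} [AddCommGroup N]
  [Module (R ⊗[k] B) N] [Module R N] [IsScalarTower R (R ⊗[k] B) N] (e : ι → N)
  (bN : Module.Basis (ι × ℕ) R N)
  (hbN : ∀ j n, bN (j, n) = ((1 : R) ⊗ₜ[k] x) ^ n • e j)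

include b₀ hb₀ bN hbN in
/-- **Invertibility of a family over a ring of finite type**, in terms of bases over `k` and
`R`. -/
theorem invertible_tensor : Module.Invertible (R ⊗[k] B) N := by
  classical
  letI algB : Algebra k[X] B := (aeval x : k[X] →ₐ[k] B).toRingHom.toAlgebra
  haveI : IsScalarTower k k[X] B := IsScalarTower.of_algebraMap_eq fun c => by
    change _ = aeval x (C c)
    rw [aeval_C]
  have hXB : ∀ b : B, ∀ n : ℕ, (X : k[X]) ^ n • b = x ^ n * b := by
    intro b n
    rw [Algebra.smul_def]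
    congr 1
    change aeval x (X ^ n) = _
    rw [map_pow, aeval_X]
  obtain ⟨eB, -⟩ := exists_polyBasis b₀ w (fun j n => by rw [hb₀, hXB])
  letI algS : Algebra R[X] (R ⊗[k] B) :=
    (aeval ((1 : R) ⊗ₜ[k] x) : R[X] →ₐ[R] R ⊗[k] B).toRingHom.toAlgebra
  have hmapS : ∀ c : R[X], algebraMap R[X] (R ⊗[k] B) c = aeval ((1 : R) ⊗ₜ[k] x) c := fun c => rfl
  haveI : IsScalarTower R R[X] (R ⊗[k] B) := IsScalarTower.of_algebraMap_eq fun c => by
    rw [hmapS]
    change _ = aeval _ (C c)
    rw [aeval_C]
  have hXS : ∀ b : R ⊗[k] B, ∀ n : ℕ, (X : R[X]) ^ n • b = ((1 : R) ⊗ₜ[k] x) ^ n * b := by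
    intro b n
    rw [Algebra.smul_def, hmapS, map_pow, aeval_X]
  obtain ⟨eS, -⟩ := exists_polyBasis (b₀.baseChange R) (fun j => (1 : R) ⊗ₜ[k] w j) (fun j n => by
    rw [hXS, Module.Basis.baseChange_apply, hb₀, Algebra.TensorProduct.tmul_pow, one_pow,
      Algebra.TensorProduct.tmul_mul_tmul, one_mul])
  letI modN : Module R[X] N := Module.compHom N (algebraMap R[X] (R ⊗[k] B))
  have hN : ∀ (c : R[X]) (n : N), c • n = (aeval ((1 : R) ⊗ₜ[k] x) c : R ⊗[k] B) • n :=
    fun c n => rfl
  haveI : IsScalarTower R[X] (R ⊗[k] B) N := ⟨fun c s n => by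
    rw [hN, Algebra.smul_def, hmapS, mul_smul]⟩
  haveI : IsScalarTower R R[X] N := ⟨fun r c n => by
    rw [hN, hN, map_smul, smul_assoc]⟩
  obtain ⟨eN, -⟩ := exists_polyBasis bN e (fun j n => by rw [hbN, hN, map_pow, aeval_X])
  refine invertible_family eB eS (Algebra.TensorProduct.includeRight : B →ₐ[k] R ⊗[k] B).toRingHom
    (fun c => ?_) eN
  rw [hmapS]
  change Algebra.TensorProduct.includeRight (aeval x c) = _
  rw [← Polynomial.aeval_algHom_apply, Polynomial.aeval_map_algebraMap]
  rfl

end general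

variable [IsAlgClosed k] {R : Type u} [CommRing R] [Algebra k R] [Algebra.FiniteType k R]
  {N : Type*} [AddCommGroup N] {ι : Type*} [Finite ι]

/-- **Invertibility on the chart `V₀`.** -/
theorem CurveData.invertible_R0 {w : ι → X.B0} (b₀ : Module.Basis (ι × ℕ) k X.B0)
    (hb₀ : ∀ j n, b₀ (j, n) = ⟨X.x, X.x_mem⟩ ^ n * w j)
    [Module (X.R0 R) N] [Module R N] [IsScalarTower R (X.R0 R) N] {e : ι → N}
    (bN : Module.Basis (ι × ℕ) R N) (hbN : ∀ j n, bN (j, n) = X.x0 R ^ n • e j) :
    Module.Invertible (X.R0 R) N := by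
  haveI := X.ded_B0
  exact invertible_tensor (⟨X.x, X.x_mem⟩ : X.B0) w b₀ hb₀ e bN hbN

/-- **Invertibility on the chart `V∞`.** -/
theorem CurveData.invertible_Ri {v : ι → X.Bi} (bi : Module.Basis (ι × ℕ) k X.Bi)
    (hbi : ∀ j n, bi (j, n) = ⟨X.y, X.y_mem⟩ ^ n * v j)
    [Module (X.Ri R) N] [Module R N] [IsScalarTower R (X.Ri R) N] {e : ι → N}
    (bN : Module.Basis (ι × ℕ) R N) (hbN : ∀ j n, bN (j, n) = X.yi R ^ n • e j) :
    Module.Invertible (X.Ri R) N := by
  haveI := X.ded_Bi
  exact invertible_tensor (⟨X.y, X.y_mem⟩ : X.Bi) v bi hbi e bN hbN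

end Fermat.Agent.Jac
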