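import Fermat.Agent.Jac.Good
import Fermat.Agent.Jac.InvX

/-!
# The lattice pair given by a matrix representation
-/

universe u

set_option autoImplicit false

open TensorProduct LaurentPolynomial

namespace Fermat.Agent.Jac

section coeff

variable {A : Type*} [CommRing A]

theorem coeff_mul_sum (f g : A[T;T⁻¹]) (m : ℤ) :
    (f * g).coeff m = ∑ n ∈ f.coeff.support, f.coeff n * g.coeff (m - n) := by
  classical
  rw [AddMonoidAlgebra.coeff_mul, Finsupp.sum]
  refine Finset.sum_congr rfl fun n _ => ?_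
  rw [Finsupp.sum]
  by_cases h : m - n ∈ g.coeff.support
  · rw [Finset.sum_eq_single (m - n)]
    · rw [if_pos (by ring)]
    · intro b _ hb
      rw [if_neg]
      intro h'
      exact hb (by rw [← h']; ring)
    · exact fun h' => (h' h).elim
  · rw [Finsupp.notMem_support_iff.1 h, mul_zero]
    refine Finset.sum_eq_zero fun b hb => ?_
    rw [if_neg]
    intro h'
    apply h
    rw [← h']
    simpa using hb

theorem coeff_mul_low {f g : A[T;T⁻¹]} {a b : ℤ} (hf : ∀ n, n < a → f.coeff n = 0)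
    (hg : ∀ n, n < b → g.coeff n = 0) : ∀ n, n < a + b → (f * g).coeff n = 0 := by
  intro n hn
  rw [coeff_mul_sum]
  refine Finset.sum_eq_zero fun m _ => ?_
  by_cases h : m < a
  · rw [hf m h, zero_mul]
  · rw [hg (n - m) (by omega), mul_zero]

theorem coeff_mul_high {f g : A[T;T⁻¹]} {a b : ℤ} (hf : ∀ n, a < n → f.coeff n = 0)
    (hg : ∀ n, b < n → g.coeff n = 0) : ∀ n, a + b < n → (f * g).coeff n = 0 := by
  intro n hn
  rw [coeff_mul_sum]
  refine Finset.sum_eq_zero fun m _ => ?_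
  by_cases h : a < m
  · rw [hf m h, zero_mul]
  · rw [hg (n - m) (by omega), mul_zero]

theorem coeff_mul_top {f g : A[T;T⁻¹]} {a b : ℤ} (hf : ∀ n, a < n → f.coeff n = 0)
    (hg : ∀ n, b < n → g.coeff n = 0) : (f * g).coeff (a + b) = f.coeff a * g.coeff b := by
  rw [coeff_mul_sum]
  by_cases h : a ∈ f.coeff.support
  · rw [Finset.sum_eq_single a]
    · rw [show a + b - a = b by ring]
    · intro c hc hca
      by_cases h' : a < c
      · rw [hf c h', zero_mul]
      · rw [hg (a + b - c) (by omega), mul_zero]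
    · exact fun h' => (h' h).elim
  · rw [Finsupp.notMem_support_iff.1 h, zero_mul]
    refine Finset.sum_eq_zero fun c hc => ?_
    by_cases h' : a < c
    · rw [hf c h', zero_mul]
    · have : c ≠ a := by
        rintro rfl
        exact h hc
      rw [hg (a + b - c) (by omega), mul_zero]

theorem vec_coeff_T_mul (s n : ℤ) (f : A[T;T⁻¹]) : (T s * f).coeff n = f.coeff (n - s) := by
  rw [T, AddMonoidAlgebra.coeff_single_mul_eq_mul_coeff (n - s), one_mul]
  intro m _
  constructor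
  · intro h
    rw [← h]
    ring
  · rintro rfl
    ring

end coeff

variable {k : Type u} [Field k] {X : CurveData k} {A : Type u} [CommRing A] [Algebra k A] {d : ℕ}

/-- the module of the lattice pair -/
def Vec (_ρ : X.B →ₐ[k] Matrix (Fin d) (Fin d) A[T;T⁻¹]) : Type u := Fin d → A[T;T⁻¹]

namespace Vec

variable (ρ : X.B →ₐ[k] Matrix (Fin d) (Fin d) A[T;T⁻¹])

/-- the representation of `A ⊗ B` -/
noncomputable def rho : X.R A →ₐ[A] Matrix (Fin d) (Fin d) A[T;T⁻¹] :=
  Algebra.TensorProduct.lift (Algebra.ofId A _) ρ fun a _ =>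
    (Algebra.commutes a _ : Commute _ _)

theorem rho_tmul (a : A) (b : X.B) : rho ρ (a ⊗ₜ b) = a • ρ b := by
  refine (Algebra.TensorProduct.lift_tmul _ _ _ a b).trans ?_
  rw [Algebra.ofId_apply, ← Algebra.smul_def]

theorem aux1 (v : Fin d → A[T;T⁻¹]) : (rho ρ 1).mulVec v = v := by
  rw [map_one, Matrix.one_mulVec]

theorem aux2 (r s : X.R A) (v : Fin d → A[T;T⁻¹]) :
    (rho ρ (r * s)).mulVec v = (rho ρ r).mulVec ((rho ρ s).mulVec v) := by
  rw [map_mul, Matrix.mulVec_mulVec]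

theorem aux3 (r s : X.R A) (v : Fin d → A[T;T⁻¹]) :
    (rho ρ (r + s)).mulVec v = (rho ρ r).mulVec v + (rho ρ s).mulVec v := by
  rw [map_add, Matrix.add_mulVec]

theorem aux4 (v : Fin d → A[T;T⁻¹]) : (rho ρ 0).mulVec v = 0 := by
  rw [map_zero, Matrix.zero_mulVec]

theorem aux5 (a : A) (r : X.R A) (v : Fin d → A[T;T⁻¹]) :
    (rho ρ (a • r)).mulVec v = a • (rho ρ r).mulVec v := by
  rw [map_smul, Matrix.smul_mulVec]

theorem aux6 (b : X.B) (v : Fin d → A[T;T⁻¹]) (i : Fin d) (n : ℤ) :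
    ((rho ρ (1 ⊗ₜ b)).mulVec v i).coeff n = ∑ l, (ρ b i l * v l).coeff n := by
  rw [rho_tmul, one_smul, Matrix.mulVec, dotProduct, AddMonoidAlgebra.coeff_sum,
    Finsupp.finsetSum_apply]

noncomputable instance : AddCommGroup (Vec ρ) := inferInstanceAs (AddCommGroup (Fin d → A[T;T⁻¹]))
noncomputable instance : Module A (Vec ρ) := inferInstanceAs (Module A (Fin d → A[T;T⁻¹]))
noncomputable instance modR : Module (X.R A) (Vec ρ) where
  smul r m := (rho ρ r).mulVec m
  one_smul m := aux1 ρ m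
  mul_smul r s m := aux2 ρ r s m
  smul_zero _ := Matrix.mulVec_zero _
  smul_add _ _ _ := Matrix.mulVec_add _ _ _
  add_smul r s m := aux3 ρ r s m
  zero_smul m := aux4 ρ m
noncomputable instance mod0 : Module (X.R0 A) (Vec ρ) := Module.compHom _ (X.J0 A).toRingHom
noncomputable instance modi : Module (X.Ri A) (Vec ρ) := Module.compHom _ (X.Ji A).toRingHom

theorem smul_def (r : X.R A) (m : Vec ρ) : r • m = ((rho ρ r).mulVec m : Fin d → A[T;T⁻¹]) := rfl
theorem smul0 (r : X.R0 A) (m : Vec ρ) : r • m = X.J0 A r • m := rfl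
theorem smuli (r : X.Ri A) (m : Vec ρ) : r • m = X.Ji A r • m := rfl

instance tA : IsScalarTower A (X.R A) (Vec ρ) := ⟨fun a r m => aux5 ρ a r m⟩
instance t0 : IsScalarTower (X.R0 A) (X.R A) (Vec ρ) := ⟨fun r s m => by
  rw [Algebra.smul_def, mul_smul, smul0]
  rfl⟩
instance ti : IsScalarTower (X.Ri A) (X.R A) (Vec ρ) := ⟨fun r s m => by
  rw [Algebra.smul_def, mul_smul, smuli]
  rfl⟩
instance tA0 : IsScalarTower A (X.R0 A) (Vec ρ) := ⟨fun a r m => by
  rw [smul0, smul0, map_smul, smul_assoc]⟩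
instance tAi : IsScalarTower A (X.Ri A) (Vec ρ) := ⟨fun a r m => by
  rw [smuli, smuli, map_smul, smul_assoc]⟩

variable {ρ}

/-- the coefficients -/
def cf (m : Vec ρ) (i : Fin d) (n : ℤ) : A := ((m : Fin d → A[T;T⁻¹]) i).coeff n

theorem ext' {m m' : Vec ρ} (h : ∀ i n, cf m i n = cf m' i n) : m = m' :=
  funext fun i => LaurentPolynomial.ext fun n => h i n

theorem cf_add (m m' : Vec ρ) (i : Fin d) (n : ℤ) : cf (m + m') i n = cf m i n + cf m' i n := rfl
theorem cf_zero (i : Fin d) (n : ℤ) : cf (0 : Vec ρ) i n = 0 := rfl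
theorem cf_smul (a : A) (m : Vec ρ) (i : Fin d) (n : ℤ) : cf (a • m) i n = a * cf m i n := rfl

variable (ρ) in
/-- `c_n` as a linear map -/
def cfL (i : Fin d) (n : ℤ) : Vec ρ →ₗ[A] A where
  toFun m := cf m i n
  map_add' m m' := cf_add m m' i n
  map_smul' a m := cf_smul a m i n

theorem cf_sum {ι : Type*} (s : Finset ι) (f : ι → Vec ρ) (i : Fin d) (n : ℤ) :
    cf (∑ j ∈ s, f j) i n = ∑ j ∈ s, cf (f j) i n := map_sum (cfL ρ i n) f s

theorem cf_tmul (b : X.B) (m : Vec ρ) (i : Fin d) (n : ℤ) :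
    cf ((1 ⊗ₜ b : X.R A) • m) i n = ∑ l, (ρ b i l * (m : Fin d → A[T;T⁻¹]) l).coeff n :=
  aux6 ρ b m i n

section basic

variable (ρ) in
/-- the basis vectors -/
noncomputable def vec (j : Fin d) (z : ℤ) : Vec ρ := Pi.single j (T z : A[T;T⁻¹])

theorem cf_vec (j : Fin d) (z : ℤ) (i : Fin d) (n : ℤ) :
    cf (vec ρ j z) i n = if j = i ∧ z = n then 1 else 0 := by
  have h : ∀ v : A[T;T⁻¹], v = Pi.single (M := fun _ : Fin d => A[T;T⁻¹]) j (T z) i →
      v.coeff n = if j = i ∧ z = n then 1 else 0 := by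
    rintro _ rfl
    by_cases hij : j = i
    · subst hij
      rw [Pi.single_eq_same, T_apply]
      simp
    · rw [Pi.single_eq_of_ne (Ne.symm hij)]
      simp [hij]
  exact h _ rfl

theorem eq_sum (m : Vec ρ) :
    m = ∑ i, ∑ z ∈ ((m : Fin d → A[T;T⁻¹]) i).coeff.support, cf m i z • vec ρ i z := by
  refine ext' fun i n => ?_
  rw [cf_sum, Finset.sum_eq_single i]
  · rw [cf_sum]
    by_cases h : n ∈ ((m : Fin d → A[T;T⁻¹]) i).coeff.support
    · rw [Finset.sum_eq_single n]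
      · rw [cf_smul, cf_vec, if_pos ⟨rfl, rfl⟩, mul_one]
      · intro b _ hb
        rw [cf_smul, cf_vec, if_neg (fun h => hb h.2), mul_zero]
      · exact fun h' => (h' h).elim
    · have h0 : cf m i n = 0 := Finsupp.notMem_support_iff.1 h
      rw [h0]
      symm
      refine Finset.sum_eq_zero fun b hb => ?_
      rw [cf_smul, cf_vec, if_neg, mul_zero]
      rintro ⟨-, rfl⟩
      exact h hb
  · intro j _ hj
    rw [cf_sum]
    refine Finset.sum_eq_zero fun b _ => ?_
    rw [cf_smul, cf_vec, if_neg (fun h => hj h.1), mul_zero]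
  · exact fun h => (h (Finset.mem_univ _)).elim

/-- bases of submodules given by conditions on the exponents -/
theorem exists_basis_of {N : Type*} [AddCommGroup N] [Module A N] (f : N →ₗ[A] Vec ρ)
    (hf : Function.Injective f) (σ : ℕ → ℤ) (hσ : Function.Injective σ) (e : Fin d × ℕ → N)
    (he : ∀ j n, f (e (j, n)) = vec ρ j (σ n))
    (hN : ∀ (m : N) (i : Fin d) (z : ℤ), z ∉ Set.range σ → cf (f m) i z = 0) :
    ∃ b : Module.Basis (Fin d × ℕ) A N, ∀ p, b p = e p := by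
  have hli : LinearIndependent A e := by
    rw [linearIndependent_iff]
    intro l hl
    ext ⟨i, n⟩
    have h1 := congrArg (fun m => cfL ρ i (σ n) (f m)) hl
    simp only [Finsupp.linearCombination_apply, Finsupp.sum, map_sum, map_smul, map_zero] at h1
    rw [Finset.sum_eq_single (i, n)] at h1
    · rw [he] at h1
      have h2 : cfL ρ i (σ n) (vec ρ i (σ n)) = 1 := by
        change cf _ _ _ = _
        rw [cf_vec, if_pos ⟨rfl, rfl⟩]
      rw [h2, smul_eq_mul, mul_one] at h1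
      simpa using h1
    · rintro ⟨j, m⟩ - hne
      rw [he]
      have h2 : cfL ρ i (σ n) (vec ρ j (σ m)) = 0 := by
        change cf _ _ _ = _
        rw [cf_vec, if_neg]
        rintro ⟨rfl, h⟩
        exact hne (by rw [hσ h])
      rw [h2, smul_zero]
    · intro h
      rw [Finsupp.notMem_support_iff.1 h, zero_smul]
  have hsp : ⊤ ≤ Submodule.span A (Set.range e) := by
    rintro m -
    have h1 : f m ∈ Submodule.map f (Submodule.span A (Set.range e)) := by
      rw [eq_sum (f m)]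
      refine Submodule.sum_mem _ fun i _ => Submodule.sum_mem _ fun z _ => ?_
      by_cases hz : z ∈ Set.range σ
      · obtain ⟨n, rfl⟩ := hz
        refine Submodule.smul_mem _ _ ?_
        rw [← he]
        exact Submodule.mem_map_of_mem (Submodule.subset_span ⟨_, rfl⟩)
      · rw [hN m i z hz, zero_smul]
        exact Submodule.zero_mem _
    obtain ⟨m', hm', h⟩ := h1
    rwa [← hf h]
  exact ⟨Module.Basis.mk hli hsp, fun p => by rw [Module.Basis.mk_apply]⟩

end basic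

section scalar

variable (hx : ρ X.x = Matrix.scalar (Fin d) (T 1))

include hx

theorem rho_xA : rho ρ (X.xA A) = Matrix.scalar (Fin d) (T 1) := by
  rw [CurveData.xA, rho_tmul, one_smul, hx]

theorem rho_yA : rho ρ (X.yA A) = Matrix.scalar (Fin d) (T (-1)) := by
  have h1 : Matrix.scalar (Fin d) (T (-1) : A[T;T⁻¹]) * Matrix.scalar (Fin d) (T 1) = 1 := by
    rw [← map_mul, ← T_add, neg_add_cancel, T_zero, map_one]
  have h2 : Matrix.scalar (Fin d) (T 1) * rho ρ (X.yA A) = 1 := by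
    rw [← rho_xA hx, ← map_mul, X.xA_yA, map_one]
  calc rho ρ (X.yA A) = (Matrix.scalar (Fin d) (T (-1)) * Matrix.scalar (Fin d) (T 1)) *
        rho ρ (X.yA A) := by rw [h1, one_mul]
    _ = _ := by rw [mul_assoc, h2, mul_one]

theorem rho_lam (f : A[T;T⁻¹]) : rho ρ (X.lam A f) = Matrix.scalar (Fin d) f := by
  induction f using LaurentPolynomial.induction_on with
  | h_C a =>
    rw [CurveData.lam_C, AlgHom.commutes]
    ext i j
    rw [Matrix.algebraMap_matrix_apply, Matrix.scalar_apply, Matrix.diagonal_apply]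
    rfl
  | h_add hp hq => rw [map_add, map_add, hp, hq, map_add]
  | h_C_mul_T n a ih =>
    rw [T_add, ← mul_assoc, map_mul, map_mul, ih, X.lam_T_one, rho_xA hx, ← map_mul]
  | h_C_mul_T_Z n a ih =>
    rw [sub_eq_add_neg, T_add, ← mul_assoc, map_mul, map_mul, ih, X.lam_T_neg_one, rho_yA hx,
      ← map_mul]

theorem aux7 (f : A[T;T⁻¹]) (v : Fin d → A[T;T⁻¹]) (i : Fin d) :
    (rho ρ (X.lam A f)).mulVec v i = f * v i := by
  rw [rho_lam hx, Matrix.scalar_apply, Matrix.mulVec_diagonal]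

theorem cf_lam (f : A[T;T⁻¹]) (m : Vec ρ) (i : Fin d) (n : ℤ) :
    cf (X.lam A f • m) i n = (f * (m : Fin d → A[T;T⁻¹]) i).coeff n :=
  congrArg (fun g : A[T;T⁻¹] => g.coeff n) (aux7 hx f m i)

theorem cf_T (s : ℤ) (m : Vec ρ) (i : Fin d) (n : ℤ) :
    cf (X.lam A (T s) • m) i n = cf m i (n - s) := by
  rw [cf_lam hx, vec_coeff_T_mul]
  rfl

theorem lam_T_vec (s : ℤ) (j : Fin d) (z : ℤ) :
    X.lam A (T s) • vec ρ j z = vec ρ j (s + z) := by
  refine ext' fun i n => ?_
  rw [cf_T hx, cf_vec, cf_vec]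
  congr 1
  exact propext ⟨fun h => ⟨h.1, by omega⟩, fun h => ⟨h.1, by omega⟩⟩

end scalar

/-- vectors have finitely many exponents -/
theorem exists_bound (m : Vec ρ) : ∃ n : ℕ, ∀ i, ∀ z : ℤ, (z < -n ∨ n < z) → cf m i z = 0 := by
  have h : ∀ i, ∃ n : ℕ, ∀ z : ℤ, (z < -n ∨ n < z) → cf m i z = 0 := by
    intro i
    refine ⟨∑ z ∈ ((m : Fin d → A[T;T⁻¹]) i).coeff.support, z.natAbs, fun z hz => ?_⟩
    by_contra h0
    have hmem : z ∈ ((m : Fin d → A[T;T⁻¹]) i).coeff.support := Finsupp.mem_support_iff.2 h0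
    have : z.natAbs ≤ ∑ z ∈ ((m : Fin d → A[T;T⁻¹]) i).coeff.support, z.natAbs :=
      Finset.single_le_sum (f := fun z : ℤ => z.natAbs) (fun _ _ => Nat.zero_le _) hmem
    omega
  choose n hn using h
  refine ⟨∑ i, n i, fun i z hz => hn i z ?_⟩
  have := Finset.single_le_sum (f := n) (fun _ _ => Nat.zero_le _) (Finset.mem_univ i)
  omega

section lattices

/-- `M0`: no negative exponents -/
def lat0 (m0 : ∀ b ∈ X.B0, ∀ i l, ∀ n : ℤ, n < 0 → (ρ b i l).coeff n = 0) :
    Submodule (X.R0 A) (Vec ρ) where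
  carrier := {m | ∀ i n, n < 0 → cf m i n = 0}
  zero_mem' _ _ _ := rfl
  add_mem' ha hb i n hn := by
    rw [cf_add, ha i n hn, hb i n hn, add_zero]
  smul_mem' c m hm := by
    induction c using TensorProduct.induction_on with
    | zero =>
      intro i n _
      exact congrArg (fun m' => cf m' i n) (zero_smul (X.R0 A) m)
    | tmul a b =>
      intro i n hn
      have h1 : (a ⊗ₜ[k] b : X.R0 A) • m = a • ((1 ⊗ₜ (b : X.B) : X.R A) • m) := by
        rw [smul0, ← smul_assoc]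
        congr 1
        simp [CurveData.J0, TensorProduct.smul_tmul']
      rw [h1, cf_smul, cf_tmul]
      rw [Finset.sum_eq_zero, mul_zero]
      intro l _
      exact coeff_mul_low (m0 b b.2 i l) (fun n hn => hm l n hn) n (by simpa using hn)
    | add r s hr hs =>
      intro i n hn
      rw [add_smul, cf_add, hr i n hn, hs i n hn, add_zero]

/-- `M∞`: only negative exponents -/
def lati (mi : ∀ b ∈ X.Bi, ∀ i l, ∀ n : ℤ, 0 < n → (ρ b i l).coeff n = 0) :
    Submodule (X.Ri A) (Vec ρ) where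
  carrier := {m | ∀ i n, -1 < n → cf m i n = 0}
  zero_mem' _ _ _ := rfl
  add_mem' ha hb i n hn := by
    rw [cf_add, ha i n hn, hb i n hn, add_zero]
  smul_mem' c m hm := by
    induction c using TensorProduct.induction_on with
    | zero =>
      intro i n _
      exact congrArg (fun m' => cf m' i n) (zero_smul (X.Ri A) m)
    | tmul a b =>
      intro i n hn
      have h1 : (a ⊗ₜ[k] b : X.Ri A) • m = a • ((1 ⊗ₜ (b : X.B) : X.R A) • m) := by
        rw [smuli, ← smul_assoc]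
        congr 1
        simp [CurveData.Ji, TensorProduct.smul_tmul']
      rw [h1, cf_smul, cf_tmul]
      rw [Finset.sum_eq_zero, mul_zero]
      intro l _
      exact coeff_mul_high (mi b b.2 i l) (fun n hn => hm l n hn) n (by simpa using hn)
    | add r s hr hs =>
      intro i n hn
      rw [add_smul, cf_add, hr i n hn, hs i n hn, add_zero]

variable (m0 : ∀ b ∈ X.B0, ∀ i l, ∀ n : ℤ, n < 0 → (ρ b i l).coeff n = 0)
  (mi : ∀ b ∈ X.Bi, ∀ i l, ∀ n : ℤ, 0 < n → (ρ b i l).coeff n = 0)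

theorem mem_lat0 {m : Vec ρ} : m ∈ lat0 m0 ↔ ∀ i n, n < 0 → cf m i n = 0 := Iff.rfl
theorem mem_lati {m : Vec ρ} : m ∈ lati mi ↔ ∀ i n, -1 < n → cf m i n = 0 := Iff.rfl

variable (hx : ρ X.x = Matrix.scalar (Fin d) (T 1))

include hx in
/-- basis of `M0` -/
theorem exists_basis0 : ∃ (e : Fin d → lat0 m0) (b : Module.Basis (Fin d × ℕ) A (lat0 m0)),
    ∀ j n, b (j, n) = X.x0 A ^ n • e j := by
  have hmem : ∀ (j : Fin d) (n : ℕ), vec ρ j n ∈ lat0 m0 := by
    intro j n i z hz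
    rw [cf_vec, if_neg]
    rintro ⟨-, rfl⟩
    omega
  obtain ⟨b, hb⟩ := exists_basis_of (N := lat0 m0) ((lat0 m0).subtype.restrictScalars A)
    Subtype.val_injective (fun n => (n : ℤ)) Nat.cast_injective (fun p => ⟨_, hmem p.1 p.2⟩)
    (fun j n => rfl) (fun m i z hz => by
      refine m.2 i z ?_
      by_contra h
      exact hz ⟨z.toNat, by simp only; omega⟩)
  refine ⟨fun j => ⟨_, hmem j 0⟩, b, fun j n => ?_⟩
  rw [hb]
  apply Subtype.ext
  change vec ρ j n = X.x0 A ^ n • vec ρ j ((0 : ℕ) : ℤ)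
  rw [smul0, map_pow, X.J0_x0, ← X.lam_T_nat, lam_T_vec hx]
  simp

include hx in
/-- basis of `M∞` -/
theorem exists_basisi : ∃ (e : Fin d → lati mi) (b : Module.Basis (Fin d × ℕ) A (lati mi)),
    ∀ j n, b (j, n) = X.yi A ^ n • e j := by
  have hmem : ∀ (j : Fin d) (n : ℕ), vec ρ j (-1 - n) ∈ lati mi := by
    intro j n i z hz
    rw [cf_vec, if_neg]
    rintro ⟨-, rfl⟩
    omega
  obtain ⟨b, hb⟩ := exists_basis_of (N := lati mi) ((lati mi).subtype.restrictScalars A)
    Subtype.val_injective (fun n => -1 - (n : ℤ)) (fun a b h => by simpa using h)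
    (fun p => ⟨_, hmem p.1 p.2⟩)
    (fun j n => rfl) (fun m i z hz => by
      refine m.2 i z ?_
      by_contra h
      exact hz ⟨(-1 - z).toNat, by simp only; omega⟩)
  refine ⟨fun j => ⟨_, hmem j 0⟩, b, fun j n => ?_⟩
  rw [hb]
  apply Subtype.ext
  change vec ρ j (-1 - n) = X.yi A ^ n • vec ρ j (-1 - ((0 : ℕ) : ℤ))
  rw [smuli, map_pow, X.Ji_yi, ← X.lam_T_neg_nat, lam_T_vec hx]
  congr 1
  push_cast
  ring

end lattices

end Vec

/-- **The lattice pair of a matrix representation.** -/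
theorem exists_LB_of_rho [IsAlgClosed k] [Algebra.FiniteType k A]
    {ρ : X.B →ₐ[k] Matrix (Fin d) (Fin d) A[T;T⁻¹]}
    (hx : ρ X.x = Matrix.scalar (Fin d) (T 1))
    (m0 : ∀ b ∈ X.B0, ∀ i l, ∀ n : ℤ, n < 0 → (ρ b i l).coeff n = 0)
    (mi : ∀ b ∈ X.Bi, ∀ i l, ∀ n : ℤ, 0 < n → (ρ b i l).coeff n = 0)
    {w : Fin d → X.B0} (b0 : Module.Basis (Fin d × ℕ) k X.B0)
    (hb0 : ∀ j n, b0 (j, n) = ⟨X.x, X.x_mem⟩ ^ n * w j)
    {v : Fin d → X.Bi} (bi : Module.Basis (Fin d × ℕ) k X.Bi)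
    (hbi : ∀ j n, bi (j, n) = ⟨X.y, X.y_mem⟩ ^ n * v j) :
    ∃ (N : LB X A) (ψ : N.M ≃+ Vec ρ), (∀ (r : X.R A) (m : N.M), ψ (r • m) = r • ψ m) ∧
      (∀ m, m ∈ N.M0 ↔ ∀ i n, n < 0 → Vec.cf (ψ m) i n = 0) ∧
      (∀ m, m ∈ N.Mi ↔ ∀ i n, -1 < n → Vec.cf (ψ m) i n = 0) := by
  obtain ⟨e0, c0, hc0⟩ := Vec.exists_basis0 m0 hx
  obtain ⟨ei, ci, hci⟩ := Vec.exists_basisi mi hx
  refine ⟨{ M := Vec ρ, M0 := Vec.lat0 m0, Mi := Vec.lati mi
            inv0 := CurveData.invertible_R0 X (R := A) (N := Vec.lat0 m0) b0 hb0 c0 hc0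
            invi := CurveData.invertible_Ri X (R := A) (N := Vec.lati mi) bi hbi ci hci
            ex0 := fun m => ?_
            exi := fun m => ?_ }, AddEquiv.refl _, fun _ _ => rfl, fun _ => Iff.rfl,
            fun _ => Iff.rfl⟩
  · obtain ⟨n, hn⟩ := Vec.exists_bound m
    refine ⟨n, fun i z hz => ?_⟩
    rw [← X.lam_T_nat, Vec.cf_T hx]
    exact hn i _ (by omega)
  · obtain ⟨n, hn⟩ := Vec.exists_bound m
    refine ⟨n + 1, fun i z hz => ?_⟩
    rw [← X.lam_T_neg_nat, Vec.cf_T hx]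
    exact hn i _ (by push_cast; omega)

end Fermat.Agent.Jac
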