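import Fermat.Agent.Jac.FibMul

/-! Points of the curve as pairs of fractional ideals. -/

set_option autoImplicit false
set_option linter.all false

namespace Fermat.Agent.Jac

open nonZeroDivisors

universe u v

variable {K B0 Bi F : Type u} [Field K] [CommRing B0] [CommRing Bi] [Field F] [Algebra K B0]
    [Algebra K Bi] [Algebra K F] [Algebra B0 F] [Algebra Bi F]

namespace Pr

variable {C : FC K B0 Bi F}


variable [IsDomain B0] [IsDedekindDomain B0] [IsFractionRing B0 F] [IsDomain Bi]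
  [IsDedekindDomain Bi] [IsFractionRing Bi F] [IsScalarTower K B0 F] [IsScalarTower K Bi F]

section basic

theorem sB_symm (L : Pr C) : L.symm.sB = L.sB := by
  ext f
  rw [mem_sB, mem_sB']
  rfl

@[simp] theorem symm_s0 (L : Pr C) : L.symm.s0 = L.si := rfl
@[simp] theorem symm_si (L : Pr C) : L.symm.si = L.s0 := rfl

theorem chi_symm (L : Pr C) : L.symm.chi = L.chi := by
  unfold chi
  rw [sB_symm, symm_s0, symm_si, pchi_symm]

theorem Fin_symm (L : Pr C) : L.symm.Fin ↔ L.Fin := by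
  unfold Fin
  rw [sB_symm, symm_s0, symm_si]
  exact ⟨fun h => h.symm, fun h => h.symm⟩

end basic

theorem mul_comm' (L L' : Pr C) : L.mul L' = L'.mul L :=
  ext' (mul_comm _ _) (mul_comm _ _)

theorem mul_assoc' (L L' L'' : Pr C) : (L.mul L').mul L'' = L.mul (L'.mul L'') :=
  ext' (mul_assoc _ _ _) (mul_assoc _ _ _)

theorem mul_one' (L : Pr C) : L.mul one = L := ext' (mul_one _) (mul_one _)

theorem mul_inv' (L : Pr C) : L.mul L.inv = one :=
  ext' (mul_inv_cancel₀ L.ne0) (mul_inv_cancel₀ L.nei)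

theorem inv_mul' (L : Pr C) : L.inv.mul L = one :=
  ext' (inv_mul_cancel₀ L.ne0) (inv_mul_cancel₀ L.nei)

theorem mul_symm (L L' : Pr C) : (L.mul L').symm = L.symm.mul L'.symm := rfl

theorem mul_mem_sB {L L' : Pr C} {f g : F} (hf : f ∈ L.sB) (hg : g ∈ L'.sB) :
    f * g ∈ (L.mul L').sB := by
  obtain ⟨n, hn⟩ := hf
  obtain ⟨m, hm⟩ := hg
  refine ⟨n + m, ?_⟩
  have : C.x ^ (n + m) * (f * g) = (C.x ^ n * f) * (C.x ^ m * g) := by ring
  rw [this]
  exact FractionalIdeal.mul_mem_mul hn hm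

variable (C) in
/-- the contraction to the second chart of an ideal of the first one -/
def cli (P : Ideal B0) : Ideal Bi where
  carrier := {b | ∃ n : ℕ, C.x ^ n * algebraMap Bi F b ∈ (P : FractionalIdeal B0⁰ F)}
  zero_mem' := ⟨0, by rw [map_zero, mul_zero]; exact (P : FractionalIdeal B0⁰ F).1.zero_mem⟩
  add_mem' := by
    rintro a b ⟨n, hn⟩ ⟨m, hm⟩
    refine ⟨n + m, ?_⟩
    rw [map_add, mul_add]
    exact (P : FractionalIdeal B0⁰ F).1.add_mem (x_mem_mono C (Nat.le_add_right n m) hn)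
      (x_mem_mono C (Nat.le_add_left m n) hm)
  smul_mem' := by
    rintro c b ⟨n, hn⟩
    obtain ⟨m, d, hd⟩ := (C.loc (algebraMap Bi F c)).mpr ⟨0, c, by simp⟩
    refine ⟨m + n, ?_⟩
    have h1 : C.x ^ (m + n) * algebraMap Bi F (c • b) =
        algebraMap B0 F d * (C.x ^ n * algebraMap Bi F b) := by
      rw [smul_eq_mul, map_mul, hd]; ring
    rw [h1, ← Algebra.smul_def]
    exact (P : FractionalIdeal B0⁰ F).1.smul_mem _ hn

theorem mem_cli {P : Ideal B0} {b : Bi} :
    b ∈ cli C P ↔ ∃ n : ℕ, C.x ^ n * algebraMap Bi F b ∈ (P : FractionalIdeal B0⁰ F) := Iff.rfl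

theorem x_pow_inv (C : FC K B0 Bi F) (n : ℕ) : C.x⁻¹ ^ n * C.x ^ n = 1 := by
  rw [← mul_pow, inv_mul_cancel₀ C.x_ne, one_pow]

variable (C) in
/-- the closure of an effective divisor on the first chart -/
noncomputable def J (P : Ideal B0) (hP : P ≠ ⊥) : Pr C where
  I0 := (P : FractionalIdeal B0⁰ F)
  Ii := (cli C P : FractionalIdeal Bi⁰ F)
  ne0 := FractionalIdeal.coeIdeal_ne_zero.mpr hP
  nei := by
    rw [FractionalIdeal.coeIdeal_ne_zero]
    obtain ⟨b, hb, hb0⟩ := Submodule.exists_mem_ne_zero_of_ne_bot hP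
    obtain ⟨m, c, hc⟩ := (C.loc (algebraMap B0 F b)).mp ⟨0, b, by simp⟩
    have hmem : c ∈ cli C P := by
      refine ⟨m, ?_⟩
      rw [hc]
      have h1 : C.x ^ m * (C.x⁻¹ ^ m * algebraMap B0 F b) = algebraMap B0 F b := by
        rw [← mul_assoc, mul_comm (C.x ^ m), x_pow_inv, one_mul]
      rw [h1]
      exact FractionalIdeal.mem_coeIdeal_of_mem _ hb
    intro h
    rw [h] at hmem
    have hc0 : c = 0 := by simpa using hmem
    rw [hc0, map_zero] at hc
    have h2 := mul_eq_zero.mp hc.symm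
    rcases h2 with h2 | h2
    · exact pow_ne_zero m (inv_ne_zero C.x_ne) h2
    · exact hb0 (IsFractionRing.injective B0 F (by rw [h2, map_zero]))
  glue f := by
    constructor
    · rintro ⟨n, hn⟩
      obtain ⟨b, hb, hbf⟩ := (FractionalIdeal.mem_coeIdeal _).mp hn
      obtain ⟨m, c, hc⟩ := (C.loc f).mp ⟨n, b, hbf⟩
      refine ⟨m, ?_⟩
      rw [← hc]
      refine FractionalIdeal.mem_coeIdeal_of_mem _ ⟨n + m, ?_⟩
      have h1 : C.x ^ (n + m) * algebraMap Bi F c = C.x ^ n * f := by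
        rw [hc]
        have : C.x ^ (n + m) * (C.x⁻¹ ^ m * f) = C.x ^ n * ((C.x⁻¹ ^ m * C.x ^ m) * f) := by ring
        rw [this, x_pow_inv, one_mul]
      rw [h1]
      exact hn
    · rintro ⟨n, hn⟩
      obtain ⟨b, hb, hbf⟩ := (FractionalIdeal.mem_coeIdeal _).mp hn
      obtain ⟨m, hm⟩ := hb
      refine ⟨m, ?_⟩
      have h1 : C.x ^ m * f = C.x ^ n * (C.x ^ m * algebraMap Bi F b) := by
        rw [hbf]
        have : C.x ^ n * (C.x ^ m * (C.x⁻¹ ^ n * f)) = C.x ^ m * ((C.x⁻¹ ^ n * C.x ^ n) * f) := by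
          ring
        rw [this, x_pow_inv, one_mul]
      rw [h1]
      exact x_smul_mem C hm n

@[simp] theorem J_I0 (P : Ideal B0) (hP : P ≠ ⊥) : (J C P hP).I0 = (P : FractionalIdeal B0⁰ F) :=
  rfl

theorem mem_J_Ii {P : Ideal B0} {hP : P ≠ ⊥} {f : F} :
    f ∈ (J C P hP).Ii ↔ f ∈ (J C P hP).sB ∧ ∃ b : Bi, algebraMap Bi F b = f := by
  constructor
  · intro hf
    obtain ⟨b, hb, hbf⟩ := (FractionalIdeal.mem_coeIdeal _).mp hf
    exact ⟨(J C P hP).si_le hf, b, hbf⟩
  · rintro ⟨⟨n, hn⟩, b, rfl⟩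
    exact FractionalIdeal.mem_coeIdeal_of_mem _ ⟨n, hn⟩

/-- The second chart of `L(-P)` is the part of the second chart of `L` which lies in `L(-P)`
on the overlap. -/
theorem mul_J_si (L : Pr C) (P : Ideal B0) (hP : P ≠ ⊥) :
    (L.mul (J C P hP)).si = (L.mul (J C P hP)).sB ⊓ L.si := by
  apply le_antisymm
  · refine le_inf (si_le _) ?_
    intro f hf
    have h1 : (L.mul (J C P hP)).Ii ≤ L.Ii := by
      change L.Ii * (J C P hP).Ii ≤ L.Ii
      refine (mul_le_mul_right (FractionalIdeal.coeIdeal_le_one) L.Ii).trans ?_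
      rw [mul_one]
    exact h1 hf
  · rintro f ⟨hf1, hf2⟩
    have key : FractionalIdeal.spanSingleton Bi⁰ f * L.Ii⁻¹ ≤ (J C P hP).Ii := by
      rw [FractionalIdeal.spanSingleton_mul_le_iff]
      intro g hg
      rw [mem_J_Ii]
      constructor
      · have hg' : g ∈ L.inv.sB := L.inv.si_le hg
        have h2 := mul_mem_sB hf1 hg'
        have h3 : (L.mul (J C P hP)).mul L.inv = J C P hP := by
          rw [mul_comm' L, mul_assoc', mul_inv', mul_one']
        rwa [h3] at h2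
      · have h2 := FractionalIdeal.mul_mem_mul hf2 hg
        rw [mul_inv_cancel₀ L.nei] at h2
        exact (FractionalIdeal.mem_one_iff _).mp h2
    have h4 : f ∈ FractionalIdeal.spanSingleton Bi⁰ f * L.Ii⁻¹ * L.Ii := by
      rw [mul_assoc, inv_mul_cancel₀ L.nei, mul_one]
      exact FractionalIdeal.mem_spanSingleton_self _ _
    have h5 : f ∈ (J C P hP).Ii * L.Ii := (mul_le_mul_left key L.Ii) h4
    rw [mul_comm] at h5
    exact h5

theorem sB_le_sup (L L' : Pr C) : L.sB ≤ L'.sB ⊔ L.s0 := locK_le C L'.ne0 L.ne0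

theorem sB_le_sup' (L L' : Pr C) : L.sB ≤ L'.sB ⊔ L.si := by
  have := sB_le_sup L.symm L'.symm
  rwa [sB_symm, sB_symm, symm_s0] at this

theorem mul_J_le0 (L : Pr C) (P : Ideal B0) (hP : P ≠ ⊥) : (L.mul (J C P hP)).I0 ≤ L.I0 := by
  change L.I0 * (J C P hP).I0 ≤ L.I0
  refine (mul_le_mul_right (FractionalIdeal.coeIdeal_le_one) L.I0).trans ?_
  rw [mul_one]

theorem mul_J_lei (L : Pr C) (P : Ideal B0) (hP : P ≠ ⊥) : (L.mul (J C P hP)).Ii ≤ L.Ii := by
  change L.Ii * (J C P hP).Ii ≤ L.Ii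
  refine (mul_le_mul_right (FractionalIdeal.coeIdeal_le_one) L.Ii).trans ?_
  rw [mul_one]

/-- no contribution of the second chart to the degree of `J P` -/
theorem rd_mul_J_si (L : Pr C) (P : Ideal B0) (hP : P ≠ ⊥) :
    rd (L.mul (J C P hP)).si L.si = rd (L.mul (J C P hP)).sB L.sB := by
  have h1 : (L.mul (J C P hP)).sB ⊔ L.si = L.sB := by
    apply le_antisymm
    · exact sup_le (sB_mono (mul_J_le0 L P hP)) L.si_le
    · exact sB_le_sup' L _
  rw [mul_J_si, rd_inf, ← rd_sup, h1]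

/-- a `K`-rational maximal ideal contributes one -/
theorem rd_mul_J_s0 (L : Pr C) (P : Ideal B0) (hP : P ≠ ⊥) (hmax : P.IsMaximal)
    (hK : ∀ b : B0, ∃ c : K, b - algebraMap K B0 c ∈ P) :
    rd (L.mul (J C P hP)).s0 L.s0 = 1 := by
  have hne : ¬ L.I0 ≤ L.I0 * (P : FractionalIdeal B0⁰ F) := by
    intro h
    have h1 := mul_le_mul_right h L.I0⁻¹
    rw [inv_mul_cancel₀ L.ne0, ← mul_assoc, inv_mul_cancel₀ L.ne0, one_mul,
      ← FractionalIdeal.coeIdeal_top, FractionalIdeal.coeIdeal_le_coeIdeal, top_le_iff] at h1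
    exact hmax.ne_top h1
  obtain ⟨a, ha, haP⟩ := SetLike.not_le_iff_exists.mp hne
  refine rd_eq_one a ha haP ?_
  -- `a B0 + P I0 = I0`
  have hsup : L.I0 ≤ FractionalIdeal.spanSingleton B0⁰ a + L.I0 * (P : FractionalIdeal B0⁰ F) := by
    -- the integral ideal `a I0⁻¹`
    have hle : FractionalIdeal.spanSingleton B0⁰ a * L.I0⁻¹ ≤ 1 := by
      rw [FractionalIdeal.spanSingleton_mul_le_iff]
      intro g hg
      have h2 := FractionalIdeal.mul_mem_mul ha hg
      rwa [mul_inv_cancel₀ L.ne0] at h2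
    obtain ⟨Q, hQ⟩ := FractionalIdeal.le_one_iff_exists_coeIdeal.mp hle
    have hQP : ¬ Q ≤ P := by
      intro h
      rw [← FractionalIdeal.coeIdeal_le_coeIdeal F, hQ] at h
      apply haP
      have h3 := mul_le_mul_left h L.I0
      rw [mul_assoc, inv_mul_cancel₀ L.ne0, mul_one] at h3
      change a ∈ L.I0 * (P : FractionalIdeal B0⁰ F)
      rw [mul_comm]
      exact h3 (FractionalIdeal.mem_spanSingleton_self _ _)
    have htop : Q ⊔ P = ⊤ := by
      by_contra hne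
      exact hQP (le_sup_left.trans (hmax.eq_of_le hne le_sup_right).ge)
    have h5 : (1 : FractionalIdeal B0⁰ F) =
        FractionalIdeal.spanSingleton B0⁰ a * L.I0⁻¹ + (P : FractionalIdeal B0⁰ F) := by
      rw [← hQ, ← FractionalIdeal.coeIdeal_sup, htop, FractionalIdeal.coeIdeal_top]
    calc L.I0 = 1 * L.I0 := (one_mul _).symm
      _ = (FractionalIdeal.spanSingleton B0⁰ a * L.I0⁻¹ + (P : FractionalIdeal B0⁰ F)) * L.I0 := by
        rw [← h5]
      _ = FractionalIdeal.spanSingleton B0⁰ a * L.I0⁻¹ * L.I0 +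
          (P : FractionalIdeal B0⁰ F) * L.I0 := by rw [add_mul]
      _ ≤ _ := by
        rw [mul_assoc, inv_mul_cancel₀ L.ne0, mul_one, mul_comm (P : FractionalIdeal B0⁰ F)]
  intro z hz
  have hz' := hsup hz
  rw [FractionalIdeal.mem_add] at hz'
  obtain ⟨w, hw, t, ht, hwt⟩ := hz'
  obtain ⟨b, hb⟩ := (FractionalIdeal.mem_spanSingleton _).mp (show w ∈
    FractionalIdeal.spanSingleton B0⁰ a from hw)
  obtain ⟨c, hc⟩ := hK b
  refine ⟨c, ?_⟩
  have h6 : z - c • a = (algebraMap B0 F (b - algebraMap K B0 c)) * a + t := by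
    rw [← hwt, ← hb, map_sub, Algebra.smul_def, Algebra.smul_def,
      ← IsScalarTower.algebraMap_apply]
    ring
  rw [h6]
  refine (L.I0 * (P : FractionalIdeal B0⁰ F)).1.add_mem ?_ ht
  have h7 := FractionalIdeal.mul_mem_mul ha
    (FractionalIdeal.mem_coeIdeal_of_mem (P := F) B0⁰ hc)
  rw [mul_comm a] at h7
  exact h7

/-- **twisting down by a rational point lowers the Euler characteristic by one** -/
theorem chi_mul_J (h1 : (one : Pr C).Fin) (L : Pr C) (P : Ideal B0) (hP : P ≠ ⊥)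
    (hmax : P.IsMaximal) (hK : ∀ b : B0, ∃ c : K, b - algebraMap K B0 c ∈ P) :
    (L.mul (J C P hP)).chi = L.chi - 1 := by
  have h := chi_le_formula (mul_J_le0 L P hP) (mul_J_lei L P hP) (fin_of_fin h1 L)
  rw [rd_mul_J_si, rd_mul_J_s0 L P hP hmax hK] at h
  push_cast at h
  linarith

end Pr

end Fermat.Agent.Jac
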