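import Fermat.Agent.Jac.FibF

set_option autoImplicit false
set_option linter.all false

/-! Embeddings of rank one modules into the function field (generic lemmas). -/

universe u

open TensorProduct nonZeroDivisors

namespace Fermat.Agent.Jac

section rank1

variable {R F M : Type u} [CommRing R] [Field F] [Algebra R F] [IsFractionRing R F]
  [AddCommGroup M] [Module R M]

/-- modules embedded into the function field have rank one -/
theorem rank_one (ι : M →ₗ[R] F) (hι : Function.Injective ι) (φ : M →ₗ[R] F) (m m' : M) :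
    ι m * φ m' = ι m' * φ m := by
  haveI : IsDomain R := (IsFractionRing.injective R F).isDomain _
  obtain ⟨a, s, hs, h1⟩ := IsFractionRing.div_surjective (A := R) (ι m)
  obtain ⟨a', s', hs', h1'⟩ := IsFractionRing.div_surjective (A := R) (ι m')
  have h0 : algebraMap R F s ≠ 0 :=
    IsFractionRing.to_map_ne_zero_of_mem_nonZeroDivisors hs
  have h0' : algebraMap R F s' ≠ 0 :=
    IsFractionRing.to_map_ne_zero_of_mem_nonZeroDivisors hs'
  have h2 : (a' * s) • m = (a * s') • m' := by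
    apply hι
    rw [map_smul, map_smul, ← h1, ← h1', Algebra.smul_def, Algebra.smul_def, map_mul, map_mul]
    field_simp
  have h3 := congrArg φ h2
  rw [map_smul, map_smul, Algebra.smul_def, Algebra.smul_def, map_mul, map_mul] at h3
  rw [← h1, ← h1']
  field_simp
  linear_combination -h3

theorem exists_ratio [Nontrivial M] (ι : M →ₗ[R] F) (hι : Function.Injective ι)
    (φ : M →ₗ[R] F) : ∃ c : F, ∀ m, φ m = c * ι m := by
  obtain ⟨m0, hm0⟩ := exists_ne (0 : M)
  have h0 : ι m0 ≠ 0 := fun h => hm0 (hι (by rw [h, map_zero]))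
  refine ⟨φ m0 / ι m0, fun m => ?_⟩
  have := rank_one ι hι φ m m0
  field_simp
  linear_combination -this

end rank1

section inj

variable {R0 R F M : Type u} [CommRing R0] [CommRing R] [Algebra R0 R] [Field F] [Algebra R F]
  [Algebra R0 F] [IsScalarTower R0 R F] [IsFractionRing R0 F] [AddCommGroup M] [Module R M]
  [Module R0 M] [IsScalarTower R0 R M]

/-- extension of an embedding of sections over the first chart -/
theorem exists_extend (x0 : R0) (hx : IsUnit (algebraMap R0 R x0))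
    (hR : ∀ r : R, ∃ (n : ℕ) (r' : R0), algebraMap R0 R x0 ^ n * r = algebraMap R0 R r')
    (M0 : Submodule R0 M) (hM0 : ∀ m : M, ∃ n : ℕ, x0 ^ n • m ∈ M0) (ι0 : M0 →ₗ[R0] F)
    (hι0 : Function.Injective ι0) :
    ∃ ι : M →ₗ[R] F, Function.Injective ι ∧ ∀ m : M0, ι m = ι0 m := by
  have hxF : algebraMap R0 F x0 ≠ 0 := by
    rw [IsScalarTower.algebraMap_apply R0 R F]
    exact (hx.map _).ne_zero
  choose n hn using hM0
  have key : ∀ (m : M) (p : ℕ) (h : x0 ^ p • m ∈ M0),
      (algebraMap R0 F x0 ^ n m)⁻¹ * ι0 ⟨_, hn m⟩ = (algebraMap R0 F x0 ^ p)⁻¹ * ι0 ⟨_, h⟩ := by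
    intro m p h
    have h1 : x0 ^ p • (⟨_, hn m⟩ : M0) = x0 ^ n m • (⟨_, h⟩ : M0) := by
      apply Subtype.ext
      change x0 ^ p • (x0 ^ n m • m) = x0 ^ n m • (x0 ^ p • m)
      rw [smul_smul, smul_smul, mul_comm]
    have h2 := congrArg ι0 h1
    rw [map_smul, map_smul, Algebra.smul_def, Algebra.smul_def, map_pow, map_pow] at h2
    have h3 : algebraMap R0 F x0 ^ n m ≠ 0 := pow_ne_zero _ hxF
    have h4 : algebraMap R0 F x0 ^ p ≠ 0 := pow_ne_zero _ hxF
    field_simp
    linear_combination h2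
  refine ⟨{ toFun := fun m => (algebraMap R0 F x0 ^ n m)⁻¹ * ι0 ⟨_, hn m⟩
            map_add' := fun m m' => ?_
            map_smul' := fun r m => ?_ }, ?_, fun m => ?_⟩
  · have h1 : x0 ^ (n m + n m') • m ∈ M0 := by
      have := M0.smul_mem (x0 ^ n m') (hn m)
      rwa [smul_smul, ← pow_add, add_comm] at this
    have h2 : x0 ^ (n m + n m') • m' ∈ M0 := by
      have := M0.smul_mem (x0 ^ n m) (hn m')
      rwa [smul_smul, ← pow_add] at this
    have h3 : x0 ^ (n m + n m') • (m + m') ∈ M0 := by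
      rw [smul_add]; exact add_mem h1 h2
    rw [key _ _ h1, key _ _ h2, key _ _ h3, ← mul_add, ← map_add]
    congr 2
    exact Subtype.ext (smul_add _ _ _)
  · obtain ⟨q, r', hr'⟩ := hR r
    have h1 : x0 ^ (q + n m) • (r • m) = r' • (x0 ^ n m • m) := by
      rw [← algebraMap_smul R (x0 ^ (q + n m)) (r • m), ← algebraMap_smul R r', ← hr',
        ← algebraMap_smul R (x0 ^ n m) m, smul_smul, smul_smul, map_pow, map_pow]
      congr 1; ring
    have h2 : x0 ^ (q + n m) • (r • m) ∈ M0 := by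
      rw [h1]; exact M0.smul_mem _ (hn m)
    rw [key _ _ h2]
    have h3 : (⟨_, h2⟩ : M0) = r' • (⟨_, hn m⟩ : M0) := Subtype.ext h1
    have h6 : algebraMap R0 F r' = algebraMap R0 F x0 ^ q * algebraMap R F r := by
      rw [IsScalarTower.algebraMap_apply R0 R F, ← hr', map_mul, map_pow,
        ← IsScalarTower.algebraMap_apply R0 R F]
    rw [h3, map_smul, RingHom.id_apply, Algebra.smul_def, Algebra.smul_def, h6]
    have h4 : algebraMap R0 F x0 ^ n m ≠ 0 := pow_ne_zero _ hxF
    have h5 : algebraMap R0 F x0 ^ q ≠ 0 := pow_ne_zero _ hxF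
    rw [pow_add]
    field_simp
  · rw [injective_iff_map_eq_zero]
    intro m hm
    change (algebraMap R0 F x0 ^ n m)⁻¹ * ι0 ⟨_, hn m⟩ = 0 at hm
    have h4 : (algebraMap R0 F x0 ^ n m)⁻¹ ≠ 0 := inv_ne_zero (pow_ne_zero _ hxF)
    have h5 := (mul_eq_zero.mp hm).resolve_left h4
    have h6 : (⟨_, hn m⟩ : M0) = 0 := hι0 (by rw [h5, map_zero])
    have h7 : x0 ^ n m • m = 0 := congrArg Subtype.val h6
    rw [← algebraMap_smul R, map_pow] at h7
    exact (hx.pow _).smul_eq_zero.mp h7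
  · change (algebraMap R0 F x0 ^ n m)⁻¹ * ι0 ⟨_, hn m⟩ = ι0 m
    have h1 : x0 ^ 0 • (m : M) ∈ M0 := by rw [pow_zero, one_smul]; exact m.2
    rw [key _ 0 h1, pow_zero, inv_one, one_mul]
    congr 1
    exact Subtype.ext (by
      change x0 ^ 0 • (m : M) = m
      rw [pow_zero, one_smul])

theorem exists_inj_gen (x0 : R0) (hx : IsUnit (algebraMap R0 R x0))
    (hR : ∀ r : R, ∃ (n : ℕ) (r' : R0), algebraMap R0 R x0 ^ n * r = algebraMap R0 R r')
    (M0 : Submodule R0 M) [Module.Invertible R0 M0] (hM0 : ∀ m : M, ∃ n : ℕ, x0 ^ n • m ∈ M0) :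
    ∃ ι : M →ₗ[R] F, Function.Injective ι := by
  obtain ⟨e⟩ : Nonempty (F ⊗[R0] M0 ≃ₗ[F] F) :=
    Module.Invertible.free_iff_linearEquiv.mp inferInstance
  obtain ⟨ι, h, -⟩ := exists_extend x0 hx hR M0 hM0 (Module.Flat.toAlgebra e)
    (Module.Flat.toAlgebra_injective e)
  exact ⟨ι, h⟩

end inj

section frac

variable {R0 R F M : Type u} [CommRing R0] [CommRing R] [Algebra R0 R] [Field F] [Algebra R F]
  [Algebra R0 F] [IsScalarTower R0 R F] [IsFractionRing R0 F] [AddCommGroup M] [Module R M]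
  [Module R0 M] [IsScalarTower R0 R M]

/-- the fractional ideal given by a finitely generated submodule -/
noncomputable def fracOf (ι : M →ₗ[R] F) (M0 : Submodule R0 M) [Module.Finite R0 M0] :
    FractionalIdeal R0⁰ F :=
  ⟨M0.map (ι.restrictScalars R0), FractionalIdeal.isFractional_of_fg
    ((Module.Finite.iff_fg.mp inferInstance : M0.FG).map _)⟩

theorem mem_fracOf {ι : M →ₗ[R] F} {M0 : Submodule R0 M} [Module.Finite R0 M0] {f : F} :
    f ∈ fracOf ι M0 ↔ ∃ m ∈ M0, ι m = f := Iff.rfl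

end frac

section chi

variable {K V W : Type u} [Field K] [AddCommGroup V] [Module K V] [AddCommGroup W] [Module K W]

theorem ph0_map (ι : V →ₗ[K] W) (hι : Function.Injective ι) (A0 Ai : Submodule K V) :
    ph0 (A0.map ι) (Ai.map ι) = Module.finrank K ↥(A0 ⊓ Ai) := by
  unfold ph0
  rw [← Submodule.map_inf ι hι]
  exact (Submodule.equivMapOfInjective ι hι _).finrank_eq.symm

/-- `V / (A0 + Ai)` -/
noncomputable def ph1Equiv (ι : V →ₗ[K] W) (hι : Function.Injective ι) (A0 Ai : Submodule K V) :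
    (V ⧸ (A0 ⊔ Ai)) ≃ₗ[K] (LinearMap.range ι).map (A0.map ι ⊔ Ai.map ι).mkQ := by
  refine (Submodule.quotEquivOfEq _ _ ?_).trans
    ((LinearMap.quotKerEquivRange ((A0.map ι ⊔ Ai.map ι).mkQ.comp ι)).trans
      (LinearEquiv.ofEq _ _ ?_))
  · rw [LinearMap.ker_comp, Submodule.ker_mkQ, ← Submodule.map_sup,
      Submodule.comap_map_eq_of_injective hι]
  · rw [LinearMap.range_comp]

theorem pchi_map (ι : V →ₗ[K] W) (hι : Function.Injective ι) (A0 Ai : Submodule K V) :
    pchi (A0.map ι) (Ai.map ι) (LinearMap.range ι) =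
      (Module.finrank K ↥(A0 ⊓ Ai) : ℤ) - Module.finrank K (V ⧸ (A0 ⊔ Ai)) := by
  unfold pchi ph1 rd
  rw [ph0_map ι hι, (ph1Equiv ι hι A0 Ai).finrank_eq]

theorem pfin_map (ι : V →ₗ[K] W) (hι : Function.Injective ι) (A0 Ai : Submodule K V)
    [FiniteDimensional K ↥(A0 ⊓ Ai)] [FiniteDimensional K (V ⧸ (A0 ⊔ Ai))] :
    PFin (A0.map ι) (Ai.map ι) (LinearMap.range ι) where
  le0 := LinearMap.map_le_range
  lei := LinearMap.map_le_range
  fin0 := by
    rw [← Submodule.map_inf ι hι]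
    exact Module.Finite.equiv (Submodule.equivMapOfInjective ι hι _)
  fin1 := Module.Finite.equiv (ph1Equiv ι hι A0 Ai)

end chi

end Fermat.Agent.Jac
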