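import Fermat.Agent.Jac.FibBridge
import Fermat.Agent.Jac.FibEmb0

set_option autoImplicit false
set_option linter.all false

/-! Line bundles over a field as pairs of fractional ideals in the function field. -/

universe u

open TensorProduct nonZeroDivisors

namespace Fermat.Agent.Jac

variable {k : Type u} [Field k] {X : CurveData k} {K : Type u} [Field K] [Algebra k K]

theorem LB.x0_pow_smul (L : LB X K) (n : ℕ) (m : L.M) : X.x0 K ^ n • m = X.xA K ^ n • m := by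
  rw [L.smul0, map_pow, X.J0_x0]
theorem LB.yi_pow_smul (L : LB X K) (n : ℕ) (m : L.M) : X.yi K ^ n • m = X.yA K ^ n • m := by
  rw [L.smuli, map_pow, X.Ji_yi]

theorem ι_x_pow (L : LB X K) (ι : L.M →ₗ[X.R K] X.FF K) (n : ℕ) (m : L.M) :
    ι (X.xA K ^ n • m) = X.xF K ^ n * ι m := by
  rw [map_smul, Algebra.smul_def, map_pow]; rfl
theorem ι_y_pow (L : LB X K) (ι : L.M →ₗ[X.R K] X.FF K) (n : ℕ) (m : L.M) :
    ι (X.yA K ^ n • m) = (X.xF K)⁻¹ ^ n * ι m := by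
  rw [map_smul, Algebra.smul_def, map_pow, X.xF_inv]

/-- every line bundle embeds into the function field -/
theorem LB.exists_ι (L : LB X K) : ∃ ι : L.M →ₗ[X.R K] X.FF K, Function.Injective ι := by
  haveI := L.inv0
  refine exists_inj_gen (R0 := X.R0 K) (R := X.R K) (F := X.FF K) (X.x0 K) ?_ ?_ L.M0 ?_
  · rw [X.algebraMap0, X.J0_x0]; exact X.ff_isUnit_xA K
  · intro r
    obtain ⟨n, r', h⟩ := X.exists_pow_mul_xA K r
    exact ⟨n, r', by rw [X.algebraMap0, X.algebraMap0, X.J0_x0, h]⟩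
  · intro m
    obtain ⟨n, h⟩ := L.ex0 m
    exact ⟨n, by rwa [L.x0_pow_smul]⟩

/-- `L` is isomorphic to the line bundle given by the pair `P` of fractional ideals -/
def Emb (L : LB X K) (P : Pr (X.fc K)) : Prop :=
  ∃ ι : L.M →ₗ[X.R K] X.FF K, Function.Injective ι ∧ (∀ f, f ∈ P.I0 ↔ ∃ m ∈ L.M0, ι m = f) ∧
    (∀ f, f ∈ P.Ii ↔ ∃ m ∈ L.Mi, ι m = f)

theorem glue0 (L : LB X K) (ι : L.M →ₗ[X.R K] X.FF K) (I : FractionalIdeal (X.R0 K)⁰ (X.FF K))
    (h : ∀ f, f ∈ I ↔ ∃ m ∈ L.M0, ι m = f) (f : X.FF K) :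
    (∃ n : ℕ, X.xF K ^ n * f ∈ I) ↔ ∃ m, ι m = f := by
  constructor
  · rintro ⟨n, hn⟩
    obtain ⟨m, hm, h1⟩ := (h _).mp hn
    refine ⟨X.yA K ^ n • m, ?_⟩
    rw [ι_y_pow, h1, inv_pow, inv_mul_cancel_left₀ (pow_ne_zero n (X.xF_ne K))]
  · rintro ⟨m, rfl⟩
    obtain ⟨n, hn⟩ := L.ex0 m
    exact ⟨n, (h _).mpr ⟨_, hn, ι_x_pow L ι n m⟩⟩
theorem gluei (L : LB X K) (ι : L.M →ₗ[X.R K] X.FF K) (I : FractionalIdeal (X.Ri K)⁰ (X.FF K))
    (h : ∀ f, f ∈ I ↔ ∃ m ∈ L.Mi, ι m = f) (f : X.FF K) :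
    (∃ n : ℕ, (X.xF K)⁻¹ ^ n * f ∈ I) ↔ ∃ m, ι m = f := by
  constructor
  · rintro ⟨n, hn⟩
    obtain ⟨m, hm, h1⟩ := (h _).mp hn
    refine ⟨X.xA K ^ n • m, ?_⟩
    rw [ι_x_pow, h1, inv_pow, mul_inv_cancel_left₀ (pow_ne_zero n (X.xF_ne K))]
  · rintro ⟨m, rfl⟩
    obtain ⟨n, hn⟩ := L.exi m
    exact ⟨n, (h _).mpr ⟨_, hn, ι_y_pow L ι n m⟩⟩

instance LB.nontrivial0 (L : LB X K) : Nontrivial L.M0 := by
  haveI := L.inv0
  rw [← not_subsingleton_iff_nontrivial]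
  intro h
  have e := Module.Invertible.linearEquiv (X.R0 K) L.M0
  have h2 : Subsingleton (Module.Dual (X.R0 K) L.M0 ⊗[X.R0 K] L.M0) :=
    ⟨fun a b => by
      have h3 : ∀ z : Module.Dual (X.R0 K) L.M0 ⊗[X.R0 K] L.M0, z = 0 := fun z => by
        induction z using TensorProduct.induction_on with
        | zero => rfl
        | tmul f m => rw [Subsingleton.elim m 0, TensorProduct.tmul_zero]
        | add a b ha hb => rw [ha, hb, add_zero]
      rw [h3 a, h3 b]⟩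
  exact not_subsingleton (X.R0 K) (e.symm.toEquiv.subsingleton)

instance LB.nontriviali (L : LB X K) : Nontrivial L.Mi := by
  haveI := L.invi
  rw [← not_subsingleton_iff_nontrivial]
  intro h
  have e := Module.Invertible.linearEquiv (X.Ri K) L.Mi
  have h2 : Subsingleton (Module.Dual (X.Ri K) L.Mi ⊗[X.Ri K] L.Mi) :=
    ⟨fun a b => by
      have h3 : ∀ z : Module.Dual (X.Ri K) L.Mi ⊗[X.Ri K] L.Mi, z = 0 := fun z => by
        induction z using TensorProduct.induction_on with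
        | zero => rfl
        | tmul f m => rw [Subsingleton.elim m 0, TensorProduct.tmul_zero]
        | add a b ha hb => rw [ha, hb, add_zero]
      rw [h3 a, h3 b]⟩
  exact not_subsingleton (X.Ri K) (e.symm.toEquiv.subsingleton)

instance LB.nontrivialM (L : LB X K) : Nontrivial L.M :=
  (Subtype.val_injective (p := fun m => m ∈ L.M0)).nontrivial

theorem Emb.exists (L : LB X K) : ∃ P, Emb L P := by
  obtain ⟨ι, hι⟩ := L.exists_ι
  haveI := L.inv0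
  haveI := L.invi
  have h0 : ∀ f, f ∈ fracOf ι L.M0 ↔ ∃ m ∈ L.M0, ι m = f := fun f => mem_fracOf
  have hi : ∀ f, f ∈ fracOf ι L.Mi ↔ ∃ m ∈ L.Mi, ι m = f := fun f => mem_fracOf
  refine ⟨⟨fracOf ι L.M0, fracOf ι L.Mi, fun h => ?_, fun h => ?_, fun f => ?_⟩, ι, hι, h0, hi⟩
  · obtain ⟨m, hm⟩ := exists_ne (0 : L.M0)
    have h1 : ι m ∈ fracOf ι L.M0 := (h0 _).mpr ⟨m, m.2, rfl⟩
    rw [h, FractionalIdeal.mem_zero_iff] at h1
    exact hm (Subtype.ext (hι (by rw [h1]; exact (map_zero _).symm)))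
  · obtain ⟨m, hm⟩ := exists_ne (0 : L.Mi)
    have h1 : ι m ∈ fracOf ι L.Mi := (hi _).mpr ⟨m, m.2, rfl⟩
    rw [h, FractionalIdeal.mem_zero_iff] at h1
    exact hm (Subtype.ext (hι (by rw [h1]; exact (map_zero _).symm)))
  · exact (glue0 L ι _ h0 f).trans (gluei L ι _ hi f).symm

theorem Emb.chi_eq {L : LB X K} {P : Pr (X.fc K)} (h : Emb L P) : L.chi = P.chi := by
  obtain ⟨ι, hι, h0, hi⟩ := h
  have e0 : P.s0 = L.A0.map (ι.restrictScalars K) := by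
    ext f; exact h0 f
  have ei : P.si = L.Ai.map (ι.restrictScalars K) := by
    ext f; exact hi f
  have eB : P.sB = LinearMap.range (ι.restrictScalars K) := by
    ext f; exact glue0 L ι _ h0 f
  unfold LB.chi Pr.chi
  rw [e0, ei, eB, pchi_map (ι.restrictScalars K) hι]

theorem Emb.fin {L : LB X K} {P : Pr (X.fc K)} (h : Emb L P) [FiniteDimensional K L.H0]
    [FiniteDimensional K L.H1] : P.Fin := by
  obtain ⟨ι, hι, h0, hi⟩ := h
  have e0 : P.s0 = L.A0.map (ι.restrictScalars K) := by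
    ext f; exact h0 f
  have ei : P.si = L.Ai.map (ι.restrictScalars K) := by
    ext f; exact hi f
  have eB : P.sB = LinearMap.range (ι.restrictScalars K) := by
    ext f; exact glue0 L ι _ h0 f
  unfold Pr.Fin
  rw [e0, ei, eB]
  exact pfin_map (ι.restrictScalars K) hι _ _

theorem Emb.one : Emb (LB.one X K) (Pr.one : Pr (X.fc K)) := by
  refine ⟨Algebra.linearMap (X.R K) (X.FF K), X.injF K, fun f => ?_, fun f => ?_⟩
  · change f ∈ (1 : FractionalIdeal (X.R0 K)⁰ (X.FF K)) ↔ _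
    rw [FractionalIdeal.mem_one_iff]
    constructor
    · rintro ⟨r, hr⟩
      exact ⟨X.J0 K r, ⟨r, rfl⟩, by rw [← hr, X.algebraMapF0]; rfl⟩
    · rintro ⟨_, ⟨r, rfl⟩, hr⟩
      exact ⟨r, by rw [← hr, X.algebraMapF0]; rfl⟩
  · change f ∈ (1 : FractionalIdeal (X.Ri K)⁰ (X.FF K)) ↔ _
    rw [FractionalIdeal.mem_one_iff]
    constructor
    · rintro ⟨r, hr⟩
      exact ⟨X.Ji K r, ⟨r, rfl⟩, by rw [← hr, X.algebraMapFi]; rfl⟩
    · rintro ⟨_, ⟨r, rfl⟩, hr⟩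
      exact ⟨r, by rw [← hr, X.algebraMapFi]; rfl⟩

theorem Pr.mem_mul_prin0 (P : Pr (X.fc K)) {c : X.FF K} (hc : c ≠ 0) (f : X.FF K) :
    f ∈ (P.mul (Pr.prin c hc)).I0 ↔ ∃ g ∈ P.I0, c * g = f := by
  change f ∈ P.I0 * FractionalIdeal.spanSingleton _ c ↔ _
  rw [mul_comm, FractionalIdeal.mem_singleton_mul]
  exact ⟨fun ⟨g, hg, h⟩ => ⟨g, hg, h.symm⟩, fun ⟨g, hg, h⟩ => ⟨g, hg, h.symm⟩⟩
theorem Pr.mem_mul_prini (P : Pr (X.fc K)) {c : X.FF K} (hc : c ≠ 0) (f : X.FF K) :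
    f ∈ (P.mul (Pr.prin c hc)).Ii ↔ ∃ g ∈ P.Ii, c * g = f := by
  change f ∈ P.Ii * FractionalIdeal.spanSingleton _ c ↔ _
  rw [mul_comm, FractionalIdeal.mem_singleton_mul]
  exact ⟨fun ⟨g, hg, h⟩ => ⟨g, hg, h.symm⟩, fun ⟨g, hg, h⟩ => ⟨g, hg, h.symm⟩⟩

theorem Emb.eq_mul_prin {L : LB X K} {P P' : Pr (X.fc K)} (h : Emb L P) (h' : Emb L P') :
    ∃ (c : X.FF K) (hc : c ≠ 0), P' = P.mul (Pr.prin c hc) := by
  obtain ⟨ι, hι, h0, hi⟩ := h
  obtain ⟨ι', hι', h0', hi'⟩ := h'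
  obtain ⟨c, hc⟩ := exists_ratio ι hι ι'
  have hc0 : c ≠ 0 := by
    rintro rfl
    obtain ⟨m, hm⟩ := exists_ne (0 : L.M)
    exact hm (hι' (by rw [hc, zero_mul, map_zero]))
  refine ⟨c, hc0, Pr.ext' ?_ ?_⟩
  · ext f
    rw [Pr.mem_mul_prin0, h0']
    constructor
    · rintro ⟨m, hm, rfl⟩
      exact ⟨ι m, (h0 _).mpr ⟨m, hm, rfl⟩, (hc m).symm⟩
    · rintro ⟨g, hg, rfl⟩
      obtain ⟨m, hm, rfl⟩ := (h0 _).mp hg
      exact ⟨m, hm, hc m⟩
  · ext f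
    rw [Pr.mem_mul_prini, hi']
    constructor
    · rintro ⟨m, hm, rfl⟩
      exact ⟨ι m, (hi _).mpr ⟨m, hm, rfl⟩, (hc m).symm⟩
    · rintro ⟨g, hg, rfl⟩
      obtain ⟨m, hm, rfl⟩ := (hi _).mp hg
      exact ⟨m, hm, hc m⟩

theorem Emb.mul_prin {L : LB X K} {P : Pr (X.fc K)} (h : Emb L P) {c : X.FF K} (hc : c ≠ 0) :
    Emb L (P.mul (Pr.prin c hc)) := by
  obtain ⟨ι, hι, h0, hi⟩ := h
  have hm : ∀ m, (c • ι) m = c * ι m := fun m => rfl
  refine ⟨c • ι, fun a b hab => hι ?_, fun f => ?_, fun f => ?_⟩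
  · rw [hm, hm] at hab
    exact mul_left_cancel₀ hc hab
  · rw [Pr.mem_mul_prin0]
    constructor
    · rintro ⟨g, hg, rfl⟩
      obtain ⟨m, hm', rfl⟩ := (h0 _).mp hg
      exact ⟨m, hm', hm m⟩
    · rintro ⟨m, hm', rfl⟩
      exact ⟨ι m, (h0 _).mpr ⟨m, hm', rfl⟩, (hm m).symm⟩
  · rw [Pr.mem_mul_prini]
    constructor
    · rintro ⟨g, hg, rfl⟩
      obtain ⟨m, hm', rfl⟩ := (hi _).mp hg
      exact ⟨m, hm', hm m⟩
    · rintro ⟨m, hm', rfl⟩
      exact ⟨ι m, (hi _).mpr ⟨m, hm', rfl⟩, (hm m).symm⟩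

theorem bb_id_apply {A : Type u} [CommRing A] [Algebra k A] (r : X.R A) :
    X.bb (AlgHom.id k A) r = r := by
  rw [CurveData.bb, Algebra.TensorProduct.map_id]; rfl

/-- comparison of two line bundles in the function field -/
theorem exists_equiv {M M' : Type u} [AddCommGroup M] [Module (X.R K) M] [AddCommGroup M']
    [Module (X.R K) M'] (ι : M →ₗ[X.R K] X.FF K) (hι : Function.Injective ι)
    (ι' : M' →ₗ[X.R K] X.FF K) (hι' : Function.Injective ι')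
    (hr : ∀ f, (∃ m, ι m = f) ↔ ∃ m', ι' m' = f) :
    ∃ e : M ≃ₗ[X.R K] M', ∀ m, ι' (e m) = ι m := by
  have hrange : LinearMap.range ι = LinearMap.range ι' := by
    ext f; exact hr f
  refine ⟨(LinearEquiv.ofInjective ι hι).trans ((LinearEquiv.ofEq _ _ hrange).trans
    (LinearEquiv.ofInjective ι' hι').symm), fun m => ?_⟩
  have h1 := (LinearEquiv.ofInjective ι' hι').apply_symm_apply
    (LinearEquiv.ofEq _ _ hrange (LinearEquiv.ofInjective ι hι m))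
  have h2 := congrArg Subtype.val h1
  exact h2

theorem Emb.iso {L L' : LB X K} {P : Pr (X.fc K)} (h : Emb L P) (h' : Emb L' P) : L.Iso L' := by
  obtain ⟨ι, hι, h0, hi⟩ := h
  obtain ⟨ι', hι', h0', hi'⟩ := h'
  obtain ⟨e, he⟩ := exists_equiv ι hι ι' hι' fun f =>
    (glue0 L ι _ h0 f).symm.trans (glue0 L' ι' _ h0' f)
  refine ⟨⟨e.toLinearMap.toAddMonoidHom, fun r m => ?_, ?_, ?_⟩⟩
  · rw [bb_id_apply]; exact e.map_smul r m
  · have : (e.toLinearMap.toAddMonoidHom '' L.M0 : Set L'.M) = (L'.M0 : Set L'.M) := by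
      ext m'
      constructor
      · rintro ⟨m, hm, rfl⟩
        obtain ⟨m1, hm1, h1⟩ := (h0' _).mp ((h0 _).mpr ⟨m, hm, rfl⟩)
        have : m1 = e m := hι' (by rw [h1, he])
        rw [this] at hm1; exact hm1
      · intro hm'
        obtain ⟨m, hm, h1⟩ := (h0 _).mp ((h0' _).mpr ⟨m', hm', rfl⟩)
        exact ⟨m, hm, hι' (by rw [← h1]; exact he m)⟩
    rw [this, Submodule.span_eq]
  · have : (e.toLinearMap.toAddMonoidHom '' L.Mi : Set L'.M) = (L'.Mi : Set L'.M) := by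
      ext m'
      constructor
      · rintro ⟨m, hm, rfl⟩
        obtain ⟨m1, hm1, h1⟩ := (hi' _).mp ((hi _).mpr ⟨m, hm, rfl⟩)
        have : m1 = e m := hι' (by rw [h1, he])
        rw [this] at hm1; exact hm1
      · intro hm'
        obtain ⟨m, hm, h1⟩ := (hi _).mp ((hi' _).mpr ⟨m', hm', rfl⟩)
        exact ⟨m, hm, hι' (by rw [← h1]; exact he m)⟩
    rw [this, Submodule.span_eq]

theorem Emb.of_iso {L L' : LB X K} {P : Pr (X.fc K)} (h : Emb L P) (hI : L'.Iso L) : Emb L' P := by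
  obtain ⟨P', h'⟩ := Emb.exists L'
  obtain ⟨⟨f, hf, h0, hi⟩⟩ := hI
  obtain ⟨ι, hι, e0, ei⟩ := h
  obtain ⟨ι', hι', e0', ei'⟩ := h'
  have hf' : ∀ (r : X.R K) (m : L'.M), f (r • m) = r • f m := fun r m => by
    rw [hf, bb_id_apply]
  let f' : L'.M →ₗ[X.R K] L.M := { toFun := f, map_add' := f.map_add, map_smul' := hf' }
  let φ : L'.M →ₗ[X.R K] X.FF K := ι.comp f'
  have hφ : ∀ m, φ m = ι (f m) := fun m => rfl
  obtain ⟨c, hc⟩ := exists_ratio ι' hι' φ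
  have key0 : ∀ g, (∃ m ∈ L'.M0, φ m = g) ↔ g ∈ P.I0 := by
    intro g
    rw [e0]
    have hs : ∀ m' ∈ L.M0, ∃ m ∈ L'.M0, f m = m' := by
      intro m' hm'
      rw [← h0] at hm'
      induction hm' using Submodule.span_induction with
      | mem x hx => exact hx
      | zero => exact ⟨0, zero_mem _, map_zero _⟩
      | add a b _ _ ha hb =>
        obtain ⟨a', ha', rfl⟩ := ha
        obtain ⟨b', hb', rfl⟩ := hb
        exact ⟨a' + b', add_mem ha' hb', map_add _ _ _⟩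
      | smul r a _ ha =>
        obtain ⟨a', ha', rfl⟩ := ha
        exact ⟨r • a', L'.M0.smul_mem r ha', by rw [L'.smul0, hf', ← L.smul0]⟩
    constructor
    · rintro ⟨m, hm, rfl⟩
      exact ⟨f m, h0 ▸ Submodule.subset_span ⟨m, hm, rfl⟩, rfl⟩
    · rintro ⟨m', hm', rfl⟩
      obtain ⟨m, hm, rfl⟩ := hs m' hm'
      exact ⟨m, hm, rfl⟩
  have keyi : ∀ g, (∃ m ∈ L'.Mi, φ m = g) ↔ g ∈ P.Ii := by
    intro g
    rw [ei]
    have hs : ∀ m' ∈ L.Mi, ∃ m ∈ L'.Mi, f m = m' := by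
      intro m' hm'
      rw [← hi] at hm'
      induction hm' using Submodule.span_induction with
      | mem x hx => exact hx
      | zero => exact ⟨0, zero_mem _, map_zero _⟩
      | add a b _ _ ha hb =>
        obtain ⟨a', ha', rfl⟩ := ha
        obtain ⟨b', hb', rfl⟩ := hb
        exact ⟨a' + b', add_mem ha' hb', map_add _ _ _⟩
      | smul r a _ ha =>
        obtain ⟨a', ha', rfl⟩ := ha
        exact ⟨r • a', L'.Mi.smul_mem r ha', by rw [L'.smuli, hf', ← L.smuli]⟩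
    constructor
    · rintro ⟨m, hm, rfl⟩
      exact ⟨f m, hi ▸ Submodule.subset_span ⟨m, hm, rfl⟩, rfl⟩
    · rintro ⟨m', hm', rfl⟩
      obtain ⟨m, hm, rfl⟩ := hs m' hm'
      exact ⟨m, hm, rfl⟩
  have hc0 : c ≠ 0 := by
    rintro rfl
    obtain ⟨m', hm'⟩ := exists_ne (0 : L.M0)
    obtain ⟨m, -, h1⟩ := (key0 (ι m')).mpr ((e0 _).mpr ⟨m', m'.2, rfl⟩)
    rw [hc, zero_mul] at h1
    exact hm' (Subtype.ext (hι (by rw [← h1]; exact (map_zero _).symm)))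
  refine ⟨φ, fun a b hab => hι' ?_, fun g => (key0 g).symm, fun g => (keyi g).symm⟩
  rw [hc, hc] at hab
  exact mul_left_cancel₀ hc0 hab

theorem mem_mul_I0 {L L' : LB X K} {I I' : FractionalIdeal (X.R0 K)⁰ (X.FF K)}
    (ι : L.M →ₗ[X.R K] X.FF K) (ι' : L'.M →ₗ[X.R K] X.FF K)
    (h0 : ∀ f, f ∈ I ↔ ∃ m ∈ L.M0, ι m = f) (h0' : ∀ f, f ∈ I' ↔ ∃ m ∈ L'.M0, ι' m = f) :
    ((I * I' : FractionalIdeal (X.R0 K)⁰ (X.FF K)) : Submodule (X.R0 K) (X.FF K)) =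
      Submodule.span (X.R0 K) {f | ∃ m ∈ L.M0, ∃ m' ∈ L'.M0, ι m * ι' m' = f} := by
  rw [FractionalIdeal.coe_mul]
  apply le_antisymm
  · rw [Submodule.mul_le]
    intro a ha b hb
    obtain ⟨m, hm, rfl⟩ := (h0 a).mp ha
    obtain ⟨m', hm', rfl⟩ := (h0' b).mp hb
    exact Submodule.subset_span ⟨m, hm, m', hm', rfl⟩
  · rw [Submodule.span_le]
    rintro _ ⟨m, hm, m', hm', rfl⟩
    exact Submodule.mul_mem_mul ((h0 _).mpr ⟨m, hm, rfl⟩) ((h0' _).mpr ⟨m', hm', rfl⟩)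

theorem mem_mul_Ii {L L' : LB X K} {I I' : FractionalIdeal (X.Ri K)⁰ (X.FF K)}
    (ι : L.M →ₗ[X.R K] X.FF K) (ι' : L'.M →ₗ[X.R K] X.FF K)
    (h0 : ∀ f, f ∈ I ↔ ∃ m ∈ L.Mi, ι m = f) (h0' : ∀ f, f ∈ I' ↔ ∃ m ∈ L'.Mi, ι' m = f) :
    ((I * I' : FractionalIdeal (X.Ri K)⁰ (X.FF K)) : Submodule (X.Ri K) (X.FF K)) =
      Submodule.span (X.Ri K) {f | ∃ m ∈ L.Mi, ∃ m' ∈ L'.Mi, ι m * ι' m' = f} := by
  rw [FractionalIdeal.coe_mul]
  apply le_antisymm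
  · rw [Submodule.mul_le]
    intro a ha b hb
    obtain ⟨m, hm, rfl⟩ := (h0 a).mp ha
    obtain ⟨m', hm', rfl⟩ := (h0' b).mp hb
    exact Submodule.subset_span ⟨m, hm, m', hm', rfl⟩
  · rw [Submodule.span_le]
    rintro _ ⟨m, hm, m', hm', rfl⟩
    exact Submodule.mul_mem_mul ((h0 _).mpr ⟨m, hm, rfl⟩) ((h0' _).mpr ⟨m', hm', rfl⟩)

/-- the tensor product is the product of fractional ideals -/
theorem Emb.tens {L L' L'' : LB X K} {P P' : Pr (X.fc K)} (h : Emb L P) (h' : Emb L' P')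
    (hT : LB.Tens L L' L'') : Emb L'' (P.mul P') := by
  obtain ⟨β, b0, bi⟩ := hT
  obtain ⟨ι, hι, h0, hi⟩ := h
  obtain ⟨ι', hι', h0', hi'⟩ := h'
  obtain ⟨ι2, hι2⟩ := L''.exists_ι
  obtain ⟨m0, hm0⟩ := exists_ne (0 : L.M)
  obtain ⟨m0', hm0'⟩ := exists_ne (0 : L'.M)
  have hn0 : ι m0 ≠ 0 := fun h => hm0 (hι (by rw [h, map_zero]))
  have hn0' : ι' m0' ≠ 0 := fun h => hm0' (hι' (by rw [h, map_zero]))
  have key : ∀ m m', ι2 (β m m') * (ι m0 * ι' m0') = ι2 (β m0 m0') * (ι m * ι' m') := by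
    intro m m'
    have h1 := rank_one ι' hι' (ι2.comp (β m)) m' m0'
    have h2 := rank_one ι hι (ι2.comp (β.flip m0')) m m0
    change ι' m' * ι2 (β m m0') = ι' m0' * ι2 (β m m') at h1
    change ι m * ι2 (β m0 m0') = ι m0 * ι2 (β m m0') at h2
    linear_combination -ι m0 * h1 - ι' m' * h2
  have hg : ι2 (β m0 m0') ≠ 0 := by
    intro h3
    obtain ⟨m2, hm2⟩ := exists_ne (0 : L''.M0)
    have hz : ∀ m m', β m m' = 0 := fun m m' => by
      apply hι2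
      have := key m m'
      rw [h3, zero_mul] at this
      rw [map_zero]
      exact (mul_eq_zero.mp this).resolve_right (mul_ne_zero hn0 hn0')
    have h4 : (m2 : L''.M) ∈ Submodule.span (X.R0 K)
        {m'' | ∃ m ∈ L.M0, ∃ m' ∈ L'.M0, β m m' = m''} := b0.ge m2.2
    have h5 : Submodule.span (X.R0 K) {m'' | ∃ m ∈ L.M0, ∃ m' ∈ L'.M0, β m m' = m''} ≤ ⊥ := by
      rw [Submodule.span_le]
      rintro _ ⟨m, _, m', _, rfl⟩
      exact hz m m'
    exact hm2 (Subtype.ext ((Submodule.mem_bot _).mp (h5 h4)))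
  -- the normalised embedding
  let c : X.FF K := (ι m0 * ι' m0') / ι2 (β m0 m0')
  have hc : c ≠ 0 := div_ne_zero (mul_ne_zero hn0 hn0') hg
  have hcm : ∀ m, (c • ι2) m = c * ι2 m := fun m => rfl
  have hcb : ∀ m m', c * ι2 (β m m') = ι m * ι' m' := by
    intro m m'
    have := key m m'
    change (ι m0 * ι' m0') / ι2 (β m0 m0') * _ = _
    field_simp
    linear_combination this
  refine ⟨c • ι2, fun a b hab => hι2 ?_, fun f => ?_, fun f => ?_⟩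
  · rw [hcm, hcm] at hab
    exact mul_left_cancel₀ hc hab
  · have e1 : f ∈ (P.mul P').I0 ↔ f ∈ Submodule.span (X.R0 K)
        {f | ∃ m ∈ L.M0, ∃ m' ∈ L'.M0, ι m * ι' m' = f} := by
      rw [← mem_mul_I0 ι ι' h0 h0']; rfl
    have e2 : (L''.M0.map ((c • ι2).restrictScalars (X.R0 K))) = Submodule.span (X.R0 K)
        {f | ∃ m ∈ L.M0, ∃ m' ∈ L'.M0, ι m * ι' m' = f} := by
      rw [← b0, Submodule.map_span]
      congr 1
      ext f
      constructor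
      · rintro ⟨_, ⟨m, hm, m', hm', rfl⟩, rfl⟩
        exact ⟨m, hm, m', hm', (hcb m m').symm⟩
      · rintro ⟨m, hm, m', hm', rfl⟩
        exact ⟨_, ⟨m, hm, m', hm', rfl⟩, hcb m m'⟩
    rw [e1, ← e2]
    exact Iff.rfl
  · have e1 : f ∈ (P.mul P').Ii ↔ f ∈ Submodule.span (X.Ri K)
        {f | ∃ m ∈ L.Mi, ∃ m' ∈ L'.Mi, ι m * ι' m' = f} := by
      rw [← mem_mul_Ii ι ι' hi hi']; rfl
    have e2 : (L''.Mi.map ((c • ι2).restrictScalars (X.Ri K))) = Submodule.span (X.Ri K)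
        {f | ∃ m ∈ L.Mi, ∃ m' ∈ L'.Mi, ι m * ι' m' = f} := by
      rw [← bi, Submodule.map_span]
      congr 1
      ext f
      constructor
      · rintro ⟨_, ⟨m, hm, m', hm', rfl⟩, rfl⟩
        exact ⟨m, hm, m', hm', (hcb m m').symm⟩
      · rintro ⟨m, hm, m', hm', rfl⟩
        exact ⟨_, ⟨m, hm, m', hm', rfl⟩, hcb m m'⟩
    rw [e1, ← e2]
    exact Iff.rfl

/-- the product of fractional ideals is a tensor product -/
theorem Emb.tens_of {L L' L'' : LB X K} {P P' : Pr (X.fc K)} (h : Emb L P) (h' : Emb L' P')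
    (h'' : Emb L'' (P.mul P')) : LB.Tens L L' L'' := by
  obtain ⟨ι, hι, h0, hi⟩ := h
  obtain ⟨ι', hι', h0', hi'⟩ := h'
  obtain ⟨ι2, hι2, h02, hi2⟩ := h''
  -- products lie in the image
  have key : ∀ m m', ∃ m2, ι2 m2 = ι m * ι' m' := by
    intro m m'
    rw [← glue0 L'' ι2 _ h02]
    obtain ⟨n, hn⟩ := L.ex0 m
    obtain ⟨n', hn'⟩ := L'.ex0 m'
    refine ⟨n + n', ?_⟩
    have h1 : ι (X.xA K ^ n • m) ∈ P.I0 := (h0 _).mpr ⟨_, hn, rfl⟩
    have h2 : ι' (X.xA K ^ n' • m') ∈ P'.I0 := (h0' _).mpr ⟨_, hn', rfl⟩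
    have h3 := FractionalIdeal.mul_mem_mul h1 h2
    rw [ι_x_pow, ι_x_pow] at h3
    rw [show X.xF K ^ (n + n') * (ι m * ι' m') = X.xF K ^ n * ι m * (X.xF K ^ n' * ι' m') by ring]
    exact h3
  choose b hb using key
  let β : L.M →ₗ[X.R K] L'.M →ₗ[X.R K] L''.M := LinearMap.mk₂ (X.R K) b
    (fun m1 m2 m' => hι2 (by rw [map_add, hb, hb, hb, map_add]; ring))
    (fun c m m' => hι2 (by
      rw [hb, map_smul, map_smul, hb, Algebra.smul_def, Algebra.smul_def]; ring))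
    (fun m m1 m2 => hι2 (by rw [map_add, hb, hb, hb, map_add]; ring))
    (fun c m m' => hι2 (by
      rw [hb, map_smul, map_smul, hb, Algebra.smul_def, Algebra.smul_def]; ring))
  have hβ : ∀ m m', ι2 (β m m') = ι m * ι' m' := fun m m' => hb m m'
  refine ⟨β, ?_, ?_⟩
  · have e1 : L''.M0.map (ι2.restrictScalars (X.R0 K)) = Submodule.span (X.R0 K)
        {f | ∃ m ∈ L.M0, ∃ m' ∈ L'.M0, ι m * ι' m' = f} := by
      rw [← mem_mul_I0 ι ι' h0 h0']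
      ext f
      exact (h02 f).symm
    apply Submodule.map_injective_of_injective (f := ι2.restrictScalars (X.R0 K)) hι2
    rw [e1, Submodule.map_span]
    congr 1
    ext f
    constructor
    · rintro ⟨_, ⟨m, hm, m', hm', rfl⟩, rfl⟩
      exact ⟨m, hm, m', hm', (hβ m m').symm⟩
    · rintro ⟨m, hm, m', hm', rfl⟩
      exact ⟨_, ⟨m, hm, m', hm', rfl⟩, hβ m m'⟩
  · have e1 : L''.Mi.map (ι2.restrictScalars (X.Ri K)) = Submodule.span (X.Ri K)
        {f | ∃ m ∈ L.Mi, ∃ m' ∈ L'.Mi, ι m * ι' m' = f} := by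
      rw [← mem_mul_Ii ι ι' hi hi']
      ext f
      exact (hi2 f).symm
    apply Submodule.map_injective_of_injective (f := ι2.restrictScalars (X.Ri K)) hι2
    rw [e1, Submodule.map_span]
    congr 1
    ext f
    constructor
    · rintro ⟨_, ⟨m, hm, m', hm', rfl⟩, rfl⟩
      exact ⟨m, hm, m', hm', (hβ m m').symm⟩
    · rintro ⟨m, hm, m', hm', rfl⟩
      exact ⟨_, ⟨m, hm, m', hm', rfl⟩, hβ m m'⟩

end Fermat.Agent.Jac
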