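import Fermat.Agent.Jac.Basic

/-!
# The bundles `O(n)`
-/

set_option autoImplicit false

universe u

open TensorProduct

namespace Fermat.Agent.Jac

variable {k : Type u} [Field k] (X : CurveData k)

section

variable (A : Type u) [CommRing A] [Algebra k A]

/-- the sections of `O(n)` over `V∞` -/
noncomputable def CurveData.OMap (n : ℤ) : X.Ri A →ₗ[X.Ri A] X.R A where
  toFun r := (((X.uA A) ^ n : (X.R A)ˣ) : X.R A) * X.Ji A r
  map_add' r s := by rw [map_add, mul_add]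
  map_smul' r s := by
    rw [smul_eq_mul, map_mul, RingHom.id_apply, Algebra.smul_def, X.algebraMapi]
    ring

theorem CurveData.OMap_apply (n : ℤ) (r : X.Ri A) :
    X.OMap A n r = (((X.uA A) ^ n : (X.R A)ˣ) : X.R A) * X.Ji A r := rfl

theorem CurveData.OMap_injective (n : ℤ) : Function.Injective (X.OMap A n) := by
  intro r s h
  exact X.Ji_injective A ((Units.mul_right_inj _).1 h)

theorem CurveData.exists_pow_mul_OMap (n : ℤ) (m : X.R A) : ∃ (j : ℕ) (r : X.Ri A),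
    X.yA A ^ j * m = X.OMap A n r := by
  obtain ⟨j, r, h⟩ := X.exists_pow_mul_yA A ((((X.uA A) ^ (-n) : (X.R A)ˣ) : X.R A) * m)
  refine ⟨j, r, ?_⟩
  rw [X.OMap_apply, ← h, mul_left_comm, ← mul_assoc (((X.uA A) ^ n : (X.R A)ˣ) : X.R A),
    ← Units.val_mul, ← zpow_add, add_neg_cancel, zpow_zero, Units.val_one, one_mul]

/-- the bundle `O(n)`: functions with poles of order `n` along `y = 0` -/
noncomputable def LB.O (n : ℤ) : LB X A where
  M := X.R A
  M0 := LinearMap.range (Algebra.linearMap (X.R0 A) (X.R A))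
  Mi := LinearMap.range (X.OMap A n)
  inv0 := .congr (LinearEquiv.ofInjective (Algebra.linearMap (X.R0 A) (X.R A)) (X.J0_injective A))
  invi := .congr (LinearEquiv.ofInjective (X.OMap A n) (X.OMap_injective A n))
  ex0 m := by
    obtain ⟨n, r, h⟩ := X.exists_pow_mul_xA A m
    exact ⟨n, r, h.symm⟩
  exi m := by
    obtain ⟨j, r, h⟩ := X.exists_pow_mul_OMap A n m
    exact ⟨j, r, h.symm⟩

theorem LB.mem_O_M0 {n : ℤ} {m : X.R A} : m ∈ (LB.O X A n).M0 ↔ ∃ r, X.J0 A r = m := Iff.rfl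

theorem LB.mem_O_Mi {n : ℤ} {m : X.R A} :
    m ∈ (LB.O X A n).Mi ↔ ∃ r, (((X.uA A) ^ n : (X.R A)ˣ) : X.R A) * X.Ji A r = m := Iff.rfl

/-- `O(n)` is trivial along the base section -/
theorem LB.O_rig (n : ℤ) : (LB.O X A n).Rig := by
  let e : X.Ri A ≃ₗ[X.Ri A] (LB.O X A n).Mi :=
    LinearEquiv.ofInjective (X.OMap A n) (X.OMap_injective A n)
  let r : (LB.O X A n).Mi →ₗ[A] A :=
    (X.eA A).toLinearMap ∘ₗ (e.symm.toLinearMap.restrictScalars A)
  refine ⟨r, fun b m => ?_, fun a => ?_⟩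
  · change X.eA A (e.symm (b • m)) = X.eA A b * X.eA A (e.symm m)
    rw [map_smul, smul_eq_mul, map_mul]
  · refine ⟨e (algebraMap A _ a), ?_⟩
    change X.eA A (e.symm (e (algebraMap A _ a))) = a
    rw [LinearEquiv.symm_apply_apply, AlgHom.commutes]
    rfl

theorem LB.O_zero : LB.O X A 0 = LB.one X A := by
  have h : X.OMap A 0 = Algebra.linearMap (X.Ri A) (X.R A) := by
    ext
    simp [CurveData.OMap]
  rw [LB.O, LB.one]
  congr 1
  rw [h]

end

section

variable {A : Type u} [CommRing A] [Algebra k A] {A' : Type u} [CommRing A'] [Algebra k A']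

theorem CurveData.bb_uA_zpow (h : A →ₐ[k] A') (n : ℤ) :
    X.bb h (((X.uA A) ^ n : (X.R A)ˣ) : X.R A) = (((X.uA A') ^ n : (X.R A')ˣ) : X.R A') := by
  have h1 : Units.map (X.bb h : X.R A →* X.R A') (X.uA A) = X.uA A' := by
    apply Units.ext
    change X.bb h (X.uA A : X.R A) = (X.uA A' : X.R A')
    rw [X.val_uA, X.val_uA, CurveData.xA, CurveData.xA, CurveData.bb,
      Algebra.TensorProduct.map_tmul, map_one, AlgHom.id_apply]
  rw [← h1, ← map_zpow]
  rfl

theorem CurveData.bb_OMap (h : A →ₐ[k] A') (n : ℤ) (r : X.Ri A) :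
    X.bb h (X.OMap A n r) = X.OMap A' n (X.bi h r) := by
  rw [X.OMap_apply, map_mul, X.bb_uA_zpow, X.bb_Ji, ← X.OMap_apply]

theorem LB.O_bc (h : A →ₐ[k] A') (n : ℤ) : LB.BC h (LB.O X A n) (LB.O X A' n) := by
  refine ⟨{ f := (X.bb h : X.R A →+* X.R A').toAddMonoidHom
            map_smul := fun r m => map_mul (X.bb h) r m
            span0 := ?_
            spani := ?_ }⟩
  · apply le_antisymm
    · rw [Submodule.span_le]
      rintro _ ⟨_, ⟨r, rfl⟩, rfl⟩
      exact ⟨X.b0 h r, (X.bb_J0 h r).symm⟩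
    · rintro _ ⟨r, rfl⟩
      have h2 := Submodule.smul_mem _ r (Submodule.subset_span
        (s := (X.bb h : X.R A →+* X.R A').toAddMonoidHom '' {z | ∃ r, X.J0 A r = z})
        (R := X.R0 A') ⟨(1 : X.R A), ⟨1, map_one (X.J0 A)⟩, map_one (X.bb h)⟩)
      rw [Algebra.smul_def, mul_one] at h2
      exact h2
  · apply le_antisymm
    · rw [Submodule.span_le]
      rintro _ ⟨_, ⟨r, rfl⟩, rfl⟩
      exact ⟨X.bi h r, (X.bb_OMap h n r).symm⟩
    · rintro _ ⟨r, rfl⟩
      have h2 := Submodule.smul_mem _ r (Submodule.subset_span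
        (s := (X.bb h : X.R A →+* X.R A').toAddMonoidHom '' {z | ∃ r, X.OMap A n r = z})
        (R := X.Ri A') ⟨X.OMap A n 1, ⟨1, rfl⟩, X.bb_OMap h n 1⟩)
      rw [← map_smul, smul_eq_mul, map_one, mul_one] at h2
      exact h2

variable (A) in
theorem LB.O_tens (m n : ℤ) : LB.Tens (LB.O X A m) (LB.O X A n) (LB.O X A (m + n)) := by
  refine ⟨LinearMap.mul (X.R A) (X.R A), ?_, ?_⟩
  · apply le_antisymm
    · rw [Submodule.span_le]
      rintro _ ⟨_, ⟨r, rfl⟩, _, ⟨s, rfl⟩, rfl⟩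
      exact ⟨r * s, map_mul (X.J0 A) r s⟩
    · rintro _ ⟨r, rfl⟩
      exact Submodule.subset_span ⟨X.J0 A r, ⟨r, rfl⟩, X.J0 A 1, ⟨1, rfl⟩, by
        change X.J0 A r * X.J0 A 1 = X.J0 A r
        rw [map_one, mul_one]⟩
  · have key : ∀ r s : X.Ri A, X.OMap A m r * X.OMap A n s = X.OMap A (m + n) (r * s) := by
      intro r s
      rw [X.OMap_apply, X.OMap_apply, X.OMap_apply, zpow_add, Units.val_mul, map_mul]
      ring
    apply le_antisymm
    · rw [Submodule.span_le]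
      rintro _ ⟨_, ⟨r, rfl⟩, _, ⟨s, rfl⟩, rfl⟩
      exact ⟨r * s, (key r s).symm⟩
    · rintro _ ⟨r, rfl⟩
      exact Submodule.subset_span ⟨X.OMap A m r, ⟨r, rfl⟩, X.OMap A n 1, ⟨1, rfl⟩, by
        change X.OMap A m r * X.OMap A n 1 = X.OMap A (m + n) r
        rw [key, mul_one]⟩

end

end Fermat.Agent.Jac
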