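import Fermat.Agent.Jac.LBCoh
import Fermat.Agent.Jac.FibEmb
import Fermat.Agent.Jac.FibC2
import Fermat.Agent.Jac.TwO

/-!
# Euler characteristics of line bundles over a field: structure sheaf, tensor products, `O(n)`
-/

set_option autoImplicit false

universe u

namespace Fermat.Agent.Jac

open TensorProduct Module

variable {k : Type u} [Field k] (X : CurveData k)

/-- the structure sheaf commutes with base change -/
theorem LB.bc_one {A : Type u} [CommRing A] [Algebra k A] {A' : Type u} [CommRing A']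
    [Algebra k A'] (h : A →ₐ[k] A') : LB.BC h (LB.one X A) (LB.one X A') := by
  rw [← LB.O_zero, ← LB.O_zero]
  exact LB.O_bc X h 0

/-- global functions over a field -/
theorem LB.finrank_H0_one (K : Type u) [Field K] [Algebra k K] :
    finrank K (LB.one X K).H0 = 1 := by
  have h0 : Nontrivial (X.R K) := (X.J0_injective K).nontrivial
  rw [finrank_eq_one_iff']
  refine ⟨⟨(1 : X.R K), ⟨1, map_one (X.J0 K)⟩, ⟨1, map_one (X.Ji K)⟩⟩, ?_, ?_⟩
  · intro h
    exact one_ne_zero (α := X.R K) (congrArg Subtype.val h)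
  · rintro ⟨w, h0, hi⟩
    obtain ⟨a, ha⟩ := X.exists_eq_algebraMap (m := w) h0 hi
    refine ⟨a, Subtype.ext ?_⟩
    change a • (1 : X.R K) = w
    rw [ha, Algebra.algebraMap_eq_smul_one]

/-- the Euler characteristic of the structure sheaf -/
theorem LB.chi_one_base : (LB.one X k).chi = 1 - (X.genus : ℤ) := by
  rw [LB.chi, LB.finrank_H0_one, CurveData.genus]
  rfl

/-- the Euler characteristic of the structure sheaf over a field -/
theorem LB.chi_one (K : Type u) [Field K] [Algebra k K] :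
    (LB.one X K).chi = 1 - (X.genus : ℤ) := by
  rw [chiBCStmt X (Algebra.ofId k K) (LB.one X k) (LB.one X K) (LB.bc_one X _), LB.chi_one_base]

variable {X}

section

variable {K : Type u} [Field K] [Algebra k K]

/-- finiteness of the cohomology of the trivial pair -/
theorem Pr.one_fin : (Pr.one : Pr (X.fc K)).Fin := by
  have h0 := (LB.one X K).finite_H0
  have h1 := (LB.one X K).finite_H1
  exact Emb.fin Emb.one

/-- the Euler characteristic of the trivial pair -/
theorem Pr.chi_one_fc : (Pr.one : Pr (X.fc K)).chi = 1 - (X.genus : ℤ) := by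
  rw [← LB.chi_one X K]
  exact (Emb.chi_eq Emb.one).symm

/-- additivity of the Euler characteristic -/
theorem LB.Tens.chi_eq {L L' L'' : LB X K} (hT : LB.Tens L L' L'') :
    L''.chi = L.chi + L'.chi - (1 - (X.genus : ℤ)) := by
  obtain ⟨P, hP⟩ := Emb.exists L
  obtain ⟨P', hP'⟩ := Emb.exists L'
  have h1 := Pr.chi_mul (Pr.one_fin (X := X) (K := K)) P P'
  rw [Pr.chi_one_fc] at h1
  rw [hP.chi_eq, hP'.chi_eq, (hP.tens hP' hT).chi_eq]
  linarith

/-- isomorphic line bundles have the same Euler characteristic -/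
theorem LB.Iso.chi_eq {L L' : LB X K} (h : L.Iso L') : L'.chi = L.chi := by
  obtain ⟨P, hP⟩ := Emb.exists L'
  rw [hP.chi_eq, (hP.of_iso h).chi_eq]

/-- the Euler characteristic of `L(-P)` for a rational point `P` -/
theorem Emb.chi_mul_J {L L' : LB X K} {P : Pr (X.fc K)} (hL : Emb L P) {I : Ideal (X.R0 K)}
    (hI : I ≠ ⊥) (hL' : Emb L' (P.mul (Pr.J (X.fc K) I hI))) (hmax : I.IsMaximal)
    (hK : ∀ b : X.R0 K, ∃ c : K, b - algebraMap K (X.R0 K) c ∈ I) : L'.chi = L.chi - 1 := by
  rw [hL.chi_eq, hL'.chi_eq]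
  exact Pr.chi_mul_J Pr.one_fin P I hI hmax hK

/-- the Euler characteristic of `O(-P)` for a rational point `P` -/
theorem Emb.chi_J {L : LB X K} {I : Ideal (X.R0 K)}
    (hI : I ≠ ⊥) (hL : Emb L (Pr.J (X.fc K) I hI)) (hmax : I.IsMaximal)
    (hK : ∀ b : X.R0 K, ∃ c : K, b - algebraMap K (X.R0 K) c ∈ I) : L.chi = -(X.genus : ℤ) := by
  rw [← Pr.one_mul' (Pr.J (X.fc K) I hI)] at hL
  rw [Emb.chi_mul_J Emb.one hI hL hmax hK, LB.chi_one]
  ring

end

/-! ### The Euler characteristic of `O(n)` -/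

/-- functions on the divisor `y = 0` -/
theorem CurveData.exists_quot_yi (X : CurveData k) (A : Type u) [CommRing A] [Algebra k A] :
    ∃ φ : X.Ri A →ₗ[A] (Fin X.deg → A), Function.Surjective φ ∧
      ∀ r, φ r = 0 ↔ ∃ s, r = X.yi A * s := by
  classical
  let b := X.basisiA A
  let φ : X.Ri A →ₗ[A] (Fin X.deg → A) :=
    b.constr A fun i => if i.2 = 0 then Pi.single i.1 1 else 0
  have hφ : ∀ i, φ (b i) = if i.2 = 0 then Pi.single i.1 1 else 0 := fun i => b.constr_basis A _ i
  have h0 : ∀ j, φ (b (j, 0)) = Pi.single j 1 := fun j => by rw [hφ, if_pos rfl]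
  have hs : ∀ j (n : ℕ), φ (b (j, n + 1)) = 0 := fun j n => by
    rw [hφ, if_neg (Nat.succ_ne_zero n)]
  have hb : ∀ j (n : ℕ), b (j, n + 1) = X.yi A * b (j, n) := fun j n => by
    rw [X.basisiA_apply, X.basisiA_apply, pow_succ', mul_assoc]
  refine ⟨φ, ?_, fun r => ⟨fun hr => ?_, ?_⟩⟩
  · rw [← LinearMap.range_eq_top, ← top_le_iff, ← (Pi.basisFun A (Fin X.deg)).span_eq,
      Submodule.span_le]
    rintro _ ⟨j, rfl⟩
    exact ⟨b (j, 0), by rw [h0, Pi.basisFun_apply]⟩
  · have h1 : ∀ z, z - ∑ j, φ z j • b (j, 0) ∈ Ideal.span {X.yi A} := by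
      intro z
      induction b.mem_span z using Submodule.span_induction with
      | mem z hz =>
        obtain ⟨⟨j, n⟩, rfl⟩ := hz
        rcases n with _ | n
        · rw [h0, Finset.sum_eq_single j (fun i _ hi => by rw [Pi.single_eq_of_ne hi, zero_smul])
            (fun hj => absurd (Finset.mem_univ _) hj), Pi.single_eq_same, one_smul, sub_self]
          exact zero_mem _
        · rw [hs]
          simp only [Pi.zero_apply, zero_smul, Finset.sum_const_zero, sub_zero]
          rw [hb]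
          exact Ideal.mul_mem_right _ _ (Ideal.subset_span rfl)
      | zero => simp
      | add r s _ _ hr hs =>
        have h4 : r + s - ∑ j, φ (r + s) j • b (j, 0) =
            (r - ∑ j, φ r j • b (j, 0)) + (s - ∑ j, φ s j • b (j, 0)) := by
          simp only [map_add, Pi.add_apply, add_smul, Finset.sum_add_distrib]
          ring
        rw [h4]
        exact add_mem hr hs
      | smul a r _ hr =>
        have h4 : a • r - ∑ j, φ (a • r) j • b (j, 0) =
            a • (r - ∑ j, φ r j • b (j, 0)) := by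
          simp only [map_smul, Pi.smul_apply, smul_eq_mul, mul_smul, smul_sub, Finset.smul_sum]
        rw [h4]
        exact Submodule.smul_of_tower_mem _ a hr
    have h2 := h1 r
    rw [hr] at h2
    simp only [Pi.zero_apply, zero_smul, Finset.sum_const_zero, sub_zero] at h2
    obtain ⟨s, hs⟩ := Ideal.mem_span_singleton.1 h2
    exact ⟨s, hs⟩
  · rintro ⟨s, rfl⟩
    induction b.mem_span s using Submodule.span_induction with
    | mem z hz =>
      obtain ⟨⟨j, n⟩, rfl⟩ := hz
      rw [← hb, hs]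
    | zero => simp
    | add r s _ _ hr hs => rw [mul_add, map_add, hr, hs, add_zero]
    | smul a r _ hr => rw [mul_smul_comm, map_smul, hr, smul_zero]

/-- relative dimension of the first twist -/
theorem rdim_tw_of {K : Type*} [Field K] {V S : Type*} [AddCommGroup V] [Module K V]
    [AddCommGroup S] [Module K S] (x : V ≃ₗ[K] V) (Ei : Submodule K V) (j : S →ₗ[K] V)
    (hj : Function.Injective j) (hr : ∀ v, v ∈ Ei ↔ ∃ s, j s = v) {d : ℕ}
    (φ : S →ₗ[K] (Fin d → K)) (hφ : Function.Surjective φ)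
    (hk : ∀ s, φ s = 0 ↔ x (j s) ∈ Ei) : rdim Ei (tw x 1 Ei) = d := by
  have hx : ∀ v, (x⁻¹ ^ 1) (x v) = v := fun v => by
    rw [pow_one]
    exact x.symm_apply_apply v
  have hx' : ∀ v, x ((x⁻¹ ^ 1) v) = v := fun v => by
    rw [pow_one]
    exact x.apply_symm_apply v
  let g : S →ₗ[K] tw x 1 Ei := ((x : V →ₗ[K] V).comp j).codRestrict _ fun s => by
    rw [mem_tw]
    change (x⁻¹ ^ 1) (x (j s)) ∈ Ei
    rw [hx, hr]
    exact ⟨s, rfl⟩
  have hg : ∀ s, (g s : V) = x (j s) := fun s => rfl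
  have hb : Function.Bijective g := by
    constructor
    · intro r s h
      have h1 := congrArg Subtype.val h
      rw [hg, hg] at h1
      exact hj (x.injective h1)
    · rintro ⟨w, hw⟩
      rw [mem_tw, hr] at hw
      obtain ⟨s, hs⟩ := hw
      refine ⟨s, Subtype.ext ?_⟩
      rw [hg, hs, hx']
  let e := LinearEquiv.ofBijective g hb
  have h1 : Ei.submoduleOf (tw x 1 Ei) = (LinearMap.ker φ).map (e : S →ₗ[K] _) := by
    ext w
    obtain ⟨r, rfl⟩ := e.surjective w
    constructor
    · intro hw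
      exact ⟨r, (hk r).2 hw, rfl⟩
    · rintro ⟨r', hr', h⟩
      have : r' = r := e.injective h
      subst this
      exact (hk r').1 hr'
  rw [rdim, h1, ← (Submodule.Quotient.equiv (LinearMap.ker φ) _ e rfl).finrank_eq,
    (φ.quotKerEquivOfSurjective hφ).finrank_eq, finrank_fin_fun]

section

variable {K : Type u} [Field K] [Algebra k K]

/-- the degree as a relative dimension -/
theorem LB.rdim_one : rdim (LB.one X K).Ai (tw (LB.one X K).xE 1 (LB.one X K).Ai) = X.deg := by
  obtain ⟨φ, hφ, hker⟩ := X.exists_quot_yi K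
  have hu : X.xA K * X.yA K = 1 := X.xA_yA K
  refine rdim_tw_of (LB.one X K).xE (LB.one X K).Ai (S := X.Ri K) (X.Ji K).toLinearMap
    (X.Ji_injective K) (fun v => Iff.rfl) φ hφ fun s => ?_
  rw [hker]
  constructor
  · rintro ⟨r, rfl⟩
    refine ⟨r, ?_⟩
    change X.Ji K r = X.xA K * X.Ji K (X.yi K * r)
    rw [map_mul, X.Ji_yi, ← mul_assoc, hu, one_mul]
  · rintro ⟨r, hr⟩
    have hr' : X.Ji K r = X.xA K * X.Ji K s := hr
    refine ⟨r, X.Ji_injective K ?_⟩
    rw [map_mul, X.Ji_yi, hr', ← mul_assoc, mul_comm (X.yA K), hu, one_mul]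

theorem LB.chi_O_nat (K : Type u) [Field K] [Algebra k K] (n : ℕ) :
    (LB.O X K n).chi = n * X.deg + 1 - X.genus := by
  have h1 := chi_tw (LB.one X K).isLat0 (LB.one X K).isLati n
  rw [LB.rdim_one] at h1
  have h2 : (LB.O X K n).chi = Jac.chi (LB.one X K).A0 (tw (LB.one X K).xE n (LB.one X K).Ai) := by
    have h3 : (LB.O X K n).Ai = tw (LB.one X K).xE n (LB.one X K).Ai := by
      ext (m : X.R K)
      have h6 : ((LB.one X K).xE⁻¹ ^ n) m = (X.yA K ^ n * m : X.R K) :=
        LB.xE_inv_pow_apply (LB.one X K) n m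
      have h7 : (((LB.one X K).xE⁻¹ ^ n) m) ∈ (LB.one X K).Ai ↔
          ∃ r, X.Ji K r = X.yA K ^ n * m := by
        rw [← h6]
        rfl
      refine Iff.trans ?_ h7.symm
      change (∃ r, (((X.uA K) ^ (n : ℤ) : (X.R K)ˣ) : X.R K) * X.Ji K r = m) ↔
        ∃ r, X.Ji K r = X.yA K ^ n * m
      have h4 : (((X.uA K) ^ (n : ℤ) : (X.R K)ˣ) : X.R K) = X.xA K ^ n := by
        rw [zpow_natCast, Units.val_pow_eq_pow_val, X.val_uA]
      have h5 : X.xA K ^ n * X.yA K ^ n = 1 := by rw [← mul_pow, X.xA_yA, one_pow]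
      constructor
      · rintro ⟨r, rfl⟩
        exact ⟨r, by rw [h4, ← mul_assoc, mul_comm (X.yA K ^ n), h5, one_mul]⟩
      · rintro ⟨r, hr⟩
        exact ⟨r, by rw [h4, hr, ← mul_assoc, h5, one_mul]⟩
    rw [← h3]
    rfl
  rw [h2, h1, ← LB.chi_eq', LB.chi_one]
  ring

/-- the Euler characteristic of `O(n)` -/
theorem LB.chi_O (K : Type u) [Field K] [Algebra k K] (n : ℤ) :
    (LB.O X K n).chi = n * X.deg + 1 - X.genus := by
  obtain ⟨m, rfl | rfl⟩ := n.eq_nat_or_neg
  · exact LB.chi_O_nat K m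
  · have h1 := (LB.O_tens X K (-(m : ℤ)) m).chi_eq
    rw [neg_add_cancel, LB.O_zero, LB.chi_one, LB.chi_O_nat] at h1
    linarith

end

end Fermat.Agent.Jac
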