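import Fermat.Agent.Jac.Tens
import Fermat.Agent.Jac.BCEx
import Fermat.Agent.Jac.ChartsMain

set_option autoImplicit false

/-!
# The class group of line bundles on `C × Spec A`
-/

universe u

open TensorProduct

namespace Fermat.Agent.Jac

variable {k : Type u} [Field k]

namespace LB

variable {X : CurveData k} {A : Type u} [CommRing A] [Algebra k A] {A' : Type u} [CommRing A']
  [Algebra k A'] {A'' : Type u} [CommRing A''] [Algebra k A'']

theorem Tens.iso {L L' L1 L2 : LB X A} (h1 : Tens L L' L1) (h2 : Tens L L' L2) : Iso L1 L2 :=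
  h1.bc h2 (Iso.refl L) (Iso.refl L')

theorem Tens.congr {L1 L1' L1'' L2 L2' L2'' : LB X A} (i : Iso L1 L2) (i' : Iso L1' L2')
    (i'' : Iso L1'' L2'') (h : Tens L1 L1' L1'') : Tens L2 L2' L2'' :=
  (tens_tens L2 L2').congr_out (Iso.trans ((tens_tens L2 L2').bc h i.symm i'.symm) i'')

theorem Tens.isoIff {L L' L1 L2 : LB X A} (h1 : Tens L L' L1) : Tens L L' L2 ↔ Iso L1 L2 :=
  ⟨h1.iso, h1.congr_out⟩

end LB

/-- the isomorphism classes of line bundles on `C × Spec A` -/
def Cl (X : CurveData k) (A : Type u) [CommRing A] [Algebra k A] : Type (u + 1) :=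
  Quot (LB.Iso : LB X A → LB X A → Prop)

variable {X : CurveData k} {A : Type u} [CommRing A] [Algebra k A] {A' : Type u} [CommRing A']
  [Algebra k A'] {A'' : Type u} [CommRing A''] [Algebra k A'']

/-- the class of a line bundle -/
def cl (L : LB X A) : Cl X A := Quot.mk _ L

theorem cl_surj (c : Cl X A) : ∃ L : LB X A, cl L = c := Quot.exists_rep c

namespace Cl

noncomputable instance : One (Cl X A) := ⟨cl (LB.one X A)⟩

noncomputable instance : Mul (Cl X A) :=
  ⟨Quot.map₂ LB.tens (fun L _ _ h => (LB.tens_tens L _).bc (LB.tens_tens L _) (LB.Iso.refl L) h)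
    fun _ _ L h => (LB.tens_tens _ L).bc (LB.tens_tens _ L) h (LB.Iso.refl L)⟩

noncomputable instance : Inv (Cl X A) := ⟨fun c => cl (LB.dual (cl_surj c).choose)⟩

theorem one_def : (1 : Cl X A) = cl (LB.one X A) := rfl

theorem mul_cl (L L' : LB X A) : cl L * cl L' = cl (LB.tens L L') := rfl

theorem cl_sound {L L' : LB X A} (h : LB.Iso L L') : cl L = cl L' := Quot.sound h

theorem cl_mul {L L' L'' : LB X A} (h : LB.Tens L L' L'') : cl L'' = cl L * cl L' :=
  cl_sound (h.iso (LB.tens_tens L L'))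

noncomputable instance : CommGroup (Cl X A) where
  mul_assoc a b c := by
    obtain ⟨L1, rfl⟩ := cl_surj a
    obtain ⟨L2, rfl⟩ := cl_surj b
    obtain ⟨L3, rfl⟩ := cl_surj c
    rw [mul_cl, mul_cl, mul_cl]
    exact cl_mul ((LB.tens_tens L1 L2).assoc (LB.tens_tens _ L3) (LB.tens_tens L2 L3))
  one_mul a := by
    obtain ⟨L, rfl⟩ := cl_surj a
    exact (cl_mul (LB.tens_one L)).symm
  mul_one a := by
    obtain ⟨L, rfl⟩ := cl_surj a
    exact (cl_mul (LB.tens_one L).comm).symm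
  inv_mul_cancel a := by
    have h := (cl_surj a).choose_spec
    have h2 : cl (cl_surj a).choose * a⁻¹ = 1 := (cl_mul (LB.tens_dual (cl_surj a).choose)).symm
    have h3 : a⁻¹ * cl (cl_surj a).choose = 1 :=
      (cl_mul (LB.tens_dual (cl_surj a).choose).comm).symm
    rw [h] at h3
    exact h3
  mul_comm a b := by
    obtain ⟨L1, rfl⟩ := cl_surj a
    obtain ⟨L2, rfl⟩ := cl_surj b
    rw [mul_cl]
    exact cl_mul (LB.tens_tens L1 L2).comm

theorem cl_one : cl (LB.one X A) = 1 := rfl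

end Cl

theorem cl_eq {L L' : LB X A} : cl L = cl L' ↔ LB.Iso L L' := by
  refine ⟨fun h => ?_, Cl.cl_sound⟩
  have he : Equivalence (LB.Iso : LB X A → LB X A → Prop) :=
    ⟨LB.Iso.refl, fun h => h.symm, fun h h' => h.trans h'⟩
  exact (he.eqvGen_iff).1 (Quot.eqvGen_exact h)

theorem cl_mul_iff {L L' L'' : LB X A} : cl L'' = cl L * cl L' ↔ LB.Tens L L' L'' := by
  refine ⟨fun h => ?_, Cl.cl_mul⟩
  rw [Cl.mul_cl, cl_eq] at h
  exact (LB.tens_tens L L').congr_out h.symm

theorem cl_eq_one_iff {L : LB X A} : cl L = 1 ↔ LB.Iso L (LB.one X A) := by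
  rw [← Cl.cl_one, cl_eq]

namespace Cl

/-- base change of classes -/
noncomputable def mapFun (h : A →ₐ[k] A') : Cl X A → Cl X A' :=
  Quot.lift (fun L => cl (LB.exists_bc h L).choose) fun L L' hL =>
    Cl.cl_sound (LB.BC.iso (LB.exists_bc h L).choose_spec (LB.exists_bc h L').choose_spec hL)

theorem mapFun_cl (h : A →ₐ[k] A') (L : LB X A) (L' : LB X A') :
    mapFun h (cl L) = cl L' ↔ LB.BC h L L' := by
  have h1 : mapFun h (cl L) = cl (LB.exists_bc h L).choose := rfl
  rw [h1, cl_eq]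
  exact ⟨fun h2 => (LB.exists_bc h L).choose_spec.congr_right h2,
    fun h2 => (LB.exists_bc h L).choose_spec.iso_of_bc h2⟩

theorem mapFun_mul (h : A →ₐ[k] A') (c c' : Cl X A) :
    mapFun h (c * c') = mapFun h c * mapFun h c' := by
  obtain ⟨L, rfl⟩ := cl_surj c
  obtain ⟨L', rfl⟩ := cl_surj c'
  obtain ⟨N, hN⟩ := LB.exists_bc h L
  obtain ⟨N', hN'⟩ := LB.exists_bc h L'
  rw [(mapFun_cl h L N).2 hN, (mapFun_cl h L' N').2 hN', Cl.mul_cl, Cl.mul_cl, mapFun_cl]
  exact (LB.tens_tens L L').bc (LB.tens_tens N N') hN hN'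

/-- base change of classes -/
noncomputable def map (h : A →ₐ[k] A') : Cl X A →* Cl X A' := MonoidHom.mk' (mapFun h) (mapFun_mul h)

theorem map_cl {h : A →ₐ[k] A'} {L : LB X A} {L' : LB X A'} :
    map h (cl L) = cl L' ↔ LB.BC h L L' := mapFun_cl h L L'

theorem map_comp (h : A →ₐ[k] A') (h' : A' →ₐ[k] A'') (c : Cl X A) :
    map (h'.comp h) c = map h' (map h c) := by
  obtain ⟨L, rfl⟩ := cl_surj c
  obtain ⟨N, hN⟩ := LB.exists_bc h L
  obtain ⟨N', hN'⟩ := LB.exists_bc h' N
  rw [map_cl.2 hN, map_cl.2 hN', map_cl]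
  exact hN.comp hN'

theorem map_id (c : Cl X A) : map (AlgHom.id k A) c = c := by
  obtain ⟨L, rfl⟩ := cl_surj c
  exact map_cl.2 (LB.Iso.refl L)

end Cl

/-- what is used on rigidifications -/
structure RigPkg (X : CurveData k) : Prop where
  rig_bc : ∀ {A : Type u} [CommRing A] [Algebra k A] {A' : Type u} [CommRing A'] [Algebra k A']
    {h : A →ₐ[k] A'} {L : LB X A} {L' : LB X A'}, LB.BC h L L' → L.Rig → L'.Rig
  rig_field : ∀ {K : Type u} [Field K] [Algebra k K] (L : LB X K), L.Rig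
  rig_tens : ∀ {A : Type u} [CommRing A] [Algebra k A] {L L' L'' : LB X A},
    LB.Tens L L' L'' → L.Rig → L'.Rig → L''.Rig

/-- the package used by the assembly of the charts -/
noncomputable def RigPkg.clPkg (P : RigPkg X) : ClPkg X where
  Cl A _ _ := Cl X A
  cl L := cl L
  surj c := cl_surj c
  map h := Cl.map h
  map_comp h h' c := Cl.map_comp h h' c
  map_cl _ _ _ := Cl.map_cl
  rig_mul _ _ _ h := P.rig_tens (cl_mul_iff.1 h)
  rig_bc _ _ _ := P.rig_bc
  rig_field L := P.rig_field L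

end Fermat.Agent.Jac
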