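import Fermat.Agent.Jac.HomGen

/-!
# The sheaf of modules of a cocycle
-/

set_option autoImplicit false

universe u

open CategoryTheory CategoryTheory.Limits AlgebraicGeometry TopologicalSpace Opposite

namespace Fermat.Agent.Jac

/-- A cocycle on the scheme `X`, with respect to a covering indexed by `ι`. The convention for the
generators is `s j = g i j • s i`. -/
structure CocOn (X : Scheme.{u}) (ι : Type u) where
  /-- the members of the covering -/
  U : ι → X.Opens
  cover : ⨆ i, U i = ⊤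
  /-- the transition functions -/
  g : ∀ i j, Γ(X, U i ⊓ U j)
  g_self : ∀ i, g i i = 1
  g_mul : ∀ (i j k : ι) (W : X.Opens) (hi : W ≤ U i) (hj : W ≤ U j) (hk : W ≤ U k),
    rs (le_inf hi hj) (g i j) * rs (le_inf hj hk) (g j k) = rs (le_inf hi hk) (g i k)

namespace CocOn

variable {X : Scheme.{u}} {ι : Type u} (c : CocOn X ι)

/-- the transition function on `W ≤ U i ⊓ U j`. -/
noncomputable def t (i j : ι) {W : X.Opens} (hi : W ≤ c.U i) (hj : W ≤ c.U j) : Γ(X, W) :=
  rs (le_inf hi hj) (c.g i j)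

@[simp]
theorem rs_t (i j : ι) {W W' : X.Opens} (hi : W ≤ c.U i) (hj : W ≤ c.U j) (h : W' ≤ W) :
    rs h (c.t i j hi hj) = c.t i j (h.trans hi) (h.trans hj) := by
  simp [t]

theorem t_mul (i j k : ι) {W : X.Opens} (hi : W ≤ c.U i) (hj : W ≤ c.U j) (hk : W ≤ c.U k) :
    c.t i j hi hj * c.t j k hj hk = c.t i k hi hk := c.g_mul i j k W hi hj hk

@[simp]
theorem t_self (i : ι) {W : X.Opens} (hi : W ≤ c.U i) : c.t i i hi hi = 1 := by
  rw [t, c.g_self, map_one]

theorem t_symm (i j : ι) {W : X.Opens} (hi : W ≤ c.U i) (hj : W ≤ c.U j) :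
    c.t i j hi hj * c.t j i hj hi = 1 := by rw [t_mul, t_self]

theorem isUnit_t (i j : ι) {W : X.Opens} (hi : W ≤ c.U i) (hj : W ≤ c.U j) :
    IsUnit (c.t i j hi hj) := IsUnit.of_mul_eq_one _ (c.t_symm i j hi hj)

/-- the sections over `V`: families `r i` with `r i = g i j * r j`. -/
def Sec (V : X.Opens) : Type u :=
  {r : ∀ i, Γ(X, V ⊓ c.U i) // ∀ (i j : ι) (W : X.Opens) (hV : W ≤ V) (hi : W ≤ c.U i)
    (hj : W ≤ c.U j), rs (le_inf hV hi) (r i) = c.t i j hi hj * rs (le_inf hV hj) (r j)}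

variable {c}

/-- the value of a section in the chart `i`, restricted to `W`. -/
noncomputable def Sec.v {V : X.Opens} (m : c.Sec V) (i : ι) {W : X.Opens} (hV : W ≤ V)
    (hi : W ≤ c.U i) : Γ(X, W) := rs (le_inf hV hi) (m.1 i)

@[simp]
theorem Sec.rs_v {V : X.Opens} (m : c.Sec V) (i : ι) {W W' : X.Opens} (hV : W ≤ V)
    (hi : W ≤ c.U i) (h : W' ≤ W) : rs h (m.v i hV hi) = m.v i (h.trans hV) (h.trans hi) := by
  simp [Sec.v]

theorem Sec.v_eq {V : X.Opens} (m : c.Sec V) (i j : ι) {W : X.Opens} (hV : W ≤ V)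
    (hi : W ≤ c.U i) (hj : W ≤ c.U j) : m.v i hV hi = c.t i j hi hj * m.v j hV hj :=
  m.2 i j W hV hi hj

theorem Sec.ext {V : X.Opens} {m m' : c.Sec V}
    (h : ∀ i, m.v i (inf_le_left : V ⊓ c.U i ≤ V) inf_le_right = m'.v i inf_le_left inf_le_right) :
    m = m' := by
  apply Subtype.ext
  funext i
  have := h i
  simpa [Sec.v] using this

/-- constructor for sections -/
noncomputable def Sec.mk {V : X.Opens} (r : ∀ i, Γ(X, V ⊓ c.U i))
    (hr : ∀ (i j : ι) (W : X.Opens) (hV : W ≤ V) (hi : W ≤ c.U i)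
    (hj : W ≤ c.U j), rs (le_inf hV hi) (r i) = c.t i j hi hj * rs (le_inf hV hj) (r j)) :
    c.Sec V := ⟨r, hr⟩

theorem Sec.mk_v {V : X.Opens} (r : ∀ i, Γ(X, V ⊓ c.U i))
    (hr : ∀ (i j : ι) (W : X.Opens) (hV : W ≤ V) (hi : W ≤ c.U i)
    (hj : W ≤ c.U j), rs (le_inf hV hi) (r i) = c.t i j hi hj * rs (le_inf hV hj) (r j)) (i : ι)
    {W : X.Opens} (hV : W ≤ V) (hi : W ≤ c.U i) :
    (Sec.mk (c := c) r hr).v i hV hi = rs (le_inf hV hi) (r i) := rfl

variable (c)

noncomputable instance (V : X.Opens) : Zero (c.Sec V) := ⟨Sec.mk (fun _ => 0) (by simp)⟩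
noncomputable instance (V : X.Opens) : Add (c.Sec V) :=
  ⟨fun m m' => Sec.mk (fun i => m.1 i + m'.1 i) (by
    intro i j W hV hi hj
    rw [map_add, map_add, mul_add, m.2 i j W hV hi hj, m'.2 i j W hV hi hj])⟩
noncomputable instance (V : X.Opens) : Neg (c.Sec V) :=
  ⟨fun m => Sec.mk (fun i => - m.1 i) (by
    intro i j W hV hi hj
    rw [map_neg, map_neg, mul_neg, m.2 i j W hV hi hj])⟩
noncomputable instance (V : X.Opens) : SMul Γ(X, V) (c.Sec V) :=
  ⟨fun r m => Sec.mk (fun i => rs inf_le_left r * m.1 i) (by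
    intro i j W hV hi hj
    rw [map_mul, map_mul, m.2 i j W hV hi hj]
    simp only [rs_rs]
    ring)⟩

theorem add_v {V : X.Opens} (m m' : c.Sec V) (i : ι) {W : X.Opens} (hV : W ≤ V)
    (hi : W ≤ c.U i) : (m + m').v i hV hi = m.v i hV hi + m'.v i hV hi :=
  map_add (rs (le_inf hV hi)) (m.1 i) (m'.1 i)

theorem zero_v {V : X.Opens} (i : ι) {W : X.Opens} (hV : W ≤ V)
    (hi : W ≤ c.U i) : (0 : c.Sec V).v i hV hi = 0 :=
  map_zero (rs (le_inf hV hi))

theorem neg_v {V : X.Opens} (m : c.Sec V) (i : ι) {W : X.Opens} (hV : W ≤ V)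
    (hi : W ≤ c.U i) : (-m).v i hV hi = - m.v i hV hi :=
  map_neg (rs (le_inf hV hi)) (m.1 i)

theorem smul_v {V : X.Opens} (r : Γ(X, V)) (m : c.Sec V) (i : ι) {W : X.Opens} (hV : W ≤ V)
    (hi : W ≤ c.U i) : (r • m).v i hV hi = rs hV r * m.v i hV hi := by
  have := map_mul (rs (le_inf hV hi)) (rs inf_le_left r) (m.1 i)
  rw [rs_rs] at this
  exact this

noncomputable instance (V : X.Opens) : AddCommGroup (c.Sec V) where
  add_assoc a b d := Sec.ext fun i => by simp only [add_v, add_assoc]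
  zero_add a := Sec.ext fun i => by simp only [add_v, zero_v, zero_add]
  add_zero a := Sec.ext fun i => by simp only [add_v, zero_v, add_zero]
  nsmul := nsmulRec
  zsmul := zsmulRec
  neg_add_cancel a := Sec.ext fun i => by simp only [add_v, neg_v, zero_v, neg_add_cancel]
  add_comm a b := Sec.ext fun i => by simp only [add_v, add_comm]

noncomputable instance (V : X.Opens) : Module Γ(X, V) (c.Sec V) where
  one_smul a := Sec.ext fun i => by simp only [smul_v, map_one, one_mul]
  mul_smul r r' a := Sec.ext fun i => by simp only [smul_v, map_mul, mul_assoc]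
  smul_zero r := Sec.ext fun i => by simp only [smul_v, zero_v, mul_zero]
  smul_add r a b := Sec.ext fun i => by simp only [smul_v, add_v, mul_add]
  add_smul r r' a := Sec.ext fun i => by simp only [smul_v, add_v, map_add, add_mul]
  zero_smul a := Sec.ext fun i => by simp only [smul_v, zero_v, map_zero, zero_mul]

/-- restriction of sections -/
noncomputable def resS {V W : X.Opens} (h : W ≤ V) : c.Sec V →+ c.Sec W where
  toFun m := Sec.mk (fun i => m.v i (inf_le_left.trans h) inf_le_right) (by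
    intro i j W' hV hi hj
    rw [Sec.rs_v, Sec.rs_v]
    exact m.v_eq i j _ hi hj)
  map_zero' := Sec.ext fun i => by
    rw [Sec.mk_v, zero_v, map_zero, zero_v]
  map_add' m m' := Sec.ext fun i => by
    rw [Sec.mk_v, add_v, map_add, add_v, Sec.mk_v, Sec.mk_v]

theorem resS_v {V W : X.Opens} (h : W ≤ V) (m : c.Sec V) (i : ι) {W' : X.Opens} (hV : W' ≤ W)
    (hi : W' ≤ c.U i) : (c.resS h m).v i hV hi = m.v i (hV.trans h) hi := by
  change rs _ (m.v i ((inf_le_left : W ⊓ c.U i ≤ W).trans h) inf_le_right) = _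
  rw [Sec.rs_v]

theorem resS_smul {V W : X.Opens} (h : W ≤ V) (r : Γ(X, V)) (m : c.Sec V) :
    c.resS h (r • m) = rs h r • c.resS h m := Sec.ext fun i => by
  rw [resS_v, smul_v, smul_v, resS_v, rs_rs]

theorem resS_refl {V : X.Opens} (h : V ≤ V) (m : c.Sec V) : c.resS h m = m :=
  Sec.ext fun i => by rw [resS_v]

theorem resS_resS {V W W' : X.Opens} (h : W ≤ V) (h' : W' ≤ W) (m : c.Sec V) :
    c.resS h' (c.resS h m) = c.resS (h'.trans h) m :=
  Sec.ext fun i => by rw [resS_v, resS_v, resS_v]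

/-- the underlying presheaf of abelian groups -/
noncomputable def preS : TopCat.Presheaf Ab X where
  obj V := AddCommGrpCat.of (c.Sec V.unop)
  map f := AddCommGrpCat.ofHom (c.resS (leOfHom f.unop))
  map_id V := by
    ext m
    exact c.resS_refl le_rfl m
  map_comp f f' := by
    ext m
    exact (c.resS_resS (leOfHom f.unop) (leOfHom f'.unop) m).symm

theorem isSheaf_preS : c.preS.IsSheaf := by
  rw [TopCat.Presheaf.isSheaf_iff_isSheafUniqueGluing]
  intro κ V (m : ∀ a, c.Sec (V a)) hm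
  have hm' : ∀ (a b : κ) (i : ι) (W : X.Opens) (ha : W ≤ V a) (hb : W ≤ V b) (hi : W ≤ c.U i),
      (m a).v i ha hi = (m b).v i hb hi := by
    intro a b i W ha hb hi
    have h1 : c.resS (inf_le_left : V a ⊓ V b ≤ V a) (m a) =
      c.resS (inf_le_right : V a ⊓ V b ≤ V b) (m b) := hm a b
    have h2 := congrArg (fun z : c.Sec (V a ⊓ V b) => z.v i (le_inf ha hb) hi) h1
    simpa only [resS_v] using h2
  have hcov : ∀ i, (iSup V ⊓ c.U i) ≤ ⨆ a, V a ⊓ c.U i := by
    intro i
    rw [← iSup_inf_eq]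
  have h1 : ∀ i, ∃! r : Γ(X, iSup V ⊓ c.U i), ∀ a, rs (inf_le_inf_right _ (le_iSup V a)) r =
      (m a).v i inf_le_left inf_le_right := by
    intro i
    refine existsUnique_glueO (fun a => V a ⊓ c.U i) _ _ (hcov i) _ ?_
    intro a b
    rw [Sec.rs_v, Sec.rs_v]
    exact hm' a b i _ _ _ _
  choose r hr hru using h1
  have hr' : ∀ (i : ι) (a : κ) (W : X.Opens) (ha : W ≤ V a) (hi : W ≤ c.U i),
      rs (le_inf (ha.trans (le_iSup V a)) hi) (r i) = (m a).v i ha hi := by
    intro i a W ha hi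
    have h2 := congrArg (rs (le_inf ha hi)) (hr i a)
    rwa [rs_rs, Sec.rs_v] at h2
  let s : c.Sec (iSup V) := Sec.mk r (by
    intro i j W hV hi hj
    refine eq_of_locallyO (fun a => W ⊓ V a) W (fun _ => inf_le_left) ?_ _ _ ?_
    · rw [← inf_iSup_eq]
      exact le_inf le_rfl hV
    · intro a
      have hb : W ⊓ V a ≤ V a := inf_le_right
      rw [rs_rs, map_mul, rs_rs, rs_t]
      have h3 := hr' i a _ hb (inf_le_left.trans hi)
      have h4 := hr' j a _ hb (inf_le_left.trans hj)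
      rw [h3, h4]
      exact (m a).v_eq i j hb _ _)
  refine ⟨s, ?_, ?_⟩
  · intro a
    change c.resS (le_iSup V a) s = m a
    apply Sec.ext
    intro i
    rw [resS_v]
    exact hr' i a _ _ _
  · intro (s' : c.Sec (iSup V)) hs'
    change s' = s
    apply Sec.ext
    intro i
    have h5 : ∀ a, c.resS (le_iSup V a) s' = m a := hs'
    have h6 := hru i (s'.v i inf_le_left inf_le_right) (by
      intro a
      rw [Sec.rs_v]
      have h7 := congrArg (fun z : c.Sec (V a) =>
        z.v i (inf_le_left : V a ⊓ c.U i ≤ V a) inf_le_right) (h5 a)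
      simp only [resS_v] at h7
      exact h7)
    rw [h6]
    exact (rs_refl _ _).symm

/-- the sheaf of modules of a cocycle -/
noncomputable def toMod : X.Modules :=
  letI : ∀ V : X.Opensᵒᵖ, Module (X.ringCatSheaf.obj.obj V) (c.preS.obj V) :=
    fun V => inferInstanceAs (Module Γ(X, V.unop) (c.Sec V.unop))
  { val := PresheafOfModules.ofPresheaf c.preS (fun _ _ f r m => c.resS_smul (leOfHom f.unop) r m)
    isSheaf := c.isSheaf_preS }

end CocOn

end Fermat.Agent.Jac
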