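import Fermat.Agent.Jac.Coc

/-!
# Invertible sheaves and cocycles
-/

set_option autoImplicit false

universe u

open CategoryTheory CategoryTheory.Limits AlgebraicGeometry TopologicalSpace Opposite

namespace Fermat.Agent.Jac

variable {X Y : Scheme.{u}}

namespace CocOn

variable {ι : Type u} (c : CocOn X ι)

theorem toMod_res {V W : X.Opens} (h : W ≤ V) (m : c.Sec V) :
    res c.toMod h m = c.resS h m := rfl

theorem toMod_smul {V : X.Opens} (r : Γ(X, V)) (m : c.Sec V) :
    (r • (show Γ(c.toMod, V) from m) : Γ(c.toMod, V)) = (r • m : c.Sec V) := rfl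

/-- the generator of `toMod` over `U j`, as a section. -/
noncomputable def genS (j : ι) : c.Sec (c.U j) :=
  Sec.mk (fun i => c.t i j inf_le_right inf_le_left) (by
    intro i k W hV hi hj
    rw [rs_t, rs_t, t_mul])

theorem genS_v (j i : ι) {W : X.Opens} (hV : W ≤ c.U j) (hi : W ≤ c.U i) :
    (c.genS j).v i hV hi = c.t i j hi hV := by
  rw [genS, Sec.mk_v, rs_t]

/-- the generator of `toMod` over `U j`. -/
noncomputable def gen (j : ι) : Γ(c.toMod, c.U j) := c.genS j

theorem res_gen (i j : ι) {W : X.Opens} (hi : W ≤ c.U i) (hj : W ≤ c.U j) :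
    res c.toMod hj (c.gen j) = c.t i j hi hj • res c.toMod hi (c.gen i) := by
  change c.resS hj (c.genS j) = c.t i j hi hj • c.resS hi (c.genS i)
  apply Sec.ext
  intro k
  rw [resS_v, smul_v, resS_v, genS_v, genS_v, rs_t, mul_comm, t_mul]

theorem isGen_gen (i : ι) : IsGen c.toMod (c.gen i) := by
  intro V hV
  constructor
  · intro r r' h
    have h1 : (r • c.resS hV (c.genS i) : c.Sec V) = r' • c.resS hV (c.genS i) := h
    have h2 := congrArg (fun z : c.Sec V => z.v i le_rfl hV) h1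
    simpa [smul_v, resS_v, genS_v] using h2
  · intro (m : c.Sec V)
    refine ⟨m.v i le_rfl hV, ?_⟩
    change (m.v i le_rfl hV • c.resS hV (c.genS i) : c.Sec V) = m
    apply Sec.ext
    intro k
    rw [smul_v, resS_v, genS_v, Sec.rs_v, mul_comm]
    exact (m.v_eq k i _ _ _).symm

theorem isInvertible_toMod : (c.toMod).IsInvertible := by
  apply isInvertible_of_gen
  intro x
  have hx : x ∈ ⨆ i, c.U i := by rw [c.cover]; trivial
  obtain ⟨i, hi⟩ := Opens.mem_iSup.mp hx
  exact ⟨c.U i, hi, c.gen i, c.isGen_gen i⟩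

/-- the cocycle of a family of generators. -/
noncomputable def ofGen (M : X.Modules) {U : ι → X.Opens} (hU : ⨆ i, U i = ⊤)
    (s : ∀ i, Γ(M, U i)) (hs : ∀ i, IsGen M (s i)) : CocOn X ι where
  U := U
  cover := hU
  g i j := ((hs i).exists_smul (inf_le_left : U i ⊓ U j ≤ U i)
    (res M (inf_le_right : U i ⊓ U j ≤ U j) (s j))).choose
  g_self i := by
    apply (hs i).smul_inj (inf_le_left : U i ⊓ U i ≤ U i)
    rw [← ((hs i).exists_smul (inf_le_left : U i ⊓ U i ≤ U i)
      (res M (inf_le_right : U i ⊓ U i ≤ U i) (s i))).choose_spec, one_smul]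
  g_mul i j k W hi hj hk := by
    have key : ∀ a b (ha : W ≤ U a) (hb : W ≤ U b), res M hb (s b) =
        rs (le_inf ha hb) ((hs a).exists_smul (inf_le_left : U a ⊓ U b ≤ U a)
          (res M (inf_le_right : U a ⊓ U b ≤ U b) (s b))).choose • res M ha (s a) := by
      intro a b ha hb
      have h1 := congrArg (res M (le_inf ha hb)) ((hs a).exists_smul (inf_le_left : U a ⊓ U b ≤ U a)
          (res M (inf_le_right : U a ⊓ U b ≤ U b) (s b))).choose_spec
      rwa [res_smul, res_res, res_res] at h1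
    apply (hs i).smul_inj hi
    rw [← key i k hi hk, mul_comm, mul_smul, ← key i j hi hj, ← key j k hj hk]

theorem ofGen_t (M : X.Modules) {U : ι → X.Opens} (hU : ⨆ i, U i = ⊤)
    (s : ∀ i, Γ(M, U i)) (hs : ∀ i, IsGen M (s i)) (i j : ι) {W : X.Opens} (hi : W ≤ U i)
    (hj : W ≤ U j) : res M hj (s j) = (ofGen M hU s hs).t i j hi hj • res M hi (s i) := by
  have h1 := congrArg (res M (le_inf hi hj)) ((hs i).exists_smul (inf_le_left : U i ⊓ U j ≤ U i)
      (res M (inf_le_right : U i ⊓ U j ≤ U j) (s j))).choose_spec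
  rwa [res_smul, res_res, res_res] at h1

end CocOn

/-- comparison of two sheaves with generators satisfying the same relations -/
theorem exists_iso_of_gen {M N : X.Modules} {ι : Type*} {U : ι → X.Opens} (hU : ⨆ i, U i = ⊤)
    {s : ∀ i, Γ(M, U i)} (hs : ∀ i, IsGen M (s i)) {n : ∀ i, Γ(N, U i)} (hn : ∀ i, IsGen N (n i))
    (hc : Compat s n) : ∃ e : M ≅ N, ∀ i, ap e.hom (U i) (s i) = n i := by
  obtain ⟨φ, hφ⟩ := exists_hom_of_gen hU hs hc
  haveI : IsIso φ := isIso_of_gen hU hs φ (fun i => by rw [hφ]; exact hn i)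
  exact ⟨asIso φ, hφ⟩

theorem CocOn.compat_gen {ι : Type u} (c : CocOn X ι) {M : X.Modules} (s : ∀ i, Γ(M, c.U i))
    (h : ∀ (i j : ι), res M (inf_le_right : c.U i ⊓ c.U j ≤ c.U j) (s j) =
      c.t i j inf_le_left inf_le_right • res M (inf_le_left : c.U i ⊓ c.U j ≤ c.U i) (s i)) :
    Compat (fun i => c.gen i) s := by
  intro i j W hi hj r hr
  have h1 : r = c.t i j hi hj := by
    apply (c.isGen_gen i).smul_inj hi
    rw [← hr, ← c.res_gen]
  have h2 := congrArg (res M (le_inf hi hj)) (h i j)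
  rw [res_smul, res_res, res_res, CocOn.rs_t] at h2
  rw [h1]
  exact h2

/-- a sheaf with generators satisfying the relations of a cocycle. -/
theorem CocOn.exists_iso {ι : Type u} (c : CocOn X ι) {M : X.Modules} (s : ∀ i, Γ(M, c.U i))
    (hs : ∀ i, IsGen M (s i))
    (h : ∀ (i j : ι), res M (inf_le_right : c.U i ⊓ c.U j ≤ c.U j) (s j) =
      c.t i j inf_le_left inf_le_right • res M (inf_le_left : c.U i ⊓ c.U j ≤ c.U i) (s i)) :
    ∃ e : c.toMod ≅ M, ∀ i, ap e.hom (c.U i) (c.gen i) = s i :=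
  exists_iso_of_gen c.cover (fun i => c.isGen_gen i) hs (c.compat_gen s h)

theorem CocOn.ofGen_iso {ι : Type u} (M : X.Modules) {U : ι → X.Opens} (hU : ⨆ i, U i = ⊤)
    (s : ∀ i, Γ(M, U i)) (hs : ∀ i, IsGen M (s i)) :
    ∃ e : (CocOn.ofGen M hU s hs).toMod ≅ M,
      ∀ i, ap e.hom (U i) ((CocOn.ofGen M hU s hs).gen i) = s i :=
  (CocOn.ofGen M hU s hs).exists_iso s hs fun i j => CocOn.ofGen_t M hU s hs i j _ _

/-- every invertible sheaf comes from a cocycle indexed by the points -/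
theorem exists_coc {M : X.Modules} (hM : M.IsInvertible) :
    ∃ (c : CocOn X X) (_ : ∀ x, x ∈ c.U x), Nonempty (M ≅ c.toMod) := by
  choose U hxU s hs using exists_gen hM
  have hU : ⨆ x, U x = ⊤ := by
    rw [eq_top_iff]
    intro x _
    exact Opens.mem_iSup.mpr ⟨x, hxU x⟩
  obtain ⟨e, -⟩ := CocOn.ofGen_iso M hU s hs
  exact ⟨CocOn.ofGen M hU s hs, hxU, ⟨e.symm⟩⟩

end Fermat.Agent.Jac
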