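import Fermat.Agent.Jac.LatBC

/-!
# Cohomology of vector bundles on `P¹_A` and base change
-/

set_option autoImplicit false
set_option linter.unusedSectionVars false

universe u v u' v'

namespace Fermat.Agent.Jac

open TensorProduct

variable {A : Type u} [CommRing A] {W : Type v} [AddCommGroup W] [Module A W]
  {x : W ≃ₗ[A] W} {E Ei : Submodule A W}

/-- `H¹` is finitely generated -/
theorem finite_quot_sup (h0 : IsLat x E) (hi : IsLat x⁻¹ Ei) :
    Module.Finite A (W ⧸ (E ⊔ Ei)) := by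
  classical
  obtain ⟨N, hN⟩ := exists_sup_eq_top h0 hi
  obtain ⟨d⟩ := hi.dual
  let g : (Fin d.r × Fin N → A) →ₗ[A] W ⧸ (E ⊔ Ei) :=
    (E ⊔ Ei).mkQ.comp (Fintype.linearCombination A fun p => (x ^ ((p.2 : ℕ) + 1)) (d.e p.1))
  refine Module.Finite.of_surjective g fun z => ?_
  obtain ⟨w, rfl⟩ := (E ⊔ Ei).mkQ_surjective z
  obtain ⟨a, ha, c, hc, rfl⟩ := Submodule.mem_sup.mp
    ((hN N le_rfl).symm ▸ Submodule.mem_top : w ∈ E ⊔ tw x N Ei)
  have h1 := d.repr_mod hi (m := N) (w := c) (by rw [mem_tw] at hc; exact hc)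
  refine ⟨fun p => d.c p.1 ((x⁻¹ ^ ((p.2 : ℕ) + 1)) c), ?_⟩
  rw [LinearMap.comp_apply, Submodule.mkQ_apply, Submodule.mkQ_apply, Submodule.Quotient.eq,
    Fintype.linearCombination_apply, Fintype.sum_prod_type]
  have h2 : ∑ i, ∑ k : Fin N, d.c i ((x⁻¹ ^ ((k : ℕ) + 1)) c) • (x ^ ((k : ℕ) + 1)) (d.e i) =
      ∑ i, ∑ k ∈ Finset.range N, d.c i ((x⁻¹ ^ (k + 1)) c) • ((x⁻¹)⁻¹ ^ (k + 1)) (d.e i) := by
    refine Finset.sum_congr rfl fun i _ => ?_
    rw [← Fin.sum_univ_eq_sum_range fun k => d.c i ((x⁻¹ ^ (k + 1)) c) •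
      ((x⁻¹)⁻¹ ^ (k + 1)) (d.e i), inv_inv]
  rw [h2]
  have h3 := Submodule.add_mem (E ⊔ Ei) ((le_sup_left : E ≤ E ⊔ Ei) ha)
    ((le_sup_right : Ei ≤ E ⊔ Ei) h1)
  rw [← neg_mem_iff]
  convert h3 using 1
  abel

variable {A' : Type u'} [CommRing A'] [Algebra A A'] {W' : Type v'} [AddCommGroup W'] [Module A W']
  [Module A' W'] [IsScalarTower A A' W'] {f : W →ₗ[A] W'} {x' : W' ≃ₗ[A'] W'}

/-- restriction of a base change to a direct summand -/
theorem isBaseChange_restrict (hf : IsBaseChange A' f) (H : Submodule A W)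
    (R : W →ₗ[A] H) (hR : ∀ w : H, R w = w) :
    IsBaseChange A' ((f.comp H.subtype).codRestrict ((bc A' f H).restrictScalars A)
      fun w => mem_bc w.2 : H →ₗ[A] bc A' f H) := by
  let ψ : A' ⊗[A] H →ₗ[A'] W' := hf.equiv.toLinearMap.comp (H.subtype.baseChange A')
  have hψ : ∀ (a : A') (w : H), ψ (a ⊗ₜ w) = a • f w := fun a w => by
    change hf.equiv ((H.subtype.baseChange A') (a ⊗ₜ w)) = _
    rw [LinearMap.baseChange_tmul, hf.equiv_tmul]
    rfl
  have hinj : Function.Injective ψ := by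
    have h1 : Function.LeftInverse (R.baseChange A') (H.subtype.baseChange A') := by
      intro z
      rw [← LinearMap.comp_apply, ← LinearMap.baseChange_comp]
      have : R.comp H.subtype = LinearMap.id := LinearMap.ext hR
      rw [this, LinearMap.baseChange_id]
      rfl
    exact hf.equiv.injective.comp h1.injective
  have hrange : LinearMap.range ψ = bc A' f H := by
    apply le_antisymm
    · rintro _ ⟨z, rfl⟩
      induction z using TensorProduct.induction_on with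
      | zero => rw [map_zero]; exact zero_mem _
      | tmul a w => rw [hψ]; exact Submodule.smul_mem _ _ (mem_bc w.2)
      | add z z' h h' => rw [map_add]; exact add_mem h h'
    · rw [bc, Submodule.span_le]
      rintro _ ⟨w, hw, rfl⟩
      exact ⟨1 ⊗ₜ ⟨w, hw⟩, by rw [hψ, one_smul]⟩
  refine IsBaseChange.of_equiv ((LinearEquiv.ofInjective ψ hinj).trans (LinearEquiv.ofEq _ _ hrange))
    fun w => ?_
  apply Subtype.ext
  change ψ (1 ⊗ₜ w) = f w
  rw [hψ, one_smul]

/-- a lattice is a direct summand -/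
theorem IsLat.exists_retraction (hs : IsLat x E) : ∃ R : W →ₗ[A] E, ∀ w : E, R w = w := by
  have := hs.projective_quot
  obtain ⟨s, hs⟩ := Module.projective_lifting_property E.mkQ LinearMap.id E.mkQ_surjective
  have hs' : ∀ z, E.mkQ (s z) = z := fun z => LinearMap.congr_fun hs z
  refine ⟨{ toFun := fun w => ⟨w - s (E.mkQ w), ?_⟩, map_add' := ?_, map_smul' := ?_ }, ?_⟩
  · have h1 : E.mkQ (w - s (E.mkQ w)) = 0 := by rw [map_sub, hs', sub_self]
    exact (Submodule.Quotient.mk_eq_zero _).mp h1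
  · intro w w'
    apply Subtype.ext
    simp only [map_add, Submodule.coe_add]
    abel
  · intro a w
    apply Subtype.ext
    simp [smul_sub]
  · intro w
    apply Subtype.ext
    change w.1 - s (E.mkQ w.1) = w.1
    rw [Submodule.mkQ_apply, (Submodule.Quotient.mk_eq_zero _).mpr w.2, map_zero, sub_zero]

/-- the projection to `Ei`-classes lifted to `E` -/
theorem exists_lift (hi : IsLat x⁻¹ Ei) (htop : E ⊔ Ei = ⊤) :
    ∃ σ : W →ₗ[A] W, (∀ w ∈ Ei, σ w = 0) ∧ (∀ w, σ w ∈ E) ∧ ∀ w, w - σ w ∈ Ei := by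
  have hproj := hi.projective_quot
  let q : E →ₗ[A] W ⧸ Ei := Ei.mkQ.comp E.subtype
  have hq : Function.Surjective q := by
    intro z
    obtain ⟨w, rfl⟩ := Ei.mkQ_surjective z
    obtain ⟨a, ha, c, hc, rfl⟩ := Submodule.mem_sup.mp (htop ▸ Submodule.mem_top : w ∈ E ⊔ Ei)
    refine ⟨⟨a, ha⟩, ?_⟩
    change Ei.mkQ a = Ei.mkQ (a + c)
    rw [map_add, Submodule.mkQ_apply Ei c, (Submodule.Quotient.mk_eq_zero _).mpr hc, add_zero]
  obtain ⟨s, hs⟩ := Module.projective_lifting_property q LinearMap.id hq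
  have hs' : ∀ z, q (s z) = z := fun z => LinearMap.congr_fun hs z
  refine ⟨E.subtype.comp (s.comp Ei.mkQ), fun w hw => ?_, fun w => (s (Ei.mkQ w)).2, fun w => ?_⟩
  · rw [LinearMap.comp_apply, LinearMap.comp_apply, Submodule.mkQ_apply,
      (Submodule.Quotient.mk_eq_zero _).mpr hw, map_zero, map_zero]
  · have h1 : Ei.mkQ (w - (s (Ei.mkQ w)).1) = 0 := by
      rw [map_sub]
      change Ei.mkQ w - q (s (Ei.mkQ w)) = 0
      rw [hs', sub_self]
    exact (Submodule.Quotient.mk_eq_zero _).mp h1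

/-- **`H⁰` commutes with base change if `H¹ = 0`** -/
theorem bc_inf (hi : IsLat x⁻¹ Ei) (htop : E ⊔ Ei = ⊤) (hf : IsBaseChange A' f) :
    bc A' f (E ⊓ Ei) = bc A' f E ⊓ bc A' f Ei := by
  apply le_antisymm (le_inf (bc_mono inf_le_left) (bc_mono inf_le_right))
  rintro w ⟨hw, hwi⟩
  obtain ⟨σ, hσ1, hσ2, hσ3⟩ := exists_lift hi htop
  let σ' : W' →ₗ[A'] W' := hf.lift (f.comp σ)
  have hσ' : ∀ w, σ' (f w) = f (σ w) := fun w => hf.lift_eq _ _
  have h1 : σ' w = 0 := by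
    clear hw
    have hwi' : w ∈ bc A' f Ei := hwi
    clear hwi
    induction hwi' using bc_induction with
    | h0 => rw [map_zero]
    | hadd w w' _ _ h h' => rw [map_add, h, h', add_zero]
    | hsmul a w hw => rw [map_smul, hσ', hσ1 w hw, map_zero, smul_zero]
  have h2 : w - σ' w ∈ bc A' f (E ⊓ Ei) := by
    clear hwi h1
    have hw' : w ∈ bc A' f E := hw
    clear hw
    induction hw' using bc_induction with
    | h0 => rw [map_zero, sub_zero]; exact zero_mem _
    | hadd w w' _ _ h h' =>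
      rw [map_add, add_sub_add_comm]
      exact add_mem h h'
    | hsmul a w hw =>
      rw [map_smul, hσ', ← smul_sub, ← map_sub]
      exact Submodule.smul_mem _ _ (mem_bc ⟨E.sub_mem hw (hσ2 w), hσ3 w⟩)
  rwa [h1, sub_zero] at h2

theorem isBaseChange_inf (h0 : IsLat x E) (hi : IsLat x⁻¹ Ei) (htop : E ⊔ Ei = ⊤)
    (hf : IsBaseChange A' f) :
    IsBaseChange A' ((f.comp (E ⊓ Ei).subtype).codRestrict
      ((bc A' f (E ⊓ Ei)).restrictScalars A) fun w => mem_bc w.2 :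
        (E ⊓ Ei : Submodule A W) →ₗ[A] bc A' f (E ⊓ Ei)) := by
  obtain ⟨R, hR⟩ := h0.exists_retraction
  obtain ⟨σ, hσ1, hσ2, hσ3⟩ := exists_lift hi htop
  refine isBaseChange_restrict hf (E ⊓ Ei)
    (((LinearMap.id - σ).comp (E.subtype.comp R)).codRestrict (E ⊓ Ei) fun w =>
      ⟨E.sub_mem (R w).2 (hσ2 _), hσ3 _⟩) fun w => ?_
  apply Subtype.ext
  have h1 : (R w.1 : W) = w.1 := congrArg Subtype.val (hR ⟨w.1, w.2.1⟩)
  change (R w.1 : W) - σ (R w.1) = w.1
  rw [h1, hσ1 w.1 w.2.2, sub_zero]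

theorem bc_sup_eq_top (hf : IsBaseChange A' f) (htop : E ⊔ Ei = ⊤) :
    bc A' f E ⊔ bc A' f Ei = ⊤ := by
  rw [← bc_sup, htop, bc_top hf]

end Fermat.Agent.Jac
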