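import Fermat.Agent.Jac.CohOpen

/-!
# The Euler characteristic
-/

set_option autoImplicit false
set_option linter.unusedSectionVars false

universe u v u' v' u'' v''

namespace Fermat.Agent.Jac

open TensorProduct Module

section field

variable {K : Type u} [Field K] {V : Type v} [AddCommGroup V] [Module K V]

/-- Euler characteristic of a pair of subspaces -/
noncomputable def chi (E F : Submodule K V) : ℤ :=
  (finrank K (E ⊓ F : Submodule K V) : ℤ) - finrank K (V ⧸ (E ⊔ F))

theorem chi_comm (E F : Submodule K V) : chi E F = chi F E := by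
  rw [chi, chi, inf_comm, sup_comm]

/-- `dim F' / F` -/
noncomputable def rdim (F F' : Submodule K V) : ℕ := finrank K (F' ⧸ F.submoduleOf F')

theorem finite_and_chi (E F F' : Submodule K V) (hFF : F ≤ F')
    [h1 : FiniteDimensional K (F' ⧸ F.submoduleOf F')] [h2 : FiniteDimensional K (V ⧸ (E ⊔ F))] :
    (FiniteDimensional K (E ⊓ F : Submodule K V) ↔
      FiniteDimensional K (E ⊓ F' : Submodule K V)) ∧
    FiniteDimensional K (V ⧸ (E ⊔ F')) ∧
    (FiniteDimensional K (E ⊓ F : Submodule K V) → chi E F' = chi E F + rdim F F') := by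
  -- the exact sequence
  let α : (E ⊓ F' : Submodule K V) →ₗ[K] F' ⧸ F.submoduleOf F' :=
    (F.submoduleOf F').mkQ.comp (Submodule.inclusion inf_le_right)
  let φ : (F' ⧸ F.submoduleOf F') →ₗ[K] V ⧸ (E ⊔ F) :=
    (F.submoduleOf F').mapQ (E ⊔ F) F'.subtype (fun w hw => (le_sup_right : F ≤ E ⊔ F) hw)
  let ψ : (V ⧸ (E ⊔ F)) →ₗ[K] V ⧸ (E ⊔ F') :=
    Submodule.factor (sup_le_sup_left hFF E)
  have hψ : Function.Surjective ψ := Submodule.factor_surjective _
  have hker : LinearMap.ker φ = LinearMap.range α := by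
    apply le_antisymm
    · intro z hz
      obtain ⟨w, rfl⟩ := (F.submoduleOf F').mkQ_surjective z
      have h3 : (w : V) ∈ E ⊔ F := (Submodule.Quotient.mk_eq_zero _).mp hz
      obtain ⟨e, he, g, hg, heg⟩ := Submodule.mem_sup.mp h3
      have he' : e ∈ F' := by
        have : e = w - g := by rw [← heg, add_sub_cancel_right]
        rw [this]
        exact F'.sub_mem w.2 (hFF hg)
      refine ⟨⟨e, he, he'⟩, ?_⟩
      change (F.submoduleOf F').mkQ ⟨e, he'⟩ = (F.submoduleOf F').mkQ w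
      rw [Submodule.mkQ_apply, Submodule.mkQ_apply, Submodule.Quotient.eq]
      change (e - (w : V)) ∈ F
      rw [← heg, sub_add_cancel_left]
      exact F.neg_mem hg
    · rintro _ ⟨w, rfl⟩
      exact (Submodule.Quotient.mk_eq_zero _).mpr (le_sup_left (a := E) w.2.1)
  have hker' : LinearMap.ker ψ = LinearMap.range φ := by
    apply le_antisymm
    · intro z hz
      obtain ⟨w, rfl⟩ := (E ⊔ F).mkQ_surjective z
      have h3 : w ∈ E ⊔ F' := (Submodule.Quotient.mk_eq_zero _).mp hz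
      obtain ⟨e, he, g, hg, heg⟩ := Submodule.mem_sup.mp h3
      refine ⟨(F.submoduleOf F').mkQ ⟨g, hg⟩, ?_⟩
      change (E ⊔ F).mkQ g = (E ⊔ F).mkQ w
      rw [Submodule.mkQ_apply, Submodule.mkQ_apply, Submodule.Quotient.eq, ← heg,
        sub_add_cancel_right]
      exact Submodule.neg_mem _ (le_sup_left (a := E) he)
    · rintro _ ⟨z, rfl⟩
      obtain ⟨w, rfl⟩ := (F.submoduleOf F').mkQ_surjective z
      exact (Submodule.Quotient.mk_eq_zero _).mpr (le_sup_right (b := F') w.2)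
  let β : LinearMap.ker α ≃ₗ[K] (E ⊓ F : Submodule K V) :=
    { toFun := fun w => ⟨w.1.1, w.1.2.1, (Submodule.Quotient.mk_eq_zero (F.submoduleOf F')).mp w.2⟩
      map_add' := fun _ _ => rfl
      map_smul' := fun _ _ => rfl
      invFun := fun w => ⟨⟨w.1, w.2.1, hFF w.2.2⟩, (Submodule.Quotient.mk_eq_zero _).mpr w.2.2⟩
      left_inv := fun _ => rfl
      right_inv := fun _ => rfl }
  have hfin : FiniteDimensional K (E ⊓ F : Submodule K V) ↔
      FiniteDimensional K (E ⊓ F' : Submodule K V) := by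
    constructor
    · intro h
      have : FiniteDimensional K (LinearMap.ker α) := Module.Finite.equiv β.symm
      have : FiniteDimensional K ((E ⊓ F' : Submodule K V) ⧸ LinearMap.ker α) :=
        Module.Finite.equiv α.quotKerEquivRange.symm
      exact Module.Finite.of_submodule_quotient (LinearMap.ker α)
    · intro h
      exact Submodule.finiteDimensional_of_le (inf_le_inf_left E hFF)
  refine ⟨hfin, Module.Finite.of_surjective ψ hψ, fun h => ?_⟩
  have := hfin.mp h
  have e1 := LinearMap.finrank_range_add_finrank_ker α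
  have e2 := LinearMap.finrank_range_add_finrank_ker φ
  have e3 := LinearMap.finrank_range_add_finrank_ker ψ
  rw [LinearMap.range_eq_top.mpr hψ, finrank_top, hker'] at e3
  rw [hker] at e2
  rw [β.finrank_eq] at e1
  rw [chi, chi, rdim]
  omega

end field

section lattice

variable {A : Type u} [CommRing A] {W : Type v} [AddCommGroup W] [Module A W]
  {x : W ≃ₗ[A] W} {E Ei : Submodule A W}

/-- `x ^ n Ei / Ei` is finitely generated -/
theorem finite_tw_quot (hi : IsLat x⁻¹ Ei) (n : ℕ) :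
    Module.Finite A (tw x n Ei ⧸ Ei.submoduleOf (tw x n Ei)) := by
  classical
  obtain ⟨d⟩ := hi.dual
  have hmem : ∀ (i : Fin d.r) (k : Fin n), (x ^ ((k : ℕ) + 1)) (d.e i) ∈ tw x n Ei := by
    intro i k
    rw [mem_tw, inv_pow_pow_of_ge x (by omega)]
    exact hi.pow_mem _ (d.e_mem i)
  let g : (Fin d.r × Fin n → A) →ₗ[A] tw x n Ei ⧸ Ei.submoduleOf (tw x n Ei) :=
    (Ei.submoduleOf (tw x n Ei)).mkQ.comp
      (Fintype.linearCombination A fun p => (⟨_, hmem p.1 p.2⟩ : tw x n Ei))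
  refine Module.Finite.of_surjective g fun z => ?_
  obtain ⟨⟨c, hc⟩, rfl⟩ := (Ei.submoduleOf (tw x n Ei)).mkQ_surjective z
  have h1 := d.repr_mod hi (m := n) (w := c) (by rw [mem_tw] at hc; exact hc)
  refine ⟨fun p => d.c p.1 ((x⁻¹ ^ ((p.2 : ℕ) + 1)) c), ?_⟩
  rw [LinearMap.comp_apply, Submodule.mkQ_apply, Submodule.mkQ_apply, Submodule.Quotient.eq,
    Fintype.linearCombination_apply, Fintype.sum_prod_type]
  change _ ∈ Ei
  rw [map_sub]
  have h2 : (tw x n Ei).subtype
      (∑ i, ∑ k : Fin n, d.c i ((x⁻¹ ^ ((k : ℕ) + 1)) c) •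
        (⟨(x ^ ((k : ℕ) + 1)) (d.e i), hmem i k⟩ : tw x n Ei)) =
      ∑ i, ∑ k ∈ Finset.range n, d.c i ((x⁻¹ ^ (k + 1)) c) • ((x⁻¹)⁻¹ ^ (k + 1)) (d.e i) := by
    rw [map_sum]
    refine Finset.sum_congr rfl fun i _ => ?_
    rw [map_sum, ← Fin.sum_univ_eq_sum_range fun k => d.c i ((x⁻¹ ^ (k + 1)) c) •
      ((x⁻¹)⁻¹ ^ (k + 1)) (d.e i), inv_inv]
    rfl
  rw [h2, ← neg_mem_iff, neg_sub]
  exact h1

end lattice

section chitw

variable {K : Type u} [Field K] {V : Type v} [AddCommGroup V] [Module K V]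
  {x : V ≃ₗ[K] V} {E Ei : Submodule K V}

theorem rdim_tw_succ (x : V ≃ₗ[K] V) (Ei : Submodule K V) (n : ℕ) :
    rdim (tw x n Ei) (tw x (n + 1) Ei) = rdim Ei (tw x 1 Ei) := by
  have hmem : ∀ w : V, w ∈ tw x (n + 1) Ei ↔ (x⁻¹ ^ n) w ∈ tw x 1 Ei := fun w => by
    rw [mem_tw, mem_tw, pow_one, pow_succ', LinearEquiv.mul_apply]
  let e : tw x (n + 1) Ei ≃ₗ[K] tw x 1 Ei :=
    LinearEquiv.ofSubmodules (x⁻¹ ^ n) _ _ (by
      ext w
      rw [Submodule.mem_map]
      constructor
      · rintro ⟨w, hw, rfl⟩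
        exact (hmem w).mp hw
      · intro hw
        refine ⟨(x ^ n) w, ?_, inv_pow_apply_pow x n w⟩
        rw [hmem, inv_pow_apply_pow]
        exact hw)
  refine (Submodule.Quotient.equiv _ _ e ?_).finrank_eq
  ext w
  rw [Submodule.mem_map]
  constructor
  · rintro ⟨w, hw, rfl⟩
    exact hw
  · intro hw
    refine ⟨e.symm w, ?_, e.apply_symm_apply w⟩
    change (e.symm w).1 ∈ tw x n Ei
    rw [mem_tw]
    have h1 : (x⁻¹ ^ n) (e.symm w).1 = w := congrArg Subtype.val (e.apply_symm_apply w)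
    rw [h1]
    exact hw

/-- `H⁰` and `H¹` are finite dimensional over a field -/
theorem finiteDimensional_inf (h0 : IsLat x E) (hi : IsLat x⁻¹ Ei) :
    FiniteDimensional K (E ⊓ Ei : Submodule K V) := by
  obtain ⟨N, hN⟩ := exists_sup_eq_top h0 hi
  have h1 := (finite_projective_inf h0 (hi.tw_inv N) (hN N le_rfl)).1
  exact Submodule.finiteDimensional_of_le (inf_le_inf_left E (le_tw hi N))

/-- the Euler characteristic of a twist -/
theorem chi_tw (h0 : IsLat x E) (hi : IsLat x⁻¹ Ei) (n : ℕ) :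
    chi E (tw x n Ei) = chi E Ei + n * rdim Ei (tw x 1 Ei) := by
  induction n with
  | zero => rw [tw_zero]; simp
  | succ n ih =>
    have hle : tw x n Ei ≤ tw x (n + 1) Ei := tw_mono hi (Nat.le_succ n)
    have h1 : FiniteDimensional K (tw x (n + 1) Ei ⧸ (tw x n Ei).submoduleOf (tw x (n + 1) Ei)) := by
      have h2 := finite_tw_quot hi (n + 1)
      refine Module.Finite.of_surjective (Submodule.factor (p := Ei.submoduleOf (tw x (n + 1) Ei))
        (p' := (tw x n Ei).submoduleOf (tw x (n + 1) Ei)) fun w hw => le_tw hi n hw)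
        (Submodule.factor_surjective _)
    have h2 : FiniteDimensional K (V ⧸ (E ⊔ tw x n Ei)) := finite_quot_sup h0 (hi.tw_inv n)
    have h3 := (finite_and_chi E _ _ hle).2.2 (finiteDimensional_inf h0 (hi.tw_inv n))
    rw [h3, ih, rdim_tw_succ]
    push_cast
    ring

/-- the Euler characteristic in terms of the dimensions of `H⁰` of large twists -/
theorem chi_eq (h0 : IsLat x E) (hi : IsLat x⁻¹ Ei) {N : ℕ}
    (hN : ∀ n, N ≤ n → E ⊔ tw x n Ei = ⊤) {n : ℕ} (hn : N ≤ n) :
    (rdim Ei (tw x 1 Ei) : ℤ) = (finrank K (E ⊓ tw x (n + 1) Ei : Submodule K V) : ℤ) -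
      finrank K (E ⊓ tw x n Ei : Submodule K V) ∧
    chi E Ei = (finrank K (E ⊓ tw x n Ei : Submodule K V) : ℤ) -
      n * ((finrank K (E ⊓ tw x (n + 1) Ei : Submodule K V) : ℤ) -
        finrank K (E ⊓ tw x n Ei : Submodule K V)) := by
  have key : ∀ m, N ≤ m → chi E (tw x m Ei) = finrank K (E ⊓ tw x m Ei : Submodule K V) := by
    intro m hm
    have : Subsingleton (V ⧸ (E ⊔ tw x m Ei)) := subsingleton_quot_of_eq_top (hN m hm)
    rw [chi, finrank_zero_of_subsingleton (M := V ⧸ (E ⊔ tw x m Ei))]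
    simp
  have h1 := chi_tw h0 hi n
  have h2 := chi_tw h0 hi (n + 1)
  rw [key n hn] at h1
  rw [key (n + 1) (by omega)] at h2
  push_cast at h2
  constructor
  · linarith
  · rw [h2, h1]
    ring_nf

end chitw

section family

variable {A : Type u} [CommRing A] {W : Type v} [AddCommGroup W] [Module A W]
  {x : W ≃ₗ[A] W} {E Ei : Submodule A W}

theorem exists_isBC {A' : Type u'} [CommRing A'] [Algebra A A'] {W' : Type v'} [AddCommGroup W']
    [Module A W'] [Module A' W'] [IsScalarTower A A' W'] {f : W →ₗ[A] W'} (hf : IsBaseChange A' f)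
    (x : W ≃ₗ[A] W) : ∃ x' : W' ≃ₗ[A'] W', IsBC f x x' := by
  refine ⟨(hf.equiv.symm.trans (bcAut A' x)).trans hf.equiv, ⟨fun w => ?_⟩⟩
  change hf.equiv (bcAut A' x (hf.equiv.symm (f w))) = _
  rw [hf.equiv_symm_apply]
  have h1 : bcAut A' x (1 ⊗ₜ w) = 1 ⊗ₜ x w := (isBC_mk (A' := A') x).comm w
  rw [h1, hf.equiv_tmul, one_smul]

theorem finrank_bc_inf (h0 : IsLat x E) (hi : IsLat x⁻¹ Ei) (htop : E ⊔ Ei = ⊤)
    {K : Type u'} [Field K] [Algebra A K] {W' : Type v'} [AddCommGroup W'] [Module A W']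
    [Module K W'] [IsScalarTower A K W'] {f : W →ₗ[A] W'} (hf : IsBaseChange K f)
    (q : PrimeSpectrum K) :
    finrank K (bc K f E ⊓ bc K f Ei : Submodule K W') =
      rankAtStalk (R := A) (E ⊓ Ei : Submodule A W) (q.comap (algebraMap A K)) := by
  have hfp := finite_projective_inf h0 hi htop
  have := hfp.1
  have := hfp.2
  have h1 := isBaseChange_inf h0 hi htop hf
  rw [← bc_inf hi htop hf, ← rankAtStalk_isBaseChange h1 q, rankAtStalk_eq_finrank_of_free]
  rfl

theorem chi_bc_eq (h0 : IsLat x E) (hi : IsLat x⁻¹ Ei) {N : ℕ}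
    (hN : ∀ n, N ≤ n → E ⊔ tw x n Ei = ⊤) {n : ℕ} (hn : N ≤ n)
    {K : Type u'} [Field K] [Algebra A K] {W' : Type v'} [AddCommGroup W'] [Module A W']
    [Module K W'] [IsScalarTower A K W'] {f : W →ₗ[A] W'} (hf : IsBaseChange K f)
    (q : PrimeSpectrum K) :
    chi (bc K f E) (bc K f Ei) =
      (rankAtStalk (R := A) (E ⊓ tw x n Ei : Submodule A W) (q.comap (algebraMap A K)) : ℤ) -
      n * ((rankAtStalk (R := A) (E ⊓ tw x (n + 1) Ei : Submodule A W)
          (q.comap (algebraMap A K)) : ℤ) -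
        rankAtStalk (R := A) (E ⊓ tw x n Ei : Submodule A W) (q.comap (algebraMap A K))) := by
  obtain ⟨x', hx⟩ := exists_isBC hf x
  have h0' := h0.bc hf hx
  have hi' := hi.bc hf hx.inv
  have hN' : ∀ n, N ≤ n → bc K f E ⊔ tw x' n (bc K f Ei) = ⊤ := fun n hn => by
    rw [← bc_tw hx, bc_sup_eq_top hf (hN n hn)]
  have h1 : ∀ n, N ≤ n → finrank K (bc K f E ⊓ tw x' n (bc K f Ei) : Submodule K W') =
      rankAtStalk (R := A) (E ⊓ tw x n Ei : Submodule A W) (q.comap (algebraMap A K)) :=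
    fun n hn => by
      rw [← bc_tw hx]
      exact finrank_bc_inf h0 (hi.tw_inv n) (hN n hn) hf q
  rw [(chi_eq h0' hi' hN' hn).2, h1 n hn, h1 (n + 1) (by omega)]

/-- the Euler characteristic at a prime -/
noncomputable def chiAt (E Ei : Submodule A W) (p : PrimeSpectrum A) : ℤ :=
  chi (bc p.asIdeal.ResidueField (TensorProduct.mk A p.asIdeal.ResidueField W 1) E)
    (bc p.asIdeal.ResidueField (TensorProduct.mk A p.asIdeal.ResidueField W 1) Ei)

theorem comap_residueField (p : PrimeSpectrum A) (q : PrimeSpectrum p.asIdeal.ResidueField) :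
    q.comap (algebraMap A p.asIdeal.ResidueField) = p := by
  ext a
  change algebraMap A p.asIdeal.ResidueField a ∈ q.asIdeal ↔ _
  have hq : q.asIdeal = ⊥ := (Ideal.eq_bot_or_top q.asIdeal).resolve_right q.2.ne_top
  rw [hq, Ideal.mem_bot, Ideal.algebraMap_residueField_eq_zero]

/-- the Euler characteristic only depends on the underlying point -/
theorem chi_bc (h0 : IsLat x E) (hi : IsLat x⁻¹ Ei)
    {K : Type u'} [Field K] [Algebra A K] {W' : Type v'} [AddCommGroup W'] [Module A W']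
    [Module K W'] [IsScalarTower A K W'] {f : W →ₗ[A] W'} (hf : IsBaseChange K f)
    (q : PrimeSpectrum K) :
    chi (bc K f E) (bc K f Ei) = chiAt E Ei (q.comap (algebraMap A K)) := by
  obtain ⟨N, hN⟩ := exists_sup_eq_top h0 hi
  rw [chi_bc_eq h0 hi hN le_rfl hf q, chiAt]
  generalize q.comap (algebraMap A K) = p
  rw [chi_bc_eq h0 hi hN le_rfl (TensorProduct.isBaseChange A W p.asIdeal.ResidueField)
    (⊥ : PrimeSpectrum p.asIdeal.ResidueField), comap_residueField]

/-- **the Euler characteristic is locally constant** -/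
theorem isLocallyConstant_chiAt (h0 : IsLat x E) (hi : IsLat x⁻¹ Ei) :
    IsLocallyConstant (chiAt E Ei) := by
  obtain ⟨N, hN⟩ := exists_sup_eq_top h0 hi
  have key : ∀ n, N ≤ n → IsLocallyConstant
      (rankAtStalk (R := A) (E ⊓ tw x n Ei : Submodule A W)) := fun n hn => by
    have hfp := finite_projective_inf h0 (hi.tw_inv n) (hN n hn)
    have := hfp.1
    have := hfp.2
    have : Module.FinitePresentation A (E ⊓ tw x n Ei : Submodule A W) :=
      Module.finitePresentation_of_projective _ _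
    exact isLocallyConstant_rankAtStalk
  have h1 : chiAt E Ei = fun p =>
      (fun m₁ m₂ : ℕ => (m₁ : ℤ) - N * ((m₂ : ℤ) - m₁))
        (rankAtStalk (R := A) (E ⊓ tw x N Ei : Submodule A W) p)
        (rankAtStalk (R := A) (E ⊓ tw x (N + 1) Ei : Submodule A W) p) := by
    ext p
    rw [chiAt, chi_bc_eq h0 hi hN le_rfl (TensorProduct.isBaseChange A W p.asIdeal.ResidueField)
      (⊥ : PrimeSpectrum p.asIdeal.ResidueField), comap_residueField]
  rw [h1]
  exact (key N le_rfl).comp₂ (key (N + 1) (Nat.le_succ N))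
    (fun m₁ m₂ : ℕ => (m₁ : ℤ) - N * ((m₂ : ℤ) - m₁))

end family

end Fermat.Agent.Jac
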