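import Fermat.Agent.Jac.Coh

/-!
# Openness of the vanishing of cohomology
-/

set_option autoImplicit false
set_option linter.unusedSectionVars false

universe u v u' v' u'' v''

namespace Fermat.Agent.Jac

open TensorProduct

variable {A : Type u} [CommRing A] {W : Type v} [AddCommGroup W] [Module A W]

/-- Nakayama: a finite module which vanishes at a field valued point is killed by a function which
does not vanish there. -/
theorem exists_smul_eq_zero {Q : Type v} [AddCommGroup Q] [Module A Q] [Module.Finite A Q]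
    (K : Type u') [Field K] [Algebra A K] (h : Subsingleton (K ⊗[A] Q)) :
    ∃ s : A, algebraMap A K s ≠ 0 ∧ ∀ q : Q, s • q = 0 := by
  have hp : (RingHom.ker (algebraMap A K)).IsPrime := RingHom.ker_isPrime _
  let p : PrimeSpectrum A := ⟨RingHom.ker (algebraMap A K), hp⟩
  have hsupp : p ∉ Module.support A Q := by
    rw [Module.mem_support_iff_nontrivial_residueField_tensorProduct, not_nontrivial_iff_subsingleton]
    let ι : p.asIdeal.ResidueField →+* K := Ideal.ResidueField.lift p.asIdeal (algebraMap A K) le_rfl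
      (fun a ha => isUnit_iff_ne_zero.mpr fun h0 => ha h0)
    have hι : ∀ a, ι (algebraMap A _ a) = algebraMap A K a := fun a =>
      Ideal.ResidueField.lift_algebraMap _ _ _ _ _
    by_contra hns
    rw [not_subsingleton_iff_nontrivial] at hns
    obtain ⟨z, hz⟩ := exists_ne (0 : p.asIdeal.ResidueField ⊗[A] Q)
    obtain ⟨φ, hφ⟩ : ∃ φ : Module.Dual p.asIdeal.ResidueField (p.asIdeal.ResidueField ⊗[A] Q),
        φ z ≠ 0 := by
      by_contra hcon
      push Not at hcon
      exact hz ((Module.forall_dual_apply_eq_zero_iff _ z).mp hcon)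
    have hex : ∃ q : Q, φ (1 ⊗ₜ q) ≠ 0 := by
      by_contra hcon
      push Not at hcon
      apply hφ
      induction z using TensorProduct.induction_on with
      | zero => exact map_zero _
      | tmul a q =>
        have : (a ⊗ₜ[A] q : p.asIdeal.ResidueField ⊗[A] Q) = a • (1 ⊗ₜ q) := by
          rw [smul_tmul', smul_eq_mul, mul_one]
        rw [this, map_smul, hcon, smul_zero]
      | add a b ha hb =>
        by_cases ha0 : a = 0
        · subst ha0
          rw [zero_add] at hz hφ ⊢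
          exact hb hz hφ
        · by_cases hb0 : b = 0
          · subst hb0
            rw [add_zero] at hz hφ ⊢
            exact ha hz hφ
          · rw [map_add]
            by_cases h1 : φ a = 0
            · by_cases h2 : φ b = 0
              · rw [h1, h2, add_zero]
              · exact absurd (hb hb0 h2) h2
            · exact absurd (ha ha0 h1) h1
    obtain ⟨q, hq⟩ := hex
    let ψ : Q →ₗ[A] K :=
      { toFun := fun q => ι (φ (1 ⊗ₜ q))
        map_add' := fun q q' => by rw [tmul_add, map_add, map_add]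
        map_smul' := fun a q => by
          have : ((1 : p.asIdeal.ResidueField) ⊗ₜ[A] (a • q)) =
              (algebraMap A p.asIdeal.ResidueField a) • (1 ⊗ₜ q) := by
            rw [tmul_smul, algebraMap_smul]
          rw [this, map_smul, smul_eq_mul, map_mul, hι, RingHom.id_apply, Algebra.smul_def] }
    let Ψ : K ⊗[A] Q →ₗ[K] K := AlgebraTensorModule.lift
      ((LinearMap.toSpanSingleton K (Q →ₗ[A] K) ψ))
    have h1 : Ψ (1 ⊗ₜ q) = ψ q := by
      rw [AlgebraTensorModule.lift_tmul]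
      simp
    have h2 : (1 : K) ⊗ₜ[A] q = 0 := Subsingleton.elim _ _
    rw [h2, map_zero] at h1
    have h3 : ι (φ (1 ⊗ₜ q)) = 0 := h1.symm
    rw [map_eq_zero] at h3
    exact hq h3
  rw [Module.support_eq_zeroLocus, PrimeSpectrum.mem_zeroLocus, Set.not_subset] at hsupp
  obtain ⟨s, hs, hsp⟩ := hsupp
  exact ⟨s, fun h0 => hsp h0, fun q => Module.mem_annihilator.mp hs q⟩

variable {A' : Type u'} [CommRing A'] [Algebra A A'] {W' : Type v'} [AddCommGroup W'] [Module A W']
  [Module A' W'] [IsScalarTower A A' W'] {f : W →ₗ[A] W'}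

/-- quotients commute with base change -/
theorem isBaseChange_quot (hf : IsBaseChange A' f) (S : Submodule A W) :
    IsBaseChange A' (S.liftQ (((bc A' f S).mkQ.restrictScalars A).comp f) fun _ hw =>
      (Submodule.Quotient.mk_eq_zero _).mpr (mem_bc hw) : W ⧸ S →ₗ[A] W' ⧸ bc A' f S) := by
  apply IsBaseChange.of_lift_unique
  intro Q iQ _ _ _ g
  let iQ' : AddCommGroup Q := Module.addCommMonoidToAddCommGroup A'
  have hg : ∀ w ∈ S, g (S.mkQ w) = 0 := fun w hw => by
    rw [Submodule.mkQ_apply, (Submodule.Quotient.mk_eq_zero _).mpr hw, map_zero]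
  let G : W' →ₗ[A'] Q := hf.lift (g.comp S.mkQ)
  have hG : ∀ w, G (f w) = g (S.mkQ w) := fun w => hf.lift_eq _ _
  refine ⟨(bc A' f S).liftQ G ?_, ?_, ?_⟩
  · rw [bc, Submodule.span_le]
    rintro _ ⟨w, hw, rfl⟩
    change G (f w) = 0
    rw [hG, hg w hw]
  · apply LinearMap.ext
    intro z
    obtain ⟨w, rfl⟩ := S.mkQ_surjective z
    exact hG w
  · intro g' hg'
    apply Submodule.linearMap_qext
    apply LinearMap.ext
    intro w
    change g' ((bc A' f S).mkQ w) = G w
    induction w using hf.inductionOn with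
    | zero => rw [map_zero, map_zero, map_zero]
    | tmul m =>
      rw [hG]
      exact LinearMap.congr_fun hg' (S.mkQ m)
    | smul s n hn => rw [map_smul, map_smul, map_smul, hn]
    | add a b ha hb => rw [map_add, map_add, map_add, ha, hb]

theorem subsingleton_quot_of_eq_top {M : Type v} [AddCommGroup M] [Module A M] {S : Submodule A M}
    (h : S = ⊤) : Subsingleton (M ⧸ S) := Submodule.Quotient.subsingleton_iff.mpr h

variable {x : W ≃ₗ[A] W} {E Ei : Submodule A W}

/-- **openness of `H¹ = 0`** (algebraic form): if `H¹ = 0` at a field valued point, then `H¹` is killed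
by a function not vanishing there -/
theorem exists_smul_mem_sup (h0 : IsLat x E) (hi : IsLat x⁻¹ Ei) {K : Type u'} [Field K]
    [Algebra A K] {W' : Type v'} [AddCommGroup W'] [Module A W'] [Module K W'] [IsScalarTower A K W']
    {f : W →ₗ[A] W'} (hf : IsBaseChange K f) (htop : bc K f E ⊔ bc K f Ei = ⊤) :
    ∃ s : A, algebraMap A K s ≠ 0 ∧ ∀ w : W, s • w ∈ E ⊔ Ei := by
  have hfin := finite_quot_sup h0 hi
  rw [← bc_sup] at htop
  have h1 := isBaseChange_quot hf (E ⊔ Ei)
  have h2 : Subsingleton (W' ⧸ bc K f (E ⊔ Ei)) := subsingleton_quot_of_eq_top htop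
  have h3 : Subsingleton (K ⊗[A] (W ⧸ (E ⊔ Ei))) := h1.equiv.toEquiv.subsingleton
  obtain ⟨s, hs, hs'⟩ := exists_smul_eq_zero K h3
  refine ⟨s, hs, fun w => ?_⟩
  have h4 := hs' ((E ⊔ Ei).mkQ w)
  rw [← map_smul, Submodule.mkQ_apply] at h4
  exact (Submodule.Quotient.mk_eq_zero _).mp h4

/-- if a submodule contains `s W`, its base change to a ring where `s` is invertible is everything -/
theorem bc_eq_top_of_smul (hf : IsBaseChange A' f) {S : Submodule A W} {s : A}
    (hs : ∀ w, s • w ∈ S) (hu : IsUnit (algebraMap A A' s)) : bc A' f S = ⊤ := by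
  rw [eq_top_iff, ← bc_top hf]
  rw [bc, Submodule.span_le]
  rintro _ ⟨w, -, rfl⟩
  have h1 : f w = ((hu.unit⁻¹ : A'ˣ) : A') • f (s • w) := by
    rw [map_smul, ← algebraMap_smul A' s (f w), smul_smul, IsUnit.val_inv_mul, one_smul]
  rw [h1]
  exact Submodule.smul_mem _ _ (mem_bc (hs w))

/-- a submodule containing multiples by functions without common zeros is everything -/
theorem eq_top_of_forall_prime {S : Submodule A W}
    (h : ∀ p : PrimeSpectrum A, ∃ s : A, s ∉ p.asIdeal ∧ ∀ w, s • w ∈ S) : S = ⊤ := by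
  let I : Ideal A := { carrier := {s | ∀ w, s • w ∈ S}
                       add_mem' := fun {a b} ha hb w => by rw [add_smul]; exact add_mem (ha w) (hb w)
                       zero_mem' := fun w => by rw [zero_smul]; exact zero_mem _
                       smul_mem' := fun a b hb w => by
                        rw [smul_eq_mul, mul_smul]; exact S.smul_mem _ (hb w) }
  have hI : I = ⊤ := by
    by_contra hI
    obtain ⟨m, hm, hIm⟩ := Ideal.exists_le_maximal I hI
    obtain ⟨s, hs, hs'⟩ := h ⟨m, hm.isPrime⟩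
    exact hs (hIm hs')
  rw [eq_top_iff]
  intro w _
  have h1 : (1 : A) ∈ I := hI ▸ Submodule.mem_top
  have h2 := h1 w
  rwa [one_smul] at h2

theorem eq_bot_of_forall_prime {S : Submodule A W}
    (h : ∀ p : PrimeSpectrum A, ∃ s : A, s ∉ p.asIdeal ∧ ∀ w ∈ S, s • w = 0) : S = ⊥ := by
  let I : Ideal A := { carrier := {s | ∀ w ∈ S, s • w = 0}
                       add_mem' := fun {a b} ha hb w hw => by
                        rw [add_smul, ha w hw, hb w hw, add_zero]
                       zero_mem' := fun w _ => zero_smul _ _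
                       smul_mem' := fun a b hb w hw => by
                        rw [smul_eq_mul, mul_smul, hb w hw, smul_zero] }
  have hI : I = ⊤ := by
    by_contra hI
    obtain ⟨m, hm, hIm⟩ := Ideal.exists_le_maximal I hI
    obtain ⟨s, hs, hs'⟩ := h ⟨m, hm.isPrime⟩
    exact hs (hIm hs')
  rw [eq_bot_iff]
  intro w hw
  have h1 : (1 : A) ∈ I := hI ▸ Submodule.mem_top
  have h2 := h1 w hw
  rwa [one_smul] at h2

/-- if `H¹ = 0` and `H⁰ = 0` at a field valued point, then `H⁰` is killed by a function which does not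
vanish there. -/
theorem exists_smul_inf (h0 : IsLat x E) (hi : IsLat x⁻¹ Ei) (htop : E ⊔ Ei = ⊤)
    {K : Type u'} [Field K]
    [Algebra A K] {W' : Type v'} [AddCommGroup W'] [Module A W'] [Module K W'] [IsScalarTower A K W']
    {f : W →ₗ[A] W'} (hf : IsBaseChange K f) (hbot : bc K f E ⊓ bc K f Ei = ⊥) :
    ∃ s : A, algebraMap A K s ≠ 0 ∧ ∀ w ∈ E ⊓ Ei, s • w = 0 := by
  have hfin := (finite_projective_inf h0 hi htop).1
  have h1 := isBaseChange_inf h0 hi htop hf
  rw [← bc_inf hi htop hf] at hbot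
  have h2 : Subsingleton ((bc K f (E ⊓ Ei)).restrictScalars A) := by
    refine ⟨fun a b => Subtype.ext ?_⟩
    have hle : bc K f (E ⊓ Ei) ≤ ⊥ := hbot.le
    rw [(Submodule.mem_bot K).mp (hle a.2), (Submodule.mem_bot K).mp (hle b.2)]
  have h3 : Subsingleton (K ⊗[A] (E ⊓ Ei : Submodule A W)) := h1.equiv.toEquiv.subsingleton
  obtain ⟨s, hs, hs'⟩ := exists_smul_eq_zero K h3
  exact ⟨s, hs, fun w hw => congrArg Subtype.val (hs' ⟨w, hw⟩)⟩

section tower

variable {A'' : Type u''} [CommRing A''] [Algebra A A''] [Algebra A' A''] [IsScalarTower A A' A'']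
  {W'' : Type v''} [AddCommGroup W''] [Module A W''] [Module A' W''] [Module A'' W'']
  [IsScalarTower A' A'' W''] [IsScalarTower A A' W''] [IsScalarTower A A'' W'']

theorem bc_bc (f : W →ₗ[A] W') (g : W' →ₗ[A'] W'') (E : Submodule A W) :
    bc A'' g (bc A' f E) = bc A'' ((g.restrictScalars A).comp f) E := by
  apply le_antisymm
  · rw [bc, Submodule.span_le]
    rintro _ ⟨w, hw, rfl⟩
    have hw' : w ∈ bc A' f E := hw
    clear hw
    change g w ∈ bc A'' ((g.restrictScalars A).comp f) E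
    induction hw' using bc_induction with
    | h0 => rw [map_zero]; exact zero_mem _
    | hadd w w' _ _ h h' => rw [map_add]; exact add_mem h h'
    | hsmul a w hw =>
      rw [map_smul, ← algebraMap_smul A'' a (g (f w))]
      exact Submodule.smul_mem _ _ (mem_bc (f := (g.restrictScalars A).comp f) hw)
  · rw [bc, Submodule.span_le]
    rintro _ ⟨w, hw, rfl⟩
    exact mem_bc (f := g) (mem_bc hw)

theorem IsBC.comp {f : W →ₗ[A] W'} {g : W' →ₗ[A'] W''} {x : W ≃ₗ[A] W} {x' : W' ≃ₗ[A'] W'}
    {x'' : W'' ≃ₗ[A''] W''} (h : IsBC f x x') (h' : IsBC g x' x'') :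
    IsBC ((g.restrictScalars A).comp f) x x'' :=
  ⟨fun w => by
    change x'' (g (f w)) = g (f (x w))
    rw [h'.comm, h.comm]⟩

theorem IsBC.of_comp {f : W →ₗ[A] W'} {g : W' →ₗ[A'] W''} {x : W ≃ₗ[A] W} {x' : W' ≃ₗ[A'] W'}
    {x'' : W'' ≃ₗ[A''] W''} (hf : IsBaseChange A' f) (h : IsBC f x x')
    (h' : IsBC ((g.restrictScalars A).comp f) x x'') : IsBC g x' x'' :=
  ⟨fun w => by
    induction w using hf.inductionOn with
    | zero => rw [map_zero, map_zero, map_zero, map_zero]
    | tmul m => rw [h.comm]; exact h'.comm m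
    | smul s n hn =>
      rw [g.map_smul, x'.map_smul, g.map_smul, ← algebraMap_smul A'' s (g n), x''.map_smul,
        algebraMap_smul, hn]
    | add a b ha hb => rw [map_add, map_add, map_add, map_add, ha, hb]⟩

end tower

/-- the standard base change of an automorphism -/
noncomputable def bcAut (A' : Type u') [CommRing A'] [Algebra A A'] (x : W ≃ₗ[A] W) :
    (A' ⊗[A] W) ≃ₗ[A'] (A' ⊗[A] W) :=
  LinearEquiv.ofLinearMap ((x : W →ₗ[A] W).baseChange A') ((x⁻¹ : W ≃ₗ[A] W).toLinearMap.baseChange A')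
    (by
      rw [← LinearMap.baseChange_comp]
      have : (x : W →ₗ[A] W).comp (x⁻¹ : W ≃ₗ[A] W).toLinearMap = LinearMap.id := by
        ext w
        exact pow_apply_inv_pow x 1 w
      rw [this, LinearMap.baseChange_id])
    (by
      rw [← LinearMap.baseChange_comp]
      have : ((x⁻¹ : W ≃ₗ[A] W).toLinearMap).comp (x : W →ₗ[A] W) = LinearMap.id := by
        ext w
        exact inv_pow_apply_pow x 1 w
      rw [this, LinearMap.baseChange_id])

theorem isBC_mk (x : W ≃ₗ[A] W) : IsBC (TensorProduct.mk A A' W 1) x (bcAut A' x) :=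
  ⟨fun w => by
    change (x : W →ₗ[A] W).baseChange A' (1 ⊗ₜ w) = _
    rw [LinearMap.baseChange_tmul]
    rfl⟩

/-- if `s` kills `H⁰` and `H¹ = 0`, then `H⁰ = 0` where `s` is invertible -/
theorem bc_inf_eq_bot_of_smul (hi : IsLat x⁻¹ Ei) (htop : E ⊔ Ei = ⊤) (hf : IsBaseChange A' f) {s : A}
    (hs : ∀ w ∈ E ⊓ Ei, s • w = 0) (hu : IsUnit (algebraMap A A' s)) :
    bc A' f E ⊓ bc A' f Ei = ⊥ := by
  rw [← bc_inf hi htop hf, eq_bot_iff, bc, Submodule.span_le]
  rintro _ ⟨w, hw, rfl⟩
  have h1 : f w = ((hu.unit⁻¹ : A'ˣ) : A') • f (s • w) := by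
    rw [map_smul, ← algebraMap_smul A' s (f w), smul_smul, IsUnit.val_inv_mul, one_smul]
  rw [h1, hs w hw, map_zero, smul_zero]
  exact zero_mem _

/-- **openness of `H⁰ = H¹ = 0`** -/
theorem exists_isCompl (h0 : IsLat x E) (hi : IsLat x⁻¹ Ei) {K : Type u'} [Field K]
    [Algebra A K] {W' : Type v'} [AddCommGroup W'] [Module A W'] [Module K W'] [IsScalarTower A K W']
    {f : W →ₗ[A] W'} (hf : IsBaseChange K f)
    (hc : IsCompl (bc K f E) (bc K f Ei)) :
    ∃ s : A, algebraMap A K s ≠ 0 ∧ ∀ (A'' : Type u'') [CommRing A''] [Algebra A A'']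
      (W'' : Type v'') [AddCommGroup W''] [Module A W''] [Module A'' W''] [IsScalarTower A A'' W'']
      (g : W →ₗ[A] W''), IsBaseChange A'' g → IsUnit (algebraMap A A'' s) →
      IsCompl (bc A'' g E) (bc A'' g Ei) := by
  obtain ⟨s1, hs1, hs1'⟩ := exists_smul_mem_sup h0 hi hf hc.sup_eq_top
  -- pass to `A₁ = A[1/s₁]`
  let A1 := Localization.Away s1
  let W1 := A1 ⊗[A] W
  let f1 : W →ₗ[A] W1 := TensorProduct.mk A A1 W 1
  have hf1 : IsBaseChange A1 f1 := TensorProduct.isBaseChange A W A1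
  have hx1 : IsBC f1 x (bcAut A1 x) := isBC_mk x
  have h01 : IsLat (bcAut A1 x) (bc A1 f1 E) := h0.bc hf1 hx1
  have hi1 : IsLat (bcAut A1 x)⁻¹ (bc A1 f1 Ei) := hi.bc hf1 hx1.inv
  have htop1 : bc A1 f1 E ⊔ bc A1 f1 Ei = ⊤ := by
    rw [← bc_sup]
    exact bc_eq_top_of_smul hf1 hs1' (IsLocalization.Away.algebraMap_isUnit s1)
  -- `K` as an `A₁`-algebra
  let _ : Algebra A1 K := (IsLocalization.Away.lift s1 (g := algebraMap A K)
    (isUnit_iff_ne_zero.mpr hs1) : A1 →+* K).toAlgebra
  have : IsScalarTower A A1 K := IsScalarTower.of_algebraMap_eq' (by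
    ext a
    exact (IsLocalization.Away.lift_eq s1 (isUnit_iff_ne_zero.mpr hs1) a).symm)
  let _ : Module A1 W' := Module.compHom W' (algebraMap A1 K)
  have : IsScalarTower A1 K W' := ⟨fun a b c => by
    rw [Algebra.smul_def, mul_smul]; rfl⟩
  have : IsScalarTower A A1 W' := IsScalarTower.to₁₂₄ A A1 K W'
  let g1 : W1 →ₗ[A1] W' := hf1.lift f
  have hg1 : (g1.restrictScalars A).comp f1 = f := by
    ext w
    exact hf1.lift_eq _ _
  have hg1' : IsBaseChange K g1 := by
    apply IsBaseChange.of_comp hf1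
    rw [hg1]; exact hf
  have hbot1 : bc K g1 (bc A1 f1 E) ⊓ bc K g1 (bc A1 f1 Ei) = ⊥ := by
    rw [bc_bc, bc_bc, hg1]
    exact hc.inf_eq_bot
  obtain ⟨s2, hs2, hs2'⟩ := exists_smul_inf h01 hi1 htop1 hg1' hbot1
  obtain ⟨n, a, ha⟩ := IsLocalization.Away.surj s1 s2
  refine ⟨s1 * a, ?_, ?_⟩
  · rw [map_mul]
    refine mul_ne_zero hs1 ?_
    have h1 : algebraMap A K a = algebraMap A1 K (algebraMap A A1 a) :=
      IsScalarTower.algebraMap_apply A A1 K a
    rw [h1, ← ha, map_mul, map_pow, ← IsScalarTower.algebraMap_apply A A1 K]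
    exact mul_ne_zero hs2 (pow_ne_zero _ hs1)
  · intro A'' _ _ W'' _ _ _ _ g hg hu
    rw [map_mul, IsUnit.mul_iff] at hu
    obtain ⟨hu1, hua⟩ := hu
    let _ : Algebra A1 A'' := (IsLocalization.Away.lift s1 (g := algebraMap A A'') hu1 :
      A1 →+* A'').toAlgebra
    have : IsScalarTower A A1 A'' := IsScalarTower.of_algebraMap_eq' (by
      ext a
      exact (IsLocalization.Away.lift_eq s1 hu1 a).symm)
    let _ : Module A1 W'' := Module.compHom W'' (algebraMap A1 A'')
    have : IsScalarTower A1 A'' W'' := ⟨fun a b c => by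
      rw [Algebra.smul_def, mul_smul]; rfl⟩
    have : IsScalarTower A A1 W'' := IsScalarTower.to₁₂₄ A A1 A'' W''
    let g2 : W1 →ₗ[A1] W'' := hf1.lift g
    have hg2 : (g2.restrictScalars A).comp f1 = g := by
      ext w
      exact hf1.lift_eq _ _
    have hg2' : IsBaseChange A'' g2 := by
      apply IsBaseChange.of_comp hf1
      rw [hg2]; exact hg
    have hbot : bc A'' g2 (bc A1 f1 E) ⊓ bc A'' g2 (bc A1 f1 Ei) = ⊥ := by
      apply bc_inf_eq_bot_of_smul hi1 htop1 hg2' (s := algebraMap A A1 a)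
      · intro w hw
        rw [← ha, mul_comm, mul_smul, hs2' w hw, smul_zero]
      · rw [← IsScalarTower.algebraMap_apply A A1 A'']
        exact hua
    have htop : bc A'' g2 (bc A1 f1 E) ⊔ bc A'' g2 (bc A1 f1 Ei) = ⊤ :=
      bc_sup_eq_top hg2' htop1
    rw [bc_bc, bc_bc, hg2] at hbot htop
    exact ⟨disjoint_iff.mpr hbot, codisjoint_iff.mpr htop⟩

/-- `H⁰ = H¹ = 0` fibrewise implies `H⁰ = H¹ = 0` -/
theorem isCompl_of_forall_prime (h0 : IsLat x E) (hi : IsLat x⁻¹ Ei)
    (h : ∀ p : PrimeSpectrum A, IsCompl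
      (bc p.asIdeal.ResidueField (TensorProduct.mk A p.asIdeal.ResidueField W 1) E)
      (bc p.asIdeal.ResidueField (TensorProduct.mk A p.asIdeal.ResidueField W 1) Ei)) :
    IsCompl E Ei := by
  have htop : E ⊔ Ei = ⊤ := by
    apply eq_top_of_forall_prime
    intro p
    obtain ⟨s, hs, hs'⟩ := exists_smul_mem_sup h0 hi
      (TensorProduct.isBaseChange A W p.asIdeal.ResidueField) (h p).sup_eq_top
    exact ⟨s, fun hsp => hs (Ideal.algebraMap_residueField_eq_zero.mpr hsp), hs'⟩
  have hbot : E ⊓ Ei = ⊥ := by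
    apply eq_bot_of_forall_prime
    intro p
    obtain ⟨s, hs, hs'⟩ := exists_smul_inf h0 hi htop
      (TensorProduct.isBaseChange A W p.asIdeal.ResidueField) (h p).inf_eq_bot
    exact ⟨s, fun hsp => hs (Ideal.algebraMap_residueField_eq_zero.mpr hsp), hs'⟩
  exact ⟨disjoint_iff.mpr hbot, codisjoint_iff.mpr htop⟩

/-- `H¹ = 0` fibrewise implies `H¹ = 0` -/
theorem sup_eq_top_of_forall_prime (h0 : IsLat x E) (hi : IsLat x⁻¹ Ei)
    (h : ∀ p : PrimeSpectrum A,
      (bc p.asIdeal.ResidueField (TensorProduct.mk A p.asIdeal.ResidueField W 1) E) ⊔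
      (bc p.asIdeal.ResidueField (TensorProduct.mk A p.asIdeal.ResidueField W 1) Ei) = ⊤) :
    E ⊔ Ei = ⊤ := by
  apply eq_top_of_forall_prime
  intro p
  obtain ⟨s, hs, hs'⟩ := exists_smul_mem_sup h0 hi
    (TensorProduct.isBaseChange A W p.asIdeal.ResidueField) (h p)
  exact ⟨s, fun hsp => hs (Ideal.algebraMap_residueField_eq_zero.mpr hsp), hs'⟩

end Fermat.Agent.Jac
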