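import Mathlib
import Fermat.Prelude.Def_AlgebraicGeometry_NeronModelPropertyBundleCarrier
import Fermat.Prelude.Def_JacJ1Iface
import Fermat.Prelude.Def_AlgebraicGeometry_RelativePicardFunctor
import Fermat.Prelude.Def_AlgebraicGeometry_RepresentsRelSubPic
import Fermat.Prelude.Def_AlgebraicGeometry_RelPicardAlgEquivZeroCut

/-!
# A scheme representing `Pic⁰` is geometrically connected

This is a formal consequence of the universal property and of the definition of `Pic⁰` by
algebraic equivalence.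
-/

set_option autoImplicit false
set_option linter.style.haveILetI false

universe u

open CategoryTheory CategoryTheory.Limits AlgebraicGeometry AlgebraicGeometry.RelPicard
  NeronModelInfra GoodReductionJacobian

namespace Fermat.Agent.Jac

variable {R : Type u} [CommRing R] {C : Scheme.{u}}

/-- pullback along two factorisations of the same morphism -/
theorem nonempty_pb_eq {X Y Y' Z : Scheme.{u}} {f : X ⟶ Y} {g : Y ⟶ Z} {f' : X ⟶ Y'}
    {g' : Y' ⟶ Z} (h : f ≫ g = f' ≫ g') (M : Z.Modules) :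
    Nonempty ((Scheme.Modules.pullback f).obj ((Scheme.Modules.pullback g).obj M) ≅
      (Scheme.Modules.pullback f').obj ((Scheme.Modules.pullback g').obj M)) :=
  ⟨(Scheme.Modules.pullbackComp f g).app M ≪≫ (Scheme.Modules.pullbackCongr h).app M ≪≫
    ((Scheme.Modules.pullbackComp f' g').app M).symm⟩

theorem nonempty_pb_comp {X Y Z : Scheme.{u}} {f : X ⟶ Y} {g : Y ⟶ Z} {h : X ⟶ Z}
    (e : f ≫ g = h) (M : Z.Modules) :
    Nonempty ((Scheme.Modules.pullback f).obj ((Scheme.Modules.pullback g).obj M) ≅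
      (Scheme.Modules.pullback h).obj M) :=
  ⟨(Scheme.Modules.pullbackComp f g).app M ≪≫ (Scheme.Modules.pullbackCongr e).app M⟩

theorem nonempty_pb_unit {X Y : Scheme.{u}} (f : X ⟶ Y) :
    Nonempty ((Scheme.Modules.pullback f).obj (SheafOfModules.unit Y.ringCatSheaf) ≅
      SheafOfModules.unit X.ringCatSheaf) :=
  ⟨Scheme.Modules.pullbackUnitIso f⟩

theorem nonempty_pb_map {X Y : Scheme.{u}} (f : X ⟶ Y) {M N : Y.Modules} (e : Nonempty (M ≅ N)) :
    Nonempty ((Scheme.Modules.pullback f).obj M ≅ (Scheme.Modules.pullback f).obj N) :=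
  e.map fun e => (Scheme.Modules.pullback f).mapIso e

theorem niso_trans {X : Scheme.{u}} {M N P : X.Modules} (e : Nonempty (M ≅ N))
    (e' : Nonempty (N ≅ P)) : Nonempty (M ≅ P) :=
  ⟨e.some ≪≫ e'.some⟩

theorem niso_symm {X : Scheme.{u}} {M N : X.Modules} (e : Nonempty (M ≅ N)) : Nonempty (N ≅ M) :=
  ⟨e.some.symm⟩

/-- algebraic equivalence to zero, for a line bundle on `C_κ` -/
def AEZ (c : C ⟶ Spec (CommRingCat.of R)) {κ : Type u} [Field κ]
    (z : Spec (CommRingCat.of κ) ⟶ Spec (CommRingCat.of R)) (L : (pullback c z).Modules) : Prop :=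
  ∃ (T' : Scheme.{u}) (h : T' ⟶ Spec (CommRingCat.of κ)) (_ : LocallyOfFiniteType h)
    (_ : GeometricallyIntegral h) (M : (pullback c (h ≫ z)).Modules)
    (_ : Scheme.Modules.IsInvertible M) (t₀ t₁ : SchemeHomOver z (h ≫ z)),
    t₀.1 ≫ h = 𝟙 _ ∧ t₁.1 ≫ h = 𝟙 _ ∧
    Nonempty ((Scheme.Modules.pullback (baseChangeSnd c t₀)).obj M ≅
      SheafOfModules.unit (pullback c z).ringCatSheaf) ∧
    Nonempty ((Scheme.Modules.pullback (baseChangeSnd c t₁)).obj M ≅ L)

@[reassoc]
theorem baseChangeSnd_fst' (c : C ⟶ Spec (CommRingCat.of R)) {T T' : Scheme.{u}}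
    {t : T ⟶ Spec (CommRingCat.of R)} {t' : T' ⟶ Spec (CommRingCat.of R)}
    (s : SchemeHomOver t' t) : baseChangeSnd c s ≫ pullback.fst c t = pullback.fst c t' :=
  (pullback.lift_fst _ _ _).trans (Category.comp_id _)

@[reassoc]
theorem baseChangeSnd_snd' (c : C ⟶ Spec (CommRingCat.of R)) {T T' : Scheme.{u}}
    {t : T ⟶ Spec (CommRingCat.of R)} {t' : T' ⟶ Spec (CommRingCat.of R)}
    (s : SchemeHomOver t' t) : baseChangeSnd c s ≫ pullback.snd c t = pullback.snd c t' ≫ s.1 :=
  pullback.lift_snd _ _ _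

theorem AEZ.of_iso {c : C ⟶ Spec (CommRingCat.of R)} {κ : Type u} [Field κ]
    {z : Spec (CommRingCat.of κ) ⟶ Spec (CommRingCat.of R)} {L L' : (pullback c z).Modules}
    (h : AEZ c z L) (e : Nonempty (L ≅ L')) : AEZ c z L' := by
  obtain ⟨T', h, h1, h2, M, hM, t₀, t₁, e0, e1, e2, e3⟩ := h
  exact ⟨T', h, h1, h2, M, hM, t₀, t₁, e0, e1, e2, niso_trans e3 e⟩

/-- from the fibre to `C_κ` -/
theorem AEZ.of_isAlgEquivZero {c : C ⟶ Spec (CommRingCat.of R)} {T : Scheme.{u}}
    {t : T ⟶ Spec (CommRingCat.of R)} {κ : Type u} [Field κ] (s : Spec (CommRingCat.of κ) ⟶ T)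
    {N : (pullback c t).Modules}
    (h : IsAlgEquivZero (fibreAt c t s)
      ((Scheme.Modules.pullback (pullback.fst (pullback.snd c t) s)).obj N))
    {z : Spec (CommRingCat.of κ) ⟶ Spec (CommRingCat.of R)} (hz : s ≫ t = z) :
    AEZ c z ((Scheme.Modules.pullback (baseChangeSnd c (⟨s, hz⟩ : SchemeHomOver z t))).obj N) := by
  subst hz
  obtain ⟨T', h, h1, h2, M, hM, t₀, t₁, e0, e1⟩ := h
  unfold fibreAt at M e0 e1 hM
  let E : pullback c (h ≫ s ≫ t) ⟶ pullback (pullback.snd (pullback.snd c t) s) h :=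
    pullback.lift (pullback.lift (pullback.lift (pullback.fst _ _)
        (pullback.snd c (h ≫ s ≫ t) ≫ h ≫ s)
        (by rw [pullback.condition]; simp only [Category.assoc]))
      (pullback.snd c (h ≫ s ≫ t) ≫ h)
      (by rw [pullback.lift_snd]; simp only [Category.assoc]))
      (pullback.snd _ _) (by rw [pullback.lift_snd])
  let Ez : pullback c (s ≫ t) ⟶
      pullback (pullback.snd (pullback.snd c t) s) (𝟙 (Spec (CommRingCat.of κ))) :=
    pullback.lift (pullback.lift (pullback.lift (pullback.fst _ _)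
        (pullback.snd c (s ≫ t) ≫ s)
        (by rw [pullback.condition]; simp only [Category.assoc]))
      (pullback.snd c (s ≫ t))
      (by rw [pullback.lift_snd]))
      (pullback.snd _ _) (by rw [pullback.lift_snd, Category.comp_id])
  have key : ∀ (u : SchemeHomOver (𝟙 (Spec (CommRingCat.of κ))) h)
      (u' : SchemeHomOver (s ≫ t) (h ≫ s ≫ t)), u.1 = u'.1 →
      baseChangeSnd c u' ≫ E = Ez ≫ baseChangeSnd (pullback.snd (pullback.snd c t) s) u := by
    intro u u' huu
    apply pullback.hom_ext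
    · rw [Category.assoc, Category.assoc, baseChangeSnd_fst', pullback.lift_fst, pullback.lift_fst]
      apply pullback.hom_ext
      · rw [Category.assoc, pullback.lift_fst, pullback.lift_fst]
        apply pullback.hom_ext
        · rw [Category.assoc, pullback.lift_fst, pullback.lift_fst, baseChangeSnd_fst']
        · rw [Category.assoc, pullback.lift_snd, pullback.lift_snd, baseChangeSnd_snd'_assoc,
            ← huu, ← Category.assoc u.1, u.2, Category.id_comp]
      · rw [Category.assoc, pullback.lift_snd, pullback.lift_snd, baseChangeSnd_snd'_assoc,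
          ← huu, u.2, Category.comp_id]
    · rw [Category.assoc, Category.assoc, baseChangeSnd_snd', pullback.lift_snd,
        pullback.lift_snd_assoc, baseChangeSnd_snd', huu]
  have h0 : t₀.1 ≫ h = 𝟙 _ := t₀.2
  have h1' : t₁.1 ≫ h = 𝟙 _ := t₁.2
  refine ⟨T', h, h1, h2, (Scheme.Modules.pullback E).obj M, hM.pullback E,
    ⟨t₀.1, by rw [← Category.assoc, h0, Category.id_comp]⟩,
    ⟨t₁.1, by rw [← Category.assoc, h1', Category.id_comp]⟩, h0, h1', ?_, ?_⟩
  · refine niso_trans (nonempty_pb_eq (key t₀ _ rfl) M) ?_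
    exact niso_trans (nonempty_pb_map _ e0) (nonempty_pb_unit _)
  · refine niso_trans (nonempty_pb_eq (key t₁ _ rfl) M) ?_
    refine niso_trans (nonempty_pb_map _ e1) ?_
    refine niso_trans (nonempty_pb_map Ez (nonempty_pb_comp rfl N)) ?_
    refine nonempty_pb_comp ?_ N
    apply pullback.hom_ext
    · rw [Category.assoc, Category.assoc, pullback.lift_fst_assoc, pullback.lift_fst_assoc,
        pullback.lift_fst, baseChangeSnd_fst']
    · rw [Category.assoc, Category.assoc, pullback.lift_fst_assoc, pullback.lift_fst_assoc,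
        pullback.lift_snd, baseChangeSnd_snd']

/-- from `C_κ` to the fibre -/
theorem AEZ.isAlgEquivZero {c : C ⟶ Spec (CommRingCat.of R)} {T : Scheme.{u}}
    {t : T ⟶ Spec (CommRingCat.of R)} {κ : Type u} [Field κ] (s : Spec (CommRingCat.of κ) ⟶ T)
    {N : (pullback c t).Modules} {z : Spec (CommRingCat.of κ) ⟶ Spec (CommRingCat.of R)}
    (hz : s ≫ t = z)
    (h : AEZ c z
      ((Scheme.Modules.pullback (baseChangeSnd c (⟨s, hz⟩ : SchemeHomOver z t))).obj N)) :
    IsAlgEquivZero (fibreAt c t s)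
      ((Scheme.Modules.pullback (pullback.fst (pullback.snd c t) s)).obj N) := by
  subst hz
  obtain ⟨T', h, h1, h2, M, hM, t₀, t₁, g0, g1, e0, e1⟩ := h
  unfold fibreAt
  have hc : pullback.fst (pullback.snd c t) s ≫ pullback.fst c t ≫ c =
      pullback.snd (pullback.snd c t) s ≫ s ≫ t := by
    rw [pullback.condition, pullback.condition_assoc]
  let F : pullback (pullback.snd (pullback.snd c t) s) h ⟶ pullback c (h ≫ s ≫ t) :=
    pullback.lift (pullback.fst _ _ ≫ pullback.fst _ _ ≫ pullback.fst _ _) (pullback.snd _ _)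
      (by
        rw [Category.assoc, Category.assoc, hc, pullback.condition_assoc])
  let Fz : pullback (pullback.snd (pullback.snd c t) s) (𝟙 (Spec (CommRingCat.of κ))) ⟶
      pullback c (s ≫ t) :=
    pullback.lift (pullback.fst _ _ ≫ pullback.fst _ _ ≫ pullback.fst _ _) (pullback.snd _ _)
      (by
        rw [Category.assoc, Category.assoc, hc, pullback.condition_assoc, Category.id_comp])
  have key : ∀ (u : SchemeHomOver (𝟙 (Spec (CommRingCat.of κ))) h)
      (u' : SchemeHomOver (s ≫ t) (h ≫ s ≫ t)), u.1 = u'.1 →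
      baseChangeSnd (pullback.snd (pullback.snd c t) s) u ≫ F = Fz ≫ baseChangeSnd c u' := by
    intro u u' huu
    apply pullback.hom_ext
    · rw [Category.assoc, Category.assoc, pullback.lift_fst, baseChangeSnd_fst', pullback.lift_fst,
        baseChangeSnd_fst'_assoc]
    · rw [Category.assoc, Category.assoc, pullback.lift_snd, baseChangeSnd_snd',
        baseChangeSnd_snd', pullback.lift_snd_assoc, huu]
  refine ⟨T', h, h1, h2, (Scheme.Modules.pullback F).obj M, hM.pullback F,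
    ⟨t₀.1, g0⟩, ⟨t₁.1, g1⟩, ?_, ?_⟩
  · refine niso_trans (nonempty_pb_eq (key _ t₀ rfl) M) ?_
    exact niso_trans (nonempty_pb_map _ e0) (nonempty_pb_unit _)
  · refine niso_trans (nonempty_pb_eq (key _ t₁ rfl) M) ?_
    refine niso_trans (nonempty_pb_map _ e1) ?_
    refine nonempty_pb_eq ?_ N
    apply pullback.hom_ext
    · rw [Category.assoc, Category.assoc, baseChangeSnd_fst', pullback.lift_fst]
    · rw [Category.assoc, Category.assoc, baseChangeSnd_snd', pullback.lift_snd_assoc,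
        pullback.condition, pullback.condition_assoc, Category.id_comp]

/-- algebraic equivalence in a geometrically integral family -/
theorem AEZ.of_family {c : C ⟶ Spec (CommRingCat.of R)} {κ κ' : Type u} [Field κ] [Field κ']
    {z : Spec (CommRingCat.of κ) ⟶ Spec (CommRingCat.of R)} {T' : Scheme.{u}}
    (h : T' ⟶ Spec (CommRingCat.of κ)) [LocallyOfFiniteType h] [GeometricallyIntegral h]
    {M : (pullback c (h ≫ z)).Modules} (hM : Scheme.Modules.IsInvertible M)
    (t₀ : SchemeHomOver z (h ≫ z)) (h₀ : t₀.1 ≫ h = 𝟙 _)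
    (e₀ : Nonempty ((Scheme.Modules.pullback (baseChangeSnd c t₀)).obj M ≅
      SheafOfModules.unit (pullback c z).ringCatSheaf))
    {z' : Spec (CommRingCat.of κ') ⟶ Spec (CommRingCat.of R)} (s : SchemeHomOver z' (h ≫ z)) :
    AEZ c z' ((Scheme.Modules.pullback (baseChangeSnd c s)).obj M) := by
  obtain ⟨s, rfl⟩ := s
  let q : pullback h (s ≫ h) ⟶ T' := pullback.fst _ _
  let h' : pullback h (s ≫ h) ⟶ Spec (CommRingCat.of κ') := pullback.snd _ _
  have hq : q ≫ h ≫ z = h' ≫ s ≫ h ≫ z := by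
    rw [pullback.condition_assoc, Category.assoc]
  let Q : SchemeHomOver (h' ≫ s ≫ h ≫ z) (h ≫ z) := ⟨q, hq⟩
  have hh : s ≫ h ≫ t₀.1 ≫ h = s ≫ h := by rw [h₀, Category.comp_id]
  let u₀ : Spec (CommRingCat.of κ') ⟶ pullback h (s ≫ h) :=
    pullback.lift (s ≫ h ≫ t₀.1) (𝟙 _) (by
      simp only [Category.assoc, h₀, Category.comp_id, Category.id_comp])
  let u₁ : Spec (CommRingCat.of κ') ⟶ pullback h (s ≫ h) :=
    pullback.lift s (𝟙 _) (by rw [Category.id_comp])
  have hu₀ : u₀ ≫ h' = 𝟙 _ := pullback.lift_snd _ _ _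
  have hu₁ : u₁ ≫ h' = 𝟙 _ := pullback.lift_snd _ _ _
  refine ⟨pullback h (s ≫ h), h', inferInstance, inferInstance,
    (Scheme.Modules.pullback (baseChangeSnd c Q)).obj M, hM.pullback _,
    ⟨u₀, by rw [← Category.assoc, hu₀, Category.id_comp]⟩,
    ⟨u₁, by rw [← Category.assoc, hu₁, Category.id_comp]⟩, hu₀, hu₁, ?_, ?_⟩
  · have e1 : baseChangeSnd c (⟨u₀, by rw [← Category.assoc, hu₀, Category.id_comp]⟩ :
        SchemeHomOver (s ≫ h ≫ z) (h' ≫ s ≫ h ≫ z)) ≫ baseChangeSnd c Q =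
        baseChangeSnd c (⟨s ≫ h, by rw [Category.assoc]⟩ : SchemeHomOver (s ≫ h ≫ z) z) ≫
          baseChangeSnd c t₀ := by
      rw [baseChangeSnd_comp, baseChangeSnd_comp]
      congr 1
      apply Subtype.ext
      change u₀ ≫ q = (s ≫ h) ≫ t₀.1
      rw [pullback.lift_fst, Category.assoc]
    refine niso_trans (nonempty_pb_eq e1 M) ?_
    exact niso_trans (nonempty_pb_map _ e₀) (nonempty_pb_unit _)
  · refine nonempty_pb_comp ?_ M
    rw [baseChangeSnd_comp]
    congr 1
    apply Subtype.ext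
    change u₁ ≫ q = s
    rw [pullback.lift_fst]

section Cls

variable {c : C ⟶ Spec (CommRingCat.of R)} {ε : SchemeHomOver (𝟙 (Spec (CommRingCat.of R))) c}
  {D : RelativePic0Designation R c} {T' : Scheme.{u}} {τ : T' ⟶ Spec (CommRingCat.of R)}

/-- `g` classifies the pullback of `M` along `v` -/
def Cls (P : (pullback c D.toBase).Modules) (M : (pullback c τ).Modules) {V : Scheme.{u}}
    (v : V ⟶ T') (g : V ⟶ D.P) : Prop :=
  ∃ (t : V ⟶ Spec (CommRingCat.of R)) (hg : g ≫ D.toBase = t) (hv : v ≫ τ = t),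
    Nonempty ((Scheme.Modules.pullback (baseChangeSnd c (⟨g, hg⟩ : SchemeHomOver t D.toBase))).obj P
      ≅ (Scheme.Modules.pullback (baseChangeSnd c (⟨v, hv⟩ : SchemeHomOver t τ))).obj M)

theorem Cls.comp {P : (pullback c D.toBase).Modules} {M : (pullback c τ).Modules} {V V' : Scheme.{u}}
    {v : V ⟶ T'} {g : V ⟶ D.P} (h : Cls P M v g) (f : V' ⟶ V) : Cls P M (f ≫ v) (f ≫ g) := by
  obtain ⟨t, hg, hv, e⟩ := h
  refine ⟨f ≫ t, by rw [Category.assoc, hg], by rw [Category.assoc, hv], ?_⟩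
  have e1 := nonempty_pb_map (baseChangeSnd c (⟨f, rfl⟩ : SchemeHomOver (f ≫ t) t)) e
  refine niso_trans (niso_symm (nonempty_pb_comp ?_ P)) (niso_trans e1 (nonempty_pb_comp ?_ M))
  · rw [baseChangeSnd_comp]; rfl
  · rw [baseChangeSnd_comp]; rfl

theorem Cls.unique (h : RepresentsRelSubPic c ε (algEquivZeroCut c ε) D)
    {M : (pullback c τ).Modules} {V : Scheme.{u}} {v : V ⟶ T'} {g g' : V ⟶ D.P}
    (h1 : Cls h.poincare.L M v g) (h2 : Cls h.poincare.L M v g') : g = g' := by
  obtain ⟨t, hg, hv, e⟩ := h1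
  obtain ⟨t', hg', hv', e'⟩ := h2
  obtain rfl : t = t' := hv.symm.trans hv'
  have := h.ext_of_iso t ⟨g, hg⟩ ⟨g', hg'⟩ (niso_trans e (niso_symm e'))
  exact congrArg Subtype.val this

theorem exists_classifying (h : RepresentsRelSubPic c ε (algEquivZeroCut c ε) D) {κ : Type u} [Field κ]
    {z : Spec (CommRingCat.of κ) ⟶ Spec (CommRingCat.of R)}
    (h' : T' ⟶ Spec (CommRingCat.of κ)) [LocallyOfFiniteType h'] [GeometricallyIntegral h']
    {M : (pullback c (h' ≫ z)).Modules} (hM : Scheme.Modules.IsInvertible M)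
    (t₀ : SchemeHomOver z (h' ≫ z)) (h₀ : t₀.1 ≫ h' = 𝟙 _)
    (e₀ : Nonempty ((Scheme.Modules.pullback (baseChangeSnd c t₀)).obj M ≅
      SheafOfModules.unit (pullback c z).ringCatSheaf)) {V : Scheme.{u}} (v : V ⟶ T')
    (hv : Nonempty ((Scheme.Modules.pullback (v ≫ rigSection c (h' ≫ z) ε)).obj M ≅
      SheafOfModules.unit V.ringCatSheaf)) :
    ∃ g : V ⟶ D.P, Cls h.poincare.L M v g := by
  let ψ : SchemeHomOver (v ≫ h' ≫ z) (h' ≫ z) := ⟨v, rfl⟩
  let N : RigidifiedLineBundle c ε (v ≫ h' ≫ z) :=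
    { L := (Scheme.Modules.pullback (baseChangeSnd c ψ)).obj M
      isInvertible := hM.pullback _
      rigidified := niso_trans
        (nonempty_pb_comp (rigSection_baseChangeSnd c ε ψ) M) hv }
  obtain ⟨g, hg, -⟩ := h.univ (v ≫ h' ≫ z) N (by
    intro κ' _ _ s
    refine AEZ.isAlgEquivZero s rfl ?_
    refine (AEZ.of_family h' hM t₀ h₀ e₀ (⟨s ≫ v, by rw [Category.assoc]⟩ :
      SchemeHomOver (s ≫ v ≫ h' ≫ z) (h' ≫ z))).of_iso ?_
    refine niso_symm (nonempty_pb_comp ?_ M)
    rw [baseChangeSnd_comp]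
    rfl)
  exact ⟨g.1, _, g.2, rfl, hg⟩

end Cls

/-- factorisation of a geometric point through an open neighbourhood of its image -/
theorem exists_lift_open {T : Scheme.{u}} {κ : Type u} [Field κ] (a : Spec (CommRingCat.of κ) ⟶ T)
    (U : T.Opens) (x : Spec (CommRingCat.of κ)) (hx : a x ∈ U) :
    ∃ b : Spec (CommRingCat.of κ) ⟶ U.toScheme, b ≫ U.ι = a := by
  have hr : Set.range a ⊆ Set.range U.ι := by
    rintro _ ⟨y, rfl⟩
    rw [Scheme.Opens.range_ι, Subsingleton.elim y x]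
    exact hx
  exact ⟨IsOpenImmersion.lift U.ι a hr, IsOpenImmersion.lift_fac _ _ _⟩

/-- every point is the image of a geometric point -/
theorem exists_geometric_point {X : Scheme.{u}} (z : X) :
    ∃ (κ : Type u) (_ : Field κ) (_ : IsAlgClosed κ) (w : Spec (CommRingCat.of κ) ⟶ X)
      (x : Spec (CommRingCat.of κ)), w x = z := by
  obtain ⟨x⟩ : Nonempty (Spec (CommRingCat.of (AlgebraicClosure (X.residueField z)))) :=
    inferInstance
  refine ⟨AlgebraicClosure (X.residueField z), inferInstance, inferInstance,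
    Spec.map (CommRingCat.ofHom (algebraMap (X.residueField z)
      (AlgebraicClosure (X.residueField z)))) ≫ X.fromSpecResidueField z, x, ?_⟩
  rw [Scheme.Hom.comp_apply]
  exact Scheme.fromSpecResidueField_apply z _

/-- **A scheme representing `Pic⁰` is geometrically connected.** -/
theorem geometricallyConnected_of_represents {c : C ⟶ Spec (CommRingCat.of R)}
    {ε : SchemeHomOver (𝟙 (Spec (CommRingCat.of R))) c} {D : RelativePic0Designation R c}
    (h : RepresentsRelSubPic c ε (algEquivZeroCut c ε) D) : GeometricallyConnected D.toBase := by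
  refine ⟨geometrically_iff_of_isClosedUnderIsomorphisms.mpr fun K _ y => ?_⟩
  let zK : Spec (CommRingCat.of K) ⟶ pullback D.toBase y :=
    pullback.lift (y ≫ D.zeroSection) (𝟙 _) (by
      rw [Category.assoc, D.zeroSection_toBase, Category.comp_id, Category.id_comp])
  let x0 : Spec (CommRingCat.of K) := IsLocalRing.closedPoint K
  have key : ∀ z : ↥(pullback D.toBase y), ∃ S : Set ↥(pullback D.toBase y), S ⊆ Set.univ ∧
      zK x0 ∈ S ∧ z ∈ S ∧ _root_.IsPreconnected S := by
    intro z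
    obtain ⟨κ, _, _, w, x, hwx⟩ := exists_geometric_point z
    let s : Spec (CommRingCat.of κ) ⟶ D.P := w ≫ pullback.fst D.toBase y
    obtain ⟨T', h', hft, hgi, M, hM, t₀, t₁, g0, g1, e0, e1⟩ :=
      AEZ.of_isAlgEquivZero s (h.poincare_mem κ s) (z := s ≫ D.toBase) rfl
    have hT' : IsIntegral T' :=
      self_of_isIntegral_of_geometrically hgi.geometrically_isIntegral
    -- classes at the two points
    have c0 : Cls h.poincare.L M t₀.1 ((s ≫ D.toBase) ≫ D.zeroSection) := by
      refine ⟨s ≫ D.toBase, ?_, t₀.2, ?_⟩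
      · rw [Category.assoc, D.zeroSection_toBase, Category.comp_id]
      · refine niso_trans ?_ (niso_symm e0)
        have e2 := nonempty_pb_map (baseChangeSnd c (⟨s ≫ D.toBase, Category.comp_id _⟩ :
          SchemeHomOver (s ≫ D.toBase) (𝟙 _))) h.zero
        refine niso_trans (niso_symm (nonempty_pb_comp ?_ h.poincare.L)) (niso_trans e2
          (nonempty_pb_unit _))
        rw [baseChangeSnd_comp]
        rfl
    have c1 : Cls h.poincare.L M t₁.1 s := ⟨s ≫ D.toBase, rfl, t₁.2, niso_symm e1⟩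
    -- neighbourhoods
    have hN := hM.pullback (rigSection c (h' ≫ s ≫ D.toBase) ε)
    obtain ⟨U₀, hU₀, ⟨τ₀⟩⟩ := hN.exists_trivialization (t₀.1 x)
    obtain ⟨U₁, hU₁, ⟨τ₁⟩⟩ := hN.exists_trivialization (t₁.1 x)
    obtain ⟨γ₀, hγ₀⟩ := exists_classifying h h' hM t₀ g0 e0 U₀.ι
      (niso_trans (niso_symm (nonempty_pb_comp rfl M)) ⟨τ₀⟩)
    obtain ⟨γ₁, hγ₁⟩ := exists_classifying h h' hM t₀ g0 e0 U₁.ι
      (niso_trans (niso_symm (nonempty_pb_comp rfl M)) ⟨τ₁⟩)
    obtain ⟨a₀, ha₀⟩ := exists_lift_open t₀.1 U₀ x hU₀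
    obtain ⟨a₁, ha₁⟩ := exists_lift_open t₁.1 U₁ x hU₁
    have k0 : a₀ ≫ γ₀ = (s ≫ D.toBase) ≫ D.zeroSection :=
      Cls.unique h (v := t₀.1) (by rw [← ha₀]; exact hγ₀.comp a₀) c0
    have k1 : a₁ ≫ γ₁ = s :=
      Cls.unique h (v := t₁.1) (by rw [← ha₁]; exact hγ₁.comp a₁) c1
    -- the intersection
    let V : T'.Opens := U₀ ⊓ U₁
    let i₀ : V.toScheme ⟶ U₀.toScheme := T'.homOfLE inf_le_left
    let i₁ : V.toScheme ⟶ U₁.toScheme := T'.homOfLE inf_le_right
    have hi₀ : i₀ ≫ U₀.ι = V.ι := Scheme.homOfLE_ι _ _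
    have hi₁ : i₁ ≫ U₁.ι = V.ι := Scheme.homOfLE_ι _ _
    have k2 : i₀ ≫ γ₀ = i₁ ≫ γ₁ :=
      Cls.unique h (v := V.ι) (by rw [← hi₀]; exact hγ₀.comp i₀)
        (by rw [← hi₁]; exact hγ₁.comp i₁)
    have hb₀ : γ₀ ≫ D.toBase = U₀.ι ≫ h' ≫ s ≫ D.toBase := by
      obtain ⟨t, e1, e2, -⟩ := hγ₀
      rw [e1, e2]
    have hb₁ : γ₁ ≫ D.toBase = U₁.ι ≫ h' ≫ s ≫ D.toBase := by
      obtain ⟨t, e1, e2, -⟩ := hγ₁
      rw [e1, e2]
    let G₀ : U₀.toScheme ⟶ pullback D.toBase y :=
      pullback.lift γ₀ (U₀.ι ≫ h' ≫ w ≫ pullback.snd _ _) (by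
        rw [hb₀]
        simp only [s, Category.assoc, pullback.condition])
    let G₁ : U₁.toScheme ⟶ pullback D.toBase y :=
      pullback.lift γ₁ (U₁.ι ≫ h' ≫ w ≫ pullback.snd _ _) (by
        rw [hb₁]
        simp only [s, Category.assoc, pullback.condition])
    have m0 : a₀ ≫ G₀ = (w ≫ pullback.snd _ _) ≫ zK := by
      apply pullback.hom_ext
      · have h3 : zK ≫ pullback.fst D.toBase y = y ≫ D.zeroSection := pullback.lift_fst _ _ _
        rw [Category.assoc, pullback.lift_fst, k0]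
        simp only [s, Category.assoc, h3, pullback.condition_assoc]
      · rw [Category.assoc, pullback.lift_snd, ← Category.assoc a₀, ha₀, ← Category.assoc t₀.1, g0,
          Category.id_comp, Category.assoc, pullback.lift_snd, Category.comp_id]
    have m1 : a₁ ≫ G₁ = w := by
      apply pullback.hom_ext
      · rw [Category.assoc, pullback.lift_fst, k1]
      · rw [Category.assoc, pullback.lift_snd, ← Category.assoc a₁, ha₁, ← Category.assoc t₁.1, g1,
          Category.id_comp]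
    have m2 : i₀ ≫ G₀ = i₁ ≫ G₁ := by
      apply pullback.hom_ext
      · rw [Category.assoc, Category.assoc, pullback.lift_fst, pullback.lift_fst, k2]
      · rw [Category.assoc, Category.assoc, pullback.lift_snd, pullback.lift_snd,
          ← Category.assoc i₀, hi₀, ← Category.assoc i₁, hi₁]
    obtain ⟨v, hv₀, hv₁⟩ : ((U₀ : Set T') ∩ (U₁ : Set T')).Nonempty :=
      nonempty_preirreducible_inter U₀.2 U₁.2 ⟨_, hU₀⟩ ⟨_, hU₁⟩
    let v' : V.toScheme := ⟨v, hv₀, hv₁⟩
    haveI : Nonempty U₀.toScheme := ⟨⟨_, hU₀⟩⟩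
    haveI : Nonempty U₁.toScheme := ⟨⟨_, hU₁⟩⟩
    haveI : IsIntegral U₀.toScheme := isIntegral_of_isOpenImmersion U₀.ι
    haveI : IsIntegral U₁.toScheme := isIntegral_of_isOpenImmersion U₁.ι
    refine ⟨Set.range G₀ ∪ Set.range G₁, Set.subset_univ _, Or.inl ⟨a₀ x, ?_⟩,
      Or.inr ⟨a₁ x, ?_⟩, ?_⟩
    · rw [← Scheme.Hom.comp_apply, m0, Scheme.Hom.comp_apply]
      congr 1
      exact Subsingleton.elim _ _
    · rw [← Scheme.Hom.comp_apply, m1, hwx]
    · refine IsPreconnected.union (G₀ (i₀ v')) ⟨_, rfl⟩ ⟨i₁ v', ?_⟩ (isPreconnected_range G₀.continuous)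
        (isPreconnected_range G₁.continuous)
      rw [← Scheme.Hom.comp_apply, ← Scheme.Hom.comp_apply, m2]
  have hpre : _root_.IsPreconnected (Set.univ : Set ↥(pullback D.toBase y)) :=
    isPreconnected_of_forall (zK x0) fun z _ => key z
  exact { isPreconnected_univ := hpre, toNonempty := ⟨zK x0⟩ }

end Fermat.Agent.Jac
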