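import Fermat.Agent.Jac.FibC3

/-! Vanishing of `H¹` in large degree. -/

set_option autoImplicit false
set_option linter.all false

namespace Fermat.Agent.Jac

open nonZeroDivisors

universe u v

variable {K B0 Bi F : Type u} [Field K] [CommRing B0] [CommRing Bi] [Field F] [Algebra K B0]
    [Algebra K Bi] [Algebra K F] [Algebra B0 F] [Algebra Bi F]

variable [IsDomain B0] [IsDedekindDomain B0] [IsFractionRing B0 F] [IsDomain Bi]
  [IsDedekindDomain Bi] [IsFractionRing Bi F] [IsScalarTower K B0 F] [IsScalarTower K Bi F]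

namespace Pr

variable {C : FC K B0 Bi F}

variable (C) in
/-- `O(n)` -/
noncomputable def tw (n : ℕ) : Pr C where
  I0 := 1
  Ii := FractionalIdeal.spanSingleton Bi⁰ (C.x ^ n)
  ne0 := one_ne_zero
  nei := by
    rw [ne_eq, FractionalIdeal.spanSingleton_eq_zero_iff]
    exact pow_ne_zero _ C.x_ne
  glue f := by
    simp only [FractionalIdeal.mem_one_iff, FractionalIdeal.mem_spanSingleton]
    rw [C.loc f]
    obtain ⟨y, hy⟩ := C.y_mem
    constructor
    · rintro ⟨m, b, hb⟩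
      refine ⟨m, b * y ^ n, ?_⟩
      rw [Algebra.smul_def, map_mul, map_pow, hy, hb, mul_assoc, x_pow_inv, mul_one]
    · rintro ⟨m, z, hz⟩
      refine ⟨n + m, z, ?_⟩
      rw [pow_add, mul_assoc, ← hz, Algebra.smul_def, mul_comm (algebraMap Bi F z), ← mul_assoc,
        x_pow_inv, one_mul]

@[simp] theorem tw_I0 (n : ℕ) : (tw C n).I0 = 1 := rfl
theorem tw_Ii (n : ℕ) : (tw C n).Ii = FractionalIdeal.spanSingleton Bi⁰ (C.x ^ n) := rfl

theorem mem_mul_tw_Ii (L : Pr C) (n : ℕ) {f : F} :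
    f ∈ (L * tw C n).Ii ↔ C.x⁻¹ ^ n * f ∈ L.Ii := by
  change f ∈ L.Ii * FractionalIdeal.spanSingleton Bi⁰ (C.x ^ n) ↔ _
  rw [mul_comm, FractionalIdeal.mem_singleton_mul]
  constructor
  · rintro ⟨g, hg, rfl⟩
    rwa [← mul_assoc, x_pow_inv, one_mul]
  · intro h
    refine ⟨_, h, ?_⟩
    rw [← mul_assoc, mul_comm (C.x ^ n), x_pow_inv, one_mul]

theorem mul_tw_I0 (L : Pr C) (n : ℕ) : (L * tw C n).I0 = L.I0 := mul_one _

theorem mul_tw_mono (L : Pr C) {n m : ℕ} (h : n ≤ m) : (L * tw C n).Ii ≤ (L * tw C m).Ii := by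
  intro f hf
  rw [mem_mul_tw_Ii] at hf ⊢
  exact y_mem_mono C h hf

/-- `H¹(L(n)) = 0` for `n` large -/
theorem exists_H1z_tw (h1 : (one : Pr C).Fin) (L : Pr C) :
    ∃ n : ℕ, ∀ m, n ≤ m → H1z (L * tw C m) := by
  classical
  have hF : ∀ n, (L * tw C n).Fin := fun n => fin_of_fin h1 _
  have hB : ∀ n, (L * tw C n).sB = L.sB := fun n =>
    le_antisymm (sB_mono (mul_tw_I0 L n).le) (sB_mono (mul_tw_I0 L n).ge)
  have hs0 : ∀ n, (L * tw C n).s0 = L.s0 := fun n => by
    unfold s0; rw [mul_tw_I0]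
  let E : ℕ → Submodule K F := fun n => (L * tw C n).s0 ⊔ (L * tw C n).si
  have hE : ∀ n, E n ≤ L.sB := fun n => by
    rw [← hB n]; exact sup_le (s0_le _) (si_le _)
  have hmono : ∀ {n m}, n ≤ m → E n ≤ E m := fun {n m} h =>
    sup_le_sup (by rw [hs0, hs0]) (mul_tw_mono L h)
  have hfin : ∀ n, RelFin (E n) L.sB := fun n => by
    have := (hF n).fin1
    rwa [hB n] at this
  -- minimise the codimension
  obtain ⟨n, hn⟩ : ∃ n, ∀ m, rd (E n) L.sB ≤ rd (E m) L.sB := by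
    obtain ⟨n, hn⟩ := exists_minimalFor_of_wellFoundedLT (fun _ : ℕ => True)
      (fun n => rd (E n) L.sB) ⟨0, trivial⟩
    exact ⟨n, fun m => by
      by_contra h
      push Not at h
      exact absurd (hn.2 (j := m) trivial h.le) (not_le.mpr h)⟩
  have key : E n = L.sB := by
    apply le_antisymm (hE n)
    intro b hb
    -- b ∈ E m for some m
    obtain ⟨m, hm⟩ := L.mem_sB'.mp hb
    have hbm : b ∈ E (max n m) := by
      refine (le_sup_right : (L * tw C (max n m)).si ≤ _) ?_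
      rw [mem_si, mem_mul_tw_Ii]
      exact y_mem_mono C (le_max_right n m) hm
    have h2 := rd_add (hmono (le_max_left n m)) (hE (max n m)) (hfin n)
    have h3 := hn (max n m)
    have h4 : rd (E n) (E (max n m)) = 0 := by omega
    exact le_of_rd_eq_zero ((hfin n).mono_right (hE _)) h4 hbm
  refine ⟨n, fun m hm => ?_⟩
  change E m = (L * tw C m).sB
  rw [hB m]
  exact le_antisymm (hE m) (key.ge.trans (hmono hm))

theorem H1z_prin {L : Pr C} (h : H1z L) (f : F) (hf : f ≠ 0) : H1z (L * prin f hf) := by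
  let e : F ≃ₗ[K] F := LinearEquiv.smulOfNeZero (M := F) (K := F) f hf |>.restrictScalars K
  have he : ∀ g, e g = f * g := fun g => rfl
  have h0 : (L * prin f hf).s0 = L.s0.map (e : F →ₗ[K] F) := by
    ext g
    rw [mem_s0]
    show g ∈ L.I0 * FractionalIdeal.spanSingleton B0⁰ f ↔ _
    rw [mul_comm, FractionalIdeal.mem_singleton_mul]
    constructor
    · rintro ⟨h, hh, rfl⟩
      exact ⟨h, hh, he h⟩
    · rintro ⟨h, hh, rfl⟩
      exact ⟨h, hh, he h⟩
  have hi : (L * prin f hf).si = L.si.map (e : F →ₗ[K] F) := by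
    ext g
    rw [mem_si]
    show g ∈ L.Ii * FractionalIdeal.spanSingleton Bi⁰ f ↔ _
    rw [mul_comm, FractionalIdeal.mem_singleton_mul]
    constructor
    · rintro ⟨h, hh, rfl⟩
      exact ⟨h, hh, he h⟩
    · rintro ⟨h, hh, rfl⟩
      exact ⟨h, hh, he h⟩
  apply le_antisymm (sup_le (s0_le _) (si_le _))
  rw [h0, hi, ← Submodule.map_sup]
  rintro g ⟨n, hn⟩
  have hn' : C.x ^ n * g ∈ L.I0 * FractionalIdeal.spanSingleton B0⁰ f := hn
  rw [mul_comm, FractionalIdeal.mem_singleton_mul] at hn'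
  obtain ⟨z, hz, hg⟩ := hn'
  have hx : C.x ^ n ≠ 0 := pow_ne_zero _ C.x_ne
  refine ⟨(C.x ^ n)⁻¹ * z, ?_, ?_⟩
  · change _ ∈ L.s0 ⊔ L.si
    rw [h]
    exact ⟨n, by rwa [mul_inv_cancel_left₀ hx]⟩
  · show f * ((C.x ^ n)⁻¹ * z) = g
    apply mul_left_cancel₀ hx
    rw [hg]
    field_simp

/-- subfamilies of points -/
def Pts.sub {ι ι' : Type*} (T : Pts C ι) (e : ι' ↪ ι) : Pts C ι' where
  P i := T.P (e i)
  inj i j h := e.injective (T.inj h)
  ne i := T.ne _
  max i := T.max _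
  rat i := T.rat _

theorem H0z.chi {L : Pr C} (h0 : H0z L) (h1 : H1z L) : L.chi = 0 := by
  rw [chi_eq_of_H1z h1, h0]
  simp

/-- a bundle without cohomology -/
theorem Pts.exists_acyclic {ι : Type*} [Infinite ι] (T : Pts C ι) (h1 : (one : Pr C).Fin) :
    ∃ N : Pr C, H0z N ∧ H1z N := by
  obtain ⟨n, hn⟩ := exists_H1z_tw h1 (one : Pr C)
  have h2 := hn n le_rfl
  let r : ℕ := Module.finrank K
    ↥((((one : Pr C) * tw C n).s0 ⊓ ((one : Pr C) * tw C n).si : Submodule K F))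
  let M : ℕ := ((r : ℤ) - (one : Pr C).chi).toNat + 1
  let T' := T.sub ((_root_.Fin.valEmbedding (n := M)).trans (Infinite.natEmbedding ι))
  obtain ⟨s, hs⟩ := T'.exists_cover h1 r (fun _ : Unit => one * tw C n)
    (fun _ => chi_eq_of_H1z h2) (fun _ => h2) (by
      rw [Fintype.card_unit, Fintype.card_fin]
      have := Int.self_le_toNat ((r : ℤ) - (one : Pr C).chi)
      simp only [M]
      push_cast at this ⊢
      linarith)
  exact ⟨_, hs ()⟩

/-- **`H¹` vanishes in large degree** -/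
theorem Pts.H1z_of_chi {ι : Type*} [Infinite ι] (T : Pts C ι) (h1 : (one : Pr C).Fin) (L : Pr C)
    (hL : 1 - (one : Pr C).chi ≤ L.chi) : H1z L := by
  obtain ⟨N, h0, hN⟩ := T.exists_acyclic h1
  have hchi := h0.chi hN
  have e1 := Pr.chi_mul h1 L N.inv
  have e2 := Pr.chi_mul h1 N.inv N
  rw [inv_mul'] at e2
  have h2 : 0 < (L.mul N.inv).chi := by linarith
  obtain ⟨s, hs, hs0, hsi⟩ := exists_section (fin_of_fin h1 _) h2
  refine H1z_mono (P' := N * prin s hs) ?_ ?_ (H1z_prin hN s hs)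
  · have h3 : FractionalIdeal.spanSingleton B0⁰ s ≤ L.I0 * N.I0⁻¹ := by
      rw [FractionalIdeal.spanSingleton_le_iff_mem]
      exact hs0
    have h4 := mul_le_mul_right h3 N.I0
    rw [mul_comm L.I0, mul_inv_cancel_left₀ N.ne0] at h4
    exact h4
  · have h3 : FractionalIdeal.spanSingleton Bi⁰ s ≤ L.Ii * N.Ii⁻¹ := by
      rw [FractionalIdeal.spanSingleton_le_iff_mem]
      exact hsi
    have h4 := mul_le_mul_right h3 N.Ii
    rw [mul_comm L.Ii, mul_inv_cancel_left₀ N.nei] at h4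
    exact h4

/-- **simultaneous covering in large degree** (helper23's form) -/
theorem Pts.exists_cover' {ι κ : Type*} [Infinite ι] [Fintype κ] (T : Pts C ι)
    (h1 : (one : Pr C).Fin) (r : ℕ) (L : κ → Pr C) (hchi : ∀ j, (L j).chi = r)
    (hr : 1 - (one : Pr C).chi ≤ r) (Z : Finset ι)
    (hcard : (Fintype.card κ : ℤ) * (r - (one : Pr C).chi) < Z.card) :
    ∃ s : _root_.Fin r → ι, (∀ i, s i ∈ Z) ∧
      ∀ j, H0z (L j * ∏ i, T.J (s i)) ∧ H1z (L j * ∏ i, T.J (s i)) := by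
  obtain ⟨s, hs⟩ := (T.sub (Function.Embedding.subtype fun i => i ∈ Z)).exists_cover h1 r L hchi
    (fun j => T.H1z_of_chi h1 (L j) (by rw [hchi j]; exact hr)) (by
      rw [Fintype.card_coe]; exact hcard)
  exact ⟨fun i => (s i).1, fun i => (s i).2, hs⟩

end Pr

end Fermat.Agent.Jac
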