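import Fermat.Agent.Jac.InvCrit

set_option autoImplicit false
set_option linter.unusedSectionVars false
set_option linter.style.haveILetI false

/-!
# Modules of rank one over a Dedekind domain
-/

open TensorProduct

namespace Fermat.Agent.Jac

section torsion

variable {C B N : Type*} [CommRing C] [Nontrivial C] [CommRing B] [IsDomain B] [Algebra C B]
  [FaithfulSMul C B] [Algebra.IsIntegral C B] [AddCommGroup N] [Module C N] [Module B N]
  [IsScalarTower C B N]

/-- a module over an integral extension `B` of `C` which is torsion free over `C` is torsion free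
over `B` -/
theorem smul_eq_zero_of_torsionFree (h : ∀ (c : C) (n : N), c • n = 0 → c = 0 ∨ n = 0) {b : B}
    {n : N} (hbn : b • n = 0) : b = 0 ∨ n = 0 := by
  by_cases hb : b = 0
  · exact Or.inl hb
  right
  have h1 : (Ideal.span {b}).comap (algebraMap C B) ≠ ⊥ :=
    Ideal.comap_ne_bot_of_integral_mem hb (Ideal.mem_span_singleton_self b)
      (Algebra.IsIntegral.isIntegral b)
  obtain ⟨c, hc, hc0⟩ := Submodule.exists_mem_ne_zero_of_ne_bot h1
  obtain ⟨b', hb'⟩ := Ideal.mem_span_singleton'.mp (Ideal.mem_comap.mp hc)
  refine (h c n ?_).resolve_left hc0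
  rw [← IsScalarTower.algebraMap_smul B c n, ← hb', mul_smul, hbn, smul_zero]

end torsion

section dedekind

variable {C B N : Type*} [CommRing C] [IsDomain C] [CommRing B] [IsDedekindDomain B] [Algebra C B]
  [AddCommGroup N] [Module C N] [Module B N] [IsScalarTower C B N]

/-- **Torsion-free modules of rank one.** `B` a Dedekind domain, finite and free over `C`, and `N`
a `B`-module which is free over `C` of the same rank: then `N` is invertible. -/
theorem invertible_of_basis {ι : Type*} [Finite ι] (eB : Module.Basis ι C B)
    (eN : Module.Basis ι C N) : Module.Invertible B N := by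
  classical
  haveI := Fintype.ofFinite ι
  haveI : Module.Free C B := Module.Free.of_basis eB
  haveI : Module.Finite C B := Module.Finite.of_basis eB
  haveI : Module.Free C N := Module.Free.of_basis eN
  haveI : Module.Finite C N := Module.Finite.of_basis eN
  haveI : Module.Finite B N := Module.Finite.of_restrictScalars_finite C B N
  haveI : FaithfulSMul C B := by
    haveI : Nontrivial B := inferInstance
    infer_instance
  have hCN : ∀ (c : C) (n : N), c • n = 0 → c = 0 ∨ n = 0 := fun c n h => smul_eq_zero.mp h
  have htf : ∀ (b : B) (n : N), b • n = 0 → b = 0 ∨ n = 0 := fun b n h =>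
    smul_eq_zero_of_torsionFree hCN h
  -- a non-zero vector
  have hι : Nonempty ι := by
    by_contra h
    rw [not_nonempty_iff] at h
    exact one_ne_zero (eB.repr.injective (Subsingleton.elim _ _) : (1 : B) = 0)
  obtain ⟨i₀⟩ := hι
  set v : N := eN i₀ with hv
  have hv0 : v ≠ 0 := eN.ne_zero i₀
  set D := (LinearMap.toMatrix eB eN ((LinearMap.toSpanSingleton B N v).restrictScalars C)).det
    with hD
  have hD0 : D ≠ 0 := by
    intro h0
    obtain ⟨w, hw, hw0⟩ := Matrix.exists_mulVec_eq_zero_iff.mpr h0
    have h1 : ((LinearMap.toSpanSingleton B N v).restrictScalars C) (eB.equivFun.symm w) = 0 := by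
      apply eN.equivFun.injective
      rw [map_zero, ← hw0]
      have := LinearMap.toMatrix_mulVec_repr eB eN
        ((LinearMap.toSpanSingleton B N v).restrictScalars C) (eB.equivFun.symm w)
      rw [← Module.Basis.equivFun_apply] at this
      rw [LinearEquiv.apply_symm_apply] at this
      rw [this]
      rfl
    have h2 : (eB.equivFun.symm w) • v = 0 := h1
    rcases htf _ _ h2 with h3 | h3
    · apply hw
      have := congrArg eB.equivFun h3
      rwa [LinearEquiv.apply_symm_apply, map_zero] at this
    · exact hv0 h3
  haveI : Module.IsTorsionFree B N := .of_smul_eq_zero fun b n h => htf b n h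
  haveI : Module.Projective B N := by
    haveI : Module.Flat B N := inferInstance
    haveI : Module.FinitePresentation B N := Module.finitePresentation_of_finite B N
    exact Module.Flat.projective_of_finitePresentation
  refine invertible_of_trace ?_ ?_
  · -- the trace ideal
    set T := Ideal.span {s : B | ∃ (φ : Module.Dual B N) (m : N), φ m = s} with hT
    obtain ⟨n, f, hf⟩ := Module.Finite.exists_fin' B N
    obtain ⟨s, hs⟩ := Module.projective_lifting_property f LinearMap.id hf
    have h1 : (⊤ : Submodule B N) ≤ T • (⊤ : Submodule B N) := by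
      intro x _
      have h2 : x = f (s x) := by
        rw [← LinearMap.comp_apply, hs, LinearMap.id_apply]
      have h3 : s x = ∑ i, s x i • (Pi.single i 1 : Fin n → B) := by
        ext j
        simp [Pi.single_apply]
      rw [h2, h3, map_sum]
      refine Submodule.sum_mem _ fun i _ => ?_
      rw [map_smul]
      refine Submodule.smul_mem_smul (Ideal.subset_span ⟨(LinearMap.proj i).comp s, x, rfl⟩)
        Submodule.mem_top
    obtain ⟨r, hr1, hr2⟩ := Submodule.exists_sub_one_mem_and_smul_eq_zero_of_fg_of_le_smul T
      (⊤ : Submodule B N) Module.Finite.fg_top h1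
    have h3 : r = 0 := (htf r v (hr2 v Submodule.mem_top)).resolve_right hv0
    rw [h3, zero_sub] at hr1
    rw [Ideal.eq_top_iff_one]
    exact (neg_mem_iff (S := Ideal B)).mp hr1
  · intro φ m n
    have h1 := sq_det_smul_exchange eB eN v φ m n
    rw [← hD] at h1
    have h2 := (hCN _ _ h1).resolve_left (pow_ne_zero 2 hD0)
    exact sub_eq_zero.mp h2

end dedekind

section generator

variable {B N : Type*} [CommRing B] [AddCommGroup N] [Module B N]

/-- an invertible module is generated by one element modulo an ideal with semilocal quotient -/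
theorem exists_generator_mod [Module.Invertible B N] (J : Ideal B)
    [Finite (MaximalSpectrum (B ⧸ J))] :
    ∃ v : N, ∀ n : N, ∃ b : B, n - b • v ∈ J • (⊤ : Submodule B N) := by
  classical
  haveI : Module.Free (B ⧸ J) ((B ⧸ J) ⊗[B] N) := inferInstance
  obtain ⟨e⟩ := Module.Invertible.free_iff_linearEquiv.mp
    (inferInstance : Module.Free (B ⧸ J) ((B ⧸ J) ⊗[B] N))
  let E := TensorProduct.quotTensorEquivQuotSMul N J
  have hE : ∀ n : N, E (1 ⊗ₜ[B] n) = Submodule.Quotient.mk n := by
    intro n
    have := TensorProduct.quotTensorEquivQuotSMul_mk_tmul (I := J) (M := N) 1 n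
    rw [one_smul] at this
    exact this
  obtain ⟨v, hv⟩ := Submodule.Quotient.mk_surjective (J • (⊤ : Submodule B N)) (E (e.symm 1))
  refine ⟨v, fun n => ?_⟩
  obtain ⟨b, hb⟩ := Ideal.Quotient.mk_surjective (e (E.symm (Submodule.Quotient.mk n)))
  refine ⟨b, ?_⟩
  rw [← Submodule.Quotient.mk_eq_zero, Submodule.Quotient.mk_sub, Submodule.Quotient.mk_smul, hv,
    sub_eq_zero]
  apply E.symm.injective
  rw [map_smul, LinearEquiv.symm_apply_apply]
  apply e.injective
  rw [← hb]
  have h1 : b • e.symm (1 : B ⧸ J) = (Ideal.Quotient.mk J b) • e.symm (1 : B ⧸ J) := by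
    rw [← IsScalarTower.algebraMap_smul (B ⧸ J) b]
    rfl
  rw [h1, map_smul, LinearEquiv.apply_symm_apply, smul_eq_mul, mul_one]

end generator

end Fermat.Agent.Jac
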