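import Mathlib

set_option autoImplicit false

/-!
# Two-chart description of line bundles on a curve times an affine scheme

Everything in this file is commutative algebra.  `CurveData k` describes a smooth proper curve `C`
over a field `k` with a finite morphism `x : C → ℙ¹`: `C = V₀ ∪ V∞`, `V₀ = Spec B0`,
`V∞ = Spec Bi`, `V₀ ∩ V∞ = Spec B`, `B = B0[1/x] = Bi[1/y]`, `y = 1/x`, and a point `ε` of `V∞`.
For a `k`-algebra `A`, `LB X A` is a line bundle on `C × Spec A`.
-/

universe u

open TensorProduct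

namespace Fermat.Agent.Jac

/-- Two affine charts of a smooth proper curve over `k`, glued along `x * y = 1`, and a rational
point `e` of the second chart. -/
structure CurveData (k : Type u) [Field k] where
  /-- functions on `V₀ ∩ V∞` -/
  B : Type u
  [cr : CommRing B]
  [alg : Algebra k B]
  /-- functions on `V₀` -/
  B0 : Subalgebra k B
  /-- functions on `V∞` -/
  Bi : Subalgebra k B
  x : B
  y : B
  xy : x * y = 1
  x_mem : x ∈ B0
  y_mem : y ∈ Bi
  loc0 : ∀ b : B, ∃ n : ℕ, x ^ n * b ∈ B0
  loci : ∀ b : B, ∃ n : ℕ, y ^ n * b ∈ Bi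
  /-- global functions are constant -/
  inter : B0 ⊓ Bi = ⊥
  /-- `C → ℙ¹` is finite -/
  fin0 : (Polynomial.aeval (⟨x, x_mem⟩ : B0) : Polynomial k →ₐ[k] B0).toRingHom.Finite
  fini : (Polynomial.aeval (⟨y, y_mem⟩ : Bi) : Polynomial k →ₐ[k] Bi).toRingHom.Finite
  trans : Transcendental k x
  /-- `C` is smooth and geometrically integral -/
  ded0 : ∀ (K : Type u) [Field K] [Algebra k K], IsDedekindDomain (K ⊗[k] B0)
  dedi : ∀ (K : Type u) [Field K] [Algebra k K], IsDedekindDomain (K ⊗[k] Bi)
  smooth0 : Algebra.Smooth k B0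
  smoothi : Algebra.Smooth k Bi
  /-- the diagonal is an effective Cartier divisor -/
  diag0 : Module.Invertible (B0 ⊗[k] B0) (RingHom.ker (Algebra.TensorProduct.lmul' k (S := B0)))
  diagi : Module.Invertible (Bi ⊗[k] Bi) (RingHom.ker (Algebra.TensorProduct.lmul' k (S := Bi)))
  /-- the base point -/
  e : Bi →ₐ[k] k
  /-- `x` has a pole at the base point: it does not lie in `V₀` -/
  e_y : e ⟨y, y_mem⟩ = 0

attribute [instance] CurveData.cr CurveData.alg

variable {k : Type u} [Field k] (X : CurveData k)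

section Base

variable (A : Type u) [CommRing A] [Algebra k A]

/-- The coordinate ring of `V₀ × Spec A`. -/
abbrev CurveData.R0 : Type u := A ⊗[k] X.B0
/-- The coordinate ring of `V∞ × Spec A`. -/
abbrev CurveData.Ri : Type u := A ⊗[k] X.Bi
/-- The coordinate ring of `(V₀ ∩ V∞) × Spec A`. -/
abbrev CurveData.R : Type u := A ⊗[k] X.B

/-- restriction -/
noncomputable def CurveData.J0 : X.R0 A →ₐ[A] X.R A :=
  Algebra.TensorProduct.map (AlgHom.id A A) X.B0.val
/-- restriction -/
noncomputable def CurveData.Ji : X.Ri A →ₐ[A] X.R A :=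
  Algebra.TensorProduct.map (AlgHom.id A A) X.Bi.val

noncomputable instance CurveData.algebra0 : Algebra (X.R0 A) (X.R A) := (X.J0 A).toAlgebra
noncomputable instance CurveData.algebrai : Algebra (X.Ri A) (X.R A) := (X.Ji A).toAlgebra

theorem CurveData.algebraMap0 (r : X.R0 A) : algebraMap (X.R0 A) (X.R A) r = X.J0 A r := rfl
theorem CurveData.algebraMapi (r : X.Ri A) : algebraMap (X.Ri A) (X.R A) r = X.Ji A r := rfl

instance CurveData.tower0 : IsScalarTower A (X.R0 A) (X.R A) :=
  IsScalarTower.of_algebraMap_eq fun a => ((X.J0 A).commutes a).symm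
instance CurveData.toweri : IsScalarTower A (X.Ri A) (X.R A) :=
  IsScalarTower.of_algebraMap_eq fun a => ((X.Ji A).commutes a).symm

/-- `x` on `C × Spec A` -/
noncomputable def CurveData.xA : X.R A := 1 ⊗ₜ X.x
/-- `y = 1/x` on `C × Spec A` -/
noncomputable def CurveData.yA : X.R A := 1 ⊗ₜ X.y
/-- `x` as a function on `V₀ × Spec A` -/
noncomputable def CurveData.x0 : X.R0 A := 1 ⊗ₜ ⟨X.x, X.x_mem⟩
/-- `y = 1/x` as a function on `V∞ × Spec A` -/
noncomputable def CurveData.yi : X.Ri A := 1 ⊗ₜ ⟨X.y, X.y_mem⟩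

theorem CurveData.xA_yA : X.xA A * X.yA A = 1 := by
  rw [CurveData.xA, CurveData.yA, Algebra.TensorProduct.tmul_mul_tmul, X.xy, one_mul,
    Algebra.TensorProduct.one_def]
theorem CurveData.J0_x0 : X.J0 A (X.x0 A) = X.xA A := by
  simp [CurveData.J0, CurveData.x0, CurveData.xA]
theorem CurveData.Ji_yi : X.Ji A (X.yi A) = X.yA A := by
  simp [CurveData.Ji, CurveData.yi, CurveData.yA]

/-- evaluation of functions on `V∞ × Spec A` at the base section -/
noncomputable def CurveData.eA : X.Ri A →ₐ[A] A :=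
  Algebra.TensorProduct.lift (AlgHom.id A A) ((Algebra.ofId k A).comp X.e) fun _ _ => .all _ _

/-- evaluation of functions on `V₀ × Spec A` at a section `σ : Spec A → V₀` -/
noncomputable def CurveData.ev0 {A : Type u} [CommRing A] [Algebra k A] (σ : X.B0 →ₐ[k] A) :
    X.R0 A →ₐ[A] A :=
  Algebra.TensorProduct.lift (AlgHom.id A A) σ fun _ _ => .all _ _
/-- evaluation of functions on `V∞ × Spec A` at a section `σ : Spec A → V∞` -/
noncomputable def CurveData.evi {A : Type u} [CommRing A] [Algebra k A] (σ : X.Bi →ₐ[k] A) :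
    X.Ri A →ₐ[A] A :=
  Algebra.TensorProduct.lift (AlgHom.id A A) σ fun _ _ => .all _ _

variable {A} {A' : Type u} [CommRing A'] [Algebra k A'] (h : A →ₐ[k] A')

/-- base change -/
noncomputable def CurveData.b0 : X.R0 A →ₐ[k] X.R0 A' := Algebra.TensorProduct.map h (AlgHom.id k _)
/-- base change -/
noncomputable def CurveData.bi : X.Ri A →ₐ[k] X.Ri A' := Algebra.TensorProduct.map h (AlgHom.id k _)
/-- base change -/
noncomputable def CurveData.bb : X.R A →ₐ[k] X.R A' := Algebra.TensorProduct.map h (AlgHom.id k _)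

theorem CurveData.bb_J0 (r : X.R0 A) : X.bb h (X.J0 A r) = X.J0 A' (X.b0 h r) := by
  induction r using TensorProduct.induction_on with
  | zero => simp
  | tmul a b => simp [CurveData.bb, CurveData.J0, CurveData.b0]
  | add r s hr hs => rw [map_add, map_add, hr, hs, map_add, map_add]
theorem CurveData.bb_Ji (r : X.Ri A) : X.bb h (X.Ji A r) = X.Ji A' (X.bi h r) := by
  induction r using TensorProduct.induction_on with
  | zero => simp
  | tmul a b => simp [CurveData.bb, CurveData.Ji, CurveData.bi]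
  | add r s hr hs => rw [map_add, map_add, hr, hs, map_add, map_add]

end Base

/-- A line bundle on `C × Spec A`: a module `M` over `A ⊗ B` (sections over `(V₀ ∩ V∞) × Spec A`)
with submodules `M0`, `Mi` (sections over `V₀ × Spec A`, resp. `V∞ × Spec A`). -/
structure LB (A : Type u) [CommRing A] [Algebra k A] where
  M : Type u
  [ac : AddCommGroup M]
  [modA : Module A M]
  [mod : Module (X.R A) M]
  [mod0 : Module (X.R0 A) M]
  [modi : Module (X.Ri A) M]
  [tA : IsScalarTower A (X.R A) M]
  [t0 : IsScalarTower (X.R0 A) (X.R A) M]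
  [ti : IsScalarTower (X.Ri A) (X.R A) M]
  M0 : Submodule (X.R0 A) M
  Mi : Submodule (X.Ri A) M
  inv0 : Module.Invertible (X.R0 A) M0
  invi : Module.Invertible (X.Ri A) Mi
  ex0 : ∀ m : M, ∃ n : ℕ, X.xA A ^ n • m ∈ M0
  exi : ∀ m : M, ∃ n : ℕ, X.yA A ^ n • m ∈ Mi

attribute [instance] LB.ac LB.modA LB.mod LB.mod0 LB.modi LB.tA LB.t0 LB.ti

namespace LB

variable {X} {A : Type u} [CommRing A] [Algebra k A] {A' : Type u} [CommRing A'] [Algebra k A']

theorem smul0 (L : LB X A) (r : X.R0 A) (m : L.M) : r • m = X.J0 A r • m := by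
  have h := smul_assoc r (1 : X.R A) m
  rw [one_smul, Algebra.smul_def, mul_one] at h
  exact h.symm
theorem smuli (L : LB X A) (r : X.Ri A) (m : L.M) : r • m = X.Ji A r • m := by
  have h := smul_assoc r (1 : X.R A) m
  rw [one_smul, Algebra.smul_def, mul_one] at h
  exact h.symm
theorem smulA (L : LB X A) (a : A) (m : L.M) : a • m = algebraMap A (X.R A) a • m := by
  have h := smul_assoc a (1 : X.R A) m
  rw [one_smul, Algebra.smul_def, mul_one] at h
  exact h.symm

instance tA0 (L : LB X A) : IsScalarTower A (X.R0 A) L.M := ⟨fun a r m => by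
  rw [L.smul0, L.smul0, map_smul, smul_assoc]⟩
instance tAi (L : LB X A) : IsScalarTower A (X.Ri A) L.M := ⟨fun a r m => by
  rw [L.smuli, L.smuli, map_smul, smul_assoc]⟩

/-- A morphism of line bundles over `h : A →ₐ[k] A'` which identifies `L'` with the base change
of `L` (a map of invertible modules whose image generates is an isomorphism after base change).
For `h = AlgHom.id k A` this is an isomorphism `L ≅ L'`. -/
structure Map (h : A →ₐ[k] A') (L : LB X A) (L' : LB X A') where
  f : L.M →+ L'.M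
  map_smul : ∀ (r : X.R A) (m : L.M), f (r • m) = X.bb h r • f m
  span0 : Submodule.span (X.R0 A') (f '' L.M0) = L'.M0
  spani : Submodule.span (X.Ri A') (f '' L.Mi) = L'.Mi

/-- `L'` is the base change of `L` along `h` -/
def BC (h : A →ₐ[k] A') (L : LB X A) (L' : LB X A') : Prop := Nonempty (Map h L L')

/-- isomorphic line bundles -/
def Iso (L L' : LB X A) : Prop := BC (AlgHom.id k A) L L'

/-- `L''` is the tensor product of `L` and `L'` -/
def Tens (L L' L'' : LB X A) : Prop :=
  ∃ β : L.M →ₗ[X.R A] L'.M →ₗ[X.R A] L''.M,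
    Submodule.span (X.R0 A) {m'' | ∃ m ∈ L.M0, ∃ m' ∈ L'.M0, β m m' = m''} = L''.M0 ∧
    Submodule.span (X.Ri A) {m'' | ∃ m ∈ L.Mi, ∃ m' ∈ L'.Mi, β m m' = m''} = L''.Mi

/-- A trivialisation of `L` along the base section. -/
def Rig (L : LB X A) : Prop :=
  ∃ r : L.Mi →ₗ[A] A, (∀ (b : X.Ri A) (m : L.Mi), r (b • m) = X.eA A b * r m) ∧
    Function.Surjective r

variable (L : LB X A)

/-- `M0` as an `A`-module -/
abbrev A0 : Submodule A L.M := L.M0.restrictScalars A
/-- `Mi` as an `A`-module -/
abbrev Ai : Submodule A L.M := L.Mi.restrictScalars A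

/-- global sections -/
abbrev H0 : Submodule A L.M := L.A0 ⊓ L.Ai

/-- the first cohomology -/
abbrev H1 : Type u := L.M ⧸ (L.A0 ⊔ L.Ai)

/-- the Euler characteristic (over a field) -/
noncomputable def chi {K : Type u} [Field K] [Algebra k K] (L : LB X K) : ℤ :=
  (Module.finrank K L.H0 : ℤ) - Module.finrank K L.H1

end LB

section One

variable (A : Type u) [CommRing A] [Algebra k A]

theorem CurveData.J0_injective : Function.Injective (X.J0 A) := by
  have h : (X.J0 A : X.R0 A → X.R A) = LinearMap.lTensor A X.B0.val.toLinearMap := by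
    ext r
    induction r using TensorProduct.induction_on with
    | zero => simp
    | tmul a b => simp [CurveData.J0]
    | add r s hr hs => rw [map_add, map_add, hr, hs]
  rw [h]
  exact Module.Flat.lTensor_preserves_injective_linearMap _ Subtype.val_injective
theorem CurveData.Ji_injective : Function.Injective (X.Ji A) := by
  have h : (X.Ji A : X.Ri A → X.R A) = LinearMap.lTensor A X.Bi.val.toLinearMap := by
    ext r
    induction r using TensorProduct.induction_on with
    | zero => simp
    | tmul a b => simp [CurveData.Ji]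
    | add r s hr hs => rw [map_add, map_add, hr, hs]
  rw [h]
  exact Module.Flat.lTensor_preserves_injective_linearMap _ Subtype.val_injective

theorem CurveData.exists_pow_mul_xA (m : X.R A) : ∃ (n : ℕ) (r : X.R0 A), X.xA A ^ n * m = X.J0 A r := by
  induction m using TensorProduct.induction_on with
  | zero => exact ⟨0, 0, by simp⟩
  | tmul a b =>
    obtain ⟨n, hn⟩ := X.loc0 b
    refine ⟨n, a ⊗ₜ ⟨X.x ^ n * b, hn⟩, ?_⟩
    simp [CurveData.J0, CurveData.xA]
  | add r s hr hs =>
    obtain ⟨n, r', hr⟩ := hr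
    obtain ⟨m, s', hs⟩ := hs
    refine ⟨n + m, X.x0 A ^ m * r' + X.x0 A ^ n * s', ?_⟩
    rw [map_add, map_mul, map_mul, map_pow, map_pow, CurveData.J0_x0, ← hr, ← hs]
    ring
theorem CurveData.exists_pow_mul_yA (m : X.R A) : ∃ (n : ℕ) (r : X.Ri A), X.yA A ^ n * m = X.Ji A r := by
  induction m using TensorProduct.induction_on with
  | zero => exact ⟨0, 0, by simp⟩
  | tmul a b =>
    obtain ⟨n, hn⟩ := X.loci b
    refine ⟨n, a ⊗ₜ ⟨X.y ^ n * b, hn⟩, ?_⟩
    simp [CurveData.Ji, CurveData.yA]
  | add r s hr hs =>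
    obtain ⟨n, r', hr⟩ := hr
    obtain ⟨m, s', hs⟩ := hs
    refine ⟨n + m, X.yi A ^ m * r' + X.yi A ^ n * s', ?_⟩
    rw [map_add, map_mul, map_mul, map_pow, map_pow, CurveData.Ji_yi, ← hr, ← hs]
    ring

/-- the structure sheaf -/
noncomputable def LB.one : LB X A where
  M := X.R A
  M0 := LinearMap.range (Algebra.linearMap (X.R0 A) (X.R A))
  Mi := LinearMap.range (Algebra.linearMap (X.Ri A) (X.R A))
  inv0 := .congr (LinearEquiv.ofInjective (Algebra.linearMap (X.R0 A) (X.R A)) (X.J0_injective A))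
  invi := .congr (LinearEquiv.ofInjective (Algebra.linearMap (X.Ri A) (X.R A)) (X.Ji_injective A))
  ex0 m := by
    obtain ⟨n, r, h⟩ := X.exists_pow_mul_xA A m
    exact ⟨n, r, h.symm⟩
  exi m := by
    obtain ⟨n, r, h⟩ := X.exists_pow_mul_yA A m
    exact ⟨n, r, h.symm⟩

/-- the genus -/
noncomputable def CurveData.genus : ℕ := Module.finrank k (LB.one X k).H1

end One

/-- degree `0` on all geometric fibres -/
def LB.Deg0 {X : CurveData k} {A : Type u} [CommRing A] [Algebra k A] (L : LB X A) : Prop :=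
  ∀ (K : Type u) [Field K] [IsAlgClosed K] [Algebra k K] (h : A →ₐ[k] K) (L' : LB X K),
    LB.BC h L L' → L'.chi = 1 - (X.genus : ℤ)

end Fermat.Agent.Jac
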