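import Mathlib
import Fermat.Agent.Jac.Def

/-!
# Points of the curve over algebraically closed fields
-/

set_option autoImplicit false
set_option linter.style.haveILetI false

universe u

noncomputable section

open TensorProduct

namespace Fermat.Agent.Jac

/-- Maximal ideals of `K ⊗ B` are the kernels of the points. -/
theorem exists_point_of_isMaximal {k : Type u} [Field k] {B : Type u} [CommRing B] [Algebra k B]
    [Algebra.FiniteType k B] {K : Type u} [Field K] [IsAlgClosed K] [Algebra k K]
    (m : Ideal (K ⊗[k] B)) [m.IsMaximal] :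
    ∃ P : B →ₐ[k] K, m = RingHom.ker (Algebra.TensorProduct.lift (AlgHom.id K K) P
      fun _ _ => .all _ _) := by
  letI : Field ((K ⊗[k] B) ⧸ m) := Ideal.Quotient.field m
  haveI : Algebra.FiniteType K ((K ⊗[k] B) ⧸ m) :=
    Algebra.FiniteType.trans (S := K ⊗[k] B) inferInstance
      (Algebra.FiniteType.of_surjective (Algebra.ofId (K ⊗[k] B) ((K ⊗[k] B) ⧸ m))
        Ideal.Quotient.mk_surjective)
  haveI : Module.Finite K ((K ⊗[k] B) ⧸ m) := finite_of_finite_type_of_isJacobsonRing K _
  have hbij : Function.Bijective (algebraMap K ((K ⊗[k] B) ⧸ m)) :=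
    IsAlgClosed.algebraMap_bijective_of_isIntegral
  let e : K ≃ₐ[K] ((K ⊗[k] B) ⧸ m) := AlgEquiv.ofBijective (Algebra.ofId K _) hbij
  let Q : (K ⊗[k] B) →ₐ[K] K := (e.symm : ((K ⊗[k] B) ⧸ m) →ₐ[K] K).comp
    (Ideal.Quotient.mkₐ K m)
  let P : B →ₐ[k] K := (Q.restrictScalars k).comp Algebra.TensorProduct.includeRight
  refine ⟨P, ?_⟩
  have h1 : Algebra.TensorProduct.lift (AlgHom.id K K) P (fun _ _ => .all _ _) = Q := by
    apply Algebra.TensorProduct.ext
    · ext
    · ext b
      simp [P]
  rw [h1]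
  ext r
  rw [RingHom.mem_ker]
  change r ∈ m ↔ e.symm (Ideal.Quotient.mk m r) = 0
  rw [map_eq_zero_iff _ e.symm.injective, Ideal.Quotient.eq_zero_iff_mem]

variable {k : Type u} [Field k] (X : CurveData k)

theorem finiteType_of_finite_aeval {B : Type u} [CommRing B] [Algebra k B] (x : B)
    (h : (Polynomial.aeval x : Polynomial k →ₐ[k] B).toRingHom.Finite) :
    Algebra.FiniteType k B := by
  have h1 : ((Polynomial.aeval x : Polynomial k →ₐ[k] B).toRingHom.comp
      (algebraMap k (Polynomial k))).FiniteType :=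
    (RingHom.FiniteType.of_finite h).comp
      ((RingHom.finiteType_algebraMap (A := k) (B := Polynomial k)).mpr inferInstance)
  rw [← RingHom.finiteType_algebraMap]
  convert h1 using 1
  exact (AlgHom.comp_algebraMap (Polynomial.aeval x : Polynomial k →ₐ[k] B)).symm

instance CurveData.finiteType0 : Algebra.FiniteType k X.B0 := finiteType_of_finite_aeval _ X.fin0

instance CurveData.finiteTypei : Algebra.FiniteType k X.Bi := finiteType_of_finite_aeval _ X.fini

variable {X} {K : Type u} [Field K] [IsAlgClosed K] [Algebra k K]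

theorem CurveData.exists_point0 (m : Ideal (X.R0 K)) [m.IsMaximal] :
    ∃ P : X.B0 →ₐ[k] K, m = RingHom.ker (X.ev0 P) :=
  exists_point_of_isMaximal m

theorem CurveData.exists_pointi (m : Ideal (X.Ri K)) [m.IsMaximal] :
    ∃ P : X.Bi →ₐ[k] K, m = RingHom.ker (X.evi P) :=
  exists_point_of_isMaximal m

theorem CurveData.ev0_surjective {A : Type u} [CommRing A] [Algebra k A] (σ : X.B0 →ₐ[k] A) :
    Function.Surjective (X.ev0 σ) := fun a => ⟨a ⊗ₜ 1, by simp [CurveData.ev0]⟩

theorem CurveData.evi_surjective {A : Type u} [CommRing A] [Algebra k A] (σ : X.Bi →ₐ[k] A) :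
    Function.Surjective (X.evi σ) := fun a => ⟨a ⊗ₜ 1, by simp [CurveData.evi]⟩

/-- Every nonzero ideal of `K ⊗ B0` is a product of ideals of points. -/
theorem CurveData.exists_prod0 (I : Ideal (X.R0 K)) (hI : I ≠ ⊥) :
    ∃ l : List (X.B0 →ₐ[k] K), I = (l.map fun P => RingHom.ker (X.ev0 P)).prod := by
  haveI := X.ded0 K
  classical
  have h1 : ∀ s : Multiset (Ideal (X.R0 K)), (∀ p ∈ s, Prime p) →
      ∃ l : List (X.B0 →ₐ[k] K), s.prod = (l.map fun P => RingHom.ker (X.ev0 P)).prod := by
    intro s
    induction s using Multiset.induction_on with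
    | empty => intro _; exact ⟨[], by simp⟩
    | cons p s ih =>
      intro hs
      obtain ⟨l, hl⟩ := ih fun q hq => hs q (Multiset.mem_cons_of_mem hq)
      have hp := hs p (Multiset.mem_cons_self p s)
      haveI : p.IsPrime := Ideal.isPrime_of_prime hp
      haveI : p.IsMaximal := Ring.DimensionLEOne.maximalOfPrime hp.ne_zero inferInstance
      obtain ⟨P, hP⟩ := X.exists_point0 p
      exact ⟨P :: l, by rw [Multiset.prod_cons, List.map_cons, List.prod_cons, ← hl, hP]⟩
  obtain ⟨l, hl⟩ := h1 (UniqueFactorizationMonoid.normalizedFactors I)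
    fun p hp => UniqueFactorizationMonoid.prime_of_normalized_factor p hp
  refine ⟨l, ?_⟩
  rw [← hl]
  exact (Ideal.prod_normalizedFactors_eq_self hI).symm

end Fermat.Agent.Jac
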