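import Mathlib
import Fermat.Agent.Jac.Nulls
import Fermat.Agent.Jac.Fib

/-!
# Embeddings of line bundles into `O(n)`: preliminaries
-/

set_option autoImplicit false
set_option linter.style.haveILetI false

universe u

noncomputable section

open TensorProduct

namespace Fermat.Agent.Jac

/-- A nonzero functional on an invertible module over a domain is injective. -/
theorem injective_of_ne_zero {R : Type*} [CommRing R] [IsDomain R] {M : Type*} [AddCommGroup M]
    [Module R M] [Module.Invertible R M] (φ : M →ₗ[R] R) (h : φ ≠ 0) : Function.Injective φ := by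
  obtain ⟨m', hm'⟩ : ∃ m', φ m' ≠ 0 := by
    by_contra hcon
    push Not at hcon
    exact h (LinearMap.ext hcon)
  rw [injective_iff_map_eq_zero]
  intro m hm
  have h1 : φ m • m' = φ m' • m := by
    have h2 := congrArg (TensorProduct.lid R M) (congrArg (φ.rTensor M)
      (Module.Invertible.tmul_comm (R := R) (M := M) (m₁ := m) (m₂ := m')))
    simpa using h2
  rw [hm, zero_smul] at h1
  haveI : Module.IsTorsionFree R M := inferInstance
  exact (smul_eq_zero.mp h1.symm).resolve_left hm'

/-- Finitely many maximal ideals contain a nonzero ideal of a Dedekind domain. -/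
theorem finite_maximalSpectrum_quot {R : Type*} [CommRing R] [IsDedekindDomain R] {I : Ideal R}
    (hI : I ≠ ⊥) : Finite (MaximalSpectrum (R ⧸ I)) := by
  have hfin := Ideal.finite_factors (I := I) hI
  have key : ∀ m : MaximalSpectrum (R ⧸ I), ∃ v : IsDedekindDomain.HeightOneSpectrum R,
      v.asIdeal = m.asIdeal.comap (Ideal.Quotient.mk I) ∧ v.asIdeal ∣ I := by
    intro m
    haveI := m.isMaximal
    have h1 : (m.asIdeal.comap (Ideal.Quotient.mk I)).IsMaximal :=
      Ideal.comap_isMaximal_of_surjective _ Ideal.Quotient.mk_surjective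
    have h2 : I ≤ m.asIdeal.comap (Ideal.Quotient.mk I) := by
      intro r hr
      rw [Ideal.mem_comap, Ideal.Quotient.eq_zero_iff_mem.mpr hr]
      exact zero_mem _
    have h3 : m.asIdeal.comap (Ideal.Quotient.mk I) ≠ ⊥ := fun h => hI (le_bot_iff.mp (h ▸ h2))
    exact ⟨⟨_, h1.isPrime, h3⟩, rfl, Ideal.dvd_iff_le.mpr h2⟩
  choose v hv hv' using key
  have : Finite {v : IsDedekindDomain.HeightOneSpectrum R // v.asIdeal ∣ I} := hfin
  refine Finite.of_injective (fun m => (⟨v m, hv' m⟩ :
    {v : IsDedekindDomain.HeightOneSpectrum R // v.asIdeal ∣ I})) fun m m' h => ?_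
  have h1 : v m = v m' := congrArg Subtype.val h
  have h2 := (hv m).symm.trans ((congrArg _ h1).trans (hv m'))
  have h3 := Ideal.comap_injective_of_surjective _ Ideal.Quotient.mk_surjective h2
  exact MaximalSpectrum.ext h3

variable {k : Type u} [Field k] {X : CurveData k} {K : Type u} [Field K] [Algebra k K]

theorem CurveData.yi_ne_zero : X.yi K ≠ 0 := by
  intro h
  have h1 := X.xA_yA K
  rw [← X.Ji_yi, h, map_zero, mul_zero] at h1
  haveI : IsDomain (X.Ri K) := (X.dedi K).toIsDomain
  have h2 : (1 : X.Ri K) = 0 := X.Ji_injective K (by rw [map_one, map_zero, h1])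
  exact one_ne_zero h2

theorem CurveData.yi_not_isUnit : ¬ IsUnit (X.yi K) := by
  intro h
  have h1 := h.map (X.eA K)
  have h2 : X.eA K (X.yi K) = 0 := by
    simp [CurveData.eA, CurveData.yi, X.e_y]
  rw [h2] at h1
  exact not_isUnit_zero h1

/-- A generator of the fibres of `L` above `y = 0`. -/
theorem LB.exists_gen_infty (L : LB X K) : ∃ g ∈ L.Mi, ∀ m ∈ L.Mi, ∃ (r : X.Ri K), ∃ m' ∈ L.Mi,
    m = r • g + X.yi K • m' := by
  haveI := X.dedi K
  haveI := L.invi
  haveI : Finite (MaximalSpectrum (X.Ri K ⧸ Ideal.span {X.yi K})) :=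
    finite_maximalSpectrum_quot (by
      rw [Ne, Ideal.span_singleton_eq_bot]
      exact X.yi_ne_zero)
  obtain ⟨v, hv⟩ := exists_generator_mod (B := X.Ri K) (N := L.Mi) (Ideal.span {X.yi K})
  refine ⟨v, v.2, fun m hm => ?_⟩
  obtain ⟨b, hb⟩ := hv ⟨m, hm⟩
  rw [Submodule.ideal_span_singleton_smul, Submodule.mem_smul_pointwise_iff_exists] at hb
  obtain ⟨m', -, hm'⟩ := hb
  refine ⟨b, m', m'.2, ?_⟩
  have h1 := congrArg Subtype.val hm'
  simp only [Submodule.coe_sub, Submodule.coe_smul] at h1
  rw [← sub_eq_iff_eq_add']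
  exact h1.symm

end Fermat.Agent.Jac
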