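import Fermat.Agent.Jac.Nulls
import Fermat.Agent.Jac.FactorA

set_option autoImplicit false

/-!
# Rational points of the first chart over a field and their maximal ideals
-/

universe u

open TensorProduct

namespace Fermat.Agent.Jac

theorem surjective_algebraMap_quot_ker {K S : Type*} [Field K] [CommRing S] [Algebra K S]
    (φ : S →ₐ[K] K) : Function.Surjective (algebraMap K (S ⧸ RingHom.ker φ)) := by
  intro r
  obtain ⟨r, rfl⟩ := Ideal.Quotient.mk_surjective r
  refine ⟨φ r, ?_⟩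
  rw [IsScalarTower.algebraMap_apply K S (S ⧸ RingHom.ker φ)]
  refine (Ideal.Quotient.eq.mpr ?_)
  rw [RingHom.mem_ker, map_sub, AlgHom.commutes]
  simp

/-- rational maximal ideals -/
def IsRat (K : Type*) {S : Type*} [Field K] [CommRing S] [Algebra K S] (P : Ideal S) : Prop :=
  P.IsMaximal ∧ Function.Surjective (algebraMap K (S ⧸ P))

namespace CurveData

variable {k : Type u} [Field k] (X : CurveData k)

section

variable {A : Type u} [CommRing A] [Algebra k A]

@[simp] theorem ev0_tmul (σ : X.B0 →ₐ[k] A) (a : A) (b : X.B0) : X.ev0 σ (a ⊗ₜ b) = a * σ b := by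
  simp [CurveData.ev0]

/-- the ideal of the section `σ` -/
noncomputable def ker0 (σ : X.B0 →ₐ[k] A) : Ideal (X.R0 A) := RingHom.ker (X.ev0 σ)

theorem mem_ker0 {σ : X.B0 →ₐ[k] A} {r : X.R0 A} : r ∈ X.ker0 σ ↔ X.ev0 σ r = 0 := Iff.rfl

theorem tmul_sub_mem_ker0 (σ : X.B0 →ₐ[k] A) (b : X.B0) :
    (1 : A) ⊗ₜ[k] b - (σ b) ⊗ₜ[k] (1 : X.B0) ∈ X.ker0 σ := by
  rw [mem_ker0, map_sub, ev0_tmul, ev0_tmul, map_one, mul_one, one_mul, sub_self]

theorem ker0_injective [Nontrivial A] : Function.Injective (X.ker0 (A := A)) := by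
  intro σ τ h
  ext b
  have h1 := X.tmul_sub_mem_ker0 σ b
  rw [h, mem_ker0, map_sub, ev0_tmul, ev0_tmul, map_one, mul_one, one_mul] at h1
  exact (sub_eq_zero.mp h1).symm

end

section

variable {K : Type u} [Field K] [Algebra k K]

theorem ker0_isMaximal (σ : X.B0 →ₐ[k] K) : (X.ker0 σ).IsMaximal :=
  RingHom.ker_isMaximal_of_surjective (X.ev0 σ) (X.ev0_surjective σ)

/-- rational points are rational maximal ideals -/
theorem ker0_isRat (σ : X.B0 →ₐ[k] K) : IsRat K (X.ker0 σ) :=
  ⟨X.ker0_isMaximal σ, surjective_algebraMap_quot_ker (X.ev0 σ)⟩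

end

theorem exists_sub_mem_ker0 {K : Type u} [Field K] [Algebra k K] (σ : X.B0 →ₐ[k] K)
    (b : X.R0 K) : ∃ c : K, b - algebraMap K (X.R0 K) c ∈ X.ker0 σ :=
  ⟨X.ev0 σ b, by rw [mem_ker0, map_sub, AlgHom.commutes, Algebra.algebraMap_self, RingHom.id_apply,
    sub_self]⟩

theorem ker0_ne_bot {K : Type u} [Field K] [Algebra k K] (σ : X.B0 →ₐ[k] K) :
    X.ker0 σ ≠ ⊥ := by
  intro h
  obtain ⟨c, hc⟩ := X.exists_sub_mem_ker0 σ (X.x0 K)
  rw [h, Ideal.mem_bot, sub_eq_zero] at hc
  have h1 : X.xA K = algebraMap K (X.R K) c := by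
    rw [← X.J0_x0, hc]
    exact (X.J0 K).commutes c
  have h2 := X.xA_yA K
  have hc0 : c ≠ 0 := by
    rintro rfl
    rw [h1, map_zero, zero_mul] at h2
    have : IsDomain (X.Ri K) := (X.dedi K).toIsDomain
    exact zero_ne_one ((X.Ji_injective K) (by rw [map_zero, map_one]; exact h2) : (0 : X.Ri K) = 1)
  apply X.yi_not_isUnit (K := K)
  have h4 : X.yi K = algebraMap K (X.Ri K) c⁻¹ := by
    apply X.Ji_injective K
    rw [X.Ji_yi, AlgHom.commutes]
    have h5 : algebraMap K (X.R K) c * algebraMap K (X.R K) c⁻¹ = 1 := by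
      rw [← map_mul, mul_inv_cancel₀ hc0, map_one]
    rw [h1] at h2
    calc X.yA K = (algebraMap K (X.R K) c * algebraMap K (X.R K) c⁻¹) * X.yA K := by
          rw [h5, one_mul]
      _ = (algebraMap K (X.R K) c * X.yA K) * algebraMap K (X.R K) c⁻¹ := by ring
      _ = _ := by rw [h2, one_mul]
  rw [h4]
  exact (isUnit_iff_ne_zero.2 (inv_ne_zero hc0)).map (algebraMap K (X.Ri K))

/-! ### Points over an algebraically closed base field -/

/-- there are points with given value of `x` -/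
theorem exists_point_x [IsAlgClosed k] (a : k) :
    ∃ σ : X.B0 →ₐ[k] k, σ ⟨X.x, X.x_mem⟩ = a := by
  let x0 : X.B0 := ⟨X.x, X.x_mem⟩
  let φ : Polynomial k →ₐ[k] X.B0 := Polynomial.aeval x0
  have hfin : φ.toRingHom.Finite := X.fin0
  have hinj : Function.Injective φ := by
    have h1 : Transcendental k x0 := by
      intro h
      apply X.trans
      have h2 := h.algHom X.B0.val
      exact h2
    rw [injective_iff_map_eq_zero]
    intro p hp
    by_contra h0
    exact h1 ⟨p, h0, hp⟩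
  let _ : Algebra (Polynomial k) X.B0 := φ.toRingHom.toAlgebra
  have : Module.Finite (Polynomial k) X.B0 := hfin
  have : Algebra.IsIntegral (Polynomial k) X.B0 := inferInstance
  let P : Ideal (Polynomial k) := RingHom.ker (Polynomial.aeval a : Polynomial k →ₐ[k] k)
  have hP : P.IsMaximal := RingHom.ker_isMaximal_of_surjective
    (Polynomial.aeval a : Polynomial k →ₐ[k] k) (fun c => ⟨Polynomial.C c, by simp⟩)
  obtain ⟨Q, hQ, hQP⟩ := Ideal.exists_ideal_over_maximal_of_isIntegral (S := X.B0) P (by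
    intro p hp
    have h1 : p = 0 := (injective_iff_map_eq_zero φ).1 hinj p hp
    rw [h1]
    exact zero_mem _)
  have hft : Algebra.FiniteType k X.B0 := finiteType_of_finite_aeval _ X.fin0
  have : Algebra.FiniteType k (X.B0 ⧸ Q) :=
    Algebra.FiniteType.of_surjective (Ideal.Quotient.mkₐ k Q) (Ideal.Quotient.mkₐ_surjective k Q)
  let _ : Field (X.B0 ⧸ Q) := Ideal.Quotient.field Q
  have : Module.Finite k (X.B0 ⧸ Q) := finite_of_finite_type_of_isJacobsonRing _ _
  have hbij : Function.Bijective (algebraMap k (X.B0 ⧸ Q)) :=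
    IsAlgClosed.algebraMap_bijective_of_isIntegral
  let e : k ≃ₐ[k] (X.B0 ⧸ Q) := AlgEquiv.ofBijective (Algebra.ofId k (X.B0 ⧸ Q)) hbij
  refine ⟨e.symm.toAlgHom.comp (Ideal.Quotient.mkₐ k Q), ?_⟩
  have h1 : (Polynomial.X - Polynomial.C a : Polynomial k) ∈ P := by
    rw [RingHom.mem_ker]
    simp
  rw [← hQP, Ideal.mem_comap] at h1
  have h2 : algebraMap (Polynomial k) X.B0 (Polynomial.X - Polynomial.C a)
      = x0 - algebraMap k X.B0 a := by
    change φ _ = _
    rw [map_sub, Polynomial.aeval_X, Polynomial.aeval_C]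
  rw [h2] at h1
  change e.symm (Ideal.Quotient.mk Q x0) = a
  rw [AlgEquiv.symm_apply_eq]
  have h3 : (Ideal.Quotient.mk Q x0) = Ideal.Quotient.mk Q (algebraMap k X.B0 a) :=
    Ideal.Quotient.eq.mpr h1
  rw [h3]
  rfl

/-- arbitrarily large finite families of points -/
theorem exists_points [IsAlgClosed k] (N : ℕ) :
    ∃ σ : Fin N → (X.B0 →ₐ[k] k), Function.Injective σ := by
  have : Infinite k := IsAlgClosed.instInfinite
  let a : Fin N → k := fun i => (Infinite.natEmbedding k) i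
  choose σ hσ using fun i => X.exists_point_x (a i)
  refine ⟨σ, fun i j h => ?_⟩
  have h1 : a i = a j := by rw [← hσ i, ← hσ j, h]
  exact Fin.ext ((Infinite.natEmbedding k).injective h1)

end CurveData

end Fermat.Agent.Jac
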