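import Mathlib

set_option autoImplicit false

/-!
# Invertible ideals; the ideal of the diagonal of a smooth curve; ideals of sections
-/

open scoped TensorProduct
open Module

namespace Fermat.Agent.Jac

/-! ## Invertible ideals of a domain -/

section Domain

variable {S : Type*} [CommRing S] [IsDomain S]

/-- A locally principal finitely generated ideal of a domain is invertible. -/
theorem isUnit_of_locally {I : Ideal S}
    (h : ∀ P : Ideal S, P.IsMaximal → ∃ s : S, s ∉ P ∧ ∃ a ∈ I, a ≠ 0 ∧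
      ∀ i ∈ I, s * i ∈ Ideal.span {a}) :
    IsUnit (Submodule.map (Algebra.linearMap S (FractionRing S)) I) := by
  classical
  set K := FractionRing S
  set I' : Submodule S K := Submodule.map (Algebra.linearMap S K) I with hI'
  have hle : I' * (1 / I') ≤ 1 := Submodule.mul_one_div_le_one
  let c : Ideal S := Submodule.comap (Algebra.linearMap S K) (I' * (1 / I'))
  have hc : c = ⊤ := by
    by_contra hne
    obtain ⟨P, hP, hcP⟩ := Ideal.exists_le_maximal c hne
    obtain ⟨s, hs, a, ha, ha0, hsa⟩ := h P hP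
    apply hs
    apply hcP
    change algebraMap S K s ∈ I' * (1 / I')
    have ha0' : algebraMap S K a ≠ 0 := by
      rwa [Ne, FaithfulSMul.algebraMap_eq_zero_iff]
    have h1 : algebraMap S K s = algebraMap S K a * (algebraMap S K s / algebraMap S K a) := by
      rw [← mul_div_assoc, mul_div_cancel_left₀ _ ha0']
    rw [h1]
    refine Submodule.mul_mem_mul ⟨a, ha, rfl⟩ ?_
    rw [Submodule.mem_div_iff_forall_mul_mem]
    rintro _ ⟨i, hi, rfl⟩
    obtain ⟨t, ht⟩ := Ideal.mem_span_singleton'.1 (hsa i hi)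
    rw [Submodule.mem_one]
    refine ⟨t, ?_⟩
    rw [Algebra.linearMap_apply, div_mul_eq_mul_div, eq_div_iff ha0', ← map_mul, ← map_mul, ht]
  have h1 : (1 : K) ∈ I' * (1 / I') := by
    have h2 : (1 : S) ∈ c := by rw [hc]; trivial
    have h3 : algebraMap S K 1 ∈ I' * (1 / I') := h2
    rwa [map_one] at h3
  exact IsUnit.of_mul_eq_one _ (le_antisymm hle (Submodule.one_le.2 h1))

omit [IsDomain S] in
theorem invertible_of_isUnit {I : Ideal S}
    (h : IsUnit (Submodule.map (Algebra.linearMap S (FractionRing S)) I)) :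
    Module.Invertible S I := by
  obtain ⟨u, hu⟩ := h
  have hinj : Function.Injective (Algebra.linearMap S (FractionRing S)) :=
    IsFractionRing.injective S (FractionRing S)
  let e : I ≃ₗ[S] (u : Submodule S (FractionRing S)) :=
    (Submodule.equivMapOfInjective _ hinj I).trans (LinearEquiv.ofEq _ _ hu.symm)
  exact Module.Invertible.congr e.symm

theorem invertible_of_locally {I : Ideal S}
    (h : ∀ P : Ideal S, P.IsMaximal → ∃ s : S, s ∉ P ∧ ∃ a ∈ I, a ≠ 0 ∧
      ∀ i ∈ I, s * i ∈ Ideal.span {a}) : Module.Invertible S I :=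
  invertible_of_isUnit (isUnit_of_locally h)

end Domain

/-- Nakayama: a finitely generated ideal which is locally generated by one element modulo its
square is locally principal. -/
theorem locally_of_cotangent {S : Type*} [CommRing S] {I P : Ideal S} (hfg : I.FG)
    [hP : P.IsPrime] (hIP : I ≤ P) {s a : S} (hs : s ∉ P) (ha : a ∈ I)
    (h : ∀ i ∈ I, s * i ∈ Ideal.span {a} ⊔ I ^ 2) :
    ∃ s' : S, s' ∉ P ∧ ∀ i ∈ I, s' * i ∈ Ideal.span {a} := by
  let N := I ⧸ Submodule.span S {(⟨a, ha⟩ : I)}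
  have : Module.Finite S I := Module.Finite.iff_fg.2 hfg
  let f : Module.End S N := algebraMap S (Module.End S N) s
  have hf : LinearMap.range f ≤ I • (⊤ : Submodule S N) := by
    rintro _ ⟨n, rfl⟩
    obtain ⟨⟨i, hi⟩, rfl⟩ := Submodule.Quotient.mk_surjective _ n
    obtain ⟨z, hz, w, hw, hzw⟩ := Submodule.mem_sup.1 (h i hi)
    obtain ⟨c, hc⟩ := Ideal.mem_span_singleton'.1 hz
    have hwI : w ∈ I := Ideal.pow_le_self two_ne_zero hw
    have h1 : f (Submodule.Quotient.mk ⟨i, hi⟩) =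
        (Submodule.Quotient.mk (⟨w, hwI⟩ : I) : N) := by
      change s • (Submodule.Quotient.mk (⟨i, hi⟩ : I) : N) = _
      rw [← Submodule.Quotient.mk_smul, Submodule.Quotient.eq]
      refine Submodule.mem_span_singleton.2 ⟨c, Subtype.ext ?_⟩
      change c * a = s * i - w
      rw [hc, ← hzw]; ring
    rw [h1]
    -- elements of `I ^ 2`
    have key : ∀ w : S, ∀ hw : w ∈ I ^ 2,
        (Submodule.Quotient.mk (⟨w, Ideal.pow_le_self two_ne_zero hw⟩ : I) : N) ∈
          I • (⊤ : Submodule S N) := by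
      intro w hw
      have hw' : w ∈ I * I := by rwa [← pow_two]
      refine Submodule.mul_induction_on' (C := fun w hw => ∀ hw2 : w ∈ I,
        (Submodule.Quotient.mk (⟨w, hw2⟩ : I) : N) ∈ I • (⊤ : Submodule S N)) ?_ ?_ hw' _
      · intro x hx y hy hxy
        have h2 : (Submodule.Quotient.mk (⟨x * y, hxy⟩ : I) : N) =
            x • Submodule.Quotient.mk (⟨y, hy⟩ : I) := by
          rw [← Submodule.Quotient.mk_smul]
          rfl
        rw [h2]
        exact Submodule.smul_mem_smul hx trivial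
      · intro x hx y hy hx' hy' hxy
        have hxI : x ∈ I := Ideal.mul_le_left hx
        have hyI : y ∈ I := Ideal.mul_le_left hy
        have h2 : (Submodule.Quotient.mk (⟨x + y, hxy⟩ : I) : N) =
            Submodule.Quotient.mk (⟨x, hxI⟩ : I) + Submodule.Quotient.mk (⟨y, hyI⟩ : I) := by
          rw [← Submodule.Quotient.mk_add]
          rfl
        rw [h2]
        exact Submodule.add_mem _ (hx' hxI) (hy' hyI)
    exact key w hw
  obtain ⟨p, hp, -, hcoef, hpf⟩ :=
    LinearMap.exists_monic_and_natDegree_eq_and_coeff_mem_pow_and_aeval_eq_zero S f I hf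
  refine ⟨p.eval s, ?_, ?_⟩
  · intro hmem
    apply hs
    rw [Polynomial.eval_eq_sum_range, Finset.sum_range_succ, hp.coeff_natDegree, one_mul] at hmem
    have h2 : ∑ k ∈ Finset.range p.natDegree, p.coeff k * s ^ k ∈ P := by
      refine Ideal.sum_mem _ fun k hk => Ideal.mul_mem_right _ _ ?_
      have h3 : p.natDegree - k ≠ 0 := by
        have := Finset.mem_range.1 hk
        omega
      exact hIP (Ideal.pow_le_self h3 (hcoef k))
    exact hP.mem_of_pow_mem _ ((Ideal.add_mem_iff_right _ h2).1 hmem)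
  · intro i hi
    have h2 : Polynomial.aeval f p = algebraMap S (Module.End S N) (p.eval s) := by
      rw [Polynomial.aeval_algebraMap_apply, Polynomial.coe_aeval_eq_eval]
    rw [h2] at hpf
    have h3 := LinearMap.congr_fun hpf (Submodule.Quotient.mk (⟨i, hi⟩ : I) : N)
    rw [Module.algebraMap_end_apply, LinearMap.zero_apply, ← Submodule.Quotient.mk_smul,
      Submodule.Quotient.mk_eq_zero] at h3
    obtain ⟨c, hc⟩ := Submodule.mem_span_singleton.1 h3
    have h4 := congrArg Subtype.val hc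
    exact Ideal.mem_span_singleton'.2 ⟨c, h4⟩

/-! ## The diagonal -/

section Diagonal

variable {k B0 : Type*} [Field k] [CommRing B0] [Algebra k B0]

/-- The ideal of the section `σ`. -/
def secIdeal {A : Type*} [CommRing A] [Algebra k A] (σ : B0 →ₐ[k] A) : Ideal (A ⊗[k] B0) :=
  Ideal.span (Set.range fun b : B0 => σ b ⊗ₜ[k] (1 : B0) - (1 : A) ⊗ₜ[k] b)

/-- evaluation at the section -/
noncomputable def secEval {A : Type*} [CommRing A] [Algebra k A] (σ : B0 →ₐ[k] A) :
    A ⊗[k] B0 →ₐ[A] A :=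
  Algebra.TensorProduct.lift (AlgHom.id A A) σ (fun _ _ => Commute.all _ _)

theorem secEval_tmul {A : Type*} [CommRing A] [Algebra k A] (σ : B0 →ₐ[k] A) (a : A) (b : B0) :
    secEval σ (a ⊗ₜ b) = a * σ b := by
  simp [secEval]

theorem sub_mem_secIdeal {A : Type*} [CommRing A] [Algebra k A] (σ : B0 →ₐ[k] A)
    (z : A ⊗[k] B0) : z - algebraMap A (A ⊗[k] B0) (secEval σ z) ∈ secIdeal σ := by
  induction z using TensorProduct.induction_on with
  | zero => rw [map_zero, map_zero, sub_zero]; exact zero_mem _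
  | tmul a b =>
    rw [secEval_tmul]
    have h : (a ⊗ₜ[k] b : A ⊗[k] B0) - algebraMap A (A ⊗[k] B0) (a * σ b) =
        -((a ⊗ₜ[k] (1 : B0)) * (σ b ⊗ₜ[k] (1 : B0) - (1 : A) ⊗ₜ[k] b)) := by
      rw [Algebra.TensorProduct.algebraMap_apply, mul_sub, Algebra.TensorProduct.tmul_mul_tmul,
        Algebra.TensorProduct.tmul_mul_tmul, mul_one, mul_one, one_mul]
      simp
    rw [h]
    exact neg_mem (Ideal.mul_mem_left _ _ (Ideal.subset_span ⟨b, rfl⟩))
  | add x y hx hy =>
    rw [map_add, map_add, add_sub_add_comm]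
    exact add_mem hx hy

theorem mem_secIdeal {A : Type*} [CommRing A] [Algebra k A] (σ : B0 →ₐ[k] A) (z : A ⊗[k] B0) :
    z ∈ secIdeal σ ↔ secEval σ z = 0 := by
  constructor
  · intro h
    have h1 : secIdeal σ ≤ RingHom.ker (secEval σ) := by
      rw [secIdeal, Ideal.span_le]
      rintro _ ⟨b, rfl⟩
      rw [SetLike.mem_coe, RingHom.mem_ker, map_sub, secEval_tmul, secEval_tmul, map_one]
      ring
    exact h1 h
  · intro h
    have h1 := sub_mem_secIdeal σ z
    rwa [h, map_zero, sub_zero] at h1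

/-- base change of the ideal of a section -/
theorem map_secIdeal {A A' : Type*} [CommRing A] [Algebra k A] [CommRing A'] [Algebra k A']
    (σ : B0 →ₐ[k] A) (h : A →ₐ[k] A') :
    (secIdeal σ).map (Algebra.TensorProduct.map h (AlgHom.id k B0)) = secIdeal (h.comp σ) := by
  rw [secIdeal, secIdeal, Ideal.map_span, ← Set.range_comp]
  congr 2
  ext1 b
  simp

theorem secIdeal_id : secIdeal (AlgHom.id k B0) = KaehlerDifferential.ideal k B0 := by
  rw [← KaehlerDifferential.span_range_eq_ideal, secIdeal]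
  apply le_antisymm
  · rw [Ideal.span_le]
    rintro _ ⟨b, rfl⟩
    have h : (AlgHom.id k B0 b ⊗ₜ[k] (1 : B0) - (1 : B0) ⊗ₜ[k] b : B0 ⊗[k] B0) =
        -((1 : B0) ⊗ₜ[k] b - b ⊗ₜ[k] (1 : B0)) := by
      rw [AlgHom.id_apply]; ring
    change (AlgHom.id k B0 b ⊗ₜ[k] (1 : B0) - (1 : B0) ⊗ₜ[k] b : B0 ⊗[k] B0) ∈ _
    rw [h]
    exact neg_mem (Ideal.subset_span ⟨b, rfl⟩)
  · rw [Ideal.span_le]
    rintro _ ⟨b, rfl⟩
    have h : ((1 : B0) ⊗ₜ[k] b - b ⊗ₜ[k] (1 : B0) : B0 ⊗[k] B0) =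
        -(AlgHom.id k B0 b ⊗ₜ[k] (1 : B0) - (1 : B0) ⊗ₜ[k] b) := by
      rw [AlgHom.id_apply]; ring
    change ((1 : B0) ⊗ₜ[k] b - b ⊗ₜ[k] (1 : B0) : B0 ⊗[k] B0) ∈ _
    rw [h]
    exact neg_mem (Ideal.subset_span ⟨b, rfl⟩)

/-- **The ideal of the diagonal of a smooth curve is invertible.** -/
theorem invertible_diag [IsDomain (B0 ⊗[k] B0)] [Algebra.EssFiniteType k B0]
    (hΩ : ∀ p : Ideal B0, p.IsMaximal → ∃ s : B0, s ∉ p ∧ ∃ ω : Ω[B0⁄k], ∀ η : Ω[B0⁄k],
      s • η ∈ Submodule.span B0 {ω})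
    (hne : ∃ b : B0, b ⊗ₜ[k] (1 : B0) ≠ (1 : B0) ⊗ₜ[k] b) :
    Module.Invertible (B0 ⊗[k] B0) (secIdeal (AlgHom.id k B0)) := by
  classical
  have hfg : (secIdeal (AlgHom.id k B0)).FG := by
    rw [secIdeal_id]
    exact KaehlerDifferential.ideal_fg k B0
  obtain ⟨b, hb⟩ := hne
  have hbI : b ⊗ₜ[k] (1 : B0) - (1 : B0) ⊗ₜ[k] b ∈ secIdeal (AlgHom.id k B0) :=
    Ideal.subset_span ⟨b, rfl⟩
  refine invertible_of_locally fun P hP => ?_
  by_cases hIP : secIdeal (AlgHom.id k B0) ≤ P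
  · let p : Ideal B0 := P.comap (algebraMap B0 (B0 ⊗[k] B0))
    have hp : p.IsPrime := Ideal.comap_isPrime _ _
    obtain ⟨m, hm, hpm⟩ := Ideal.exists_le_maximal p hp.ne_top
    obtain ⟨s, hs, ω, hω⟩ := hΩ m hm
    obtain ⟨⟨a, ha⟩, haω⟩ := KaehlerDifferential.fromIdeal_surjective k B0 ω
    have hsP : algebraMap B0 (B0 ⊗[k] B0) s ∉ P := fun h => hs (hpm h)
    have haI : a ∈ secIdeal (AlgHom.id k B0) := by rw [secIdeal_id]; exact ha
    obtain ⟨s', hs', hs'I⟩ := locally_of_cotangent (P := P) hfg hIP hsP haI (by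
      intro i hi
      rw [secIdeal_id] at hi ⊢
      obtain ⟨c, hc⟩ := Submodule.mem_span_singleton.1
        (hω (KaehlerDifferential.fromIdeal k B0 ⟨i, hi⟩))
      have h1 : KaehlerDifferential.fromIdeal k B0
          (algebraMap B0 (B0 ⊗[k] B0) s • ⟨i, hi⟩ - algebraMap B0 (B0 ⊗[k] B0) c • ⟨a, ha⟩) = 0 := by
        rw [map_sub, map_smul, map_smul, haω, algebraMap_smul, algebraMap_smul, hc, sub_self]
      have h2 := (Ideal.toCotangent_eq_zero _ _).1 h1
      refine Submodule.mem_sup.2 ⟨algebraMap B0 (B0 ⊗[k] B0) c * a,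
        Ideal.mem_span_singleton'.2 ⟨_, rfl⟩, _, h2, ?_⟩
      change algebraMap B0 (B0 ⊗[k] B0) c * a + (algebraMap B0 (B0 ⊗[k] B0) s * i -
        algebraMap B0 (B0 ⊗[k] B0) c * a) = _
      ring)
    refine ⟨s', hs', a, haI, ?_, hs'I⟩
    rintro rfl
    have h3 := hs'I _ hbI
    rw [Ideal.span_singleton_eq_bot.2 rfl, Ideal.mem_bot] at h3
    rcases mul_eq_zero.1 h3 with h4 | h4
    · exact hs' (h4 ▸ P.zero_mem)
    · exact hb (sub_eq_zero.1 h4)
  · obtain ⟨a, ha, haP⟩ := SetLike.not_le_iff_exists.1 hIP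
    exact ⟨a, haP, a, ha, fun h => haP (h ▸ P.zero_mem), fun i _ =>
      Ideal.mem_span_singleton'.2 ⟨i, mul_comm _ _⟩⟩

/-- the ideal of the diagonal as a kernel -/
theorem invertible_ker_lmul' [IsDomain (B0 ⊗[k] B0)] [Algebra.EssFiniteType k B0]
    (hΩ : ∀ p : Ideal B0, p.IsMaximal → ∃ s : B0, s ∉ p ∧ ∃ ω : Ω[B0⁄k], ∀ η : Ω[B0⁄k],
      s • η ∈ Submodule.span B0 {ω})
    (hne : ∃ b : B0, b ⊗ₜ[k] (1 : B0) ≠ (1 : B0) ⊗ₜ[k] b) :
    Module.Invertible (B0 ⊗[k] B0) (RingHom.ker (Algebra.TensorProduct.lmul' k (S := B0))) := by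
  have h := invertible_diag hΩ hne
  rwa [secIdeal_id] at h

end Diagonal

end Fermat.Agent.Jac
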