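import Fermat.Agent.Jac.TwistEff
import Fermat.Agent.Jac.Diag

set_option autoImplicit false

/-!
# The line bundles `O(-P)` of sections
-/

universe u

open scoped TensorProduct
open Polynomial

namespace Fermat.Agent.Jac

/-- an element of an invertible ideal generates a multiple of it -/
theorem exists_mul_eq_span {S : Type*} [CommRing S] (I : Ideal S) [Module.Invertible S I] {f : S}
    (hf : f ∈ I) : ∃ I' : Ideal S, I * I' = Ideal.span {f} := by
  have hsw : ∀ (φ : Module.Dual S I) (a b : I), (a : S) * φ b = (b : S) * φ a := fun φ a b => by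
    rw [← smul_eq_mul, ← smul_eq_mul, ← map_smul, ← map_smul]
    congr 1
    exact Subtype.ext (mul_comm _ _)
  let I' : Ideal S := LinearMap.range
    (LinearMap.applyₗ (⟨f, hf⟩ : I) : Module.Dual S I →ₗ[S] S)
  refine ⟨I', le_antisymm ?_ ?_⟩
  · rw [Ideal.mul_le]
    rintro a ha _ ⟨φ, rfl⟩
    rw [Ideal.mem_span_singleton']
    refine ⟨φ ⟨a, ha⟩, ?_⟩
    change _ = a * φ ⟨f, hf⟩
    rw [hsw φ ⟨a, ha⟩ ⟨f, hf⟩, mul_comm]
  · rw [Ideal.span_singleton_le_iff_mem]
    have hsurj : Function.Surjective (contractLeft S I) :=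
      (Module.Invertible.bijective (R := S) (M := I)).2
    obtain ⟨z, hz⟩ := hsurj 1
    have key : ∀ z : Module.Dual S I ⊗[S] I, f * contractLeft S I z ∈ I * I' := by
      intro z
      induction z using TensorProduct.induction_on with
      | zero => rw [map_zero, mul_zero]; exact zero_mem _
      | tmul φ a =>
        rw [contractLeft_apply, ← hsw φ a ⟨f, hf⟩]
        exact Ideal.mul_mem_mul a.2 ⟨φ, rfl⟩
      | add a b ha hb => rw [map_add, mul_add]; exact add_mem ha hb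
    have h1 := key z
    rwa [hz, mul_one] at h1

variable {k : Type u} [Field k] {X : CurveData k}

section

variable {A : Type u} [CommRing A] [Algebra k A] {A' : Type u} [CommRing A'] [Algebra k A']

theorem secIdeal_id_eq_ker {B0 : Type*} [CommRing B0] [Algebra k B0] :
    secIdeal (AlgHom.id k B0) = RingHom.ker (Algebra.TensorProduct.lmul' k (S := B0)) := by
  ext z
  rw [mem_secIdeal, RingHom.mem_ker]
  have h1 : secEval (AlgHom.id k B0) z = Algebra.TensorProduct.lmul' k z := by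
    induction z using TensorProduct.induction_on with
    | zero => rw [map_zero, map_zero]
    | tmul a b => rw [secEval_tmul, Algebra.TensorProduct.lmul'_apply_tmul]; rfl
    | add a b ha hb => rw [map_add, map_add, ha, hb]
  rw [h1]

theorem tmul_sub_mem_secIdeal {B0 : Type*} [CommRing B0] [Algebra k B0] {A : Type*} [CommRing A]
    [Algebra k A] (σ : B0 →ₐ[k] A) (b : B0) :
    (1 : A) ⊗ₜ[k] b - σ b ⊗ₜ[k] (1 : B0) ∈ secIdeal σ := by
  rw [mem_secIdeal, map_sub, secEval_tmul, secEval_tmul, map_one, mul_one, one_mul, sub_self]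

theorem isEff0_secIdeal_id : IsEff0 (X := X) (A := X.B0) (secIdeal (AlgHom.id k X.B0)) := by
  have h0 : Module.Invertible (X.B0 ⊗[k] X.B0) (secIdeal (AlgHom.id k X.B0)) := by
    rw [secIdeal_id_eq_ker]
    exact X.diag0
  obtain ⟨I', h1⟩ := exists_mul_eq_span (secIdeal (AlgHom.id k X.B0))
    (tmul_sub_mem_secIdeal (AlgHom.id k X.B0) (⟨X.x, X.x_mem⟩ : X.B0))
  refine ⟨I', Polynomial.X - C (⟨X.x, X.x_mem⟩ : X.B0), monic_X_sub_C _, ?_⟩
  rw [map_sub, aeval_X, aeval_C]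
  exact h1
theorem isEffi_secIdeal_id : IsEffi (X := X) (A := X.Bi) (secIdeal (AlgHom.id k X.Bi)) := by
  have h0 : Module.Invertible (X.Bi ⊗[k] X.Bi) (secIdeal (AlgHom.id k X.Bi)) := by
    rw [secIdeal_id_eq_ker]
    exact X.diagi
  obtain ⟨I', h1⟩ := exists_mul_eq_span (secIdeal (AlgHom.id k X.Bi))
    (tmul_sub_mem_secIdeal (AlgHom.id k X.Bi) (⟨X.y, X.y_mem⟩ : X.Bi))
  refine ⟨I', Polynomial.X - C (⟨X.y, X.y_mem⟩ : X.Bi), monic_X_sub_C _, ?_⟩
  rw [map_sub, aeval_X, aeval_C]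
  exact h1

theorem map_b0_secIdeal (σ : X.B0 →ₐ[k] A) (h : A →ₐ[k] A') :
    (secIdeal σ).map (X.b0 h) = secIdeal (h.comp σ) := map_secIdeal σ h
theorem map_bi_secIdeal (σ : X.Bi →ₐ[k] A) (h : A →ₐ[k] A') :
    (secIdeal σ).map (X.bi h) = secIdeal (h.comp σ) := map_secIdeal σ h

/-- the ideal of a section in `V₀` -/
theorem isEff0_secIdeal (σ : X.B0 →ₐ[k] A) : IsEff0 (X := X) (secIdeal σ) := by
  have h1 := (isEff0_secIdeal_id (X := X)).map σ
  rw [map_b0_secIdeal] at h1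
  exact h1
/-- the ideal of a section in `V∞` -/
theorem isEffi_secIdeal (σ : X.Bi →ₐ[k] A) : IsEffi (X := X) (secIdeal σ) := by
  have h1 := (isEffi_secIdeal_id (X := X)).map σ
  rw [map_bi_secIdeal] at h1
  exact h1

theorem secIdeal_eq_ker0 (σ : X.B0 →ₐ[k] A) : secIdeal σ = RingHom.ker (X.ev0 σ) := by
  ext z
  rw [mem_secIdeal]
  rfl
theorem secIdeal_eq_keri (σ : X.Bi →ₐ[k] A) : secIdeal σ = RingHom.ker (X.evi σ) := by
  ext z
  rw [mem_secIdeal]
  rfl

theorem isEff0_ker (σ : X.B0 →ₐ[k] A) : IsEff0 (RingHom.ker (X.ev0 σ)) := by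
  rw [← secIdeal_eq_ker0]
  exact isEff0_secIdeal σ
theorem isEffi_ker (σ : X.Bi →ₐ[k] A) : IsEffi (RingHom.ker (X.evi σ)) := by
  rw [← secIdeal_eq_keri]
  exact isEffi_secIdeal σ

/-- `O(-P)` for a section `P` in `V₀` -/
noncomputable def LB.minus0 (σ : X.B0 →ₐ[k] A) : LB X A :=
  LB.eff0 (RingHom.ker (X.ev0 σ)) (isEff0_ker σ)
/-- `O(-P)` for a section `P` in `V∞` -/
noncomputable def LB.minusi (σ : X.Bi →ₐ[k] A) : LB X A :=
  LB.effi (RingHom.ker (X.evi σ)) (isEffi_ker σ)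

theorem LB.eff0_congr {I J : Ideal (X.R0 A)} (hI : IsEff0 I) (hJ : IsEff0 J) (h : I = J) :
    LB.eff0 I hI = LB.eff0 J hJ := by
  subst h
  rfl
theorem LB.effi_congr {I J : Ideal (X.Ri A)} (hI : IsEffi I) (hJ : IsEffi J) (h : I = J) :
    LB.effi I hI = LB.effi J hJ := by
  subst h
  rfl

theorem map_ker_ev0 (σ : X.B0 →ₐ[k] A) (h : A →ₐ[k] A') :
    (RingHom.ker (X.ev0 σ)).map (X.b0 h) = RingHom.ker (X.ev0 (h.comp σ)) := by
  rw [← secIdeal_eq_ker0, ← secIdeal_eq_ker0]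
  exact map_b0_secIdeal σ h
theorem map_ker_evi (σ : X.Bi →ₐ[k] A) (h : A →ₐ[k] A') :
    (RingHom.ker (X.evi σ)).map (X.bi h) = RingHom.ker (X.evi (h.comp σ)) := by
  rw [← secIdeal_eq_keri, ← secIdeal_eq_keri]
  exact map_bi_secIdeal σ h

/-- base change of `O(-P)` -/
theorem LB.minus0_bc (σ : X.B0 →ₐ[k] A) (h : A →ₐ[k] A') :
    LB.BC h (LB.minus0 σ) (LB.minus0 (h.comp σ)) := by
  have h1 := LB.eff0_bc (isEff0_ker σ) h
  rwa [LB.eff0_congr _ (isEff0_ker (h.comp σ)) (map_ker_ev0 σ h)] at h1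
/-- base change of `O(-P)` -/
theorem LB.minusi_bc (σ : X.Bi →ₐ[k] A) (h : A →ₐ[k] A') :
    LB.BC h (LB.minusi σ) (LB.minusi (h.comp σ)) := by
  have h1 := LB.effi_bc (isEffi_ker σ) h
  rwa [LB.effi_congr _ (isEffi_ker (h.comp σ)) (map_ker_evi σ h)] at h1

theorem secEval_J0 (ρ : X.B →ₐ[k] A) (r : X.R0 A) :
    secEval ρ (X.J0 A r) = X.ev0 (ρ.comp X.B0.val) r := by
  induction r using TensorProduct.induction_on with
  | zero => rw [map_zero, map_zero, map_zero]
  | tmul a b => simp [secEval_tmul, CurveData.J0, CurveData.ev0]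
  | add a b ha hb => rw [map_add, map_add, map_add, ha, hb]
theorem secEval_Ji (ρ : X.B →ₐ[k] A) (r : X.Ri A) :
    secEval ρ (X.Ji A r) = X.evi (ρ.comp X.Bi.val) r := by
  induction r using TensorProduct.induction_on with
  | zero => rw [map_zero, map_zero, map_zero]
  | tmul a b => simp [secEval_tmul, CurveData.Ji, CurveData.evi]
  | add a b ha hb => rw [map_add, map_add, map_add, ha, hb]

/-- the ideal of a section in the overlap -/
theorem map_J0_ker (ρ : X.B →ₐ[k] A) :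
    (RingHom.ker (X.ev0 (ρ.comp X.B0.val))).map (algebraMap (X.R0 A) (X.R A)) = secIdeal ρ := by
  apply le_antisymm
  · rw [Ideal.map_le_iff_le_comap]
    intro r hr
    rw [Ideal.mem_comap, mem_secIdeal]
    exact (secEval_J0 ρ r).trans hr
  · intro z hz
    rw [mem_secIdeal] at hz
    obtain ⟨n, r, hr⟩ := (X.glue A).loc0 z
    apply (X.glue A).mem_map0_of_pow (n := n)
    rw [hr]
    apply Ideal.mem_map_of_mem
    rw [RingHom.mem_ker, ← secEval_J0]
    change secEval ρ (algebraMap (X.R0 A) (X.R A) r) = 0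
    rw [← hr, map_mul, hz, mul_zero]
theorem map_Ji_ker (ρ : X.B →ₐ[k] A) :
    (RingHom.ker (X.evi (ρ.comp X.Bi.val))).map (algebraMap (X.Ri A) (X.R A)) = secIdeal ρ := by
  apply le_antisymm
  · rw [Ideal.map_le_iff_le_comap]
    intro r hr
    rw [Ideal.mem_comap, mem_secIdeal]
    exact (secEval_Ji ρ r).trans hr
  · intro z hz
    rw [mem_secIdeal] at hz
    obtain ⟨n, r, hr⟩ := (X.glue A).loci z
    apply (X.glue A).symm.mem_map0_of_pow (n := n)
    rw [hr]
    apply Ideal.mem_map_of_mem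
    rw [RingHom.mem_ker, ← secEval_Ji]
    change secEval ρ (algebraMap (X.Ri A) (X.R A) r) = 0
    rw [← hr, map_mul, hz, mul_zero]

theorem other0_ker (ρ : X.B →ₐ[k] A) :
    X.other0 (RingHom.ker (X.ev0 (ρ.comp X.B0.val))) =
      RingHom.ker (X.evi (ρ.comp X.Bi.val)) := by
  ext s
  rw [mem_other0, map_J0_ker, mem_secIdeal, secEval_Ji, RingHom.mem_ker]
theorem otheri_ker (ρ : X.B →ₐ[k] A) :
    X.otheri (RingHom.ker (X.evi (ρ.comp X.Bi.val))) =
      RingHom.ker (X.ev0 (ρ.comp X.B0.val)) := by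
  ext s
  rw [mem_otheri, map_Ji_ker, mem_secIdeal, secEval_J0, RingHom.mem_ker]

/-- the two definitions of `O(-P)` agree on the overlap -/
theorem LB.minus0_eq_minusi (ρ : X.B →ₐ[k] A) :
    LB.minus0 (X := X) (ρ.comp X.B0.val) = LB.minusi (X := X) (ρ.comp X.Bi.val) :=
  LB.div_congr (isEff0_ker (ρ.comp X.B0.val)).isDiv (isEffi_ker (ρ.comp X.Bi.val)).isDiv
    (otheri_ker ρ).symm (other0_ker ρ)

end

end Fermat.Agent.Jac
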