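import Fermat.Agent.Jac.ChiTw
import Fermat.Agent.Jac.TwistSec
import Fermat.Agent.Jac.FibPts
import Fermat.Agent.Jac.FibC4

/-!
# The bundles of effective divisors and `O(n)` as pairs of fractional ideals
-/

set_option autoImplicit false

universe u

namespace Fermat.Agent.Jac

open TensorProduct Module

variable {k : Type u} [Field k] {X : CurveData k} {K : Type u} [Field K] [Algebra k K]

/-- the bundle `O(-D)` of an effective divisor in `V₀` as a pair of fractional ideals -/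
theorem Emb.eff0 {I : Ideal (X.R0 K)} (hI : IsEff0 I) (h0 : I ≠ ⊥) :
    Emb (LB.eff0 I hI) (Pr.J (X.fc K) I h0) := by
  let J : Ideal (X.R K) := I.map (algebraMap (X.R0 K) (X.R K))
  let ι : J →ₗ[X.R K] X.FF K := (Algebra.linearMap (X.R K) (X.FF K)).comp (Submodule.subtype J)
  have hι : ∀ m : J, ι m = algebraMap (X.R K) (X.FF K) (m : X.R K) := fun m => rfl
  refine ⟨ι, fun a b h => Subtype.ext (X.injF K h), fun f => ?_, fun f => ?_⟩
  · change f ∈ (I : FractionalIdeal (nonZeroDivisors (X.R0 K)) (X.FF K)) ↔ _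
    rw [FractionalIdeal.mem_coeIdeal]
    constructor
    · rintro ⟨s, hs, rfl⟩
      refine ⟨⟨X.J0 K s, Ideal.mem_map_of_mem _ hs⟩, ⟨s, hs, rfl⟩, ?_⟩
      rw [X.algebraMapF0]
      rfl
    · rintro ⟨m, ⟨s, hs, hm⟩, rfl⟩
      refine ⟨s, hs, ?_⟩
      rw [X.algebraMapF0]
      exact congrArg (algebraMap (X.R K) (X.FF K)) hm
  · change f ∈ (Pr.cli (X.fc K) I : FractionalIdeal (nonZeroDivisors (X.Ri K)) (X.FF K)) ↔ _
    rw [FractionalIdeal.mem_coeIdeal]
    have key : ∀ b : X.Ri K, b ∈ Pr.cli (X.fc K) I ↔ b ∈ X.other0 I := by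
      intro b
      rw [Pr.mem_cli, mem_other0]
      constructor
      · rintro ⟨n, hn⟩
        obtain ⟨s, hs, hsn⟩ := (FractionalIdeal.mem_coeIdeal _).1 hn
        have h1 : X.xA K ^ n * X.Ji K b = X.J0 K s := by
          apply X.injF K
          rw [← X.algebraMapF0, hsn, map_mul, map_pow, X.algebraMapFi]
          rfl
        have h2 : X.xA K ^ n * X.Ji K b ∈ I.map (algebraMap (X.R0 K) (X.R K)) := by
          rw [h1]
          exact Ideal.mem_map_of_mem _ hs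
        have h3 := Ideal.mul_mem_left _ (X.yA K ^ n) h2
        rwa [← mul_assoc, ← mul_pow, mul_comm (X.yA K), X.xA_yA, one_pow, one_mul] at h3
      · intro hb
        obtain ⟨n, s, hs, hn⟩ := (X.glue K).exists_of_mem_map0 hb
        refine ⟨n, (FractionalIdeal.mem_coeIdeal _).2 ⟨s, hs, ?_⟩⟩
        rw [X.algebraMapF0]
        have h1 : X.xA K ^ n * X.Ji K b = X.J0 K s := by
          have h2 : X.J0 K (X.x0 K) ^ n * X.Ji K b = X.J0 K s := hn
          rwa [X.J0_x0] at h2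
        rw [← h1, map_mul, map_pow, X.algebraMapFi]
        rfl
    constructor
    · rintro ⟨b, hb, rfl⟩
      have hb' := (key b).1 hb
      refine ⟨⟨X.Ji K b, hb'⟩, ⟨b, hb', rfl⟩, ?_⟩
      rw [X.algebraMapFi]
      rfl
    · rintro ⟨m, ⟨b, hb, hm⟩, rfl⟩
      refine ⟨b, (key b).2 hb, ?_⟩
      rw [X.algebraMapFi]
      exact congrArg (algebraMap (X.R K) (X.FF K)) hm

/-- the Euler characteristic of the ideal sheaf of a rational point -/
theorem LB.chi_eff0_ker0 (σ : X.B0 →ₐ[k] K) (h : IsEff0 (X.ker0 σ)) :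
    (LB.eff0 (X.ker0 σ) h).chi = -(X.genus : ℤ) :=
  Emb.chi_J (X.ker0_ne_bot σ) (Emb.eff0 h (X.ker0_ne_bot σ)) (X.ker0_isMaximal σ)
    (X.exists_sub_mem_ker0 σ)

/-- the Euler characteristic of the ideal sheaf of a rational point -/
theorem LB.chi_eff0_ker (σ : X.B0 →ₐ[k] K) (h : IsEff0 (RingHom.ker (X.ev0 σ))) :
    (LB.eff0 (RingHom.ker (X.ev0 σ)) h).chi = -(X.genus : ℤ) :=
  LB.chi_eff0_ker0 σ h

/-- the Euler characteristic of the ideal sheaf of a rational point -/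
theorem LB.chi_minus0 (σ : X.B0 →ₐ[k] K) : (LB.minus0 σ).chi = -(X.genus : ℤ) :=
  LB.chi_eff0_ker σ _

/-- the ideal sheaf of a rational point as a pair of fractional ideals -/
theorem Emb.minus0 (σ : X.B0 →ₐ[k] K) :
    Emb (LB.minus0 σ) (Pr.J (X.fc K) (X.ker0 σ) (X.ker0_ne_bot σ)) :=
  Emb.eff0 (I := X.ker0 σ) _ (X.ker0_ne_bot σ)

/-- `O(n)` as a pair of fractional ideals -/
theorem Emb.O (n : ℕ) : Emb (LB.O X K n) (Pr.tw (X.fc K) n) := by
  have hu : (((X.uA K) ^ (n : ℤ) : (X.R K)ˣ) : X.R K) = X.xA K ^ n := by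
    rw [zpow_natCast, Units.val_pow_eq_pow_val, X.val_uA]
  refine ⟨Algebra.linearMap (X.R K) (X.FF K), X.injF K, fun f => ?_, fun f => ?_⟩
  · change f ∈ (1 : FractionalIdeal (nonZeroDivisors (X.R0 K)) (X.FF K)) ↔ _
    rw [FractionalIdeal.mem_one_iff]
    constructor
    · rintro ⟨r, hr⟩
      exact ⟨X.J0 K r, ⟨r, rfl⟩, by rw [← hr, X.algebraMapF0]; rfl⟩
    · rintro ⟨_, ⟨r, rfl⟩, hr⟩
      exact ⟨r, by rw [← hr, X.algebraMapF0]; rfl⟩
  · change f ∈ FractionalIdeal.spanSingleton (nonZeroDivisors (X.Ri K)) (X.xF K ^ n) ↔ _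
    rw [FractionalIdeal.mem_spanSingleton]
    have key : ∀ r : X.Ri K, algebraMap (X.Ri K) (X.FF K) r * X.xF K ^ n =
        algebraMap (X.R K) (X.FF K)
        ((((X.uA K) ^ (n : ℤ) : (X.R K)ˣ) : X.R K) * X.Ji K r) := by
      intro r
      rw [X.algebraMapFi, hu, map_mul, map_pow, mul_comm]
      rfl
    constructor
    · rintro ⟨r, rfl⟩
      exact ⟨_, ⟨r, rfl⟩, ((Algebra.smul_def _ _).trans (key r)).symm⟩
    · rintro ⟨_, ⟨r, rfl⟩, rfl⟩
      exact ⟨r, (Algebra.smul_def _ _).trans (key r)⟩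

end Fermat.Agent.Jac
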