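import Fermat.Agent.Jac.FibEmb
import Fermat.Agent.Jac.LBCoh
import Fermat.Agent.Jac.TwO
import Fermat.Agent.Jac.Basic

set_option autoImplicit false
set_option linter.all false

/-! Every pair of fractional ideals is a line bundle; the Euler characteristic of the structure
sheaf; twists. -/

universe u

open TensorProduct nonZeroDivisors

namespace Fermat.Agent.Jac

variable {k : Type u} [Field k] {X : CurveData k} {K : Type u} [Field K] [Algebra k K]

/-- nonzero fractional ideals of a Dedekind domain are invertible modules -/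
theorem invertible_fractionalIdeal {R F : Type u} [CommRing R] [IsDedekindDomain R] [Field F]
    [Algebra R F] [IsFractionRing R F] (I : FractionalIdeal R⁰ F) (hI : I ≠ 0) :
    Module.Invertible R (I : Submodule R F) := by
  have h1 : (I : Submodule R F) * ((I⁻¹ : FractionalIdeal R⁰ F) : Submodule R F) = 1 := by
    rw [← FractionalIdeal.coe_mul, mul_inv_cancel₀ hI, FractionalIdeal.coe_one]
  have h2 : ((I⁻¹ : FractionalIdeal R⁰ F) : Submodule R F) * (I : Submodule R F) = 1 := by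
    rw [mul_comm]; exact h1
  let u : (Submodule R F)ˣ := ⟨(I : Submodule R F), _, h1, h2⟩
  exact Module.Invertible.left (Submodule.tensorInvEquiv u)

/-- sections of a pair over the overlap -/
noncomputable def Pr.toM (P : Pr (X.fc K)) : Submodule (X.R K) (X.FF K) where
  carrier := {f | ∃ n : ℕ, X.xF K ^ n * f ∈ P.I0}
  zero_mem' := ⟨0, by rw [mul_zero]; exact P.I0.1.zero_mem⟩
  add_mem' := by
    rintro a b ⟨n, hn⟩ ⟨m, hm⟩
    refine ⟨n + m, ?_⟩
    have h1 := Pr.x_mem_mono (X.fc K) (Nat.le_add_right n m) hn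
    have h2 := Pr.x_mem_mono (X.fc K) (Nat.le_add_left m n) hm
    rw [mul_add]
    exact P.I0.1.add_mem h1 h2
  smul_mem' := by
    rintro r f ⟨n, hn⟩
    obtain ⟨q, r', hr'⟩ := X.exists_pow_mul_xA K r
    refine ⟨q + n, ?_⟩
    have h1 : X.xF K ^ (q + n) * (r • f) =
        algebraMap (X.R0 K) (X.FF K) r' * (X.xF K ^ n * f) := by
      rw [Algebra.smul_def, X.algebraMapF0, ← hr', map_mul, map_pow]
      change _ = X.xF K ^ q * _ * _
      ring
    rw [h1, ← Algebra.smul_def]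
    exact P.I0.1.smul_mem _ hn

theorem Pr.mem_toM {P : Pr (X.fc K)} {f : X.FF K} : f ∈ P.toM ↔ ∃ n : ℕ, X.xF K ^ n * f ∈ P.I0 :=
  Iff.rfl
theorem Pr.mem_toM' {P : Pr (X.fc K)} {f : X.FF K} :
    f ∈ P.toM ↔ ∃ n : ℕ, (X.xF K)⁻¹ ^ n * f ∈ P.Ii := P.glue f

theorem Pr.le_toM0 (P : Pr (X.fc K)) {f : X.FF K} (hf : f ∈ P.I0) : f ∈ P.toM :=
  ⟨0, by rwa [pow_zero, one_mul]⟩
theorem Pr.le_toMi (P : Pr (X.fc K)) {f : X.FF K} (hf : f ∈ P.Ii) : f ∈ P.toM :=
  Pr.mem_toM'.mpr ⟨0, by rwa [pow_zero, one_mul]⟩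

/-- the line bundle of a pair -/
noncomputable def Pr.toLB (P : Pr (X.fc K)) : LB X K where
  M := P.toM
  M0 := (P.I0 : Submodule (X.R0 K) (X.FF K)).comap (P.toM.subtype.restrictScalars (X.R0 K))
  Mi := (P.Ii : Submodule (X.Ri K) (X.FF K)).comap (P.toM.subtype.restrictScalars (X.Ri K))
  inv0 := by
    haveI := invertible_fractionalIdeal P.I0 P.ne0
    refine Module.Invertible.congr (M := (P.I0 : Submodule (X.R0 K) (X.FF K)))
      { toFun := fun f => ⟨⟨f.1, P.le_toM0 f.2⟩, f.2⟩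
        invFun := fun m => ⟨m.1.1, m.2⟩
        map_add' := fun a b => rfl
        map_smul' := fun a b => rfl
        left_inv := fun a => rfl
        right_inv := fun a => rfl }
  invi := by
    haveI := invertible_fractionalIdeal P.Ii P.nei
    refine Module.Invertible.congr (M := (P.Ii : Submodule (X.Ri K) (X.FF K)))
      { toFun := fun f => ⟨⟨f.1, P.le_toMi f.2⟩, f.2⟩
        invFun := fun m => ⟨m.1.1, m.2⟩
        map_add' := fun a b => rfl
        map_smul' := fun a b => rfl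
        left_inv := fun a => rfl
        right_inv := fun a => rfl }
  ex0 m := by
    obtain ⟨n, hn⟩ := Pr.mem_toM.mp m.2
    refine ⟨n, ?_⟩
    change ((X.xA K ^ n • m : P.toM) : X.FF K) ∈ P.I0
    rw [Submodule.coe_smul, Algebra.smul_def, map_pow]
    exact hn
  exi m := by
    obtain ⟨n, hn⟩ := Pr.mem_toM'.mp m.2
    refine ⟨n, ?_⟩
    change ((X.yA K ^ n • m : P.toM) : X.FF K) ∈ P.Ii
    rw [Submodule.coe_smul, Algebra.smul_def, map_pow, ← X.xF_inv]
    exact hn

theorem Emb.toLB (P : Pr (X.fc K)) : Emb P.toLB P := by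
  refine ⟨P.toM.subtype, Subtype.val_injective, fun f => ?_, fun f => ?_⟩
  · exact ⟨fun h => ⟨⟨f, P.le_toM0 h⟩, h, rfl⟩, by rintro ⟨m, hm, rfl⟩; exact hm⟩
  · exact ⟨fun h => ⟨⟨f, P.le_toMi h⟩, h, rfl⟩, by rintro ⟨m, hm, rfl⟩; exact hm⟩

theorem Emb.exists_lb (P : Pr (X.fc K)) : ∃ L : LB X K, Emb L P := ⟨_, Emb.toLB P⟩

/-- the cohomology is finite-dimensional -/
theorem Emb.fin' {L : LB X K} {P : Pr (X.fc K)} (h : Emb L P) : P.Fin := by
  haveI := L.finite_H0
  haveI := L.finite_H1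
  exact h.fin

theorem Pr.fin_all (P : Pr (X.fc K)) : P.Fin := (Emb.toLB P).fin'

theorem Pr.chi_one_eq : (Pr.one : Pr (X.fc K)).chi = 1 - (X.genus : ℤ) := by
  rw [← (Emb.one (X := X) (K := K)).chi_eq]
  have h1 : LB.BC (Algebra.ofId k K) (LB.one X k) (LB.one X K) := by
    have := LB.O_bc (X := X) (Algebra.ofId k K) 0
    rwa [LB.O_zero, LB.O_zero] at this
  rw [chiBCStmt X (Algebra.ofId k K) _ _ h1]
  have h2 : Module.finrank k (LB.one X k).H0 = 1 := by
    rw [LB.H0_one]
    exact (LinearMap.finrank_range_of_inj (f := Algebra.linearMap k (X.R k))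
      (FaithfulSMul.algebraMap_injective k (X.R k))).trans (Module.finrank_self k)
  unfold LB.chi CurveData.genus
  rw [h2]
  rfl

end Fermat.Agent.Jac
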