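import Fermat.Agent.Jac.FibCover
import Fermat.Agent.Jac.FibOne
import Fermat.Agent.Jac.EmbEff
import Fermat.Agent.Jac.BasicPts

set_option autoImplicit false

/-!
# The covering lemma: main statement
-/

universe u

open TensorProduct nonZeroDivisors

namespace Fermat.Agent.Jac

variable {k : Type u} [Field k]

/-- **The covering lemma**: finitely many twists make all pairs of bundles of degree `0`
acyclic. -/
theorem exists_cover [IsAlgClosed k] (X : CurveData k) :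
    ∃ (I : Type u) (_ : Finite I) (𝒩 : I → LB X k),
      ∀ {K : Type u} [Field K] [IsAlgClosed K] [Algebra k K] (L L' : LB X K),
        L.chi = 1 - (X.genus : ℤ) → L'.chi = 1 - (X.genus : ℤ) →
        ∃ i, (∀ N, (clPkg X).Tw (𝒩 i) L N → IsCompl N.A0 N.Ai) ∧
          ∀ N, (clPkg X).Tw (𝒩 i) L' N → IsCompl N.A0 N.Ai := by
  obtain ⟨n, hn⟩ : ∃ n : ℕ, n = 2 * X.genus := ⟨_, rfl⟩
  obtain ⟨c, hc⟩ : ∃ c : ℤ, c = ((n : ℕ) : ℤ) * X.deg + 1 - X.genus := ⟨_, rfl⟩
  have hchi : ∀ (K : Type u) [Field K] [Algebra k K], (Pr.tw (X.fc K) n).chi = c := by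
    intro K _ _
    rw [← (Emb.O (X := X) (K := K) n).chi_eq, hc]
    exact LB.chi_O K n
  have hg : (0 : ℤ) ≤ X.genus := Int.natCast_nonneg _
  have hge : 1 + (X.genus : ℤ) ≤ c := by
    have h1 : (1 : ℤ) ≤ X.deg := by exact_mod_cast X.deg_pos
    rw [hc, hn]
    push_cast
    nlinarith
  obtain ⟨r, hr⟩ : ∃ r : ℕ, (r : ℤ) = c := ⟨c.toNat, Int.toNat_of_nonneg (by linarith)⟩
  refine exists_cover_of (LB.O X k n) (fun σ => LB.minus0 σ) r ?_
  intro K _ _ _
  refine ⟨Pr.tw (X.fc K) n, ?_, ?_, Pr.fin_all _, Pr.chi_one_eq, ?_⟩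
  · intro O' hO'
    exact (Emb.O n).of_iso (LB.BC.iso_of_bc hO' (LB.O_bc X _ _))
  · intro σ D' hD'
    exact (Emb.minus0 _).of_iso (LB.BC.iso_of_bc hD' (LB.minus0_bc _ _))
  · intro Q hQ
    have h1 : (Q * Pr.tw (X.fc K) n).chi = r := by
      have h2 := Pr.chi_mul (Pr.fin_all _) Q (Pr.tw (X.fc K) n)
      rw [hchi K, Pr.chi_one_eq, hQ] at h2
      rw [hr]
      change (Q.mul (Pr.tw (X.fc K) n)).chi = c
      linarith
    refine ⟨h1, ?_⟩
    have : Infinite (X.B0 →ₐ[k] K) := X.infinite_points_B0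
    refine (ptsOf (X := X) (K := K) (fun σ : X.B0 →ₐ[k] K => σ)
      Function.injective_id).H1z_of_chi (Pr.fin_all _) _ ?_
    rw [h1, Pr.chi_one_eq, hr]
    linarith

end Fermat.Agent.Jac
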