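import Mathlib
import Fermat.Agent.Spc.Tensor

set_option autoImplicit false

/-!
# Geometrically integral affine bases with many sections
-/

universe u

open CategoryTheory CategoryTheory.Limits AlgebraicGeometry
open scoped TensorProduct

namespace Fermat.Agent.Jac

/-- tensor products of domains over an algebraically closed field are domains -/
theorem isDomain_tensorProduct (κ A B : Type*) [Field κ] [IsAlgClosed κ] [CommRing A] [IsDomain A]
    [CommRing B] [IsDomain B] [Algebra κ A] [Algebra κ B] : IsDomain (A ⊗[κ] B) := by
  have h := Spc.isDomain_tensor κ (FractionRing A) (FractionRing B)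
  let f : A ⊗[κ] B →ₐ[κ] FractionRing A ⊗[κ] FractionRing B :=
    Algebra.TensorProduct.map (IsScalarTower.toAlgHom κ A (FractionRing A))
      (IsScalarTower.toAlgHom κ B (FractionRing B))
  have hf : Function.Injective f := by
    have h1 : Function.Injective (IsScalarTower.toAlgHom κ A (FractionRing A)).toLinearMap :=
      IsFractionRing.injective A (FractionRing A)
    have h2 : Function.Injective (IsScalarTower.toAlgHom κ B (FractionRing B)).toLinearMap :=
      IsFractionRing.injective B (FractionRing B)
    exact TensorProduct.map_injective_of_flat_flat _ _ h1 h2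
  exact hf.isDomain f.toRingHom

/-- The spectrum of a domain over an algebraically closed field is geometrically integral. -/
theorem geometricallyIntegral_Spec (κ : Type u) [Field κ] [IsAlgClosed κ] (R : Type u) [CommRing R]
    [IsDomain R] [Algebra κ R] :
    GeometricallyIntegral (Spec.map (CommRingCat.ofHom (algebraMap κ R))) := by
  constructor
  intro K _ y Z fst snd hP
  obtain ⟨φ, rfl⟩ := Spec.map_surjective y
  let _ : Algebra κ K := φ.hom.toAlgebra
  have hd : IsDomain (R ⊗[κ] K) := isDomain_tensorProduct κ R K
  have hP' : IsPullback fst snd (Spec.map (CommRingCat.ofHom (algebraMap κ R)))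
      (Spec.map (CommRingCat.ofHom (algebraMap κ K))) := hP
  have hZ : IsIntegral (Spec (CommRingCat.of (R ⊗[κ] K))) := inferInstance
  exact IsIntegral.of_isIso (hP'.isoPullback ≪≫ pullbackSpecIso κ R K).inv

/-- **A base for families of `N` points**: for a domain `B` of finite type over an algebraically
closed field there is a domain `R` of finite type with `N` homomorphisms `B → R` such that all
`N`-tuples of rational points of `B` are obtained at rational points of `R`. -/
theorem exists_family_ring (κ : Type u) [Field κ] [IsAlgClosed κ] (B : Type u) [CommRing B]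
    [IsDomain B] [Algebra κ B] [Algebra.FiniteType κ B] (N : ℕ) :
    ∃ (R : Type u) (_ : CommRing R) (_ : IsDomain R) (_ : Algebra κ R)
      (_ : Algebra.FiniteType κ R) (σ : Fin N → (B →ₐ[κ] R)),
      ∀ P : Fin N → (B →ₐ[κ] κ), ∃ t : R →ₐ[κ] κ, ∀ i, t.comp (σ i) = P i := by
  induction N with
  | zero =>
    exact ⟨κ, inferInstance, inferInstance, inferInstance, inferInstance, Fin.elim0,
      fun P => ⟨AlgHom.id κ κ, fun i => i.elim0⟩⟩
  | succ N ih =>
    obtain ⟨R, i1, i2, i3, i4, σ, hσ⟩ := ih
    have hft : Algebra.FiniteType κ (B ⊗[κ] R) :=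
      Algebra.FiniteType.trans (S := B) inferInstance inferInstance
    refine ⟨B ⊗[κ] R, inferInstance, isDomain_tensorProduct κ B R, inferInstance, hft,
      Fin.cons Algebra.TensorProduct.includeLeft
        (fun i => Algebra.TensorProduct.includeRight.comp (σ i)), fun P => ?_⟩
    obtain ⟨t, ht⟩ := hσ (fun i => P i.succ)
    refine ⟨Algebra.TensorProduct.lift (P 0) t (fun _ _ => Commute.all _ _), fun i => ?_⟩
    refine Fin.cases ?_ (fun i => ?_) i
    · rw [Fin.cons_zero]
      exact Algebra.TensorProduct.lift_comp_includeLeft _ _ _
    · rw [Fin.cons_succ, ← AlgHom.comp_assoc, Algebra.TensorProduct.lift_comp_includeRight']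
      exact ht i

end Fermat.Agent.Jac
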