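import Fermat.Agent.AV.SmoothReg2
import Fermat.Agent.Jac.FamRing

set_option autoImplicit false
set_option linter.unusedSectionVars false
set_option linter.style.haveILetI false

/-!
# Base changes of a smooth affine curve are Dedekind domains
-/

universe u

open TensorProduct Polynomial

namespace Fermat.Agent.Jac

section descent

/-- integrally closed domains descend along faithfully flat extensions -/
theorem isIntegrallyClosed_of_faithfullyFlat (A B : Type*) [CommRing A] [IsDomain A] [CommRing B]
    [IsDomain B] [Algebra A B] [Module.FaithfullyFlat A B] [IsIntegrallyClosed B] :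
    IsIntegrallyClosed A := by
  have hinj : Function.Injective (algebraMap A B) := by
    haveI : FaithfulSMul A B := inferInstance
    exact FaithfulSMul.algebraMap_injective A B
  rw [isIntegrallyClosed_iff (FractionRing A)]
  intro z hz
  obtain ⟨a, b, hb, rfl⟩ := IsFractionRing.div_surjective (A := A) z
  have hb0 : b ≠ 0 := nonZeroDivisors.ne_zero hb
  have hb1 : algebraMap A B b ≠ 0 := fun h => hb0 (hinj (by rw [h, map_zero]))
  -- the map of fraction fields
  let F : FractionRing A →+* FractionRing B := IsFractionRing.map hinj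
  have hF : ∀ c : A, F (algebraMap A _ c) = algebraMap B _ (algebraMap A B c) := fun c =>
    IsLocalization.map_eq _ c
  have h1 : IsIntegral B (F (algebraMap A _ a / algebraMap A _ b)) := by
    obtain ⟨P, hP, hP0⟩ := hz
    refine ⟨P.map (algebraMap A B), hP.map _, ?_⟩
    rw [eval₂_map]
    have h2 : (algebraMap B (FractionRing B)).comp (algebraMap A B) = F.comp (algebraMap A _) := by
      ext c
      exact (hF c).symm
    rw [h2, ← hom_eval₂, hP0, map_zero]
  obtain ⟨y, hy⟩ := IsIntegrallyClosed.isIntegral_iff.mp h1
  rw [map_div₀, hF, hF] at hy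
  have h3 : algebraMap A B b * y = algebraMap A B a := by
    apply IsFractionRing.injective B (FractionRing B)
    rw [map_mul, hy, mul_div_cancel₀]
    intro h0
    exact hb1 (IsFractionRing.injective B (FractionRing B) (by rw [h0, map_zero]))
  have h4 : a ∈ ((Ideal.span {b}).map (algebraMap A B)).comap (algebraMap A B) := by
    rw [Ideal.mem_comap, Ideal.map_span, Set.image_singleton, Ideal.mem_span_singleton']
    exact ⟨y, by rw [mul_comm]; exact h3⟩
  rw [Ideal.comap_map_eq_self_of_faithfullyFlat] at h4
  obtain ⟨c, hc⟩ := Ideal.mem_span_singleton'.mp h4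
  refine ⟨c, ?_⟩
  rw [← hc, map_mul, mul_div_assoc, div_self, mul_one]
  intro h0
  exact hb0 (IsFractionRing.injective A (FractionRing A) (by rw [h0, map_zero]))

end descent

section dimension

/-- dimension of integral extensions -/
theorem dimensionLEOne_of_isIntegral (A B : Type*) [CommRing A] [IsDomain A] [CommRing B]
    [IsDomain B] [Algebra A B] [Algebra.IsIntegral A B] [Ring.DimensionLEOne A] :
    Ring.DimensionLEOne B := by
  constructor
  intro p hp0 hp
  obtain ⟨b, hb, hb0⟩ := Submodule.exists_mem_ne_zero_of_ne_bot hp0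
  have h1 : p.comap (algebraMap A B) ≠ ⊥ :=
    Ideal.comap_ne_bot_of_integral_mem hb0 hb (Algebra.IsIntegral.isIntegral b)
  have h2 : (p.comap (algebraMap A B)).IsMaximal :=
    Ring.DimensionLEOne.maximalOfPrime h1 (Ideal.comap_isPrime _ _)
  exact Ideal.isMaximal_of_isIntegral_of_isMaximal_comap p h2

end dimension

section closed

variable (K : Type u) [Field K] [IsAlgClosed K] (S : Type u) [CommRing S] [Algebra K S]

/-- over an algebraically closed field a smooth domain is integrally closed -/
theorem isIntegrallyClosed_of_locally [IsDomain S] (n : ℕ)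
    (hs : RingHom.Locally (RingHom.IsStandardSmoothOfRelativeDimension n) (algebraMap K S)) :
    IsIntegrallyClosed S := by
  refine IsIntegrallyClosed.of_localization_maximal fun M hM0 hM => ?_
  obtain ⟨s, hspan, hst⟩ := hs
  -- an element of the cover outside `M`
  obtain ⟨t, hts, htM⟩ : ∃ t ∈ s, t ∉ M := by
    by_contra h
    push Not at h
    exact hM.ne_top (top_le_iff.mp (hspan ▸ Ideal.span_le.mpr h))
  have h1 := hst t hts
  letI : Algebra K (Localization.Away t) := inferInstance
  have h2 : (algebraMap S (Localization.Away t)).comp (algebraMap K S) =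
      algebraMap K (Localization.Away t) := (IsScalarTower.algebraMap_eq K S _).symm
  rw [h2] at h1
  haveI : Algebra.IsStandardSmoothOfRelativeDimension n K (Localization.Away t) :=
    (RingHom.isStandardSmoothOfRelativeDimension_algebraMap n).mp h1
  -- the prime of the localisation
  have hdisj : Disjoint (Submonoid.powers t : Set S) (M : Set S) := by
    rw [Set.disjoint_left]
    rintro _ ⟨m, rfl⟩ hm
    exact htM (hM.isPrime.mem_of_pow_mem m hm)
  set p : Ideal (Localization.Away t) := M.map (algebraMap S (Localization.Away t)) with hp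
  haveI hpp : p.IsPrime := IsLocalization.isPrime_of_isPrime_disjoint (Submonoid.powers t) _ M
    hM.isPrime hdisj
  have hcomap : p.comap (algebraMap S (Localization.Away t)) = M :=
    IsLocalization.under_map_of_isPrime_disjoint (Submonoid.powers t) _ hM.isPrime hdisj
  haveI : IsScalarTower S (Localization.Away t) (Localization.AtPrime p) := inferInstance
  haveI hloc := IsLocalization.isLocalization_isLocalization_atPrime_isLocalization
    (Submonoid.powers t) (S := Localization.Away t) (Localization.AtPrime p) p
  obtain ⟨hd, hu⟩ := AV.smooth_atPrime (K := K) n p (Localization.AtPrime p)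
  haveI : IsIntegrallyClosed (Localization.AtPrime p) := inferInstance
  have hloc' : IsLocalization.AtPrime (Localization.AtPrime p) M := by
    simpa only [hcomap] using hloc
  exact IsIntegrallyClosed.of_equiv
    (IsLocalization.algEquiv M.primeCompl (Localization.AtPrime p)
      (Localization.AtPrime M)).toRingEquiv

end closed

section tensor

variable {k : Type u} [Field k] [IsAlgClosed k] (B : Type u) [CommRing B] [IsDomain B]
  [Algebra k B]

/-- base changes of a smooth domain over an algebraically closed field are integrally closed -/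
theorem isIntegrallyClosed_tensor (n : ℕ)
    (hs : RingHom.Locally (RingHom.IsStandardSmoothOfRelativeDimension n) (algebraMap k B))
    (K : Type u) [Field K] [Algebra k K] : IsIntegrallyClosed (K ⊗[k] B) := by
  haveI : IsDomain (K ⊗[k] B) := isDomain_tensorProduct k K B
  let L := AlgebraicClosure K
  haveI : IsDomain (L ⊗[k] B) := isDomain_tensorProduct k L B
  have h1 : RingHom.Locally (RingHom.IsStandardSmoothOfRelativeDimension n)
      (algebraMap L (L ⊗[k] B)) :=
    (RingHom.locally_isStableUnderBaseChange
      RingHom.isStandardSmoothOfRelativeDimension_respectsIso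
      (RingHom.isStandardSmoothOfRelativeDimension_isStableUnderBaseChange n)).tensorProduct _ hs
  haveI : IsIntegrallyClosed (L ⊗[k] B) := isIntegrallyClosed_of_locally L (L ⊗[k] B) n h1
  let e : (K ⊗[k] B) ⊗[K] L ≃+* L ⊗[k] B :=
    (Algebra.TensorProduct.comm K (K ⊗[k] B) L).toRingEquiv.trans
      (Algebra.TensorProduct.cancelBaseChange k K K L B).toRingEquiv
  haveI : IsDomain ((K ⊗[k] B) ⊗[K] L) := e.toMulEquiv.isDomain _
  haveI : IsIntegrallyClosed ((K ⊗[k] B) ⊗[K] L) := IsIntegrallyClosed.of_equiv e.symm
  exact isIntegrallyClosed_of_faithfullyFlat (K ⊗[k] B) ((K ⊗[k] B) ⊗[K] L)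

/-- **Base changes of a smooth affine curve are Dedekind domains.** -/
theorem isDedekindDomain_tensor [Algebra.FiniteType k B] (x : B)
    (hx : (aeval x : k[X] →ₐ[k] B).toRingHom.IsIntegral)
    (hs : RingHom.Locally (RingHom.IsStandardSmoothOfRelativeDimension 1) (algebraMap k B))
    (K : Type u) [Field K] [Algebra k K] : IsDedekindDomain (K ⊗[k] B) := by
  haveI hdom : IsDomain (K ⊗[k] B) := isDomain_tensorProduct k K B
  haveI hft : Algebra.FiniteType K (K ⊗[k] B) := inferInstance
  haveI hnoeth : IsNoetherianRing (K ⊗[k] B) := Algebra.FiniteType.isNoetherianRing K _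
  haveI hic : IsIntegrallyClosed (K ⊗[k] B) := isIntegrallyClosed_tensor B 1 hs K
  letI algS : Algebra K[X] (K ⊗[k] B) :=
    (aeval ((1 : K) ⊗ₜ[k] x) : K[X] →ₐ[K] K ⊗[k] B).toRingHom.toAlgebra
  have hmapS : ∀ c : K[X], algebraMap K[X] (K ⊗[k] B) c = aeval ((1 : K) ⊗ₜ[k] x) c := fun c => rfl
  haveI hint : Algebra.IsIntegral K[X] (K ⊗[k] B) := by
    constructor
    intro z
    induction z using TensorProduct.induction_on with
    | zero => exact isIntegral_zero
    | add a b ha hb => exact ha.add hb
    | tmul c b =>
      have h1 : c ⊗ₜ[k] b = algebraMap K[X] (K ⊗[k] B) (C c) * ((1 : K) ⊗ₜ[k] b) := by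
        rw [hmapS, aeval_C, Algebra.TensorProduct.algebraMap_apply,
          Algebra.TensorProduct.tmul_mul_tmul]
        simp
      rw [h1]
      refine isIntegral_algebraMap.mul ?_
      obtain ⟨P, hP, hP0⟩ := hx b
      refine ⟨P.map (mapRingHom (algebraMap k K)), hP.map _, ?_⟩
      rw [eval₂_map]
      have h2 : (algebraMap K[X] (K ⊗[k] B)).comp (mapRingHom (algebraMap k K)) =
          (Algebra.TensorProduct.includeRight : B →ₐ[k] K ⊗[k] B).toRingHom.comp
            (aeval x : k[X] →ₐ[k] B).toRingHom := by
        ext c
        · simp [hmapS]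
        · simp [hmapS]
      rw [h2]
      have h3 : ((1 : K) ⊗ₜ[k] b) = (Algebra.TensorProduct.includeRight : B →ₐ[k] K ⊗[k] B).toRingHom b :=
        rfl
      rw [h3, ← hom_eval₂, hP0, map_zero]
  haveI hdim : Ring.DimensionLEOne (K ⊗[k] B) := dimensionLEOne_of_isIntegral K[X] (K ⊗[k] B)
  haveI : IsDedekindRing (K ⊗[k] B) :=
    { toIsNoetherian := hnoeth, toDimensionLEOne := hdim, toIsIntegralClosure := hic }
  exact {}

/-- **Base changes of a smooth affine curve are Dedekind domains**: this is the form of the fields
`ded0` and `dedi` of `CurveData`. -/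
theorem isDedekindDomain_of_finite (x : B)
    (hx : (aeval x : k[X] →ₐ[k] B).toRingHom.Finite)
    (hs : RingHom.Locally (RingHom.IsStandardSmoothOfRelativeDimension 1) (algebraMap k B)) :
    ∀ (K : Type u) [Field K] [Algebra k K], IsDedekindDomain (K ⊗[k] B) := by
  intro K _ _
  haveI : Algebra.FiniteType k B := by
    have h1 : RingHom.FiniteType (aeval x : k[X] →ₐ[k] B).toRingHom := hx.finiteType
    have h2 : RingHom.FiniteType ((aeval x : k[X] →ₐ[k] B).toRingHom.comp (algebraMap k k[X])) :=
      h1.comp (RingHom.finiteType_algebraMap.mpr inferInstance)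
    have h3 : (aeval x : k[X] →ₐ[k] B).toRingHom.comp (algebraMap k k[X]) = algebraMap k B :=
      (aeval x : k[X] →ₐ[k] B).comp_algebraMap
    rw [h3] at h2
    exact RingHom.finiteType_algebraMap.mp h2
  exact isDedekindDomain_tensor B x hx.to_isIntegral hs K

end tensor

end Fermat.Agent.Jac
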