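import Fermat.Agent.Jac.Def
import Fermat.Prelude.Def_AlgebraicGeometry_RelPicardAlgEquivZeroCut

set_option autoImplicit false

/-!
# The geometric meaning of `CurveData`

`Model X c ε`: the pointed curve `(C, c, ε)` over `k` is the union of two affine open subschemes
`V0 = Spec B0`, `Vi = Spec Bi` with intersection `Spec B`.
-/

universe u

open CategoryTheory CategoryTheory.Limits AlgebraicGeometry AlgebraicGeometry.RelPicard
  NeronModelInfra TensorProduct

namespace Fermat.Agent.Jac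

variable {k : Type u} [Field k]

/-- the structure morphism of `Spec A` over `Spec k` -/
noncomputable abbrev tA (k : Type u) [Field k] (A : Type u) [CommRing A] [Algebra k A] :
    Spec (CommRingCat.of A) ⟶ Spec (CommRingCat.of k) :=
  Spec.map (CommRingCat.ofHom (algebraMap k A))

/-- the morphism `Spec A' ⟶ Spec A` over `Spec k` attached to `h : A →ₐ[k] A'` -/
noncomputable def tMap {A : Type u} [CommRing A] [Algebra k A] {A' : Type u} [CommRing A']
    [Algebra k A'] (h : A →ₐ[k] A') : SchemeHomOver (tA k A') (tA k A) :=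
  ⟨Spec.map (CommRingCat.ofHom (h : A →+* A')), by
    rw [tA, tA, ← Spec.map_comp, ← CommRingCat.ofHom_comp]
    congr 2
    exact RingHom.ext fun a => h.commutes a⟩

variable (X : CurveData k)

/-- The pointed curve `(C, c, ε)` is described by `X`. -/
structure Model {C : Scheme.{u}} (c : C ⟶ Spec (CommRingCat.of k))
    (ε : SchemeHomOver (𝟙 (Spec (CommRingCat.of k))) c) where
  V0 : C.Opens
  Vi : C.Opens
  aff0 : IsAffineOpen V0
  affi : IsAffineOpen Vi
  cover : V0 ⊔ Vi = ⊤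
  /-- functions on `V₀` -/
  θ0 : X.B0 ≃+* Γ(C, V0)
  /-- functions on `V∞` -/
  θi : X.Bi ≃+* Γ(C, Vi)
  /-- functions on `V₀ ∩ V∞` -/
  θ : X.B ≃+* Γ(C, V0 ⊓ Vi)
  comp0 : ∀ b : X.B0, θ (b : X.B) = C.presheaf.map (homOfLE inf_le_left).op (θ0 b)
  compi : ∀ b : X.Bi, θ (b : X.B) = C.presheaf.map (homOfLE inf_le_right).op (θi b)
  inter0 : V0 ⊓ Vi = C.basicOpen (θ0 ⟨X.x, X.x_mem⟩)
  interi : V0 ⊓ Vi = C.basicOpen (θi ⟨X.y, X.y_mem⟩)
  /-- the isomorphisms are over `k` -/
  w0 : aff0.fromSpec ≫ c =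
    Spec.map (CommRingCat.ofHom ((θ0 : X.B0 →+* Γ(C, V0)).comp (algebraMap k X.B0)))
  wi : affi.fromSpec ≫ c =
    Spec.map (CommRingCat.ofHom ((θi : X.Bi →+* Γ(C, Vi)).comp (algebraMap k X.Bi)))
  /-- the base point -/
  eps : Spec.map (CommRingCat.ofHom ((X.e : X.Bi →+* k).comp (θi.symm : Γ(C, Vi) →+* X.Bi))) ≫
    affi.fromSpec = ε.1

end Fermat.Agent.Jac
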