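import Fermat.Agent.Jac.CurveOmega
import Fermat.Agent.Jac.Ded
import Fermat.Agent.Jac.Diag
import Fermat.Agent.Jac.FamRing
import Fermat.Agent.Jac.Model

/-!
# Every pointed smooth proper curve over an algebraically closed field has a `Model`
-/

set_option autoImplicit false
set_option linter.unusedSectionVars false

universe u

noncomputable section

open CategoryTheory CategoryTheory.Limits AlgebraicGeometry IsLocalRing TopologicalSpace Opposite
open NeronModelInfra Polynomial TensorProduct
open Fermat.Agent.AV Fermat.Agent.AV.Sch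

namespace Fermat.Agent.Jac

theorem LocSmooth.locally {k S : Type u} [Field k] [CommRing S] [Algebra k S]
    (h : LocSmooth k S) :
    RingHom.Locally (RingHom.IsStandardSmoothOfRelativeDimension 1) (algebraMap k S) := by
  refine ⟨{f : S | Algebra.IsStandardSmoothOfRelativeDimension 1 k (Localization.Away f)}, ?_, ?_⟩
  · by_contra hne
    obtain ⟨m, hm, hle⟩ := Ideal.exists_le_maximal _ hne
    obtain ⟨f, hf, hs⟩ := h m hm.isPrime
    exact hf (hle (Ideal.subset_span hs))
  · intro t ht
    rw [← IsScalarTower.algebraMap_eq k S (Localization.Away t)]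
    exact (RingHom.isStandardSmoothOfRelativeDimension_algebraMap 1).2 ht

variable {k : Type u} [Field k] [IsAlgClosed k] {C : Scheme.{u}}
  (c : C ⟶ Spec (CommRingCat.of k)) [IsIntegral C] [SmoothOfRelativeDimension 1 c] [IsProper c]

section Base

variable (ε : SchemeHomOver (𝟙 (Spec (CommRingCat.of k))) c)

/-- the base point as a point with values in `k` -/
def epsPt : Pt c k := ⟨ε.1, by
  rw [ε.2, str]
  have h : CommRingCat.ofHom (algebraMap k k) = 𝟙 (CommRingCat.of k) := rfl
  rw [h, Spec.map_id]⟩

/-- the base point of the curve -/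
abbrev eps0 : C := ctr (epsPt c ε)

theorem ctr_ne (P : Pt c k) : ctr P ≠ genericPoint C := by
  intro h
  obtain ⟨b, hb⟩ := exists_transcendental c
  have hmem : ∀ b : FF c, b ∈ locA c (ctr P) := by
    intro b
    rw [h, locA_gen]
    trivial
  -- evaluation is an injective map from the function field to the constants
  set s : locA c (ctr P) := ⟨b, hmem b⟩ with hs
  set a : k := evA P s with ha
  have h1 : s - algebraMap k (locA c (ctr P)) a = 0 := by
    by_contra h0
    have h2 : IsUnit (s - algebraMap k (locA c (ctr P)) a) := by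
      have h3 : ((s - algebraMap k (locA c (ctr P)) a : locA c (ctr P)) : FF c) ≠ 0 :=
        fun h4 => h0 (Subtype.ext h4)
      exact IsUnit.of_mul_eq_one ⟨_⁻¹, hmem _⟩ (Subtype.ext (mul_inv_cancel₀ h3))
    have h3 := h2.map (evA P)
    rw [map_sub, AlgHom.commutes, Algebra.algebraMap_self_apply, sub_self] at h3
    exact not_isUnit_zero h3
  have h2 : b = algebraMap k (FF c) a := by
    have h3 := congrArg Subtype.val (sub_eq_zero.1 h1)
    exact h3
  rw [h2] at hb
  exact hb (isAlgebraic_algebraMap a)

theorem eps0_ne : eps0 c ε ≠ genericPoint C := ctr_ne c _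

theorem exists_pole : ∃ b : FF c, b ∉ locA c (eps0 c ε) := by
  by_contra h
  push Not at h
  exact locA_ne_top c (eps0_ne c ε) (eq_top_iff.2 fun b _ => h b)

end Base

section Fields

theorem tmul_ne (S : Type*) [CommRing S] [Nontrivial S] [Algebra k S] (a : S)
    (ha : Transcendental k a) : a ⊗ₜ[k] (1 : S) ≠ (1 : S) ⊗ₜ[k] a := by
  intro h
  have h1 : (1 : S) ∉ Submodule.span k {a} := by
    intro h2
    obtain ⟨r, hr⟩ := Submodule.mem_span_singleton.1 h2
    have h3 : aeval a (Polynomial.C r * X - 1) = 0 := by
      simp [← Algebra.smul_def, hr]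
    have h4 := transcendental_iff.1 ha _ h3
    have h5 := congrArg (fun q => Polynomial.coeff q 0) h4
    simp at h5
  obtain ⟨φ, hφ, hle⟩ := Submodule.exists_le_ker_of_notMem h1
  have hφa : φ a = 0 := hle (Submodule.mem_span_singleton_self a)
  have h2 := congrArg (fun z => TensorProduct.lid k S (TensorProduct.map φ LinearMap.id z)) h
  simp only [TensorProduct.map_tmul, LinearMap.id_apply, TensorProduct.lid_tmul, hφa,
    zero_smul] at h2
  have h3 : a = 0 := by
    have h4 := congrArg (fun z => (φ 1)⁻¹ • z) h2
    simpa [smul_smul, inv_mul_cancel₀ hφ] using h4.symm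
  rw [h3] at ha
  exact ha (isAlgebraic_zero)

/-- sections on an affine chart as an algebra over the constants -/
def secAlgEquiv {U W : C.Opens} [Nonempty U] [Nonempty W] (h : W ≤ U) :
    letI := (kSec c U).hom.toAlgebra
    Γ(C, U) ≃ₐ[k] subA c h :=
  letI := (kSec c U).hom.toAlgebra
  AlgEquiv.ofRingEquiv (f := (subTheta c h).symm) fun a => by
    rw [RingEquiv.symm_apply_eq, subTheta_algebraMap]
    rfl

theorem locSmooth_subA {U W : C.Opens} [Nonempty U] [Nonempty W] (hU : IsAffineOpen U)
    (h : W ≤ U) : LocSmooth k (subA c h) := by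
  let _ := (kSec c U).hom.toAlgebra
  have h1 : LocSmooth k Γ(C, U) := locSmooth_section c hU
  exact h1.of_algEquiv (secAlgEquiv c h)

theorem smooth_subA {U W : C.Opens} [Nonempty U] [Nonempty W] (hU : IsAffineOpen U)
    (h : W ≤ U) : Algebra.Smooth k (subA c h) := by
  let _ := (kSec c U).hom.toAlgebra
  have : Smooth c := SmoothOfRelativeDimension.smooth 1 c
  have h1 : Algebra.Smooth k Γ(C, U) := smooth_section c hU
  exact Algebra.Smooth.of_equiv (secAlgEquiv c h)

theorem finite_aeval {b : FF c} (hb : Transcendental k b) {W : C.Opens} [Nonempty W]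
    (h : W ≤ dom c b) (x : subA c h) (hx : ((x : chartA c W) : FF c) = b) :
    (aeval x : k[X] →ₐ[k] subA c h).toRingHom.Finite := by
  have h1 : (aeval x : k[X] →ₐ[k] subA c h).toRingHom =
      ((subTheta c h).symm : Γ(C, dom c b) →+* subA c h).comp (polyHom c b) := by
    apply RingHom.ext
    intro p
    change aeval x p = (subTheta c h).symm (polyHom c b p)
    rw [RingEquiv.eq_symm_apply]
    apply secF_injective c (dom c b)
    rw [secF_subTheta, secF_polyHom]
    have h2 := Polynomial.aeval_algHom_apply ((chartA c W).val.comp (subA c h).val) x p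
    have h3 : ((chartA c W).val.comp (subA c h).val) x = b := hx
    rw [h3] at h2
    exact h2.symm
  rw [h1]
  exact RingHom.Finite.comp (RingHom.Finite.of_surjective _ (subTheta c h).symm.surjective)
    (finite_polyHom c hb)

theorem ded_subA {b : FF c} (hb : Transcendental k b) {W : C.Opens} [Nonempty W]
    (h : W ≤ dom c b) (x : subA c h) (hx : ((x : chartA c W) : FF c) = b)
    (K : Type u) [Field K] [Algebra k K] : IsDedekindDomain (K ⊗[k] subA c h) :=
  isDedekindDomain_of_finite (subA c h) x (finite_aeval c hb h x hx)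
    (locSmooth_subA c (isAffineOpen_dom c hb) h).locally K

theorem diag_subA {b : FF c} (hb : Transcendental k b) {W : C.Opens} [Nonempty W]
    (h : W ≤ dom c b) (x : subA c h) (hx : ((x : chartA c W) : FF c) = b) :
    Module.Invertible (subA c h ⊗[k] subA c h)
      (RingHom.ker (Algebra.TensorProduct.lmul' k (S := subA c h))) := by
  have hs := smooth_subA c (isAffineOpen_dom c hb) h
  have hft : Algebra.FiniteType k (subA c h) := inferInstance
  have hd : IsDomain (subA c h ⊗[k] subA c h) := isDomain_tensorProduct k _ _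
  refine invertible_ker_lmul' (fun p hp =>
    (locSmooth_subA c (isAffineOpen_dom c hb) h).kaehler p hp.isPrime) ⟨x, tmul_ne _ x ?_⟩
  intro hx2
  apply hb
  rw [← hx]
  exact hx2.algHom ((chartA c W).val.comp (subA c h).val)

end Fields

end Fermat.Agent.Jac
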