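import Fermat.Agent.Jac.CurvePts

/-!
# The regular locus of a non-constant rational function is finite over the affine line
-/

set_option autoImplicit false
set_option linter.unusedSectionVars false

universe u

noncomputable section

open CategoryTheory CategoryTheory.Limits AlgebraicGeometry IsLocalRing TopologicalSpace Opposite
open NeronModelInfra Polynomial
open Fermat.Agent.AV Fermat.Agent.AV.Sch

namespace Fermat.Agent.Jac

variable {k : Type u} [Field k] {C : Scheme.{u}} (c : C ⟶ Spec (CommRingCat.of k)) [IsIntegral C]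

/-- polynomials in the rational function `b`, as sections on its regular locus -/
def polyHom (b : FF c) : k[X] →+* Γ(C, dom c b) :=
  eval₂RingHom (kSec c (dom c b)).hom (domSec c b)

theorem polyHom_C (b : FF c) : (polyHom c b).comp Polynomial.C = (kSec c (dom c b)).hom := by
  ext a
  simp [polyHom]

theorem secF_polyHom (b : FF c) (p : k[X]) : secF c (dom c b) (polyHom c b p) = aeval b p := by
  have h : (secF c (dom c b)).comp (polyHom c b) = (aeval b : k[X] →ₐ[k] FF c).toRingHom := by
    apply Polynomial.ringHom_ext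
    · intro a
      have h1 := secF_kSec c (dom c b) a
      simpa [polyHom] using h1
    · simp [polyHom]
  exact congrArg (fun φ => φ p) h

/-- the morphism to the affine line -/
def toLine (b : FF c) : (dom c b).toScheme ⟶ Spec (CommRingCat.of k[X]) :=
  (dom c b).toSpecΓ ≫ Spec.map (CommRingCat.ofHom (polyHom c b))

theorem toLine_comp (b : FF c) :
    toLine c b ≫ Spec.map (CommRingCat.ofHom Polynomial.C) = (dom c b).ι ≫ c := by
  rw [toLine, Category.assoc, ← Spec.map_comp, ← CommRingCat.ofHom_comp, polyHom_C]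
  change (dom c b).toSpecΓ ≫ Spec.map (kTop c ≫ C.presheaf.map (homOfLE le_top).op) = _
  rw [Spec.map_comp, ← Category.assoc, Scheme.Opens.toSpecΓ_SpecMap_presheaf_map_top,
    Category.assoc, toSpecΓ_kTop]

variable [IsAlgClosed k] [SmoothOfRelativeDimension 1 c] [IsProper c]

instance locallyOfFiniteType_toLine (b : FF c) : LocallyOfFiniteType (toLine c b) := by
  have h : LocallyOfFiniteType
      (toLine c b ≫ Spec.map (CommRingCat.ofHom (Polynomial.C : k →+* k[X]))) := by
    rw [toLine_comp]
    infer_instance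
  exact locallyOfFiniteType_of_comp _
    (Spec.map (CommRingCat.ofHom (Polynomial.C : k →+* k[X])))

instance isSeparated_toLine (b : FF c) : IsSeparated (toLine c b) := by
  have h : IsSeparated
      (toLine c b ≫ Spec.map (CommRingCat.ofHom (Polynomial.C : k →+* k[X]))) := by
    rw [toLine_comp]
    infer_instance
  exact IsSeparated.of_comp _
    (Spec.map (CommRingCat.ofHom (Polynomial.C : k →+* k[X])))

instance quasiCompact_toLine (b : FF c) : QuasiCompact (toLine c b) := by
  have := compactSpace_of_isProper c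
  have := isNoetherian_curve c
  have : CompactSpace (dom c b).toScheme :=
    isCompact_iff_compactSpace.1 (NoetherianSpace.isCompact ((dom c b : C.Opens) : Set C))
  have : IsLocallyNoetherian (dom c b).toScheme := inferInstance
  have : AlgebraicGeometry.IsNoetherian (dom c b).toScheme := { }
  infer_instance

/-- evaluation of a function at a point of the regular locus -/
theorem evA_eq_of_factor {R : Type u} [CommRing R] [Algebra k R] [IsLocalRing R] (b : FF c)
    (P : Pt c R) (l : Spec (CommRingCat.of R) ⟶ (dom c b).toScheme) (hl : l ≫ (dom c b).ι = P.1)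
    (φ : k[X] →+* R) (hφ : l ≫ toLine c b = Spec.map (CommRingCat.ofHom φ))
    (hb : b ∈ locA c (ctr P)) : evA P ⟨b, hb⟩ = φ X := by
  have hz : ctr P ∈ dom c b := hb
  -- the germ of the section
  have h1 : toF c (ctr P) (C.presheaf.germ (dom c b) (ctr P) hz (domSec c b)) = b := by
    rw [toF_germ, secF_domSec]
  have h2 : evA P ⟨b, hb⟩ =
      evS P (C.presheaf.germ (dom c b) (ctr P) hz (domSec c b)) := by
    have h3 := evA_mk P (C.presheaf.germ (dom c b) (ctr P) hz (domSec c b))
      (by rw [h1]; exact hb)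
    rw [← h3]
    congr 1
    exact Subtype.ext h1.symm
  rw [h2]
  -- both are the image of the variable
  have h4 : CommRingCat.ofHom (polyHom c b) ≫ C.presheaf.germ (dom c b) (ctr P) hz ≫ evS P =
      CommRingCat.ofHom φ := by
    have hl2 : l = Spec.map (evS P) ≫ (dom c b).fromSpecStalkOfMem (ctr P) hz := by
      rw [← cancel_mono (dom c b).ι, hl, Category.assoc, Scheme.Opens.fromSpecStalkOfMem_ι, spec_evS]
    apply Spec.map_injective
    rw [← hφ, toLine, Spec.map_comp, Spec.map_comp, hl2]
    simp only [Category.assoc, Scheme.Opens.fromSpecStalkOfMem_toSpecΓ_assoc]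
  have h5 := congrArg (fun ψ => ψ.hom X) h4
  change evS P (C.presheaf.germ (dom c b) (ctr P) hz (polyHom c b X)) = φ X at h5
  have h6 : polyHom c b X = domSec c b := by simp [polyHom]
  rw [h6] at h5
  exact h5

theorem mem_opens_of_specializes {U : C.Opens} {z w : C} (h : z ⤳ w) (hw : w ∈ U) : z ∈ U :=
  h.mem_open U.2 hw

/-- **existence in the valuative criterion** -/
theorem existence_toLine (b : FF c) : ValuativeCriterion.Existence (toLine c b) := by
  intro S
  obtain ⟨φ, hφ⟩ := Spec.map_surjective S.i₂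
  let _ : Algebra k S.R := (φ.hom.comp Polynomial.C).toAlgebra
  let _ : Algebra k S.K := ((algebraMap S.R S.K).comp (φ.hom.comp Polynomial.C)).toAlgebra
  have : IsScalarTower k S.R S.K := IsScalarTower.of_algebraMap_eq fun _ => rfl
  have hstrR : str k S.R = S.i₂ ≫ Spec.map (CommRingCat.ofHom Polynomial.C) := by
    rw [← hφ, ← Spec.map_comp]
    rfl
  have hstrK : str k S.K = Spec.map (CommRingCat.ofHom (algebraMap S.R S.K)) ≫ str k S.R := by
    rw [str, str, ← Spec.map_comp]
    rfl
  obtain ⟨PE, hPE⟩ : ∃ PE : Pt c S.K, PE.1 = S.i₁ ≫ (dom c b).ι := ⟨⟨S.i₁ ≫ (dom c b).ι, by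
    rw [Category.assoc, ← toLine_comp, ← Category.assoc, S.commSq.w, Category.assoc, ← hstrR,
      hstrK]⟩, rfl⟩
  obtain ⟨PR, hPR⟩ := (bijective_map c (V := S.R) (E := S.K)).2 PE
  -- the center of `PE` lies in the regular locus
  have hE : ctr PE ∈ dom c b := by
    have h1 : ctr PE = (dom c b).ι (S.i₁ (closedPoint S.K)) := by
      rw [ctr, hPE]
      rfl
    rw [h1]
    exact (S.i₁ (closedPoint S.K)).2
  have hle : locA c (ctr PR) ≤ locA c (ctr PE) := by
    rw [← hPR]
    exact loc_le_map _ PR
  -- the center of `PR` lies in the regular locus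
  have hR : b ∈ locA c (ctr PR) := by
    rcases mem_or_inv_mem c (ctr PR) b with h1 | h1
    · exact h1
    by_contra hb
    have hb0 : b ≠ 0 := by
      rintro rfl
      exact hb (zero_mem _)
    have hbE : b ∈ locA c (ctr PE) := hE
    have h2 : evA PE ⟨b, hbE⟩ = (algebraMap S.R S.K) (φ.hom X) := by
      refine evA_eq_of_factor c b PE S.i₁ hPE.symm ((algebraMap S.R S.K).comp φ.hom) ?_ hbE
      rw [S.commSq.w, ← hφ, ← Spec.map_comp]
      rfl
    have h3 : evA PE ⟨b⁻¹, hle h1⟩ = algebraMap S.R S.K (evA PR ⟨b⁻¹, h1⟩) := by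
      subst hPR
      exact evA_map (IsScalarTower.toAlgHom k S.R S.K) PR b⁻¹ h1 (hle h1)
    have h4 : evA PE ⟨b, hbE⟩ * evA PE ⟨b⁻¹, hle h1⟩ = 1 := by
      rw [← map_mul]
      have h5 : (⟨b, hbE⟩ : locA c (ctr PE)) * ⟨b⁻¹, hle h1⟩ = 1 :=
        Subtype.ext (mul_inv_cancel₀ hb0)
      rw [h5, map_one]
    rw [h2, h3, ← map_mul, ← map_one (algebraMap S.R S.K)] at h4
    have h5 := IsFractionRing.injective S.R S.K h4
    have h6 : IsUnit (evA PR ⟨b⁻¹, h1⟩) := IsUnit.of_mul_eq_one _ (by rw [mul_comm]; exact h5)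
    have h7 := evA_local PR _ h6
    obtain ⟨⟨u, v, huv, hvu⟩, hu⟩ := h7
    change u = _ at hu
    have h8 : (u : FF c) * (v : FF c) = 1 := congrArg Subtype.val huv
    have h9 : (u : FF c) = b⁻¹ := by rw [hu]
    have h10 : (v : FF c) = b := by
      rw [h9] at h8
      rw [← inv_eq_of_mul_eq_one_right h8, inv_inv]
    have h11 := v.2
    rw [h10] at h11
    exact hb h11
  -- the lift
  have hrange : Set.range PR.1 ⊆ Set.range (dom c b).ι := by
    rintro _ ⟨x, rfl⟩
    rw [Scheme.Opens.range_ι]
    exact mem_opens_of_specializes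
      ((IsLocalRing.specializes_closedPoint x).map PR.1.continuous) hR
  let l := IsOpenImmersion.lift (dom c b).ι PR.1 hrange
  have hl : l ≫ (dom c b).ι = PR.1 := IsOpenImmersion.lift_fac _ _ _
  have h1 : Spec.map (CommRingCat.ofHom (algebraMap S.R S.K)) ≫ l = S.i₁ := by
    rw [← cancel_mono (dom c b).ι, Category.assoc, hl]
    rw [← hPE, ← hPR]
    rfl
  refine ⟨⟨⟨l, h1, ?_⟩⟩⟩
  obtain ⟨ψ, hψ⟩ := Spec.map_surjective (l ≫ toLine c b)
  rw [← hψ, ← hφ]
  congr 1
  have h2 : ψ ≫ CommRingCat.ofHom (algebraMap S.R S.K) =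
      φ ≫ CommRingCat.ofHom (algebraMap S.R S.K) := by
    apply Spec.map_injective
    rw [Spec.map_comp, Spec.map_comp, hψ, hφ, ← Category.assoc, h1, S.commSq.w]
  apply CommRingCat.hom_ext
  apply RingHom.ext
  intro x
  have h3 := congrArg (fun χ => χ.hom x) h2
  exact IsFractionRing.injective S.R S.K h3

instance isProper_toLine (b : FF c) : IsProper (toLine c b) where
  toUniversallyClosed := UniversallyClosed.of_valuativeCriterion _ (existence_toLine c b)

end Fermat.Agent.Jac
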