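import Fermat.Agent.Jac.CurveFin

/-!
# Finiteness over the affine line, continued
-/

set_option autoImplicit false
set_option linter.unusedSectionVars false

universe u

noncomputable section

open CategoryTheory CategoryTheory.Limits AlgebraicGeometry IsLocalRing TopologicalSpace Opposite
open NeronModelInfra Polynomial
open Fermat.Agent.AV Fermat.Agent.AV.Sch

namespace Fermat.Agent.Jac

variable {k : Type u} [Field k] {C : Scheme.{u}} (c : C ⟶ Spec (CommRingCat.of k)) [IsIntegral C]

theorem aeval_mem_locA {b : FF c} {z : C} (hz : b ∈ locA c z) (p : k[X]) :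
    aeval b p ∈ locA c z := by
  have h : aeval b p = ((aeval (⟨b, hz⟩ : locA c z) p : locA c z) : FF c) := by
    have h1 := Polynomial.aeval_algHom_apply (locA c z).val (⟨b, hz⟩ : locA c z) p
    exact h1
  rw [h]
  exact (aeval (⟨b, hz⟩ : locA c z) p).2

/-- the image of a point in the line -/
theorem mem_toLine_iff {b : FF c} {z : C} (hz : z ∈ dom c b) (p : k[X]) :
    p ∈ (toLine c b ⟨z, hz⟩ : PrimeSpectrum k[X]).asIdeal ↔
      ¬ IsUnit (⟨aeval b p, aeval_mem_locA c hz p⟩ : locA c z) := by
  have h1 : (dom c b).fromSpecStalkOfMem z hz (closedPoint (C.presheaf.stalk z)) = ⟨z, hz⟩ := by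
    apply (dom c b).ι.isOpenEmbedding.injective
    rw [← Scheme.Hom.comp_apply, Scheme.Opens.fromSpecStalkOfMem_ι,
      Scheme.fromSpecStalk_closedPoint]
    rfl
  have h2 : toLine c b ⟨z, hz⟩ =
      Spec.map (CommRingCat.ofHom (polyHom c b) ≫ C.presheaf.germ (dom c b) z hz)
        (closedPoint (C.presheaf.stalk z)) := by
    rw [← h1, ← Scheme.Hom.comp_apply, toLine, Scheme.Opens.fromSpecStalkOfMem_toSpecΓ_assoc,
      Spec.map_comp]
  rw [h2]
  change C.presheaf.germ (dom c b) z hz (polyHom c b p) ∈ maximalIdeal (C.presheaf.stalk z) ↔ _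
  rw [mem_maximalIdeal, mem_nonunits_iff, ← MulEquiv.isUnit_map (stEq c z)]
  have h3 : stEq c z (C.presheaf.germ (dom c b) z hz (polyHom c b p)) =
      ⟨aeval b p, aeval_mem_locA c hz p⟩ := by
    apply Subtype.ext
    rw [coe_stEq, toF_germ, secF_polyHom]
  rw [h3]

variable [IsAlgClosed k] [SmoothOfRelativeDimension 1 c] [IsProper c]

theorem locallyQuasiFinite_toLine {b : FF c} (hb : Transcendental k b) :
    LocallyQuasiFinite (toLine c b) := by
  have := compactSpace_of_isProper c
  refine LocallyQuasiFinite.of_finite_preimage_singleton _ fun t => ?_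
  by_cases ht : (t : PrimeSpectrum k[X]).asIdeal = ⊥
  · -- the generic fibre
    refine Set.Subsingleton.finite ?_
    have key : ∀ z : (dom c b).toScheme, toLine c b z = t → z.1 = genericPoint C := by
      intro z hz
      by_contra hg
      obtain ⟨a, ha⟩ := exists_const c hg ⟨b, z.2⟩
      have h1 : (X - Polynomial.C a : k[X]) ∈ (t : PrimeSpectrum k[X]).asIdeal := by
        rw [← hz]
        refine (mem_toLine_iff c z.2 _).2 ?_
        convert ha using 2
        apply Subtype.ext
        simp
      rw [ht, Ideal.mem_bot] at h1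
      exact X_sub_C_ne_zero a h1
    intro z hz w hw
    apply Subtype.ext
    exact (key z hz).trans (key w hw).symm
  · obtain ⟨p, hp, hp0⟩ := Submodule.exists_mem_ne_zero_of_ne_bot ht
    have h0 : aeval b p ≠ 0 := fun h => hp0 (transcendental_iff.1 hb p h)
    have hfin := finite_poles c (aeval b p)⁻¹
    refine Set.Finite.of_injOn (f := fun z : (dom c b).toScheme => z.1) (t := _) ?_
      (Subtype.val_injective.injOn) hfin
    intro z hz
    change (aeval b p)⁻¹ ∉ locA c z.1
    intro h
    have h1 : p ∈ (toLine c b z : PrimeSpectrum k[X]).asIdeal := by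
      have h2 : toLine c b z = t := hz
      rw [h2]
      exact hp
    refine (mem_toLine_iff c z.2 p).1 h1 ?_
    refine IsUnit.of_mul_eq_one ⟨_, h⟩ (Subtype.ext (mul_inv_cancel₀ h0))

/-- **the regular locus of a non-constant function is finite over the affine line** -/
theorem isFinite_toLine {b : FF c} (hb : Transcendental k b) : IsFinite (toLine c b) := by
  have := locallyQuasiFinite_toLine c hb
  exact IsFinite.of_isProper_of_locallyQuasiFinite _

theorem isAffineOpen_dom {b : FF c} (hb : Transcendental k b) : IsAffineOpen (dom c b) := by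
  have := isFinite_toLine c hb
  exact isAffine_of_isAffineHom (toLine c b)

theorem finite_polyHom {b : FF c} (hb : Transcendental k b) : (polyHom c b).Finite := by
  have := isFinite_toLine c hb
  have h1 := Scheme.Hom.finite_appTop (toLine c b)
  have h2 : (toLine c b).appTop = (Scheme.ΓSpecIso (CommRingCat.of k[X])).hom ≫
      CommRingCat.ofHom (polyHom c b) ≫ (dom c b).topIso.inv := by
    rw [toLine, Scheme.Hom.comp_appTop, Scheme.Opens.toSpecΓ_appTop,
      Scheme.ΓSpecIso_naturality_assoc]
  rw [h2] at h1
  have h3 : CommRingCat.ofHom (polyHom c b) = (Scheme.ΓSpecIso (CommRingCat.of k[X])).inv ≫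
      ((Scheme.ΓSpecIso (CommRingCat.of k[X])).hom ≫
      CommRingCat.ofHom (polyHom c b) ≫ (dom c b).topIso.inv) ≫ (dom c b).topIso.hom := by
    rw [Category.assoc, Category.assoc, Iso.inv_hom_id, Category.comp_id, Iso.inv_hom_id_assoc]
  have h4 : polyHom c b = (CommRingCat.ofHom (polyHom c b)).hom := rfl
  rw [h4, h3, CommRingCat.hom_comp, CommRingCat.hom_comp _ (dom c b).topIso.hom]
  refine RingHom.Finite.comp (RingHom.Finite.comp ?_ h1) ?_
  · exact RingHom.Finite.of_surjective _
      (dom c b).topIso.commRingCatIsoToRingEquiv.surjective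
  · exact RingHom.Finite.of_surjective _
      (Scheme.ΓSpecIso (CommRingCat.of k[X])).symm.commRingCatIsoToRingEquiv.surjective

end Fermat.Agent.Jac
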