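import Fermat.Agent.AV.SchGV
import Fermat.Agent.AV.SchSmooth2

/-!
# Local rings of a smooth integral curve over an algebraically closed field
-/

set_option autoImplicit false
set_option linter.unusedSectionVars false

universe u

noncomputable section

open CategoryTheory CategoryTheory.Limits AlgebraicGeometry IsLocalRing TopologicalSpace
open Fermat.Agent.AV Fermat.Agent.AV.Sch

namespace Fermat.Agent.Jac

section Alg

/-- localisations of principal ideal rings are principal ideal rings -/
theorem isPrincipalIdealRing_of_isLocalization {R : Type*} [CommRing R] [IsPrincipalIdealRing R]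
    (M : Submonoid R) (O : Type*) [CommRing O] [Algebra R O] [IsLocalization M O] :
    IsPrincipalIdealRing O := by
  constructor
  intro I
  obtain ⟨a, ha⟩ := (IsPrincipalIdealRing.principal (I.comap (algebraMap R O))).principal
  refine ⟨algebraMap R O a, ?_⟩
  have h1 : (I.comap (algebraMap R O)).map (algebraMap R O) = I :=
    IsLocalization.map_under M O I
  rw [← h1, ha]
  change Ideal.map _ (Ideal.span {a}) = Ideal.span _
  rw [Ideal.map_span, Set.image_singleton]

variable {K S : Type u} [Field K] [IsAlgClosed K] [CommRing S] [Algebra K S]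

/-- the local rings of a smooth curve at its closed points -/
theorem pir_maximal [Algebra.IsStandardSmoothOfRelativeDimension 1 K S] (m : Ideal S)
    [m.IsMaximal] (O : Type u) [CommRing O] [Algebra S O] [IsLocalization.AtPrime O m] :
    IsPrincipalIdealRing O ∧ IsDomain O := by
  have : Algebra.IsStandardSmooth K S :=
    Algebra.IsStandardSmoothOfRelativeDimension.isStandardSmooth 1
  have hfp : Algebra.FinitePresentation K S := inferInstance
  have hm : ∀ s : S, ∃ a : K, s - algebraMap K S a ∈ m := fun s => exists_sub_algebraMap_mem m s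
  have : IsLocalRing O := IsLocalization.AtPrime.isLocalRing O m
  letI : Algebra K O := ((algebraMap S O).comp (algebraMap K S)).toAlgebra
  have : IsScalarTower K S O := IsScalarTower.of_algebraMap_eq fun _ => rfl
  obtain ⟨hnoe, x, hx⟩ := exists_isRegSys_noeth (K := K) 1 m hm O
  have hdom : IsDomain O := isDomain_localization_of_standardSmooth (K := K) 1 m O
  refine ⟨?_, hdom⟩
  have h5 : (maximalIdeal O).IsPrincipal := by
    refine ⟨x 0, ?_⟩
    rw [hx.span]
    congr 1
    ext y
    simp [eq_comm]
  exact ((tfae_of_isNoetherianRing_of_isLocalRing_of_isDomain O).out 0 4).2 h5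

/-- the local rings of a smooth curve -/
theorem pir_prime [Algebra.IsStandardSmoothOfRelativeDimension 1 K S] (p : Ideal S)
    [p.IsPrime] (O : Type u) [CommRing O] [Algebra S O] [IsLocalization.AtPrime O p] :
    IsPrincipalIdealRing O := by
  obtain ⟨m, hmax, hpm⟩ := Ideal.exists_le_maximal p (Ideal.IsPrime.ne_top inferInstance)
  obtain ⟨h1, h2⟩ := pir_maximal (K := K) m (Localization.AtPrime m)
  have hle : m.primeCompl ≤ p.primeCompl := fun s hs hp => hs (hpm hp)
  let _ : Algebra (Localization.AtPrime m) O :=
    IsLocalization.localizationAlgebraOfSubmonoidLe (Localization.AtPrime m) O m.primeCompl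
      p.primeCompl hle
  have : IsScalarTower S (Localization.AtPrime m) O :=
    IsLocalization.localization_isScalarTower_of_submonoid_le (Localization.AtPrime m) O
      m.primeCompl p.primeCompl hle
  have hloc : IsLocalization
      (p.primeCompl.map (algebraMap S (Localization.AtPrime m))) O :=
    IsLocalization.isLocalization_of_submonoid_le (Localization.AtPrime m) O
      m.primeCompl p.primeCompl hle
  exact isPrincipalIdealRing_of_isLocalization
    (p.primeCompl.map (algebraMap S (Localization.AtPrime m))) O

end Alg

variable {k : Type u} [Field k] {C : Scheme.{u}} (c : C ⟶ Spec (CommRingCat.of k))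

/-- open sets of the spectrum of a field -/
theorem opens_eq_top_of_mem {U : (Spec (CommRingCat.of k)).Opens} {z : Spec (CommRingCat.of k)}
    (hz : z ∈ U) : U = ⊤ := by
  rw [eq_top_iff]
  intro w _
  have : Subsingleton (PrimeSpectrum k) := inferInstance
  have h : w = z := Subsingleton.elim (α := PrimeSpectrum k) _ _
  rw [h]
  exact hz

/-- smooth charts, seen over the constants -/
theorem exists_smooth_chart [SmoothOfRelativeDimension 1 c] (z : C) : ∃ V : C.Opens,
    IsAffineOpen V ∧ z ∈ V ∧ (kSec c V).hom.IsStandardSmoothOfRelativeDimension 1 := by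
  obtain ⟨U, hU, V, hV, hz, e, h⟩ :=
    SmoothOfRelativeDimension.exists_isStandardSmoothOfRelativeDimension (n := 1) (f := c) z
  have hUt : U = ⊤ := opens_eq_top_of_mem (e hz)
  subst hUt
  refine ⟨V, hV, hz, ?_⟩
  have h1 : kSec c V = (Scheme.ΓSpecIso (CommRingCat.of k)).inv ≫ c.appLE ⊤ V e := by
    rw [kSec, kTop, Category.assoc]
    congr 1
  rw [h1]
  have h2 := (RingHom.isStandardSmoothOfRelativeDimension_respectsIso (n := 1)).2
    (c.appLE ⊤ V e).hom (Scheme.ΓSpecIso (CommRingCat.of k)).symm.commRingCatIsoToRingEquiv h
  exact h2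

variable [IsIntegral C]

theorem pir_stalk [IsAlgClosed k] [SmoothOfRelativeDimension 1 c] (z : C) :
    IsPrincipalIdealRing (C.presheaf.stalk z) := by
  obtain ⟨V, hV, hz, h⟩ := exists_smooth_chart c z
  letI := (kSec c V).hom.toAlgebra
  haveI : Algebra.IsStandardSmoothOfRelativeDimension 1 k Γ(C, V) := h
  letI := TopCat.Presheaf.algebra_section_stalk C.presheaf (⟨z, hz⟩ : V)
  haveI := hV.isLocalization_stalk ⟨z, hz⟩
  exact pir_prime (K := k) (hV.primeIdealOf ⟨z, hz⟩).asIdeal (C.presheaf.stalk z)

theorem pir_locA [IsAlgClosed k] [SmoothOfRelativeDimension 1 c] (z : C) :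
    IsPrincipalIdealRing (locA c z) := by
  have := pir_stalk c z
  exact IsPrincipalIdealRing.of_surjective (stEq c z) (stEq c z).surjective

/-- **valuation rings** -/
theorem mem_or_inv_mem [IsAlgClosed k] [SmoothOfRelativeDimension 1 c] (z : C) (b : FF c) :
    b ∈ locA c z ∨ b⁻¹ ∈ locA c z := by
  have := pir_locA c z
  have h2 : ValuationRing (locA c z) := inferInstance
  rcases ValuationRing.isInteger_or_isInteger (locA c z) b with ⟨a, ha⟩ | ⟨a, ha⟩
  · left
    rw [← ha]
    exact a.2
  · right
    rw [← ha]
    exact a.2

end Fermat.Agent.Jac
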