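import Fermat.Agent.Jac.CurveFields

/-!
# Every pointed smooth proper curve over an algebraically closed field has a `Model`
-/

set_option autoImplicit false
set_option linter.unusedSectionVars false

universe u

noncomputable section

open CategoryTheory CategoryTheory.Limits AlgebraicGeometry IsLocalRing TopologicalSpace Opposite
open NeronModelInfra Polynomial TensorProduct
open Fermat.Agent.AV Fermat.Agent.AV.Sch

namespace Fermat.Agent.Jac

variable {k : Type u} [Field k] [IsAlgClosed k] {C : Scheme.{u}}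
  (c : C ⟶ Spec (CommRingCat.of k)) [IsIntegral C] [SmoothOfRelativeDimension 1 c] [IsProper c]

/-- the intersection of the two charts -/
abbrev ovl (b : FF c) : C.Opens := dom c b ⊓ dom c b⁻¹

instance nonempty_ovl (b : FF c) : Nonempty (ovl c b) :=
  ⟨⟨genericPoint C, gen_mem_dom c b, gen_mem_dom c b⁻¹⟩⟩

theorem transcendental_inv {b : FF c} (hb : Transcendental k b) : Transcendental k b⁻¹ := by
  intro h
  apply hb
  rw [← inv_inv b]
  exact h.inv

theorem mem_chartA_dom (b : FF c) : b ∈ chartA c (dom c b) :=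
  (mem_chartA_iff c).2 fun _ hz => hz

/-- the coordinate -/
def xOvl (b : FF c) : chartA c (ovl c b) := ⟨b, chartA_mono c inf_le_left (mem_chartA_dom c b)⟩
/-- the coordinate at infinity -/
def yOvl (b : FF c) : chartA c (ovl c b) := ⟨b⁻¹, chartA_mono c inf_le_right (mem_chartA_dom c b⁻¹)⟩

theorem loc0_ovl {b : FF c} (hb : Transcendental k b) (s : chartA c (ovl c b)) :
    ∃ n : ℕ, xOvl c b ^ n * s ∈ subA c (inf_le_left : ovl c b ≤ dom c b) := by
  obtain ⟨n, hn⟩ := loc_dom c hb (s := s) ((mem_chartA_iff c).1 s.2)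
  exact ⟨n, (mem_chartA_iff c).2 hn⟩

theorem loci_ovl {b : FF c} (hb : Transcendental k b) (s : chartA c (ovl c b)) :
    ∃ n : ℕ, yOvl c b ^ n * s ∈ subA c (inf_le_right : ovl c b ≤ dom c b⁻¹) := by
  obtain ⟨n, hn⟩ := loc_dom c (transcendental_inv c hb) (s := s) (by
    rw [inv_inv, inf_comm]
    exact (mem_chartA_iff c).1 s.2)
  exact ⟨n, (mem_chartA_iff c).2 hn⟩

theorem inter_ovl (b : FF c) : subA c (inf_le_left : ovl c b ≤ dom c b) ⊓
    subA c (inf_le_right : ovl c b ≤ dom c b⁻¹) = ⊥ := by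
  rw [eq_bot_iff]
  rintro s ⟨h0, hi⟩
  have h0' : (s : FF c) ∈ chartA c (dom c b) := h0
  have hi' : (s : FF c) ∈ chartA c (dom c b⁻¹) := hi
  obtain ⟨a, ha⟩ := exists_const_of_regular c (b := (s : FF c)) fun z => by
    have hz : z ∈ dom c b ⊔ dom c b⁻¹ := by
      rw [dom_sup_dom_inv]
      trivial
    rcases hz with hz | hz
    · exact (mem_chartA_iff c).1 h0' z hz
    · exact (mem_chartA_iff c).1 hi' z hz
  exact Algebra.mem_bot.2 ⟨a, Subtype.ext ha⟩

variable (ε : SchemeHomOver (𝟙 (Spec (CommRingCat.of k))) c) {b : FF c}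
  (hb : b ∉ locA c (eps0 c ε))

include hb

theorem ne_zero_of_notMem : b ≠ 0 := by
  rintro rfl
  exact hb (zero_mem _)

theorem inv_mem_eps : b⁻¹ ∈ locA c (eps0 c ε) :=
  (mem_or_inv_mem c (eps0 c ε) b).resolve_left hb

theorem eps_mem : eps0 c ε ∈ dom c b⁻¹ := inv_mem_eps c ε hb

/-- evaluation at the base point -/
def evEps : subA c (inf_le_right : ovl c b ≤ dom c b⁻¹) →ₐ[k] k :=
  ((evA (epsPt c ε)).comp (Subalgebra.inclusion (chartA_le c (eps_mem c ε hb)))).comp
    (subEq c inf_le_right).toAlgHom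

theorem evEps_y : evEps c ε hb ⟨yOvl c b, mem_chartA_dom c b⁻¹⟩ = 0 := by
  by_contra h
  have h1 := evA_local (epsPt c ε) ⟨b⁻¹, inv_mem_eps c ε hb⟩ (isUnit_iff_ne_zero.2 h)
  obtain ⟨⟨u, v, huv, hvu⟩, hu⟩ := h1
  change u = _ at hu
  have h8 : (u : FF c) * (v : FF c) = 1 := congrArg Subtype.val huv
  have h9 : (u : FF c) = b⁻¹ := by rw [hu]
  have h10 : (v : FF c) = b := by
    rw [h9] at h8
    rw [← inv_eq_of_mul_eq_one_right h8, inv_inv]
  have h11 := v.2
  rw [h10] at h11
  exact hb h11

/-- **the two-chart data of the curve** -/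
def curveData : CurveData k where
  B := chartA c (ovl c b)
  B0 := subA c (inf_le_left : ovl c b ≤ dom c b)
  Bi := subA c (inf_le_right : ovl c b ≤ dom c b⁻¹)
  x := xOvl c b
  y := yOvl c b
  xy := Subtype.ext (mul_inv_cancel₀ (ne_zero_of_notMem c ε hb))
  x_mem := mem_chartA_dom c b
  y_mem := mem_chartA_dom c b⁻¹
  loc0 := loc0_ovl c (transcendental_of_notMem c hb)
  loci := loci_ovl c (transcendental_of_notMem c hb)
  inter := inter_ovl c b
  fin0 := finite_aeval c (transcendental_of_notMem c hb) _ _ rfl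
  fini := finite_aeval c (transcendental_inv c (transcendental_of_notMem c hb)) _ _ rfl
  trans := fun h => transcendental_of_notMem c hb (h.algHom (chartA c (ovl c b)).val)
  ded0 := ded_subA c (transcendental_of_notMem c hb) _ ⟨xOvl c b, mem_chartA_dom c b⟩ rfl
  dedi := ded_subA c (transcendental_inv c (transcendental_of_notMem c hb)) _
    ⟨yOvl c b, mem_chartA_dom c b⁻¹⟩ rfl
  smooth0 := smooth_subA c (isAffineOpen_dom c (transcendental_of_notMem c hb)) _
  smoothi := smooth_subA c
    (isAffineOpen_dom c (transcendental_inv c (transcendental_of_notMem c hb))) _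
  diag0 := diag_subA c (transcendental_of_notMem c hb) _ ⟨xOvl c b, mem_chartA_dom c b⟩ rfl
  diagi := diag_subA c (transcendental_inv c (transcendental_of_notMem c hb)) _
    ⟨yOvl c b, mem_chartA_dom c b⁻¹⟩ rfl
  e := evEps c ε hb
  e_y := evEps_y c ε hb

/-- points of affine opens and evaluation -/
theorem specMap_eq_fromSpec {U : C.Opens} (hU : IsAffineOpen U) {z : C} (hz : z ∈ U) :
    C.fromSpecStalk z = Spec.map (C.presheaf.germ U z hz) ≫ hU.fromSpec := by
  rw [← hU.fromSpecStalk_eq_fromSpecStalk hz]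
  rfl

/-- **the model of the curve** -/
def curveModel : Model (curveData c ε hb) c ε where
  V0 := dom c b
  Vi := dom c b⁻¹
  aff0 := isAffineOpen_dom c (transcendental_of_notMem c hb)
  affi := isAffineOpen_dom c (transcendental_inv c (transcendental_of_notMem c hb))
  cover := dom_sup_dom_inv c b
  θ0 := subTheta c _
  θi := subTheta c _
  θ := (secEq c (ovl c b)).symm
  comp0 := res_subTheta c _
  compi := res_subTheta c _
  inter0 := by
    have h1 : subTheta c (inf_le_left : ovl c b ≤ dom c b) ⟨xOvl c b, mem_chartA_dom c b⟩ =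
        domSec c b := by
      apply secF_injective c
      rw [secF_subTheta, secF_domSec]
      rfl
    change dom c b ⊓ dom c b⁻¹ = C.basicOpen (subTheta c (inf_le_left : ovl c b ≤ dom c b)
      ⟨xOvl c b, mem_chartA_dom c b⟩)
    rw [h1, basicOpen_domSec c (ne_zero_of_notMem c ε hb)]
  interi := by
    have h1 : subTheta c (inf_le_right : ovl c b ≤ dom c b⁻¹) ⟨yOvl c b, mem_chartA_dom c b⁻¹⟩ =
        domSec c b⁻¹ := by
      apply secF_injective c
      rw [secF_subTheta, secF_domSec]
      rfl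
    change dom c b ⊓ dom c b⁻¹ = C.basicOpen (subTheta c (inf_le_right : ovl c b ≤ dom c b⁻¹)
      ⟨yOvl c b, mem_chartA_dom c b⁻¹⟩)
    rw [h1, basicOpen_domSec c (inv_ne_zero (ne_zero_of_notMem c ε hb)), inv_inv, inf_comm]
  w0 := by
    rw [fromSpec_comp]
    congr 1
    ext a
    exact (subTheta_algebraMap c _ a).symm
  wi := by
    rw [fromSpec_comp]
    congr 1
    ext a
    exact (subTheta_algebraMap c _ a).symm
  eps := by
    have h1 : ε.1 = Spec.map (evS (epsPt c ε)) ≫ C.fromSpecStalk (eps0 c ε) :=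
      (spec_evS (epsPt c ε)).symm
    rw [h1, specMap_eq_fromSpec c ε hb
      (isAffineOpen_dom c (transcendental_inv c (transcendental_of_notMem c hb)))
      (eps_mem c ε hb), ← Category.assoc, ← Spec.map_comp]
    congr 2
    ext s
    change evEps c ε hb ((subTheta c (inf_le_right : ovl c b ≤ dom c b⁻¹)).symm s) =
      evS (epsPt c ε) (C.presheaf.germ (dom c b⁻¹) (eps0 c ε) (eps_mem c ε hb) s)
    have h2 := evA_mk (epsPt c ε) (C.presheaf.germ (dom c b⁻¹) (eps0 c ε) (eps_mem c ε hb) s)
      (by rw [toF_germ]; exact mem_locA_of_germ c (eps_mem c ε hb) s)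
    rw [← h2]
    change evA (epsPt c ε) _ = evA (epsPt c ε) _
    congr 1
    apply Subtype.ext
    have h3 := secF_subTheta c (inf_le_right : ovl c b ≤ dom c b⁻¹)
      ((subTheta c (inf_le_right : ovl c b ≤ dom c b⁻¹)).symm s)
    rw [RingEquiv.apply_symm_apply] at h3
    exact h3.symm.trans (toF_germ c (dom c b⁻¹) (eps0 c ε) (eps_mem c ε hb) s).symm

omit hb in
/-- **block CURVE of S25** -/
theorem exists_model : ∃ X : CurveData k, Nonempty (Model X c ε) := by
  obtain ⟨b, hb⟩ := exists_pole c ε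
  exact ⟨curveData c ε hb, ⟨curveModel c ε hb⟩⟩

end Fermat.Agent.Jac
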