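import Fermat.Agent.Jac.CurveSm

/-!
# Differentials of a smooth curve are locally generated by one element
-/

set_option autoImplicit false
set_option linter.unusedSectionVars false

universe u

noncomputable section

open KaehlerDifferential

namespace Fermat.Agent.Jac

variable {k S : Type u} [Field k] [CommRing S] [Algebra k S]

theorem exists_pow_smul_mem_of_fg {M : Type*} [AddCommGroup M] [Module S M] [Module.Finite S M]
    (f : S) (N : Submodule S M) (h : ∀ η : M, ∃ n : ℕ, f ^ n • η ∈ N) :
    ∃ n : ℕ, ∀ η : M, f ^ n • η ∈ N := by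
  obtain ⟨s, hs⟩ := (Module.finite_def.1 (inferInstance : Module.Finite S M))
  choose n hn using h
  refine ⟨s.sup n, fun η => ?_⟩
  have hη : η ∈ Submodule.span S (s : Set M) := by rw [hs]; trivial
  induction hη using Submodule.span_induction with
  | mem x hx =>
    obtain ⟨l, hl⟩ := Nat.exists_eq_add_of_le (Finset.le_sup (f := n) hx)
    rw [hl, pow_add, mul_comm, mul_smul]
    exact N.smul_mem _ (hn x)
  | zero => rw [smul_zero]; exact N.zero_mem
  | add x y _ _ hx hy => rw [smul_add]; exact N.add_mem hx hy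
  | smul a x _ hx => rw [smul_comm]; exact N.smul_mem _ hx

/-- **differentials are locally generated by one element** -/
theorem LocSmooth.kaehler [Algebra.FiniteType k S] (h : LocSmooth k S) (p : Ideal S)
    (hp : p.IsPrime) : ∃ s : S, s ∉ p ∧ ∃ ω : Ω[S⁄k], ∀ η : Ω[S⁄k],
      s • η ∈ Submodule.span S {ω} := by
  obtain ⟨f, hf, hs⟩ := h p hp
  have hnt : Nontrivial (Localization.Away f) := by
    refine ⟨⟨0, 1, fun h01 => ?_⟩⟩
    have h1 : algebraMap S (Localization.Away f) 1 = algebraMap S (Localization.Away f) 0 := by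
      rw [map_one, map_zero, h01]
    obtain ⟨⟨_, n, rfl⟩, hn⟩ := IsLocalization.exists_of_eq (M := Submonoid.powers f) h1
    change f ^ n * 1 = f ^ n * 0 at hn
    rw [mul_one, mul_zero] at hn
    exact hf (hp.mem_of_pow_mem n (by rw [hn]; exact p.zero_mem))
  have hst : Algebra.IsStandardSmooth k (Localization.Away f) :=
    Algebra.IsStandardSmoothOfRelativeDimension.isStandardSmooth 1
  have hrk : Module.rank (Localization.Away f) Ω[(Localization.Away f)⁄k] = (1 : ℕ) :=
    Algebra.IsStandardSmoothOfRelativeDimension.rank_kaehlerDifferential 1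
  have hfr : Module.finrank (Localization.Away f) Ω[(Localization.Away f)⁄k] = 1 :=
    Module.finrank_eq_of_rank_eq hrk
  obtain ⟨b⟩ := (finrank_eq_one_iff Unit).1 hfr
  set φ := map k k S (Localization.Away f) with hφ
  have hloc : IsLocalizedModule (Submonoid.powers f) φ := inferInstance
  obtain ⟨⟨ω, ⟨_, n, rfl⟩⟩, hω⟩ := IsLocalizedModule.surj (Submonoid.powers f) φ (b ())
  have key : ∀ η : Ω[S⁄k], ∃ N : ℕ, f ^ N • η ∈ Submodule.span S {ω} := by
    intro η
    have h1 : φ η = (b.repr (φ η) ()) • b () := by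
      conv_lhs => rw [← b.sum_repr (φ η)]
      simp
    obtain ⟨⟨a, ⟨_, m, rfl⟩⟩, ha⟩ := IsLocalization.surj (Submonoid.powers f) (b.repr (φ η) ())
    have h2 : φ (f ^ (m + n) • η - a • ω) = 0 := by
      change (f ^ n : S) • b () = φ ω at hω
      change b.repr (φ η) () * algebraMap S _ (f ^ m) = algebraMap S _ a at ha
      rw [map_sub, map_smul, map_smul, ← hω, pow_add, mul_smul, h1, ← algebraMap_smul
        (Localization.Away f) (f ^ m), ← algebraMap_smul (Localization.Away f) (f ^ n),
        ← algebraMap_smul (Localization.Away f) a, ← algebraMap_smul (Localization.Away f) (f ^ n),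
        smul_smul, smul_smul, smul_smul, ← ha, sub_eq_zero]
      congr 1
      ring
    obtain ⟨⟨_, l, rfl⟩, hl⟩ := (IsLocalizedModule.eq_zero_iff (Submonoid.powers f) φ).1 h2
    change (f ^ l : S) • (f ^ (m + n) • η - a • ω) = 0 at hl
    refine ⟨l + (m + n), ?_⟩
    rw [smul_sub, sub_eq_zero] at hl
    rw [pow_add, mul_smul, hl, smul_smul]
    exact Submodule.smul_mem _ _ (Submodule.mem_span_singleton_self ω)
  obtain ⟨N, hN⟩ := exists_pow_smul_mem_of_fg f (Submodule.span S {ω}) key
  exact ⟨f ^ N, fun hfN => hf (hp.mem_of_pow_mem N hfN), ω, hN⟩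

end Fermat.Agent.Jac
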