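import Fermat.Agent.Jac.CurveSec

/-!
# Points of a smooth integral curve over an algebraically closed field
-/

set_option autoImplicit false
set_option linter.unusedSectionVars false

universe u

noncomputable section

open CategoryTheory CategoryTheory.Limits AlgebraicGeometry IsLocalRing TopologicalSpace Opposite
open Fermat.Agent.AV Fermat.Agent.AV.Sch

namespace Fermat.Agent.Jac

variable {k : Type u} [Field k] {C : Scheme.{u}} (c : C ⟶ Spec (CommRingCat.of k)) [IsIntegral C]

/-- primes of a local principal ideal domain -/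
theorem prime_cases {R : Type*} [CommRing R] [IsDomain R] [IsPrincipalIdealRing R] [IsLocalRing R]
    (p : Ideal R) [hp : p.IsPrime] : p = ⊥ ∨ p = maximalIdeal R := by
  by_cases h : p = ⊥
  · exact Or.inl h
  · exact Or.inr (eq_maximalIdeal (hp.isMaximal h))

variable [IsAlgClosed k] [SmoothOfRelativeDimension 1 c]

include c in
/-- **dimension one** -/
theorem eq_or_eq_of_specializes {z w : C} (h : z ⤳ w) : z = genericPoint C ∨ z = w := by
  have h1 : z ∈ Set.range (C.fromSpecStalk w) := by
    rw [Scheme.range_fromSpecStalk]; exact h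
  obtain ⟨q, hq⟩ := h1
  have := pir_stalk c w
  rcases prime_cases q.asIdeal with h2 | h2
  · left
    have h3 : genericPoint C ⤳ w := (genericPoint_spec C).specializes trivial
    have h4 : genericPoint C ∈ Set.range (C.fromSpecStalk w) := by
      rw [Scheme.range_fromSpecStalk]; exact h3
    obtain ⟨q', hq'⟩ := h4
    have h5 : q ⤳ q' := by
      refine (PrimeSpectrum.le_iff_specializes q q').1 ?_
      change q.asIdeal ≤ q'.asIdeal
      rw [h2]
      exact bot_le
    have h6 : z ⤳ genericPoint C := by
      rw [← hq, ← hq']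
      exact h5.map (C.fromSpecStalk w).continuous
    exact (h6.antisymm ((genericPoint_spec C).specializes trivial)).eq
  · right
    have h5 : q = closedPoint (C.presheaf.stalk w) := PrimeSpectrum.ext h2
    rw [← hq, h5, Scheme.fromSpecStalk_closedPoint]

include c in
theorem isClosed_singleton {z : C} (hz : z ≠ genericPoint C) : IsClosed ({z} : Set C) := by
  rw [← closure_eq_iff_isClosed]
  refine Set.Subset.antisymm (fun w hw => ?_) subset_closure
  rw [← specializes_iff_mem_closure] at hw
  rcases eq_or_eq_of_specializes c hw with h | h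
  · exact absurd h hz
  · exact h.symm

theorem locA_ne_top {z : C} (hz : z ≠ genericPoint C) : locA c z ≠ ⊤ :=
  fun h => hz (eq_gen c h)

theorem locA_ne_field {z : C} (hz : z ≠ genericPoint C) : ¬ IsField (locA c z) := by
  intro h
  apply locA_ne_top c hz
  rw [eq_top_iff]
  intro b _
  rcases mem_or_inv_mem c z b with h1 | h1
  · exact h1
  · by_cases h0 : b = 0
    · rw [h0]; exact zero_mem _
    have h2 : (⟨b⁻¹, h1⟩ : locA c z) ≠ 0 := fun h3 => h0 (inv_eq_zero.1 (congrArg Subtype.val h3))
    obtain ⟨d, hd⟩ := h.mul_inv_cancel h2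
    have h3 : b⁻¹ * (d : FF c) = 1 := congrArg Subtype.val hd
    have h4 : (d : FF c) = b := by
      rw [← inv_eq_of_mul_eq_one_right h3, inv_inv]
    rw [← h4]
    exact d.2

theorem isDiscreteValuationRing_locA {z : C} (hz : z ≠ genericPoint C) :
    IsDiscreteValuationRing (locA c z) := by
  have := pir_locA c z
  exact { not_a_field' := fun h => locA_ne_field c hz (IsLocalRing.isField_iff_maximalIdeal_eq.2 h) }

/-- **closed points are rational** -/
theorem exists_const {z : C} (hz : z ≠ genericPoint C) (s : locA c z) :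
    ∃ a : k, ¬ IsUnit (s - algebraMap k (locA c z) a) := by
  obtain ⟨V, hV, hzV, hst⟩ := exists_smooth_chart c z
  let _ := (kSec c V).hom.toAlgebra
  have : Algebra.IsStandardSmoothOfRelativeDimension 1 k Γ(C, V) := hst
  have : Algebra.IsStandardSmooth k Γ(C, V) :=
    Algebra.IsStandardSmoothOfRelativeDimension.isStandardSmooth 1
  have hne : Nonempty V := ⟨⟨z, hzV⟩⟩
  let _ := TopCat.Presheaf.algebra_section_stalk C.presheaf (⟨z, hzV⟩ : V)
  have hloc : IsLocalization.AtPrime (C.presheaf.stalk z) (hV.primeIdealOf ⟨z, hzV⟩).asIdeal :=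
    hV.isLocalization_stalk ⟨z, hzV⟩
  set p := (hV.primeIdealOf ⟨z, hzV⟩).asIdeal with hp
  -- the prime is maximal
  obtain ⟨m, hmax, hpm⟩ := Ideal.exists_le_maximal p (Ideal.IsPrime.ne_top inferInstance)
  have hpmax : p = m := by
    let w : C := hV.fromSpec ⟨m, hmax.isPrime⟩
    have hw : z ⤳ w := by
      have h1 : hV.primeIdealOf ⟨z, hzV⟩ ⤳ (⟨m, hmax.isPrime⟩ : PrimeSpectrum Γ(C, V)) :=
        (PrimeSpectrum.le_iff_specializes _ _).1 hpm
      have h2 := h1.map hV.fromSpec.continuous
      have h3 : hV.fromSpec (hV.primeIdealOf ⟨z, hzV⟩) = z := hV.fromSpec_primeIdealOf ⟨z, hzV⟩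
      rw [h3] at h2
      exact h2
    rcases eq_or_eq_of_specializes c hw with h1 | h1
    · exact absurd h1 hz
    · have h3 : hV.fromSpec (hV.primeIdealOf ⟨z, hzV⟩) = z := hV.fromSpec_primeIdealOf ⟨z, hzV⟩
      have h4 : hV.primeIdealOf ⟨z, hzV⟩ = (⟨m, hmax.isPrime⟩ : PrimeSpectrum Γ(C, V)) := by
        apply hV.fromSpec.isOpenEmbedding.injective
        rw [h3]
        exact h1
      exact congrArg PrimeSpectrum.asIdeal h4
  have hpm' : p.IsMaximal := hpmax ▸ hmax
  -- constants in the stalk
  have hst2 : ∀ s : C.presheaf.stalk z, ∃ a : k, ¬ IsUnit (s - kGerm c z a) := by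
    intro s
    let _ : Algebra k (C.presheaf.stalk z) := (kGerm c z).hom.toAlgebra
    have : IsScalarTower k Γ(C, V) (C.presheaf.stalk z) :=
      IsScalarTower.of_algebraMap_eq' (by
        have h1 := kSec_germ c V z hzV
        exact (congrArg CommRingCat.Hom.hom h1).symm)
    obtain ⟨-, x, hx⟩ := exists_isRegSys_noeth (K := k) 1 p
      (fun s => exists_sub_algebraMap_mem p s) (C.presheaf.stalk z)
    obtain ⟨a, ha⟩ := hx.res s
    exact ⟨a, ha⟩
  obtain ⟨a, ha⟩ := hst2 ((stEq c z).symm s)
  refine ⟨a, fun hu => ha ?_⟩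
  have h1 := hu.map (stEq c z).symm
  rw [map_sub, stEq_symm_algebraMap] at h1
  exact h1

variable [LocallyOfFiniteType c] [CompactSpace C]

include c in
theorem isNoetherian_curve : AlgebraicGeometry.IsNoetherian C := by
  have := LocallyOfFiniteType.isLocallyNoetherian c
  exact { }

include c in
/-- **proper closed subsets are finite** -/
theorem finite_of_isClosed {Z : Set C} (hZ : IsClosed Z) (hg : genericPoint C ∉ Z) : Z.Finite := by
  have := isNoetherian_curve c
  obtain ⟨S, hS, hcl, hir, rfl⟩ := NoetherianSpace.exists_finite_set_isClosed_irreducible hZ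
  refine Set.Finite.sUnion hS fun T hT => ?_
  have hTc := hcl T hT
  have hTi := hir T hT
  obtain ⟨z, hz⟩ := QuasiSober.sober hTi hTc
  have hzT : z ∈ T := hz ▸ subset_closure rfl
  have hzg : z ≠ genericPoint C := by
    rintro rfl
    exact hg (Set.mem_sUnion_of_mem hzT hT)
  have h1 := isClosed_singleton c hzg
  rw [← hz.def, h1.closure_eq]
  exact Set.finite_singleton z

/-- a rational function has finitely many poles -/
theorem finite_poles (b : FF c) : {z : C | b ∉ locA c z}.Finite := by
  refine finite_of_isClosed c ?_ ?_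
  · exact (dom c b).2.isClosed_compl
  · intro h
    exact h (gen_mem_dom c b)

end Fermat.Agent.Jac
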