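import Fermat.Agent.Jac.CurveLoc

/-!
# Sections of an integral scheme as rational functions
-/

set_option autoImplicit false
set_option linter.unusedSectionVars false

universe u

noncomputable section

open CategoryTheory CategoryTheory.Limits AlgebraicGeometry IsLocalRing TopologicalSpace Opposite
open Fermat.Agent.AV Fermat.Agent.AV.Sch

namespace Fermat.Agent.Jac

variable {k : Type u} [Field k] {C : Scheme.{u}} (c : C ⟶ Spec (CommRingCat.of k)) [IsIntegral C]

theorem secF_res {U W : C.Opens} [Nonempty U] [Nonempty W] (h : W ≤ U) (s : Γ(C, U)) :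
    secF c W (C.presheaf.map (homOfLE h).op s) = secF c U s := by
  have h1 := C.presheaf.germ_res (homOfLE h) (genericPoint C) (gen_mem W)
  exact congrArg (fun φ => φ.hom s) h1

theorem exists_local_section {z : C} {b : FF c} (hb : b ∈ locA c z) :
    ∃ (U : C.Opens) (hz : z ∈ U) (s : Γ(C, U)), toF c z (C.presheaf.germ U z hz s) = b := by
  obtain ⟨t, ht⟩ := hb
  obtain ⟨U, hz, s, hs⟩ := C.presheaf.exists_germ_eq t
  exact ⟨U, hz, s, by rw [hs]; exact ht⟩

theorem mem_locA_of_germ {U : C.Opens} {z : C} (hz : z ∈ U) (s : Γ(C, U)) [Nonempty U] :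
    secF c U s ∈ locA c z := ⟨_, toF_germ c U z hz s⟩

/-- **sections are the rational functions regular at all points** -/
theorem exists_section {U : C.Opens} [hU : Nonempty U] {b : FF c} (h : ∀ z ∈ U, b ∈ locA c z) :
    ∃ s : Γ(C, U), secF c U s = b := by
  choose W hW s hs using fun z : U => exists_local_section c (h z z.2)
  have hne : ∀ z : U, Nonempty (W z ⊓ U : C.Opens) := fun z => ⟨⟨z, hW z, z.2⟩⟩
  have hneW : ∀ z : U, Nonempty (W z) := fun z => ⟨⟨z, hW z⟩⟩
  have hsec : ∀ z : U, secF c (W z) (s z) = b := fun z => by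
    rw [← hs z, toF_germ]
  let s' : ∀ z : U, Γ(C, W z ⊓ U) := fun z => C.presheaf.map (homOfLE inf_le_left).op (s z)
  have hs' : ∀ z : U, secF c (W z ⊓ U) (s' z) = b := fun z => by
    rw [secF_res, hsec]
  obtain ⟨t, ht, -⟩ := C.sheaf.existsUnique_gluing' (fun z : U => W z ⊓ U) U
    (fun z => homOfLE inf_le_right)
    (fun z hz => Opens.mem_iSup.2 ⟨⟨z, hz⟩, hW ⟨z, hz⟩, hz⟩) s' (by
      intro z w
      have hne2 : Nonempty ((W z ⊓ U) ⊓ (W w ⊓ U) : C.Opens) :=
        ⟨⟨genericPoint C, gen_mem (W z ⊓ U), gen_mem (W w ⊓ U)⟩⟩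
      apply secF_injective c ((W z ⊓ U) ⊓ (W w ⊓ U))
      have e1 := secF_res c (inf_le_left : (W z ⊓ U) ⊓ (W w ⊓ U) ≤ W z ⊓ U) (s' z)
      have e2 := secF_res c (inf_le_right : (W z ⊓ U) ⊓ (W w ⊓ U) ≤ W w ⊓ U) (s' w)
      rw [hs'] at e1 e2
      exact e1.trans e2.symm)
  refine ⟨t, ?_⟩
  have z : U := hU.some
  have e1 := secF_res c (inf_le_right : W z ⊓ U ≤ U) t
  rw [← e1, ← hs' z, ← ht z]
  rfl

theorem exists_section_iff {U : C.Opens} [hU : Nonempty U] {b : FF c} :
    (∃ s : Γ(C, U), secF c U s = b) ↔ ∀ z ∈ U, b ∈ locA c z :=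
  ⟨fun ⟨s, hs⟩ z hz => hs ▸ mem_locA_of_germ c hz s, exists_section c⟩

/-- the open set where a rational function is regular -/
def dom (b : FF c) : C.Opens :=
  ⟨{z | b ∈ locA c z}, by
    rw [isOpen_iff_forall_mem_open]
    intro z hz
    obtain ⟨U, hzU, s, hs⟩ := exists_local_section c hz
    have : Nonempty U := ⟨⟨z, hzU⟩⟩
    refine ⟨U, fun w hw => ?_, U.2, hzU⟩
    change b ∈ locA c w
    rw [← hs, toF_germ]
    exact mem_locA_of_germ c hw s⟩

theorem mem_dom {b : FF c} {z : C} : z ∈ dom c b ↔ b ∈ locA c z := Iff.rfl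

theorem gen_mem_dom (b : FF c) : genericPoint C ∈ dom c b := by
  rw [mem_dom, locA_gen]
  trivial

instance nonempty_dom (b : FF c) : Nonempty (dom c b) := ⟨⟨genericPoint C, gen_mem_dom c b⟩⟩

/-- the section attached to a rational function -/
def domSec (b : FF c) : Γ(C, dom c b) := (exists_section c (U := dom c b) fun _ hz => hz).choose

@[simp] theorem secF_domSec (b : FF c) : secF c (dom c b) (domSec c b) = b :=
  (exists_section c (U := dom c b) fun _ hz => hz).choose_spec

theorem mem_basicOpen_iff {U : C.Opens} [Nonempty U] {z : C} (hz : z ∈ U) (s : Γ(C, U)) :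
    z ∈ C.basicOpen s ↔ secF c U s ≠ 0 ∧ (secF c U s)⁻¹ ∈ locA c z := by
  rw [Scheme.mem_basicOpen C s z hz]
  constructor
  · intro h
    have h1 := h.map (stEq c z)
    have h2 : ((stEq c z (C.presheaf.germ U z hz s) : locA c z) : FF c) = secF c U s :=
      toF_germ c U z hz s
    obtain ⟨⟨a, b, hab, hba⟩, ha⟩ := h1
    change a = _ at ha
    have h3 : (a : FF c) = secF c U s := by rw [ha, h2]
    have h4 : (a : FF c) * (b : FF c) = 1 := congrArg Subtype.val hab
    rw [← h3]
    exact ⟨left_ne_zero_of_mul_eq_one h4, by rw [inv_eq_of_mul_eq_one_right h4]; exact b.2⟩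
  · rintro ⟨h0, h⟩
    obtain ⟨t, ht⟩ := h
    refine IsUnit.of_mul_eq_one t (toF_injective c z ?_)
    rw [map_mul, ht, toF_germ, mul_inv_cancel₀ h0, map_one]

/-- the smaller open set is a basic open set -/
theorem basicOpen_domSec {b : FF c} (hb : b ≠ 0) :
    C.basicOpen (domSec c b) = dom c b ⊓ dom c b⁻¹ := by
  ext z
  constructor
  · intro h
    have hz : z ∈ dom c b := C.basicOpen_le _ h
    have h1 := (mem_basicOpen_iff c hz (domSec c b)).1 h
    rw [secF_domSec] at h1
    exact ⟨hz, h1.2⟩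
  · rintro ⟨hz, h2⟩
    refine (mem_basicOpen_iff c hz (domSec c b)).2 ?_
    rw [secF_domSec]
    exact ⟨hb, h2⟩

theorem dom_sup_dom_inv [IsAlgClosed k] [SmoothOfRelativeDimension 1 c] (b : FF c) :
    dom c b ⊔ dom c b⁻¹ = ⊤ := by
  rw [eq_top_iff]
  intro z _
  exact mem_or_inv_mem c z b

end Fermat.Agent.Jac
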