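import Fermat.Agent.Jac.CurveX

/-!
# Affine open subsets of a smooth curve: smoothness, finite type
-/

set_option autoImplicit false
set_option linter.unusedSectionVars false

universe u

noncomputable section

open CategoryTheory CategoryTheory.Limits AlgebraicGeometry IsLocalRing TopologicalSpace Opposite
open NeronModelInfra Polynomial
open Fermat.Agent.AV Fermat.Agent.AV.Sch

namespace Fermat.Agent.Jac

/-- locally standard smooth of relative dimension one -/
def LocSmooth (k S : Type u) [Field k] [CommRing S] [Algebra k S] : Prop :=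
  ∀ p : Ideal S, p.IsPrime → ∃ f : S, f ∉ p ∧
    Algebra.IsStandardSmoothOfRelativeDimension 1 k (Localization.Away f)

theorem LocSmooth.of_algEquiv {k S S' : Type u} [Field k] [CommRing S] [Algebra k S] [CommRing S']
    [Algebra k S'] (e : S ≃ₐ[k] S') (h : LocSmooth k S) : LocSmooth k S' := by
  intro p hp
  obtain ⟨f, hf, hs⟩ := h (p.comap (e : S →+* S')) (Ideal.IsPrime.comap _)
  refine ⟨e f, fun h1 => hf h1, ?_⟩
  have hl : IsLocalization.Away (e f) (Localization.Away (e f)) := inferInstance
  let e' : Localization.Away f ≃ₐ[k] Localization.Away (e f) :=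
    { IsLocalization.ringEquivOfRingEquiv (Localization.Away f) (Localization.Away (e f))
        (e : S ≃+* S') (M := Submonoid.powers f) (T := Submonoid.powers (e f)) (by
          rw [Submonoid.map_powers]
          rfl) with
      commutes' := fun a => by
        rw [IsScalarTower.algebraMap_apply k S (Localization.Away f)]
        simp only [RingEquiv.toEquiv_eq_coe, Equiv.toFun_as_coe, EquivLike.coe_coe]
        rw [IsLocalization.ringEquivOfRingEquiv_eq]
        change algebraMap S' _ (e (algebraMap k S a)) = _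
        rw [e.commutes, ← IsScalarTower.algebraMap_apply k S' (Localization.Away (e f))] }
  exact Algebra.IsStandardSmoothOfRelativeDimension.of_algEquiv 1 e'

variable {k : Type u} [Field k] {C : Scheme.{u}} (c : C ⟶ Spec (CommRingCat.of k)) [IsIntegral C]

theorem kSec_eq_appLE (U : C.Opens) : kSec c U =
    (Scheme.ΓSpecIso (CommRingCat.of k)).inv ≫ c.appLE ⊤ U le_top := by
  rw [kSec, kTop, Category.assoc]
  congr 1

theorem locSmooth_section [SmoothOfRelativeDimension 1 c] {U : C.Opens} (hU : IsAffineOpen U) :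
    letI := (kSec c U).hom.toAlgebra
    LocSmooth k Γ(C, U) := by
  letI := (kSec c U).hom.toAlgebra
  have h1 : RingHom.Locally (RingHom.IsStandardSmoothOfRelativeDimension 1)
      (c.appLE ⊤ U le_top).hom :=
    HasRingHomProperty.appLE (@SmoothOfRelativeDimension 1) c ‹_› ⟨⊤, isAffineOpen_top _⟩ ⟨U, hU⟩ _
  obtain ⟨s, hs, h2⟩ := h1
  intro p hp
  have h3 : ¬ s ⊆ p := fun h => hp.ne_top (by rw [← top_le_iff, ← hs, Ideal.span_le]; exact h)
  obtain ⟨f, hfs, hfp⟩ := Set.not_subset.1 h3
  refine ⟨f, hfp, ?_⟩
  have h4 := (RingHom.isStandardSmoothOfRelativeDimension_respectsIso (n := 1)).2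
    ((algebraMap Γ(C, U) (Localization.Away f)).comp (c.appLE ⊤ U le_top).hom)
    (Scheme.ΓSpecIso (CommRingCat.of k)).symm.commRingCatIsoToRingEquiv (h2 f hfs)
  have h5 : (((algebraMap Γ(C, U) (Localization.Away f)).comp (c.appLE ⊤ U le_top).hom).comp
      (Scheme.ΓSpecIso (CommRingCat.of k)).symm.commRingCatIsoToRingEquiv.toRingHom) =
        algebraMap k (Localization.Away f) := by
    rw [IsScalarTower.algebraMap_eq k Γ(C, U) (Localization.Away f)]
    change _ = (algebraMap Γ(C, U) (Localization.Away f)).comp (kSec c U).hom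
    rw [kSec_eq_appLE]
    rfl
  rw [h5] at h4
  exact (RingHom.isStandardSmoothOfRelativeDimension_algebraMap 1).1 h4

theorem smooth_section [Smooth c] {U : C.Opens} (hU : IsAffineOpen U) :
    letI := (kSec c U).hom.toAlgebra
    Algebra.Smooth k Γ(C, U) := by
  letI := (kSec c U).hom.toAlgebra
  have h1 := c.smooth_appLE (isAffineOpen_top (Spec (CommRingCat.of k))) hU le_top
  have h4 := RingHom.Smooth.respectsIso.2 (c.appLE ⊤ U le_top).hom
    (Scheme.ΓSpecIso (CommRingCat.of k)).symm.commRingCatIsoToRingEquiv h1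
  have h5 : ((c.appLE ⊤ U le_top).hom.comp
      (Scheme.ΓSpecIso (CommRingCat.of k)).symm.commRingCatIsoToRingEquiv.toRingHom) =
        algebraMap k Γ(C, U) := by
    change _ = (kSec c U).hom
    rw [kSec_eq_appLE]
    rfl
  change RingHom.Smooth ((c.appLE ⊤ U le_top).hom.comp
      (Scheme.ΓSpecIso (CommRingCat.of k)).symm.commRingCatIsoToRingEquiv.toRingHom) at h4
  rw [h5] at h4
  exact RingHom.smooth_algebraMap.1 h4

end Fermat.Agent.Jac
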