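import Fermat.Agent.Jac.CurveFin2

/-!
# Charts of the curve as subrings of the function field
-/

set_option autoImplicit false
set_option linter.unusedSectionVars false

universe u

noncomputable section

open CategoryTheory CategoryTheory.Limits AlgebraicGeometry IsLocalRing TopologicalSpace Opposite
open NeronModelInfra Polynomial
open Fermat.Agent.AV Fermat.Agent.AV.Sch

namespace Fermat.Agent.Jac

variable {k : Type u} [Field k] {C : Scheme.{u}} (c : C ⟶ Spec (CommRingCat.of k)) [IsIntegral C]

theorem mem_chartA_iff {U : C.Opens} [Nonempty U] {b : FF c} :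
    b ∈ chartA c U ↔ ∀ z ∈ U, b ∈ locA c z := exists_section_iff c

theorem chartA_mono {U W : C.Opens} [Nonempty U] [Nonempty W] (h : W ≤ U) :
    chartA c U ≤ chartA c W := fun _ hb => (mem_chartA_iff c).2 fun z hz =>
  (mem_chartA_iff c).1 hb z (h hz)

/-- sections as elements of the chart ring -/
def secEq (U : C.Opens) [Nonempty U] : Γ(C, U) ≃+* chartA c U :=
  RingEquiv.ofBijective ((secF c U).codRestrict (chartA c U) fun s => ⟨s, rfl⟩)
    ⟨fun a b h => secF_injective c U (congrArg Subtype.val h), fun ⟨_, s, hs⟩ => ⟨s, Subtype.ext hs⟩⟩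

@[simp] theorem coe_secEq (U : C.Opens) [Nonempty U] (s : Γ(C, U)) :
    (secEq c U s : FF c) = secF c U s := rfl

theorem secF_secEq_symm (U : C.Opens) [Nonempty U] (b : chartA c U) :
    secF c U ((secEq c U).symm b) = b := by
  rw [← coe_secEq, RingEquiv.apply_symm_apply]

theorem secEq_kSec (U : C.Opens) [Nonempty U] (a : k) :
    secEq c U (kSec c U a) = algebraMap k (chartA c U) a :=
  Subtype.ext (secF_kSec c U a)

/-- the ring of a bigger open set inside the ring of a smaller one -/
def subA {U W : C.Opens} [Nonempty U] [Nonempty W] (_h : W ≤ U) : Subalgebra k (chartA c W) :=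
  (chartA c U).comap (chartA c W).val

theorem mem_subA {U W : C.Opens} [Nonempty U] [Nonempty W] {h : W ≤ U} {b : chartA c W} :
    b ∈ subA c h ↔ (b : FF c) ∈ chartA c U := Iff.rfl

/-- the ring of a bigger open set inside the ring of a smaller one -/
def subEq {U W : C.Opens} [Nonempty U] [Nonempty W] (h : W ≤ U) : subA c h ≃ₐ[k] chartA c U where
  toFun b := ⟨b.1.1, b.2⟩
  invFun b := ⟨⟨b.1, chartA_mono c h b.2⟩, b.2⟩
  left_inv _ := rfl
  right_inv _ := rfl
  map_mul' _ _ := rfl
  map_add' _ _ := rfl
  commutes' _ := rfl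

/-- functions on the bigger open set -/
def subTheta {U W : C.Opens} [Nonempty U] [Nonempty W] (h : W ≤ U) : subA c h ≃+* Γ(C, U) :=
  (subEq c h).toRingEquiv.trans (secEq c U).symm

theorem secF_subTheta {U W : C.Opens} [Nonempty U] [Nonempty W] (h : W ≤ U) (b : subA c h) :
    secF c U (subTheta c h b) = (b : chartA c W) := by
  change secF c U ((secEq c U).symm (subEq c h b)) = _
  rw [secF_secEq_symm]
  rfl

theorem res_subTheta {U W : C.Opens} [Nonempty U] [Nonempty W] (h : W ≤ U) (b : subA c h) :
    (secEq c W).symm (b : chartA c W) = C.presheaf.map (homOfLE h).op (subTheta c h b) := by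
  apply secF_injective c W
  rw [secF_secEq_symm, secF_res, secF_subTheta]

theorem subTheta_algebraMap {U W : C.Opens} [Nonempty U] [Nonempty W] (h : W ≤ U) (a : k) :
    subTheta c h (algebraMap k (subA c h) a) = kSec c U a := by
  apply secF_injective c U
  rw [secF_subTheta, secF_kSec]
  rfl

variable [IsAlgClosed k] [SmoothOfRelativeDimension 1 c] [IsProper c]

/-- the function field is not algebraic -/
theorem exists_transcendental : ∃ b : FF c, Transcendental k b := by
  obtain ⟨V, hV, hz, h⟩ := exists_smooth_chart c (genericPoint C)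
  have hne : Nonempty V := ⟨⟨_, hz⟩⟩
  let _ := (kSec c V).hom.toAlgebra
  have : Algebra.IsStandardSmoothOfRelativeDimension 1 k Γ(C, V) := h
  let _ : Algebra Γ(C, V) (FF c) := (secF c V).toAlgebra
  have : IsScalarTower k Γ(C, V) (FF c) :=
    IsScalarTower.of_algebraMap_eq fun a => (secF_kSec c V a).symm
  have hfr : IsFractionRing Γ(C, V) (FF c) :=
    functionField_isFractionRing_of_isAffineOpen C V hV
  obtain ⟨x, hx⟩ := exists_transcendenceBasis (K := k) (S := Γ(C, V)) 1 (FF c)
  exact ⟨x 0, hx.1.transcendental 0⟩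

/-- algebraic functions are constant -/
theorem mem_range_of_not_transcendental {b : FF c} (hb : ¬ Transcendental k b) :
    ∃ a : k, algebraMap k (FF c) a = b := by
  rw [Transcendental, not_not] at hb
  have h1 : Algebra.IsAlgebraic k (IntermediateField.adjoin k {b}) :=
    IntermediateField.isAlgebraic_adjoin_simple hb.isIntegral
  have h2 := IntermediateField.eq_bot_of_isAlgClosed_of_isAlgebraic
    (IntermediateField.adjoin k {b})
  have h3 : b ∈ IntermediateField.adjoin k {b} := IntermediateField.mem_adjoin_simple_self k b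
  rw [h2] at h3
  exact IntermediateField.mem_bot.1 h3

theorem transcendental_of_notMem {b : FF c} {z : C} (hb : b ∉ locA c z) : Transcendental k b := by
  by_contra h
  obtain ⟨a, rfl⟩ := mem_range_of_not_transcendental c h
  exact hb (algebraMap_mem _ a)

/-- everywhere regular functions are constant -/
theorem exists_const_of_regular {b : FF c} (h : ∀ z, b ∈ locA c z) :
    ∃ a : k, algebraMap k (FF c) a = b := by
  have hne : Nonempty (⊤ : C.Opens) := ⟨⟨genericPoint C, trivial⟩⟩
  obtain ⟨s, hs⟩ := exists_section c (U := ⊤) fun z _ => h z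
  have h1 : (kTop c).hom.IsIntegral := by
    apply RingHom.isIntegral_respectsIso.2 (e := (Scheme.ΓSpecIso _).symm.commRingCatIsoToRingEquiv)
    exact isIntegral_appTop_of_universallyClosed c
  obtain ⟨a, ha⟩ := (IsAlgClosed.ringHom_bijective_of_isIntegral (kTop c).hom h1).2 s
  refine ⟨a, ?_⟩
  rw [← hs, ← ha, ← secF_kSec c ⊤ a]
  congr 1
  have h2 : kSec c ⊤ = kTop c := by
    rw [kSec]
    have h3 : (homOfLE le_top : (⊤ : C.Opens) ⟶ ⊤) = 𝟙 _ := rfl
    rw [h3, op_id, C.presheaf.map_id, Category.comp_id]
  rw [h2]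

/-- the open set where both a function and its inverse are regular -/
theorem loc_dom {b : FF c} (hb : Transcendental k b) {s : FF c}
    (hs : ∀ z ∈ dom c b ⊓ dom c b⁻¹, s ∈ locA c z) :
    ∃ n : ℕ, ∀ z ∈ dom c b, b ^ n * s ∈ locA c z := by
  have hb0 : b ≠ 0 := by
    rintro rfl
    exact (transcendental_iff.1 hb Polynomial.X (by simp)) |> X_ne_zero
  have hW : C.basicOpen (domSec c b) = dom c b ⊓ dom c b⁻¹ := basicOpen_domSec c hb0
  have hne : Nonempty (C.basicOpen (domSec c b)) :=
    ⟨⟨genericPoint C, by rw [hW]; exact ⟨gen_mem_dom c b, gen_mem_dom c b⁻¹⟩⟩⟩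
  rw [← hW] at hs
  obtain ⟨t, ht⟩ := exists_section c hs
  have hloc := (isAffineOpen_dom c hb).isLocalization_basicOpen (domSec c b)
  obtain ⟨n, a, ha⟩ := IsLocalization.Away.surj (domSec c b) t
  refine ⟨n, fun z hz => ?_⟩
  have h1 := congrArg (secF c (C.basicOpen (domSec c b))) ha
  have h2 : ∀ r : Γ(C, dom c b), secF c (C.basicOpen (domSec c b))
      (algebraMap Γ(C, dom c b) Γ(C, C.basicOpen (domSec c b)) r) = secF c (dom c b) r :=
    fun r => secF_res c (C.basicOpen_le _) r
  rw [map_mul, map_pow, ht, h2, h2, secF_domSec] at h1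
  rw [mul_comm, h1]
  exact mem_locA_of_germ c hz a

end Fermat.Agent.Jac
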