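import Fermat.Agent.Jac.Model

set_option autoImplicit false

/-!
# S25: the interface between the geometry and the algebra world
-/

universe u

open CategoryTheory CategoryTheory.Limits AlgebraicGeometry AlgebraicGeometry.RelPicard
  NeronModelInfra TensorProduct

namespace Fermat.Agent.Jac

variable {k : Type u} [Field k] (X : CurveData k) {C : Scheme.{u}}
  (c : C ⟶ Spec (CommRingCat.of k)) (ε : SchemeHomOver (𝟙 (Spec (CommRingCat.of k))) c)

/-- The dictionary between invertible modules on `C ×ₖ Spec A` and lattice pairs `LB X A`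
(block GEO). -/
structure GeoData where
  Rep : ∀ {A : Type u} [CommRing A] [Algebra k A],
    (pullback c (tA k A)).Modules → LB X A → Prop
  exists_rep : ∀ {A : Type u} [CommRing A] [Algebra k A] (L : (pullback c (tA k A)).Modules),
    L.IsInvertible → ∃ E : LB X A, Rep L E
  exists_mod : ∀ {A : Type u} [CommRing A] [Algebra k A] (E : LB X A),
    ∃ L : (pullback c (tA k A)).Modules, L.IsInvertible ∧ Rep L E
  iso_iff : ∀ {A : Type u} [CommRing A] [Algebra k A] {L L' : (pullback c (tA k A)).Modules}
    {E E' : LB X A}, L.IsInvertible → L'.IsInvertible → Rep L E → Rep L' E' →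
    (Nonempty (L ≅ L') ↔ E.Iso E')
  bc : ∀ {A : Type u} [CommRing A] [Algebra k A] {A' : Type u} [CommRing A'] [Algebra k A']
    (h : A →ₐ[k] A') {L : (pullback c (tA k A)).Modules} {E : LB X A} {E' : LB X A'},
    L.IsInvertible → Rep L E → LB.BC h E E' →
    Rep ((Scheme.Modules.pullback (baseChangeSnd c (tMap h))).obj L) E'
  rig_iff : ∀ {A : Type u} [CommRing A] [Algebra k A] {L : (pullback c (tA k A)).Modules}
    {E : LB X A}, L.IsInvertible → Rep L E →
    (Nonempty ((Scheme.Modules.pullback (rigSection c (tA k A) ε)).obj L ≅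
      SheafOfModules.unit (Spec (CommRingCat.of A)).ringCatSheaf) ↔ E.Rig)
  unit : ∀ (A : Type u) [CommRing A] [Algebra k A],
    Rep (SheafOfModules.unit (pullback c (tA k A)).ringCatSheaf) (LB.one X A)

variable {X c ε}

/-- Block CUT: algebraic equivalence to zero on all fibres is the condition on the Euler
characteristic. -/
def CutStmt (G : GeoData X c ε) : Prop :=
  ∀ {A : Type u} [CommRing A] [Algebra k A] (M : RigidifiedLineBundle c ε (tA k A)) (E : LB X A),
    G.Rep M.L E → (FibrewiseAlgEquivZero M ↔ E.Deg0)

end Fermat.Agent.Jac
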