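import Fermat.Agent.Jac.Connected
import Fermat.Agent.Jac.Stmts
import Fermat.Agent.Jac.GeoStmt
import Fermat.Agent.Jac.FamRing

set_option autoImplicit false
set_option linter.style.haveILetI false

/-!
# Algebraic equivalence to zero and the Euler characteristic
-/

universe u

open CategoryTheory CategoryTheory.Limits AlgebraicGeometry AlgebraicGeometry.RelPicard
  NeronModelInfra TensorProduct

namespace Fermat.Agent.Jac

section AEZ

variable {R : Type u} [CommRing R] {C : Scheme.{u}}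

/-- constructor with a free structure morphism -/
theorem AEZ.mk' {c : C ⟶ Spec (CommRingCat.of R)} {κ : Type u} [Field κ]
    {z : Spec (CommRingCat.of κ) ⟶ Spec (CommRingCat.of R)} {L : (pullback c z).Modules}
    {T' : Scheme.{u}} (h : T' ⟶ Spec (CommRingCat.of κ)) (h1 : LocallyOfFiniteType h)
    (h2 : GeometricallyIntegral h) {τ : T' ⟶ Spec (CommRingCat.of R)} (hτ : h ≫ z = τ)
    {M : (pullback c τ).Modules} (hM : Scheme.Modules.IsInvertible M)
    (t₀ t₁ : SchemeHomOver z τ) (g₀ : t₀.1 ≫ h = 𝟙 _) (g₁ : t₁.1 ≫ h = 𝟙 _)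
    (e₀ : Nonempty ((Scheme.Modules.pullback (baseChangeSnd c t₀)).obj M ≅
      SheafOfModules.unit (pullback c z).ringCatSheaf))
    (e₁ : Nonempty ((Scheme.Modules.pullback (baseChangeSnd c t₁)).obj M ≅ L)) : AEZ c z L := by
  subst hτ
  exact ⟨T', h, h1, h2, M, hM, t₀, t₁, g₀, g₁, e₀, e₁⟩

end AEZ

section Cut

variable {k : Type u} [Field k] {X : CurveData k} {C : Scheme.{u}}
  {c : C ⟶ Spec (CommRingCat.of k)} {ε : SchemeHomOver (𝟙 (Spec (CommRingCat.of k))) c}

theorem LB.iso_refl' {A : Type u} [CommRing A] [Algebra k A] (L : LB X A) : L.Iso L := by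
  have hb : ∀ r : X.R A, X.bb (AlgHom.id k A) r = r := by
    intro r
    have h1 : X.bb (AlgHom.id k A) = AlgHom.id k (X.R A) := Algebra.TensorProduct.map_id
    rw [h1]
    rfl
  refine ⟨⟨AddMonoidHom.id _, fun r m => ?_, ?_, ?_⟩⟩
  · rw [hb]; rfl
  · have h1 : (AddMonoidHom.id L.M) '' (L.M0 : Set L.M) = L.M0 := Set.image_id _
    rw [h1, Submodule.span_eq]
  · have h1 : (AddMonoidHom.id L.M) '' (L.Mi : Set L.M) = L.Mi := Set.image_id _
    rw [h1, Submodule.span_eq]

/-- a line bundle of degree `0` is algebraically equivalent to zero -/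
theorem aez_of_chi (G : GeoData X c ε) (hfam : FamStmt X) {κ : Type u} [Field κ] [IsAlgClosed κ]
    [Algebra k κ] {L : (pullback c (tA k κ)).Modules} (hL : L.IsInvertible) {E : LB X κ}
    (hE : G.Rep L E) (hchi : E.chi = 1 - (X.genus : ℤ)) : AEZ c (tA k κ) L := by
  obtain ⟨A', _, _, _, _, _, _, M', φ₀, φ₁, -, -, h0, h1⟩ := hfam E hchi
  obtain ⟨N, hN, hNR⟩ := G.exists_mod M'
  have hτ : tA κ A' ≫ tA k κ = tA k A' := by
    rw [tA, tA, tA, ← Spec.map_comp, ← CommRingCat.ofHom_comp, ← IsScalarTower.algebraMap_eq]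
  have hg : ∀ φ : A' →ₐ[κ] κ, (tMap (φ.restrictScalars k)).1 ≫ tA κ A' = 𝟙 _ := by
    intro φ
    have h1 : (tMap (φ.restrictScalars k)).1 =
        Spec.map (CommRingCat.ofHom (φ : A' →+* κ)) := rfl
    rw [h1, ← Spec.map_comp, ← CommRingCat.ofHom_comp, ← Spec.map_id]
    congr 1
    ext x
    exact φ.commutes x
  have hft : LocallyOfFiniteType (tA κ A') := by
    rw [HasRingHomProperty.Spec_iff (P := @LocallyOfFiniteType)]
    exact RingHom.finiteType_algebraMap.mpr inferInstance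
  refine AEZ.mk' (tA κ A') hft (geometricallyIntegral_Spec κ A') hτ hN
    (tMap (φ₀.restrictScalars k)) (tMap (φ₁.restrictScalars k)) (hg φ₀) (hg φ₁) ?_ ?_
  · exact (G.iso_iff (hN.pullback _) (Scheme.Modules.isInvertible_unit _) (G.bc _ hN hNR h0)
      (G.unit κ)).2 (LB.iso_refl' _)
  · exact (G.iso_iff (hN.pullback _) hL (G.bc _ hN hNR h1) hE).2 (LB.iso_refl' _)

/-- (⇐) -/
theorem fibrewiseAlgEquivZero_of_deg0 (G : GeoData X c ε) (hbc : BCExists X) (hfam : FamStmt X)
    {A : Type u} [CommRing A] [Algebra k A] (M : RigidifiedLineBundle c ε (tA k A)) (E : LB X A)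
    (hE : G.Rep M.L E) (hdeg : E.Deg0) : FibrewiseAlgEquivZero M := by
  intro κ _ _ s
  obtain ⟨φ, rfl⟩ := Spec.map_surjective s
  letI : Algebra k κ := (φ.hom.comp (algebraMap k A)).toAlgebra
  let h : A →ₐ[k] κ := { φ.hom with commutes' := fun _ => rfl }
  have hh : (tMap h).1 = Spec.map φ := rfl
  refine AEZ.isAlgEquivZero (Spec.map φ) (z := tA k κ) (hh ▸ (tMap h).2) ?_
  change AEZ c (tA k κ) ((Scheme.Modules.pullback (baseChangeSnd c (tMap h))).obj M.L)
  obtain ⟨E', hE'⟩ := hbc h E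
  exact aez_of_chi G hfam (M.isInvertible.pullback _) (G.bc h M.isInvertible hE hE')
    (hdeg κ h E' hE')

/-- (⇒), from the statement over an algebraically closed field -/
theorem deg0_of_fibrewiseAlgEquivZero (G : GeoData X c ε)
    (haez : ∀ {K : Type u} [Field K] [IsAlgClosed K] [Algebra k K]
      {L : (pullback c (tA k K)).Modules}, L.IsInvertible → ∀ {E : LB X K}, G.Rep L E →
      AEZ c (tA k K) L → E.chi = 1 - (X.genus : ℤ))
    {A : Type u} [CommRing A] [Algebra k A] (M : RigidifiedLineBundle c ε (tA k A)) (E : LB X A)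
    (hE : G.Rep M.L E) (hM : FibrewiseAlgEquivZero M) : E.Deg0 := by
  intro K _ _ _ h E' hE'
  have h1 := AEZ.of_isAlgEquivZero (tMap h).1 (hM K (tMap h).1) (tMap h).2
  exact haez (M.isInvertible.pullback _) (G.bc h M.isInvertible hE hE') h1

/-- **CUT**, from the statement over an algebraically closed field -/
theorem cut_of_aez (G : GeoData X c ε) (hbc : BCExists X) (hfam : FamStmt X)
    (haez : ∀ {K : Type u} [Field K] [IsAlgClosed K] [Algebra k K]
      {L : (pullback c (tA k K)).Modules}, L.IsInvertible → ∀ {E : LB X K}, G.Rep L E →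
      AEZ c (tA k K) L → E.chi = 1 - (X.genus : ℤ)) : CutStmt G := fun M E hE =>
  ⟨deg0_of_fibrewiseAlgEquivZero G haez M E hE,
    fibrewiseAlgEquivZero_of_deg0 G hbc hfam M E hE⟩

end Cut

end Fermat.Agent.Jac
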