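import Fermat.Agent.Jac.Connected
import Fermat.Agent.Jac.GeoStmt
import Fermat.Agent.Jac.Stmts

set_option autoImplicit false

/-!
# S25: algebraic equivalence preserves the Euler characteristic
-/

universe u

open CategoryTheory CategoryTheory.Limits AlgebraicGeometry AlgebraicGeometry.RelPicard
  NeronModelInfra TensorProduct

namespace Fermat.Agent.Jac

variable {k : Type u} [Field k] {X : CurveData k}

/-! ### The structure sheaf -/

theorem LB.cut_bc_one {A : Type u} [CommRing A] [Algebra k A] {A' : Type u} [CommRing A']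
    [Algebra k A'] (h : A →ₐ[k] A') : LB.BC h (LB.one X A) (LB.one X A') := by
  let f : (LB.one X A).M →+ (LB.one X A').M :=
    (((X.bb h : X.R A →ₐ[k] X.R A') : X.R A →+* X.R A') : X.R A →+ X.R A')
  have hf : ∀ r : X.R A, f r = X.bb h r := fun _ => rfl
  refine ⟨⟨f, fun r m => map_mul (X.bb h) r m, ?_, ?_⟩⟩
  · apply le_antisymm
    · rw [Submodule.span_le]
      rintro _ ⟨_, ⟨r, rfl⟩, rfl⟩
      exact ⟨X.b0 h r, (X.bb_J0 h r).symm⟩
    · rintro _ ⟨r, rfl⟩
      have h1 : f (1 : X.R A) ∈ Submodule.span (X.R0 A') (f '' (LB.one X A).M0) :=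
        Submodule.subset_span (Set.mem_image_of_mem _ ⟨1, map_one (X.J0 A)⟩)
      have h2 := Submodule.smul_mem _ r h1
      have h3 : r • f (1 : X.R A) = X.J0 A' r := by
        rw [hf, map_one]
        change r • (1 : X.R A') = _
        rw [Algebra.smul_def, mul_one]
        rfl
      rw [h3] at h2
      exact h2
  · apply le_antisymm
    · rw [Submodule.span_le]
      rintro _ ⟨_, ⟨r, rfl⟩, rfl⟩
      exact ⟨X.bi h r, (X.bb_Ji h r).symm⟩
    · rintro _ ⟨r, rfl⟩
      have h1 : f (1 : X.R A) ∈ Submodule.span (X.Ri A') (f '' (LB.one X A).Mi) :=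
        Submodule.subset_span (Set.mem_image_of_mem _ ⟨1, map_one (X.Ji A)⟩)
      have h2 := Submodule.smul_mem _ r h1
      have h3 : r • f (1 : X.R A) = X.Ji A' r := by
        rw [hf, map_one]
        change r • (1 : X.R A') = _
        rw [Algebra.smul_def, mul_one]
        rfl
      rw [h3] at h2
      exact h2

theorem LB.cut_chi_one_base : (LB.one X k).chi = 1 - (X.genus : ℤ) := by
  have hJ0 : ∀ r : X.R0 k, Algebra.TensorProduct.lid k X.B (X.J0 k r) =
      (Algebra.TensorProduct.lid k X.B0 r : X.B) := fun r => by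
    induction r using TensorProduct.induction_on with
    | zero => simp
    | tmul a b => simp [CurveData.J0]
    | add r s hr hs => rw [map_add, map_add, hr, hs, map_add]; rfl
  have hJi : ∀ r : X.Ri k, Algebra.TensorProduct.lid k X.B (X.Ji k r) =
      (Algebra.TensorProduct.lid k X.Bi r : X.B) := fun r => by
    induction r using TensorProduct.induction_on with
    | zero => simp
    | tmul a b => simp [CurveData.Ji]
    | add r s hr hs => rw [map_add, map_add, hr, hs, map_add]; rfl
  have h1 : Module.finrank k (LB.one X k).H0 = 1 := by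
    rw [finrank_eq_one_iff']
    have h0 : (1 : X.R k) ∈ (LB.one X k).H0 := ⟨⟨1, map_one (X.J0 k)⟩, ⟨1, map_one (X.Ji k)⟩⟩
    refine ⟨⟨_, h0⟩, ?_, ?_⟩
    · intro h
      have h2 : (1 : X.R k) = 0 := congrArg Subtype.val h
      have h3 : (1 : X.B) = 0 := by
        have := congrArg (Algebra.TensorProduct.lid k X.B) h2
        simpa using this
      have h4 : X.x = 0 := by rw [← mul_one X.x, h3, mul_zero]
      exact X.trans (by rw [h4]; exact isAlgebraic_zero)
    · rintro ⟨w, ⟨r, hr⟩, ⟨s, hs⟩⟩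
      change X.R k at w
      have hr' : X.J0 k r = w := hr
      have hs' : X.Ji k s = w := hs
      have hl : Algebra.TensorProduct.lid k X.B w ∈ X.B0 ⊓ X.Bi := by
        constructor
        · rw [← hr', hJ0]; exact Subtype.mem _
        · rw [← hs', hJi]; exact Subtype.mem _
      rw [X.inter] at hl
      obtain ⟨a, ha⟩ := Algebra.mem_bot.1 hl
      refine ⟨a, Subtype.ext ?_⟩
      change a • (1 : X.R k) = w
      apply (Algebra.TensorProduct.lid k X.B).injective
      rw [map_smul, map_one, ← ha, Algebra.algebraMap_eq_smul_one]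
  rw [LB.chi, h1, CurveData.genus, Nat.cast_one]

theorem LB.cut_chi_one (hchibc : ChiBCStmt X) (K : Type u) [Field K] [Algebra k K] :
    (LB.one X K).chi = 1 - (X.genus : ℤ) := by
  rw [hchibc (Algebra.ofId k K) (LB.one X k) (LB.one X K) (LB.cut_bc_one _), LB.cut_chi_one_base]

/-! ### Points of affine open subschemes -/

variable {C : Scheme.{u}} {c : C ⟶ Spec (CommRingCat.of k)}
  {ε : SchemeHomOver (𝟙 (Spec (CommRingCat.of k))) c}

theorem exists_affine_nhd {T : Scheme.{u}} (z : T) :
    ∃ (A : Type u) (_ : CommRing A) (i : Spec (CommRingCat.of A) ⟶ T) (_ : IsOpenImmersion i),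
      z ∈ Set.range i := by
  obtain ⟨U, hU, hz, -⟩ := exists_isAffineOpen_mem_and_subset (x := z) (U := ⊤) trivial
  refine ⟨Γ(T, U), inferInstance, hU.fromSpec, inferInstance, ?_⟩
  have := hU.range_fromSpec
  rw [this]
  exact hz

theorem exists_algebra {T : Scheme.{u}} (τ : T ⟶ Spec (CommRingCat.of k)) {A : Type u}
    [CommRing A] (i : Spec (CommRingCat.of A) ⟶ T) :
    ∃ _ : Algebra k A, tA k A = i ≫ τ := by
  let f : k →+* A := (Spec.preimage (i ≫ τ)).hom
  exact ⟨f.toAlgebra, Spec.map_preimage (i ≫ τ)⟩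

theorem exists_algHom {T : Scheme.{u}} {τ : T ⟶ Spec (CommRingCat.of k)} {A : Type u}
    [CommRing A] [Algebra k A] (i : Spec (CommRingCat.of A) ⟶ T) [IsOpenImmersion i]
    (hi : tA k A = i ≫ τ) {K : Type u} [Field K] [Algebra k K] (t : SchemeHomOver (tA k K) τ)
    (x : Spec (CommRingCat.of K)) (hx : t.1 x ∈ Set.range i) :
    ∃ α : A →ₐ[k] K, (tMap α).1 ≫ i = t.1 := by
  have hr : Set.range t.1 ⊆ Set.range i := by
    rintro _ ⟨y, rfl⟩
    rw [Subsingleton.elim y x]
    exact hx
  let b : Spec (CommRingCat.of K) ⟶ Spec (CommRingCat.of A) := IsOpenImmersion.lift i t.1 hr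
  have hb : b ≫ i = t.1 := IsOpenImmersion.lift_fac _ _ _
  have hcomm : CommRingCat.ofHom (algebraMap k A) ≫ Spec.preimage b =
      CommRingCat.ofHom (algebraMap k K) := by
    apply Spec.map_injective
    rw [Spec.map_comp, Spec.map_preimage]
    change b ≫ tA k A = tA k K
    rw [hi, ← Category.assoc, hb, t.2]
  refine ⟨{ (Spec.preimage b).hom with
    commutes' := fun a => congrArg (fun g : CommRingCat.of k ⟶ CommRingCat.of K => g.hom a) hcomm }, ?_⟩
  rw [← hb]
  congr 1
  exact Spec.map_preimage b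

theorem injective_of_generic {T : Scheme.{u}} [IsIntegral T] {A : Type u}
    [CommRing A] (i : Spec (CommRingCat.of A) ⟶ T) [IsOpenImmersion i]
    {κ : Type u} [Field κ] (β : A →+* κ) (x : Spec (CommRingCat.of κ))
    (hx : i (Spec.map (CommRingCat.ofHom β) x) = genericPoint T) : Function.Injective β := by
  rw [injective_iff_map_eq_zero]
  intro f hf
  by_contra hf0
  -- `A` is a domain
  have : Nonempty (Spec (CommRingCat.of A)) := ⟨Spec.map (CommRingCat.ofHom β) x⟩
  have hint : IsIntegral (Spec (CommRingCat.of A)) := isIntegral_of_isOpenImmersion i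
  have hdom : IsDomain A := (affine_isIntegral_iff (CommRingCat.of A)).1 hint
  let y : Spec (CommRingCat.of A) := Spec.map (CommRingCat.ofHom β) x
  have hfy : f ∈ y.asIdeal := by
    change β f ∈ x.asIdeal
    rw [hf]
    exact zero_mem _
  let U : (Spec (CommRingCat.of A)).Opens := PrimeSpectrum.basicOpen f
  have hU : (⟨⊥, Ideal.isPrime_bot⟩ : PrimeSpectrum A) ∈ U := fun h => hf0 h
  have h1 : IsOpen (i '' (U : Set (Spec (CommRingCat.of A)))) :=
    i.isOpenEmbedding.isOpenMap _ U.2
  have h2 : genericPoint T ∈ i '' (U : Set (Spec (CommRingCat.of A))) :=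
    ((genericPoint_spec T).mem_open_set_iff h1).2 ⟨_, trivial, ⟨_, hU, rfl⟩⟩
  obtain ⟨z, hz, hzy⟩ := h2
  have h3 : z = y := i.isOpenEmbedding.injective (hzy.trans hx.symm)
  rw [h3] at hz
  exact hz hfy

/-! ### Comparison of a point with the generic point -/

theorem chi_eq_of_generic (G : GeoData X c ε) (hbc : BCExists X) (hchi : ChiStmt X)
    (hchibc : ChiBCStmt X) {T : Scheme.{u}} [IsIntegral T] {τ : T ⟶ Spec (CommRingCat.of k)}
    {M : (pullback c τ).Modules} (hM : M.IsInvertible)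
    {K : Type u} [Field K] [Algebra k K] (t : SchemeHomOver (tA k K) τ)
    {E : LB X K} (hE : G.Rep ((Scheme.Modules.pullback (baseChangeSnd c t)).obj M) E)
    {κ : Type u} [Field κ] [Algebra k κ] (w : SchemeHomOver (tA k κ) τ)
    (x : Spec (CommRingCat.of κ)) (hw : w.1 x = genericPoint T)
    {E' : LB X κ} (hE' : G.Rep ((Scheme.Modules.pullback (baseChangeSnd c w)).obj M) E') :
    E'.chi = E.chi := by
  let x0 : Spec (CommRingCat.of K) := IsLocalRing.closedPoint K
  obtain ⟨A, _, i, _, hx0⟩ := exists_affine_nhd (t.1 x0)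
  obtain ⟨_, hi⟩ := exists_algebra τ i
  obtain ⟨α, hα⟩ := exists_algHom i hi t x0 hx0
  have hwx : w.1 x ∈ Set.range i := by
    rw [hw]
    have h1 : IsOpen (Set.range i) := i.isOpenEmbedding.isOpen_range
    exact (genericPoint_spec T).mem_open_set_iff h1 |>.2 ⟨_, trivial, hx0⟩
  obtain ⟨β, hβ⟩ := exists_algHom i hi w x hwx
  let ψ : SchemeHomOver (tA k A) τ := ⟨i, hi.symm⟩
  let N := (Scheme.Modules.pullback (baseChangeSnd c ψ)).obj M
  have hN : N.IsInvertible := hM.pullback _
  obtain ⟨F, hF⟩ := G.exists_rep N hN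
  obtain ⟨Fα, hFα⟩ := hbc α F
  obtain ⟨Fβ, hFβ⟩ := hbc β F
  have e1 : E.Iso Fα := by
    rw [← G.iso_iff (hM.pullback _) (hN.pullback _) hE (G.bc α hN hF hFα)]
    refine niso_symm (nonempty_pb_comp ?_ M)
    rw [baseChangeSnd_comp]
    congr 1
    exact Subtype.ext hα
  have e2 : E'.Iso Fβ := by
    rw [← G.iso_iff (hM.pullback _) (hN.pullback _) hE' (G.bc β hN hF hFβ)]
    refine niso_symm (nonempty_pb_comp ?_ M)
    rw [baseChangeSnd_comp]
    congr 1
    exact Subtype.ext hβ
  rw [← hchibc _ E Fα e1, ← hchibc _ E' Fβ e2]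
  obtain ⟨f, hf, hall⟩ := hchi F α Fα hFα
  refine hall β Fβ ?_ hFβ
  intro h0
  have h1 : (β : A →+* κ) f = 0 := h0
  have h2 := (injective_iff_map_eq_zero _).1 (injective_of_generic i (β : A →+* κ) x (by
    rw [← hw, ← hβ]; rfl)) f h1
  exact hf (by rw [h2, map_zero])

/-- **Algebraic equivalence to zero implies that the Euler characteristic is `1 - g`.** -/
theorem chi_of_aez (G : GeoData X c ε) (hbc : BCExists X) (hchi : ChiStmt X)
    (hchibc : ChiBCStmt X) {K : Type u} [Field K] [Algebra k K]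
    {L : (pullback c (tA k K)).Modules} (hL : L.IsInvertible) {E : LB X K} (hE : G.Rep L E)
    (h : AEZ c (tA k K) L) : E.chi = 1 - (X.genus : ℤ) := by
  obtain ⟨T, h', hft, hgi, M, hM, t₀, t₁, g0, g1, e0, e1⟩ := h
  have hT : IsIntegral T := self_of_isIntegral_of_geometrically hgi.geometrically_isIntegral
  obtain ⟨κ, _, _, w, x, hx⟩ := exists_geometric_point (genericPoint T)
  obtain ⟨_, hκ⟩ := exists_algebra (h' ≫ tA k K) w
  let w' : SchemeHomOver (tA k κ) (h' ≫ tA k K) := ⟨w, hκ.symm⟩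
  obtain ⟨E', hE'⟩ := G.exists_rep ((Scheme.Modules.pullback (baseChangeSnd c w')).obj M)
    (hM.pullback _)
  -- the two points
  obtain ⟨E₀, hE₀⟩ := G.exists_rep ((Scheme.Modules.pullback (baseChangeSnd c t₀)).obj M)
    (hM.pullback _)
  obtain ⟨E₁, hE₁⟩ := G.exists_rep ((Scheme.Modules.pullback (baseChangeSnd c t₁)).obj M)
    (hM.pullback _)
  have h0 := chi_eq_of_generic G hbc hchi hchibc hM t₀ hE₀ w' x hx hE'
  have h1 := chi_eq_of_generic G hbc hchi hchibc hM t₁ hE₁ w' x hx hE'
  have i0 : E₀.Iso (LB.one X K) :=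
    (G.iso_iff (hM.pullback _) (Scheme.Modules.isInvertible_unit _) hE₀ (G.unit K)).1 e0
  have i1 : E₁.Iso E := (G.iso_iff (hM.pullback _) hL hE₁ hE).1 e1
  rw [hchibc _ E₁ E i1, ← h1, h0, ← hchibc _ E₀ _ i0, LB.cut_chi_one hchibc]

/-- The implication `⇒` of `CutStmt`. -/
theorem deg0_of_fibrewise (G : GeoData X c ε) (hbc : BCExists X) (hchi : ChiStmt X)
    (hchibc : ChiBCStmt X) {A : Type u} [CommRing A] [Algebra k A]
    {M : RigidifiedLineBundle c ε (tA k A)} {E : LB X A} (hE : G.Rep M.L E)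
    (h : FibrewiseAlgEquivZero M) : E.Deg0 := by
  intro K _ _ _ g L' hL'
  have h1 := AEZ.of_isAlgEquivZero (tMap g).1 (h K (tMap g).1) (tMap g).2
  exact chi_of_aez G hbc hchi hchibc (M.isInvertible.pullback _) (G.bc g M.isInvertible hE hL') h1

end Fermat.Agent.Jac
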