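import Fermat.Agent.Jac.Cut
import Fermat.Agent.Jac.CutChi
import Fermat.Agent.Jac.LBCoh

set_option autoImplicit false

/-!
# Algebraic equivalence to zero and the Euler characteristic: final statement
-/

universe u

open CategoryTheory CategoryTheory.Limits AlgebraicGeometry AlgebraicGeometry.RelPicard
  NeronModelInfra TensorProduct

namespace Fermat.Agent.Jac

variable {k : Type u} [Field k] {X : CurveData k} {C : Scheme.{u}}
  {c : C ⟶ Spec (CommRingCat.of k)} {ε : SchemeHomOver (𝟙 (Spec (CommRingCat.of k))) c}

/-- **CUT** -/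
theorem cut_of (G : GeoData X c ε) (hbc : BCExists X) (hchi : ChiStmt X) (hchibc : ChiBCStmt X)
    (hfam : FamStmt X) : CutStmt G :=
  cut_of_aez G hbc hfam fun hL _ hE h => chi_of_aez G hbc hchi hchibc hL hE h

/-- **CUT**, with the cohomology block -/
theorem cutStmt (G : GeoData X c ε) (hbc : BCExists X) (hfam : FamStmt X) : CutStmt G :=
  cut_of G hbc (chiStmt X) (chiBCStmt X) hfam

end Fermat.Agent.Jac
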