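import Fermat.Agent.Jac.Emb
import Fermat.Agent.Jac.Nulls

/-!
# A line bundle embedded into `O(n)` is a twist of an ideal
-/

set_option autoImplicit false

universe u

open TensorProduct

namespace Fermat.Agent.Jac

variable {k : Type u} [Field k] {X : CurveData k} {A : Type u} [CommRing A] [Algebra k A]

/-- The ideal of a subsheaf of `O(n)`. -/
def LB.idl0 (L : LB X A) (s : L.M →ₗ[X.R A] X.R A) : Ideal (X.R0 A) where
  carrier := {r | ∃ m ∈ L.M0, s m = X.J0 A r}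
  add_mem' := by
    rintro a b ⟨m, hm, hm'⟩ ⟨n, hn, hn'⟩
    exact ⟨m + n, add_mem hm hn, by rw [map_add, map_add, hm', hn']⟩
  zero_mem' := ⟨0, zero_mem _, by rw [map_zero, map_zero]⟩
  smul_mem' := by
    rintro c a ⟨m, hm, hm'⟩
    exact ⟨c • m, L.M0.smul_mem c hm, by
      rw [L.smul0, map_smul, hm', smul_eq_mul, smul_eq_mul, map_mul]⟩

theorem LB.mem_idl0 {L : LB X A} {s : L.M →ₗ[X.R A] X.R A} {r : X.R0 A} :
    r ∈ L.idl0 s ↔ ∃ m ∈ L.M0, s m = X.J0 A r := Iff.rfl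

/-- `L ≅ O(n) ⊗ E` where `E` is the ideal of `L` in `O(n)`. -/
theorem LB.tens_of_emb {L O E : LB X A} {n : ℕ} {s : L.M →ₗ[X.R A] X.R A}
    (hs : Function.Injective s) (hs0 : ∀ m ∈ L.M0, ∃ r, s m = X.J0 A r)
    (hsi : ∀ m ∈ L.Mi, ∃ r, s m = X.xA A ^ n * X.Ji A r)
    (hsi' : ∀ m r, s m = X.xA A ^ n * X.Ji A r → m ∈ L.Mi)
    (κ : O.M ≃ₗ[X.R A] X.R A) (hκ0 : ∀ m, m ∈ O.M0 ↔ ∃ r, κ m = X.J0 A r)
    (hκi : ∀ m, m ∈ O.Mi ↔ ∃ r, κ m = X.xA A ^ n * X.Ji A r)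
    (ι : E.M →ₗ[X.R A] X.R A) (hι : Function.Injective ι)
    (hι0 : ∀ r ∈ L.idl0 s, ∃ m ∈ E.M0, ι m = X.J0 A r)
    (hι0' : ∀ m ∈ E.M0, ∃ r ∈ L.idl0 s, ι m = X.J0 A r)
    (hιi : ∀ m, m ∈ E.Mi ↔ ∃ r, ι m = X.Ji A r) : LB.Tens O E L := by
  have hxy : ∀ a : ℕ, X.yA A ^ a * X.xA A ^ a = 1 := fun a => by
    rw [← mul_pow, mul_comm, X.xA_yA, one_pow]
  -- the two ranges agree
  have hr1 : ∀ m : E.M, ∃ l : L.M, s l = ι m := by
    intro m
    obtain ⟨a, ha⟩ := E.ex0 m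
    obtain ⟨r, hr, hr'⟩ := hι0' _ ha
    obtain ⟨l, hl, hl'⟩ := hr
    refine ⟨X.yA A ^ a • l, ?_⟩
    rw [map_smul, hl', ← hr', map_smul, smul_smul, hxy, one_smul]
  have hr2 : ∀ l : L.M, ∃ m : E.M, ι m = s l := by
    intro l
    obtain ⟨a, ha⟩ := L.ex0 l
    obtain ⟨r, hr⟩ := hs0 _ ha
    obtain ⟨m, hm, hm'⟩ := hι0 r ⟨_, ha, hr⟩
    refine ⟨X.yA A ^ a • m, ?_⟩
    rw [map_smul, hm', ← hr, map_smul, smul_smul, hxy, one_smul]
  choose j hj using hr1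
  let jl : E.M →ₗ[X.R A] L.M :=
    { toFun := j
      map_add' := fun a b => hs (by rw [hj, map_add, map_add, hj, hj])
      map_smul' := fun c a => hs (by rw [hj, map_smul, RingHom.id_apply, map_smul, hj]) }
  have hjl : ∀ m, s (jl m) = ι m := hj
  let β : O.M →ₗ[X.R A] E.M →ₗ[X.R A] L.M :=
    LinearMap.mk₂ (X.R A) (fun o m => κ o • jl m)
      (fun a b c => by rw [map_add, add_smul]) (fun c a b => by rw [map_smul, smul_assoc])
      (fun a b c => by rw [map_add, smul_add]) (fun c a b => by rw [map_smul, smul_comm])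
  have hβ : ∀ o m, β o m = κ o • jl m := fun o m => rfl
  have hsβ : ∀ o m, s (β o m) = κ o * ι m := fun o m => by
    rw [hβ, map_smul, hjl, smul_eq_mul]
  refine ⟨β, ?_, ?_⟩
  · apply le_antisymm
    · rw [Submodule.span_le]
      rintro _ ⟨o, ho, m, hm, rfl⟩
      obtain ⟨r, hr⟩ := (hκ0 o).1 ho
      obtain ⟨r', ⟨l, hl, hl'⟩, hr'⟩ := hι0' m hm
      have h1 : β o m = r • l := hs (by
        rw [hsβ, hr, hr', L.smul0, map_smul, hl', smul_eq_mul])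
      rw [h1]
      exact L.M0.smul_mem _ hl
    · intro l hl
      obtain ⟨r, hr⟩ := hs0 l hl
      obtain ⟨m, hm, hm'⟩ := hι0 r ⟨l, hl, hr⟩
      refine Submodule.subset_span ⟨κ.symm 1, (hκ0 _).2 ⟨1, by simp⟩, m, hm, hs ?_⟩
      rw [hsβ, LinearEquiv.apply_symm_apply, one_mul, hm', hr]
  · apply le_antisymm
    · rw [Submodule.span_le]
      rintro _ ⟨o, ho, m, hm, rfl⟩
      obtain ⟨r, hr⟩ := (hκi o).1 ho
      obtain ⟨r', hr'⟩ := (hιi m).1 hm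
      exact hsi' _ (r * r') (by rw [hsβ, hr, hr', map_mul, mul_assoc])
    · intro l hl
      obtain ⟨r, hr⟩ := hsi l hl
      obtain ⟨m, hm⟩ := hr2 l
      have h1 : ι (X.yA A ^ n • m) = X.Ji A r := by
        rw [map_smul, hm, hr, smul_eq_mul, ← mul_assoc, hxy, one_mul]
      refine Submodule.subset_span ⟨κ.symm (X.xA A ^ n), (hκi _).2 ⟨1, by simp⟩,
        X.yA A ^ n • m, (hιi _).2 ⟨r, h1⟩, hs ?_⟩
      rw [hsβ, LinearEquiv.apply_symm_apply, h1, hr]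

variable {K : Type u} [Field K] [Algebra k K]

theorem LB.idl0_ne_bot {L : LB X K} {s : L.M →ₗ[X.R K] X.R K} (hs : Function.Injective s)
    (hs0 : ∀ m ∈ L.M0, ∃ r, s m = X.J0 K r) (hM : Nontrivial L.M0) : L.idl0 s ≠ ⊥ := by
  intro h
  obtain ⟨⟨m, hm⟩, hm0⟩ := exists_ne (0 : L.M0)
  obtain ⟨r, hr⟩ := hs0 m hm
  have h1 : r ∈ L.idl0 s := ⟨m, hm, hr⟩
  rw [h, Ideal.mem_bot] at h1
  rw [h1, map_zero] at hr
  exact hm0 (Subtype.ext (hs (by rw [hr]; exact (map_zero s).symm)))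

theorem LB.nontrivial_M0 (L : LB X K) : Nontrivial L.M0 := by
  haveI := L.inv0
  haveI := X.ded0 K
  by_contra h
  rw [not_nontrivial_iff_subsingleton] at h
  have e := Module.Invertible.linearEquiv (X.R0 K) L.M0
  haveI : Subsingleton (Module.Dual (X.R0 K) L.M0 ⊗[X.R0 K] L.M0) := by
    infer_instance
  haveI : Subsingleton (X.R0 K) := e.symm.toEquiv.subsingleton
  exact not_subsingleton (X.R0 K) this

end Fermat.Agent.Jac
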