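import Fermat.Agent.Jac.FactorB
import Fermat.Agent.Jac.TwO

/-!
# Every line bundle over an algebraically closed field is `O(n)` minus points
-/

set_option autoImplicit false

universe u

open TensorProduct

namespace Fermat.Agent.Jac

variable {k : Type u} [Field k] {X : CurveData k}

/-- `E` is the ideal sheaf of an ideal of `V₀` -/
def LB.IsIdl {A : Type u} [CommRing A] [Algebra k A] (E : LB X A) (I : Ideal (X.R0 A)) : Prop :=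
  ∃ ι : E.M →ₗ[X.R A] X.R A, Function.Injective ι ∧
    (∀ r ∈ I, ∃ m ∈ E.M0, ι m = X.J0 A r) ∧ (∀ m ∈ E.M0, ∃ r ∈ I, ι m = X.J0 A r) ∧
    (∀ m, m ∈ E.Mi ↔ ∃ r, ι m = X.Ji A r)

variable {K : Type u} [Field K] [Algebra k K]

/-- Every line bundle is a twist of an effective one. -/
theorem LB.exists_idl (L : LB X K) : ∃ n0 : ℤ, ∀ n ≥ n0, ∃ I : Ideal (X.R0 K), I ≠ ⊥ ∧
    ∀ E : LB X K, E.IsIdl I → LB.Tens (LB.O X K n) E L := by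
  obtain ⟨n0, h0⟩ := L.exists_emb
  refine ⟨n0, fun n hn => ?_⟩
  obtain ⟨n, rfl⟩ : ∃ m : ℕ, n = m := ⟨n.toNat, (Int.toNat_of_nonneg (by omega)).symm⟩
  obtain ⟨s, hs, hs0, hsi, -, hsi'⟩ := h0 n (by exact_mod_cast hn)
  refine ⟨L.idl0 s, LB.idl0_ne_bot hs hs0 L.nontrivial_M0, ?_⟩
  rintro E ⟨ι, hι, hι0, hι0', hιi⟩
  have hu : (((X.uA K) ^ (n : ℤ) : (X.R K)ˣ) : X.R K) = X.xA K ^ n := by
    rw [zpow_natCast, Units.val_pow_eq_pow_val, X.val_uA]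
  refine LB.tens_of_emb (n := n) hs hs0 hsi hsi' (LinearEquiv.refl _ _) ?_ ?_ ι hι hι0 hι0' hιi
  · intro m
    exact ⟨fun ⟨r, hr⟩ => ⟨r, hr.symm⟩, fun ⟨r, hr⟩ => ⟨r, hr.symm⟩⟩
  · intro m
    have h1 : m ∈ (LB.O X K n).Mi ↔
      ∃ r, (((X.uA K) ^ (n : ℤ) : (X.R K)ˣ) : X.R K) * X.Ji K r = m := Iff.rfl
    rw [h1, hu]
    exact ⟨fun ⟨r, hr⟩ => ⟨r, hr.symm⟩, fun ⟨r, hr⟩ => ⟨r, hr.symm⟩⟩

/-- Every line bundle over an algebraically closed field is `O(n)` minus points of `V₀`. -/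
theorem LB.exists_idl_prod [IsAlgClosed K] (L : LB X K) : ∃ n0 : ℤ, ∀ n ≥ n0,
    ∃ l : List (X.B0 →ₐ[k] K), ∀ E : LB X K,
      E.IsIdl (l.map fun P => RingHom.ker (X.ev0 P)).prod → LB.Tens (LB.O X K n) E L := by
  obtain ⟨n0, h0⟩ := L.exists_idl
  refine ⟨n0, fun n hn => ?_⟩
  obtain ⟨I, hI, h1⟩ := h0 n hn
  obtain ⟨l, rfl⟩ := X.exists_prod0 I hI
  exact ⟨l, h1⟩

end Fermat.Agent.Jac
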