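import Fermat.Agent.Jac.FactorC
import Fermat.Agent.Jac.TwistSec
import Fermat.Agent.Jac.ClMain

/-!
# Every line bundle over an algebraically closed field is `O(n)` minus points: classes
-/

set_option autoImplicit false

universe u

open TensorProduct

namespace Fermat.Agent.Jac

variable {k : Type u} [Field k] {X : CurveData k}

theorem LB.eff0_isIdl {A : Type u} [CommRing A] [Algebra k A] {I : Ideal (X.R0 A)}
    (hI : IsEff0 I) : (LB.eff0 I hI).IsIdl I := by
  let ι : (I.map (algebraMap (X.R0 A) (X.R A)) : Ideal (X.R A)) →ₗ[X.R A] X.R A :=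
    Submodule.subtype _
  refine ⟨ι, Subtype.val_injective, fun r hr => ?_, ?_, ?_⟩
  · exact ⟨⟨algebraMap (X.R0 A) (X.R A) r, Ideal.mem_map_of_mem _ hr⟩, ⟨r, hr, rfl⟩, rfl⟩
  · rintro m ⟨s, hs, e⟩
    exact ⟨s, hs, e.symm⟩
  · intro m
    constructor
    · rintro ⟨s, -, e⟩
      exact ⟨s, e.symm⟩
    · rintro ⟨r, hr⟩
      refine ⟨r, ?_, hr.symm⟩
      have h1 : X.Ji A r ∈ I.map (algebraMap (X.R0 A) (X.R A)) := hr ▸ m.2
      exact h1

/-- classes of products -/
theorem cl_eff0_list {A : Type u} [CommRing A] [Algebra k A] {S : Type*}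
    (I : S → Ideal (X.R0 A)) (hI : ∀ P, IsEff0 (I P)) (l : List S) (h : IsEff0 (l.map I).prod) :
    cl (LB.eff0 (l.map I).prod h) = (l.map fun P => cl (LB.eff0 (I P) (hI P))).prod := by
  induction l with
  | nil =>
    have h1 := cl_eq.2 (LB.eff0_top (X := X) (A := A))
    have h2 : cl (LB.eff0 (List.map I []).prod h) = 1 := by
      rw [← Cl.cl_one, h1]
      exact congrArg cl (LB.eff0_congr _ _ (by rw [List.map_nil, List.prod_nil,
        Ideal.one_eq_top]))
    rw [h2]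
    rfl
  | cons P l ih =>
    have h2 : IsEff0 (l.map I).prod := IsEff0.list_prod fun J hJ => by
      obtain ⟨Q, -, rfl⟩ := List.mem_map.1 hJ
      exact hI Q
    have h3 := Cl.cl_mul (LB.eff0_tens (hI P) h2)
    have h4 : cl (LB.eff0 (List.map I (P :: l)).prod h) =
        cl (LB.eff0 (I P) (hI P)) * cl (LB.eff0 (l.map I).prod h2) := by
      rw [← h3]
      exact congrArg cl (LB.eff0_congr _ _ (by rw [List.map_cons, List.prod_cons]))
    rw [h4, ih h2]
    rfl

variable {K : Type u} [Field K] [IsAlgClosed K] [Algebra k K]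

/-- **Factorisation** -/
theorem LB.exists_factor (L : LB X K) : ∃ n0 : ℤ, ∀ n ≥ n0, ∃ l : List (X.B0 →ₐ[k] K),
    cl L = cl (LB.O X K n) * (l.map fun P => cl (LB.minus0 P)).prod := by
  obtain ⟨n0, h0⟩ := L.exists_idl_prod
  refine ⟨n0, fun n hn => ?_⟩
  obtain ⟨l, hl⟩ := h0 n hn
  refine ⟨l, ?_⟩
  have h2 : IsEff0 (l.map fun P => RingHom.ker (X.ev0 P)).prod :=
    IsEff0.list_prod fun J hJ => by
      obtain ⟨Q, -, rfl⟩ := List.mem_map.1 hJ
      exact isEff0_ker Q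
  rw [Cl.cl_mul (hl _ (LB.eff0_isIdl h2)), cl_eff0_list _ isEff0_ker]
  rfl

/-- **Factorisation**, indexed form -/
theorem LB.exists_factor_fin (L : LB X K) : ∃ n0 : ℤ, ∀ n ≥ n0,
    ∃ (N : ℕ) (P : Fin N → (X.B0 →ₐ[k] K)),
      cl (LB.O X K n) * ∏ j, cl (LB.minus0 (P j)) = cl L := by
  obtain ⟨n0, h0⟩ := L.exists_factor
  refine ⟨n0, fun n hn => ?_⟩
  obtain ⟨l, hl⟩ := h0 n hn
  refine ⟨l.length, l.get, ?_⟩
  rw [hl, ← Fin.prod_univ_fun_getElem]
  rfl

end Fermat.Agent.Jac
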