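import Fermat.Agent.Jac.ChartsMain
import Fermat.Agent.Jac.FamRing

/-!
# Families of line bundles of degree zero over affine bases (block FAM)
-/

set_option autoImplicit false

universe u

open TensorProduct

namespace Fermat.Agent.Jac

variable {k : Type u} [Field k] {X : CurveData k}

/-- twists, as classes -/
structure TwistPkg (T : ClPkg X) where
  /-- the bundles `O(n)` -/
  O : ∀ (A : Type u) [CommRing A] [Algebra k A], ℤ → LB X A
  /-- the bundles `O(-σ)` -/
  m0 : ∀ {A : Type u} [CommRing A] [Algebra k A], (X.B0 →ₐ[k] A) → LB X A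
  O_bc : ∀ {A : Type u} [CommRing A] [Algebra k A] {A' : Type u} [CommRing A'] [Algebra k A']
    (h : A →ₐ[k] A') (n : ℤ), LB.BC h (O A n) (O A' n)
  m0_bc : ∀ {A : Type u} [CommRing A] [Algebra k A] {A' : Type u} [CommRing A'] [Algebra k A']
    (h : A →ₐ[k] A') (σ : X.B0 →ₐ[k] A), LB.BC h (m0 σ) (m0 (h.comp σ))
  O_rig : ∀ (A : Type u) [CommRing A] [Algebra k A] (n : ℤ), (O A n).Rig
  m0_rig : ∀ {A : Type u} [CommRing A] [Algebra k A] (σ : X.B0 →ₐ[k] A), (m0 σ).Rig
  m0_chi : ∀ {K : Type u} [Field K] [IsAlgClosed K] [Algebra k K] (P : X.B0 →ₐ[k] K),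
    (m0 P).chi = -(X.genus : ℤ)
  chi_mul : ∀ {K : Type u} [Field K] [IsAlgClosed K] [Algebra k K] (L L' L'' : LB X K),
    T.cl L'' = T.cl L * T.cl L' → L''.chi = L.chi + L'.chi - (1 - (X.genus : ℤ))
  factor : ∀ {K : Type u} [Field K] [IsAlgClosed K] [Algebra k K] (L : LB X K),
    ∃ n0 : ℤ, ∀ n ≥ n0, ∃ (N : ℕ) (P : Fin N → (X.B0 →ₐ[k] K)),
      T.cl (O K n) * ∏ j, T.cl (m0 (P j)) = T.cl L

namespace TwistPkg

theorem bc_refl {A : Type u} [CommRing A] [Algebra k A] (L : LB X A) :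
    LB.BC (AlgHom.id k A) L L := by
  have h : ∀ r : X.R A, X.bb (AlgHom.id k A) r = r := fun r => by
    rw [CurveData.bb, Algebra.TensorProduct.map_id, AlgHom.id_apply]
  exact ⟨{ f := AddMonoidHom.id _
           map_smul := fun r m => by rw [h]; rfl
           span0 := by
             rw [show ((AddMonoidHom.id L.M : L.M → L.M) '' L.M0) = L.M0 from Set.image_id _]
             exact Submodule.span_eq _
           spani := by
             rw [show ((AddMonoidHom.id L.M : L.M → L.M) '' L.Mi) = L.Mi from Set.image_id _]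
             exact Submodule.span_eq _ }⟩

variable {T : ClPkg X} (W : TwistPkg T)

include T in
theorem map_id {A : Type u} [CommRing A] [Algebra k A] (c : T.Cl A) :
    T.map (AlgHom.id k A) c = c := by
  obtain ⟨L, rfl⟩ := T.surj c
  exact (T.map_cl _ _ _).2 (bc_refl L)

section Chi

variable {K : Type u} [Field K] [IsAlgClosed K] [Algebra k K]

/-- the Euler characteristic of a twist -/
theorem chi_twist (L : LB X K) {N : ℕ} (P : Fin N → (X.B0 →ₐ[k] K)) (L' : LB X K)
    (h : T.cl L' = T.cl L * ∏ j, T.cl (W.m0 (P j))) : L'.chi = L.chi - N := by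
  induction N generalizing L' with
  | zero =>
    rw [Fin.prod_univ_zero] at h
    obtain ⟨L1, hL1⟩ := T.surj (1 : T.Cl K)
    have h1 := W.chi_mul L1 L1 L1 (by rw [hL1, mul_one])
    have h2 := W.chi_mul L L1 L' (by rw [h, hL1])
    have h3 : L1.chi = 1 - (X.genus : ℤ) := by linarith
    rw [h2, h3]
    simp
  | succ N ih =>
    rw [Fin.prod_univ_castSucc, ← mul_assoc] at h
    obtain ⟨L1, hL1⟩ := T.surj (T.cl L * ∏ j : Fin N, T.cl (W.m0 (P j.castSucc)))
    have h1 := ih (fun j => P j.castSucc) L1 hL1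
    have h2 := W.chi_mul L1 (W.m0 (P (Fin.last N))) L' (by rw [h, hL1])
    rw [h2, h1, W.m0_chi]
    push_cast
    ring

end Chi

/-- rigidifications of twists -/
theorem rig_twist {A : Type u} [CommRing A] [Algebra k A] (L : LB X A) (hL : L.Rig) {N : ℕ}
    (P : Fin N → (X.B0 →ₐ[k] A)) (L' : LB X A)
    (h : T.cl L' = T.cl L * ∏ j, T.cl (W.m0 (P j))) : L'.Rig := by
  induction N generalizing L' with
  | zero =>
    rw [Fin.prod_univ_zero, mul_one] at h
    refine T.rig_bc (AlgHom.id k A) L L' ?_ hL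
    rw [← T.map_cl, h, map_id]
  | succ N ih =>
    rw [Fin.prod_univ_castSucc, ← mul_assoc] at h
    obtain ⟨L1, hL1⟩ := T.surj (T.cl L * ∏ j : Fin N, T.cl (W.m0 (P j.castSucc)))
    have h1 := ih (fun j => P j.castSucc) L1 hL1
    exact T.rig_mul L1 (W.m0 (P (Fin.last N))) L' (by rw [h, hL1]) h1 (W.m0_rig _)

/-- base change of twists -/
theorem map_twist {A : Type u} [CommRing A] [Algebra k A] {A' : Type u} [CommRing A']
    [Algebra k A'] (h : A →ₐ[k] A') (n : ℤ) {N : ℕ} (P : Fin N → (X.B0 →ₐ[k] A)) :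
    T.map h (T.cl (W.O A n) * ∏ j, T.cl (W.m0 (P j))) =
      T.cl (W.O A' n) * ∏ j, T.cl (W.m0 (h.comp (P j))) := by
  rw [map_mul, map_prod, (T.map_cl _ _ _).2 (W.O_bc h n)]
  congr 1
  exact Finset.prod_congr rfl fun j _ => (T.map_cl _ _ _).2 (W.m0_bc h (P j))

include W in
/-- **Block FAM** -/
theorem famStmt (hchi : ChiBCStmt X) (hone : (LB.one X k).chi = 1 - (X.genus : ℤ))
    (hbc : ∀ {K : Type u} [Field K] [Algebra k K], LB.BC (Algebra.ofId k K) (LB.one X k)
      (LB.one X K)) : FamStmt X := by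
  intro K _ _ _ L hL
  have hK1 : (LB.one X K).chi = 1 - (X.genus : ℤ) := by
    rw [hchi (Algebra.ofId k K) (LB.one X k) (LB.one X K) hbc, hone]
  obtain ⟨n1, h1⟩ := W.factor L
  obtain ⟨n2, h2⟩ := W.factor (LB.one X K)
  obtain ⟨N, P, hP⟩ := h1 (max n1 n2) (le_max_left _ _)
  obtain ⟨N', P', hP'⟩ := h2 (max n1 n2) (le_max_right _ _)
  set n := max n1 n2
  have e1 := W.chi_twist (W.O K n) P L hP.symm
  have e2 := W.chi_twist (W.O K n) P' (LB.one X K) hP'.symm
  have hN : N' = N := by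
    have : (N : ℤ) = N' := by linarith
    exact_mod_cast this.symm
  subst hN
  -- the base of the family
  have hdom : IsDomain (K ⊗[k] X.B0) := (X.ded0 K).toIsDomain
  have hft0 : Algebra.FiniteType k X.B0 := by
    have h3 := X.smooth0
    infer_instance
  have hft : Algebra.FiniteType K (K ⊗[k] X.B0) := inferInstance
  obtain ⟨R, i1, i2, i3, i4, σ, hσ⟩ := exists_family_ring K (K ⊗[k] X.B0) N'
  let _ : Algebra k R := ((algebraMap K R).comp (algebraMap k K)).toAlgebra
  have ht : IsScalarTower k K R := IsScalarTower.of_algebraMap_eq fun _ => rfl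
  let inc : X.B0 →ₐ[k] K ⊗[k] X.B0 := Algebra.TensorProduct.includeRight
  let τ : Fin N' → (X.B0 →ₐ[k] R) := fun j => ((σ j).restrictScalars k).comp inc
  -- points of the base
  have hpt : ∀ Q : Fin N' → (X.B0 →ₐ[k] K), ∃ t : R →ₐ[K] K,
      ∀ j, (t.restrictScalars k).comp (τ j) = Q j := by
    intro Q
    obtain ⟨t, ht⟩ := hσ fun j => Algebra.TensorProduct.lift (AlgHom.id K K) (Q j)
      (fun _ _ => Commute.all _ _)
    refine ⟨t, fun j => ?_⟩
    ext b
    have h3 := congrArg (fun f => f (1 ⊗ₜ b)) (ht j)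
    simp only [AlgHom.comp_apply, Algebra.TensorProduct.lift_tmul, map_one, one_mul] at h3
    exact h3
  obtain ⟨M, hM⟩ := T.surj (T.cl (W.O R n) * ∏ j, T.cl (W.m0 (τ j)))
  obtain ⟨φ₀, hφ₀⟩ := hpt P'
  obtain ⟨φ₁, hφ₁⟩ := hpt P
  refine ⟨R, i1, inferInstance, i3, ht, i2, i4, M, φ₀, φ₁, ?_, ?_, ?_, ?_⟩
  · exact W.rig_twist _ (W.O_rig R n) τ M hM
  · intro K' _ _ _ h L' hL'
    rw [← T.map_cl, hM, W.map_twist] at hL'
    have e3 := W.chi_twist (W.O K' n) _ L' hL'.symm
    have e4 := hchi (Algebra.ofId k K) (W.O k n) (W.O K n) (W.O_bc _ n)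
    have e5 := hchi (Algebra.ofId k K') (W.O k n) (W.O K' n) (W.O_bc _ n)
    linarith
  · rw [← T.map_cl, hM, W.map_twist, ← hP']
    simp only [hφ₀]
  · rw [← T.map_cl, hM, W.map_twist, ← hP]
    simp only [hφ₁]

end TwistPkg

end Fermat.Agent.Jac
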