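import Fermat.Agent.Jac.FibF

/-! Commensurability and Euler characteristics of pairs of fractional ideals. -/

set_option autoImplicit false
set_option linter.all false

namespace Fermat.Agent.Jac

open nonZeroDivisors

universe u v

section lin

variable {K : Type u} {V : Type v} [Field K] [AddCommGroup V] [Module K V]

theorem relFin_of_ker {W : Type*} [AddCommGroup W] [Module K W] [FiniteDimensional K W]
    {Y X : Submodule K V} (g : X →ₗ[K] W) (h : ∀ x : X, g x = 0 → (x : V) ∈ Y) : RelFin Y X := by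
  rw [relFin_iff]
  have hle : LinearMap.ker g ≤ Y.submoduleOf X := fun x hx => h x hx
  have h1 : FiniteDimensional K (X ⧸ LinearMap.ker g) :=
    Module.Finite.equiv (LinearMap.quotKerEquivRange g).symm
  exact Module.Finite.of_surjective (Submodule.factor hle) (Submodule.factor_surjective hle)

theorem rd_eq_one {Y X : Submodule K V} (a : V) (ha : a ∈ X) (haY : a ∉ Y)
    (h : ∀ x ∈ X, ∃ c : K, x - c • a ∈ Y) : rd Y X = 1 := by
  unfold rd
  rw [finrank_eq_one_iff']
  refine ⟨⟨Y.mkQ a, Submodule.mem_map_of_mem ha⟩, ?_, ?_⟩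
  · intro h0
    apply haY
    have := congrArg Subtype.val h0
    simpa using this
  · rintro ⟨_, x, hx, rfl⟩
    obtain ⟨c, hc⟩ := h x hx
    refine ⟨c, Subtype.ext ?_⟩
    change c • Y.mkQ a = Y.mkQ x
    rw [← map_smul]
    symm
    rw [← sub_eq_zero, ← map_sub]
    exact (Submodule.Quotient.mk_eq_zero Y).mpr hc

theorem rd_map_equiv {V' : Type*} [AddCommGroup V'] [Module K V'] (e : V ≃ₗ[K] V')
    (Y X : Submodule K V) : rd (Y.map (e : V →ₗ[K] V')) (X.map (e : V →ₗ[K] V')) = rd Y X := by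
  rw [rd_eq, rd_eq]
  refine LinearEquiv.finrank_eq ?_
  refine (Submodule.Quotient.equiv _ _ (e.submoduleMap X).symm ?_)
  ext ⟨x, hx⟩
  simp only [Submodule.submoduleOf, Submodule.mem_map, Submodule.mem_comap]
  constructor
  · rintro ⟨⟨_, w, hw, rfl⟩, ⟨y, hy, hyw⟩, h⟩
    have : y = w := e.injective hyw
    subst this
    have h2 := congrArg Subtype.val h
    simp at h2
    change x ∈ Y
    rw [← h2]; exact hy
  · intro hxY
    exact ⟨⟨e x, x, hx, rfl⟩, ⟨x, hxY, rfl⟩, by ext; simp⟩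

theorem relFin_map_equiv {V' : Type*} [AddCommGroup V'] [Module K V'] (e : V ≃ₗ[K] V')
    {Y X : Submodule K V} (h : RelFin Y X) :
    RelFin (Y.map (e : V →ₗ[K] V')) (X.map (e : V →ₗ[K] V')) := by
  have h' : FiniteDimensional K (X.map Y.mkQ) := h
  let g : (X.map (e : V →ₗ[K] V')) →ₗ[K] (X.map Y.mkQ) :=
    (Y.mkQ.restrict (p := X) (q := X.map Y.mkQ) fun x hx => Submodule.mem_map_of_mem hx).comp
      (e.submoduleMap X).symm.toLinearMap
  refine relFin_of_ker g ?_
  rintro ⟨_, x, hx, rfl⟩ h0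
  have h1 := congrArg Subtype.val h0
  have h2 : (e.submoduleMap X).symm ⟨(e : V →ₗ[K] V') x, ⟨x, hx, rfl⟩⟩ = ⟨x, hx⟩ := by
    rw [LinearEquiv.symm_apply_eq]; rfl
  have h3 : Y.mkQ x = 0 := by
    have : (g ⟨(e : V →ₗ[K] V') x, ⟨x, hx, rfl⟩⟩ : V ⧸ Y) = Y.mkQ x := by
      change Y.mkQ ((e.submoduleMap X).symm ⟨(e : V →ₗ[K] V') x, ⟨x, hx, rfl⟩⟩ : X) = _
      rw [h2]
    rw [← this]; exact h1
  exact Submodule.mem_map_of_mem (by simpa using h3)

theorem pchi_map_equiv {V' : Type*} [AddCommGroup V'] [Module K V'] (e : V ≃ₗ[K] V')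
    (X0 Xi X : Submodule K V) : pchi (X0.map (e : V →ₗ[K] V')) (Xi.map (e : V →ₗ[K] V'))
      (X.map (e : V →ₗ[K] V')) = pchi X0 Xi X := by
  unfold pchi ph0 ph1
  rw [← Submodule.map_sup, rd_map_equiv, ← Submodule.map_inf _ e.injective,
    LinearEquiv.finrank_map_eq]

theorem PFin.map_equiv {V' : Type*} [AddCommGroup V'] [Module K V'] (e : V ≃ₗ[K] V')
    {X0 Xi X : Submodule K V} (h : PFin X0 Xi X) : PFin (X0.map (e : V →ₗ[K] V'))
      (Xi.map (e : V →ₗ[K] V')) (X.map (e : V →ₗ[K] V')) := by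
  refine ⟨Submodule.map_mono h.le0, Submodule.map_mono h.lei, ?_, ?_⟩
  · rw [← Submodule.map_inf _ e.injective]
    have := h.fin0
    infer_instance
  · rw [← Submodule.map_sup]
    exact relFin_map_equiv e h.fin1

end lin

variable {K B0 Bi F : Type u} [Field K] [CommRing B0] [CommRing Bi] [Field F] [Algebra K B0]
    [Algebra K Bi] [Algebra K F] [Algebra B0 F] [Algebra Bi F]

variable [IsDomain B0] [IsDedekindDomain B0] [IsFractionRing B0 F] [IsDomain Bi]
  [IsDedekindDomain Bi] [IsFractionRing Bi F] [IsScalarTower K B0 F] [IsScalarTower K Bi F]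

/-- a nonzero fractional ideal contains a nonzero element of the ring -/
theorem exists_int_mem {I : FractionalIdeal B0⁰ F} (hI : I ≠ 0) :
    ∃ b : B0, b ≠ 0 ∧ algebraMap B0 F b ∈ I := by
  obtain ⟨f, hf, hf0⟩ : ∃ f ∈ I, f ≠ 0 := by
    by_contra h
    push Not at h
    apply hI
    rw [FractionalIdeal.eq_zero_iff]
    exact fun x hx => h x hx
  obtain ⟨⟨n, d⟩, hd⟩ := IsLocalization.surj B0⁰ f
  refine ⟨n, ?_, ?_⟩
  · rintro rfl
    simp only [map_zero, mul_eq_zero] at hd
    rcases hd with hd | hd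
    · exact hf0 hd
    · have : (d : B0) = 0 := by
        apply IsFractionRing.injective B0 F
        rw [map_zero]; exact hd
      exact nonZeroDivisors.coe_ne_zero d this
  · have := I.1.smul_mem (d : B0) hf
    rw [Algebra.smul_def, mul_comm, hd] at this
    exact this

variable (C : FC K B0 Bi F)

/-- any two nonzero fractional ideals are commensurable -/
theorem relFin_frac (C : FC K B0 Bi F) {I : FractionalIdeal B0⁰ F} (hI : I ≠ 0)
    (J : FractionalIdeal B0⁰ F) : RelFin (FC.subK K I) (FC.subK K J) := by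
  obtain ⟨b, hb, hbJ⟩ := J.isFractional
  have hb0 : (algebraMap B0 F b) ≠ 0 := by
    intro h0
    exact (mem_nonZeroDivisors_iff_ne_zero.mp hb) (IsFractionRing.injective B0 F (by rw [h0, map_zero]))
  have hinj : Function.Injective (Algebra.linearMap B0 F) := IsFractionRing.injective B0 F
  -- the ideal `b I ∩ B0`
  let I' : Ideal B0 := (FractionalIdeal.spanSingleton B0⁰ (algebraMap B0 F b) * I :
    FractionalIdeal B0⁰ F).1.comap (Algebra.linearMap B0 F)
  have hI' : I' ≠ ⊥ := by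
    have h1 : (FractionalIdeal.spanSingleton B0⁰ (algebraMap B0 F b) * I) ≠ 0 :=
      mul_ne_zero (by rwa [ne_eq, FractionalIdeal.spanSingleton_eq_zero_iff]) hI
    obtain ⟨c, hc, hcI⟩ := exists_int_mem h1
    intro h
    apply hc
    have : c ∈ I' := hcI
    rw [h] at this
    simpa using this
  have := C.quo0 I' hI'
  -- the linear map
  have hmem : ∀ j : FC.subK K J, algebraMap B0 F b * (j : F) ∈
      (LinearMap.range (Algebra.linearMap B0 F)).restrictScalars K := by
    rintro ⟨j, hj⟩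
    obtain ⟨c, hc⟩ := hbJ j hj
    refine ⟨c, ?_⟩
    rw [Algebra.smul_def] at hc
    exact hc
  let m : FC.subK K J →ₗ[K] (LinearMap.range (Algebra.linearMap B0 F)).restrictScalars K :=
    { toFun := fun j => ⟨algebraMap B0 F b * (j : F), hmem j⟩
      map_add' := fun j j' => by ext; simp [mul_add]
      map_smul' := fun c j => by ext; simp }
  let e : B0 ≃ₗ[K] (LinearMap.range (Algebra.linearMap B0 F)).restrictScalars K :=
    (LinearEquiv.ofInjective (Algebra.linearMap B0 F) hinj).restrictScalars K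
  let q : B0 →ₗ[K] (B0 ⧸ I') := (Ideal.Quotient.mkₐ K I').toLinearMap
  refine relFin_of_ker (q.comp (e.symm.toLinearMap.comp m)) ?_
  intro j hj
  have h1 : e.symm (m j) ∈ I' := Ideal.Quotient.eq_zero_iff_mem.mp hj
  have h2 : algebraMap B0 F (e.symm (m j)) = algebraMap B0 F b * (j : F) := by
    have : (e (e.symm (m j)) : F) = algebraMap B0 F b * (j : F) := by
      rw [LinearEquiv.apply_symm_apply]; rfl
    exact this
  have h3 : algebraMap B0 F b * (j : F) ∈
      (FractionalIdeal.spanSingleton B0⁰ (algebraMap B0 F b) * I : FractionalIdeal B0⁰ F) := by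
    rw [← h2]; exact h1
  rw [FractionalIdeal.mem_singleton_mul] at h3
  obtain ⟨i, hi, hij⟩ := h3
  have : (j : F) = i := mul_left_cancel₀ hb0 hij
  rw [this]; exact hi

/-- sections on the overlap come from the chart modulo any smaller pair -/
theorem locK_le (C : FC K B0 Bi F) {I J : FractionalIdeal B0⁰ F} (hI : I ≠ 0) (hJ : J ≠ 0) :
    FC.locK C.x J K C.x_mem ≤ FC.locK C.x I K C.x_mem ⊔ FC.subK K J := by
  rintro f ⟨n, hn⟩
  obtain ⟨b, hb, hbI⟩ := exists_int_mem (mul_ne_zero hI (inv_ne_zero hJ))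
  have hbJ : ∀ j ∈ J, algebraMap B0 F b * j ∈ I := fun j hj => by
    have := FractionalIdeal.mul_mem_mul hbI hj
    rwa [mul_assoc, inv_mul_cancel₀ hJ, mul_one] at this
  obtain ⟨c, hc⟩ := C.x_mem
  have hsp : Ideal.span {b} ≠ ⊥ := by rwa [ne_eq, Ideal.span_singleton_eq_bot]
  have hfd := C.quo0 _ hsp
  have hart : IsArtinianRing (B0 ⧸ Ideal.span {b}) := IsArtinianRing.of_finite K _
  obtain ⟨m, y, hy⟩ := IsArtinian.exists_pow_succ_smul_dvd
    (Ideal.Quotient.mk (Ideal.span {b}) c) (1 : B0 ⧸ Ideal.span {b})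
  obtain ⟨y, rfl⟩ := Ideal.Quotient.mk_surjective y
  -- iterate
  have key : ∀ n : ℕ, ∃ e : B0, c ^ m = c ^ (m + n) * y ^ n + b * e := by
    intro n
    induction n with
    | zero => exact ⟨0, by simp⟩
    | succ n ih =>
      obtain ⟨e, he⟩ := ih
      have h1 : c ^ (m + 1) * y - c ^ m ∈ Ideal.span {b} := by
        rw [← Ideal.Quotient.eq_zero_iff_mem, map_sub, sub_eq_zero]
        simpa using hy
      obtain ⟨e', he'⟩ := Ideal.mem_span_singleton'.mp h1
      -- c^(m+n) y^n = c^(m+n+1) y^(n+1) - c^n y^n e' b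
      refine ⟨e - c ^ n * y ^ n * e', ?_⟩
      have h2 : c ^ m = c ^ (m + 1) * y - e' * b := by rw [he']; ring
      calc c ^ m = c ^ (m + n) * y ^ n + b * e := he
        _ = c ^ n * y ^ n * c ^ m + b * e := by ring
        _ = c ^ n * y ^ n * (c ^ (m + 1) * y - e' * b) + b * e := by rw [← h2]
        _ = _ := by ring
  obtain ⟨e, he⟩ := key n
  have he' := congrArg (algebraMap B0 F) he
  simp only [map_pow, map_add, map_mul, hc] at he'
  have hx : C.x ^ (m + n) ≠ 0 := pow_ne_zero _ C.x_ne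
  rw [Submodule.mem_sup]
  refine ⟨(C.x ^ (m + n))⁻¹ * (algebraMap B0 F b * (algebraMap B0 F e * (C.x ^ n * f))), ?_,
    algebraMap B0 F y ^ n * (C.x ^ n * f), ?_, ?_⟩
  · refine ⟨m + n, ?_⟩
    rw [mul_inv_cancel_left₀ hx]
    apply hbJ
    have := J.1.smul_mem e hn
    rwa [Algebra.smul_def] at this
  · have := J.1.smul_mem (y ^ n) hn
    rwa [Algebra.smul_def, map_pow] at this
  · apply mul_left_cancel₀ hx
    rw [mul_add, mul_inv_cancel_left₀ hx]
    have h4 : C.x ^ (m + n) * f = C.x ^ m * (C.x ^ n * f) := by ring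
    rw [h4, he']
    ring

end Fermat.Agent.Jac
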