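import Fermat.Agent.Jac.FibC2

/-! Zeros of sections and the simultaneous covering lemma. -/

set_option autoImplicit false
set_option linter.all false

namespace Fermat.Agent.Jac

open nonZeroDivisors

universe u v

section lin

variable {K : Type u} {V : Type v} [Field K] [AddCommGroup V] [Module K V]

theorem rd_mono_left {Y Y' X : Submodule K V} (h : Y ≤ Y') (hf : RelFin Y X) :
    rd Y' X ≤ rd Y X := by
  have h' : FiniteDimensional K (X.map Y.mkQ) := hf
  have h1 : X.map Y'.mkQ =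
      (X.map Y.mkQ).map (Submodule.mapQ Y Y' LinearMap.id (by simpa using h)) := by
    rw [← Submodule.map_comp]; congr 1
  unfold rd
  rw [h1]
  exact Submodule.finrank_map_le _ _

end lin

variable {K B0 Bi F : Type u} [Field K] [CommRing B0] [CommRing Bi] [Field F] [Algebra K B0]
    [Algebra K Bi] [Algebra K F] [Algebra B0 F] [Algebra Bi F]

variable [IsDomain B0] [IsDedekindDomain B0] [IsFractionRing B0 F] [IsDomain Bi]
  [IsDedekindDomain Bi] [IsFractionRing Bi F] [IsScalarTower K B0 F] [IsScalarTower K Bi F]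

namespace Pr

variable {C : FC K B0 Bi F}

noncomputable instance : CommGroup (Pr C) where
  mul := mul
  mul_assoc := mul_assoc'
  one := one
  one_mul := one_mul'
  mul_one := mul_one'
  inv := inv
  inv_mul_cancel := inv_mul'
  mul_comm := mul_comm'

theorem mul_def (L M : Pr C) : L * M = L.mul M := rfl
theorem one_def : (1 : Pr C) = one := rfl
theorem inv_def (L : Pr C) : L⁻¹ = L.inv := rfl

/-- no global sections -/
def H0z (L : Pr C) : Prop := L.s0 ⊓ L.si = ⊥
/-- no first cohomology -/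
def H1z (L : Pr C) : Prop := L.s0 ⊔ L.si = L.sB

theorem chi_mono (h1 : (one : Pr C).Fin) {P' P : Pr C} (h0 : P'.I0 ≤ P.I0) (hi : P'.Ii ≤ P.Ii) :
    P'.chi ≤ P.chi := by
  have h := chi_le_formula h0 hi (fin_of_fin h1 P)
  have h2 : rd P'.sB P.sB ≤ rd P'.si P.si := by
    have h3 : P'.sB ⊔ P.si = P.sB := le_antisymm (sup_le (sB_mono h0) P.si_le) (sB_le_sup' P P')
    rw [← h3, rd_sup]
    exact rd_mono_left P'.si_le (relFin_si P' P)
  have h4 : (rd P'.sB P.sB : ℤ) ≤ rd P'.si P.si := by exact_mod_cast h2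
  have h5 : (0 : ℤ) ≤ rd P'.s0 P.s0 := by positivity
  linarith

theorem H1z_mono {P' P : Pr C} (h0 : P'.I0 ≤ P.I0) (hi : P'.Ii ≤ P.Ii) (h : H1z P') : H1z P := by
  unfold H1z at *
  apply le_antisymm (sup_le P.s0_le P.si_le)
  refine (sB_le_sup P P').trans (sup_le ?_ le_sup_left)
  rw [← h]
  exact sup_le_sup h0 hi

theorem chi_eq_of_H1z {L : Pr C} (h : H1z L) :
    L.chi = (Module.finrank K ↥(L.s0 ⊓ L.si) : ℤ) := by
  unfold chi pchi ph0 ph1
  rw [rd_of_le (show L.sB ≤ L.s0 ⊔ L.si from h.ge)]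
  simp

theorem H0z_of_chi {L : Pr C} (hL : L.Fin) (h : H1z L) (hc : L.chi = 0) : H0z L := by
  rw [chi_eq_of_H1z h] at hc
  have := hL.fin0
  exact Submodule.finrank_eq_zero.mp (by exact_mod_cast hc)

theorem exists_section {L : Pr C} (hL : L.Fin) (hc : 0 < L.chi) :
    ∃ s : F, s ≠ 0 ∧ s ∈ L.s0 ∧ s ∈ L.si := by
  have h1 : 0 < Module.finrank K ↥(L.s0 ⊓ L.si) := by
    unfold chi pchi ph0 ph1 at hc
    omega
  have h2 : L.s0 ⊓ L.si ≠ ⊥ := by
    intro h
    rw [h] at h1
    simp at h1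
  obtain ⟨s, hs, hs0⟩ := Submodule.exists_mem_ne_zero_of_ne_bot h2
  exact ⟨s, hs0, hs.1, hs.2⟩

theorem chi_prin (s : F) (hs : s ≠ 0) : (prin s hs : Pr C).chi = (one : Pr C).chi := by
  have := chi_mul_prin (one : Pr C) s hs
  rwa [one_mul'] at this

/-- the sub-pair generated by a section -/
theorem chi_one_le_of_section (h1 : (one : Pr C).Fin) {L : Pr C} {s : F} (hs : s ≠ 0)
    (h0 : s ∈ L.s0) (hi : s ∈ L.si) : (one : Pr C).chi ≤ L.chi := by
  rw [← chi_prin s hs]
  refine chi_mono h1 ?_ ?_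
  · change FractionalIdeal.spanSingleton B0⁰ s ≤ L.I0
    rw [FractionalIdeal.spanSingleton_le_iff_mem]
    exact h0
  · change FractionalIdeal.spanSingleton Bi⁰ s ≤ L.Ii
    rw [FractionalIdeal.spanSingleton_le_iff_mem]
    exact hi

theorem mem_mul_of_coprime {I : FractionalIdeal B0⁰ F} {Q P : Ideal B0} (h : IsCoprime Q P) {s : F}
    (hQ : s ∈ I * (Q : FractionalIdeal B0⁰ F)) (hP : s ∈ I * (P : FractionalIdeal B0⁰ F)) :
    s ∈ I * (Q : FractionalIdeal B0⁰ F) * (P : FractionalIdeal B0⁰ F) := by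
  obtain ⟨q, hq, p, hp, hqp⟩ := Ideal.isCoprime_iff_exists.mp h
  have h1 : s = s * algebraMap B0 F q + s * algebraMap B0 F p := by
    rw [← mul_add, ← map_add, hqp, map_one, mul_one]
  rw [h1]
  refine (I * (Q : FractionalIdeal B0⁰ F) * (P : FractionalIdeal B0⁰ F)).1.add_mem ?_ ?_
  · have := FractionalIdeal.mul_mem_mul hP (FractionalIdeal.mem_coeIdeal_of_mem (P := F) B0⁰ hq)
    rw [mul_assoc, mul_comm (P : FractionalIdeal B0⁰ F), ← mul_assoc] at this
    exact this
  · exact FractionalIdeal.mul_mem_mul hQ (FractionalIdeal.mem_coeIdeal_of_mem (P := F) B0⁰ hp)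

/-- a family of distinct rational points of the first chart -/
structure Pts (C : FC K B0 Bi F) (ι : Type*) where
  P : ι → Ideal B0
  inj : Function.Injective P
  ne : ∀ i, P i ≠ ⊥
  max : ∀ i, (P i).IsMaximal
  rat : ∀ i, ∀ b : B0, ∃ c : K, b - algebraMap K B0 c ∈ P i

/-- the divisor of a point -/
noncomputable def Pts.J {ι : Type*} (T : Pts C ι) (i : ι) : Pr C := Pr.J C (T.P i) (T.ne i)

theorem Pts.chi_mul {ι : Type*} (T : Pts C ι) (h1 : (one : Pr C).Fin) (L : Pr C) (i : ι) :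
    (L * T.J i).chi = L.chi - 1 := chi_mul_J h1 L _ _ (T.max i) (T.rat i)

theorem Pts.chi_mul_prod {ι κ : Type*} (T : Pts C ι) (h1 : (one : Pr C).Fin) (L : Pr C)
    (Z : Finset κ) (s : κ → ι) : (L * ∏ i ∈ Z, T.J (s i)).chi = L.chi - Z.card := by
  classical
  induction Z using Finset.induction_on with
  | empty => simp
  | insert a Z ha ih =>
    rw [Finset.prod_insert ha, mul_comm (T.J (s a)), ← mul_assoc, T.chi_mul h1, ih,
      Finset.card_insert_of_notMem ha]
    push_cast; ring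

theorem Pts.prod_I0 {ι : Type*} (T : Pts C ι) (Z : Finset ι) :
    (∏ i ∈ Z, T.J i).I0 = ((∏ i ∈ Z, T.P i : Ideal B0) : FractionalIdeal B0⁰ F) := by
  classical
  induction Z using Finset.induction_on with
  | empty => simp [one_def, one]
  | insert a Z ha ih =>
    rw [Finset.prod_insert ha, Finset.prod_insert ha, FractionalIdeal.coeIdeal_mul, ← ih]
    rfl

/-- **a nonzero section has at most `deg L` rational zeros** -/
theorem Pts.card_zeros_le {ι : Type*} (T : Pts C ι) (h1 : (one : Pr C).Fin) (L : Pr C)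
    {s : F} (hs : s ≠ 0) (h0 : s ∈ L.s0) (hi : s ∈ L.si) (Z : Finset ι)
    (hZ : ∀ i ∈ Z, s ∈ (L * T.J i).s0) : (Z.card : ℤ) ≤ L.chi - (one : Pr C).chi := by
  classical
  have key : s ∈ (L * ∏ i ∈ Z, T.J i).s0 ∧ s ∈ (L * ∏ i ∈ Z, T.J i).si := by
    induction Z using Finset.induction_on with
    | empty => simpa using ⟨h0, hi⟩
    | insert a Z ha ih =>
      obtain ⟨ih0, ihi⟩ := ih fun i hi => hZ i (Finset.mem_insert_of_mem hi)
      have h2 : L * ∏ i ∈ insert a Z, T.J i = (L * ∏ i ∈ Z, T.J i).mul (Pr.J C (T.P a) (T.ne a)) := by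
        rw [Finset.prod_insert ha, mul_comm (T.J a), ← mul_assoc]; rfl
      rw [h2]
      have h3 : s ∈ ((L * ∏ i ∈ Z, T.J i).mul (Pr.J C (T.P a) (T.ne a))).s0 := by
        have h4 : s ∈ L.I0 * (T.P a : FractionalIdeal B0⁰ F) := hZ a (Finset.mem_insert_self a Z)
        have h5 : s ∈ L.I0 * ((∏ i ∈ Z, T.P i : Ideal B0) : FractionalIdeal B0⁰ F) := by
          rw [← T.prod_I0]; exact ih0
        have hcop : IsCoprime (∏ i ∈ Z, T.P i) (T.P a) := by
          refine IsCoprime.prod_left fun i hiZ => ?_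
          rw [Ideal.isCoprime_iff_sup_eq]
          refine Ideal.IsMaximal.coprime_of_ne (T.max i) (T.max a) fun h => ha ?_
          rw [← T.inj h]; exact hiZ
        have h6 := mem_mul_of_coprime hcop h5 h4
        rw [← T.prod_I0] at h6
        exact h6
      refine ⟨h3, ?_⟩
      rw [mul_J_si]
      exact ⟨s0_le _ h3, ihi⟩
  have h2 := chi_one_le_of_section h1 hs key.1 key.2
  have h3 : (L * ∏ i ∈ Z, T.J i).chi = L.chi - Z.card := T.chi_mul_prod h1 L Z id
  linarith

/-- evaluation at a point where some section does not vanish -/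
theorem Pts.H1z_mul {ι : Type*} (T : Pts C ι) (h1 : (one : Pr C).Fin) (L : Pr C) (hL : H1z L)
    (i : ι) {s : F} (h0 : s ∈ L.s0) (hi : s ∈ L.si) (hsi : s ∉ (L * T.J i).s0) :
    H1z (L * T.J i) := by
  have hF := fin_of_fin h1 L
  have hF' := fin_of_fin h1 (L * T.J i)
  have h2 := T.chi_mul h1 L i
  rw [chi_eq_of_H1z hL] at h2
  have hle : (L * T.J i).s0 ⊓ (L * T.J i).si ≤ L.s0 ⊓ L.si :=
    inf_le_inf (mul_J_le0 L _ _) (mul_J_lei L _ _)
  have hlt : (L * T.J i).s0 ⊓ (L * T.J i).si < L.s0 ⊓ L.si := by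
    refine lt_of_le_of_ne hle fun h => hsi ?_
    have : s ∈ L.s0 ⊓ L.si := ⟨h0, hi⟩
    rw [← h] at this
    exact this.1
  have := hF.fin0
  have h3 := Submodule.finrank_lt_finrank_of_lt hlt
  have h4 : ph1 (L * T.J i).s0 (L * T.J i).si (L * T.J i).sB = 0 := by
    unfold chi pchi ph0 at h2
    omega
  exact le_antisymm (sup_le (s0_le _) (si_le _)) (le_of_rd_eq_zero hF'.fin1 h4)

/-- **simultaneous covering lemma** -/
theorem Pts.exists_cover {ι κ : Type*} [Fintype ι] [Fintype κ] (T : Pts C ι)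
    (h1 : (one : Pr C).Fin) (r : ℕ) (L : κ → Pr C) (hchi : ∀ j, (L j).chi = r)
    (hL : ∀ j, H1z (L j))
    (hcard : (Fintype.card κ : ℤ) * (r - (one : Pr C).chi) < Fintype.card ι) :
    ∃ s : _root_.Fin r → ι, ∀ j, H0z (L j * ∏ i, T.J (s i)) ∧ H1z (L j * ∏ i, T.J (s i)) := by
  classical
  induction r generalizing L with
  | zero =>
    refine ⟨_root_.Fin.elim0, fun j => ?_⟩
    simp only [Finset.univ_eq_empty, Finset.prod_empty, mul_one]
    exact ⟨H0z_of_chi (fin_of_fin h1 _) (hL j) (by simpa using hchi j), hL j⟩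
  | succ r ih =>
    have hsec : ∀ j, ∃ s : F, s ≠ 0 ∧ s ∈ (L j).s0 ∧ s ∈ (L j).si := fun j =>
      exists_section (fin_of_fin h1 _) (by rw [hchi j]; positivity)
    choose s hs hs0 hsi using hsec
    -- the zeros
    let Z : κ → Finset ι := fun j => Finset.univ.filter fun i => s j ∈ (L j * T.J i).s0
    have hZ : ∀ j, ((Z j).card : ℤ) ≤ (r + 1 : ℕ) - (one : Pr C).chi := fun j => by
      rw [← hchi j]
      exact T.card_zeros_le h1 (L j) (hs j) (hs0 j) (hsi j) (Z j) fun i hi =>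
        (Finset.mem_filter.mp hi).2
    have hU : ((Finset.univ.biUnion Z).card : ℤ) < Fintype.card ι := by
      refine lt_of_le_of_lt ?_ hcard
      have h2 : (Finset.univ.biUnion Z).card ≤ ∑ j : κ, (Z j).card := Finset.card_biUnion_le
      have h3 : ((Finset.univ.biUnion Z).card : ℤ) ≤ ∑ j : κ, ((Z j).card : ℤ) := by
        exact_mod_cast h2
      refine h3.trans ?_
      refine (Finset.sum_le_sum fun j _ => hZ j).trans ?_
      rw [Finset.sum_const, Finset.card_univ, nsmul_eq_mul]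
    obtain ⟨a, ha⟩ : ∃ a : ι, a ∉ Finset.univ.biUnion Z := by
      by_contra h
      push Not at h
      have : Finset.univ.biUnion Z = Finset.univ := Finset.eq_univ_iff_forall.mpr h
      rw [this, Finset.card_univ] at hU
      exact lt_irrefl _ hU
    have ha' : ∀ j, s j ∉ (L j * T.J a).s0 := fun j hj => ha <| by
      rw [Finset.mem_biUnion]
      exact ⟨j, Finset.mem_univ _, Finset.mem_filter.mpr ⟨Finset.mem_univ _, hj⟩⟩
    obtain ⟨t, ht⟩ := ih (fun j => L j * T.J a)
      (fun j => by rw [T.chi_mul h1, hchi j]; push_cast; ring)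
      (fun j => T.H1z_mul h1 (L j) (hL j) a (hs0 j) (hsi j) (ha' j))
      (by
        refine lt_of_le_of_lt ?_ hcard
        refine mul_le_mul_of_nonneg_left ?_ (by positivity)
        push_cast; linarith)
    refine ⟨_root_.Fin.cons a t, fun j => ?_⟩
    rw [_root_.Fin.prod_univ_succ]
    simp only [_root_.Fin.cons_zero, _root_.Fin.cons_succ]
    rw [← mul_assoc]
    exact ht j

end Pr

end Fermat.Agent.Jac
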