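import Fermat.Agent.Jac.FibEmb
import Fermat.Agent.Jac.FibC4
import Fermat.Agent.Jac.FibPts
import Fermat.Agent.Jac.ClMain

set_option autoImplicit false

/-!
# The covering lemma for line bundles
-/

universe u

open TensorProduct

namespace Fermat.Agent.Jac

variable {k : Type u} [Field k] {X : CurveData k} {K : Type u} [Field K] [Algebra k K]

theorem isCompl_of_emb_aux (N : LB X K) (P : Pr (X.fc K)) (ι : N.M →ₗ[X.R K] X.FF K)
    (hι : Function.Injective ι) (h0 : ∀ f, f ∈ P.I0 ↔ ∃ m ∈ N.M0, ι m = f)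
    (hi : ∀ f, f ∈ P.Ii ↔ ∃ m ∈ N.Mi, ι m = f) (H0 : P.H0z) (H1 : P.H1z) :
    IsCompl N.A0 N.Ai := by
  constructor
  · rw [Submodule.disjoint_def]
    intro m hm0 hmi
    have h1 : ι m ∈ P.s0 ⊓ P.si := ⟨(h0 _).2 ⟨m, hm0, rfl⟩, (hi _).2 ⟨m, hmi, rfl⟩⟩
    rw [H0] at h1
    exact hι (by rw [map_zero]; exact (Submodule.mem_bot K).1 h1)
  · rw [codisjoint_iff, eq_top_iff]
    intro m _
    obtain ⟨n, hn⟩ := N.ex0 m
    have h1 : ι m ∈ P.sB := by
      rw [Pr.mem_sB]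
      refine ⟨n, ?_⟩
      rw [h0]
      refine ⟨_, hn, ?_⟩
      rw [map_smul, Algebra.smul_def, map_pow]
      rfl
    rw [← H1] at h1
    obtain ⟨a, ha, b, hb, hab⟩ := Submodule.mem_sup.1 h1
    obtain ⟨m0, hm0, rfl⟩ := (h0 a).1 ha
    obtain ⟨mi, hmi, rfl⟩ := (hi b).1 hb
    rw [← map_add] at hab
    rw [← hι hab]
    exact Submodule.add_mem_sup hm0 hmi

/-- the divisors of finitely many rational points -/
noncomputable def ptsOf {ι : Type*} (σ : ι → (X.B0 →ₐ[k] K)) (hσ : Function.Injective σ) :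
    Pr.Pts (X.fc K) ι where
  P i := X.ker0 (σ i)
  inj := fun _ _ h => hσ (X.ker0_injective h)
  ne i := X.ker0_ne_bot (σ i)
  max i := X.ker0_isMaximal (σ i)
  rat i := X.exists_sub_mem_ker0 (σ i)

theorem Emb.isCompl {N : LB X K} {P : Pr (X.fc K)} (h : Emb N P) (H0 : P.H0z) (H1 : P.H1z) :
    IsCompl N.A0 N.Ai := by
  obtain ⟨ι, hι, h0, hi⟩ := h
  exact isCompl_of_emb_aux N P ι hι h0 hi H0 H1

/-- a class and a pair of fractional ideals which correspond to each other -/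
def EC (c : Cl X K) (P : Pr (X.fc K)) : Prop := ∀ L : LB X K, cl L = c → Emb L P

theorem Emb.ec {L : LB X K} {P : Pr (X.fc K)} (h : Emb L P) : EC (cl L) P := fun _ hL' =>
  h.of_iso (cl_eq.1 hL')

theorem EC.one : EC (1 : Cl X K) 1 := Emb.ec Emb.one

theorem EC.mul {c c' : Cl X K} {P P' : Pr (X.fc K)} (h : EC c P) (h' : EC c' P') :
    EC (c * c') (P * P') := by
  obtain ⟨L, rfl⟩ := cl_surj c
  obtain ⟨L', rfl⟩ := cl_surj c'
  rw [Cl.mul_cl]
  exact (Emb.tens (h L rfl) (h' L' rfl) (LB.tens_tens L L')).ec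

theorem EC.prod {ι : Type*} (s : Finset ι) (c : ι → Cl X K) (P : ι → Pr (X.fc K))
    (h : ∀ i, EC (c i) (P i)) : EC (∏ i ∈ s, c i) (∏ i ∈ s, P i) := by
  classical
  induction s using Finset.induction_on with
  | empty =>
    rw [Finset.prod_empty, Finset.prod_empty]
    exact EC.one
  | insert a s ha ih =>
    rw [Finset.prod_insert ha, Finset.prod_insert ha]
    exact (h a).mul ih

/-- the covering lemma, from the properties of embeddings in the function field -/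
theorem exists_cover_of [IsAlgClosed k] (On : LB X k)
    (D : (X.B0 →ₐ[k] k) → LB X k) (r : ℕ)
    (hK : ∀ (K : Type u) [Field K] [IsAlgClosed K] [Algebra k K],
      ∃ tw : Pr (X.fc K),
        (∀ O', LB.BC (Algebra.ofId k K) On O' → Emb O' tw) ∧
        (∀ (σ : X.B0 →ₐ[k] k) (D' : LB X K), LB.BC (Algebra.ofId k K) (D σ) D' →
          Emb D' (Pr.J (X.fc K) (X.ker0 ((Algebra.ofId k K).comp σ)) (X.ker0_ne_bot _))) ∧
        (Pr.one : Pr (X.fc K)).Fin ∧ (Pr.one : Pr (X.fc K)).chi = 1 - (X.genus : ℤ) ∧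
        ∀ Q : Pr (X.fc K), Q.chi = 1 - (X.genus : ℤ) → (Q * tw).chi = r ∧ (Q * tw).H1z) :
    ∃ (I : Type u) (_ : Finite I) (𝒩 : I → LB X k),
      ∀ {K : Type u} [Field K] [IsAlgClosed K] [Algebra k K] (L L' : LB X K),
        L.chi = 1 - (X.genus : ℤ) → L'.chi = 1 - (X.genus : ℤ) →
        ∃ i, (∀ N, (clPkg X).Tw (𝒩 i) L N → IsCompl N.A0 N.Ai) ∧
          ∀ N, (clPkg X).Tw (𝒩 i) L' N → IsCompl N.A0 N.Ai := by
  classical
  obtain ⟨M, hM⟩ : ∃ M : ℕ, 2 * ((r : ℤ) - (1 - X.genus)) < M := by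
    refine ⟨2 * (r + X.genus) + 1, ?_⟩
    push_cast
    linarith
  obtain ⟨σ, hσ⟩ := X.exists_points M
  have hrep : ∀ s : Fin r → Fin M, ∃ N : LB X k, cl N = cl On * ∏ i, cl (D (σ (s i))) :=
    fun s => cl_surj _
  choose 𝒩 h𝒩 using hrep
  refine ⟨ULift.{u} (Fin r → Fin M), inferInstance, fun s => 𝒩 s.down, ?_⟩
  intro K _ _ _ L L' hL hL'
  obtain ⟨tw, hOn, hD, hfin, hone, htw⟩ := hK K
  let σK : Fin M → (X.B0 →ₐ[k] K) := fun i => (Algebra.ofId k K).comp (σ i)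
  have hσK : Function.Injective σK := by
    intro i j hij
    apply hσ
    ext b
    have h1 := congrArg (fun f : X.B0 →ₐ[k] K => f b) hij
    exact (algebraMap k K).injective h1
  obtain ⟨Q, hQ⟩ := Emb.exists L
  obtain ⟨Q', hQ'⟩ := Emb.exists L'
  have hQc : Q.chi = 1 - (X.genus : ℤ) := by rw [← hQ.chi_eq, hL]
  have hQc' : Q'.chi = 1 - (X.genus : ℤ) := by rw [← hQ'.chi_eq, hL']
  obtain ⟨s, hs⟩ := (ptsOf σK hσK).exists_cover hfin r (fun j : Bool => (bif j then Q else Q') * tw)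
    (fun j => by cases j <;> simp [htw _ hQc, htw _ hQc'])
    (fun j => by cases j <;> simp [htw _ hQc, htw _ hQc'])
    (by
      rw [hone, Fintype.card_bool, Fintype.card_fin]
      exact_mod_cast hM)
  -- the class of the twist over `K`
  have hclass : Cl.map (Algebra.ofId k K) (cl (𝒩 s))
      = Cl.map (Algebra.ofId k K) (cl On) * ∏ i, Cl.map (Algebra.ofId k K) (cl (D (σ (s i)))) := by
    rw [h𝒩, map_mul, map_prod]
  have hEC : EC (Cl.map (Algebra.ofId k K) (cl (𝒩 s)))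
      (tw * ∏ i, (ptsOf σK hσK).J (s i)) := by
    rw [hclass]
    refine EC.mul ?_ (EC.prod _ _ _ fun i => ?_)
    · intro O' hO'
      exact hOn O' (Cl.map_cl.1 hO'.symm)
    · intro D' hD'
      exact hD _ D' (Cl.map_cl.1 hD'.symm)
  have key : ∀ (L : LB X K) (Q : Pr (X.fc K)), Emb L Q →
      (Q * tw * ∏ i, (ptsOf σK hσK).J (s i)).H0z →
      (Q * tw * ∏ i, (ptsOf σK hσK).J (s i)).H1z →
      ∀ N, (clPkg X).Tw (𝒩 s) L N → IsCompl N.A0 N.Ai := by
    intro L Q hLQ h0 h1 N hN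
    have h2 : EC (cl L * Cl.map (Algebra.ofId k K) (cl (𝒩 s)))
        (Q * (tw * ∏ i, (ptsOf σK hσK).J (s i))) := EC.mul hLQ.ec hEC
    rw [← mul_assoc] at h2
    exact (h2 N hN).isCompl h0 h1
  refine ⟨⟨s⟩, key L Q hQ ?_ ?_, key L' Q' hQ' ?_ ?_⟩
  · exact (hs true).1
  · exact (hs true).2
  · exact (hs false).1
  · exact (hs false).2

end Fermat.Agent.Jac
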