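import Mathlib

/-! Relative dimensions of subspaces and the Euler characteristic of a pair of subspaces. -/

set_option autoImplicit false
set_option linter.all false

namespace Fermat.Agent.Jac

universe u v

section rd

variable {K : Type u} {V : Type v} [Field K] [AddCommGroup V] [Module K V]

/-- `X / (X ∩ Y)` as the image of `X` in `V / Y`. -/
def RelFin (Y X : Submodule K V) : Prop := FiniteDimensional K (X.map Y.mkQ)

/-- the dimension of `X / (X ∩ Y)`. -/
noncomputable def rd (Y X : Submodule K V) : ℕ := Module.finrank K (X.map Y.mkQ)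

theorem map_mkQ_eq_bot (Y X : Submodule K V) : X.map Y.mkQ = ⊥ ↔ X ≤ Y := by
  rw [eq_bot_iff, Submodule.map_le_iff_le_comap, Submodule.comap_bot, Submodule.ker_mkQ]

/-- `X.map Y.mkQ ≃ X / (Y.comap X.subtype)`. -/
noncomputable def rdEquiv (Y X : Submodule K V) :
    (X ⧸ Y.submoduleOf X) ≃ₗ[K] (X.map Y.mkQ) := by
  refine (Submodule.quotEquivOfEq _ _ ?_).trans
    ((LinearMap.quotKerEquivRange (Y.mkQ.comp X.subtype)).trans (LinearEquiv.ofEq _ _ ?_))
  · ext x; simp [Submodule.submoduleOf]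
  · rw [LinearMap.range_comp, Submodule.range_subtype]

theorem relFin_iff (Y X : Submodule K V) :
    RelFin Y X ↔ FiniteDimensional K (X ⧸ Y.submoduleOf X) :=
  ⟨fun h => by
    haveI : FiniteDimensional K (X.map Y.mkQ) := h
    exact Module.Finite.equiv (rdEquiv Y X).symm,
   fun h => by
    exact Module.Finite.equiv (rdEquiv Y X)⟩

theorem rd_eq (Y X : Submodule K V) :
    rd Y X = Module.finrank K (X ⧸ Y.submoduleOf X) :=
  (rdEquiv Y X).finrank_eq.symm

theorem relFin_of_le {Y X : Submodule K V} (h : X ≤ Y) : RelFin Y X := by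
  have : X.map Y.mkQ = ⊥ := (map_mkQ_eq_bot Y X).mpr h
  unfold RelFin
  rw [this]; infer_instance

theorem rd_of_le {Y X : Submodule K V} (h : X ≤ Y) : rd Y X = 0 := by
  have : X.map Y.mkQ = ⊥ := (map_mkQ_eq_bot Y X).mpr h
  unfold rd
  rw [this]; simp

theorem le_of_rd_eq_zero {Y X : Submodule K V} (hf : RelFin Y X) (h : rd Y X = 0) : X ≤ Y := by
  haveI : FiniteDimensional K (X.map Y.mkQ) := hf
  have : X.map Y.mkQ = ⊥ := Submodule.finrank_eq_zero.mp h
  exact (map_mkQ_eq_bot Y X).mp this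

theorem RelFin.mono_right {Y X X' : Submodule K V} (h : X' ≤ X) (hf : RelFin Y X) :
    RelFin Y X' := by
  haveI : FiniteDimensional K (X.map Y.mkQ) := hf
  exact Submodule.finiteDimensional_of_le (Submodule.map_mono h)

theorem RelFin.mono_left {Y Y' X : Submodule K V} (h : Y ≤ Y') (hf : RelFin Y X) :
    RelFin Y' X := by
  haveI : FiniteDimensional K (X.map Y.mkQ) := hf
  have : X.map Y'.mkQ = (X.map Y.mkQ).map (Submodule.mapQ Y Y' LinearMap.id (by simpa using h)) := by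
    rw [← Submodule.map_comp]; congr 1
  unfold RelFin
  rw [this]; infer_instance

/-- second isomorphism theorem -/
theorem rd_inf (Y X : Submodule K V) : rd (Y ⊓ X) X = rd Y X := by
  rw [rd_eq, rd_eq]
  have : (Y ⊓ X).submoduleOf X = Y.submoduleOf X := by
    ext x; simp [Submodule.submoduleOf]
  rw [this]

theorem relFin_inf (Y X : Submodule K V) : RelFin (Y ⊓ X) X ↔ RelFin Y X := by
  rw [relFin_iff, relFin_iff]
  have : (Y ⊓ X).submoduleOf X = Y.submoduleOf X := by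
    ext x; simp [Submodule.submoduleOf]
  rw [this]

theorem rd_sup (Y X : Submodule K V) : rd Y (Y ⊔ X) = rd Y X := by
  unfold rd
  rw [Submodule.map_sup]
  have : Y.map Y.mkQ = ⊥ := (map_mkQ_eq_bot Y Y).mpr le_rfl
  rw [this, bot_sup_eq]

theorem relFin_sup (Y X : Submodule K V) : RelFin Y (Y ⊔ X) ↔ RelFin Y X := by
  unfold RelFin
  rw [Submodule.map_sup]
  have : Y.map Y.mkQ = ⊥ := (map_mkQ_eq_bot Y Y).mpr le_rfl
  rw [this, bot_sup_eq]

/-- additivity in towers -/
theorem rd_add {X Y Z : Submodule K V} (hXY : X ≤ Y) (hYZ : Y ≤ Z) (hf : RelFin X Z) :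
    rd X Z = rd X Y + rd Y Z := by
  haveI : FiniteDimensional K (Z.map X.mkQ) := hf
  -- the map Z/X → Z/Y
  let f : (V ⧸ X) →ₗ[K] (V ⧸ Y) := Submodule.mapQ X Y LinearMap.id (by simpa using hXY)
  have hf1 : Z.map Y.mkQ = (Z.map X.mkQ).map f := by
    rw [← Submodule.map_comp]; congr 1
  let g : (Z.map X.mkQ) →ₗ[K] (Z.map Y.mkQ) :=
    f.restrict (p := Z.map X.mkQ) (q := Z.map Y.mkQ) (by
      intro x hx; rw [hf1]; exact Submodule.mem_map_of_mem hx)
  have hg : Function.Surjective g := by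
    rintro ⟨y, hy⟩
    rw [hf1] at hy
    obtain ⟨x, hx, rfl⟩ := hy
    exact ⟨⟨x, hx⟩, rfl⟩
  have h1 := LinearMap.finrank_range_add_finrank_ker g
  rw [LinearMap.range_eq_top.mpr hg, finrank_top] at h1
  have h2 : Module.finrank K (LinearMap.ker g) = rd X Y := by
    have hle : Y.map X.mkQ ≤ Z.map X.mkQ := Submodule.map_mono hYZ
    have : LinearMap.ker g = (Y.map X.mkQ).submoduleOf (Z.map X.mkQ) := by
      ext ⟨x, hx⟩
      obtain ⟨z, hz, rfl⟩ := hx
      rw [LinearMap.mem_ker, Subtype.ext_iff]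
      change f (X.mkQ z) = 0 ↔ X.mkQ z ∈ Y.map X.mkQ
      have : f (X.mkQ z) = Y.mkQ z := rfl
      rw [this]
      constructor
      · intro h
        exact Submodule.mem_map_of_mem (by simpa using h)
      · rintro ⟨y, hy, hyz⟩
        have h3 : y - z ∈ X := by
          rw [← Submodule.Quotient.eq]; exact hyz
        have h4 : z ∈ Y := by
          have := Y.sub_mem hy (hXY h3)
          simpa using this
        simpa using h4
    rw [this]
    exact LinearEquiv.finrank_eq (Submodule.submoduleOfEquivOfLe hle)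
  unfold rd at *
  omega

theorem RelFin.tower {X Y Z : Submodule K V} (hXY : X ≤ Y) (hYZ : Y ≤ Z) (h1 : RelFin X Y)
    (h2 : RelFin Y Z) : RelFin X Z := by
  haveI : FiniteDimensional K (Y.map X.mkQ) := h1
  haveI : FiniteDimensional K (Z.map Y.mkQ) := h2
  let f : (V ⧸ X) →ₗ[K] (V ⧸ Y) := Submodule.mapQ X Y LinearMap.id (by simpa using hXY)
  have hf1 : Z.map Y.mkQ = (Z.map X.mkQ).map f := by
    rw [← Submodule.map_comp]; congr 1
  -- finite via exactness
  refine Submodule.fg_iff_finiteDimensional _ |>.mp ?_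
  refine Submodule.fg_of_fg_map_of_fg_inf_ker f ?_ ?_
  · rw [← hf1]; exact (Submodule.fg_iff_finiteDimensional _).mpr h2
  · have : (Z.map X.mkQ) ⊓ LinearMap.ker f ≤ Y.map X.mkQ := by
      rintro _ ⟨⟨z, hz, rfl⟩, hk⟩
      have h3 : Y.mkQ z = 0 := hk
      exact Submodule.mem_map_of_mem (by simpa using h3)
    haveI := Submodule.finiteDimensional_of_le this
    exact (Submodule.fg_iff_finiteDimensional _).mpr inferInstance

theorem rd_bot (X : Submodule K V) : rd ⊥ X = Module.finrank K X := by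
  unfold rd
  exact (Submodule.equivMapOfInjective _ (by
    rw [← LinearMap.ker_eq_bot]; simp) X).finrank_eq.symm

theorem relFin_bot (X : Submodule K V) : RelFin ⊥ X ↔ FiniteDimensional K X := by
  unfold RelFin
  let e := Submodule.equivMapOfInjective ((⊥ : Submodule K V).mkQ) (by
    rw [← LinearMap.ker_eq_bot]; simp) X
  exact ⟨fun h => by exact Module.Finite.equiv e.symm, fun h => by exact Module.Finite.equiv e⟩

end rd

section chi

variable {K : Type u} {V : Type v} [Field K] [AddCommGroup V] [Module K V]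

/-- `dim H⁰` of a pair -/
noncomputable def ph0 (X0 Xi : Submodule K V) : ℕ := Module.finrank K ↥(X0 ⊓ Xi)

/-- `dim H¹` of a pair -/
noncomputable def ph1 (X0 Xi X : Submodule K V) : ℕ := rd (X0 ⊔ Xi) X

/-- finiteness of the cohomology of a pair -/
structure PFin (X0 Xi X : Submodule K V) : Prop where
  le0 : X0 ≤ X
  lei : Xi ≤ X
  fin0 : FiniteDimensional K ↥(X0 ⊓ Xi)
  fin1 : RelFin (X0 ⊔ Xi) X

/-- Euler characteristic of a pair -/
noncomputable def pchi (X0 Xi X : Submodule K V) : ℤ := (ph0 X0 Xi : ℤ) - ph1 X0 Xi X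

theorem PFin.symm {X0 Xi X : Submodule K V} (h : PFin X0 Xi X) : PFin Xi X0 X :=
  ⟨h.lei, h.le0, by rw [inf_comm]; exact h.fin0, by rw [sup_comm]; exact h.fin1⟩

theorem pchi_symm (X0 Xi X : Submodule K V) : pchi Xi X0 X = pchi X0 Xi X := by
  unfold pchi ph0 ph1
  rw [inf_comm, sup_comm]

/-- enlarging the ambient space -/
theorem PFin.ambient {X0 Xi X X' : Submodule K V} (h : PFin X0 Xi X) (hX : X ≤ X')
    (hf : RelFin X X') : PFin X0 Xi X' :=
  ⟨h.le0.trans hX, h.lei.trans hX, h.fin0, h.fin1.tower (sup_le h.le0 h.lei) hX hf⟩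

theorem pchi_ambient {X0 Xi X X' : Submodule K V} (h : PFin X0 Xi X) (hX : X ≤ X')
    (hf : RelFin X X') : pchi X0 Xi X' = pchi X0 Xi X - rd X X' := by
  have := rd_add (sup_le h.le0 h.lei) hX (h.ambient hX hf).fin1
  unfold pchi ph1
  rw [this]; push_cast; ring

theorem PFin.of_ambient {X0 Xi X X' : Submodule K V} (h : PFin X0 Xi X') (hX : X ≤ X')
    (h0 : X0 ≤ X) (hi : Xi ≤ X) : PFin X0 Xi X :=
  ⟨h0, hi, h.fin0, h.fin1.mono_right hX⟩

/-- modular identity used twice -/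
theorem sub_aux {X0' X0 Xi : Submodule K V} (h : X0' ≤ X0) :
    X0 ⊓ (X0' ⊔ Xi) = X0' ⊔ (X0 ⊓ Xi) := by
  rw [inf_comm, sup_inf_assoc_of_le _ h, inf_comm Xi]

theorem PFin.shrink {X0' X0 Xi X : Submodule K V} (h : PFin X0 Xi X) (h0 : X0' ≤ X0)
    (hf : RelFin X0' X0) : PFin X0' Xi X := by
  refine ⟨h0.trans h.le0, h.lei, ?_, ?_⟩
  · haveI := h.fin0
    exact Submodule.finiteDimensional_of_le (inf_le_inf_right Xi h0)
  · refine RelFin.tower (sup_le_sup_right h0 Xi) (sup_le h.le0 h.lei) ?_ h.fin1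
    have h1 : RelFin (X0' ⊔ Xi) X0 := hf.mono_left le_sup_left
    have h2 : X0 ⊔ Xi = (X0' ⊔ Xi) ⊔ X0 := by
      apply le_antisymm
      · exact sup_le le_sup_right (le_sup_right.trans le_sup_left)
      · exact sup_le (sup_le (h0.trans le_sup_left) le_sup_right) le_sup_left
    rw [h2]
    exact (relFin_sup _ _).mpr h1

theorem PFin.enlarge {X0' X0 Xi X : Submodule K V} (h : PFin X0' Xi X) (h0 : X0' ≤ X0)
    (hX : X0 ≤ X) (hf : RelFin X0' X0) : PFin X0 Xi X := by
  refine ⟨hX, h.lei, ?_, ?_⟩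
  · rw [← relFin_bot]
    have h1 : RelFin ⊥ (X0' ⊓ Xi) := (relFin_bot _).mpr h.fin0
    refine RelFin.tower bot_le (inf_le_inf_right Xi h0) h1 ?_
    have h2 : X0' ⊓ Xi = X0' ⊓ (X0 ⊓ Xi) := by
      rw [← inf_assoc, inf_eq_left.mpr h0]
    rw [h2, relFin_inf]
    exact hf.mono_right inf_le_left
  · exact h.fin1.mono_left (sup_le_sup_right h0 Xi)

theorem pchi_shrink {X0' X0 Xi X : Submodule K V} (h : PFin X0 Xi X) (h0 : X0' ≤ X0)
    (hf : RelFin X0' X0) : pchi X0' Xi X = pchi X0 Xi X - rd X0' X0 := by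
  have hs := h.shrink h0 hf
  -- h1' = h1 + rd (X0' ⊔ Xi) (X0 ⊔ Xi)
  have e1 := rd_add (sup_le_sup_right h0 Xi) (sup_le h.le0 h.lei) hs.fin1
  have h2 : X0 ⊔ Xi = (X0' ⊔ Xi) ⊔ X0 := by
    apply le_antisymm
    · exact sup_le le_sup_right (le_sup_right.trans le_sup_left)
    · exact sup_le (sup_le (h0.trans le_sup_left) le_sup_right) le_sup_left
  have e2 : rd (X0' ⊔ Xi) (X0 ⊔ Xi) = rd (X0' ⊔ (X0 ⊓ Xi)) X0 := by
    rw [h2, rd_sup, ← rd_inf (X0' ⊔ Xi) X0, inf_comm, sub_aux h0]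
  have e3 := rd_add (le_sup_left : X0' ≤ X0' ⊔ (X0 ⊓ Xi)) (sup_le h0 inf_le_left) hf
  have e4 : rd X0' (X0' ⊔ (X0 ⊓ Xi)) = rd (X0' ⊓ Xi) (X0 ⊓ Xi) := by
    rw [rd_sup, ← rd_inf X0' (X0 ⊓ Xi), ← inf_assoc, inf_eq_left.mpr h0]
  haveI := h.fin0
  have e5 := rd_add (bot_le : ⊥ ≤ X0' ⊓ Xi) (inf_le_inf_right Xi h0)
    ((relFin_bot _).mpr h.fin0)
  rw [rd_bot, rd_bot] at e5
  unfold pchi ph0 ph1
  have e6 := e1; rw [e2] at e6
  rw [e4] at e3
  omega

end chi

end Fermat.Agent.Jac
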