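import Fermat.Agent.Jac.FibC1

/-! Additivity of the Euler characteristic of pairs of fractional ideals (without primes). -/

set_option autoImplicit false
set_option linter.all false

namespace Fermat.Agent.Jac

open nonZeroDivisors

universe u

namespace FibMul

section One

variable {K B0 F : Type u} [Field K] [CommRing B0] [Field F] [Algebra K B0] [Algebra K F]
  [Algebra B0 F] [IsDomain B0] [IsDedekindDomain B0] [IsFractionRing B0 F] [IsScalarTower K B0 F]

/-- multiplication by `J` does not change relative dimensions: one inequality -/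
theorem exists_mult {I' I J : FractionalIdeal B0⁰ F} (h : I' ≤ I) (h0 : I' ≠ 0) (hJ : J ≠ 0) :
    ∃ g : F, (∀ f ∈ I', g * f ∈ I' * J) ∧
      ∀ f ∈ I * J, ∃ a ∈ I' * J, ∃ b ∈ I, f = a + g * b := by
  have hI0 : I ≠ 0 := by
    rintro rfl
    exact h0 (le_bot_iff.mp h)
  obtain ⟨g, hg⟩ := IsDedekindDomain.exists_add_spanSingleton_mul_eq
    (a := I' * J) (b := I) (c := I * J) (mul_le_mul_left h J) (mul_ne_zero h0 hJ) hI0
  have hgJ : FractionalIdeal.spanSingleton B0⁰ g ≤ J := by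
    have h1 : FractionalIdeal.spanSingleton B0⁰ g * I ≤ I * J := by
      rw [← hg]
      exact le_add_of_nonneg_left (FractionalIdeal.zero_le _)
    have h2 := mul_le_mul_left h1 I⁻¹
    rwa [mul_assoc, mul_inv_cancel₀ hI0, mul_one, mul_comm I J, mul_assoc, mul_inv_cancel₀ hI0,
      mul_one] at h2
  refine ⟨g, fun f hf => ?_, fun f hf => ?_⟩
  · rw [mul_comm I' J]
    exact FractionalIdeal.mul_mem_mul (hgJ (FractionalIdeal.mem_spanSingleton_self _ g)) hf
  · rw [← hg, FractionalIdeal.mem_add] at hf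
    obtain ⟨a, ha, b, hb, rfl⟩ := hf
    rw [FractionalIdeal.mem_singleton_mul] at hb
    obtain ⟨c, hc, rfl⟩ := hb
    exact ⟨a, ha, c, hc, rfl⟩

theorem rd_mul_le_aux {I' I J : FractionalIdeal B0⁰ F} (h : I' ≤ I) (h0 : I' ≠ 0) (hJ : J ≠ 0)
    (hf : RelFin (FC.subK K I') (FC.subK K I)) :
    RelFin (FC.subK K (I' * J)) (FC.subK K (I * J)) ∧
      rd (FC.subK K (I' * J)) (FC.subK K (I * J)) ≤ rd (FC.subK K I') (FC.subK K I) := by
  obtain ⟨g, hg1, hg2⟩ := exists_mult h h0 hJ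
  let m : (F ⧸ FC.subK K I') →ₗ[K] (F ⧸ FC.subK K (I' * J)) :=
    Submodule.mapQ _ _ (LinearMap.mulLeft K g) (fun f hf => hg1 f hf)
  have hle : (FC.subK K (I * J)).map (FC.subK K (I' * J)).mkQ ≤
      ((FC.subK K I).map (FC.subK K I').mkQ).map m := by
    rintro _ ⟨f, hf, rfl⟩
    obtain ⟨a, ha, b, hb, rfl⟩ := hg2 f hf
    refine ⟨_, ⟨b, hb, rfl⟩, ?_⟩
    show m (Submodule.Quotient.mk b) = Submodule.Quotient.mk (a + g * b)
    have h1 : m (Submodule.Quotient.mk b) = Submodule.Quotient.mk (g * b) := rfl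
    rw [h1, Submodule.Quotient.eq]
    have h2 : g * b - (a + g * b) = -a := by ring
    rw [h2]
    exact neg_mem ha
  haveI : FiniteDimensional K ((FC.subK K I).map (FC.subK K I').mkQ) := hf
  constructor
  · exact Submodule.finiteDimensional_of_le hle
  · exact (Submodule.finrank_mono hle).trans (Submodule.finrank_map_le _ _)

theorem rd_mul {I' I J : FractionalIdeal B0⁰ F} (h : I' ≤ I) (h0 : I' ≠ 0) (hJ : J ≠ 0)
    (hf : RelFin (FC.subK K I') (FC.subK K I)) :
    rd (FC.subK K (I' * J)) (FC.subK K (I * J)) = rd (FC.subK K I') (FC.subK K I) := by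
  obtain ⟨h1, h2⟩ := rd_mul_le_aux (K := K) h h0 hJ hf
  refine le_antisymm h2 ?_
  have h3 := (rd_mul_le_aux (K := K) (mul_le_mul_left h J) (mul_ne_zero h0 hJ)
    (inv_ne_zero hJ) h1).2
  rwa [mul_assoc, mul_inv_cancel₀ hJ, mul_one, mul_assoc, mul_inv_cancel₀ hJ, mul_one] at h3

end One

end FibMul

namespace Pr

variable {K B0 Bi F : Type u} [Field K] [CommRing B0] [CommRing Bi] [Field F] [Algebra K B0]
    [Algebra K Bi] [Algebra K F] [Algebra B0 F] [Algebra Bi F]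
    [IsDomain B0] [IsDedekindDomain B0] [IsFractionRing B0 F] [IsDomain Bi]
    [IsDedekindDomain Bi] [IsFractionRing Bi F] [IsScalarTower K B0 F] [IsScalarTower K Bi F]
    {C : FC K B0 Bi F}

section Le

variable {P' P : Pr C} (h0 : P'.I0 ≤ P.I0) (hi : P'.Ii ≤ P.Ii)

include h0 in
theorem sB_mono : P'.sB ≤ P.sB := fun f hf => by
  obtain ⟨n, hn⟩ := hf
  exact ⟨n, h0 hn⟩

theorem relFin_s0 (P' P : Pr C) : RelFin P'.s0 P.s0 := relFin_frac C P'.ne0 P.I0

theorem relFin_si (P' P : Pr C) : RelFin P'.si P.si := relFin_frac C.symm P'.nei P.Ii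

include h0 in
theorem sB_eq : P.sB = P'.sB ⊔ P.s0 :=
  le_antisymm (locK_le C P'.ne0 P.ne0) (sup_le (sB_mono h0) P.s0_le)

include h0 in
theorem relFin_sB : RelFin P'.sB P.sB := by
  rw [sB_eq h0, relFin_sup]
  exact (relFin_s0 P' P).mono_left P'.s0_le

include h0 hi in
theorem Fin.of_le (h : P'.Fin) : P.Fin := by
  have h1 : PFin P'.s0 P'.si P.sB := PFin.ambient h (sB_mono h0) (relFin_sB h0)
  have h2 : PFin P.s0 P'.si P.sB := h1.enlarge h0 P.s0_le (relFin_s0 P' P)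
  exact (h2.symm.enlarge hi P.si_le (relFin_si P' P)).symm

include h0 hi in
theorem Fin.of_ge (h : P.Fin) : P'.Fin := by
  have h1 : PFin P'.s0 P.si P.sB := PFin.shrink h h0 (relFin_s0 P' P)
  have h2 : PFin P'.si P'.s0 P.sB := h1.symm.shrink hi (relFin_si P' P)
  exact h2.symm.of_ambient (sB_mono h0) P'.s0_le P'.si_le

include h0 hi in
theorem fin_iff_of_le : P'.Fin ↔ P.Fin := ⟨Fin.of_le h0 hi, Fin.of_ge h0 hi⟩

include h0 hi in
/-- change of the Euler characteristic -/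
theorem chi_le_formula (h : P.Fin) :
    P.chi = P'.chi + rd P'.s0 P.s0 + rd P'.si P.si - rd P'.sB P.sB := by
  have h' : P'.Fin := Fin.of_ge h0 hi h
  have h1 : PFin P'.s0 P'.si P.sB := PFin.ambient h' (sB_mono h0) (relFin_sB h0)
  have h2 : PFin P.s0 P'.si P.sB := h1.enlarge h0 P.s0_le (relFin_s0 P' P)
  have e1 := pchi_ambient h' (sB_mono h0) (relFin_sB h0)
  have e2 := pchi_shrink h2 h0 (relFin_s0 P' P)
  have e3 := pchi_shrink (PFin.symm h) hi (relFin_si P' P)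
  have e4 := pchi_symm P.s0 P'.si P.sB
  have e5 := pchi_symm P.s0 P.si P.sB
  show pchi P.s0 P.si P.sB = pchi P'.s0 P'.si P'.sB + _ + _ - _
  rw [e4, e5] at e3
  omega

end Le

/-- the intersection of two pairs -/
def inf (L M : Pr C) : Pr C where
  I0 := L.I0 ⊓ M.I0
  Ii := L.Ii ⊓ M.Ii
  ne0 := by
    obtain ⟨b, hb, hb'⟩ := exists_int_mem L.ne0
    obtain ⟨c, hc, hc'⟩ := exists_int_mem M.ne0
    intro h
    have h1 : algebraMap B0 F (b * c) ∈ L.I0 ⊓ M.I0 := by
      refine ⟨?_, ?_⟩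
      · have := L.I0.1.smul_mem c hb'
        rw [Algebra.smul_def, ← map_mul, mul_comm] at this
        exact this
      · have := M.I0.1.smul_mem b hc'
        rw [Algebra.smul_def, ← map_mul] at this
        exact this
    rw [h, FractionalIdeal.mem_zero_iff] at h1
    exact mul_ne_zero hb hc (IsFractionRing.injective B0 F (h1.trans (map_zero _).symm))
  nei := by
    obtain ⟨b, hb, hb'⟩ := exists_int_mem L.nei
    obtain ⟨c, hc, hc'⟩ := exists_int_mem M.nei
    intro h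
    have h1 : algebraMap Bi F (b * c) ∈ L.Ii ⊓ M.Ii := by
      refine ⟨?_, ?_⟩
      · have := L.Ii.1.smul_mem c hb'
        rw [Algebra.smul_def, ← map_mul, mul_comm] at this
        exact this
      · have := M.Ii.1.smul_mem b hc'
        rw [Algebra.smul_def, ← map_mul] at this
        exact this
    rw [h, FractionalIdeal.mem_zero_iff] at h1
    exact mul_ne_zero hb hc (IsFractionRing.injective Bi F (h1.trans (map_zero _).symm))
  glue f := by
    constructor
    · rintro ⟨n, hn⟩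
      obtain ⟨p, hp⟩ := (L.glue f).1 ⟨n, hn.1⟩
      obtain ⟨q, hq⟩ := (M.glue f).1 ⟨n, hn.2⟩
      exact ⟨p + q, y_mem_mono C (Nat.le_add_right p q) hp, y_mem_mono C (Nat.le_add_left q p) hq⟩
    · rintro ⟨n, hn⟩
      obtain ⟨p, hp⟩ := (L.glue f).2 ⟨n, hn.1⟩
      obtain ⟨q, hq⟩ := (M.glue f).2 ⟨n, hn.2⟩
      exact ⟨p + q, x_mem_mono C (Nat.le_add_right p q) hp, x_mem_mono C (Nat.le_add_left q p) hq⟩

theorem inf_I0_le_left (L M : Pr C) : (L.inf M).I0 ≤ L.I0 := inf_le_left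
theorem inf_I0_le_right (L M : Pr C) : (L.inf M).I0 ≤ M.I0 := inf_le_right
theorem inf_Ii_le_left (L M : Pr C) : (L.inf M).Ii ≤ L.Ii := inf_le_left
theorem inf_Ii_le_right (L M : Pr C) : (L.inf M).Ii ≤ M.Ii := inf_le_right

/-- the cohomology of every pair is finite-dimensional -/
theorem fin_of_fin {M : Pr C} (h : M.Fin) (L : Pr C) : L.Fin :=
  Fin.of_le (inf_I0_le_left L M) (inf_Ii_le_left L M)
    (Fin.of_ge (inf_I0_le_right L M) (inf_Ii_le_right L M) h)

/-- multiplication by a function -/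
theorem chi_mul_prin (L : Pr C) (f : F) (hf : f ≠ 0) : (L.mul (prin f hf)).chi = L.chi := by
  let e : F ≃ₗ[K] F := LinearEquiv.smulOfNeZero (M := F) (K := F) f hf |>.restrictScalars K
  have he : ∀ g, e g = f * g := fun g => rfl
  have h0 : (L.mul (prin f hf)).s0 = L.s0.map (e : F →ₗ[K] F) := by
    ext g
    rw [mem_s0]
    show g ∈ L.I0 * FractionalIdeal.spanSingleton B0⁰ f ↔ _
    rw [mul_comm, FractionalIdeal.mem_singleton_mul]
    constructor
    · rintro ⟨h, hh, rfl⟩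
      exact ⟨h, hh, he h⟩
    · rintro ⟨h, hh, rfl⟩
      exact ⟨h, hh, he h⟩
  have hi : (L.mul (prin f hf)).si = L.si.map (e : F →ₗ[K] F) := by
    ext g
    rw [mem_si]
    show g ∈ L.Ii * FractionalIdeal.spanSingleton Bi⁰ f ↔ _
    rw [mul_comm, FractionalIdeal.mem_singleton_mul]
    constructor
    · rintro ⟨h, hh, rfl⟩
      exact ⟨h, hh, he h⟩
    · rintro ⟨h, hh, rfl⟩
      exact ⟨h, hh, he h⟩
  have hB : (L.mul (prin f hf)).sB = L.sB.map (e : F →ₗ[K] F) := by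
    ext g
    rw [mem_sB]
    show (∃ n : ℕ, C.x ^ n * g ∈ L.I0 * FractionalIdeal.spanSingleton B0⁰ f) ↔ _
    constructor
    · rintro ⟨n, hn⟩
      rw [mul_comm, FractionalIdeal.mem_singleton_mul] at hn
      obtain ⟨h, hh, hg⟩ := hn
      have hx : C.x ^ n ≠ 0 := pow_ne_zero _ C.x_ne
      refine ⟨(C.x ^ n)⁻¹ * h, ⟨n, by rwa [mul_inv_cancel_left₀ hx]⟩, ?_⟩
      show f * ((C.x ^ n)⁻¹ * h) = g
      apply mul_left_cancel₀ hx
      rw [hg]
      field_simp
    · rintro ⟨h, ⟨n, hn⟩, rfl⟩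
      refine ⟨n, ?_⟩
      rw [mul_comm L.I0, FractionalIdeal.mem_singleton_mul]
      refine ⟨_, hn, ?_⟩
      show C.x ^ n * (f * h) = _
      ring
  show pchi _ _ _ = pchi _ _ _
  rw [h0, hi, hB, pchi_map_equiv]

/-! ### Additivity -/

/-- the saturation of `P'` in `P` (first chart) -/
def sat (P' P : Pr C) : FractionalIdeal B0⁰ F :=
  ⟨{ carrier := {f | f ∈ P.I0 ∧ ∃ n : ℕ, C.x ^ n * f ∈ P'.I0}
     zero_mem' := ⟨P.I0.1.zero_mem, 0, by rw [mul_zero]; exact P'.I0.1.zero_mem⟩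
     add_mem' := by
      rintro a b ⟨ha, n, hn⟩ ⟨hb, m, hm⟩
      refine ⟨P.I0.1.add_mem ha hb, n + m, ?_⟩
      rw [mul_add]
      exact P'.I0.1.add_mem (x_mem_mono C (Nat.le_add_right n m) hn)
        (x_mem_mono C (Nat.le_add_left m n) hm)
     smul_mem' := by
      rintro c f ⟨hf, n, hn⟩
      refine ⟨P.I0.1.smul_mem c hf, n, ?_⟩
      have := P'.I0.1.smul_mem c hn
      rwa [← mul_smul_comm] at this },
    FractionalIdeal.isFractional_of_le (J := P.I0) fun f hf => hf.1⟩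

theorem mem_sat {P' P : Pr C} {f : F} : f ∈ sat P' P ↔ f ∈ P.I0 ∧ ∃ n : ℕ, C.x ^ n * f ∈ P'.I0 :=
  Iff.rfl

theorem subK_sat (P' P : Pr C) : FC.subK K (sat P' P) = P.s0 ⊓ P'.sB := by
  ext f
  rfl

theorem sat_mul (P' P M : Pr C) : sat (P'.mul M) (P.mul M) = sat P' P * M.I0 := by
  have hM := M.ne0
  apply le_antisymm
  · intro f hf
    obtain ⟨hf1, n, hn⟩ := hf
    have h1 : FractionalIdeal.spanSingleton B0⁰ f * M.I0⁻¹ ≤ sat P' P := by
      intro g hg
      rw [FractionalIdeal.mem_singleton_mul] at hg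
      obtain ⟨j, hj, rfl⟩ := hg
      refine ⟨?_, n, ?_⟩
      · have := FractionalIdeal.mul_mem_mul (show f ∈ P.I0 * M.I0 from hf1) hj
        rwa [mul_assoc, mul_inv_cancel₀ hM, mul_one] at this
      · have := FractionalIdeal.mul_mem_mul (show C.x ^ n * f ∈ P'.I0 * M.I0 from hn) hj
        rw [mul_assoc P'.I0, mul_inv_cancel₀ hM, mul_one, mul_assoc] at this
        exact this
    have h2 := mul_le_mul_left h1 M.I0
    rw [mul_assoc, inv_mul_cancel₀ hM, mul_one] at h2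
    exact h2 (FractionalIdeal.mem_spanSingleton_self _ f)
  · rw [FractionalIdeal.mul_le]
    rintro a ⟨ha, n, hn⟩ j hj
    refine ⟨FractionalIdeal.mul_mem_mul ha hj, n, ?_⟩
    rw [← mul_assoc]
    exact FractionalIdeal.mul_mem_mul hn hj

theorem chi_sub {P' P : Pr C} (h0 : P'.I0 ≤ P.I0) (hi : P'.Ii ≤ P.Ii) (h : P.Fin) :
    P.chi = P'.chi + rd P'.s0 (FC.subK K (sat P' P)) + rd P'.si P.si := by
  rw [chi_le_formula h0 hi h, subK_sat]
  have h1 := rd_add (le_inf h0 P'.s0_le : P'.s0 ≤ P.s0 ⊓ P'.sB) inf_le_left (relFin_s0 P' P)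
  have h2 : rd P'.sB P.sB = rd (P.s0 ⊓ P'.sB) P.s0 := by
    rw [sB_eq h0, rd_sup, ← rd_inf, inf_comm]
  rw [h2]
  omega

theorem chi_sub_mul {P' P : Pr C} (M : Pr C) (h0 : P'.I0 ≤ P.I0) (hi : P'.Ii ≤ P.Ii)
    (h : P.Fin) : (P.mul M).chi - (P'.mul M).chi = P.chi - P'.chi := by
  have hM0 : (P'.mul M).I0 ≤ (P.mul M).I0 := mul_le_mul_left h0 M.I0
  have hMi : (P'.mul M).Ii ≤ (P.mul M).Ii := mul_le_mul_left hi M.Ii
  rw [chi_sub h0 hi h, chi_sub hM0 hMi (fin_of_fin h _), sat_mul]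
  have hs : P'.I0 ≤ sat P' P := fun f hf => ⟨h0 hf, 0, by rwa [pow_zero, one_mul]⟩
  have h1 : rd (P'.mul M).s0 (FC.subK K (sat P' P * M.I0)) = rd P'.s0 (FC.subK K (sat P' P)) :=
    FibMul.rd_mul hs P'.ne0 M.ne0 (relFin_frac C P'.ne0 _)
  have h2 : rd (P'.mul M).si (P.mul M).si = rd P'.si P.si :=
    FibMul.rd_mul hi P'.nei M.nei (relFin_si P' P)
  rw [h1, h2]
  ring

theorem one_mul' (M : Pr C) : (one : Pr C).mul M = M := ext' (one_mul _) (one_mul _)

/-- **additivity of the degree** -/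
theorem chi_mul (h : (one : Pr C).Fin) (L M : Pr C) :
    (L.mul M).chi + (one : Pr C).chi = L.chi + M.chi := by
  have h1 := chi_sub_mul M (inf_I0_le_left L one) (inf_Ii_le_left L one) (fin_of_fin h L)
  have h2 := chi_sub_mul M (inf_I0_le_right L one) (inf_Ii_le_right L one) h
  rw [one_mul'] at h2
  omega

end Pr

end Fermat.Agent.Jac
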