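import Fermat.Agent.Jac.AffMod
import Fermat.Agent.Jac.Def

/-!
# Two-chart schemes and the dictionary between invertible modules and `LB`
-/

set_option autoImplicit false

universe u

open CategoryTheory CategoryTheory.Limits AlgebraicGeometry TopologicalSpace Opposite

namespace Fermat.Agent.Jac

/-- A scheme covered by two affine opens with coordinate rings `R0`, `Ri`, whose intersection is
the principal open of `x`, resp. `y`, with coordinate ring `R`. -/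
structure TwoChart (Z : Scheme.{u}) (R0 Ri R : Type u) [CommRing R0] [CommRing Ri] [CommRing R]
    [Algebra R0 R] [Algebra Ri R] (x : R0) (y : Ri) where
  V0 : Z.Opens
  Vi : Z.Opens
  aff0 : IsAffineOpen V0
  affi : IsAffineOpen Vi
  cover : V0 ⊔ Vi = ⊤
  θ0 : R0 ≃+* Γ(Z, V0)
  θi : Ri ≃+* Γ(Z, Vi)
  θ : R ≃+* Γ(Z, V0 ⊓ Vi)
  rs0 : ∀ r : R0, rs inf_le_left (θ0 r) = θ (algebraMap R0 R r)
  rsi : ∀ r : Ri, rs inf_le_right (θi r) = θ (algebraMap Ri R r)
  bo0 : Z.basicOpen (θ0 x) = V0 ⊓ Vi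
  boi : Z.basicOpen (θi y) = V0 ⊓ Vi

variable {k : Type u} [Field k]

/-- a scheme with the two charts of the curve `X` over `A` -/
abbrev TC (X : CurveData k) (A : Type u) [CommRing A] [Algebra k A] (Z : Scheme.{u}) :=
  TwoChart Z (X.R0 A) (X.Ri A) (X.R A) (X.x0 A) (X.yi A)

variable {X : CurveData k} {A : Type u} [CommRing A] [Algebra k A] {Z : Scheme.{u}}

/-- `E` is the two-chart description of the invertible module `L`. -/
structure RepData (T : TC X A Z) (L : Z.Modules) (E : LB X A) where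
  φ : Γ(L, T.V0 ⊓ T.Vi) ≃+ E.M
  smul : ∀ (r : X.R A) (m : Γ(L, T.V0 ⊓ T.Vi)), φ (T.θ r • m) = r • φ m
  mem0 : ∀ e : E.M, e ∈ E.M0 ↔ ∃ s : Γ(L, T.V0), φ (res L inf_le_left s) = e
  memi : ∀ e : E.M, e ∈ E.Mi ↔ ∃ s : Γ(L, T.Vi), φ (res L inf_le_right s) = e

/-- `E` is the two-chart description of the invertible module `L`. -/
def Rep (T : TC X A Z) (L : Z.Modules) (E : LB X A) : Prop := Nonempty (RepData T L E)

variable {A' : Type u} [CommRing A'] [Algebra k A'] {Z' : Scheme.{u}}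

/-- `g : Z' ⟶ Z` is the base change morphism for `h : A →ₐ[k] A'` -/
structure TCMap (h : A →ₐ[k] A') (T : TC X A Z) (T' : TC X A' Z') (g : Z' ⟶ Z) : Prop where
  pre0 : g ⁻¹ᵁ T.V0 = T'.V0
  prei : g ⁻¹ᵁ T.Vi = T'.Vi
  pf0 : ∀ r : X.R0 A, rs pre0.ge (pf g T.V0 (T.θ0 r)) = T'.θ0 (X.b0 h r)
  pfi : ∀ r : X.Ri A, rs prei.ge (pf g T.Vi (T.θi r)) = T'.θi (X.bi h r)

/-- `s : Spec A ⟶ Z` is the base section -/
structure TCSec (T : TC X A Z) (s : Spec (CommRingCat.of A) ⟶ Z) : Prop where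
  pre : s ⁻¹ᵁ T.Vi = ⊤
  pfi : ∀ r : X.Ri A, rs pre.ge (pf s T.Vi (T.θi r)) =
    (Scheme.ΓSpecIso (CommRingCat.of A)).inv.hom (X.eA A r)

end Fermat.Agent.Jac
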