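import Fermat.Agent.Jac.GeoFrame
import Fermat.Agent.Jac.GeoDef
import Fermat.Agent.Jac.CocGen

/-!
# Every two-chart line bundle comes from an invertible sheaf
-/

set_option autoImplicit false

universe u

open CategoryTheory CategoryTheory.Limits AlgebraicGeometry TopologicalSpace Opposite

namespace Fermat.Agent.Jac

variable {k : Type u} [Field k] {X : CurveData k} {A : Type u} [CommRing A] [Algebra k A]
  {Z : Scheme.{u}}

/-- dual frames of `M0` and `Mi`, with the extensions of the functionals to `M` -/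
structure LB.Frm (E : LB X A) where
  J0 : Type u
  Ji : Type u
  [fin0 : Fintype J0]
  [fini : Fintype Ji]
  n0 : J0 → E.M0
  ni : Ji → E.Mi
  l0 : J0 → E.M0 →ₗ[X.R0 A] X.R0 A
  li : Ji → E.Mi →ₗ[X.Ri A] X.Ri A
  sum0 : ∑ j, l0 j (n0 j) = 1
  sumi : ∑ j, li j (ni j) = 1
  Φ : J0 ⊕ Ji → E.M →ₗ[X.R A] X.R A
  Φ0 : ∀ (j : J0) (m : E.M0), Φ (.inl j) m = algebraMap (X.R0 A) (X.R A) (l0 j m)
  Φi : ∀ (j : Ji) (m : E.Mi), Φ (.inr j) m = algebraMap (X.Ri A) (X.R A) (li j m)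
  ex : ∀ (a : J0 ⊕ Ji) (m m' : E.M), Φ a m • m' = Φ a m' • m

attribute [instance] LB.Frm.fin0 LB.Frm.fini

theorem LB.exists_frm (E : LB X A) : Nonempty E.Frm := by
  haveI := E.inv0
  haveI := E.invi
  obtain ⟨J0, f0, n0, l0, s0⟩ := inv_exists_frame (X.R0 A) E.M0
  obtain ⟨Ji, fi, ni, li, si⟩ := inv_exists_frame (X.Ri A) E.Mi
  have h0 : ∀ j : J0, ∃ Φ : E.M →ₗ[X.R A] X.R A,
      (∀ m : E.M0, Φ m = algebraMap (X.R0 A) (X.R A) (l0 j m)) ∧
      ∀ m m' : E.M, Φ m • m' = Φ m' • m := fun j =>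
    exists_ext E.M0 (X.x0 A) (X.yA A) (by rw [X.algebraMap0, X.J0_x0, X.xA_yA])
      (fun r => by
        obtain ⟨n, r0, h⟩ := X.exists_pow_mul_xA A r
        exact ⟨n, r0, by rw [X.algebraMap0, X.algebraMap0, X.J0_x0, h]⟩)
      (fun m => by
        obtain ⟨n, h⟩ := E.ex0 m
        exact ⟨n, by rwa [X.algebraMap0, X.J0_x0]⟩) (l0 j)
      (inv_exchange (S := X.R0 A) (N := E.M0) (l0 j))
  have hi : ∀ j : Ji, ∃ Φ : E.M →ₗ[X.R A] X.R A,
      (∀ m : E.Mi, Φ m = algebraMap (X.Ri A) (X.R A) (li j m)) ∧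
      ∀ m m' : E.M, Φ m • m' = Φ m' • m := fun j =>
    exists_ext E.Mi (X.yi A) (X.xA A) (by rw [X.algebraMapi, X.Ji_yi, mul_comm, X.xA_yA])
      (fun r => by
        obtain ⟨n, r0, h⟩ := X.exists_pow_mul_yA A r
        exact ⟨n, r0, by rw [X.algebraMapi, X.algebraMapi, X.Ji_yi, h]⟩)
      (fun m => by
        obtain ⟨n, h⟩ := E.exi m
        exact ⟨n, by rwa [X.algebraMapi, X.Ji_yi]⟩) (li j)
      (inv_exchange (S := X.Ri A) (N := E.Mi) (li j))
  choose Φ0 h01 h02 using h0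
  choose Φi hi1 hi2 using hi
  exact ⟨{ J0 := J0, Ji := Ji, fin0 := f0, fini := fi, n0 := n0, ni := ni, l0 := l0, li := li
           sum0 := s0, sumi := si, Φ := Sum.elim Φ0 Φi, Φ0 := h01, Φi := hi1
           ex := fun a => by
            rcases a with j | j
            · exact h02 j
            · exact hi2 j }⟩

/-- elements of the three modules -/
inductive LB.Elt (E : LB X A) : Type u
  | e0 (m : E.M0)
  | ei (m : E.Mi)
  | ee (m : E.M)

variable {E : LB X A}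

/-- the open on which an element is a section -/
def LB.Elt.O (T : TC X A Z) : E.Elt → Z.Opens
  | .e0 _ => T.V0
  | .ei _ => T.Vi
  | .ee _ => T.V0 ⊓ T.Vi

/-- the underlying element of `M` -/
def LB.Elt.ev : E.Elt → E.M
  | .e0 m => m
  | .ei m => m
  | .ee m => m

namespace LB.Frm

variable (F : E.Frm) (T : TC X A Z)

/-- the open containing a chart -/
def O : F.J0 ⊕ F.Ji → Z.Opens
  | .inl _ => T.V0
  | .inr _ => T.Vi

/-- the elements of the frames -/
def nn : F.J0 ⊕ F.Ji → E.Elt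
  | .inl j => .e0 (F.n0 j)
  | .inr j => .ei (F.ni j)

theorem O_nn (a : F.J0 ⊕ F.Ji) : (F.nn a).O T = F.O T a := by
  rcases a with j | j <;> rfl

/-- the function `Φ a z` -/
noncomputable def pr (a : F.J0 ⊕ F.Ji) (z : E.Elt) {W : Z.Opens} (ha : W ≤ F.O T a)
    (hz : W ≤ z.O T) : Γ(Z, W) :=
  match a, z, ha, hz with
  | .inl j, .e0 m, ha, _ => rs ha (T.θ0 (F.l0 j m))
  | .inr j, .ei m, ha, _ => rs ha (T.θi (F.li j m))
  | .inl j, .ei m, ha, hz => rs (le_inf ha hz) (T.θ (F.Φ (.inl j) m))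
  | .inr j, .e0 m, ha, hz => rs (le_inf hz ha) (T.θ (F.Φ (.inr j) m))
  | .inl j, .ee m, _, hz => rs hz (T.θ (F.Φ (.inl j) m))
  | .inr j, .ee m, _, hz => rs hz (T.θ (F.Φ (.inr j) m))

theorem rs_pr (a : F.J0 ⊕ F.Ji) (z : E.Elt) {W W' : Z.Opens} (ha : W ≤ F.O T a)
    (hz : W ≤ z.O T) (h : W' ≤ W) :
    rs h (F.pr T a z ha hz) = F.pr T a z (h.trans ha) (h.trans hz) := by
  rcases a with j | j <;> rcases z with m | m | m <;> exact rs_rs _ _ _

theorem pr_01 (a : F.J0 ⊕ F.Ji) (z : E.Elt) {W : Z.Opens} (ha : W ≤ F.O T a)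
    (hz : W ≤ z.O T) (hW : W ≤ T.V0 ⊓ T.Vi) :
    F.pr T a z ha hz = rs hW (T.θ (F.Φ a z.ev)) := by
  rcases a with j | j <;> rcases z with m | m | m
  · change rs ha (T.θ0 (F.l0 j m)) = rs hW (T.θ (F.Φ (.inl j) m))
    rw [F.Φ0, ← T.rs0, rs_rs]
    rfl
  · rfl
  · rfl
  · rfl
  · change rs ha (T.θi (F.li j m)) = rs hW (T.θ (F.Φ (.inr j) m))
    rw [F.Φi, ← T.rsi, rs_rs]
    rfl
  · rfl

/-- the function defining a chart -/
noncomputable def ga : ∀ a : F.J0 ⊕ F.Ji, Γ(Z, F.O T a)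
  | .inl j => T.θ0 (F.l0 j (F.n0 j))
  | .inr j => T.θi (F.li j (F.ni j))

theorem pr_nn (a : F.J0 ⊕ F.Ji) {W : Z.Opens} (ha : W ≤ F.O T a) (hz : W ≤ (F.nn a).O T) :
    F.pr T a (F.nn a) ha hz = rs ha (F.ga T a) := by
  rcases a with j | j <;> rfl

theorem key (a b : F.J0 ⊕ F.Ji) (z : E.Elt) {W : Z.Opens} (ha : W ≤ F.O T a)
    (hb : W ≤ F.O T b) (hz : W ≤ z.O T) (hn : W ≤ (F.nn b).O T) :
    F.pr T a (F.nn b) ha hn * F.pr T b z hb hz = rs hb (F.ga T b) * F.pr T a z ha hz := by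
  haveI := E.inv0
  haveI := E.invi
  rw [← F.pr_nn T b hb hn]
  by_cases hW : W ≤ T.V0 ⊓ T.Vi
  · simp only [F.pr_01 T _ _ _ _ hW]
    rw [← map_mul, ← map_mul, ← map_mul, ← map_mul]
    congr 2
    have h := congrArg (F.Φ a) (F.ex b (F.nn b).ev z.ev)
    rw [map_smul, map_smul, smul_eq_mul, smul_eq_mul] at h
    rw [mul_comm, h]
  · rcases a with j | j <;> rcases b with j' | j' <;> rcases z with m | m | m
    · have hW' : W ≤ T.V0 := ha
      change rs hW' _ * rs hW' _ = rs hW' _ * rs hW' _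
      rw [← map_mul, ← map_mul, ← map_mul, ← map_mul]
      congr 2
      have h := congrArg (F.l0 j) (inv_exchange (F.l0 j') (F.n0 j') m)
      rw [map_smul, map_smul, smul_eq_mul, smul_eq_mul] at h
      rw [mul_comm, h]
    · exact (hW (le_inf ha hz)).elim
    · exact (hW hz).elim
    · exact (hW (le_inf ha hb)).elim
    · exact (hW (le_inf ha hb)).elim
    · exact (hW (le_inf ha hb)).elim
    · exact (hW (le_inf hb ha)).elim
    · exact (hW (le_inf hb ha)).elim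
    · exact (hW (le_inf hb ha)).elim
    · exact (hW (le_inf hz ha)).elim
    · have hW' : W ≤ T.Vi := ha
      change rs hW' _ * rs hW' _ = rs hW' _ * rs hW' _
      rw [← map_mul, ← map_mul, ← map_mul, ← map_mul]
      congr 2
      have h := congrArg (F.li j) (inv_exchange (F.li j') (F.ni j') m)
      rw [map_smul, map_smul, smul_eq_mul, smul_eq_mul] at h
      rw [mul_comm, h]
    · exact (hW hz).elim

/-- the charts -/
noncomputable def U (a : F.J0 ⊕ F.Ji) : Z.Opens := Z.basicOpen (F.ga T a)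

theorem U_le (a : F.J0 ⊕ F.Ji) : F.U T a ≤ F.O T a := Z.basicOpen_le _

theorem exists_inv (a : F.J0 ⊕ F.Ji) :
    ∃ i : Γ(Z, F.U T a), rs (F.U_le T a) (F.ga T a) * i = 1 := by
  have h : IsUnit (rs (F.U_le T a) (F.ga T a)) := Z.toRingedSpace.isUnit_res_basicOpen _
  exact h.exists_right_inv

/-- the inverse of `ga` on `U` -/
noncomputable def ia (a : F.J0 ⊕ F.Ji) : Γ(Z, F.U T a) := (F.exists_inv T a).choose

theorem ga_ia (a : F.J0 ⊕ F.Ji) {W : Z.Opens} (hW : W ≤ F.U T a) (h : W ≤ F.O T a) :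
    rs h (F.ga T a) * rs hW (F.ia T a) = 1 := by
  have h1 := congrArg (rs hW) (F.exists_inv T a).choose_spec
  rwa [map_mul, map_one, rs_rs] at h1

theorem nn_le (a : F.J0 ⊕ F.Ji) {W : Z.Opens} (h : W ≤ F.U T a) : W ≤ (F.nn a).O T :=
  (h.trans (F.U_le T a)).trans (F.O_nn T a).ge

theorem iSup_U : ⨆ a, F.U T a = ⊤ := by
  rw [eq_top_iff, ← T.cover]
  refine sup_le ?_ ?_
  · refine (le_iSup_basicOpen T.aff0 (fun j => T.θ0 (F.l0 j (F.n0 j))) ?_).trans
      (iSup_le fun j => le_iSup (F.U T) (.inl j))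
    rw [Ideal.eq_top_iff_one, ← map_one T.θ0, ← F.sum0, map_sum]
    exact Ideal.sum_mem _ fun j _ => Ideal.subset_span ⟨j, rfl⟩
  · refine (le_iSup_basicOpen T.affi (fun j => T.θi (F.li j (F.ni j))) ?_).trans
      (iSup_le fun j => le_iSup (F.U T) (.inr j))
    rw [Ideal.eq_top_iff_one, ← map_one T.θi, ← F.sumi, map_sum]
    exact Ideal.sum_mem _ fun j _ => Ideal.subset_span ⟨j, rfl⟩

/-- the cocycle -/
noncomputable def c : CocOn Z (F.J0 ⊕ F.Ji) where
  U := F.U T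
  cover := F.iSup_U T
  g a b := F.pr T a (F.nn b) (inf_le_left.trans (F.U_le T a)) (F.nn_le T b inf_le_right) *
    rs inf_le_left (F.ia T a)
  g_self a := by
    rw [F.pr_nn]
    exact F.ga_ia T a _ _
  g_mul a b d W ha hb hd := by
    simp only [map_mul, F.rs_pr, rs_rs]
    have h1 := F.key T a b (F.nn d) (ha.trans (F.U_le T a)) (hb.trans (F.U_le T b))
      (F.nn_le T d hd) (F.nn_le T b hb)
    have h2 := F.ga_ia T b hb (hb.trans (F.U_le T b))
    calc _ = (F.pr T a (F.nn b) (ha.trans (F.U_le T a)) (F.nn_le T b hb) *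
        F.pr T b (F.nn d) (hb.trans (F.U_le T b)) (F.nn_le T d hd)) * rs hb (F.ia T b) *
          rs ha (F.ia T a) := by ring
      _ = (rs (hb.trans (F.U_le T b)) (F.ga T b) * rs hb (F.ia T b)) *
          (F.pr T a (F.nn d) (ha.trans (F.U_le T a)) (F.nn_le T d hd) * rs ha (F.ia T a)) := by
            rw [h1]; ring
      _ = _ := by rw [h2, one_mul]

theorem c_t (a b : F.J0 ⊕ F.Ji) {W : Z.Opens} (ha : W ≤ F.U T a) (hb : W ≤ F.U T b) :
    (F.c T).t a b ha hb = F.pr T a (F.nn b) (ha.trans (F.U_le T a)) (F.nn_le T b hb) *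
      rs ha (F.ia T a) := by
  have h := map_mul (rs (U := F.U T a ⊓ F.U T b) (V := W) (le_inf ha hb))
    (F.pr T a (F.nn b) (inf_le_left.trans (F.U_le T a)) (F.nn_le T b inf_le_right))
    (rs inf_le_left (F.ia T a))
  rw [F.rs_pr, rs_rs] at h
  exact h

theorem sec_aux (a b : F.J0 ⊕ F.Ji) (z : E.Elt) {W : Z.Opens} (hz : W ≤ z.O T)
    (ha : W ≤ F.U T a) (hb : W ≤ F.U T b) :
    F.pr T a z (ha.trans (F.U_le T a)) hz * rs ha (F.ia T a) =
      (F.pr T a (F.nn b) (ha.trans (F.U_le T a)) (F.nn_le T b hb) * rs ha (F.ia T a)) *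
        (F.pr T b z (hb.trans (F.U_le T b)) hz * rs hb (F.ia T b)) := by
  have h1 := F.key T a b z (ha.trans (F.U_le T a)) (hb.trans (F.U_le T b)) hz (F.nn_le T b hb)
  have h2 := F.ga_ia T b hb (hb.trans (F.U_le T b))
  symm
  calc _ = (F.pr T a (F.nn b) (ha.trans (F.U_le T a)) (F.nn_le T b hb) *
      F.pr T b z (hb.trans (F.U_le T b)) hz) * rs hb (F.ia T b) *
        rs ha (F.ia T a) := by ring
    _ = (rs (hb.trans (F.U_le T b)) (F.ga T b) * rs hb (F.ia T b)) *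
        (F.pr T a z (ha.trans (F.U_le T a)) hz * rs ha (F.ia T a)) := by
          rw [h1]; ring
    _ = _ := by rw [h2, one_mul]

theorem rs_cf (a : F.J0 ⊕ F.Ji) (z : E.Elt) {W : Z.Opens} (hz : W ≤ z.O T)
    (ha : W ≤ F.U T a) :
    rs (U := z.O T ⊓ F.U T a) (V := W) (le_inf hz ha)
      (F.pr T a z (inf_le_right.trans (F.U_le T a)) inf_le_left * rs inf_le_right (F.ia T a)) =
    F.pr T a z (ha.trans (F.U_le T a)) hz * rs ha (F.ia T a) := by
  rw [map_mul, F.rs_pr, rs_rs]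

/-- the section of an element -/
noncomputable def sec (z : E.Elt) : (F.c T).Sec (z.O T) :=
  CocOn.Sec.mk (fun a => F.pr T a z (inf_le_right.trans (F.U_le T a)) inf_le_left *
    rs inf_le_right (F.ia T a)) (fun a b W hz ha hb =>
      (F.rs_cf T a z hz ha).trans ((F.sec_aux T a b z hz ha hb).trans
        (congrArg₂ (· * ·) (F.c_t T a b ha hb).symm (F.rs_cf T b z hz hb).symm)))

theorem sec_v (z : E.Elt) (a : F.J0 ⊕ F.Ji) {W : Z.Opens} (hz : W ≤ z.O T) (ha : W ≤ F.U T a) :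
    (F.sec T z).v a hz ha = F.pr T a z (ha.trans (F.U_le T a)) hz * rs ha (F.ia T a) :=
  F.rs_cf T a z hz ha

theorem resS_sec_nn (a : F.J0 ⊕ F.Ji) (h : F.U T a ≤ (F.nn a).O T) :
    (F.c T).resS h (F.sec T (F.nn a)) = (F.c T).genS a := by
  apply CocOn.Sec.ext
  intro b
  exact ((F.c T).resS_v h (F.sec T (F.nn a)) b _ _).trans
    ((F.sec_v T (F.nn a) b _ _).trans ((F.c_t T b a inf_le_right inf_le_left).symm.trans
      ((F.c T).genS_v a b _ _).symm))

theorem resS_sec_ee (z : E.Elt) (h : T.V0 ⊓ T.Vi ≤ z.O T) :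
    (F.c T).resS h (F.sec T z) = F.sec T (.ee z.ev) := by
  apply CocOn.Sec.ext
  intro b
  refine ((F.c T).resS_v h (F.sec T z) b _ _).trans ((F.sec_v T z b _ _).trans
    (Eq.trans ?_ (F.sec_v T (.ee z.ev) b _ _).symm))
  exact congrArg (· * _) ((F.pr_01 T b z _ _ inf_le_left).trans
    (F.pr_01 T b (.ee z.ev) _ _ inf_le_left).symm)

/-- the section over `V0` of an element -/
noncomputable def sec0 (m : E.M0) : (F.c T).Sec T.V0 := F.sec T (.e0 m)

/-- the section over `Vi` of an element -/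
noncomputable def seci (m : E.Mi) : (F.c T).Sec T.Vi := F.sec T (.ei m)

/-- the section over `V0 ⊓ Vi` of an element -/
noncomputable def sece (m : E.M) : (F.c T).Sec (T.V0 ⊓ T.Vi) := F.sec T (.ee m)

theorem pr0_add (m m' : E.M0) (a : F.J0 ⊕ F.Ji) {W : Z.Opens} (ha : W ≤ F.O T a)
    (hz : W ≤ T.V0) : F.pr T a (.e0 (m + m')) ha hz =
      F.pr T a (.e0 m) ha hz + F.pr T a (.e0 m') ha hz := by
  rcases a with j | j
  · change rs hz (T.θ0 (F.l0 j (m + m'))) = rs hz (T.θ0 (F.l0 j m)) + rs hz (T.θ0 (F.l0 j m'))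
    rw [map_add, map_add, map_add]
  · have hW' : W ≤ T.V0 ⊓ T.Vi := le_inf hz ha
    change rs hW' (T.θ (F.Φ (.inr j) ((m : E.M) + m'))) =
      rs hW' (T.θ (F.Φ (.inr j) m)) + rs hW' (T.θ (F.Φ (.inr j) m'))
    rw [map_add, map_add, map_add]

theorem pr0_smul (r : X.R0 A) (m : E.M0) (a : F.J0 ⊕ F.Ji) {W : Z.Opens} (ha : W ≤ F.O T a)
    (hz : W ≤ T.V0) : F.pr T a (.e0 (r • m)) ha hz =
      rs hz (T.θ0 r) * F.pr T a (.e0 m) ha hz := by
  rcases a with j | j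
  · change rs hz (T.θ0 (F.l0 j (r • m))) = rs hz (T.θ0 r) * rs hz (T.θ0 (F.l0 j m))
    rw [map_smul, smul_eq_mul, map_mul, map_mul]
  · have hW' : W ≤ T.V0 ⊓ T.Vi := le_inf hz ha
    change rs hW' (T.θ (F.Φ (.inr j) ((r • m : E.M0) : E.M))) =
      rs hz (T.θ0 r) * rs hW' (T.θ (F.Φ (.inr j) m))
    rw [Submodule.coe_smul, E.smul0, map_smul, smul_eq_mul, map_mul, map_mul, ← X.algebraMap0,
      ← T.rs0, rs_rs]

theorem pri_add (m m' : E.Mi) (a : F.J0 ⊕ F.Ji) {W : Z.Opens} (ha : W ≤ F.O T a)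
    (hz : W ≤ T.Vi) : F.pr T a (.ei (m + m')) ha hz =
      F.pr T a (.ei m) ha hz + F.pr T a (.ei m') ha hz := by
  rcases a with j | j
  · have hW' : W ≤ T.V0 ⊓ T.Vi := le_inf ha hz
    change rs hW' (T.θ (F.Φ (.inl j) ((m : E.M) + m'))) =
      rs hW' (T.θ (F.Φ (.inl j) m)) + rs hW' (T.θ (F.Φ (.inl j) m'))
    rw [map_add, map_add, map_add]
  · change rs hz (T.θi (F.li j (m + m'))) = rs hz (T.θi (F.li j m)) + rs hz (T.θi (F.li j m'))
    rw [map_add, map_add, map_add]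

theorem pri_smul (r : X.Ri A) (m : E.Mi) (a : F.J0 ⊕ F.Ji) {W : Z.Opens} (ha : W ≤ F.O T a)
    (hz : W ≤ T.Vi) : F.pr T a (.ei (r • m)) ha hz =
      rs hz (T.θi r) * F.pr T a (.ei m) ha hz := by
  rcases a with j | j
  · have hW' : W ≤ T.V0 ⊓ T.Vi := le_inf ha hz
    change rs hW' (T.θ (F.Φ (.inl j) ((r • m : E.Mi) : E.M))) =
      rs hz (T.θi r) * rs hW' (T.θ (F.Φ (.inl j) m))
    rw [Submodule.coe_smul, E.smuli, map_smul, smul_eq_mul, map_mul, map_mul, ← X.algebraMapi,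
      ← T.rsi, rs_rs]
  · change rs hz (T.θi (F.li j (r • m))) = rs hz (T.θi r) * rs hz (T.θi (F.li j m))
    rw [map_smul, smul_eq_mul, map_mul, map_mul]

theorem pre_add (m m' : E.M) (a : F.J0 ⊕ F.Ji) {W : Z.Opens} (ha : W ≤ F.O T a)
    (hz : W ≤ T.V0 ⊓ T.Vi) : F.pr T a (.ee (m + m')) ha hz =
      F.pr T a (.ee m) ha hz + F.pr T a (.ee m') ha hz := by
  rw [F.pr_01 T a (.ee (m + m')) ha hz hz, F.pr_01 T a (.ee m) ha hz hz,
    F.pr_01 T a (.ee m') ha hz hz, ← map_add, ← map_add, ← map_add]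
  rfl

theorem pre_smul (r : X.R A) (m : E.M) (a : F.J0 ⊕ F.Ji) {W : Z.Opens} (ha : W ≤ F.O T a)
    (hz : W ≤ T.V0 ⊓ T.Vi) : F.pr T a (.ee (r • m)) ha hz =
      rs hz (T.θ r) * F.pr T a (.ee m) ha hz := by
  rw [F.pr_01 T a (.ee (r • m)) ha hz hz, F.pr_01 T a (.ee m) ha hz hz, ← map_mul, ← map_mul,
    ← smul_eq_mul, ← map_smul]
  rfl

theorem sec0_add (m m' : E.M0) : F.sec0 T (m + m') = F.sec0 T m + F.sec0 T m' := by
  apply CocOn.Sec.ext
  intro a
  refine (F.sec_v T (.e0 (m + m')) a inf_le_left inf_le_right).trans (Eq.trans ?_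
    (((F.c T).add_v (F.sec0 T m) (F.sec0 T m') a _ _).trans
    (congrArg₂ (· + ·) (F.sec_v T (.e0 m) a inf_le_left inf_le_right)
      (F.sec_v T (.e0 m') a inf_le_left inf_le_right))).symm)
  exact (congrArg (· * _) (F.pr0_add T m m' a _ _)).trans (add_mul _ _ _)

theorem sec0_smul (r : X.R0 A) (m : E.M0) : F.sec0 T (r • m) = T.θ0 r • F.sec0 T m := by
  apply CocOn.Sec.ext
  intro a
  refine (F.sec_v T (.e0 (r • m)) a inf_le_left inf_le_right).trans (Eq.trans ?_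
    (((F.c T).smul_v (T.θ0 r) (F.sec0 T m) a _ _).trans
    (congrArg (_ * ·) (F.sec_v T (.e0 m) a inf_le_left inf_le_right))).symm)
  exact (congrArg (· * _) (F.pr0_smul T r m a _ _)).trans (mul_assoc _ _ _)

theorem seci_add (m m' : E.Mi) : F.seci T (m + m') = F.seci T m + F.seci T m' := by
  apply CocOn.Sec.ext
  intro a
  refine (F.sec_v T (.ei (m + m')) a inf_le_left inf_le_right).trans (Eq.trans ?_
    (((F.c T).add_v (F.seci T m) (F.seci T m') a _ _).trans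
    (congrArg₂ (· + ·) (F.sec_v T (.ei m) a inf_le_left inf_le_right)
      (F.sec_v T (.ei m') a inf_le_left inf_le_right))).symm)
  exact (congrArg (· * _) (F.pri_add T m m' a _ _)).trans (add_mul _ _ _)

theorem seci_smul (r : X.Ri A) (m : E.Mi) : F.seci T (r • m) = T.θi r • F.seci T m := by
  apply CocOn.Sec.ext
  intro a
  refine (F.sec_v T (.ei (r • m)) a inf_le_left inf_le_right).trans (Eq.trans ?_
    (((F.c T).smul_v (T.θi r) (F.seci T m) a _ _).trans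
    (congrArg (_ * ·) (F.sec_v T (.ei m) a inf_le_left inf_le_right))).symm)
  exact (congrArg (· * _) (F.pri_smul T r m a _ _)).trans (mul_assoc _ _ _)

theorem sece_add (m m' : E.M) : F.sece T (m + m') = F.sece T m + F.sece T m' := by
  apply CocOn.Sec.ext
  intro a
  refine (F.sec_v T (.ee (m + m')) a inf_le_left inf_le_right).trans (Eq.trans ?_
    (((F.c T).add_v (F.sece T m) (F.sece T m') a _ _).trans
    (congrArg₂ (· + ·) (F.sec_v T (.ee m) a inf_le_left inf_le_right)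
      (F.sec_v T (.ee m') a inf_le_left inf_le_right))).symm)
  exact (congrArg (· * _) (F.pre_add T m m' a _ _)).trans (add_mul _ _ _)

theorem sece_smul (r : X.R A) (m : E.M) : F.sece T (r • m) = T.θ r • F.sece T m := by
  apply CocOn.Sec.ext
  intro a
  refine (F.sec_v T (.ee (r • m)) a inf_le_left inf_le_right).trans (Eq.trans ?_
    (((F.c T).smul_v (T.θ r) (F.sece T m) a _ _).trans
    (congrArg (_ * ·) (F.sec_v T (.ee m) a inf_le_left inf_le_right))).symm)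
  exact (congrArg (· * _) (F.pre_smul T r m a _ _)).trans (mul_assoc _ _ _)

/-- the sections over `V0` -/
noncomputable def σ0 : E.M0 →+ Γ((F.c T).toMod, T.V0) :=
  AddMonoidHom.mk' (fun m => F.sec0 T m) (F.sec0_add T)

theorem σ0_smul (r : X.R0 A) (m : E.M0) : F.σ0 T (r • m) = T.θ0 r • F.σ0 T m :=
  F.sec0_smul T r m

/-- the sections over `Vi` -/
noncomputable def σi : E.Mi →+ Γ((F.c T).toMod, T.Vi) :=
  AddMonoidHom.mk' (fun m => F.seci T m) (F.seci_add T)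

theorem σi_smul (r : X.Ri A) (m : E.Mi) : F.σi T (r • m) = T.θi r • F.σi T m :=
  F.seci_smul T r m

/-- the sections over `V0 ⊓ Vi` -/
noncomputable def σ : E.M →+ Γ((F.c T).toMod, T.V0 ⊓ T.Vi) :=
  AddMonoidHom.mk' (fun m => F.sece T m) (F.sece_add T)

theorem σ_smul (r : X.R A) (m : E.M) : F.σ T (r • m) = T.θ r • F.σ T m :=
  F.sece_smul T r m

theorem res_σ0 (m : E.M0) : res (F.c T).toMod inf_le_left (F.σ0 T m) = F.σ T m :=
  F.resS_sec_ee T (.e0 m) inf_le_left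

theorem res_σi (m : E.Mi) : res (F.c T).toMod inf_le_right (F.σi T m) = F.σ T m :=
  F.resS_sec_ee T (.ei m) inf_le_right

theorem gen0 (j : F.J0) : IsGen (F.c T).toMod
    (res (F.c T).toMod (Z.basicOpen_le (T.θ0 (F.l0 j (F.n0 j)))) (F.σ0 T (F.n0 j))) := by
  have h : res (F.c T).toMod (Z.basicOpen_le (T.θ0 (F.l0 j (F.n0 j)))) (F.σ0 T (F.n0 j)) =
      (F.c T).gen (.inl j) := F.resS_sec_nn T (.inl j) (F.nn_le T _ le_rfl)
  rw [h]
  exact (F.c T).isGen_gen (.inl j)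

theorem geni (j : F.Ji) : IsGen (F.c T).toMod
    (res (F.c T).toMod (Z.basicOpen_le (T.θi (F.li j (F.ni j)))) (F.σi T (F.ni j))) := by
  have h : res (F.c T).toMod (Z.basicOpen_le (T.θi (F.li j (F.ni j)))) (F.σi T (F.ni j)) =
      (F.c T).gen (.inr j) := F.resS_sec_nn T (.inr j) (F.nn_le T _ le_rfl)
  rw [h]
  exact (F.c T).isGen_gen (.inr j)

theorem bij0 : Function.Bijective (F.σ0 T) := by
  haveI := E.inv0
  exact frame_bijective T.aff0 T.θ0 (F.σ0 T) (F.σ0_smul T) F.n0 F.l0 F.sum0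
    (fun j => inv_exchange (S := X.R0 A) (N := E.M0) (F.l0 j)) (F.gen0 T)

theorem biji : Function.Bijective (F.σi T) := by
  haveI := E.invi
  exact frame_bijective T.affi T.θi (F.σi T) (F.σi_smul T) F.ni F.li F.sumi
    (fun j => inv_exchange (S := X.Ri A) (N := E.Mi) (F.li j)) (F.geni T)

theorem bij : Function.Bijective (F.σ T) := by
  refine frame_bijective (T.bo0 ▸ T.aff0.basicOpen _) T.θ (F.σ T) (F.σ_smul T)
    (fun j => (F.n0 j : E.M)) (fun j => F.Φ (.inl j)) ?_ (fun j => F.ex _) ?_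
  · simp only [F.Φ0]
    rw [← map_sum, F.sum0, map_one]
  · intro j
    have h : Z.basicOpen (T.θ (F.Φ (.inl j) (F.n0 j))) ≤
        Z.basicOpen (T.θ0 (F.l0 j (F.n0 j))) := by
      rw [F.Φ0, ← T.rs0, basicOpen_rs]
      exact inf_le_right
    have h1 := (F.gen0 T j).res h
    rw [res_res] at h1
    rw [← F.res_σ0, res_res]
    exact h1

theorem rep : Rep T (F.c T).toMod E := by
  let e : E.M ≃+ Γ((F.c T).toMod, T.V0 ⊓ T.Vi) := AddEquiv.ofBijective (F.σ T) (F.bij T)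
  have he : ∀ m, e.symm (F.σ T m) = m := fun m => e.symm_apply_apply m
  refine ⟨{ φ := e.symm, smul := ?_, mem0 := ?_, memi := ?_ }⟩
  · intro r s
    obtain ⟨m, rfl⟩ := (F.bij T).2 s
    rw [← F.σ_smul, he, he]
  · intro m
    constructor
    · intro hm
      exact ⟨F.σ0 T ⟨m, hm⟩, by rw [F.res_σ0, he]⟩
    · rintro ⟨s, hs⟩
      obtain ⟨m', rfl⟩ := (F.bij0 T).2 s
      rw [F.res_σ0, he] at hs
      rw [← hs]
      exact m'.2
  · intro m
    constructor
    · intro hm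
      exact ⟨F.σi T ⟨m, hm⟩, by rw [F.res_σi, he]⟩
    · rintro ⟨s, hs⟩
      obtain ⟨m', rfl⟩ := (F.biji T).2 s
      rw [F.res_σi, he] at hs
      rw [← hs]
      exact m'.2

end LB.Frm

/-- **every two-chart line bundle comes from an invertible sheaf** -/
theorem exists_mod (T : TC X A Z) (E : LB X A) :
    ∃ L : Z.Modules, L.IsInvertible ∧ Rep T L E := by
  obtain ⟨F⟩ := E.exists_frm
  exact ⟨(F.c T).toMod, (F.c T).isInvertible_toMod, F.rep T⟩

end Fermat.Agent.Jac
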