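import Fermat.Agent.Jac.GeoDef
import Fermat.Agent.Jac.Model

/-!
# The two charts of `C × Spec A`
-/

set_option autoImplicit false

universe u

open CategoryTheory CategoryTheory.Limits AlgebraicGeometry AlgebraicGeometry.RelPicard
  NeronModelInfra TopologicalSpace Opposite TensorProduct

namespace Fermat.Agent.Jac

section General

variable {Z Z' : Scheme.{u}} {A : Type u} [CommRing A] {A' : Type u} [CommRing A']

/-- functions on the base `Spec A` as functions on an open of `Z` -/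
noncomputable def bf (q : Z ⟶ Spec (CommRingCat.of A)) (W : Z.Opens) : A →+* Γ(Z, W) :=
  (q.appLE ⊤ W (fun _ _ => trivial)).hom.comp (Scheme.ΓSpecIso (CommRingCat.of A)).inv.hom

theorem rs_bf (q : Z ⟶ Spec (CommRingCat.of A)) {W W' : Z.Opens} (h : W' ≤ W) (a : A) :
    rs h (bf q W a) = bf q W' a := by
  have h1 := q.appLE_map (U := ⊤) (V := W) (V' := W') (fun _ _ => trivial) (homOfLE h).op
  exact congr($h1 ((Scheme.ΓSpecIso (CommRingCat.of A)).inv.hom a))

theorem pf_bf (g : Z' ⟶ Z) (q : Z ⟶ Spec (CommRingCat.of A)) (W : Z.Opens) (a : A) :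
    pf g W (bf q W a) = bf (g ≫ q) (g ⁻¹ᵁ W) a := by
  have h1 := Scheme.Hom.appLE_comp_appLE g q ⊤ W (g ⁻¹ᵁ W) (fun _ _ => trivial) le_rfl
  rw [Scheme.Hom.appLE_eq_app] at h1
  exact congr($h1 ((Scheme.ΓSpecIso (CommRingCat.of A)).inv.hom a))

theorem bf_congr {q q' : Z ⟶ Spec (CommRingCat.of A)} (h : q = q') (W : Z.Opens) (a : A) :
    bf q W a = bf q' W a := by rw [h]

theorem bf_specMap (q : Z ⟶ Spec (CommRingCat.of A')) (h : A →+* A') (W : Z.Opens) (a : A) :
    bf (q ≫ Spec.map (CommRingCat.ofHom h)) W a = bf q W (h a) := by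
  have h1 : (Scheme.ΓSpecIso (CommRingCat.of A)).inv ≫
      (q ≫ Spec.map (CommRingCat.ofHom h)).appLE ⊤ W (fun _ _ => trivial) =
      CommRingCat.ofHom h ≫ (Scheme.ΓSpecIso (CommRingCat.of A')).inv ≫
        q.appLE ⊤ W (fun _ _ => trivial) := by
    rw [Scheme.Hom.comp_appLE, Scheme.ΓSpecIso_inv_naturality_assoc]
    rfl
  exact congr($h1 a)

theorem bf_id (a : A) : bf (𝟙 (Spec (CommRingCat.of A))) ⊤ a =
    (Scheme.ΓSpecIso (CommRingCat.of A)).inv.hom a := by
  have h1 : (𝟙 (Spec (CommRingCat.of A)) : Spec (CommRingCat.of A) ⟶ _).appLE ⊤ ⊤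
      (fun _ _ => trivial) = 𝟙 _ :=
    (Scheme.Hom.appLE_eq_app (𝟙 (Spec (CommRingCat.of A))) (U := ⊤)).trans (Scheme.Hom.id_app ⊤)
  exact congr($h1 ((Scheme.ΓSpecIso (CommRingCat.of A)).inv.hom a))

/-- the criterion for being over `Spec A` on an affine open -/
theorem bf_of_fromSpec (q : Z ⟶ Spec (CommRingCat.of A)) {U : Z.Opens} (hU : IsAffineOpen U)
    (φ : A →+* Γ(Z, U)) (h : hU.fromSpec ≫ q = Spec.map (CommRingCat.ofHom φ)) (a : A) :
    bf q U a = φ a := by
  have h1 := IsAffineOpen.SpecMap_appLE_fromSpec q (isAffineOpen_top (Spec (CommRingCat.of A))) hU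
    (fun _ _ => trivial)
  rw [h, IsAffineOpen.fromSpec_top, Scheme.isoSpec_Spec_inv, ← Spec.map_comp] at h1
  have h2 := Spec.map_injective h1
  exact congr($h2 a)

theorem rs_pf_comp {Z'' : Scheme.{u}} (g : Z' ⟶ Z) (p : Z ⟶ Z'') (p' : Z' ⟶ Z'') (h : g ≫ p = p')
    (U : Z''.Opens) {W : Z'.Opens} (hpre : W ≤ g ⁻¹ᵁ (p ⁻¹ᵁ U)) (hpre' : W ≤ p' ⁻¹ᵁ U)
    (s : Γ(Z'', U)) : rs hpre (pf g _ (pf p U s)) = rs hpre' (pf p' U s) := by
  subst h
  rfl

end General

section Tensor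

variable {k : Type u} [Field k] {C : Scheme.{u}} (c : C ⟶ Spec (CommRingCat.of k))
  (A : Type u) [CommRing A] [Algebra k A] {U : C.Opens} (hU : IsAffineOpen U)
  {B : Type u} [CommRing B] [Algebra k B] (θ : B ≃+* Γ(C, U))
  (hθ : ∀ r : k, bf c U r = θ (algebraMap k B r))

include hU hθ in
theorem exists_tensorIso : ∃ Θ : A ⊗[k] B ≃+* Γ(pullback c (tA k A),
      pullback.fst c (tA k A) ⁻¹ᵁ U), ∀ (a : A) (b : B),
    Θ (a ⊗ₜ b) = bf (pullback.snd c (tA k A)) _ a * pf (pullback.fst c (tA k A)) U (θ b) := by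
  have H : IsPullback (pullback.fst c (tA k A)) (pullback.snd c (tA k A)) c (tA k A) :=
    IsPullback.of_hasPullback _ _
  have P1 := (isIso_pushoutSection_iff H (US := ⊤) (UT := ⊤) (UX := U)
    (UY := pullback.fst c (tA k A) ⁻¹ᵁ U) (fun _ _ => trivial) (fun _ _ => trivial)
    (inf_top_eq _).symm).1 (isIso_pushoutSection_of_isAffineOpen H (US := ⊤) (UT := ⊤) (UX := U)
      (UY := pullback.fst c (tA k A) ⁻¹ᵁ U) (fun _ _ => trivial)
      (fun _ _ => trivial) (inf_top_eq _).symm (isAffineOpen_top _) (isAffineOpen_top _) hU)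
  have P2 : IsPushout (CommRingCat.ofHom (algebraMap k B)) (CommRingCat.ofHom (algebraMap k A))
      (CommRingCat.ofHom (θ : B →+* Γ(C, U)) ≫
        (pullback.fst c (tA k A)).appLE U (pullback.fst c (tA k A) ⁻¹ᵁ U) le_rfl)
      ((Scheme.ΓSpecIso (CommRingCat.of A)).inv ≫
        (pullback.snd c (tA k A)).appLE ⊤ (pullback.fst c (tA k A) ⁻¹ᵁ U)
          (fun _ _ => trivial)) := by
    refine P1.of_iso (Scheme.ΓSpecIso (CommRingCat.of k)) θ.toCommRingCatIso.symm
      (Scheme.ΓSpecIso (CommRingCat.of A)) (Iso.refl _) ?_ ?_ ?_ ?_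
    · rw [← Iso.inv_comp_eq]
      ext r
      refine θ.injective ?_
      refine (θ.apply_symm_apply _).trans ?_
      exact hθ r
    · rw [← Iso.inv_comp_eq]
      have h2 := Scheme.ΓSpecIso_inv_naturality (CommRingCat.ofHom (algebraMap k A))
      have h3 : (tA k A).appLE ⊤ ⊤ (fun _ _ => trivial) = (tA k A).appTop :=
        Scheme.Hom.appLE_eq_app (tA k A) (U := ⊤)
      rw [h3, ← Category.assoc, ← h2, Category.assoc, Iso.inv_hom_id, Category.comp_id]
    · rw [Iso.refl_hom, Category.comp_id]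
      refine CommRingCat.hom_ext (RingHom.ext fun r => ?_)
      exact (congrArg ((pullback.fst c (tA k A)).appLE U (pullback.fst c (tA k A) ⁻¹ᵁ U)
        le_rfl).hom (θ.apply_symm_apply r)).symm
    · simp
  let e := (CommRingCat.isPushout_tensorProduct k A B).flip.isoIsPushout _ _ P2
  refine ⟨e.commRingCatIsoToRingEquiv, fun a b => ?_⟩
  have h1 : e.hom.hom (1 ⊗ₜ b) = pf (pullback.fst c (tA k A)) U (θ b) := by
    have h2 := (CommRingCat.isPushout_tensorProduct k A B).flip.inl_isoIsPushout_hom _ _ P2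
    have h3 := Scheme.Hom.appLE_eq_app (pullback.fst c (tA k A)) (U := U)
    exact (congr($h2 b)).trans (congr($h3 (θ b)))
  have h4 : e.hom.hom (a ⊗ₜ 1) = bf (pullback.snd c (tA k A)) _ a := by
    have h2 := (CommRingCat.isPushout_tensorProduct k A B).flip.inr_isoIsPushout_hom _ _ P2
    exact congr($h2 a)
  have h5 : (a ⊗ₜ b : A ⊗[k] B) = a ⊗ₜ 1 * 1 ⊗ₜ b := by simp
  rw [h5]
  refine (map_mul e.hom.hom _ _).trans ?_
  rw [h1, h4]

/-- the coordinate ring of the preimage of an affine open -/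
noncomputable def tensorIso : A ⊗[k] B ≃+* Γ(pullback c (tA k A),
    pullback.fst c (tA k A) ⁻¹ᵁ U) := (exists_tensorIso c A hU θ hθ).choose

theorem tensorIso_tmul (a : A) (b : B) : tensorIso c A hU θ hθ (a ⊗ₜ b) =
    bf (pullback.snd c (tA k A)) _ a * pf (pullback.fst c (tA k A)) U (θ b) :=
  (exists_tensorIso c A hU θ hθ).choose_spec a b

end Tensor

section Model

variable {k : Type u} [Field k] {X : CurveData k} {C : Scheme.{u}}
  {c : C ⟶ Spec (CommRingCat.of k)} {ε : SchemeHomOver (𝟙 (Spec (CommRingCat.of k))) c}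
  (m : Model X c ε)

include m

theorem Model.bf0 (r : k) : bf c m.V0 r = m.θ0 (algebraMap k X.B0 r) :=
  bf_of_fromSpec c m.aff0 _ m.w0 r

theorem Model.bfi (r : k) : bf c m.Vi r = m.θi (algebraMap k X.Bi r) :=
  bf_of_fromSpec c m.affi _ m.wi r

theorem Model.bfb (r : k) : bf c (m.V0 ⊓ m.Vi) r = m.θ (algebraMap k X.B r) := by
  have h1 := m.comp0 (algebraMap k X.B0 r)
  rw [← m.bf0] at h1
  rw [← rs_bf c (inf_le_left : m.V0 ⊓ m.Vi ≤ m.V0)]
  exact h1.symm

theorem Model.aff : IsAffineOpen (m.V0 ⊓ m.Vi) := by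
  rw [m.inter0]
  exact m.aff0.basicOpen _

variable (A : Type u) [CommRing A] [Algebra k A]

omit m in
theorem isAffineHom_fst : IsAffineHom (pullback.fst c (tA k A)) :=
  MorphismProperty.pullback_fst _ _ (inferInstanceAs (IsAffineHom (Spec.map _)))

omit m in
theorem tensorIso_rs {U V : C.Opens} (hU : IsAffineOpen U) (hV : IsAffineOpen V) (h : V ≤ U)
    {B B' : Type u} [CommRing B] [Algebra k B] [CommRing B'] [Algebra k B']
    (θ : B ≃+* Γ(C, U)) (hθ : ∀ r : k, bf c U r = θ (algebraMap k B r))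
    (θ' : B' ≃+* Γ(C, V)) (hθ' : ∀ r : k, bf c V r = θ' (algebraMap k B' r))
    (f : B →ₐ[k] B') (hf : ∀ b, θ' (f b) = rs h (θ b)) (r : A ⊗[k] B) :
    rs (pre_mono (pullback.fst c (tA k A)) h) (tensorIso c A hU θ hθ r) =
      tensorIso c A hV θ' hθ' (Algebra.TensorProduct.map (AlgHom.id A A) f r) := by
  induction r using TensorProduct.induction_on with
  | zero => simp
  | add r s hr hs => rw [map_add, map_add, hr, hs, map_add, map_add]
  | tmul a b =>
    rw [Algebra.TensorProduct.map_tmul, tensorIso_tmul, tensorIso_tmul, map_mul, rs_bf, rs_pf, hf]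
    rfl

/-- the two charts of `C × Spec A` -/
noncomputable def Model.tc : TC X A (pullback c (tA k A)) where
  V0 := pullback.fst c (tA k A) ⁻¹ᵁ m.V0
  Vi := pullback.fst c (tA k A) ⁻¹ᵁ m.Vi
  aff0 := haveI := isAffineHom_fst (c := c) A; m.aff0.preimage _
  affi := haveI := isAffineHom_fst (c := c) A; m.affi.preimage _
  cover := by
    rw [← Scheme.Hom.preimage_sup, m.cover]
    rfl
  θ0 := tensorIso c A m.aff0 m.θ0 m.bf0
  θi := tensorIso c A m.affi m.θi m.bfi
  θ := tensorIso c A m.aff m.θ m.bfb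
  rs0 r := tensorIso_rs A m.aff0 m.aff inf_le_left m.θ0 m.bf0 m.θ m.bfb X.B0.val m.comp0 r
  rsi r := tensorIso_rs A m.affi m.aff inf_le_right m.θi m.bfi m.θ m.bfb X.Bi.val m.compi r
  bo0 := by
    have h1 : tensorIso c A m.aff0 m.θ0 m.bf0 (X.x0 A) =
        pf (pullback.fst c (tA k A)) m.V0 (m.θ0 ⟨X.x, X.x_mem⟩) := by
      rw [CurveData.x0, tensorIso_tmul, map_one, one_mul]
    rw [h1]
    refine (Scheme.preimage_basicOpen _ _).symm.trans ?_
    rw [← m.inter0]
    rfl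
  boi := by
    have h1 : tensorIso c A m.affi m.θi m.bfi (X.yi A) =
        pf (pullback.fst c (tA k A)) m.Vi (m.θi ⟨X.y, X.y_mem⟩) := by
      rw [CurveData.yi, tensorIso_tmul, map_one, one_mul]
    rw [h1]
    refine (Scheme.preimage_basicOpen _ _).symm.trans ?_
    rw [← m.interi]
    rfl

variable {A} {A' : Type u} [CommRing A'] [Algebra k A']

omit m in
theorem baseChangeSnd_fst (h : A →ₐ[k] A') :
    baseChangeSnd c (tMap h) ≫ pullback.fst c (tA k A) = pullback.fst c (tA k A') := by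
  unfold baseChangeSnd
  rw [pullback.lift_fst, Category.comp_id]

omit m in
theorem baseChangeSnd_snd (h : A →ₐ[k] A') :
    baseChangeSnd c (tMap h) ≫ pullback.snd c (tA k A) =
      pullback.snd c (tA k A') ≫ Spec.map (CommRingCat.ofHom (h : A →+* A')) := by
  unfold baseChangeSnd
  rw [pullback.lift_snd]
  rfl

omit m in
theorem tensorIso_bc {U : C.Opens} (hU : IsAffineOpen U) {B : Type u} [CommRing B] [Algebra k B]
    (θ : B ≃+* Γ(C, U)) (hθ : ∀ r : k, bf c U r = θ (algebraMap k B r)) (h : A →ₐ[k] A')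
    (hpre : pullback.fst c (tA k A') ⁻¹ᵁ U ≤
      baseChangeSnd c (tMap h) ⁻¹ᵁ (pullback.fst c (tA k A) ⁻¹ᵁ U)) (r : A ⊗[k] B) :
    rs hpre (pf (baseChangeSnd c (tMap h)) _ (tensorIso c A hU θ hθ r)) =
      tensorIso c A' hU θ hθ (Algebra.TensorProduct.map h (AlgHom.id k B) r) := by
  induction r using TensorProduct.induction_on with
  | zero => simp
  | add r s hr hs => simp only [map_add, hr, hs]
  | tmul a b =>
    rw [Algebra.TensorProduct.map_tmul, tensorIso_tmul, tensorIso_tmul, map_mul, map_mul, pf_bf,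
      rs_bf, bf_congr (baseChangeSnd_snd h), bf_specMap]
    congr 1
    exact (rs_pf_comp _ _ _ (baseChangeSnd_fst h) U hpre le_rfl _).trans (rs_refl _ _)

theorem Model.tc_map (h : A →ₐ[k] A') :
    TCMap h (m.tc A) (m.tc A') (baseChangeSnd c (tMap h)) where
  pre0 := by
    change (baseChangeSnd c (tMap h) ≫ pullback.fst c (tA k A)) ⁻¹ᵁ m.V0 = _
    rw [baseChangeSnd_fst]
    rfl
  prei := by
    change (baseChangeSnd c (tMap h) ≫ pullback.fst c (tA k A)) ⁻¹ᵁ m.Vi = _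
    rw [baseChangeSnd_fst]
    rfl
  pf0 r := tensorIso_bc m.aff0 m.θ0 m.bf0 h _ r
  pfi r := tensorIso_bc m.affi m.θi m.bfi h _ r

variable (A) in
omit m in
theorem rigSection_fst : rigSection c (tA k A) ε ≫ pullback.fst c (tA k A) = tA k A ≫ ε.1 :=
  pullback.lift_fst _ _ _

variable (A) in
omit m in
theorem rigSection_snd : rigSection c (tA k A) ε ≫ pullback.snd c (tA k A) = 𝟙 _ :=
  pullback.lift_snd _ _ _

theorem Model.pre_eps : ε.1 ⁻¹ᵁ m.Vi = ⊤ := by
  have h1 := m.affi.fromSpec_preimage_self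
  rw [← m.eps]
  change (Spec.map (CommRingCat.ofHom ((X.e : X.Bi →+* k).comp (m.θi.symm : Γ(C, m.Vi) →+* X.Bi))))
    ⁻¹ᵁ (m.affi.fromSpec ⁻¹ᵁ m.Vi) = ⊤
  rw [h1]
  rfl

/-- functions near the base point are evaluated there -/
theorem Model.pf_eps (b : X.Bi) : rs m.pre_eps.ge (pf ε.1 m.Vi (m.θi b)) =
    (Scheme.ΓSpecIso (CommRingCat.of k)).inv.hom (X.e b) := by
  have h1 := IsAffineOpen.SpecMap_appLE_fromSpec ε.1 m.affi
    (isAffineOpen_top (Spec (CommRingCat.of k))) m.pre_eps.ge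
  have h2 : (isAffineOpen_top (Spec (CommRingCat.of k))).fromSpec ≫ ε.1 =
      Spec.map (CommRingCat.ofHom ((X.e : X.Bi →+* k).comp
        (m.θi.symm : Γ(C, m.Vi) →+* X.Bi)) ≫ (Scheme.ΓSpecIso (CommRingCat.of k)).inv) ≫
          m.affi.fromSpec := by
    rw [IsAffineOpen.fromSpec_top, Scheme.isoSpec_Spec_inv, Spec.map_comp, Category.assoc, m.eps]
  rw [h2, cancel_mono] at h1
  have h3 := Spec.map_injective h1
  refine (congr($h3 (m.θi b))).trans ?_
  change (Scheme.ΓSpecIso (CommRingCat.of k)).inv.hom (X.e (m.θi.symm (m.θi b))) = _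
  rw [RingEquiv.symm_apply_apply]

theorem Model.tensorIso_sec (hpre : (⊤ : (Spec (CommRingCat.of A)).Opens) ≤
    rigSection c (tA k A) ε ⁻¹ᵁ (pullback.fst c (tA k A) ⁻¹ᵁ m.Vi)) (r : A ⊗[k] X.Bi) :
    rs hpre (pf (rigSection c (tA k A) ε) _ (tensorIso c A m.affi m.θi m.bfi r)) =
      (Scheme.ΓSpecIso (CommRingCat.of A)).inv.hom (X.eA A r) := by
  induction r using TensorProduct.induction_on with
  | zero => simp
  | add r s hr hs => simp only [map_add, hr, hs]
  | tmul a b =>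
    have h2 : X.eA A (a ⊗ₜ b) = a * algebraMap k A (X.e b) := by
      rw [CurveData.eA, Algebra.TensorProduct.lift_tmul]
      rfl
    rw [tensorIso_tmul, h2, map_mul, map_mul, map_mul]
    congr 1
    · rw [pf_bf, rs_bf, bf_congr (rigSection_snd A), bf_id]
    · have h3 : (⊤ : (Spec (CommRingCat.of A)).Opens) ≤ tA k A ⁻¹ᵁ (ε.1 ⁻¹ᵁ m.Vi) := by
        rw [m.pre_eps]
        exact fun _ _ => trivial
      refine (rs_pf_comp _ _ _ (rigSection_fst A) m.Vi _ h3 _).trans ?_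
      have h6 : (⊤ : (Spec (CommRingCat.of A)).Opens) ≤ tA k A ⁻¹ᵁ ⊤ := fun _ _ => trivial
      have h4 : rs h3 (pf (tA k A ≫ ε.1) m.Vi (m.θi b)) =
          rs h6 (pf (tA k A) ⊤ (rs m.pre_eps.ge (pf ε.1 m.Vi (m.θi b)))) := by
        rw [← rs_pf, rs_rs]
        rfl
      refine h4.trans ?_
      rw [m.pf_eps]
      have h5 := Scheme.ΓSpecIso_inv_naturality (CommRingCat.ofHom (algebraMap k A))
      refine Eq.trans ?_ (congr($h5 (X.e b))).symm
      exact rs_refl _ _

variable (A) in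
theorem Model.tc_sec : TCSec (m.tc A) (rigSection c (tA k A) ε) where
  pre := by
    change (rigSection c (tA k A) ε ≫ pullback.fst c (tA k A)) ⁻¹ᵁ m.Vi = _
    rw [rigSection_fst]
    change tA k A ⁻¹ᵁ (ε.1 ⁻¹ᵁ m.Vi) = _
    rw [m.pre_eps]
    rfl
  pfi r := m.tensorIso_sec _ r

end Model

end Fermat.Agent.Jac
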