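import Fermat.Agent.Jac.GeoIso

/-!
# Base change of invertible modules on a two-chart scheme
-/

set_option autoImplicit false

universe u

open CategoryTheory CategoryTheory.Limits AlgebraicGeometry TopologicalSpace Opposite

namespace Fermat.Agent.Jac

variable {k : Type u} [Field k]

variable {X : CurveData k} {A : Type u} [CommRing A] [Algebra k A] {Z : Scheme.{u}}
  {A' : Type u} [CommRing A'] [Algebra k A'] {Z' : Scheme.{u}}

namespace TCMap

variable {h : A →ₐ[k] A'} {T : TC X A Z} {T' : TC X A' Z'} {g : Z' ⟶ Z}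

theorem preV (H : TCMap h T T' g) : g ⁻¹ᵁ (T.V0 ⊓ T.Vi) = T'.V0 ⊓ T'.Vi := by
  rw [← H.pre0, ← H.prei]
  rfl

theorem pfV (H : TCMap h T T' g) (r : X.R A) :
    rs H.preV.ge (pf g (T.V0 ⊓ T.Vi) (T.θ r)) = T'.θ (X.bb h r) := by
  have key : ((rs H.preV.ge).comp (pf g (T.V0 ⊓ T.Vi))).comp (T.θ : X.R A →+* _) =
      (T'.θ : X.R A' →+* _).comp (X.bb h : X.R A →+* X.R A') := by
    refine IsLocalization.ringHom_ext (Submonoid.powers (X.x0 A)) (RingHom.ext fun a => ?_)
    change rs H.preV.ge (pf g (T.V0 ⊓ T.Vi) (T.θ (algebraMap _ _ a))) =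
      T'.θ (X.bb h (X.J0 A a))
    rw [← T.rs0, ← rs_pf g (inf_le_left : T.V0 ⊓ T.Vi ≤ T.V0), rs_rs, X.bb_J0]
    have h1 := congrArg (rs (inf_le_left : T'.V0 ⊓ T'.Vi ≤ T'.V0)) (H.pf0 a)
    rw [rs_rs, T'.rs0] at h1
    exact h1
  exact congr($key r)

end TCMap

variable {h : A →ₐ[k] A'} {T : TC X A Z} {T' : TC X A' Z'} {g : Z' ⟶ Z}

/-- **the pullback of an invertible module is described by the base change of the lattice pair** -/
theorem bc_of_rep (H : TCMap h T T' g) {L : Z.Modules} (hL : L.IsInvertible) {E : LB X A}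
    {E' : LB X A'} (h1 : Rep T L E) (h2 : Rep T' ((Scheme.Modules.pullback g).obj L) E') :
    LB.BC h E E' := by
  obtain ⟨D⟩ := h1
  obtain ⟨D'⟩ := h2
  let f : E.M →+ E'.M :=
    (D'.φ : Γ((Scheme.Modules.pullback g).obj L, T'.V0 ⊓ T'.Vi) →+ E'.M).comp
      ((res _ H.preV.ge).comp ((ps g L (T.V0 ⊓ T.Vi)).comp
        (D.φ.symm : E.M →+ Γ(L, T.V0 ⊓ T.Vi))))
  have hf : ∀ m : Γ(L, T.V0 ⊓ T.Vi), f (D.φ m) = D'.φ (res _ H.preV.ge (ps g L _ m)) := by
    intro m
    change D'.φ (res _ H.preV.ge (ps g L _ (D.φ.symm (D.φ m)))) = _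
    rw [AddEquiv.symm_apply_apply]
  have hf0 : ∀ s : Γ(L, T.V0), f (D.φ (res L inf_le_left s)) =
      D'.φ (res _ inf_le_left (res _ H.pre0.ge (ps g L _ s))) := by
    intro s
    rw [hf, ps_res, res_res, res_res]
  have hfi : ∀ s : Γ(L, T.Vi), f (D.φ (res L inf_le_right s)) =
      D'.φ (res _ inf_le_right (res _ H.prei.ge (ps g L _ s))) := by
    intro s
    rw [hf, ps_res, res_res, res_res]
  refine ⟨⟨f, fun r m => ?_, ?_, ?_⟩⟩
  · obtain ⟨m, rfl⟩ := D.φ.surjective m
    rw [← D.smul, hf, hf, ps_smul, res_smul, H.pfV, D'.smul]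
  · apply le_antisymm
    · rw [Submodule.span_le]
      rintro _ ⟨m, hm, rfl⟩
      obtain ⟨s, rfl⟩ := (D.mem0 m).mp hm
      exact (D'.mem0 _).mpr ⟨_, (hf0 s).symm⟩
    · intro m' hm'
      obtain ⟨s', rfl⟩ := (D'.mem0 m').mp hm'
      have hs' : s' ∈ Submodule.span Γ(Z', T'.V0)
          (Set.range fun s : Γ(L, T.V0) => res _ H.pre0.ge (ps g L T.V0 s)) := by
        rw [span_pullback g hL T.aff0 T'.aff0 H.pre0.ge]
        trivial
      clear hm'
      induction hs' using Submodule.span_induction with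
      | mem x hx =>
        obtain ⟨s, rfl⟩ := hx
        exact Submodule.subset_span ⟨_, (D.mem0 _).mpr ⟨s, rfl⟩, hf0 s⟩
      | zero => rw [map_zero, map_zero]; exact Submodule.zero_mem _
      | add x y _ _ hx hy => rw [map_add, map_add]; exact Submodule.add_mem _ hx hy
      | smul a x _ hx =>
        obtain ⟨a, rfl⟩ := T'.θ0.surjective a
        rw [res_smul, T'.rs0, D'.smul, CurveData.algebraMap0, ← E'.smul0]
        exact Submodule.smul_mem _ _ hx
  · apply le_antisymm
    · rw [Submodule.span_le]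
      rintro _ ⟨m, hm, rfl⟩
      obtain ⟨s, rfl⟩ := (D.memi m).mp hm
      exact (D'.memi _).mpr ⟨_, (hfi s).symm⟩
    · intro m' hm'
      obtain ⟨s', rfl⟩ := (D'.memi m').mp hm'
      have hs' : s' ∈ Submodule.span Γ(Z', T'.Vi)
          (Set.range fun s : Γ(L, T.Vi) => res _ H.prei.ge (ps g L T.Vi s)) := by
        rw [span_pullback g hL T.affi T'.affi H.prei.ge]
        trivial
      clear hm'
      induction hs' using Submodule.span_induction with
      | mem x hx =>
        obtain ⟨s, rfl⟩ := hx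
        exact Submodule.subset_span ⟨_, (D.memi _).mpr ⟨s, rfl⟩, hfi s⟩
      | zero => rw [map_zero, map_zero]; exact Submodule.zero_mem _
      | add x y _ _ hx hy => rw [map_add, map_add]; exact Submodule.add_mem _ hx hy
      | smul a x _ hx =>
        obtain ⟨a, rfl⟩ := T'.θi.surjective a
        rw [res_smul, T'.rsi, D'.smul, CurveData.algebraMapi, ← E'.smuli]
        exact Submodule.smul_mem _ _ hx

/-- the base change of the lattice pair describes the pullback of the invertible module -/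
theorem rep_of_bc (H : TCMap h T T' g) {L : Z.Modules} (hL : L.IsInvertible) {E : LB X A}
    {E' : LB X A'} (h1 : Rep T L E) (h2 : LB.BC h E E') :
    Rep T' ((Scheme.Modules.pullback g).obj L) E' := by
  obtain ⟨E'', h3⟩ := exists_rep_mod T' (hL.pullback g)
  exact h3.of_iso ((bc_of_rep H hL h1 h3).iso_of_bc h2)

end Fermat.Agent.Jac
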