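import Fermat.Agent.Jac.GeoRep

/-!
# Rigidifications in the two-chart description
-/

set_option autoImplicit false

universe u

open CategoryTheory CategoryTheory.Limits AlgebraicGeometry TopologicalSpace Opposite

namespace Fermat.Agent.Jac

variable {k : Type u} [Field k] {X : CurveData k} {A : Type u} [CommRing A] [Algebra k A]
  {Z : Scheme.{u}}

/-- the sections over `V∞` in terms of the lattice -/
theorem RepData.exists_equivi {T : TC X A Z} {L : Z.Modules} {E : LB X A} (D : RepData T L E)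
    (hL : L.IsInvertible) : ∃ ψ : Γ(L, T.Vi) ≃+ E.Mi,
      (∀ m, (ψ m : E.M) = D.φ (res L inf_le_right m)) ∧
      ∀ (r : X.Ri A) m, ψ (T.θi r • m) = r • ψ m := by
  let f : Γ(L, T.Vi) →+ E.Mi :=
    { toFun := fun m => ⟨D.φ (res L inf_le_right m), (D.memi _).2 ⟨m, rfl⟩⟩
      map_zero' := by ext; simp
      map_add' := fun m m' => by ext; simp }
  have hf : Function.Bijective f := by
    constructor
    · intro m m' h
      apply T.resi_injective hL
      apply D.φ.injective
      exact congrArg Subtype.val h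
    · rintro ⟨e, he⟩
      obtain ⟨m, hm⟩ := (D.memi e).1 he
      exact ⟨m, Subtype.ext hm⟩
  refine ⟨AddEquiv.ofBijective f hf, fun m => rfl, fun r m => ?_⟩
  apply Subtype.ext
  change D.φ (res L inf_le_right (T.θi r • m)) = r • D.φ (res L inf_le_right m)
  rw [res_smul, T.rsi, D.smul, E.smuli]
  rfl

section

variable {T : TC X A Z} {s : Spec (CommRingCat.of A) ⟶ Z} (hs : TCSec T s)

/-- evaluation of sections over `V∞` at the base section -/
noncomputable def TCSec.ev (L : Z.Modules) :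
    Γ(L, T.Vi) →+ Γ((Scheme.Modules.pullback s).obj L, ⊤) :=
  (res _ hs.pre.ge).comp (ps s L T.Vi)

theorem TCSec.ev_smul (L : Z.Modules) (r : X.Ri A) (m : Γ(L, T.Vi)) :
    hs.ev L (T.θi r • m) =
      (Scheme.ΓSpecIso (CommRingCat.of A)).inv.hom (X.eA A r) • hs.ev L m := by
  change res _ hs.pre.ge (ps s L T.Vi (T.θi r • m)) = _ • res _ hs.pre.ge (ps s L T.Vi m)
  rw [ps_smul, res_smul, hs.pfi]

theorem unitMod_smul {Y : Scheme.{u}} {U : Y.Opens} (r : Γ(Y, U)) (m : Γ(unitMod Y, U)) :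
    (r • m : Γ(unitMod Y, U)) = (show Γ(Y, U) from r * (show Γ(Y, U) from m)) := rfl

include hs in
/-- a trivialisation along the base section gives a rigidification -/
theorem rig_of_iso {L : Z.Modules} (hL : L.IsInvertible) {E : LB X A} (h : Rep T L E)
    (e : (Scheme.Modules.pullback s).obj L ≅ unitMod (Spec (CommRingCat.of A))) : E.Rig := by
  obtain ⟨D⟩ := h
  obtain ⟨ψ, hψ, hψ'⟩ := D.exists_equivi hL
  let S := Scheme.ΓSpecIso (CommRingCat.of A)
  have hS : ∀ a : A, S.hom.hom (S.inv.hom a) = a := fun a => by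
    have := congr($(S.inv_hom_id) a)
    exact this
  have hS' : ∀ a, S.inv.hom (S.hom.hom a) = a := fun a => by
    have := congr($(S.hom_inv_id) a)
    exact this
  let χ : Γ((Scheme.Modules.pullback s).obj L, ⊤) →+ A :=
    (S.hom.hom : Γ(Spec (CommRingCat.of A), ⊤) →+* A).toAddMonoidHom.comp (ap e.hom ⊤)
  have hχ : ∀ (a : A) m, χ (S.inv.hom a • m) = a * χ m := by
    intro a m
    change S.hom.hom (ap e.hom ⊤ (S.inv.hom a • m)) = a * S.hom.hom (ap e.hom ⊤ m)
    rw [ap_smul, unitMod_smul]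
    refine (map_mul S.hom.hom _ _).trans ?_
    rw [hS]
  let r₀ : E.Mi →+ A := (χ.comp (hs.ev L)).comp (ψ.symm : E.Mi →+ Γ(L, T.Vi))
  have hr₀ : ∀ (b : X.Ri A) (m : E.Mi), r₀ (b • m) = X.eA A b * r₀ m := by
    intro b m
    have h1 : ψ.symm (b • m) = T.θi b • ψ.symm m := by
      apply ψ.injective
      rw [hψ', AddEquiv.apply_symm_apply, AddEquiv.apply_symm_apply]
    change χ (hs.ev L (ψ.symm (b • m))) = X.eA A b * χ (hs.ev L (ψ.symm m))
    rw [h1, hs.ev_smul, hχ]
  let r : E.Mi →ₗ[A] A :=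
    { toFun := r₀
      map_add' := map_add r₀
      map_smul' := fun a m => by
        have h1 : a • m = algebraMap A (X.Ri A) a • m := by
          rw [algebraMap_smul]
        rw [h1, hr₀, AlgHom.commutes]
        rfl }
  refine ⟨r, hr₀, ?_⟩
  -- surjectivity
  have h1 := span_pullback s hL T.affi (isAffineOpen_top (Spec (CommRingCat.of A))) hs.pre.ge
  rw [← LinearMap.range_eq_top, eq_top_iff]
  intro a _
  obtain ⟨m, hm⟩ := (bijective_ap e.hom ⊤).2 (show Γ(Spec (CommRingCat.of A), ⊤) from S.inv.hom a)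
  have h2 : χ m = a := by
    change S.hom.hom (ap e.hom ⊤ m) = a
    rw [hm]
    exact hS a
  rw [← h2]
  clear hm h2
  have h3 : m ∈ Submodule.span Γ(Spec (CommRingCat.of A), ⊤)
      (Set.range fun t : Γ(L, T.Vi) => res _ hs.pre.ge (ps s L T.Vi t)) := by
    rw [h1]
    trivial
  induction h3 using Submodule.span_induction with
  | mem m hm =>
    obtain ⟨t, rfl⟩ := hm
    refine ⟨ψ t, ?_⟩
    change χ (hs.ev L (ψ.symm (ψ t))) = _
    rw [AddEquiv.symm_apply_apply]
    rfl
  | zero => rw [map_zero]; exact zero_mem _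
  | add m m' _ _ hm hm' => rw [map_add]; exact add_mem hm hm'
  | smul b m _ hm =>
    rw [← hS' b, hχ]
    exact Submodule.smul_mem _ _ hm

include hs in
/-- a rigidification gives a trivialisation along the base section -/
theorem iso_of_rig {L : Z.Modules} (hL : L.IsInvertible) {E : LB X A} (h : Rep T L E)
    (hE : E.Rig) :
    Nonempty ((Scheme.Modules.pullback s).obj L ≅ unitMod (Spec (CommRingCat.of A))) := by
  obtain ⟨D⟩ := h
  obtain ⟨ψ, hψ, hψ'⟩ := D.exists_equivi hL
  obtain ⟨r, hr, hsurj⟩ := hE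
  let S := Scheme.ΓSpecIso (CommRingCat.of A)
  let N : Z.Modules := (Scheme.Modules.pushforward s).obj (unitMod (Spec (CommRingCat.of A)))
  let F : Γ(L, T.Vi) →+ Γ(N, T.Vi) :=
    { toFun := fun m => (show Γ(Spec (CommRingCat.of A), s ⁻¹ᵁ T.Vi) from
        rs hs.pre.le (S.inv.hom (r (ψ m))))
      map_zero' := by rw [map_zero, map_zero, map_zero, map_zero]; rfl
      map_add' := fun m m' => by rw [map_add, map_add, map_add, map_add]; rfl }
  have hF : ∀ (b : Γ(Z, T.Vi)) m, F (b • m) = b • F m := by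
    intro b m
    obtain ⟨b, rfl⟩ := T.θi.surjective b
    have h1 : pf s T.Vi (T.θi b) = rs hs.pre.le (S.inv.hom (X.eA A b)) := by
      rw [← hs.pfi, rs_rs, rs_refl]
    have h2 : (T.θi b • F m : Γ(N, T.Vi)) = (show Γ(Spec (CommRingCat.of A), s ⁻¹ᵁ T.Vi) from
      pf s T.Vi (T.θi b) * rs hs.pre.le (S.inv.hom (r (ψ m)))) := rfl
    rw [h2, h1]
    change rs hs.pre.le (S.inv.hom (r (ψ (T.θi b • m)))) = _
    rw [hψ', hr, map_mul, map_mul]
  obtain ⟨n, g, τ, hτ, hg⟩ := exists_global_gen hL T.affi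
  have hcov : ⨆ i, s ⁻¹ᵁ Z.basicOpen (g i) = ⊤ := by
    rw [eq_top_iff]
    intro x _
    have hx : x ∈ s ⁻¹ᵁ T.Vi := by rw [hs.pre]; trivial
    obtain ⟨i, hi⟩ := Opens.mem_iSup.mp (le_iSup_basicOpen T.affi g hg hx)
    exact Opens.mem_iSup.mpr ⟨i, hi⟩
  let p : ∀ i, Γ((Scheme.Modules.pullback s).obj L, s ⁻¹ᵁ Z.basicOpen (g i)) := fun i =>
    ps s L _ (res L (Z.basicOpen_le (g i)) (τ i))
  have hp : ∀ i, IsGen _ (p i) := fun i => (hτ i).pullback s hL
  let u : ∀ i, Γ(unitMod (Spec (CommRingCat.of A)), s ⁻¹ᵁ Z.basicOpen (g i)) := fun i =>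
    res N (Z.basicOpen_le (g i)) (F (τ i))
  -- the sections `u i` are generators
  have hu : ∀ i, IsGen _ (u i) := by
    intro i
    obtain ⟨e₀, he₀⟩ := hsurj 1
    have h1 : (F (ψ.symm e₀) : Γ(N, T.Vi)) =
        (show Γ(Spec (CommRingCat.of A), s ⁻¹ᵁ T.Vi) from 1) := by
      change rs hs.pre.le (S.inv.hom (r (ψ (ψ.symm e₀)))) = 1
      rw [AddEquiv.apply_symm_apply, he₀, map_one, map_one]
    obtain ⟨c, hc⟩ := (hτ i).exists_smul le_rfl (res L (Z.basicOpen_le (g i)) (ψ.symm e₀))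
    rw [res_refl] at hc
    have h2 := lin_of_rel hL T.affi F hF (g i) (τ i) (ψ.symm e₀) c hc
    let v : Γ(Spec (CommRingCat.of A), s ⁻¹ᵁ Z.basicOpen (g i)) := u i
    have h3 : pf s _ c * v = 1 := by
      refine Eq.trans ?_ (h2.symm.trans ?_)
      · rfl
      · rw [h1]
        exact map_one (rs (pre_mono s (Z.basicOpen_le (g i))))
    have hv : IsUnit v := IsUnit.of_mul_eq_one (pf s _ c) ((mul_comm _ _).trans h3)
    have h4 := (isGen_one (X := Spec (CommRingCat.of A)) (s ⁻¹ᵁ Z.basicOpen (g i))).smul_unit hv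
    rw [unitMod_smul] at h4
    have h5 : (v * (1 : Γ(Spec (CommRingCat.of A), s ⁻¹ᵁ Z.basicOpen (g i)))) = v := mul_one v
    change IsGen (unitMod (Spec (CommRingCat.of A))) (U := s ⁻¹ᵁ Z.basicOpen (g i)) v
    rw [← h5]
    exact h4
  have hc : Compat p u := by
    intro i j W hi hj a ha
    have hfi : Z.basicOpen (g i * g j) ≤ Z.basicOpen (g i) := by
      rw [Z.basicOpen_mul]; exact inf_le_left
    have hfj : Z.basicOpen (g i * g j) ≤ Z.basicOpen (g j) := by
      rw [Z.basicOpen_mul]; exact inf_le_right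
    have hW : W ≤ s ⁻¹ᵁ Z.basicOpen (g i * g j) := by
      rw [Z.basicOpen_mul]
      exact le_inf hi hj
    obtain ⟨c, hc⟩ := (hτ i).exists_smul hfi (res L (Z.basicOpen_le (g i * g j)) (τ j))
    rw [res_res] at hc
    have h2 := lin_of_rel hL T.affi F hF (g i * g j) (τ i) (τ j) c hc
    have h3 : res _ hj (p j) = rs hW (pf s _ c) • res _ hi (p i) := by
      have h4 := congrArg (fun z => res _ hW (ps s L _ z)) hc
      simp only [ps_smul, res_smul, ps_res, res_res] at h4
      change res _ hj (ps s L _ (res L (Z.basicOpen_le (g j)) (τ j))) =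
        rs hW (pf s _ c) • res _ hi (ps s L _ (res L (Z.basicOpen_le (g i)) (τ i)))
      rw [ps_res, ps_res, res_res, res_res]
      exact h4
    have h5 : a = rs hW (pf s _ c) := by
      apply (hp i).smul_inj hi
      rw [← ha, h3]
    have h6 := congrArg (fun z : Γ(unitMod (Spec (CommRingCat.of A)),
      s ⁻¹ᵁ Z.basicOpen (g i * g j)) => res _ hW z) h2
    rw [h5]
    exact h6
  obtain ⟨e, -⟩ := exists_iso_of_gen hcov hp hu hc
  exact ⟨e⟩

include hs in
/-- **Trivialisations along the base section are rigidifications of the lattice pair.** -/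
theorem rig_iff_of_sec {L : Z.Modules} (hL : L.IsInvertible) {E : LB X A} (h : Rep T L E) :
    Nonempty ((Scheme.Modules.pullback s).obj L ≅
      SheafOfModules.unit (Spec (CommRingCat.of A)).ringCatSheaf) ↔ E.Rig :=
  ⟨fun ⟨e⟩ => rig_of_iso hs hL h e, iso_of_rig hs hL h⟩

end

end Fermat.Agent.Jac
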