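import Fermat.Agent.Jac.GeoStmt
import Fermat.Agent.Jac.GeoModel
import Fermat.Agent.Jac.GeoPull
import Fermat.Agent.Jac.GeoExists
import Fermat.Agent.Jac.GeoRig

/-!
# The dictionary between invertible modules on `C × Spec A` and lattice pairs
-/

set_option autoImplicit false

universe u

open CategoryTheory CategoryTheory.Limits AlgebraicGeometry AlgebraicGeometry.RelPicard
  NeronModelInfra TopologicalSpace Opposite TensorProduct

namespace Fermat.Agent.Jac

variable {k : Type u} [Field k] {X : CurveData k} {C : Scheme.{u}}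
  {c : C ⟶ Spec (CommRingCat.of k)} {ε : SchemeHomOver (𝟙 (Spec (CommRingCat.of k))) c}

/-- **the dictionary between invertible modules on `C × Spec A` and lattice pairs** -/
noncomputable def geoData (m : Model X c ε) : GeoData X c ε where
  Rep := fun {A} _ _ L E => Jac.Rep (m.tc A) L E
  exists_rep := fun {A} _ _ _ hL => exists_rep_mod (m.tc A) hL
  exists_mod := fun {A} _ _ E => exists_mod (m.tc A) E
  iso_iff := fun hL hL' h h' => rep_iso_iff hL hL' h h'
  bc := fun h _ _ _ hL h1 h2 => rep_of_bc (m.tc_map h) hL h1 h2
  rig_iff := fun {A} _ _ _ _ hL h => rig_iff_of_sec (m.tc_sec A) hL h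
  unit := fun A _ _ => rep_unit (m.tc A)

end Fermat.Agent.Jac
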