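import Mathlib
import Fermat.Agent.Jac.Def

/-!
# Extension of points over valuation rings
-/

set_option autoImplicit false
set_option linter.style.haveILetI false

universe u

noncomputable section

open TensorProduct

namespace Fermat.Agent.Jac

/-- An algebra homomorphism with values in `V ⊆ K` factors through `V`. -/
theorem exists_factor_of_mem {k : Type u} [Field k] {V K B : Type u} [CommRing V] [Field K]
    [CommRing B] [Algebra k V] [Algebra k K] [Algebra V K] [IsScalarTower k V K] [Algebra k B]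
    (hinj : Function.Injective (algebraMap V K)) (σ : B →ₐ[k] K)
    (h : ∀ b, ∃ v, algebraMap V K v = σ b) :
    ∃ τ : B →ₐ[k] V, (IsScalarTower.toAlgHom k V K).comp τ = σ := by
  choose f hf using h
  refine ⟨⟨⟨⟨⟨f, ?_⟩, ?_⟩, ?_, ?_⟩, ?_⟩, ?_⟩
  · apply hinj; rw [hf, map_one, map_one]
  · intro a b; apply hinj
    simp only [hf, map_mul]
  · apply hinj
    simp only [hf, map_zero]
  · intro a b; apply hinj
    simp only [hf, map_add]
  · intro a; apply hinj
    simp only [hf, AlgHom.commutes]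
    exact IsScalarTower.algebraMap_apply k V K a
  · ext b
    exact hf b

/-- Values of a finite algebra over `k[x]` are integral as soon as the value of `x` is. -/
theorem mem_of_finite_aeval {k : Type u} [Field k] {V K B : Type u} [CommRing V] [IsDomain V]
    [ValuationRing V] [Field K] [CommRing B] [Algebra k V] [Algebra k K] [Algebra V K]
    [IsScalarTower k V K] [IsFractionRing V K] [Algebra k B] {x : B}
    (hx : (Polynomial.aeval x : Polynomial k →ₐ[k] B).toRingHom.Finite) (σ : B →ₐ[k] K)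
    (h : ∃ v, algebraMap V K v = σ x) (b : B) : ∃ v, algebraMap V K v = σ b := by
  obtain ⟨v, hv⟩ := h
  obtain ⟨p, hp, hpb⟩ := hx.to_isIntegral b
  let g : Polynomial k →+* V := (Polynomial.aeval v : Polynomial k →ₐ[k] V)
  have h1 : IsIntegral V (σ b) := by
    refine ⟨p.map g, hp.map g, ?_⟩
    rw [Polynomial.eval₂_map]
    have h2 : (algebraMap V K).comp g =
        (σ : B →+* K).comp (Polynomial.aeval x : Polynomial k →ₐ[k] B).toRingHom := by
      refine RingHom.ext fun q => ?_
      change algebraMap V K (Polynomial.aeval v q) = σ (Polynomial.aeval x q)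
      rw [← Polynomial.aeval_algebraMap_apply, hv, Polynomial.aeval_algHom_apply]
    rw [h2]
    have h3 := congrArg σ hpb
    rw [map_zero] at h3
    rw [← h3]
    exact (Polynomial.hom_eval₂ _ _ _ _).symm
  exact IsIntegrallyClosed.isIntegral_iff.mp h1

variable {k : Type u} [Field k] (X : CurveData k)

theorem CurveData.away_x : IsLocalization.Away (⟨X.x, X.x_mem⟩ : X.B0) X.B := by
  have hu : IsUnit X.x := IsUnit.of_mul_eq_one X.y X.xy
  refine ⟨?_, ?_, ?_⟩
  · rintro ⟨_, n, rfl⟩
    rw [map_pow]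
    exact hu.pow n
  · intro b
    obtain ⟨n, hn⟩ := X.loc0 b
    refine ⟨(⟨X.x ^ n * b, hn⟩, ⟨_, n, rfl⟩), ?_⟩
    rw [map_pow]
    exact mul_comm _ _
  · intro a b hab
    exact ⟨1, by rw [Subtype.ext hab]⟩

theorem CurveData.exists_extend0 {K : Type u} [CommRing K] [Algebra k K] (σ : X.B0 →ₐ[k] K)
    (h : IsUnit (σ ⟨X.x, X.x_mem⟩)) : ∃ ρ : X.B →ₐ[k] K, ρ.comp X.B0.val = σ := by
  haveI := X.away_x
  haveI : IsScalarTower k X.B0 X.B := inferInstance
  refine ⟨IsLocalization.liftAlgHom (A := k) (M := Submonoid.powers (⟨X.x, X.x_mem⟩ : X.B0))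
    (f := σ) ?_, ?_⟩
  · rintro ⟨_, n, rfl⟩
    rw [map_pow]
    exact h.pow n
  · ext b
    exact IsLocalization.lift_eq _ b

variable {X}

/-- **Points extend over valuation rings.** -/
theorem CurveData.exists_val_point {V K : Type u} [CommRing V] [IsDomain V] [ValuationRing V]
    [Field K] [Algebra k V] [Algebra k K] [Algebra V K] [IsScalarTower k V K] [IsFractionRing V K]
    (σ : X.B0 →ₐ[k] K) :
    (∃ τ : X.B0 →ₐ[k] V, (IsScalarTower.toAlgHom k V K).comp τ = σ) ∨
    ∃ ρ : X.B →ₐ[k] K, ρ.comp X.B0.val = σ ∧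
      ∃ τ : X.Bi →ₐ[k] V, (IsScalarTower.toAlgHom k V K).comp τ = ρ.comp X.Bi.val := by
  have hinj := IsFractionRing.injective V K
  by_cases hx : ∃ v, algebraMap V K v = σ ⟨X.x, X.x_mem⟩
  · exact Or.inl (exists_factor_of_mem hinj σ (mem_of_finite_aeval X.fin0 σ hx))
  · right
    have h0 : σ ⟨X.x, X.x_mem⟩ ≠ 0 := fun h => hx ⟨0, by rw [h, map_zero]⟩
    obtain ⟨ρ, hρ⟩ := X.exists_extend0 σ (isUnit_iff_ne_zero.mpr h0)
    refine ⟨ρ, hρ, ?_⟩
    have h1 : ρ X.x = σ ⟨X.x, X.x_mem⟩ := by rw [← hρ]; rfl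
    have h2 : ρ X.y = (σ ⟨X.x, X.x_mem⟩)⁻¹ := by
      have := congrArg ρ X.xy
      rw [map_mul, map_one, h1] at this
      exact eq_inv_of_mul_eq_one_right this
    have h3 : ∃ v, algebraMap V K v = (ρ.comp X.Bi.val) ⟨X.y, X.y_mem⟩ := by
      change ∃ v, algebraMap V K v = ρ X.y
      rw [h2]
      rcases ValuationRing.isInteger_or_isInteger V (σ ⟨X.x, X.x_mem⟩) with h | h
      · exact absurd h hx
      · exact h
    exact exists_factor_of_mem hinj _ (mem_of_finite_aeval X.fini _ h3)

end Fermat.Agent.Jac
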