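import Fermat.Agent.Jac.ChartsMain
import Fermat.Agent.Jac.ValPt

/-!
# Line bundles extend over valuation rings
-/

set_option autoImplicit false

universe u

open TensorProduct

namespace Fermat.Agent.Jac

variable {k : Type u} [Field k] {X : CurveData k}

/-- The line bundles `O(n)` and the ideals of points. -/
structure TwPkg (T : ClPkg X) where
  O : ∀ (A : Type u) [CommRing A] [Algebra k A], ℤ → LB X A
  O_bc : ∀ {A : Type u} [CommRing A] [Algebra k A] {A' : Type u} [CommRing A'] [Algebra k A']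
    (h : A →ₐ[k] A') (n : ℤ), LB.BC h (O A n) (O A' n)
  m0 : ∀ {A : Type u} [CommRing A] [Algebra k A], (X.B0 →ₐ[k] A) → LB X A
  mi : ∀ {A : Type u} [CommRing A] [Algebra k A], (X.Bi →ₐ[k] A) → LB X A
  m0_bc : ∀ {A : Type u} [CommRing A] [Algebra k A] {A' : Type u} [CommRing A'] [Algebra k A']
    (h : A →ₐ[k] A') (σ : X.B0 →ₐ[k] A), LB.BC h (m0 σ) (m0 (h.comp σ))
  mi_bc : ∀ {A : Type u} [CommRing A] [Algebra k A] {A' : Type u} [CommRing A'] [Algebra k A']
    (h : A →ₐ[k] A') (σ : X.Bi →ₐ[k] A), LB.BC h (mi σ) (mi (h.comp σ))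
  m0_mi : ∀ {A : Type u} [CommRing A] [Algebra k A] (ρ : X.B →ₐ[k] A),
    T.cl (m0 (ρ.comp X.B0.val)) = T.cl (mi (ρ.comp X.Bi.val))
  factor : ∀ {K : Type u} [Field K] [IsAlgClosed K] [Algebra k K] (L : LB X K),
    ∃ (n : ℤ) (l : List (X.B0 →ₐ[k] K)), T.cl L = T.cl (O K n) * (l.map fun P => T.cl (m0 P)).prod

section

variable {T : ClPkg X} (W : TwPkg T)
  {V : Type u} [CommRing V] [IsDomain V] [ValuationRing V] [Algebra k V]
  {K : Type u} [Field K] [IsAlgClosed K] [Algebra k K] [Algebra V K] [IsScalarTower k V K]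
  [IsFractionRing V K]

include W in
omit [IsAlgClosed K] in
/-- the class of a point extends -/
theorem TwPkg.exists_ext_point (P : X.B0 →ₐ[k] K) :
    ∃ c : T.Cl V, T.map (IsScalarTower.toAlgHom k V K) c = T.cl (W.m0 P) := by
  rcases CurveData.exists_val_point (V := V) P with ⟨τ, hτ⟩ | ⟨ρ, hρ, τ, hτ⟩
  · refine ⟨T.cl (W.m0 τ), ?_⟩
    rw [T.map_cl]
    have h1 := W.m0_bc (IsScalarTower.toAlgHom k V K) τ
    rwa [hτ] at h1
  · refine ⟨T.cl (W.mi τ), ?_⟩
    have h1 := (T.map_cl _ _ _).mpr (W.mi_bc (IsScalarTower.toAlgHom k V K) τ)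
    rw [h1, hτ, ← W.m0_mi, hρ]

include W in
/-- every class extends -/
theorem TwPkg.exists_ext (M : LB X K) :
    ∃ L : LB X V, LB.BC (IsScalarTower.toAlgHom k V K) L M := by
  obtain ⟨n, l, hl⟩ := W.factor M
  have h1 : ∀ l : List (X.B0 →ₐ[k] K), ∃ c : T.Cl V,
      T.map (IsScalarTower.toAlgHom k V K) c = (l.map fun P => T.cl (W.m0 P)).prod := by
    intro l
    induction l with
    | nil => exact ⟨1, by simp⟩
    | cons P l ih =>
      obtain ⟨c, hc⟩ := ih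
      obtain ⟨c', hc'⟩ := W.exists_ext_point (V := V) P
      exact ⟨c' * c, by rw [map_mul, hc, hc', List.map_cons, List.prod_cons]⟩
  obtain ⟨c, hc⟩ := h1 l
  obtain ⟨L, hL⟩ := T.surj (T.cl (W.O V n) * c)
  refine ⟨L, ?_⟩
  rw [← T.map_cl, hL, map_mul, hc, hl]
  congr 1
  exact (T.map_cl _ _ _).mpr (W.O_bc _ n)

end

/-- **UC** -/
theorem ucStmt_of {T : ClPkg X} (W : TwPkg T) (hchi : ChiStmt X)
    (hrig : ∀ {A : Type u} [CommRing A] [Algebra k A] [IsLocalRing A] (L : LB X A), L.Rig) :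
    UCStmt X := by
  intro V _ _ _ _ K _ _ _ _ _ _ M hM
  obtain ⟨L, hL⟩ := W.exists_ext (V := V) M
  refine ⟨L, hrig L, ?_, hL⟩
  intro K' _ _ _ φ L' hL'
  obtain ⟨f, hf, h1⟩ := hchi L φ L' hL'
  rw [← hM]
  refine (h1 (IsScalarTower.toAlgHom k V K) M ?_ hL).symm
  change algebraMap V K f ≠ 0
  intro h0
  rw [map_eq_zero_iff _ (IsFractionRing.injective V K)] at h0
  rw [h0, map_zero] at hf
  exact hf rfl

end Fermat.Agent.Jac
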