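import Fermat.Agent.Jac.FactorD
import Fermat.Agent.Jac.UC

/-!
# The package of twists
-/

set_option autoImplicit false

universe u

open TensorProduct

namespace Fermat.Agent.Jac

variable {k : Type u} [Field k] (X : CurveData k)

/-- **TwPkg** -/
noncomputable def twPkg : TwPkg (clPkg X) where
  O A _ _ n := LB.O X A n
  O_bc h n := LB.O_bc X h n
  m0 σ := LB.minus0 σ
  mi σ := LB.minusi σ
  m0_bc h σ := LB.minus0_bc σ h
  mi_bc h σ := LB.minusi_bc σ h
  m0_mi ρ := congrArg _ (LB.minus0_eq_minusi ρ)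
  factor L := by
    obtain ⟨n0, h⟩ := L.exists_factor
    obtain ⟨l, hl⟩ := h n0 le_rfl
    exact ⟨n0, l, hl⟩

end Fermat.Agent.Jac
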