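import Fermat.Agent.Jac.TwistEff

/-!
# Rigidification of `O(-D)`
-/

set_option autoImplicit false

universe u

open scoped TensorProduct

namespace Fermat.Agent.Jac

variable {k : Type u} [Field k] {X : CurveData k} {A : Type u} [CommRing A] [Algebra k A]

theorem CurveData.eA_yi : X.eA A (X.yi A) = 0 := by
  rw [CurveData.eA, CurveData.yi, Algebra.TensorProduct.lift_tmul, map_one, one_mul,
    AlgHom.comp_apply, X.e_y, map_zero]

/-- `O(-D)` is trivial along the base section if the divisor does not meet it -/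
theorem LB.div_rig {K0 : Ideal (X.R0 A)} {Ki : Ideal (X.Ri A)} (hK : IsDiv K0 Ki)
    {c : X.Ri A} (hc : 1 + X.yi A * c ∈ Ki) : (LB.div K0 Ki hK).Rig := by
  let f : Ki →ₗ[X.Ri A] (LB.div K0 Ki hK).Mi :=
    { toFun := fun s => ⟨⟨algebraMap (X.Ri A) (X.R A) s, hK.glue.ge (Ideal.mem_map_of_mem _ s.2)⟩,
        ⟨s, s.2, rfl⟩⟩
      map_add' := fun s t => Subtype.ext (Subtype.ext (map_add _ _ _))
      map_smul' := fun r s => Subtype.ext (Subtype.ext (by
        change algebraMap (X.Ri A) (X.R A) (r * s) = r • algebraMap (X.Ri A) (X.R A) s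
        rw [map_mul, Algebra.smul_def])) }
  have hf : Function.Bijective f := by
    constructor
    · intro s t hst
      exact Subtype.ext (X.Ji_injective A
        (congrArg (fun m => ((m : (K0.map (algebraMap (X.R0 A) (X.R A)) : Ideal (X.R A))) : X.R A))
          (congrArg Subtype.val hst)))
    · rintro ⟨m, s, hs, hm⟩
      exact ⟨⟨s, hs⟩, Subtype.ext (Subtype.ext hm)⟩
  let e : Ki ≃ₗ[X.Ri A] (LB.div K0 Ki hK).Mi := LinearEquiv.ofBijective f hf
  let r : (LB.div K0 Ki hK).Mi →ₗ[A] A :=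
    (X.eA A).toLinearMap ∘ₗ ((Ki.subtype ∘ₗ e.symm.toLinearMap).restrictScalars A)
  refine ⟨r, fun b m => ?_, fun a => ?_⟩
  · change X.eA A (e.symm (b • m) : Ki) = X.eA A b * X.eA A (e.symm m : Ki)
    rw [map_smul, Submodule.coe_smul, smul_eq_mul, map_mul]
  · refine ⟨a • e ⟨_, hc⟩, ?_⟩
    rw [map_smul]
    change a • X.eA A (e.symm (e ⟨_, hc⟩) : Ki) = a
    rw [LinearEquiv.symm_apply_apply, map_add, map_mul, CurveData.eA_yi, zero_mul, add_zero,
      map_one, smul_eq_mul, mul_one]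

theorem LB.eff0_rig {I : Ideal (X.R0 A)} (hI : IsEff0 I) : (LB.eff0 I hI).Rig := by
  obtain ⟨c, hc⟩ := hI.one_add_mem
  exact LB.div_rig hI.isDiv hc

end Fermat.Agent.Jac
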