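import Fermat.Agent.Jac.Fam
import Fermat.Agent.Jac.TwRig
import Fermat.Agent.Jac.EmbEff
import Fermat.Agent.Jac.FactorD

/-!
# The twists, as a term of `TwistPkg`, and the family
-/

set_option autoImplicit false

universe u

namespace Fermat.Agent.Jac

variable {k : Type u} [Field k] (X : CurveData k)

/-- the twist package -/
noncomputable def twistPkg : TwistPkg (clPkg X) where
  O A _ _ n := LB.O X A n
  m0 σ := LB.minus0 σ
  O_bc h n := LB.O_bc X h n
  m0_bc h σ := LB.minus0_bc σ h
  O_rig A _ _ n := LB.O_rig X A n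
  m0_rig _ := LB.eff0_rig _
  m0_chi P := LB.chi_minus0 P
  chi_mul _ _ _ h := ((clPkg_mul_iff (X := X)).1 h).chi_eq
  factor L := LB.exists_factor_fin L

/-- **Block FAM** -/
theorem famStmt : FamStmt X :=
  (twistPkg X).famStmt (chiBCStmt X) (LB.chi_one_base X) (LB.bc_one X _)

end Fermat.Agent.Jac
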