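import Fermat.Agent.Jac.Final0
import Fermat.Agent.Jac.GeoData
import Fermat.Agent.Jac.ClMain
import Fermat.Agent.Jac.TwPkgMain
import Fermat.Agent.Jac.TwistTerm
import Fermat.Agent.Jac.ChCov
import Fermat.Agent.Jac.CoverMain
import Fermat.Agent.Jac.RigPf
import Fermat.Agent.Jac.ChiTw

set_option autoImplicit false

/-!
# S25 for a curve with a model
-/

universe u

open CategoryTheory CategoryTheory.Limits AlgebraicGeometry AlgebraicGeometry.RelPicard
  NeronModelInfra GoodReductionJacobian TensorProduct

namespace Fermat.Agent.Jac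

variable {k : Type u} [Field k] [IsAlgClosed k] {X : CurveData k} {C : Scheme.{u}}

/-- **S25 for a curve with a model**, given the sheaf property. -/
theorem s25_of_model {c : C ⟶ Spec (CommRingCat.of k)}
    {ε : SchemeHomOver (𝟙 (Spec (CommRingCat.of k))) c} (m : Model X c ε)
    (hF : IsZarSheaf (picSub c ε (algEquivZeroCut c ε))) :
    ∃ D : RelativePic0Designation k c,
      Nonempty (RepresentsRelSubPic c ε (algEquivZeroCut c ε) D) ∧
        Smooth D.toBase ∧ IsProper D.toBase ∧ GeometricallyConnected D.toBase :=
  s25_of c ε (geoData m) hF (bcExists X) (clPkg X) (twPkg X) (twistPkg X)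
    (fun L => LB.rig_of_isLocalRing L) (LB.bc_one X _) (exists_cover_charts (clPkg X) (exists_cover X))

end Fermat.Agent.Jac
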