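import Fermat.Agent.Jac.Translate
import Fermat.Agent.Jac.CutFinal
import Fermat.Agent.Jac.Connected
import Fermat.Agent.Jac.ChartsMain
import Fermat.Agent.Jac.Fam
import Fermat.Agent.Jac.UC
import Fermat.Agent.Jac.LBCoh

set_option autoImplicit false

/-!
# S25: the assembly
-/

universe u

open CategoryTheory CategoryTheory.Limits AlgebraicGeometry AlgebraicGeometry.RelPicard
  NeronModelInfra GoodReductionJacobian TensorProduct

namespace Fermat.Agent.Jac

variable {k : Type u} [Field k] {X : CurveData k} {C : Scheme.{u}}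

/-- **Assembly of S25.** -/
theorem s25_of (c : C ⟶ Spec (CommRingCat.of k))
    (ε : SchemeHomOver (𝟙 (Spec (CommRingCat.of k))) c)
    (G : GeoData X c ε) (hF : IsZarSheaf (picSub c ε (algEquivZeroCut c ε)))
    (hbc : BCExists X) (T : ClPkg X) (W : TwPkg T) (W' : TwistPkg T)
    (hrig : ∀ {A : Type u} [CommRing A] [Algebra k A] [IsLocalRing A] (L : LB X A), L.Rig)
    (hone : ∀ {K : Type u} [Field K] [Algebra k K], LB.BC (Algebra.ofId k K) (LB.one X k)
      (LB.one X K))
    (hcov : ∃ (I : Type u) (_ : Finite I) (𝒩 : I → LB X k) (q : I → OneChart X),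
      ∀ {K : Type u} [Field K] [IsAlgClosed K] [Algebra k K] (L L' : LB X K),
        L.chi = 1 - (X.genus : ℤ) → L'.chi = 1 - (X.genus : ℤ) →
        ∃ i, (∀ N, T.Tw (𝒩 i) L N → (q i).Good N) ∧ ∀ N, T.Tw (𝒩 i) L' N → (q i).Good N) :
    ∃ D : RelativePic0Designation k c,
      Nonempty (RepresentsRelSubPic c ε (algEquivZeroCut c ε) D) ∧
        Smooth D.toBase ∧ IsProper D.toBase ∧ GeometricallyConnected D.toBase := by
  have hfam : FamStmt X := W'.famStmt (chiBCStmt X) LB.cut_chi_one_base hone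
  have hU : UCStmt X := ucStmt_of W (chiStmt X) hrig
  obtain ⟨Z⟩ := exists_chartsData T W'.chi_mul (chiBCStmt X _) hcov
  obtain ⟨D, ⟨r⟩, h1, h2⟩ := exists_smooth_proper c ε G (cutStmt G hbc hfam) hbc hF Z hU
  exact ⟨D, ⟨r⟩, h1, h2, geometricallyConnected_of_represents r⟩

end Fermat.Agent.Jac
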