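import Fermat.Agent.Jac.GeoModel
import Fermat.Agent.Jac.Stmts

/-!
# Global functions on `C × Spec A` are constant (geometric form)
-/

set_option autoImplicit false

universe u

open CategoryTheory CategoryTheory.Limits AlgebraicGeometry AlgebraicGeometry.RelPicard
  NeronModelInfra TopologicalSpace Opposite TensorProduct

namespace Fermat.Agent.Jac

variable {k : Type u} [Field k] {X : CurveData k} {C : Scheme.{u}}
  {c : C ⟶ Spec (CommRingCat.of k)} {ε : SchemeHomOver (𝟙 (Spec (CommRingCat.of k))) c}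

/-- **Functions on `C × Spec A` are functions on `Spec A`.** -/
theorem Model.surjective_snd (m : Model X c ε) (h : H0OneStmt X)
    (A : Type u) [CommRing A] [Algebra k A] :
    Function.Surjective (pf (pullback.snd c (tA k A)) ⊤) := by
  intro f
  let T := m.tc A
  have h0 : T.V0 ≤ pullback.snd c (tA k A) ⁻¹ᵁ ⊤ := fun _ _ => trivial
  have hi : T.Vi ≤ pullback.snd c (tA k A) ⁻¹ᵁ ⊤ := fun _ _ => trivial
  obtain ⟨a, ha0, hai⟩ := h (T.θ0.symm (rs h0 f)) (T.θi.symm (rs hi f)) (by
    apply T.θ.injective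
    have e0 := T.rs0 (T.θ0.symm (rs h0 f))
    have ei := T.rsi (T.θi.symm (rs hi f))
    rw [RingEquiv.apply_symm_apply, rs_rs] at e0 ei
    exact e0.symm.trans ei)
  refine ⟨(Scheme.ΓSpecIso (CommRingCat.of A)).inv.hom a, ?_⟩
  have k0 : rs h0 f = bf (pullback.snd c (tA k A)) T.V0 a := by
    have e1 : T.θ0 (algebraMap A (X.R0 A) a) = bf (pullback.snd c (tA k A)) T.V0 a := by
      refine (tensorIso_tmul c A m.aff0 m.θ0 m.bf0 a 1).trans ?_
      rw [map_one, map_one, mul_one]
      rfl
    rw [← e1, ← ha0, RingEquiv.apply_symm_apply]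
  have ki : rs hi f = bf (pullback.snd c (tA k A)) T.Vi a := by
    have e1 : T.θi (algebraMap A (X.Ri A) a) = bf (pullback.snd c (tA k A)) T.Vi a := by
      refine (tensorIso_tmul c A m.affi m.θi m.bfi a 1).trans ?_
      rw [map_one, map_one, mul_one]
      rfl
    rw [← e1, ← hai, RingEquiv.apply_symm_apply]
  refine eq_of_locallyO (fun b : Bool => cond b T.V0 T.Vi) _
    (fun b => by cases b; exacts [hi, h0]) ?_ _ _ fun b => ?_
  · intro z _
    have hz : z ∈ T.V0 ⊔ T.Vi := by rw [T.cover]; trivial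
    rw [Opens.mem_iSup]
    rcases hz with hz | hz
    · exact ⟨true, hz⟩
    · exact ⟨false, hz⟩
  · cases b
    · exact ki.symm
    · exact k0.symm

end Fermat.Agent.Jac
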