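import Fermat.Agent.Jac.Sheaf
import Fermat.Agent.Jac.GeoH
import Fermat.Agent.Jac.Basic

/-!
# The sheaf property from a model
-/

set_option autoImplicit false

universe u

open CategoryTheory CategoryTheory.Limits AlgebraicGeometry AlgebraicGeometry.RelPicard
  NeronModelInfra TopologicalSpace Opposite

namespace Fermat.Agent.Jac

variable {k : Type u} [Field k] {X : CurveData k} {C : Scheme.{u}}
  {c : C ⟶ Spec (CommRingCat.of k)} {ε : SchemeHomOver (𝟙 (Spec (CommRingCat.of k))) c}

theorem Model.isZarSheaf (m : Model X c ε) : IsZarSheaf (picSub c ε (algEquivZeroCut c ε)) :=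
  isZarSheaf_algEquivZero c ε (m.surjective_snd X.h0OneStmt)

end Fermat.Agent.Jac
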