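import Fermat.Agent.Jac.ModBasic

/-!
# Generators of invertible sheaves
-/

set_option autoImplicit false

universe u

open CategoryTheory CategoryTheory.Limits AlgebraicGeometry TopologicalSpace Opposite

namespace Fermat.Agent.Jac

variable {X Y : Scheme.{u}}

/-- `s` is a generator of `M` over `U`. -/
def IsGen (M : X.Modules) {U : X.Opens} (s : Γ(M, U)) : Prop :=
  ∀ (V : X.Opens) (h : V ≤ U), Function.Bijective (fun r : Γ(X, V) => r • res M h s)

theorem IsGen.res {M : X.Modules} {U V : X.Opens} {s : Γ(M, U)} (hs : IsGen M s) (h : V ≤ U) :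
    IsGen M (res M h s) := by
  intro W hW
  simp only [res_res]
  exact hs W (hW.trans h)

theorem IsGen.map {M N : X.Modules} (φ : M ⟶ N) [IsIso φ] {U : X.Opens} {s : Γ(M, U)}
    (hs : IsGen M s) : IsGen N (ap φ U s) := by
  intro V hV
  have : (fun r : Γ(X, V) => r • Jac.res N hV (ap φ U s)) =
      (ap φ V) ∘ (fun r : Γ(X, V) => r • Jac.res M hV s) := by
    funext r
    simp [ap_res]
  rw [this]
  exact (bijective_ap φ V).comp (hs V hV)

theorem IsGen.exists_smul {M : X.Modules} {U V : X.Opens} {s : Γ(M, U)} (hs : IsGen M s)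
    (h : V ≤ U) (m : Γ(M, V)) : ∃ r : Γ(X, V), m = r • Jac.res M h s :=
  ((hs V h).2 m).imp fun _ h => h.symm

theorem IsGen.smul_inj {M : X.Modules} {U V : X.Opens} {s : Γ(M, U)} (hs : IsGen M s)
    (h : V ≤ U) {r r' : Γ(X, V)} (e : r • Jac.res M h s = r' • Jac.res M h s) : r = r' :=
  (hs V h).1 e

theorem IsGen.smul_unit {M : X.Modules} {U : X.Opens} {s : Γ(M, U)} (hs : IsGen M s)
    {a : Γ(X, U)} (ha : IsUnit a) : IsGen M (a • s) := by
  intro V hV
  have hu : IsUnit (rs hV a) := ha.map _
  have : (fun r : Γ(X, V) => r • Jac.res M hV (a • s)) =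
      (fun r : Γ(X, V) => r • Jac.res M hV s) ∘ (fun r => r * rs hV a) := by
    funext r
    simp [mul_smul]
  rw [this]
  refine (hs V hV).comp ?_
  obtain ⟨u, hu⟩ := hu
  rw [← hu]
  exact u.mulRight_bijective

/-- comparison of two generators -/
theorem IsGen.exists_unit {M : X.Modules} {U : X.Opens} {s t : Γ(M, U)} (hs : IsGen M s)
    (ht : IsGen M t) : ∃ a : Γ(X, U), IsUnit a ∧ t = a • s := by
  obtain ⟨a, ha⟩ := hs.exists_smul le_rfl t
  obtain ⟨b, hb⟩ := ht.exists_smul le_rfl s
  rw [res_refl] at ha hb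
  refine ⟨a, IsUnit.of_mul_eq_one b ?_, ha⟩
  apply ht.smul_inj le_rfl
  rw [res_refl, mul_smul, one_smul, ← hb, ← ha]

/-- the structure sheaf as a sheaf of modules -/
noncomputable abbrev unitMod (X : Scheme.{u}) : X.Modules := SheafOfModules.unit X.ringCatSheaf

theorem isGen_one (U : X.Opens) : IsGen (unitMod X) (U := U) (show Γ(X, U) from 1) := by
  intro V hV
  have : ∀ r : Γ(X, V), (r • res (unitMod X) hV (show Γ(X, U) from 1) : Γ(unitMod X, V)) =
      (show Γ(X, V) from r) := by
    intro r
    have h1 : (res (unitMod X) hV (show Γ(X, U) from 1) : Γ(unitMod X, V)) =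
      (show Γ(X, V) from 1) := map_one (X.presheaf.map (homOfLE hV).op).hom
    rw [h1]
    exact mul_one (show Γ(X, V) from r)
  constructor
  · intro r r' h
    simp only [this] at h
    exact h
  · intro r
    exact ⟨r, this r⟩

/-- a generator gives an isomorphism with the structure sheaf -/
theorem exists_iso_unit {M : X.Modules} {s : Γ(M, ⊤)} (hs : IsGen M s) :
    ∃ φ : unitMod X ≅ M, ∀ (U : X.Opens) (r : Γ(X, U)), ap φ.hom U r = r • res M le_top s := by
  obtain ⟨ψ, hψ⟩ := exists_hom (M := unitMod X) (N := M)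
    (fun U => { toFun := fun r : Γ(X, U) => r • res M le_top s
                map_zero' := zero_smul _ _
                map_add' := fun r r' => add_smul _ _ _ })
    (fun U r m => mul_smul r (show Γ(X, U) from m) _)
    (fun U V h m => by
      have := res_smul M h (show Γ(X, U) from m) (res M le_top s)
      rw [res_res] at this
      exact this.symm)
  haveI : IsIso ψ := isIso_of_bijective ψ fun U => by
    have : (ap ψ U : Γ(unitMod X, U) → Γ(M, U)) = fun r : Γ(X, U) => r • res M le_top s :=
      funext (hψ U)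
    rw [this]
    exact hs U le_top
  exact ⟨asIso ψ, hψ⟩

end Fermat.Agent.Jac
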