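import Fermat.Agent.Jac.AffMod2

/-!
# Algebraic lemmas on invertible modules for the dictionary
-/

set_option autoImplicit false

open TensorProduct

namespace Fermat.Agent.Jac

section

variable {R M : Type*} [CommRing R] [AddCommGroup M] [Module R M]

/-- rank one property of linear forms on an invertible module -/
theorem forms_comm [Module.Invertible R M] (φ : Module.Dual R M) (m n : M) :
    φ m • n = φ n • m := by
  let β : M ⊗[R] M →ₗ[R] M := TensorProduct.lift ((LinearMap.lsmul R M).comp φ)
  have h := congrArg β (Module.Invertible.tmul_comm (R := R) (m₁ := m) (m₂ := n))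
  exact h

/-- a finite family of linear forms and elements with sum of values one -/
theorem exists_forms (R M : Type*) [CommRing R] [AddCommGroup M] [Module R M]
    [Module.Invertible R M] : ∃ (n : ℕ) (φ : Fin n → Module.Dual R M) (m : Fin n → M),
      ∑ i, φ i (m i) = 1 := by
  obtain ⟨z, hz⟩ := (Module.Invertible.bijective (R := R) (M := M)).2 1
  obtain ⟨S, hS⟩ := z.exists_finset
  rw [hS, map_sum] at hz
  refine ⟨S.card, fun i => (S.equivFin.symm i).1.1, fun i => (S.equivFin.symm i).1.2, ?_⟩
  rw [← hz, ← Finset.sum_coe_sort S]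
  exact Fintype.sum_equiv S.equivFin.symm _ _ fun i => rfl

theorem eq_sum_forms [Module.Invertible R M] {n : ℕ} {φ : Fin n → Module.Dual R M}
    {m : Fin n → M} (h : ∑ i, φ i (m i) = 1) (x : M) : x = ∑ i, φ i x • m i := by
  conv_lhs => rw [← one_smul R x, ← h, Finset.sum_smul]
  exact Finset.sum_congr rfl fun i _ => forms_comm (φ i) (m i) x

/-- non-zero-divisors act injectively on invertible modules -/
theorem eq_zero_of_regular_smul [Module.Invertible R M] {r : R} (hr : ∀ a, r * a = 0 → a = 0)
    {x : M} (h : r • x = 0) : x = 0 := by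
  obtain ⟨n, φ, m, hφ⟩ := exists_forms R M
  rw [eq_sum_forms hφ x]
  refine Finset.sum_eq_zero fun i _ => ?_
  rw [hr (φ i x) (by rw [← smul_eq_mul, ← map_smul, h, map_zero]), zero_smul]

/-- transport of invertibility along a semilinear isomorphism -/
theorem invertible_of_semilinear {S N : Type*} [CommRing S] [AddCommGroup N] [Module S N]
    [Module.Invertible R M] (σ : R ≃+* S) (e : M ≃+ N) (he : ∀ (r : R) (m : M),
      e (r • m) = σ r • e m) : Module.Invertible S N := by
  obtain ⟨n, φ, m, hφ⟩ := exists_forms R M
  have he' : ∀ (s : S) (x : N), e.symm (s • x) = σ.symm s • e.symm x := fun s x => by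
    apply e.injective
    rw [he]
    simp
  refine invertible_of_forms (fun i : Fin n =>
    { toFun := fun x => σ (φ i (e.symm x))
      map_add' := fun x y => by simp
      map_smul' := fun s x => by simp [he'] }) ?_ fun i x y => ?_
  · rw [Ideal.eq_top_iff_one]
    have h1 : (1 : S) = ∑ i, σ (φ i (e.symm (e (m i)))) := by
      simp only [AddEquiv.symm_apply_apply]
      rw [← map_sum, hφ, map_one]
    rw [h1]
    exact Ideal.sum_mem _ fun i _ => Ideal.subset_span ⟨i, e (m i), rfl⟩
  · change σ (φ i (e.symm x)) • y = σ (φ i (e.symm y)) • x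
    have h := congrArg e (forms_comm (φ i) (e.symm x) (e.symm y))
    rwa [he, he, AddEquiv.apply_symm_apply, AddEquiv.apply_symm_apply] at h

/-- a surjective semilinear map between invertible modules is bijective -/
theorem bijective_of_semilinear {S N : Type*} [CommRing S] [AddCommGroup N] [Module S N]
    [Module.Invertible R M] [Module.Invertible S N] (σ : R ≃+* S) (e : M →+ N)
    (he : ∀ (r : R) (m : M), e (r • m) = σ r • e m) (hs : Function.Surjective e) :
    Function.Bijective e := by
  refine ⟨?_, hs⟩
  rw [injective_iff_map_eq_zero]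
  intro x hx
  obtain ⟨n, φ, m, hφ⟩ := exists_forms R M
  obtain ⟨n', ψ, m', hψ⟩ := exists_forms S N
  choose p hp using fun j => hs (m' j)
  -- `x = ∑ φ i x • m i`; show that `φ x = 0` for all forms
  have key : ∀ (i : Fin n) (j : Fin n'), σ (φ i x) * ψ j (m' j) = 0 := by
    intro i j
    have h1 := congrArg e (forms_comm (φ i) x (p j))
    rw [he, he, hx, smul_zero, hp] at h1
    rw [← smul_eq_mul, ← map_smul, h1, map_zero]
  rw [eq_sum_forms hφ x]
  refine Finset.sum_eq_zero fun i _ => ?_
  have h2 : σ (φ i x) = 0 := by
    rw [← mul_one (σ (φ i x)), ← hψ, Finset.mul_sum]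
    exact Finset.sum_eq_zero fun j _ => key i j
  have h3 : φ i x = 0 := σ.injective (by rw [h2, map_zero])
  rw [h3, zero_smul]

end

end Fermat.Agent.Jac
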