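import Fermat.Agent.Jac.AffMod
import Mathlib.RingTheory.PicardGroup

/-!
# Dual frames of invertible modules, and recognition of the sections over an affine open
-/

set_option autoImplicit false

universe u

open CategoryTheory CategoryTheory.Limits AlgebraicGeometry TopologicalSpace Opposite
open TensorProduct

namespace Fermat.Agent.Jac

/-- the exchange identity on an invertible module -/
theorem inv_exchange {S N : Type*} [CommRing S] [AddCommGroup N] [Module S N]
    [Module.Invertible S N] (φ : N →ₗ[S] S) (m n : N) : φ m • n = φ n • m := by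
  have h := congrArg (TensorProduct.lift ((LinearMap.lsmul S N).comp φ))
    (Module.Invertible.tmul_comm (R := S) (m₁ := m) (m₂ := n))
  simpa using h

/-- an invertible module has a finite dual frame -/
theorem inv_exists_frame (S N : Type u) [CommRing S] [AddCommGroup N] [Module S N]
    [Module.Invertible S N] : ∃ (J : Type u) (_ : Fintype J) (n : J → N) (φ : J → N →ₗ[S] S),
      ∑ i, φ i (n i) = 1 := by
  classical
  obtain ⟨s, hs⟩ := TensorProduct.exists_finset ((Module.Invertible.linearEquiv S N).symm 1)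
  refine ⟨s, inferInstance, fun i => (i : Module.Dual S N × N).2,
    fun i => (i : Module.Dual S N × N).1, ?_⟩
  rw [LinearEquiv.symm_apply_eq] at hs
  rw [Finset.sum_coe_sort s (fun z : Module.Dual S N × N => z.1 z.2), hs, map_sum]
  refine Finset.sum_congr rfl fun z _ => ?_
  simp [Module.Invertible.linearEquiv]

/-- extension of a functional from a lattice -/
theorem exists_ext {R0 R M : Type*} [CommRing R0] [CommRing R] [Algebra R0 R] [AddCommGroup M]
    [Module R M] [Module R0 M] [IsScalarTower R0 R M] (M0 : Submodule R0 M) (x : R0) (y : R)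
    (hxy : algebraMap R0 R x * y = 1)
    (hloc : ∀ r : R, ∃ (n : ℕ) (r0 : R0), algebraMap R0 R x ^ n * r = algebraMap R0 R r0)
    (hM : ∀ m : M, ∃ n : ℕ, algebraMap R0 R x ^ n • m ∈ M0) (l : M0 →ₗ[R0] R0)
    (hex : ∀ m m' : M0, l m • m' = l m' • m) :
    ∃ Φ : M →ₗ[R] R, (∀ m : M0, Φ m = algebraMap R0 R (l m)) ∧
      ∀ m m' : M, Φ m • m' = Φ m' • m := by
  choose N hN using hM
  have hs : ∀ (r : R0) (m : M), r • m = algebraMap R0 R r • m := fun r m =>
    (algebraMap_smul R r m).symm
  have hx1 : ∀ n : ℕ, y ^ n * algebraMap R0 R x ^ n = 1 := fun n => by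
    rw [← mul_pow, mul_comm y, hxy, one_pow]
  let f : M → R := fun m => y ^ N m * algebraMap R0 R (l ⟨_, hN m⟩)
  have hf : ∀ (m : M) (n : ℕ) (h : algebraMap R0 R x ^ n • m ∈ M0),
      f m = y ^ n * algebraMap R0 R (l ⟨_, h⟩) := by
    intro m n h
    have e1 : x ^ N m • (⟨_, h⟩ : M0) = x ^ n • (⟨_, hN m⟩ : M0) := by
      apply Subtype.ext
      simp only [Submodule.coe_smul, hs, map_pow]
      rw [smul_smul, smul_smul, mul_comm]
    have e2 := congrArg (fun z => algebraMap R0 R (l z)) e1
    simp only [map_smul, smul_eq_mul, map_mul, map_pow] at e2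
    calc f m = y ^ N m * algebraMap R0 R (l ⟨_, hN m⟩) * (y ^ n * algebraMap R0 R x ^ n) := by
          rw [hx1, mul_one]
      _ = y ^ N m * y ^ n * (algebraMap R0 R x ^ n * algebraMap R0 R (l ⟨_, hN m⟩)) := by ring
      _ = (y ^ N m * algebraMap R0 R x ^ N m) * (y ^ n * algebraMap R0 R (l ⟨_, h⟩)) := by
          rw [← e2]; ring
      _ = _ := by rw [hx1, one_mul]
  have hmem : ∀ (m : M) (n : ℕ), N m ≤ n → algebraMap R0 R x ^ n • m ∈ M0 := by
    intro m n hn
    have : algebraMap R0 R x ^ n • m = x ^ (n - N m) • (algebraMap R0 R x ^ N m • m) := by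
      rw [hs, smul_smul, map_pow, ← pow_add, Nat.sub_add_cancel hn]
    rw [this]
    exact M0.smul_mem _ (hN m)
  let Φ : M →ₗ[R] R :=
    { toFun := f
      map_add' := fun m m' => by
        have h1 := hmem m (N m + N m') (Nat.le_add_right _ _)
        have h2 := hmem m' (N m + N m') (Nat.le_add_left _ _)
        have h3 : algebraMap R0 R x ^ (N m + N m') • (m + m') ∈ M0 := by
          rw [smul_add]; exact M0.add_mem h1 h2
        rw [hf m _ h1, hf m' _ h2, hf (m + m') _ h3, ← mul_add, ← map_add, ← map_add]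
        congr 3
        apply Subtype.ext
        exact smul_add _ _ _
      map_smul' := fun r m => by
        obtain ⟨n, r0, hr⟩ := hloc r
        have e1 : algebraMap R0 R x ^ (n + N m) • (r • m) =
            r0 • (algebraMap R0 R x ^ N m • m) := by
          rw [hs, ← hr, smul_smul, smul_smul, pow_add]
          congr 1
          ring
        have h3 : algebraMap R0 R x ^ (n + N m) • (r • m) ∈ M0 := by
          rw [e1]; exact M0.smul_mem _ (hN m)
        have e2 : (⟨_, h3⟩ : M0) = r0 • (⟨_, hN m⟩ : M0) := Subtype.ext e1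
        rw [hf (r • m) _ h3, e2, map_smul, smul_eq_mul, map_mul, ← hr, RingHom.id_apply,
          smul_eq_mul]
        change _ = r * (y ^ N m * algebraMap R0 R (l ⟨_, hN m⟩))
        calc y ^ (n + N m) * (algebraMap R0 R x ^ n * r * algebraMap R0 R (l ⟨_, hN m⟩))
            = (y ^ n * algebraMap R0 R x ^ n) *
              (r * (y ^ N m * algebraMap R0 R (l ⟨_, hN m⟩))) := by ring
          _ = _ := by rw [hx1, one_mul] }
  have h0 : ∀ m : M0, Φ m = algebraMap R0 R (l m) := by
    intro m
    have h1 : algebraMap R0 R x ^ 0 • (m : M) ∈ M0 := by rw [pow_zero, one_smul]; exact m.2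
    change f m = _
    rw [hf m 0 h1, pow_zero, one_mul]
    congr 2
    apply Subtype.ext
    simp
  refine ⟨Φ, h0, fun m m' => ?_⟩
  have e1 := congrArg (fun z : M0 => (z : M)) (hex ⟨_, hN m⟩ ⟨_, hN m'⟩)
  simp only [Submodule.coe_smul, hs] at e1
  rw [← h0, ← h0, map_smul, map_smul, smul_eq_mul, smul_eq_mul, smul_smul, smul_smul] at e1
  have e2 := congrArg (fun z => (y ^ N m * y ^ N m') • z) e1
  simp only [smul_smul] at e2
  have e3 : y ^ N m * y ^ N m' * (algebraMap R0 R x ^ N m * Φ m * algebraMap R0 R x ^ N m') =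
      Φ m := by
    calc _ = (y ^ N m * algebraMap R0 R x ^ N m) * (y ^ N m' * algebraMap R0 R x ^ N m') *
          Φ m := by ring
      _ = _ := by rw [hx1, hx1, one_mul, one_mul]
  have e4 : y ^ N m * y ^ N m' * (algebraMap R0 R x ^ N m' * Φ m' * algebraMap R0 R x ^ N m) =
      Φ m' := by
    calc _ = (y ^ N m * algebraMap R0 R x ^ N m) * (y ^ N m' * algebraMap R0 R x ^ N m') *
          Φ m' := by ring
      _ = _ := by rw [hx1, hx1, one_mul, one_mul]
  rwa [e3, e4] at e2

section Frame

variable {Z : Scheme.{u}} {L : Z.Modules} {O : Z.Opens} (hO : IsAffineOpen O)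
  {S N : Type*} [CommRing S] [AddCommGroup N] [Module S N] (θ : S ≃+* Γ(Z, O))
  (σ : N →+ Γ(L, O)) (hσ : ∀ (s : S) (n : N), σ (s • n) = θ s • σ n)
  {J : Type*} [Fintype J] (n : J → N) (l : J → N →ₗ[S] S) (h1 : ∑ j, l j (n j) = 1)
  (hex : ∀ j (m m' : N), l j m • m' = l j m' • m)
  (hgen : ∀ j, IsGen L (res L (Z.basicOpen_le (θ (l j (n j)))) (σ (n j))))

include hO hσ h1 hex hgen

theorem frame_injective : Function.Injective σ := by
  rw [injective_iff_map_eq_zero]
  intro m hm
  let I : Ideal S := LinearMap.ker (LinearMap.toSpanSingleton S N m)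
  have hI : ∀ s, s ∈ I ↔ s • m = 0 := fun s => by
    simp [I, LinearMap.mem_ker]
  have h2 : ∀ j, l j (n j) ∈ I.radical := by
    intro j
    have e1 : θ (l j m) • σ (n j) = 0 := by
      rw [← hσ, ← hex, hσ, hm, smul_zero]
    have e2 : rs (Z.basicOpen_le (θ (l j (n j)))) (θ (l j m)) = 0 := by
      apply (hgen j).smul_inj le_rfl
      rw [res_refl, ← res_smul, e1, map_zero, zero_smul]
    obtain ⟨k, hk⟩ := exists_pow_mul_eq_zero hO _ _ e2
    have e3 : l j (n j) ^ k * l j m = 0 := by
      apply θ.injective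
      rw [map_mul, map_pow, hk, map_zero]
    refine ⟨k + 1, (hI _).2 ?_⟩
    rw [pow_succ, mul_smul, hex, smul_smul, e3, zero_smul]
  have h3 : I.radical = ⊤ := by
    rw [Ideal.eq_top_iff_one, ← h1]
    exact Ideal.sum_mem _ fun j _ => h2 j
  rw [Ideal.radical_eq_top] at h3
  have h4 := (hI 1).1 (h3 ▸ Submodule.mem_top)
  rwa [one_smul] at h4

theorem frame_surjective : Function.Surjective σ := by
  intro s
  have hcov : O ≤ ⨆ j, Z.basicOpen (θ (l j (n j))) := by
    refine le_iSup_basicOpen hO _ ?_
    rw [Ideal.eq_top_iff_one, ← map_one θ, ← h1, map_sum]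
    exact Ideal.sum_mem _ fun j _ => Ideal.subset_span ⟨j, rfl⟩
  have hr : ∀ j, ∃ r : Γ(Z, Z.basicOpen (θ (l j (n j)))),
      res L (Z.basicOpen_le _) s = r • res L (Z.basicOpen_le (θ (l j (n j)))) (σ (n j)) := by
    intro j
    obtain ⟨r, hr⟩ := (hgen j).exists_smul le_rfl (res L (Z.basicOpen_le _) s)
    rw [res_refl] at hr
    exact ⟨r, hr⟩
  choose r hr using hr
  -- the functions `l j (s)`
  have hF : ∀ j, ∃ F : Γ(Z, O), ∀ i, rs (Z.basicOpen_le (θ (l i (n i)))) F =
      rs (Z.basicOpen_le _) (θ (l j (n i))) * r i := by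
    intro j
    obtain ⟨F, hF, -⟩ := existsUnique_glueO (fun i => Z.basicOpen (θ (l i (n i)))) O
      (fun i => Z.basicOpen_le _) hcov
      (fun i => rs (Z.basicOpen_le _) (θ (l j (n i))) * r i) (by
        intro a b
        have hA : Z.basicOpen (θ (l a (n a))) ⊓ Z.basicOpen (θ (l b (n b))) ≤
          Z.basicOpen (θ (l a (n a))) := inf_le_left
        have hB : Z.basicOpen (θ (l a (n a))) ⊓ Z.basicOpen (θ (l b (n b))) ≤
          Z.basicOpen (θ (l b (n b))) := inf_le_right
        have hWa : Z.basicOpen (θ (l a (n a))) ⊓ Z.basicOpen (θ (l b (n b))) ≤ O :=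
          hA.trans (Z.basicOpen_le _)
        have hra : res L hWa s = rs hA (r a) • res L hWa (σ (n a)) := by
          have := congrArg (res L hA) (hr a)
          rwa [res_smul, res_res, res_res] at this
        have hrb : res L hWa s = rs hB (r b) • res L hWa (σ (n b)) := by
          have := congrArg (res L hB) (hr b)
          rwa [res_smul, res_res, res_res] at this
        have hab : rs hWa (θ (l a (n a))) • res L hWa (σ (n b)) =
            rs hWa (θ (l a (n b))) • res L hWa (σ (n a)) := by
          rw [← res_smul, ← res_smul, ← hσ, ← hσ, hex]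
        have hga : IsGen L (res L hWa (σ (n a))) := by
          have := (hgen a).res hA
          rwa [res_res] at this
        have h5 : rs hWa (θ (l a (n a))) * rs hA (r a) =
            rs hB (r b) * rs hWa (θ (l a (n b))) := by
          apply hga.smul_inj le_rfl
          rw [res_refl, mul_smul, ← hra, hrb, smul_comm, hab, mul_smul]
        have hu : IsUnit (rs hWa (θ (l a (n a)))) := by
          have h6 : IsUnit (rs (Z.basicOpen_le (θ (l a (n a)))) (θ (l a (n a)))) :=
            Z.toRingedSpace.isUnit_res_basicOpen _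
          have h7 := h6.map (rs hA)
          rwa [rs_rs] at h7
        apply hu.mul_left_cancel
        change _ * rs hA (rs (Z.basicOpen_le _) (θ (l j (n a))) * r a) =
          _ * rs hB (rs (Z.basicOpen_le _) (θ (l j (n b))) * r b)
        rw [map_mul, map_mul, rs_rs, rs_rs]
        have h8 : l j (n a) * l a (n b) = l a (n a) * l j (n b) := by
          have h9 := congrArg (l j) (hex a (n b) (n a))
          rw [map_smul, map_smul, smul_eq_mul, smul_eq_mul] at h9
          rw [mul_comm, h9]
        have h10 := congrArg (fun z => rs hWa (θ z)) h8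
        simp only [map_mul] at h10
        calc rs hWa (θ (l a (n a))) * (rs hWa (θ (l j (n a))) * rs hA (r a))
            = rs hWa (θ (l j (n a))) * (rs hWa (θ (l a (n a))) * rs hA (r a)) := by ring
          _ = rs hB (r b) * (rs hWa (θ (l j (n a))) * rs hWa (θ (l a (n b)))) := by
              rw [h5]; ring
          _ = rs hWa (θ (l a (n a))) * (rs hWa (θ (l j (n b))) * rs hB (r b)) := by
              rw [h10]; ring)
    exact ⟨F, hF⟩
  choose F hF using hF
  refine ⟨∑ j, θ.symm (F j) • n j, ?_⟩
  refine eq_of_locally L (fun i => Z.basicOpen (θ (l i (n i)))) O (fun i => Z.basicOpen_le _) hcov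
    _ _ fun i => ?_
  have h6 : σ (∑ j, θ.symm (F j) • n j) = ∑ j, F j • σ (n j) := by
    rw [map_sum]
    exact Finset.sum_congr rfl fun j _ => by rw [hσ, RingEquiv.apply_symm_apply]
  have h7 : (∑ j, l j (n i) • n j) = n i := by
    calc (∑ j, l j (n i) • n j) = ∑ j, l j (n j) • n i :=
          Finset.sum_congr rfl fun j _ => hex j _ _
      _ = n i := by rw [← Finset.sum_smul, h1, one_smul]
  have h8 := congrArg (fun z => res L (Z.basicOpen_le (θ (l i (n i)))) (σ z)) h7
  simp only [map_sum, hσ, res_smul] at h8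
  rw [h6, map_sum, hr i, ← h8, Finset.smul_sum]
  refine Finset.sum_congr rfl fun j _ => ?_
  rw [res_smul, hF, ← mul_smul, mul_comm]

theorem frame_bijective : Function.Bijective σ :=
  ⟨frame_injective hO θ σ hσ n l h1 hex hgen, frame_surjective hO θ σ hσ n l h1 hex hgen⟩

end Frame

end Fermat.Agent.Jac
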