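import Fermat.Agent.Jac.GeoRep

/-!
# Homomorphisms of invertible modules on a two-chart scheme
-/

set_option autoImplicit false

universe u

open CategoryTheory CategoryTheory.Limits AlgebraicGeometry TopologicalSpace Opposite

namespace Fermat.Agent.Jac

section

variable {Z : Scheme.{u}} {L L' : Z.Modules}

/-- relations over a principal open of an affine open `P` are preserved -/
theorem rel_transfer (hL : L.IsInvertible) {P : Z.Opens} (hP : IsAffineOpen P)
    (F : Γ(L, P) →+ Γ(L', P)) (hF : ∀ (r : Γ(Z, P)) m, F (r • m) = r • F m)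
    {U₁ U₂ : Z.Opens} {s₁ : Γ(L, U₁)} {s₂ : Γ(L, U₂)} {n₁ : Γ(L', U₁)} {n₂ : Γ(L', U₂)}
    (hs₁ : IsGen L s₁) (a b : Γ(L, P)) (f : Γ(Z, P)) (hW : Z.basicOpen f = U₁ ⊓ U₂)
    (h : U₁ ⊓ U₂ ≤ P) (ha : res L h a = res L inf_le_left s₁)
    (hb : res L h b = res L inf_le_right s₂) (ha' : res L' h (F a) = res L' inf_le_left n₁)
    (hb' : res L' h (F b) = res L' inf_le_right n₂)
    (W : Z.Opens) (h₁ : W ≤ U₁) (h₂ : W ≤ U₂) (r : Γ(Z, W))
    (hr : res L h₂ s₂ = r • res L h₁ s₁) : res L' h₂ n₂ = r • res L' h₁ n₁ := by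
  obtain ⟨r₀, hr₀⟩ := hs₁.exists_smul inf_le_left (res L (inf_le_right : U₁ ⊓ U₂ ≤ U₂) s₂)
  have key : ∀ (W' : Z.Opens) (_ : Z.basicOpen f = W') (h' : W' ≤ P) (r' : Γ(Z, W')),
      res L h' b = r' • res L h' a → res L' h' (F b) = r' • res L' h' (F a) := by
    intro W' hW' h' r' hr'
    subst hW'
    exact lin_of_rel hL hP F hF f a b r' hr'
  have h1 := key (U₁ ⊓ U₂) hW h r₀ (by rw [ha, hb, hr₀])
  rw [ha', hb'] at h1
  have hW' : W ≤ U₁ ⊓ U₂ := le_inf h₁ h₂
  have h2 : r = rs hW' r₀ := by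
    apply hs₁.smul_inj h₁
    rw [← hr]
    have := congrArg (res L hW') hr₀
    rwa [res_smul, res_res, res_res] at this
  have h3 := congrArg (res L' hW') h1
  rw [res_smul, res_res, res_res, ← h2] at h3
  exact h3

end

variable {k : Type u} [Field k]

variable {X : CurveData k} {A : Type u} [CommRing A] [Algebra k A] {Z : Scheme.{u}}

/-- **homomorphisms of invertible modules from compatible linear maps on the charts** -/
theorem exists_hom_of_charts (T : TC X A Z) {L L' : Z.Modules} (hL : L.IsInvertible)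
    (f0 : Γ(L, T.V0) →+ Γ(L', T.V0)) (fi : Γ(L, T.Vi) →+ Γ(L', T.Vi))
    (f : Γ(L, T.V0 ⊓ T.Vi) →+ Γ(L', T.V0 ⊓ T.Vi))
    (h0 : ∀ (r : Γ(Z, T.V0)) m, f0 (r • m) = r • f0 m)
    (hi : ∀ (r : Γ(Z, T.Vi)) m, fi (r • m) = r • fi m)
    (h : ∀ (r : Γ(Z, T.V0 ⊓ T.Vi)) m, f (r • m) = r • f m)
    (c0 : ∀ m, f (res L inf_le_left m) = res L' inf_le_left (f0 m))
    (ci : ∀ m, f (res L inf_le_right m) = res L' inf_le_right (fi m)) :
    ∃ F : L ⟶ L', ap F T.V0 = f0 ∧ ap F T.Vi = fi := by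
  obtain ⟨n, g, τ, hτ, hg⟩ := exists_global_gen hL T.aff0
  obtain ⟨n', g', τ', hτ', hg'⟩ := exists_global_gen hL T.affi
  let U : Fin n ⊕ Fin n' → Z.Opens := Sum.elim (fun i => Z.basicOpen (g i))
    (fun j => Z.basicOpen (g' j))
  have hle0 : ∀ i, Z.basicOpen (g i) ≤ T.V0 := fun i => Z.basicOpen_le _
  have hlei : ∀ j, Z.basicOpen (g' j) ≤ T.Vi := fun j => Z.basicOpen_le _
  let s : ∀ i, Γ(L, U i) := fun i => match i with
    | .inl i => res L (hle0 i) (τ i)
    | .inr j => res L (hlei j) (τ' j)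
  let ν : ∀ i, Γ(L', U i) := fun i => match i with
    | .inl i => res L' (hle0 i) (f0 (τ i))
    | .inr j => res L' (hlei j) (fi (τ' j))
  have hU : ⨆ i, U i = ⊤ := by
    rw [eq_top_iff, ← T.cover]
    refine sup_le ((le_iSup_basicOpen T.aff0 g hg).trans (iSup_le fun i => ?_))
      ((le_iSup_basicOpen T.affi g' hg').trans (iSup_le fun j => ?_))
    · exact le_iSup U (Sum.inl i)
    · exact le_iSup U (Sum.inr j)
  have hs : ∀ i, IsGen L (s i) := by
    rintro (i | j)
    · exact hτ i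
    · exact hτ' j
  have hc : Compat s ν := by
    rintro (i | i) (j | j) W hWi hWj r hr
    · exact rel_transfer (U₁ := Z.basicOpen (g i)) (U₂ := Z.basicOpen (g j))
        (s₁ := res L (hle0 i) (τ i)) (s₂ := res L (hle0 j) (τ j))
        (n₁ := res L' (hle0 i) (f0 (τ i))) (n₂ := res L' (hle0 j) (f0 (τ j)))
        hL T.aff0 f0 h0 (hτ i) (τ i) (τ j) (g i * g j)
        (Z.basicOpen_mul _ _) (inf_le_left.trans (hle0 i)) (res_res _ _ _ _).symm
        (res_res _ _ _ _).symm (res_res _ _ _ _).symm (res_res _ _ _ _).symm W hWi hWj r hr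
    · have hV : Z.basicOpen (g i) ⊓ Z.basicOpen (g' j) ≤ T.V0 ⊓ T.Vi :=
        inf_le_inf (hle0 i) (hlei j)
      refine rel_transfer (U₁ := Z.basicOpen (g i)) (U₂ := Z.basicOpen (g' j))
        (s₁ := res L (hle0 i) (τ i)) (s₂ := res L (hlei j) (τ' j))
        (n₁ := res L' (hle0 i) (f0 (τ i))) (n₂ := res L' (hlei j) (fi (τ' j)))
        hL T.aff f h (hτ i) (res L inf_le_left (τ i))
        (res L inf_le_right (τ' j)) (rs inf_le_left (g i) * rs inf_le_right (g' j))
        ?_ hV ?_ ?_ ?_ ?_ W hWi hWj r hr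
      · rw [Z.basicOpen_mul, basicOpen_rs, basicOpen_rs]
        refine le_antisymm (inf_le_inf inf_le_right inf_le_right) (le_inf (le_inf hV inf_le_left)
          (le_inf hV inf_le_right))
      · rw [res_res, res_res]
      · rw [res_res, res_res]
      · rw [c0, res_res, res_res]
      · rw [ci, res_res, res_res]
    · have hV : Z.basicOpen (g' i) ⊓ Z.basicOpen (g j) ≤ T.V0 ⊓ T.Vi :=
        le_inf (inf_le_right.trans (hle0 j)) (inf_le_left.trans (hlei i))
      refine rel_transfer (U₁ := Z.basicOpen (g' i)) (U₂ := Z.basicOpen (g j))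
        (s₁ := res L (hlei i) (τ' i)) (s₂ := res L (hle0 j) (τ j))
        (n₁ := res L' (hlei i) (fi (τ' i))) (n₂ := res L' (hle0 j) (f0 (τ j)))
        hL T.aff f h (hτ' i) (res L inf_le_right (τ' i))
        (res L inf_le_left (τ j)) (rs inf_le_right (g' i) * rs inf_le_left (g j))
        ?_ hV ?_ ?_ ?_ ?_ W hWi hWj r hr
      · rw [Z.basicOpen_mul, basicOpen_rs, basicOpen_rs]
        refine le_antisymm (inf_le_inf inf_le_right inf_le_right) (le_inf (le_inf hV inf_le_left)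
          (le_inf hV inf_le_right))
      · rw [res_res, res_res]
      · rw [res_res, res_res]
      · rw [ci, res_res, res_res]
      · rw [c0, res_res, res_res]
    · exact rel_transfer (U₁ := Z.basicOpen (g' i)) (U₂ := Z.basicOpen (g' j))
        (s₁ := res L (hlei i) (τ' i)) (s₂ := res L (hlei j) (τ' j))
        (n₁ := res L' (hlei i) (fi (τ' i))) (n₂ := res L' (hlei j) (fi (τ' j)))
        hL T.affi fi hi (hτ' i) (τ' i) (τ' j) (g' i * g' j)
        (Z.basicOpen_mul _ _) (inf_le_left.trans (hlei i)) (res_res _ _ _ _).symm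
        (res_res _ _ _ _).symm (res_res _ _ _ _).symm (res_res _ _ _ _).symm W hWi hWj r hr
  obtain ⟨F, hF⟩ := exists_hom_of_gen hU hs hc
  refine ⟨F, ?_, ?_⟩
  · ext m
    refine eq_of_principal T.aff0 g hg fun j => ?_
    obtain ⟨r, hr⟩ := (hτ j).exists_smul le_rfl (res L (hle0 j) m)
    rw [res_refl] at hr
    rw [lin_of_rel hL T.aff0 f0 h0 (g j) (τ j) m r hr, ← ap_res, hr, ap_smul]
    exact congrArg (r • ·) (hF (Sum.inl j))
  · ext m
    refine eq_of_principal T.affi g' hg' fun j => ?_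
    obtain ⟨r, hr⟩ := (hτ' j).exists_smul le_rfl (res L (hlei j) m)
    rw [res_refl] at hr
    rw [lin_of_rel hL T.affi fi hi (g' j) (τ' j) m r hr, ← ap_res, hr, ap_smul]
    exact congrArg (r • ·) (hF (Sum.inr j))

/-- homomorphisms are determined by their effect on the sections over the charts -/
theorem hom_ext_charts (T : TC X A Z) {L L' : Z.Modules} (hL : L.IsInvertible) {F G : L ⟶ L'}
    (h0 : ap F T.V0 = ap G T.V0) (hi : ap F T.Vi = ap G T.Vi) : F = G := by
  obtain ⟨n, g, τ, hτ, hg⟩ := exists_global_gen hL T.aff0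
  obtain ⟨n', g', τ', hτ', hg'⟩ := exists_global_gen hL T.affi
  let U : Fin n ⊕ Fin n' → Z.Opens := Sum.elim (fun i => Z.basicOpen (g i))
    (fun j => Z.basicOpen (g' j))
  have hle0 : ∀ i, Z.basicOpen (g i) ≤ T.V0 := fun i => Z.basicOpen_le _
  have hlei : ∀ j, Z.basicOpen (g' j) ≤ T.Vi := fun j => Z.basicOpen_le _
  let s : ∀ i, Γ(L, U i) := fun i => match i with
    | .inl i => res L (hle0 i) (τ i)
    | .inr j => res L (hlei j) (τ' j)
  have hU : ⨆ i, U i = ⊤ := by
    rw [eq_top_iff, ← T.cover]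
    refine sup_le ((le_iSup_basicOpen T.aff0 g hg).trans (iSup_le fun i => ?_))
      ((le_iSup_basicOpen T.affi g' hg').trans (iSup_le fun j => ?_))
    · exact le_iSup U (Sum.inl i)
    · exact le_iSup U (Sum.inr j)
  have hs : ∀ i, IsGen L (s i) := by
    rintro (i | j)
    · exact hτ i
    · exact hτ' j
  refine hom_ext_of_gen hU hs ?_
  rintro (i | j)
  · change ap F _ (res L (hle0 i) (τ i)) = ap G _ (res L (hle0 i) (τ i))
    rw [ap_res, ap_res, h0]
  · change ap F _ (res L (hlei j) (τ' j)) = ap G _ (res L (hlei j) (τ' j))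
    rw [ap_res, ap_res, hi]

end Fermat.Agent.Jac
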