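import Fermat.Agent.Jac.GeoHom
import Fermat.Agent.Jac.BC

/-!
# Isomorphisms of invertible modules on a two-chart scheme
-/

set_option autoImplicit false

universe u

open CategoryTheory CategoryTheory.Limits AlgebraicGeometry TopologicalSpace Opposite

namespace Fermat.Agent.Jac

variable {k : Type u} [Field k]

variable {X : CurveData k} {A : Type u} [CommRing A] [Algebra k A] {Z : Scheme.{u}}

/-- transport of the description along an isomorphism of lattice pairs -/
theorem Rep.of_iso {T : TC X A Z} {L : Z.Modules} {E E' : LB X A} (h : Rep T L E)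
    (i : E.Iso E') : Rep T L E' := by
  obtain ⟨D⟩ := h
  obtain ⟨e, h0, hi⟩ := LB.iso_iff.mp i
  refine ⟨{ φ := D.φ.trans e.toAddEquiv
            smul := fun r m => ?_
            mem0 := fun m => ?_
            memi := fun m => ?_ }⟩
  · change e (D.φ (T.θ r • m)) = r • e (D.φ m)
    rw [D.smul, map_smul]
  · have h1 := h0 (e.symm m)
    rw [e.apply_symm_apply] at h1
    rw [h1, D.mem0]
    exact exists_congr fun s => ⟨fun hs => by
      change e (D.φ _) = m
      rw [hs, e.apply_symm_apply], fun hs => by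
      have hs' : e (D.φ (res L inf_le_left s)) = m := hs
      rw [← hs', e.symm_apply_apply]⟩
  · have h1 := hi (e.symm m)
    rw [e.apply_symm_apply] at h1
    rw [h1, D.memi]
    exact exists_congr fun s => ⟨fun hs => by
      change e (D.φ _) = m
      rw [hs, e.apply_symm_apply], fun hs => by
      have hs' : e (D.φ (res L inf_le_right s)) = m := hs
      rw [← hs', e.symm_apply_apply]⟩

/-- homomorphisms of invertible modules from homomorphisms of lattice pairs -/
theorem exists_hom_of_rep {T : TC X A Z} {L L' : Z.Modules} {E E' : LB X A}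
    (hL : L.IsInvertible) (hL' : L'.IsInvertible) (D : RepData T L E) (D' : RepData T L' E')
    (e : E.M →ₗ[X.R A] E'.M) (h0 : ∀ m ∈ E.M0, e m ∈ E'.M0) (hi : ∀ m ∈ E.Mi, e m ∈ E'.Mi) :
    ∃ F : L ⟶ L', (∀ m, D'.φ (res L' inf_le_left (ap F T.V0 m)) =
        e (D.φ (res L inf_le_left m))) ∧
      ∀ m, D'.φ (res L' inf_le_right (ap F T.Vi m)) = e (D.φ (res L inf_le_right m)) := by
  have H0 : ∀ m : Γ(L, T.V0), ∃ s : Γ(L', T.V0),
      D'.φ (res L' inf_le_left s) = e (D.φ (res L inf_le_left m)) :=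
    fun m => (D'.mem0 _).mp (h0 _ ((D.mem0 _).mpr ⟨m, rfl⟩))
  have Hi : ∀ m : Γ(L, T.Vi), ∃ s : Γ(L', T.Vi),
      D'.φ (res L' inf_le_right s) = e (D.φ (res L inf_le_right m)) :=
    fun m => (D'.memi _).mp (hi _ ((D.memi _).mpr ⟨m, rfl⟩))
  choose g0 hg0 using H0
  choose gi hgi using Hi
  have inj0 : ∀ s t : Γ(L', T.V0), D'.φ (res L' inf_le_left s) = D'.φ (res L' inf_le_left t) →
      s = t := fun s t hst => T.res0_injective hL' (D'.φ.injective hst)
  have inji : ∀ s t : Γ(L', T.Vi), D'.φ (res L' inf_le_right s) = D'.φ (res L' inf_le_right t) →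
      s = t := fun s t hst => T.resi_injective hL' (D'.φ.injective hst)
  have s0 : ∀ (r : Γ(Z, T.V0)), rs (inf_le_left : T.V0 ⊓ T.Vi ≤ T.V0) r =
      T.θ (X.J0 A (T.θ0.symm r)) := fun r =>
    (by rw [RingEquiv.apply_symm_apply] : rs inf_le_left r =
      rs inf_le_left (T.θ0 (T.θ0.symm r))).trans (T.rs0 _)
  have si : ∀ (r : Γ(Z, T.Vi)), rs (inf_le_right : T.V0 ⊓ T.Vi ≤ T.Vi) r =
      T.θ (X.Ji A (T.θi.symm r)) := fun r =>
    (by rw [RingEquiv.apply_symm_apply] : rs inf_le_right r =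
      rs inf_le_right (T.θi (T.θi.symm r))).trans (T.rsi _)
  let f0 : Γ(L, T.V0) →+ Γ(L', T.V0) := AddMonoidHom.mk' g0 fun a b => inj0 _ _ (by
    rw [map_add, map_add, hg0, hg0, hg0, map_add, map_add, map_add])
  let fi : Γ(L, T.Vi) →+ Γ(L', T.Vi) := AddMonoidHom.mk' gi fun a b => inji _ _ (by
    rw [map_add, map_add, hgi, hgi, hgi, map_add, map_add, map_add])
  let f : Γ(L, T.V0 ⊓ T.Vi) →+ Γ(L', T.V0 ⊓ T.Vi) :=
    (D'.φ.symm : E'.M →+ Γ(L', T.V0 ⊓ T.Vi)).comp
      (e.toAddMonoidHom.comp (D.φ : Γ(L, T.V0 ⊓ T.Vi) →+ E.M))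
  have hf : ∀ m, D'.φ (f m) = e (D.φ m) := fun m => D'.φ.apply_symm_apply _
  obtain ⟨F, hF0, hFi⟩ := exists_hom_of_charts T (L := L) (L' := L') hL f0 fi f
    (fun r m => inj0 _ _ (by
      change D'.φ (res L' inf_le_left (g0 (r • m))) = D'.φ (res L' inf_le_left (r • g0 m))
      rw [hg0, res_smul, res_smul, s0, D.smul, D'.smul, map_smul, hg0]))
    (fun r m => inji _ _ (by
      change D'.φ (res L' inf_le_right (gi (r • m))) = D'.φ (res L' inf_le_right (r • gi m))
      rw [hgi, res_smul, res_smul, si, D.smul, D'.smul, map_smul, hgi]))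
    (fun r m => D'.φ.injective (by
      obtain ⟨r, rfl⟩ := T.θ.surjective r
      rw [hf, D.smul, D'.smul, map_smul, hf]))
    (fun m => D'.φ.injective (by rw [hf]; exact (hg0 m).symm))
    (fun m => D'.φ.injective (by rw [hf]; exact (hgi m).symm))
  exact ⟨F, fun m => by rw [hF0]; exact hg0 m, fun m => by rw [hFi]; exact hgi m⟩

/-- **isomorphisms of invertible modules are isomorphisms of lattice pairs** -/
theorem rep_iso_iff {T : TC X A Z} {L L' : Z.Modules} {E E' : LB X A} (hL : L.IsInvertible)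
    (hL' : L'.IsInvertible) (h : Rep T L E) (h' : Rep T L' E') :
    Nonempty (L ≅ L') ↔ E.Iso E' := by
  obtain ⟨D⟩ := h
  obtain ⟨D'⟩ := h'
  constructor
  · rintro ⟨i⟩
    rw [LB.iso_iff]
    have h1 : ∀ (U : Z.Opens) (m : Γ(L, U)), ap i.inv U (ap i.hom U m) = m := fun U m => by
      rw [← ap_comp, i.hom_inv_id, ap_id]
    have h2 : ∀ (U : Z.Opens) (m : Γ(L', U)), ap i.hom U (ap i.inv U m) = m := fun U m => by
      rw [← ap_comp, i.inv_hom_id, ap_id]
    let F : Γ(L, T.V0 ⊓ T.Vi) ≃+ Γ(L', T.V0 ⊓ T.Vi) :=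
      { toFun := ap i.hom _
        invFun := ap i.inv _
        left_inv := h1 _
        right_inv := h2 _
        map_add' := map_add _ }
    let e : E.M ≃+ E'.M := D.φ.symm.trans (F.trans D'.φ)
    have he : ∀ m, e m = D'.φ (ap i.hom _ (D.φ.symm m)) := fun m => rfl
    have hs : ∀ (r : X.R A) m, e (r • m) = r • e m := fun r m => by
      rw [he, he]
      have h3 : D.φ.symm (r • m) = T.θ r • D.φ.symm m := by
        apply D.φ.injective
        rw [D.smul, AddEquiv.apply_symm_apply, AddEquiv.apply_symm_apply]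
      rw [h3, ap_smul, D'.smul]
    refine ⟨e.toLinearEquiv hs, fun m => ?_, fun m => ?_⟩
    · change e m ∈ E'.M0 ↔ m ∈ E.M0
      rw [D.mem0, D'.mem0]
      constructor
      · rintro ⟨s, hs⟩
        refine ⟨ap i.inv _ s, ?_⟩
        rw [← ap_res, ← AddEquiv.eq_symm_apply]
        rw [he, EmbeddingLike.apply_eq_iff_eq] at hs
        rw [hs, h1]
      · rintro ⟨s, hs⟩
        refine ⟨ap i.hom _ s, ?_⟩
        rw [← ap_res, he, ← hs, AddEquiv.symm_apply_apply]
    · change e m ∈ E'.Mi ↔ m ∈ E.Mi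
      rw [D.memi, D'.memi]
      constructor
      · rintro ⟨s, hs⟩
        refine ⟨ap i.inv _ s, ?_⟩
        rw [← ap_res, ← AddEquiv.eq_symm_apply]
        rw [he, EmbeddingLike.apply_eq_iff_eq] at hs
        rw [hs, h1]
      · rintro ⟨s, hs⟩
        refine ⟨ap i.hom _ s, ?_⟩
        rw [← ap_res, he, ← hs, AddEquiv.symm_apply_apply]
  · intro hi
    obtain ⟨e, h0, hi⟩ := LB.iso_iff.mp hi
    obtain ⟨F, hF0, hFi⟩ := exists_hom_of_rep hL hL' D D' e.toLinearMap
      (fun m hm => (h0 m).mpr hm) (fun m hm => (hi m).mpr hm)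
    obtain ⟨G, hG0, hGi⟩ := exists_hom_of_rep hL' hL D' D e.symm.toLinearMap
      (fun m hm => (h0 _).mp (by
        change e (e.symm m) ∈ E'.M0
        rwa [e.apply_symm_apply]))
      (fun m hm => (hi _).mp (by
        change e (e.symm m) ∈ E'.Mi
        rwa [e.apply_symm_apply]))
    have hF0' : ∀ m, D'.φ (res L' inf_le_left (ap F T.V0 m)) = e (D.φ (res L inf_le_left m)) := hF0
    have hFi' : ∀ m, D'.φ (res L' inf_le_right (ap F T.Vi m)) =
      e (D.φ (res L inf_le_right m)) := hFi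
    have hG0' : ∀ m, D.φ (res L inf_le_left (ap G T.V0 m)) =
      e.symm (D'.φ (res L' inf_le_left m)) := hG0
    have hGi' : ∀ m, D.φ (res L inf_le_right (ap G T.Vi m)) =
      e.symm (D'.φ (res L' inf_le_right m)) := hGi
    refine ⟨⟨F, G, hom_ext_charts T hL ?_ ?_, hom_ext_charts T hL' ?_ ?_⟩⟩
    · ext m
      apply T.res0_injective hL
      apply D.φ.injective
      rw [ap_comp, hG0', hF0', e.symm_apply_apply, ap_id]
    · ext m
      apply T.resi_injective hL
      apply D.φ.injective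
      rw [ap_comp, hGi', hFi', e.symm_apply_apply, ap_id]
    · ext m
      apply T.res0_injective hL'
      apply D'.φ.injective
      rw [ap_comp, hF0', hG0', e.apply_symm_apply, ap_id]
    · ext m
      apply T.resi_injective hL'
      apply D'.φ.injective
      rw [ap_comp, hFi', hGi', e.apply_symm_apply, ap_id]

end Fermat.Agent.Jac
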