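import Fermat.Agent.Jac.GeoAlg
import Fermat.Agent.Jac.GeoDef

/-!
# The lattice pair of an invertible module on a two-chart scheme
-/

set_option autoImplicit false

universe u

open CategoryTheory CategoryTheory.Limits AlgebraicGeometry TopologicalSpace Opposite

namespace Fermat.Agent.Jac

section

variable {Z : Scheme.{u}} {L : Z.Modules}

theorem exists_pow_smul_eq_res' (hL : L.IsInvertible) {U W : Z.Opens} (hU : IsAffineOpen U)
    (f : Γ(Z, U)) (hW : Z.basicOpen f = W) (h : W ≤ U) (s : Γ(L, W)) :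
    ∃ (n : ℕ) (t : Γ(L, U)), res L h t = rs h f ^ n • s := by
  subst hW
  exact exists_pow_smul_eq_res hL hU f s

theorem exists_pow_smul_eq_zero' (hL : L.IsInvertible) {U W : Z.Opens} (hU : IsAffineOpen U)
    (f : Γ(Z, U)) (hW : Z.basicOpen f = W) (h : W ≤ U) (s : Γ(L, U)) (hs : res L h s = 0) :
    ∃ n : ℕ, f ^ n • s = 0 := by
  subst hW
  exact exists_pow_smul_eq_zero hL hU f s hs

end

variable {k : Type u} [Field k]

variable {X : CurveData k} {A : Type u} [CommRing A] [Algebra k A] {Z : Scheme.{u}}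

theorem CurveData.x0_regular (X : CurveData k) (A : Type u) [CommRing A] [Algebra k A]
    (a : X.R0 A) (h : X.x0 A * a = 0) : a = 0 := by
  apply X.J0_injective A
  have h1 := congrArg (fun z => X.yA A * X.J0 A z) h
  simp only [map_mul, CurveData.J0_x0, map_zero, mul_zero] at h1
  rw [← mul_assoc, mul_comm (X.yA A), X.xA_yA, one_mul] at h1
  rw [h1, map_zero]

theorem CurveData.yi_regular (X : CurveData k) (A : Type u) [CommRing A] [Algebra k A]
    (a : X.Ri A) (h : X.yi A * a = 0) : a = 0 := by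
  apply X.Ji_injective A
  have h1 := congrArg (fun z => X.xA A * X.Ji A z) h
  simp only [map_mul, CurveData.Ji_yi, map_zero, mul_zero] at h1
  rw [← mul_assoc, X.xA_yA, one_mul] at h1
  rw [h1, map_zero]

theorem pow_regular {R : Type*} [CommRing R] {x : R} (hx : ∀ a, x * a = 0 → a = 0) (n : ℕ) (a : R)
    (h : x ^ n * a = 0) : a = 0 := by
  induction n with
  | zero => simpa using h
  | succ n ih => exact ih (hx _ (by rw [← h]; ring))

namespace TwoChart

variable (T : TC X A Z)

/-- the intersection of the charts -/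
abbrev V : Z.Opens := T.V0 ⊓ T.Vi

theorem aff : IsAffineOpen T.V := by
  have := T.aff0.basicOpen (T.θ0 (X.x0 A))
  rwa [T.bo0] at this

theorem θ0_regular (n : ℕ) (a : Γ(Z, T.V0)) (h : T.θ0 (X.x0 A) ^ n * a = 0) : a = 0 := by
  apply T.θ0.symm.injective
  rw [map_zero]
  apply pow_regular (X.x0_regular A) n
  have := congrArg T.θ0.symm h
  rwa [map_mul, map_pow, RingEquiv.symm_apply_apply, map_zero] at this

theorem θi_regular (n : ℕ) (a : Γ(Z, T.Vi)) (h : T.θi (X.yi A) ^ n * a = 0) : a = 0 := by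
  apply T.θi.symm.injective
  rw [map_zero]
  apply pow_regular (X.yi_regular A) n
  have := congrArg T.θi.symm h
  rwa [map_mul, map_pow, RingEquiv.symm_apply_apply, map_zero] at this

variable {L : Z.Modules} (hL : L.IsInvertible)

include hL in
theorem res0_injective : Function.Injective (res L (inf_le_left : T.V0 ⊓ T.Vi ≤ T.V0)) := by
  rw [injective_iff_map_eq_zero]
  intro s hs
  obtain ⟨n, hn⟩ := exists_pow_smul_eq_zero' hL T.aff0 (T.θ0 (X.x0 A)) T.bo0 inf_le_left s hs
  have := invertible_sections hL T.aff0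
  exact eq_zero_of_regular_smul (fun a ha => T.θ0_regular n a ha) hn

include hL in
theorem resi_injective : Function.Injective (res L (inf_le_right : T.V0 ⊓ T.Vi ≤ T.Vi)) := by
  rw [injective_iff_map_eq_zero]
  intro s hs
  obtain ⟨n, hn⟩ := exists_pow_smul_eq_zero' hL T.affi (T.θi (X.yi A)) T.boi inf_le_right s hs
  have := invertible_sections hL T.affi
  exact eq_zero_of_regular_smul (fun a ha => T.θi_regular n a ha) hn

/-- the module of sections over the intersection, as a module over the coordinate ring -/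
@[reducible] noncomputable def mod (L : Z.Modules) : Module (X.R A) Γ(L, T.V0 ⊓ T.Vi) :=
  Module.compHom _ (T.θ : X.R A →+* Γ(Z, T.V0 ⊓ T.Vi))
@[reducible] noncomputable def mod0 (L : Z.Modules) : Module (X.R0 A) Γ(L, T.V0 ⊓ T.Vi) :=
  Module.compHom _ ((T.θ : X.R A →+* Γ(Z, T.V0 ⊓ T.Vi)).comp (X.J0 A : X.R0 A →+* X.R A))
@[reducible] noncomputable def modi (L : Z.Modules) : Module (X.Ri A) Γ(L, T.V0 ⊓ T.Vi) :=
  Module.compHom _ ((T.θ : X.R A →+* Γ(Z, T.V0 ⊓ T.Vi)).comp (X.Ji A : X.Ri A →+* X.R A))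
@[reducible] noncomputable def modA (L : Z.Modules) : Module A Γ(L, T.V0 ⊓ T.Vi) :=
  Module.compHom _ ((T.θ : X.R A →+* Γ(Z, T.V0 ⊓ T.Vi)).comp (algebraMap A (X.R A)))

/-- the sections over the first chart, in the sections over the intersection -/
@[reducible] noncomputable def sub0 (L : Z.Modules) :
    @Submodule (X.R0 A) Γ(L, T.V0 ⊓ T.Vi) _ _ (T.mod0 L) :=
  letI := T.mod0 L
  { carrier := Set.range (res L (inf_le_left : T.V0 ⊓ T.Vi ≤ T.V0))
    zero_mem' := ⟨0, map_zero _⟩
    add_mem' := by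
      rintro _ _ ⟨a, rfl⟩ ⟨b, rfl⟩
      exact ⟨a + b, map_add _ _ _⟩
    smul_mem' := by
      rintro r _ ⟨a, rfl⟩
      refine ⟨T.θ0 r • a, ?_⟩
      rw [res_smul, T.rs0]
      rfl }

/-- the sections over the second chart, in the sections over the intersection -/
@[reducible] noncomputable def subi (L : Z.Modules) :
    @Submodule (X.Ri A) Γ(L, T.V0 ⊓ T.Vi) _ _ (T.modi L) :=
  letI := T.modi L
  { carrier := Set.range (res L (inf_le_right : T.V0 ⊓ T.Vi ≤ T.Vi))
    zero_mem' := ⟨0, map_zero _⟩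
    add_mem' := by
      rintro _ _ ⟨a, rfl⟩ ⟨b, rfl⟩
      exact ⟨a + b, map_add _ _ _⟩
    smul_mem' := by
      rintro r _ ⟨a, rfl⟩
      refine ⟨T.θi r • a, ?_⟩
      rw [res_smul, T.rsi]
      rfl }

/-- **the lattice pair of an invertible module** -/
noncomputable def mkLB : LB X A :=
  letI := T.mod L
  letI := T.mod0 L
  letI := T.modi L
  letI := T.modA L
  { M := Γ(L, T.V0 ⊓ T.Vi)
    tA := ⟨fun a r m => by
      change T.θ (a • r) • m = T.θ (algebraMap A (X.R A) a) • T.θ r • m
      rw [Algebra.smul_def, map_mul, mul_smul]⟩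
    t0 := ⟨fun a r m => by
      change T.θ (a • r) • m = T.θ (X.J0 A a) • T.θ r • m
      rw [Algebra.smul_def, map_mul, mul_smul]
      rfl⟩
    ti := ⟨fun a r m => by
      change T.θ (a • r) • m = T.θ (X.Ji A a) • T.θ r • m
      rw [Algebra.smul_def, map_mul, mul_smul]
      rfl⟩
    M0 := T.sub0 L
    Mi := T.subi L
    inv0 := by
      have := invertible_sections hL T.aff0
      let e : Γ(L, T.V0) →+ T.sub0 L :=
        { toFun := fun s => ⟨res L inf_le_left s, ⟨s, rfl⟩⟩
          map_zero' := Subtype.ext (map_zero _)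
          map_add' := fun a b => Subtype.ext (map_add _ a b) }
      refine invertible_of_semilinear (R := Γ(Z, T.V0)) (M := Γ(L, T.V0)) T.θ0.symm
        (AddEquiv.ofBijective e
          ⟨fun a b hab => T.res0_injective hL (congrArg Subtype.val hab), ?_⟩) ?_
      · rintro ⟨_, a, rfl⟩
        exact ⟨a, rfl⟩
      · intro r m
        apply Subtype.ext
        change res L (inf_le_left : T.V0 ⊓ T.Vi ≤ T.V0) (r • m) =
          T.θ (X.J0 A (T.θ0.symm r)) • res L (inf_le_left : T.V0 ⊓ T.Vi ≤ T.V0) m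
        rw [res_smul]
        congr 1
        exact (by rw [RingEquiv.apply_symm_apply] : rs inf_le_left r =
          rs inf_le_left (T.θ0 (T.θ0.symm r))).trans (T.rs0 _)
    invi := by
      have := invertible_sections hL T.affi
      let e : Γ(L, T.Vi) →+ T.subi L :=
        { toFun := fun s => ⟨res L inf_le_right s, ⟨s, rfl⟩⟩
          map_zero' := Subtype.ext (map_zero _)
          map_add' := fun a b => Subtype.ext (map_add _ a b) }
      refine invertible_of_semilinear (R := Γ(Z, T.Vi)) (M := Γ(L, T.Vi)) T.θi.symm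
        (AddEquiv.ofBijective e
          ⟨fun a b hab => T.resi_injective hL (congrArg Subtype.val hab), ?_⟩) ?_
      · rintro ⟨_, a, rfl⟩
        exact ⟨a, rfl⟩
      · intro r m
        apply Subtype.ext
        change res L (inf_le_right : T.V0 ⊓ T.Vi ≤ T.Vi) (r • m) =
          T.θ (X.Ji A (T.θi.symm r)) • res L (inf_le_right : T.V0 ⊓ T.Vi ≤ T.Vi) m
        rw [res_smul]
        congr 1
        exact (by rw [RingEquiv.apply_symm_apply] : rs inf_le_right r =
          rs inf_le_right (T.θi (T.θi.symm r))).trans (T.rsi _)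
    ex0 := fun m => by
      obtain ⟨n, t, ht⟩ := exists_pow_smul_eq_res' hL T.aff0 (T.θ0 (X.x0 A)) T.bo0 inf_le_left m
      refine ⟨n, t, ht.trans ?_⟩
      change _ = T.θ (X.xA A ^ n) • m
      rw [T.rs0, map_pow]
      rfl
    exi := fun m => by
      obtain ⟨n, t, ht⟩ := exists_pow_smul_eq_res' hL T.affi (T.θi (X.yi A)) T.boi inf_le_right m
      refine ⟨n, t, ht.trans ?_⟩
      change _ = T.θ (X.yA A ^ n) • m
      rw [T.rsi, map_pow]
      rfl }

/-- the lattice pair of an invertible module represents it -/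
theorem rep_mkLB : Rep T L (T.mkLB hL) :=
  ⟨{ φ := AddEquiv.refl _
     smul := fun _ _ => rfl
     mem0 := fun _ => Iff.rfl
     memi := fun _ => Iff.rfl }⟩

end TwoChart

theorem exists_rep_mod (T : TC X A Z) {L : Z.Modules} (hL : L.IsInvertible) : ∃ E : LB X A, Rep T L E :=
  ⟨_, T.rep_mkLB hL⟩

/-- the structure sheaf corresponds to the unit lattice pair -/
theorem rep_unit (T : TC X A Z) : Rep T (unitMod Z) (LB.one X A) :=
  ⟨{ φ := (T.θ.symm : Γ(Z, T.V0 ⊓ T.Vi) ≃+ X.R A)
     smul := fun r m => by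
      change T.θ.symm (T.θ r * (show Γ(Z, T.V0 ⊓ T.Vi) from m)) =
        r * T.θ.symm (show Γ(Z, T.V0 ⊓ T.Vi) from m)
      rw [map_mul, RingEquiv.symm_apply_apply]
     mem0 := fun e => by
      constructor
      · rintro ⟨r, rfl⟩
        refine ⟨T.θ0 r, ?_⟩
        change T.θ.symm (rs inf_le_left (T.θ0 r)) = _
        rw [T.rs0, RingEquiv.symm_apply_apply]
        rfl
      · rintro ⟨s, rfl⟩
        refine ⟨T.θ0.symm s, ?_⟩
        change _ = T.θ.symm (rs inf_le_left s)
        rw [← T.θ0.apply_symm_apply s, T.rs0, RingEquiv.symm_apply_apply,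
          RingEquiv.symm_apply_apply]
        rfl
     memi := fun e => by
      constructor
      · rintro ⟨r, rfl⟩
        refine ⟨T.θi r, ?_⟩
        change T.θ.symm (rs inf_le_right (T.θi r)) = _
        rw [T.rsi, RingEquiv.symm_apply_apply]
        rfl
      · rintro ⟨s, rfl⟩
        refine ⟨T.θi.symm s, ?_⟩
        change _ = T.θ.symm (rs inf_le_right s)
        rw [← T.θi.apply_symm_apply s, T.rsi, RingEquiv.symm_apply_apply,
          RingEquiv.symm_apply_apply]
        rfl }⟩

end Fermat.Agent.Jac
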