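import Fermat.Agent.Jac.Diag

set_option autoImplicit false

/-!
# Base change and products of invertible ideals
-/

open scoped TensorProduct
open Module

namespace Fermat.Agent.Jac

/-! ## Base change of invertible ideals -/

section BC

theorem invertible_map_of_injective {S T : Type*} [CommRing S] [CommRing T] [Algebra S T]
    (I : Ideal S) [Module.Invertible S I]
    (hinj : Function.Injective (LinearMap.lTensor T I.subtype)) :
    Module.Invertible T (I.map (algebraMap S T)) := by
  let g : T ⊗[S] I →ₗ[T] T := (Algebra.linearMap S T ∘ₗ I.subtype).liftBaseChange T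
  have hg : ∀ z, g z = TensorProduct.rid S T (LinearMap.lTensor T I.subtype z) := by
    intro z
    induction z using TensorProduct.induction_on with
    | zero => rw [map_zero, map_zero, map_zero]
    | tmul t i =>
      rw [LinearMap.lTensor_tmul, TensorProduct.rid_tmul]
      change t * (algebraMap S T (i : S)) = (i : S) • t
      rw [Algebra.smul_def, mul_comm t]
    | add x y hx hy => rw [map_add, map_add, map_add, hx, hy]
  have hginj : Function.Injective g := by
    intro a b hab
    rw [hg, hg] at hab
    exact hinj ((TensorProduct.rid S T).injective hab)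
  have hrange : LinearMap.range g = I.map (algebraMap S T) := by
    apply le_antisymm
    · rintro _ ⟨z, rfl⟩
      induction z using TensorProduct.induction_on with
      | zero => rw [map_zero]; exact zero_mem _
      | tmul t i => exact Ideal.mul_mem_left _ _ (Ideal.mem_map_of_mem _ i.2)
      | add x y hx hy => rw [map_add]; exact add_mem hx hy
    · rw [Ideal.map, Ideal.span_le]
      rintro _ ⟨i, hi, rfl⟩
      refine ⟨(1 : T) ⊗ₜ ⟨i, hi⟩, ?_⟩
      change (1 : T) • algebraMap S T i = _
      rw [one_smul]
  exact Module.Invertible.congr ((LinearEquiv.ofInjective g hginj).trans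
    (LinearEquiv.ofEq _ _ hrange))

theorem invertible_map_of_flat {S T : Type*} [CommRing S] [CommRing T] [Algebra S T]
    [Module.Flat S T] (I : Ideal S) [Module.Invertible S I] :
    Module.Invertible T (I.map (algebraMap S T)) :=
  invertible_map_of_injective I (Module.Flat.lTensor_preserves_injective_linearMap _
    I.subtype_injective)

theorem invertible_map_equiv {S T : Type*} [CommRing S] [CommRing T] (e : S ≃+* T)
    (I : Ideal S) [Module.Invertible S I] : Module.Invertible T (I.map e) := by
  let _ : Algebra S T := (e : S →+* T).toAlgebra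
  have hfl : Module.Flat S T := by
    have h : Function.Bijective (Algebra.linearMap S T) := e.bijective
    exact Module.Flat.of_linearEquiv (LinearEquiv.ofBijective _ h).symm
  exact invertible_map_of_flat I

/-- base change of an ideal which is a direct summand over the base -/
theorem invertible_map_of_retract {R S A : Type*} [CommRing R] [CommRing S] [CommRing A]
    [Algebra R S] [Algebra R A] (I : Ideal S) [Module.Invertible S I] (ρ : S →ₗ[R] I)
    (hρ : ∀ i : I, ρ i = i) : Module.Invertible (S ⊗[R] A) (I.map (algebraMap S (S ⊗[R] A))) := by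
  apply invertible_map_of_injective
  let e1 : I ⊗[S] (S ⊗[R] A) ≃ₗ[S] I ⊗[R] A :=
    TensorProduct.AlgebraTensorModule.cancelBaseChange R S S I A
  let e2 : S ⊗[S] (S ⊗[R] A) ≃ₗ[S] S ⊗[R] A :=
    TensorProduct.AlgebraTensorModule.cancelBaseChange R S S S A
  let f : I →ₗ[R] S := I.subtype.restrictScalars R
  have hf : Function.Injective (LinearMap.rTensor A f) := by
    have h1 : ρ ∘ₗ f = LinearMap.id := LinearMap.ext hρ
    have h2 : Function.LeftInverse (LinearMap.rTensor A ρ) (LinearMap.rTensor A f) := by
      intro z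
      rw [← LinearMap.comp_apply, ← LinearMap.rTensor_comp, h1, LinearMap.rTensor_id,
        LinearMap.id_apply]
    exact h2.injective
  have hcomm : ∀ z, e2 (LinearMap.rTensor (S ⊗[R] A) I.subtype z) =
      LinearMap.rTensor A f (e1 z) := by
    intro z
    induction z using TensorProduct.induction_on with
    | zero => rw [LinearMap.map_zero, e1.map_zero, e2.map_zero, LinearMap.map_zero]
    | tmul i w =>
      induction w using TensorProduct.induction_on with
      | zero => rw [TensorProduct.tmul_zero, LinearMap.map_zero, e1.map_zero, e2.map_zero,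
          LinearMap.map_zero]
      | tmul s a => rfl
      | add x y hx hy =>
        rw [TensorProduct.tmul_add, LinearMap.map_add, e1.map_add, e2.map_add, LinearMap.map_add,
          hx, hy]
    | add x y hx hy =>
      rw [LinearMap.map_add, e1.map_add, e2.map_add, LinearMap.map_add, hx, hy]
  have h3 : Function.Injective (LinearMap.rTensor (S ⊗[R] A) I.subtype) := by
    intro a b hab
    apply e1.injective
    apply hf
    rw [← hcomm, ← hcomm, hab]
  exact (LinearMap.lTensor_inj_iff_rTensor_inj _ _).2 h3

/-- products of invertible ideals are invertible -/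
theorem invertible_mul {S : Type*} [CommRing S] (I J : Ideal S) [Module.Invertible S I]
    [Module.Invertible S J] : Module.Invertible S (I * J : Ideal S) := by
  let g : I ⊗[S] J →ₗ[S] S := LinearMap.mul' S S ∘ₗ TensorProduct.map I.subtype J.subtype
  have hginj : Function.Injective g := by
    have h1 : Function.Injective (TensorProduct.map I.subtype J.subtype) :=
      TensorProduct.map_injective_of_flat_flat _ _ I.subtype_injective J.subtype_injective
    have h2 : ∀ z : S ⊗[S] S, LinearMap.mul' S S z = TensorProduct.lid S S z := by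
      intro z
      induction z using TensorProduct.induction_on with
      | zero => rw [map_zero, map_zero]
      | tmul a b => rfl
      | add x y hx hy => rw [map_add, map_add, hx, hy]
    intro a b hab
    apply h1
    apply (TensorProduct.lid S S).injective
    rw [← h2, ← h2]
    exact hab
  have hrange : LinearMap.range g = I * J := by
    apply le_antisymm
    · rintro _ ⟨z, rfl⟩
      induction z using TensorProduct.induction_on with
      | zero => rw [map_zero]; exact zero_mem _
      | tmul a b => exact Ideal.mul_mem_mul a.2 b.2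
      | add x y hx hy => rw [map_add]; exact add_mem hx hy
    · refine Ideal.mul_le.2 fun a ha b hb => ⟨⟨a, ha⟩ ⊗ₜ ⟨b, hb⟩, rfl⟩
  exact Module.Invertible.congr ((LinearEquiv.ofInjective g hginj).trans
    (LinearEquiv.ofEq _ _ hrange))

end BC

section Section

variable {k B0 : Type*} [Field k] [CommRing B0] [Algebra k B0]

/-- **The ideal of a section is invertible.** -/
theorem invertible_secIdeal
    (hΔ : Module.Invertible (B0 ⊗[k] B0) (secIdeal (AlgHom.id k B0)))
    {A : Type*} [CommRing A] [Algebra k A] (σ : B0 →ₐ[k] A) :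
    Module.Invertible (A ⊗[k] B0) (secIdeal σ) := by
  let _ : Algebra B0 A := (σ : B0 →+* A).toAlgebra
  have ht : IsScalarTower k B0 A := IsScalarTower.of_algebraMap_eq fun x => (σ.commutes x).symm
  -- the retraction onto the ideal
  let ρ0 : B0 ⊗[k] B0 →ₗ[B0] B0 ⊗[k] B0 :=
    LinearMap.id - (Algebra.linearMap B0 (B0 ⊗[k] B0)) ∘ₗ (secEval (AlgHom.id k B0)).toLinearMap
  have hρ0 : ∀ z, ρ0 z ∈ (secIdeal (AlgHom.id k B0)).restrictScalars B0 := fun z =>
    sub_mem_secIdeal (AlgHom.id k B0) z
  let ρ : B0 ⊗[k] B0 →ₗ[B0] (secIdeal (AlgHom.id k B0)) := LinearMap.codRestrict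
    ((secIdeal (AlgHom.id k B0)).restrictScalars B0) ρ0 hρ0
  have hρ : ∀ i : secIdeal (AlgHom.id k B0), ρ i = i := by
    rintro ⟨i, hi⟩
    apply Subtype.ext
    change i - algebraMap B0 (B0 ⊗[k] B0) (secEval (AlgHom.id k B0) i) = i
    rw [(mem_secIdeal _ _).1 hi, map_zero, sub_zero]
  have h1 := invertible_map_of_retract (A := A) (secIdeal (AlgHom.id k B0)) ρ hρ
  let e : (B0 ⊗[k] B0) ⊗[B0] A ≃ₐ[B0] A ⊗[k] B0 :=
    (Algebra.TensorProduct.comm B0 (B0 ⊗[k] B0) A).trans
      ((Algebra.TensorProduct.cancelBaseChange k B0 B0 A B0))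
  have h2 := invertible_map_equiv (e : (B0 ⊗[k] B0) ⊗[B0] A ≃+* A ⊗[k] B0)
    ((secIdeal (AlgHom.id k B0)).map (algebraMap (B0 ⊗[k] B0) ((B0 ⊗[k] B0) ⊗[B0] A)))
  have h3 : ((secIdeal (AlgHom.id k B0)).map
      (algebraMap (B0 ⊗[k] B0) ((B0 ⊗[k] B0) ⊗[B0] A))).map
      (e : (B0 ⊗[k] B0) ⊗[B0] A ≃+* A ⊗[k] B0) = secIdeal σ := by
    rw [secIdeal, secIdeal, Ideal.map_span, Ideal.map_span, ← Set.range_comp, ← Set.range_comp]
    congr 2
    ext1 b
    change e (((AlgHom.id k B0 b) ⊗ₜ[k] (1 : B0) - (1 : B0) ⊗ₜ[k] b) ⊗ₜ[B0] (1 : A)) = _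
    change Algebra.TensorProduct.cancelBaseChange k B0 B0 A B0
      ((1 : A) ⊗ₜ[B0] ((b ⊗ₜ[k] (1 : B0) : B0 ⊗[k] B0) - (1 : B0) ⊗ₜ[k] b)) = _
    rw [TensorProduct.tmul_sub, map_sub, Algebra.TensorProduct.cancelBaseChange_tmul,
      Algebra.TensorProduct.cancelBaseChange_tmul, one_smul, Algebra.smul_def, mul_one]
    rfl
  rw [h3] at h2
  exact h2

end Section

end Fermat.Agent.Jac
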