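import Fermat.Agent.Jac.TwistRing
import Fermat.Agent.Jac.InvBC

set_option autoImplicit false

/-!
# Effective divisors supported in one chart
-/

open Polynomial

namespace Fermat.Agent.Jac

namespace Glue

variable {S0 Si R : Type*} [CommRing S0] [CommRing Si] [CommRing R] {j0 : S0 →+* R}
  {ji : Si →+* R} {x0 : S0} {yi : Si} (G : Glue j0 ji x0 yi)

include G

theorem nzd {f : S0} {g : Si} {e : ℕ} (h : j0 f * ji yi ^ e = ji g) (hf : f ∈ nonZeroDivisors S0) :
    g ∈ nonZeroDivisors Si := by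
  rw [mem_nonZeroDivisors_iff_right]
  intro z hz
  have h1 : ji z * (j0 f * ji yi ^ e) = 0 := by rw [h, ← map_mul, hz, map_zero]
  obtain ⟨n, s, hs⟩ := G.loc0 (ji z)
  have h2 : j0 (s * f) = 0 := by
    rw [map_mul, ← hs]
    have h3 : ji z * j0 f = 0 := by
      have h4 : ji z * j0 f = j0 x0 ^ e * (ji z * (j0 f * ji yi ^ e)) := by
        linear_combination (-(ji z * j0 f)) * G.pow_mul_pow e
      rw [h4, h1, mul_zero]
    rw [mul_assoc, h3, mul_zero]
  have h3 : s * f = 0 := G.inj0 (h2.trans (map_zero _).symm)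
  have h4 : s = 0 := (mem_nonZeroDivisors_iff_right.1 hf) _ h3
  apply G.inji
  have h5 : ji z = ji yi ^ n * (j0 x0 ^ n * ji z) := by
    linear_combination (-(ji z)) * G.pow_mul_pow n
  rw [h5, hs, h4, map_zero, mul_zero, map_zero]

/-- `I` is an effective divisor, supported in the chart `S0` -/
def Eff (_G : Glue j0 ji x0 yi) (I : Ideal S0) : Prop :=
  ∃ (I' : Ideal S0) (f : S0) (c : Si) (e : ℕ), f ∈ nonZeroDivisors S0 ∧ I * I' = Ideal.span {f} ∧
    j0 f * ji yi ^ e = ji (1 + yi * c)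

variable {G}

theorem Eff.inv {I : Ideal S0} (h : G.Eff I) : Module.Invertible S0 I := by
  obtain ⟨I', f, c, e, hf, h1, h2⟩ := h
  exact invertible_of_mul_eq_span hf h1

omit G in
theorem one_add_mem (G : Glue j0 ji x0 yi) {I I' : Ideal S0} {f : S0} {c : Si} {e : ℕ}
    (h1 : I * I' = Ideal.span {f}) (h2 : j0 f * ji yi ^ e = ji (1 + yi * c)) :
    1 + yi * c ∈ G.other I := by
  have h3 : f ∈ I * I' := by rw [h1]; exact Ideal.mem_span_singleton_self f
  have h4 : f ∈ I := (Ideal.mul_le_inf h3).1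
  have h5 : ji (1 + yi * c) ∈ I.map j0 := by
    rw [← h2]
    exact Ideal.mul_mem_right _ _ (Ideal.mem_map_of_mem _ h4)
  exact h5

theorem Eff.one_add_mem {I : Ideal S0} (h : G.Eff I) : ∃ c, 1 + yi * c ∈ G.other I := by
  obtain ⟨I', f, c, e, hf, h1, h2⟩ := h
  exact ⟨c, Glue.one_add_mem G h1 h2⟩

theorem Eff.inv_other {I : Ideal S0} (h : G.Eff I) : Module.Invertible Si (G.other I) := by
  obtain ⟨I', f, c, e, hf, h1, h2⟩ := h
  have h3 : 1 + yi * c ∈ G.other I := Glue.one_add_mem G h1 h2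
  have h4 : 1 + yi * c ∈ G.other I' := Glue.one_add_mem G (by rw [mul_comm, h1]) h2
  have h5 : G.other I * G.other I' = Ideal.span {1 + yi * c} := by
    rw [← G.other_mul h3 h4, h1, G.other_span h2]
  exact invertible_of_mul_eq_span (G.nzd h2 hf) h5

theorem Eff.mul {I J : Ideal S0} (h : G.Eff I) (h' : G.Eff J) : G.Eff (I * J) := by
  obtain ⟨I', f, c, e, hf, h1, h2⟩ := h
  obtain ⟨J', f', c', e', hf', h1', h2'⟩ := h'
  refine ⟨I' * J', f * f', c + c' + yi * c * c', e + e', mul_mem hf hf', ?_, ?_⟩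
  · rw [mul_mul_mul_comm, h1, h1', Ideal.span_singleton_mul_span_singleton]
  · have h3 : 1 + yi * (c + c' + yi * c * c') = (1 + yi * c) * (1 + yi * c') := by ring
    rw [h3, map_mul, map_mul, ← h2, ← h2']
    ring

theorem Eff.other_mul {I J : Ideal S0} (h : G.Eff I) (h' : G.Eff J) :
    G.other (I * J) = G.other I * G.other J := by
  obtain ⟨c, hc⟩ := h.one_add_mem
  obtain ⟨c', hc'⟩ := h'.one_add_mem
  exact G.other_mul hc hc'

variable (G)

theorem eff_top : G.Eff ⊤ := by
  refine ⟨⊤, 1, 0, 0, one_mem _, ?_, ?_⟩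
  · rw [Ideal.span_singleton_one, Ideal.mul_top]
  · simp

/-- monic polynomials in `x0` -/
theorem aeval_reverse {A : Type*} [CommRing A] [Algebra A S0] [Algebra A Si]
    (h : j0.comp (algebraMap A S0) = ji.comp (algebraMap A Si)) (p : A[X]) :
    j0 (aeval x0 p) * ji yi ^ p.natDegree = ji (aeval yi p.reverse) := by
  let _ : Invertible (j0 x0) := ⟨ji yi, by rw [mul_comm]; exact G.mul, G.mul⟩
  have h1 := eval₂_reverse_mul_pow (j0.comp (algebraMap A S0)) (j0 x0) p
  rw [aeval_def, aeval_def, hom_eval₂, hom_eval₂, ← h1, h]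
  change eval₂ _ (ji yi) _ * _ * _ = _
  rw [mul_assoc, G.pow_mul_pow, mul_one]

omit [CommRing S0] [CommRing R] G in
theorem reverse_eq {A : Type*} [CommRing A] [Algebra A Si] {p : A[X]} (hp : p.Monic) :
    aeval yi p.reverse = 1 + yi * aeval yi p.reverse.divX := by
  conv_lhs => rw [← divX_mul_X_add p.reverse]
  rw [coeff_zero_reverse, hp.leadingCoeff, map_add, map_mul, aeval_X, C_1, map_one]
  ring

theorem eff_of_monic {A : Type*} [CommRing A] [Algebra A S0] [Algebra A Si]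
    (h : j0.comp (algebraMap A S0) = ji.comp (algebraMap A Si)) {I I' : Ideal S0} {p : A[X]}
    (hp : p.Monic) (hn : aeval x0 p ∈ nonZeroDivisors S0)
    (hI : I * I' = Ideal.span {aeval x0 p}) : G.Eff I :=
  ⟨I', aeval x0 p, aeval yi p.reverse.divX, p.natDegree, hn, hI, by
    rw [G.aeval_reverse h p, reverse_eq hp]⟩

end Glue

end Fermat.Agent.Jac
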