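import Fermat.Agent.Jac.LocHom

/-!
# Gluing of sheaves of modules along an open covering
-/

set_option autoImplicit false
set_option linter.unusedVariables false

universe u

open CategoryTheory CategoryTheory.Limits AlgebraicGeometry TopologicalSpace Opposite

namespace Fermat.Agent.Jac

/-- a gluing datum for sheaves of modules -/
structure GlueDat (X : Scheme.{u}) (ι : Type u) where
  /-- the members of the covering -/
  U : ι → X.Opens
  cover : ⨆ i, U i = ⊤
  /-- the sheaves (only their sections over open subsets of `U i` are used) -/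
  M : ι → X.Modules
  /-- the transition isomorphisms -/
  φ : ∀ i j, LocHom (U i ⊓ U j) (M i) (M j)
  φ_self : ∀ (i : ι) (V : X.Opens) (h : V ≤ U i) (m : Γ(M i, V)), (φ i i).app V (le_inf h h) m = m
  φ_comp : ∀ (i j k : ι) (V : X.Opens) (hi : V ≤ U i) (hj : V ≤ U j) (hk : V ≤ U k)
    (m : Γ(M i, V)), (φ j k).app V (le_inf hj hk) ((φ i j).app V (le_inf hi hj) m) =
      (φ i k).app V (le_inf hi hk) m

namespace GlueDat

variable {X : Scheme.{u}} {ι : Type u} (c : GlueDat X ι)

/-- the transition map on `W ≤ U i ⊓ U j`. -/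
noncomputable def t (i j : ι) {W : X.Opens} (hi : W ≤ c.U i) (hj : W ≤ c.U j) :
    Γ(c.M i, W) →+ Γ(c.M j, W) :=
  (c.φ i j).app W (le_inf hi hj)

theorem t_res (i j : ι) {W W' : X.Opens} (hi : W ≤ c.U i) (hj : W ≤ c.U j) (h : W' ≤ W)
    (m : Γ(c.M i, W)) :
    c.t i j (h.trans hi) (h.trans hj) (res _ h m) = res _ h (c.t i j hi hj m) :=
  (c.φ i j).app_res (le_inf hi hj) h m

theorem t_smul (i j : ι) {W : X.Opens} (hi : W ≤ c.U i) (hj : W ≤ c.U j) (r : Γ(X, W))
    (m : Γ(c.M i, W)) : c.t i j hi hj (r • m) = r • c.t i j hi hj m :=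
  (c.φ i j).app_smul (le_inf hi hj) r m

theorem t_t (i j k : ι) {W : X.Opens} (hi : W ≤ c.U i) (hj : W ≤ c.U j) (hk : W ≤ c.U k)
    (m : Γ(c.M i, W)) : c.t j k hj hk (c.t i j hi hj m) = c.t i k hi hk m :=
  c.φ_comp i j k W hi hj hk m

theorem t_self (i : ι) {W : X.Opens} (hi : W ≤ c.U i) (m : Γ(c.M i, W)) :
    c.t i i hi hi m = m := c.φ_self i W hi m

/-- the sections over `V`: families of sections `r i` which correspond to each other. -/
def Sec (V : X.Opens) : Type u :=
  {r : ∀ i, Γ(c.M i, V ⊓ c.U i) // ∀ (i j : ι) (W : X.Opens) (hV : W ≤ V) (hi : W ≤ c.U i)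
    (hj : W ≤ c.U j), c.t i j hi hj (res _ (le_inf hV hi) (r i)) = res _ (le_inf hV hj) (r j)}

variable {c}

/-- the value of a section in the chart `i`, restricted to `W`. -/
noncomputable def Sec.v {V : X.Opens} (m : c.Sec V) (i : ι) {W : X.Opens} (hV : W ≤ V)
    (hi : W ≤ c.U i) : Γ(c.M i, W) := res _ (le_inf hV hi) (m.1 i)

@[simp]
theorem Sec.res_v {V : X.Opens} (m : c.Sec V) (i : ι) {W W' : X.Opens} (hV : W ≤ V)
    (hi : W ≤ c.U i) (h : W' ≤ W) : res _ h (m.v i hV hi) = m.v i (h.trans hV) (h.trans hi) := by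
  simp [Sec.v]

theorem Sec.t_v {V : X.Opens} (m : c.Sec V) (i j : ι) {W : X.Opens} (hV : W ≤ V)
    (hi : W ≤ c.U i) (hj : W ≤ c.U j) : c.t i j hi hj (m.v i hV hi) = m.v j hV hj :=
  m.2 i j W hV hi hj

theorem Sec.ext {V : X.Opens} {m m' : c.Sec V}
    (h : ∀ i, m.v i (inf_le_left : V ⊓ c.U i ≤ V) inf_le_right = m'.v i inf_le_left inf_le_right) :
    m = m' := by
  apply Subtype.ext
  funext i
  have := h i
  simpa [Sec.v] using this

/-- constructor for sections -/
noncomputable def Sec.mk {V : X.Opens} (r : ∀ i, Γ(c.M i, V ⊓ c.U i))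
    (hr : ∀ (i j : ι) (W : X.Opens) (hV : W ≤ V) (hi : W ≤ c.U i)
    (hj : W ≤ c.U j), c.t i j hi hj (res _ (le_inf hV hi) (r i)) = res _ (le_inf hV hj) (r j)) :
    c.Sec V := ⟨r, hr⟩

theorem Sec.mk_v {V : X.Opens} (r : ∀ i, Γ(c.M i, V ⊓ c.U i))
    (hr : ∀ (i j : ι) (W : X.Opens) (hV : W ≤ V) (hi : W ≤ c.U i)
    (hj : W ≤ c.U j), c.t i j hi hj (res _ (le_inf hV hi) (r i)) = res _ (le_inf hV hj) (r j))
    (i : ι) {W : X.Opens} (hV : W ≤ V) (hi : W ≤ c.U i) :
    (Sec.mk (c := c) r hr).v i hV hi = res _ (le_inf hV hi) (r i) := rfl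

variable (c)

noncomputable instance (V : X.Opens) : Zero (c.Sec V) := ⟨Sec.mk (fun _ => 0) (by simp)⟩
noncomputable instance (V : X.Opens) : Add (c.Sec V) :=
  ⟨fun m m' => Sec.mk (fun i => m.1 i + m'.1 i) (by
    intro i j W hV hi hj
    rw [map_add, map_add, map_add, m.2 i j W hV hi hj, m'.2 i j W hV hi hj])⟩
noncomputable instance (V : X.Opens) : Neg (c.Sec V) :=
  ⟨fun m => Sec.mk (fun i => - m.1 i) (by
    intro i j W hV hi hj
    rw [map_neg, map_neg, map_neg, m.2 i j W hV hi hj])⟩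
noncomputable instance (V : X.Opens) : SMul Γ(X, V) (c.Sec V) :=
  ⟨fun r m => Sec.mk (fun i => rs inf_le_left r • m.1 i) (by
    intro i j W hV hi hj
    rw [res_smul, res_smul, t_smul, m.2 i j W hV hi hj, rs_rs, rs_rs])⟩

theorem add_v {V : X.Opens} (m m' : c.Sec V) (i : ι) {W : X.Opens} (hV : W ≤ V)
    (hi : W ≤ c.U i) : (m + m').v i hV hi = m.v i hV hi + m'.v i hV hi :=
  map_add (res _ (le_inf hV hi)) (m.1 i) (m'.1 i)

theorem zero_v {V : X.Opens} (i : ι) {W : X.Opens} (hV : W ≤ V)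
    (hi : W ≤ c.U i) : (0 : c.Sec V).v i hV hi = 0 :=
  map_zero (res _ (le_inf hV hi))

theorem neg_v {V : X.Opens} (m : c.Sec V) (i : ι) {W : X.Opens} (hV : W ≤ V)
    (hi : W ≤ c.U i) : (-m).v i hV hi = - m.v i hV hi :=
  map_neg (res _ (le_inf hV hi)) (m.1 i)

theorem smul_v {V : X.Opens} (r : Γ(X, V)) (m : c.Sec V) (i : ι) {W : X.Opens} (hV : W ≤ V)
    (hi : W ≤ c.U i) : (r • m).v i hV hi = rs hV r • m.v i hV hi := by
  have := res_smul (c.M i) (le_inf hV hi) (rs inf_le_left r) (m.1 i)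
  rw [rs_rs] at this
  exact this

noncomputable instance (V : X.Opens) : AddCommGroup (c.Sec V) where
  add_assoc a b d := Sec.ext fun i => by simp only [add_v, add_assoc]
  zero_add a := Sec.ext fun i => by simp only [add_v, zero_v, zero_add]
  add_zero a := Sec.ext fun i => by simp only [add_v, zero_v, add_zero]
  nsmul := nsmulRec
  zsmul := zsmulRec
  neg_add_cancel a := Sec.ext fun i => by simp only [add_v, neg_v, zero_v, neg_add_cancel]
  add_comm a b := Sec.ext fun i => by simp only [add_v, add_comm]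

noncomputable instance (V : X.Opens) : Module Γ(X, V) (c.Sec V) where
  one_smul a := Sec.ext fun i => by simp only [smul_v, map_one, one_smul]
  mul_smul r r' a := Sec.ext fun i => by simp only [smul_v, map_mul, mul_smul]
  smul_zero r := Sec.ext fun i => by simp only [smul_v, zero_v, smul_zero]
  smul_add r a b := Sec.ext fun i => by simp only [smul_v, add_v, smul_add]
  add_smul r r' a := Sec.ext fun i => by simp only [smul_v, add_v, map_add, add_smul]
  zero_smul a := Sec.ext fun i => by simp only [smul_v, zero_v, map_zero, zero_smul]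

/-- restriction of sections -/
noncomputable def resS {V W : X.Opens} (h : W ≤ V) : c.Sec V →+ c.Sec W where
  toFun m := Sec.mk (fun i => m.v i (inf_le_left.trans h) inf_le_right) (by
    intro i j W' hV hi hj
    rw [Sec.res_v, Sec.res_v]
    exact m.t_v i j _ hi hj)
  map_zero' := Sec.ext fun i => by
    rw [Sec.mk_v, zero_v, map_zero, zero_v]
  map_add' m m' := Sec.ext fun i => by
    rw [Sec.mk_v, add_v, map_add, add_v, Sec.mk_v, Sec.mk_v]

theorem resS_v {V W : X.Opens} (h : W ≤ V) (m : c.Sec V) (i : ι) {W' : X.Opens} (hV : W' ≤ W)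
    (hi : W' ≤ c.U i) : (c.resS h m).v i hV hi = m.v i (hV.trans h) hi := by
  change res _ _ (m.v i ((inf_le_left : W ⊓ c.U i ≤ W).trans h) inf_le_right) = _
  rw [Sec.res_v]

theorem resS_smul {V W : X.Opens} (h : W ≤ V) (r : Γ(X, V)) (m : c.Sec V) :
    c.resS h (r • m) = rs h r • c.resS h m := Sec.ext fun i => by
  rw [resS_v, smul_v, smul_v, resS_v, rs_rs]

theorem resS_refl {V : X.Opens} (h : V ≤ V) (m : c.Sec V) : c.resS h m = m :=
  Sec.ext fun i => by rw [resS_v]

theorem resS_resS {V W W' : X.Opens} (h : W ≤ V) (h' : W' ≤ W) (m : c.Sec V) :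
    c.resS h' (c.resS h m) = c.resS (h'.trans h) m :=
  Sec.ext fun i => by rw [resS_v, resS_v, resS_v]

/-- the underlying presheaf of abelian groups -/
noncomputable def preS : TopCat.Presheaf Ab X where
  obj V := AddCommGrpCat.of (c.Sec V.unop)
  map f := AddCommGrpCat.ofHom (c.resS (leOfHom f.unop))
  map_id V := by
    ext m
    exact c.resS_refl le_rfl m
  map_comp f f' := by
    ext m
    exact (c.resS_resS (leOfHom f.unop) (leOfHom f'.unop) m).symm

theorem isSheaf_preS : c.preS.IsSheaf := by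
  rw [TopCat.Presheaf.isSheaf_iff_isSheafUniqueGluing]
  intro κ V (m : ∀ a, c.Sec (V a)) hm
  have hm' : ∀ (a b : κ) (i : ι) (W : X.Opens) (ha : W ≤ V a) (hb : W ≤ V b) (hi : W ≤ c.U i),
      (m a).v i ha hi = (m b).v i hb hi := by
    intro a b i W ha hb hi
    have h1 : c.resS (inf_le_left : V a ⊓ V b ≤ V a) (m a) =
      c.resS (inf_le_right : V a ⊓ V b ≤ V b) (m b) := hm a b
    have h2 := congrArg (fun z : c.Sec (V a ⊓ V b) => z.v i (le_inf ha hb) hi) h1
    simpa only [resS_v] using h2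
  have hcov : ∀ i, (iSup V ⊓ c.U i) ≤ ⨆ a, V a ⊓ c.U i := by
    intro i
    rw [← iSup_inf_eq]
  have h1 : ∀ i, ∃! r : Γ(c.M i, iSup V ⊓ c.U i), ∀ a,
      res _ (inf_le_inf_right _ (le_iSup V a)) r = (m a).v i inf_le_left inf_le_right := by
    intro i
    refine existsUnique_glue (c.M i) (fun a => V a ⊓ c.U i) _ _ (hcov i) _ ?_
    intro a b
    rw [Sec.res_v, Sec.res_v]
    exact hm' a b i _ _ _ _
  choose r hr hru using h1
  have hr' : ∀ (i : ι) (a : κ) (W : X.Opens) (ha : W ≤ V a) (hi : W ≤ c.U i),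
      res _ (le_inf (ha.trans (le_iSup V a)) hi) (r i) = (m a).v i ha hi := by
    intro i a W ha hi
    have h2 := congrArg (res _ (le_inf ha hi)) (hr i a)
    rwa [res_res, Sec.res_v] at h2
  let s : c.Sec (iSup V) := Sec.mk r (by
    intro i j W hV hi hj
    refine eq_of_locally (c.M j) (fun a => W ⊓ V a) W (fun _ => inf_le_left) ?_ _ _ ?_
    · rw [← inf_iSup_eq]
      exact le_inf le_rfl hV
    · intro a
      have hb : W ⊓ V a ≤ V a := inf_le_right
      rw [res_res, ← c.t_res i j hi hj (inf_le_left : W ⊓ V a ≤ W), res_res]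
      have h3 := hr' i a _ hb (inf_le_left.trans hi)
      have h4 := hr' j a _ hb (inf_le_left.trans hj)
      rw [h3, h4]
      exact (m a).t_v i j hb _ _)
  refine ⟨s, ?_, ?_⟩
  · intro a
    change c.resS (le_iSup V a) s = m a
    apply Sec.ext
    intro i
    rw [resS_v]
    exact hr' i a _ _ _
  · intro (s' : c.Sec (iSup V)) hs'
    change s' = s
    apply Sec.ext
    intro i
    have h5 : ∀ a, c.resS (le_iSup V a) s' = m a := hs'
    have h6 := hru i (s'.v i inf_le_left inf_le_right) (by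
      intro a
      rw [Sec.res_v]
      have h7 := congrArg (fun z : c.Sec (V a) =>
        z.v i (inf_le_left : V a ⊓ c.U i ≤ V a) inf_le_right) (h5 a)
      simp only [resS_v] at h7
      exact h7)
    rw [h6]
    exact (res_refl _ _ _).symm

/-- the glued sheaf of modules -/
noncomputable def toMod : X.Modules :=
  letI : ∀ V : X.Opensᵒᵖ, Module (X.ringCatSheaf.obj.obj V) (c.preS.obj V) :=
    fun V => inferInstanceAs (Module Γ(X, V.unop) (c.Sec V.unop))
  { val := PresheafOfModules.ofPresheaf c.preS (fun _ _ f r m => c.resS_smul (leOfHom f.unop) r m)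
    isSheaf := c.isSheaf_preS }

/-- the isomorphism of the glued sheaf with `M i` over `U i`. -/
noncomputable def ψ (i : ι) : LocHom (c.U i) c.toMod (c.M i) where
  app V hV :=
    { toFun := fun (m : c.Sec V) => m.v i le_rfl hV
      map_zero' := c.zero_v i le_rfl hV
      map_add' := fun m m' => c.add_v m m' i le_rfl hV }
  smul' V hV r m := by
    change (r • (show c.Sec V from m)).v i le_rfl hV = r • (show c.Sec V from m).v i le_rfl hV
    rw [smul_v, rs_refl]
  res' V W hV hW m := by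
    change (c.resS hW (show c.Sec V from m)).v i le_rfl (hW.trans hV) =
      res _ hW ((show c.Sec V from m).v i le_rfl hV)
    rw [resS_v, Sec.res_v]

theorem ψ_app (i : ι) {V : X.Opens} (hV : V ≤ c.U i) (m : c.Sec V) :
    (c.ψ i).app V hV m = m.v i le_rfl hV := rfl

theorem t_ψ (i j : ι) {V : X.Opens} (hi : V ≤ c.U i) (hj : V ≤ c.U j) (m : Γ(c.toMod, V)) :
    c.t i j hi hj ((c.ψ i).app V hi m) = (c.ψ j).app V hj m :=
  Sec.t_v (show c.Sec V from m) i j le_rfl hi hj

theorem isIso_ψ (i : ι) : (c.ψ i).IsIso := by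
  intro V hV
  constructor
  · intro (m : c.Sec V) (m' : c.Sec V) h
    have h1 : m.v i le_rfl hV = m'.v i le_rfl hV := h
    apply Sec.ext
    intro j
    have h2 : ∀ n : c.Sec V, n.v j (inf_le_left : V ⊓ c.U j ≤ V) inf_le_right =
        c.t i j (inf_le_left.trans hV) inf_le_right
          (res _ (inf_le_left : V ⊓ c.U j ≤ V) (n.v i le_rfl hV)) := by
      intro n
      rw [Sec.res_v, Sec.t_v]
    rw [h2, h2, h1]
  · intro n
    refine ⟨(Sec.mk (fun j => c.t i j (inf_le_left.trans hV) inf_le_right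
      (res _ (inf_le_left : V ⊓ c.U j ≤ V) n)) ?_ : c.Sec V), ?_⟩
    · intro j k W hW hj hk
      rw [← t_res, ← t_res, res_res, res_res, t_t]
    · rw [ψ_app, Sec.mk_v, ← t_res, res_res, res_refl, t_self]

end GlueDat

/-- **gluing of sheaves of modules** -/
theorem LocHom.exists_glueMod {X : Scheme.{u}} {ι : Type u} (U : ι → X.Opens)
    (hU : ⨆ i, U i = ⊤) (M : ι → X.Modules) (φ : ∀ i j, LocHom (U i ⊓ U j) (M i) (M j))
    (hφ : ∀ i j, (φ i j).IsIso)
    (hc : ∀ (i j k : ι) (V : X.Opens) (hi : V ≤ U i) (hj : V ≤ U j) (hk : V ≤ U k)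
      (m : Γ(M i, V)), (φ j k).app V (le_inf hj hk) ((φ i j).app V (le_inf hi hj) m) =
        (φ i k).app V (le_inf hi hk) m) :
    ∃ (N : X.Modules) (ψ : ∀ i, LocHom (U i) N (M i)), (∀ i, (ψ i).IsIso) ∧
      ∀ (i j : ι) (V : X.Opens) (hi : V ≤ U i) (hj : V ≤ U j) (n : Γ(N, V)),
        (φ i j).app V (le_inf hi hj) ((ψ i).app V hi n) = (ψ j).app V hj n := by
  let c : GlueDat X ι :=
    { U := U, cover := hU, M := M, φ := φ
      φ_self := fun i V h m => (hφ i i V (le_inf h h)).1 (hc i i i V h h h m)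
      φ_comp := hc }
  exact ⟨c.toMod, c.ψ, c.isIso_ψ, fun i j V hi hj n => c.t_ψ i j hi hj n⟩

/-- the glued sheaf is invertible if the given ones are locally generated by one element -/
theorem LocHom.isInvertible_of_locHom {X : Scheme.{u}} {ι : Type*} {U : ι → X.Opens}
    (hU : ⨆ i, U i = ⊤) {N : X.Modules} {M : ι → X.Modules} (ψ : ∀ i, LocHom (U i) N (M i))
    (hψ : ∀ i, (ψ i).IsIso)
    (hM : ∀ i, ∀ x ∈ U i, ∃ (V : X.Opens) (_ : x ∈ V) (s : Γ(M i, V)), IsGen (M i) s) :
    N.IsInvertible := by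
  apply isInvertible_of_gen
  intro x
  have hx : x ∈ ⨆ i, U i := by rw [hU]; trivial
  obtain ⟨i, hi⟩ := Opens.mem_iSup.mp hx
  obtain ⟨V, hV, s, hs⟩ := hM i x hi
  have h1 : IsGen (M i) (res (M i) (inf_le_left : V ⊓ U i ≤ V) s) := hs.res _
  refine ⟨V ⊓ U i, ⟨hV, hi⟩, ((ψ i).inv (hψ i)).app (V ⊓ U i) inf_le_right (res _ inf_le_left s), ?_⟩
  exact (LocHom.isGen_iff ((ψ i).isIso_inv (hψ i)) inf_le_right _).2 h1

end Fermat.Agent.Jac
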