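import Fermat.Agent.Jac.Good

/-!
# The functionals `v ↦ w (c_n (b v))` span the dual of `V`
-/

universe u

set_option autoImplicit false
set_option linter.style.haveILetI false

open TensorProduct LaurentPolynomial

namespace Fermat.Agent.Jac

section split

variable {A M : Type*} [CommRing A] [AddCommGroup M] [Module A M] [Module A[T;T⁻¹] M]
  [IsScalarTower A A[T;T⁻¹] M] {N0 Ni : Submodule A M} (h : Split N0 Ni)

theorem Split.cfV_T_mem0 {m : M} (hm : m ∈ N0) {j : ℤ} (hj : 0 < j) :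
    h.cfV ((T j : A[T;T⁻¹]) • m) = 0 := by
  ext
  rw [Split.coe_cfV, N0.projection_apply_of_mem_left h.compl (h.st0_int hj.le hm), T_smul_T_smul,
    (Ni.projection_apply_eq_zero_iff h.compl.symm).mpr (h.st0_int (by omega) hm)]
  simp

theorem Split.cfV_T_memtw {m : M} (hm : m ∈ twT Ni) {j : ℤ} (hj : j < 0) :
    h.cfV ((T j : A[T;T⁻¹]) • m) = 0 := by
  ext
  have h1 : (T j : A[T;T⁻¹]) • m ∈ Ni := by
    have : (T j : A[T;T⁻¹]) • m = (T (j + 1) : A[T;T⁻¹]) • ((T (-1) : A[T;T⁻¹]) • m) := by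
      rw [T_smul_T_smul]; congr 2; ring
    rw [this]
    exact h.sti_int (by omega) hm
  rw [Split.coe_cfV, (N0.projection_apply_eq_zero_iff h.compl).mpr h1]
  simp

/-- the functionals `m ↦ w (c_n m)` -/
noncomputable def Split.wc (w : twT Ni →ₗ[A] A) (n : ℤ) : M →ₗ[A] A :=
  w ∘ₗ (Submodule.inclusion (show secV N0 Ni ≤ twT Ni from fun _ hm => hm.2)) ∘ₗ h.cfV ∘ₗ
    mulT A M (-n)

theorem Split.wc_apply (w : twT Ni →ₗ[A] A) (n : ℤ) (m : M) :
    h.wc w n m = w (Submodule.inclusion (show secV N0 Ni ≤ twT Ni from fun _ hm => hm.2)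
      (h.cfV ((T (-n) : A[T;T⁻¹]) • m))) := rfl

theorem Split.wc_T_smul (w : twT Ni →ₗ[A] A) (n j : ℤ) (m : M) :
    h.wc w n ((T j : A[T;T⁻¹]) • m) = h.wc w (n - j) m := by
  rw [h.wc_apply, h.wc_apply, T_smul_T_smul]
  congr 5
  ring

theorem Split.wc_eq_zero (w : twT Ni →ₗ[A] A) (n : ℤ) (m : M)
    (hm : h.cfV ((T (-n) : A[T;T⁻¹]) • m) = 0) : h.wc w n m = 0 := by
  rw [h.wc_apply, hm, map_zero, map_zero]

theorem Split.wc_sec (w : twT Ni →ₗ[A] A) (n j : ℤ) (v : secV N0 Ni) :
    h.wc w n ((T j : A[T;T⁻¹]) • (v : M)) = if j = n then w ⟨v, v.2.2⟩ else 0 := by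
  split_ifs with hj
  · subst hj
    rw [h.wc_apply, T_smul_T_smul, neg_add_cancel, T_zero, one_smul, h.cfV_coe]
    rfl
  · refine h.wc_eq_zero w n _ ?_
    rw [T_smul_T_smul]
    exact h.cfV_T_smul v (by omega)

/-- the largest `A[T;T⁻¹]`-submodule contained in the kernel of `w` -/
noncomputable def Split.kerw (w : twT Ni →ₗ[A] A) : Submodule A M := ⨅ n, LinearMap.ker (h.wc w n)

theorem Split.mem_kerw {w : twT Ni →ₗ[A] A} {m : M} : m ∈ h.kerw w ↔ ∀ n, h.wc w n m = 0 := by
  simp [Split.kerw]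

theorem Split.T_smul_mem_kerw {w : twT Ni →ₗ[A] A} {m : M} (hm : m ∈ h.kerw w) (j : ℤ) :
    (T j : A[T;T⁻¹]) • m ∈ h.kerw w := by
  rw [h.mem_kerw] at hm ⊢
  intro n
  rw [h.wc_T_smul]
  exact hm _

end split

section gens

variable {k : Type u} [Field k] (X : CurveData k)

/-- finitely many generators of `B0` over `k[x]` -/
theorem CurveData.exists_gens : ∃ S : Finset X.B0, ∀ P : X.B → Prop, P 0 →
    (∀ a b, P a → P b → P (a + b)) → (∀ (p : Polynomial k) (b : X.B), P b →
      P (Polynomial.aeval X.x p * b)) → (∀ s ∈ S, P (s : X.B)) → ∀ b ∈ X.B0, P b := by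
  letI : Module (Polynomial k) X.B0 := Module.compHom X.B0
    (Polynomial.aeval (⟨X.x, X.x_mem⟩ : X.B0) : Polynomial k →ₐ[k] X.B0).toRingHom
  have hfin : Module.Finite (Polynomial k) X.B0 := X.fin0
  obtain ⟨S, hS⟩ := hfin
  refine ⟨S, fun P h0 hadd hmul hs b hb => ?_⟩
  have key : ∀ c : X.B0, c ∈ Submodule.span (Polynomial k) (S : Set X.B0) → P (c : X.B) := by
    intro c hc
    induction hc using Submodule.span_induction with
    | mem c hc => exact hs c hc
    | zero => exact h0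
    | add c c' _ _ h1 h2 => exact hadd _ _ h1 h2
    | smul p c _ h1 =>
      have h2 : ((p • c : X.B0) : X.B) = Polynomial.aeval X.x p * (c : X.B) := by
        change ((Polynomial.aeval (⟨X.x, X.x_mem⟩ : X.B0) p * c : X.B0) : X.B) = _
        rw [Subalgebra.coe_mul]
        congr 1
        exact (Polynomial.aeval_algHom_apply X.B0.val (⟨X.x, X.x_mem⟩ : X.B0) p).symm
      rw [h2]
      exact hmul _ _ h1
  exact key ⟨b, hb⟩ (by rw [hS]; trivial)

end gens

section lb

variable {k : Type u} [Field k] {X : CurveData k} {A : Type u} [CommRing A] [Algebra k A]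
  (N : LB X A)

theorem LB.act_x_pow (n : ℕ) (m : N.M) : N.act (X.x ^ n) m = (T n : A[T;T⁻¹]) • m := by
  induction n with
  | zero => simp
  | succ n ih =>
    rw [pow_succ', map_mul, Module.End.mul_apply, ih, LB.act_x, T_smul_T_smul]
    congr 2
    push_cast
    ring

theorem LB.act_y_pow (n : ℕ) (m : N.M) : N.act (X.y ^ n) m = (T (-n) : A[T;T⁻¹]) • m := by
  induction n with
  | zero => simp
  | succ n ih =>
    rw [pow_succ', map_mul, Module.End.mul_apply, ih, LB.act_y, T_smul_T_smul]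
    congr 2
    push_cast
    ring

theorem LB.act_mem_twT {b : X.B} (hb : b ∈ X.Bi) {m : N.M} (hm : m ∈ twT N.Ai) :
    N.act b m ∈ twT N.Ai := by
  rw [mem_twT] at hm ⊢
  rw [← map_smul]
  exact LB.act_memi hb hm

variable {N}

theorem Split.act_aeval_mem_kerw (h : Split N.A0 N.Ai) {w : twT N.Ai →ₗ[A] A} {m : N.M}
    (hm : m ∈ h.kerw w) (p : Polynomial k) : N.act (Polynomial.aeval X.x p) m ∈ h.kerw w := by
  induction p using Polynomial.induction_on' with
  | add p q hp hq =>
    rw [map_add, map_add]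
    exact Submodule.add_mem _ hp hq
  | monomial n c =>
    rw [Polynomial.aeval_monomial, map_mul, Module.End.mul_apply, LB.act_k, LB.act_x_pow]
    exact Submodule.smul_mem _ _ (h.T_smul_mem_kerw hm _)

/-- a functional on `W = x Ni` on which `Bi` acts through the base point -/
def LB.Eigen (N : LB X A) (w : twT N.Ai →ₗ[A] A) : Prop :=
  ∀ (β : X.Bi) (m m' : twT N.Ai), (m' : N.M) = N.act β m → w m' = algebraMap k A (X.e β) * w m

/-- rigidified bundles have a surjective eigenfunctional -/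
theorem LB.Rig.exists_eigen (hN : N.Rig) : ∃ w : twT N.Ai →ₗ[A] A, N.Eigen w ∧
    Function.Surjective w := by
  obtain ⟨r, hr, hsurj⟩ := hN
  let φ : twT N.Ai →ₗ[A] N.Mi :=
    { toFun := fun m => ⟨(T (-1) : A[T;T⁻¹]) • (m : N.M), m.2⟩
      map_add' := fun m m' => by ext; simp [smul_add]
      map_smul' := fun c m => Subtype.ext (smul_comm _ _ _) }
  refine ⟨r ∘ₗ φ, fun β m m' hm => ?_, fun a => ?_⟩
  · have h1 : φ m' = ((1 : A) ⊗ₜ[k] β : X.Ri A) • φ m := by
      apply Subtype.ext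
      change (T (-1) : A[T;T⁻¹]) • (m' : N.M) = ((1 : A) ⊗ₜ[k] β : X.Ri A) • (T (-1) : A[T;T⁻¹]) • (m : N.M)
      rw [hm, ← map_smul, LB.act_apply, N.smuli]
      simp [CurveData.Ji]
    rw [LinearMap.comp_apply, h1, hr]
    congr 1
    simp [CurveData.eA, Algebra.ofId_apply]
  · obtain ⟨m, hm⟩ := hsurj a
    have hmem : (T 1 : A[T;T⁻¹]) • (m : N.M) ∈ twT N.Ai := by
      rw [mem_twT, T_smul_T_smul]
      simp
    refine ⟨⟨_, hmem⟩, ?_⟩
    rw [← hm, LinearMap.comp_apply]
    congr 1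
    apply Subtype.ext
    change (T (-1) : A[T;T⁻¹]) • (T 1 : A[T;T⁻¹]) • (m : N.M) = m
    rw [T_smul_T_smul]
    simp

/-- `w` is surjective on `V` -/
theorem LB.Eigen.exists_sec {w : twT N.Ai →ₗ[A] A} (hw : N.Eigen w) (h : Split N.A0 N.Ai)
    (hsurj : Function.Surjective w) (a : A) : ∃ v : secV N.A0 N.Ai, w ⟨v, v.2.2⟩ = a := by
  obtain ⟨m, hm⟩ := hsurj a
  obtain ⟨c, hc, b, hb, hcb⟩ := h.exists_add (m : N.M)
  have hb' : b ∈ twT N.Ai := h.sti b hb
  have hc' : c ∈ twT N.Ai := by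
    have : c = (m : N.M) - b := by rw [hcb]; abel
    rw [this]
    exact Submodule.sub_mem _ m.2 hb'
  refine ⟨⟨c, hc, hc'⟩, ?_⟩
  have hTb : (T 1 : A[T;T⁻¹]) • b ∈ twT N.Ai := by
    rw [mem_twT, T_smul_T_smul]
    simpa using hb
  have h0 : w ⟨b, hb'⟩ = 0 := by
    have h1 := hw ⟨X.y, X.y_mem⟩ ⟨_, hTb⟩ ⟨b, hb'⟩ (by
      change b = N.act X.y ((T 1 : A[T;T⁻¹]) • b)
      rw [LB.act_y, T_smul_T_smul]
      simp)
    rw [X.e_y, map_zero, zero_mul] at h1
    exact h1
  have h2 : m = (⟨c, hc'⟩ : twT N.Ai) + ⟨b, hb'⟩ := Subtype.ext hcb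
  rw [h2, map_add, h0, add_zero] at hm
  exact hm

end lb

section field

variable {k : Type u} [Field k] {X : CurveData k} {K : Type u} [Field K] [Algebra k K]
  {N : LB X K}

/-- integrality of `K ⊗ B0` over `K[x]` -/
theorem CurveData.isIntegral_R0 (A : Type u) [CommRing A] [Algebra k A] :
    (Polynomial.aeval (X.x0 A) : Polynomial A →ₐ[A] X.R0 A).toRingHom.IsIntegral := by
  letI algS : Algebra (Polynomial A) (X.R0 A) :=
    (Polynomial.aeval (X.x0 A) : Polynomial A →ₐ[A] X.R0 A).toRingHom.toAlgebra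
  have hmapS : ∀ c : Polynomial A, algebraMap (Polynomial A) (X.R0 A) c =
    Polynomial.aeval (X.x0 A) c := fun c => rfl
  intro z
  change IsIntegral (Polynomial A) z
  induction z using TensorProduct.induction_on with
  | zero => exact isIntegral_zero
  | add a b ha hb => exact ha.add hb
  | tmul c b =>
    have h1 : (c ⊗ₜ[k] b : X.R0 A) = algebraMap (Polynomial A) (X.R0 A) (Polynomial.C c) *
        ((1 : A) ⊗ₜ[k] b) := by
      rw [hmapS, Polynomial.aeval_C, Algebra.TensorProduct.algebraMap_apply,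
        Algebra.TensorProduct.tmul_mul_tmul]
      simp
    rw [h1]
    refine isIntegral_algebraMap.mul ?_
    obtain ⟨P, hP, hP0⟩ := X.fin0.to_isIntegral b
    refine ⟨P.map (Polynomial.mapRingHom (algebraMap k A)), hP.map _, ?_⟩
    rw [Polynomial.eval₂_map]
    have h2 : (algebraMap (Polynomial A) (X.R0 A)).comp (Polynomial.mapRingHom (algebraMap k A)) =
        (Algebra.TensorProduct.includeRight : X.B0 →ₐ[k] A ⊗[k] X.B0).toRingHom.comp
          (Polynomial.aeval (⟨X.x, X.x_mem⟩ : X.B0) : Polynomial k →ₐ[k] X.B0).toRingHom := by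
      ext c
      · simp [hmapS]
      · simp [hmapS, CurveData.x0]
    rw [h2]
    have h3 : ((1 : A) ⊗ₜ[k] b) =
        (Algebra.TensorProduct.includeRight : X.B0 →ₐ[k] A ⊗[k] X.B0).toRingHom b := rfl
    rw [h3, ← Polynomial.hom_eval₂, hP0, map_zero]

/-- a nonzero element of `K ⊗ B0` divides a nonzero polynomial in `x` -/
theorem CurveData.exists_mul_eq_aeval {r : X.R0 K} (hr : r ≠ 0) :
    ∃ (p : Polynomial K) (r' : X.R0 K), p ≠ 0 ∧ Polynomial.aeval (X.x0 K) p = r' * r := by
  haveI : IsDomain (X.R0 K) := (X.ded0 K).toIsDomain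
  letI algS : Algebra (Polynomial K) (X.R0 K) :=
    (Polynomial.aeval (X.x0 K) : Polynomial K →ₐ[K] X.R0 K).toRingHom.toAlgebra
  have hint : IsIntegral (Polynomial K) r := X.isIntegral_R0 K r
  have h1 : (Ideal.span {r}).comap (algebraMap (Polynomial K) (X.R0 K)) ≠ ⊥ :=
    Ideal.comap_ne_bot_of_integral_mem hr (Ideal.mem_span_singleton_self r) hint
  obtain ⟨p, hp, hp0⟩ := Submodule.exists_mem_ne_zero_of_ne_bot h1
  obtain ⟨r', hr'⟩ := Ideal.mem_span_singleton'.mp (Ideal.mem_comap.mp hp)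
  exact ⟨p, r', hp0, hr'.symm⟩

theorem Split.wc_aeval (h : Split N.A0 N.Ai) (w : twT N.Ai →ₗ[K] K) (v : secV N.A0 N.Ai)
    (p : Polynomial K) (n : ℕ) :
    h.wc w n ((Polynomial.aeval (X.x0 K) p : X.R0 K) • (v : N.M)) = p.coeff n * w ⟨v, v.2.2⟩ := by
  induction p using Polynomial.induction_on' with
  | add p q hp hq => rw [map_add, add_smul, map_add, hp, hq, Polynomial.coeff_add, add_mul]
  | monomial j c =>
    have h1 : (Polynomial.aeval (X.x0 K) (Polynomial.monomial j c) : X.R0 K) • (v : N.M) =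
        c • (T j : K[T;T⁻¹]) • (v : N.M) := by
      rw [Polynomial.aeval_monomial, mul_smul, algebraMap_smul, N.smul0, map_pow, X.J0_x0,
        LB.smul_lam, X.lam_T_nat]
    rw [h1, map_smul, h.wc_sec, Polynomial.coeff_monomial, smul_eq_mul]
    by_cases hj : j = n
    · subst hj
      simp
    · rw [if_neg hj, if_neg (by exact_mod_cast hj)]
      simp

/-- **The key lemma**: a vector of `V` whose `B0`-orbit is killed by `w ∘ c_n` vanishes. -/
theorem Split.eq_zero_of_orbit (h : Split N.A0 N.Ai) {w : twT N.Ai →ₗ[K] K} (hw : N.Eigen w)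
    (hsurj : Function.Surjective w) (v : secV N.A0 N.Ai)
    (hv : ∀ b ∈ X.B0, N.act b (v : N.M) ∈ h.kerw w) : v = 0 := by
  by_contra hne
  haveI : IsDomain (X.R0 K) := (X.ded0 K).toIsDomain
  haveI := N.inv0
  -- the orbit under `K ⊗ B0`
  have horb : ∀ r : X.R0 K, r • (v : N.M) ∈ h.kerw w := by
    intro r
    induction r using TensorProduct.induction_on with
    | zero =>
      have h0 : (0 : X.R0 K) • (v : N.M) = 0 := by
        rw [N.smul0, map_zero, zero_smul]
      rw [h0]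
      exact Submodule.zero_mem _
    | tmul a b =>
      have h1 : (a ⊗ₜ[k] b : X.R0 K) • (v : N.M) = a • N.act b (v : N.M) := by
        rw [LB.act_apply]
        have h2 : (1 ⊗ₜ (b : X.B) : X.R K) = X.J0 K (1 ⊗ₜ b) := by simp [CurveData.J0]
        rw [h2, ← N.smul0, ← smul_assoc, TensorProduct.smul_tmul', smul_eq_mul, mul_one]
      rw [h1]
      exact Submodule.smul_mem _ _ (hv b b.2)
    | add r s hr hs =>
      rw [add_smul]
      exact Submodule.add_mem _ hr hs
  -- a vector on which `w` does not vanish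
  obtain ⟨v₁, hv₁⟩ := hw.exists_sec h hsurj 1
  let m : N.M0 := ⟨(v : N.M), v.2.1⟩
  let m₁ : N.M0 := ⟨(v₁ : N.M), v₁.2.1⟩
  have hm : m ≠ 0 := fun h0 => by
    apply hne
    apply Subtype.ext
    exact congrArg (Subtype.val : N.M0 → N.M) h0
  obtain ⟨φ, hφ⟩ := Module.Projective.exists_dual_ne_zero (X.R0 K) hm
  have hrel : φ m • m₁ = φ m₁ • m := by
    have h2 := congrArg (TensorProduct.lid (X.R0 K) N.M0) (congrArg (LinearMap.rTensor N.M0 φ)
      (Module.Invertible.tmul_comm (R := X.R0 K) (M := N.M0) (m₁ := m) (m₂ := m₁)))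
    simpa using h2
  obtain ⟨p, r', hp, hpr⟩ := X.exists_mul_eq_aeval hφ
  have hmem : (Polynomial.aeval (X.x0 K) p : X.R0 K) • (v₁ : N.M) ∈ h.kerw w := by
    have h3 : (Polynomial.aeval (X.x0 K) p : X.R0 K) • (v₁ : N.M) = (r' * φ m₁) • (v : N.M) := by
      have h4 := congrArg (fun z : N.M0 => r' • (z : N.M)) hrel
      simp only [Submodule.coe_smul] at h4
      rw [hpr, mul_smul, mul_smul]
      exact h4
    rw [h3]
    exact horb _
  apply hp
  ext n
  have h5 := h.mem_kerw.mp hmem n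
  rw [h.wc_aeval, hv₁, mul_one] at h5
  rw [h5, Polynomial.coeff_zero]

end field

section main

variable {k : Type u} [Field k] (X : CurveData k)

/-- **The span lemma**: finitely many functionals `v ↦ w (c_n (b v))`, which do not depend on the
field `K` and on the bundle, separate the points of `V`. -/
theorem exists_span : ∃ (m : ℕ) (b : Fin m → X.B) (n : Fin m → ℤ),
    ∀ (K : Type u) [Field K] [Algebra k K] (N : LB X K) (h : Split N.A0 N.Ai)
      (w : twT N.Ai →ₗ[K] K), N.Eigen w → Function.Surjective w →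
      Function.Injective (h.coords0 N.act b n w) := by
  classical
  obtain ⟨S, hS⟩ := X.exists_gens
  have hex : ∀ s : X.B0, ∃ e : ℕ, X.y ^ e * (s : X.B) ∈ X.Bi := fun s => X.loci s
  choose e he using hex
  let J : Finset (Σ _ : X.B0, ℕ) := S.sigma fun s => Finset.range (e s + 1)
  refine ⟨J.card, fun j => ((J.equivFin.symm j).1.1 : X.B), fun j => ((J.equivFin.symm j).1.2 : ℤ),
    fun K _ _ N h w hw hsurj => ?_⟩
  rw [injective_iff_map_eq_zero]
  intro v hv
  refine h.eq_zero_of_orbit hw hsurj v fun b hb => ?_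
  refine hS (fun b => N.act b (v : N.M) ∈ h.kerw w) ?_ ?_ ?_ ?_ b hb
  · rw [map_zero]
    exact Submodule.zero_mem _
  · intro a b ha hb
    rw [map_add]
    exact Submodule.add_mem _ ha hb
  · intro p b hb
    rw [map_mul]
    exact h.act_aeval_mem_kerw hb p
  · intro s hs
    rw [h.mem_kerw]
    intro n
    rcases lt_or_ge n 0 with hn | hn
    · refine h.wc_eq_zero w n _ (h.cfV_T_mem0 (LB.act_mem0 s.2 v.2.1) (by omega))
    rcases lt_or_ge (e s : ℤ) n with hn' | hn'
    · refine h.wc_eq_zero w n _ ?_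
      have h1 : (T (-n) : K[T;T⁻¹]) • N.act (s : X.B) (v : N.M) =
          (T (-(n - e s)) : K[T;T⁻¹]) • N.act (X.y ^ (e s) * (s : X.B)) (v : N.M) := by
        rw [map_mul, Module.End.mul_apply, LB.act_y_pow, T_smul_T_smul]
        congr 2
        ring
      rw [h1]
      exact h.cfV_T_memtw (N.act_mem_twT (he s) v.2.2) (by omega)
    · lift n to ℕ using hn
      have hn2 : n < e s + 1 := by omega
      have hmem : (⟨s, n⟩ : Σ _ : X.B0, ℕ) ∈ J :=
        Finset.mem_sigma.mpr ⟨hs, Finset.mem_range.mpr hn2⟩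
      have h2 := congrFun hv (J.equivFin ⟨_, hmem⟩)
      rw [h.coords0_apply] at h2
      rw [h.wc_apply]
      simpa using h2

/-- functionals which separate the points span the dual -/
theorem span_proj_eq_top {K V : Type*} [Field K] [AddCommGroup V] [Module K V] {m : ℕ}
    (f : V →ₗ[K] (Fin m → K)) (hf : Function.Injective f) :
    Submodule.span K (Set.range fun j => (LinearMap.proj j ∘ₗ f : Module.Dual K V)) = ⊤ := by
  rw [eq_top_iff]
  rintro g -
  obtain ⟨g', rfl⟩ := LinearMap.dualMap_surjective_of_injective hf g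
  have h1 : f.dualMap g' = ∑ j, g' (Pi.single j 1) • (LinearMap.proj j ∘ₗ f : Module.Dual K V) := by
    ext v
    rw [LinearMap.dualMap_apply, LinearMap.sum_apply]
    conv_lhs => rw [← LinearMap.sum_single_apply (fun _ => K) (f v), map_sum]
    refine Finset.sum_congr rfl fun j _ => ?_
    have h2 : (Pi.single j (f v j) : Fin m → K) = f v j • Pi.single j 1 := by
      ext i
      by_cases hi : i = j
      · subst hi; simp
      · simp [Pi.single_eq_of_ne hi]
    rw [h2, map_smul, smul_eq_mul, mul_comm]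
    rfl
  rw [h1]
  exact Submodule.sum_mem _ fun j _ => Submodule.smul_mem _ _ (Submodule.subset_span ⟨j, rfl⟩)

/-- **The span lemma**, second form. -/
theorem exists_span_dual : ∃ (m : ℕ) (b : Fin m → X.B) (n : Fin m → ℤ),
    ∀ (K : Type u) [Field K] [Algebra k K] (N : LB X K) (h : Split N.A0 N.Ai)
      (w : twT N.Ai →ₗ[K] K), N.Eigen w → Function.Surjective w →
      FiniteDimensional K (secV N.A0 N.Ai) ∧
      Submodule.span K (Set.range fun j => (LinearMap.proj j ∘ₗ h.coords0 N.act b n w :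
        Module.Dual K (secV N.A0 N.Ai))) = ⊤ := by
  obtain ⟨m, b, n, hmain⟩ := exists_span X
  refine ⟨m, b, n, fun K _ _ N h w hw hsurj => ⟨?_, ?_⟩⟩
  · exact FiniteDimensional.of_injective _ (hmain K N h w hw hsurj)
  · exact span_proj_eq_top _ (hmain K N h w hw hsurj)

end main

end Fermat.Agent.Jac
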