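import Fermat.Agent.Jac.BC

set_option autoImplicit false
set_option linter.style.haveILetI false

/-!
# Uniqueness of rigidifications up to units
-/

open TensorProduct

universe u

namespace Fermat.Agent.Jac

variable {k : Type u} [Field k] {X : CurveData k} {A : Type u} [CommRing A] [Algebra k A]
  {A' : Type u} [CommRing A'] [Algebra k A']

/-- a trivialisation along the base section -/
structure LB.IsRig (L : LB X A) (r : L.Mi →ₗ[A] A) : Prop where
  smul : ∀ (b : X.Ri A) (m : L.Mi), r (b • m) = X.eA A b * r m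
  surj : Function.Surjective r

namespace LB

theorem rig_iff {L : LB X A} : L.Rig ↔ ∃ r, L.IsRig r :=
  ⟨fun ⟨r, h1, h2⟩ => ⟨r, h1, h2⟩, fun ⟨r, h⟩ => ⟨r, h.1, h.2⟩⟩

/-- the exchange identity -/
theorem rig_exchange {L : LB X A} (r r' : L.Mi →ₗ[A] A)
    (hr : ∀ (b : X.Ri A) (m : L.Mi), r (b • m) = X.eA A b * r m)
    (hr' : ∀ (b : X.Ri A) (m : L.Mi), r' (b • m) = X.eA A b * r' m) (m n : L.Mi) :
    r m * r' n = r n * r' m := by
  letI : Module (X.Ri A) A := Module.compHom A (X.eA A).toRingHom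
  have hs : ∀ (b : X.Ri A) (a : A), b • a = X.eA A b * a := fun _ _ => rfl
  haveI : Module.Invertible (X.Ri A) L.Mi := L.invi
  let β : L.Mi →ₗ[X.Ri A] L.Mi →ₗ[X.Ri A] A :=
    LinearMap.mk₂ (X.Ri A) (fun m n => r m * r' n)
      (fun m m' n => by rw [map_add, add_mul])
      (fun b m n => by rw [hr, hs, mul_assoc])
      (fun m n n' => by rw [map_add, mul_add])
      (fun b m n => by rw [hr', hs]; ring)
  have h1 : TensorProduct.lift β (m ⊗ₜ n) = TensorProduct.lift β (n ⊗ₜ m) := by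
    rw [Module.Invertible.tmul_comm]
  rwa [TensorProduct.lift.tmul, TensorProduct.lift.tmul] at h1

/-- **two rigidifications differ by a unit** -/
theorem IsRig.unique {L : LB X A} {r r' : L.Mi →ₗ[A] A} (h : L.IsRig r) (h' : L.IsRig r') :
    ∃ v : Aˣ, ∀ m, r' m = v * r m := by
  obtain ⟨m0, hm0⟩ := h.surj 1
  have h1 : ∀ n, r' n = r' m0 * r n := fun n => by
    have := rig_exchange r r' h.smul h'.smul m0 n
    rw [hm0, one_mul] at this
    rw [this, mul_comm]
  obtain ⟨n, hn⟩ := h'.surj 1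
  refine ⟨Units.mkOfMulEqOne (r' m0) (r n) (by rw [← h1, hn]), h1⟩

theorem IsRig.unit_smul {L : LB X A} {r : L.Mi →ₗ[A] A} (h : L.IsRig r) (v : Aˣ) :
    L.IsRig ((v : A) • r) where
  smul b m := by
    rw [LinearMap.smul_apply, LinearMap.smul_apply, h.smul, smul_eq_mul, smul_eq_mul]
    ring
  surj a := by
    obtain ⟨m, hm⟩ := h.surj (↑v⁻¹ * a)
    refine ⟨m, ?_⟩
    rw [LinearMap.smul_apply, hm, smul_eq_mul, ← mul_assoc, Units.mul_inv, one_mul]

/-- multiplication by a unit of `A` as an automorphism -/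
def Map.unit (L : LB X A) (v : Aˣ) : Map (AlgHom.id k A) L L where
  f := DistribSMul.toAddMonoidHom L.M (v : A)
  map_smul r m := by
    rw [X.bb_id]
    change (v : A) • r • m = r • (v : A) • m
    rw [L.smulA, L.smulA, smul_smul, smul_smul, mul_comm]
  span0 := by
    have h1 : (DistribSMul.toAddMonoidHom L.M (v : A) '' (L.M0 : Set L.M)) = (L.M0 : Set L.M) := by
      ext m
      constructor
      · rintro ⟨m, hm, rfl⟩
        exact (L.A0).smul_mem (v : A) hm
      · intro hm
        refine ⟨(↑v⁻¹ : A) • m, (L.A0).smul_mem _ hm, ?_⟩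
        change (v : A) • (↑v⁻¹ : A) • m = m
        rw [smul_smul, Units.mul_inv, one_smul]
    rw [h1, Submodule.span_eq]
  spani := by
    have h1 : (DistribSMul.toAddMonoidHom L.M (v : A) '' (L.Mi : Set L.M)) = (L.Mi : Set L.M) := by
      ext m
      constructor
      · rintro ⟨m, hm, rfl⟩
        exact (L.Ai).smul_mem (v : A) hm
      · intro hm
        refine ⟨(↑v⁻¹ : A) • m, (L.Ai).smul_mem _ hm, ?_⟩
        change (v : A) • (↑v⁻¹ : A) • m = m
        rw [smul_smul, Units.mul_inv, one_smul]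
    rw [h1, Submodule.span_eq]

/-- the rigidification obtained by base change along `F` -/
theorem IsRig.exists_map {h : A →ₐ[k] A'} {L : LB X A} {L' : LB X A'} (F : Map h L L')
    {r : L.Mi →ₗ[A] A} (hr : L.IsRig r) :
    ∃ r' : L'.Mi →ₗ[A'] A', L'.IsRig r' ∧ ∀ m, r' (F.fi m) = h (r m) := by
  have he : ∀ b : X.Ri A, X.eA A' (X.bi h b) = h (X.eA A b) := by
    intro b
    induction b using TensorProduct.induction_on with
    | zero => simp
    | tmul a b => simp [CurveData.bi, CurveData.eA, Algebra.ofId_apply]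
    | add r s hr hs => rw [map_add, map_add, hr, hs, map_add, map_add]
  obtain ⟨g, hg, hgf⟩ := exists_lift_of_span (S := X.Ri A) (S' := X.Ri A') (S'' := A')
    (X.bi h).toRingHom (X.eA A').toRingHom F.fi F.fi_smul F.span_rangei
    ((h : A →+ A').comp r.toAddMonoidHom)
    (fun s m => by
      change h (r (s • m)) = X.eA A' (X.bi h s) • h (r m)
      rw [hr.smul, map_mul, he, smul_eq_mul])
  have hg' : ∀ (a : A') (m : L'.Mi), g (a • m) = a • g m := by
    intro a m
    have h1 : a • m = (algebraMap A' (X.Ri A') a) • m := by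
      apply Subtype.ext
      change a • m.1 = (algebraMap A' (X.Ri A') a) • m.1
      rw [algebraMap_smul]
    rw [h1, hg]
    change X.eA A' (algebraMap A' (X.Ri A') a) • g m = a • g m
    rw [(X.eA A').commutes]
    rfl
  refine ⟨{ toFun := g, map_add' := g.map_add, map_smul' := hg' }, ⟨hg, fun a => ?_⟩, hgf⟩
  obtain ⟨m, hm⟩ := hr.surj 1
  refine ⟨a • F.fi m, ?_⟩
  change g (a • F.fi m) = a
  rw [hg', hgf]
  change a • h (r m) = a
  rw [hm, map_one, smul_eq_mul, mul_one]

/-- an isomorphism of rigidified bundles can be chosen compatible with the rigidifications -/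
theorem Iso.exists_rig {L L' : LB X A} (i : Iso L L') {r : L.Mi →ₗ[A] A} {r' : L'.Mi →ₗ[A] A}
    (hr : L.IsRig r) (hr' : L'.IsRig r') :
    ∃ F : Map (AlgHom.id k A) L L', ∀ m, r' (F.fi m) = r m := by
  obtain ⟨F⟩ := i
  obtain ⟨s, hs, hsF⟩ := IsRig.exists_map F hr
  obtain ⟨v, hv⟩ := hs.unique hr'
  refine ⟨(F.comp (Map.unit L v⁻¹)).congr (AlgHom.id_comp _), fun m => ?_⟩
  have h1 : ((F.comp (Map.unit L v⁻¹)).congr (AlgHom.id_comp _)).fi m =
      F.fi ((↑v⁻¹ : A) • m) := rfl
  have h2 : F.fi ((↑v⁻¹ : A) • m) = (↑v⁻¹ : A) • F.fi m := by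
    apply Subtype.ext
    change F.f ((↑v⁻¹ : A) • m.1) = (↑v⁻¹ : A) • F.f m.1
    rw [F.smulA]
    rfl
  rw [h1, h2, map_smul, hv, hsF, smul_eq_mul, ← mul_assoc, Units.inv_mul, one_mul]
  rfl

end LB

end Fermat.Agent.Jac
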