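import Fermat.Agent.Jac.ChRho
import Fermat.Agent.Jac.ChRep
import Fermat.Agent.Jac.GoodSpan
import Fermat.Agent.Jac.RigU
import Fermat.Agent.Jac.LBCoh

/-!
# Base change of good bundles
-/

universe u

set_option autoImplicit false
set_option linter.style.haveILetI false

open TensorProduct LaurentPolynomial

namespace Fermat.Agent.Jac

variable {k : Type u} [Field k] {X : CurveData k} {A : Type u} [CommRing A] [Algebra k A]
  {A' : Type u} [CommRing A'] [Algebra k A']

/-- base change of Laurent polynomials -/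
noncomputable def mapLp (g : A →ₐ[k] A') : A[T;T⁻¹] →ₐ[k] A'[T;T⁻¹] := AddMonoidAlgebra.mapAlgHom ℤ g

theorem coeff_mapLp (g : A →ₐ[k] A') (p : A[T;T⁻¹]) (n : ℤ) :
    (mapLp g p).coeff n = g (p.coeff n) := by
  rw [mapLp, AddMonoidAlgebra.coeff_mapAlgHom]

theorem mapLp_C_mul_T (g : A →ₐ[k] A') (a : A) (n : ℤ) :
    mapLp g (C a * T n) = C (g a) * T n := by
  ext m
  rw [coeff_mapLp, coeff_C_mul_T, coeff_C_mul_T]
  split_ifs
  · rfl
  · exact map_zero g

theorem mapLp_T (g : A →ₐ[k] A') (n : ℤ) : mapLp g (T n) = T n := by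
  have h := mapLp_C_mul_T g 1 n
  simpa using h

theorem CurveData.bb_algebraMap (g : A →ₐ[k] A') (a : A) :
    X.bb g (algebraMap A (X.R A) a) = algebraMap A' (X.R A') (g a) := by
  simp [CurveData.bb, Algebra.TensorProduct.algebraMap_apply]

theorem CurveData.bb_one_tmul (g : A →ₐ[k] A') (b : X.B) :
    X.bb g ((1 : A) ⊗ₜ[k] b) = (1 : A') ⊗ₜ[k] b := by
  simp [CurveData.bb]

theorem CurveData.map_xU (g : A →ₐ[k] A') :
    Units.map (X.bb g : X.R A →* X.R A') (X.xU A) = X.xU A' := by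
  apply Units.ext
  change X.bb g (X.xA A) = X.xA A'
  exact X.bb_one_tmul g X.x

theorem CurveData.bb_lam (g : A →ₐ[k] A') (p : A[T;T⁻¹]) :
    X.bb g (X.lam A p) = X.lam A' (mapLp g p) := by
  induction p using LaurentPolynomial.induction_on' with
  | add p q hp hq => rw [map_add, map_add, hp, hq, map_add, map_add]
  | C_mul_T n a =>
    rw [mapLp_C_mul_T, map_mul, map_mul, map_mul, X.lam_C, X.lam_C, X.bb_algebraMap, X.lam_T,
      X.lam_T, ← X.map_xU g, ← map_zpow]
    rfl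

section rig

variable (N : LB X A)

/-- `T⁻¹ : W ≃ Ni` -/
noncomputable def LB.twEquiv : twT N.Ai ≃ₗ[A] N.Mi where
  toFun m := ⟨(T (-1) : A[T;T⁻¹]) • (m : N.M), m.2⟩
  map_add' m m' := by ext; simp [smul_add]
  map_smul' c m := Subtype.ext (smul_comm _ _ _)
  invFun m := ⟨(T 1 : A[T;T⁻¹]) • (m : N.M), by
    rw [mem_twT, T_smul_T_smul]
    simp⟩
  left_inv m := by
    apply Subtype.ext
    change (T 1 : A[T;T⁻¹]) • (T (-1) : A[T;T⁻¹]) • (m : N.M) = m
    rw [T_smul_T_smul]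
    simp
  right_inv m := by
    apply Subtype.ext
    change (T (-1) : A[T;T⁻¹]) • (T 1 : A[T;T⁻¹]) • (m : N.M) = m
    rw [T_smul_T_smul]
    simp

theorem LB.coe_twEquiv (m : twT N.Ai) :
    (N.twEquiv m : N.M) = (T (-1) : A[T;T⁻¹]) • (m : N.M) := rfl

theorem LB.coe_twEquiv_symm (m : N.Mi) :
    (N.twEquiv.symm m : N.M) = (T 1 : A[T;T⁻¹]) • (m : N.M) := rfl

variable {N}

theorem LB.IsRig.eigen {r : N.Mi →ₗ[A] A} (hr : N.IsRig r) :
    N.Eigen (r ∘ₗ N.twEquiv.toLinearMap) := by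
  intro β m m' hm
  have h1 : N.twEquiv m' = ((1 : A) ⊗ₜ[k] β : X.Ri A) • N.twEquiv m := by
    apply Subtype.ext
    change (T (-1) : A[T;T⁻¹]) • (m' : N.M) =
      ((1 : A) ⊗ₜ[k] β : X.Ri A) • (T (-1) : A[T;T⁻¹]) • (m : N.M)
    rw [hm, ← map_smul, LB.act_apply, N.smuli]
    simp [CurveData.Ji]
  rw [LinearMap.comp_apply, LinearEquiv.coe_coe, h1, hr.smul]
  congr 1
  simp [CurveData.eA, Algebra.ofId_apply]

theorem LB.Eigen.isRig {w : twT N.Ai →ₗ[A] A} (hw : N.Eigen w) (hsurj : Function.Surjective w) :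
    N.IsRig (w ∘ₗ N.twEquiv.symm.toLinearMap) := by
  refine ⟨fun b m => ?_, hsurj.comp N.twEquiv.symm.surjective⟩
  induction b using TensorProduct.induction_on with
  | zero =>
    have h0 : (0 : X.Ri A) • m = 0 := Subtype.ext (zero_smul (X.Ri A) (m : N.M))
    exact (congrArg (w ∘ₗ N.twEquiv.symm.toLinearMap) h0).trans (by
      rw [map_zero]
      exact ((congrArg (· * (w ∘ₗ N.twEquiv.symm.toLinearMap) m) (map_zero (X.eA A))).trans
        (zero_mul _)).symm)
  | tmul a b =>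
    have h1 : (a ⊗ₜ b : X.Ri A) • m = a • ((1 ⊗ₜ b : X.Ri A) • m) := by
      rw [← smul_assoc, TensorProduct.smul_tmul', smul_eq_mul, mul_one]
    rw [h1, map_smul, smul_eq_mul]
    have h2 : (w ∘ₗ N.twEquiv.symm.toLinearMap) ((1 ⊗ₜ b : X.Ri A) • m) =
        algebraMap k A (X.e b) * (w ∘ₗ N.twEquiv.symm.toLinearMap) m := by
      refine hw b (N.twEquiv.symm m) (N.twEquiv.symm ((1 ⊗ₜ b : X.Ri A) • m)) ?_
      change (T 1 : A[T;T⁻¹]) • ((1 ⊗ₜ b : X.Ri A) • (m : N.M)) =
        N.act b ((T 1 : A[T;T⁻¹]) • (m : N.M))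
      rw [map_smul, LB.act_apply, N.smuli]
      simp [CurveData.Ji]
    rw [h2, ← mul_assoc]
    congr 1
  | add b b' hb hb' => rw [add_smul, map_add, hb, hb', map_add, add_mul]

end rig

namespace LB.Map

variable {g : A →ₐ[k] A'} {N : LB X A} {N' : LB X A'} (F : LB.Map g N N')

theorem f_lam (p : A[T;T⁻¹]) (m : N.M) : F.f (p • m) = mapLp g p • F.f m := by
  rw [LB.smul_lam, LB.smul_lam, F.map_smul, X.bb_lam]

theorem f_T (n : ℤ) (m : N.M) : F.f ((T n : A[T;T⁻¹]) • m) = (T n : A'[T;T⁻¹]) • F.f m := by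
  rw [F.f_lam, mapLp_T]

theorem f_act (b : X.B) (m : N.M) : F.f (N.act b m) = N'.act b (F.f m) := by
  rw [LB.act_apply, LB.act_apply, F.map_smul, X.bb_one_tmul]

theorem mem_tw {m : N.M} (hm : m ∈ twT N.Ai) : F.f m ∈ twT N'.Ai := by
  rw [mem_twT] at hm ⊢
  rw [← F.f_T]
  exact F.memi hm

theorem mem_sec {m : N.M} (hm : m ∈ secV N.A0 N.Ai) : F.f m ∈ secV N'.A0 N'.Ai :=
  ⟨F.mem0 hm.1, F.mem_tw hm.2⟩

variable (h : Split N.A0 N.Ai) (h' : Split N'.A0 N'.Ai)

theorem f_proj0 (m : N.M) : N'.A0.projection N'.Ai h'.compl (F.f m) =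
    F.f (N.A0.projection N.Ai h.compl m) := by
  have h1 : F.f m = F.f (N.A0.projection N.Ai h.compl m) +
      F.f (m - N.A0.projection N.Ai h.compl m) := by
    rw [← map_add, add_sub_cancel]
  conv_lhs => rw [h1, map_add]
  rw [N'.A0.projection_apply_of_mem_left h'.compl
    (F.mem0 (N.A0.projection_apply_mem h.compl m)),
    (N'.A0.projection_apply_eq_zero_iff h'.compl).mpr (F.memi (N.A0.sub_projection_mem h.compl m)),
    add_zero]

theorem f_proji (m : N.M) : N'.Ai.projection N'.A0 h'.compl.symm (F.f m) =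
    F.f (N.Ai.projection N.A0 h.compl.symm m) := by
  have h1 : F.f m = F.f (N.Ai.projection N.A0 h.compl.symm m) +
      F.f (m - N.Ai.projection N.A0 h.compl.symm m) := by
    rw [← map_add, add_sub_cancel]
  conv_lhs => rw [h1, map_add]
  rw [N'.Ai.projection_apply_of_mem_left h'.compl.symm
    (F.memi (N.Ai.projection_apply_mem h.compl.symm m)),
    (N'.Ai.projection_apply_eq_zero_iff h'.compl.symm).mpr
      (F.mem0 (N.Ai.sub_projection_mem h.compl.symm m)), add_zero]

theorem f_cfV (m : N.M) : (h'.cfV (F.f m) : N'.M) = F.f (h.cfV m : N.M) := by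
  rw [Split.coe_cfV, Split.coe_cfV, F.f_proj0 h h', ← F.f_T, F.f_proji h h', F.f_T]

theorem cfV_f (m : N.M) : h'.cfV (F.f m) = ⟨F.f (h.cfV m : N.M), F.mem_sec (h.cfV m).2⟩ :=
  Subtype.ext (F.f_cfV h h' m)

/-- base change of eigenfunctionals -/
theorem exists_eigen_map {w : twT N.Ai →ₗ[A] A} (hw : N.Eigen w) (hsurj : Function.Surjective w) :
    ∃ w' : twT N'.Ai →ₗ[A'] A', N'.Eigen w' ∧ Function.Surjective w' ∧
      ∀ (m : twT N.Ai) (m' : twT N'.Ai), (m' : N'.M) = F.f m → w' m' = g (w m) := by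
  obtain ⟨r', hr', hr⟩ := (hw.isRig hsurj).exists_map F
  refine ⟨r' ∘ₗ N'.twEquiv.toLinearMap, hr'.eigen, hr'.surj.comp N'.twEquiv.surjective,
    fun m m' hm => ?_⟩
  have h1 : N'.twEquiv m' = F.fi (N.twEquiv m) := by
    apply Subtype.ext
    change (T (-1) : A'[T;T⁻¹]) • (m' : N'.M) = F.f ((T (-1) : A[T;T⁻¹]) • (m : N.M))
    rw [F.f_T, hm]
  rw [LinearMap.comp_apply, LinearEquiv.coe_coe, h1, hr]
  simp

variable {w : twT N.Ai →ₗ[A] A} {w' : twT N'.Ai →ₗ[A'] A'}
  (hww : ∀ (m : twT N.Ai) (m' : twT N'.Ai), (m' : N'.M) = F.f m → w' m' = g (w m))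

include hww

theorem coords0_map {m : ℕ} (b : Fin m → X.B) (n : Fin m → ℤ) (v : secV N.A0 N.Ai)
    (v' : secV N'.A0 N'.Ai) (hv : (v' : N'.M) = F.f v) (j : Fin m) :
    h'.coords0 N'.act b n w' v' j = g (h.coords0 N.act b n w v j) := by
  rw [h'.coords0_apply, h.coords0_apply]
  apply hww
  change (h'.cfV ((T (-n j) : A'[T;T⁻¹]) • N'.act (b j) (v' : N'.M)) : N'.M) =
    F.f (h.cfV ((T (-n j) : A[T;T⁻¹]) • N.act (b j) (v : N.M)) : N.M)
  rw [← F.f_cfV h h', F.f_T, F.f_act, hv]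

/-- the canonical coordinates and base change -/
theorem coords_map {d m : ℕ} (b : Fin m → X.B) (n : Fin m → ℤ) (t : Matrix (Fin d) (Fin m) k)
    (v : secV N.A0 N.Ai) (v' : secV N'.A0 N'.Ai) (hv : (v' : N'.M) = F.f v) (i : Fin d) :
    h'.coords N'.act b n t w' v' i = g (h.coords N.act b n t w v i) := by
  rw [h'.coords_apply, h.coords_apply, map_sum]
  refine Finset.sum_congr rfl fun j _ => ?_
  rw [map_mul, g.commutes, F.coords0_map h h' hww b n v v' hv]

end LB.Map

section span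

variable {g : A →ₐ[k] A'} {N : LB X A} {N' : LB X A'} (F : LB.Map g N N')

/-- the image generates over `A'` -/
theorem LB.Map.span_A : Submodule.span A' (Set.range F.f) = ⊤ := by
  -- a submodule over `A' ⊗ B`
  have hstab : ∀ (r : X.R A') (x : N'.M), x ∈ Submodule.span A' (Set.range F.f) →
      r • x ∈ Submodule.span A' (Set.range F.f) := by
    intro r x hx
    induction hx using Submodule.span_induction with
    | zero => rw [smul_zero]; exact Submodule.zero_mem _
    | add x y _ _ hx hy => rw [smul_add]; exact Submodule.add_mem _ hx hy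
    | smul a x _ hx => rw [smul_comm]; exact Submodule.smul_mem _ _ hx
    | mem x hx =>
      obtain ⟨m, rfl⟩ := hx
      induction r using TensorProduct.induction_on with
      | zero =>
        rw [show (0 : X.R A') • F.f m = 0 from zero_smul (X.R A') _]
        exact Submodule.zero_mem _
      | add r s hr hs => rw [add_smul]; exact Submodule.add_mem _ hr hs
      | tmul a b =>
        have h1 : (a ⊗ₜ[k] b : X.R A') • F.f m = a • F.f (N.act b m) := by
          rw [F.f_act, LB.act_apply, ← smul_assoc, TensorProduct.smul_tmul', smul_eq_mul, mul_one]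
        rw [h1]
        exact Submodule.smul_mem _ _ (Submodule.subset_span ⟨_, rfl⟩)
  let P : Submodule (X.R A') N'.M :=
    { carrier := Submodule.span A' (Set.range F.f)
      add_mem' := fun ha hb => Submodule.add_mem _ ha hb
      zero_mem' := Submodule.zero_mem _
      smul_mem' := fun r x hx => hstab r x hx }
  have hP : P = ⊤ := by
    rw [eq_top_iff, ← F.span_range, Submodule.span_le]
    exact fun x hx => Submodule.subset_span hx
  rw [eq_top_iff]
  intro x _
  have : x ∈ P := hP ▸ Submodule.mem_top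
  exact this

variable (h : Split N.A0 N.Ai) (h' : Split N'.A0 N'.Ai) {ι : Type*} [Fintype ι]
  (e : Module.Basis ι A (secV N.A0 N.Ai))

include h in
/-- the images of a basis of `V` generate over `A'[T;T⁻¹]` -/
theorem LB.Map.exists_sum_lp (x : N'.M) : ∃ f : ι → A'[T;T⁻¹], x = ∑ i, f i • F.f (e i) := by
  have hx : x ∈ Submodule.span A' (Set.range F.f) := by rw [F.span_A]; trivial
  induction hx using Submodule.span_induction with
  | zero => exact ⟨0, by simp⟩
  | add x y _ _ hx hy =>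
    obtain ⟨f, rfl⟩ := hx
    obtain ⟨f', rfl⟩ := hy
    exact ⟨f + f', by simp [add_smul, Finset.sum_add_distrib]⟩
  | smul a x _ hx =>
    obtain ⟨f, rfl⟩ := hx
    refine ⟨fun i => C a * f i, ?_⟩
    rw [Finset.smul_sum]
    refine Finset.sum_congr rfl fun i _ => ?_
    rw [mul_smul, C_smul']
  | mem x hx =>
    obtain ⟨m, rfl⟩ := hx
    refine ⟨fun i => mapLp g ((h.basis e).repr m i), ?_⟩
    conv_lhs => rw [← (h.basis e).sum_repr m, map_sum]
    refine Finset.sum_congr rfl fun i _ => ?_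
    rw [F.f_lam, h.basis_apply]

include h h' in
/-- the images of a basis of `V` generate `V'` -/
theorem LB.Map.exists_sum_sec (v' : secV N'.A0 N'.Ai) :
    ∃ a : ι → A', v' = ∑ i, a i • (⟨F.f (e i), F.mem_sec (e i).2⟩ : secV N'.A0 N'.Ai) := by
  obtain ⟨f, hf⟩ := F.exists_sum_lp h e (v' : N'.M)
  refine ⟨fun i => (f i).coeff 0, ?_⟩
  have h1 := h'.cfV_coe v'
  rw [← h1, hf, map_sum]
  refine Finset.sum_congr rfl fun i _ => ?_
  exact h'.cfV_lp (⟨F.f (e i), F.mem_sec (e i).2⟩ : secV N'.A0 N'.Ai) (f i)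

end span

section good

variable {g : A →ₐ[k] A'} {N : LB X A} {N' : LB X A'} (F : LB.Map g N N') {q : Frame X}
  {ρ : X.B →ₐ[k] Matrix (Fin q.d) (Fin q.d) A[T;T⁻¹]} {u : Fin q.d → A} {h : Split N.A0 N.Ai}
  {w : twT N.Ai →ₗ[A] A} {e : Module.Basis (Fin q.d) A (secV N.A0 N.Ai)}

include F in
theorem LB.Map.split_map (h : Split N.A0 N.Ai) : Split N'.A0 N'.Ai :=
  N'.split (LB.BC.isCompl ⟨F⟩ h.compl)

/-- **Base change of good bundles**, with matrices -/
theorem LB.HasRho.map (H : N.HasRho q ρ u h w e) (F : LB.Map g N N') :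
    ∃ (h' : Split N'.A0 N'.Ai) (w' : twT N'.Ai →ₗ[A'] A')
      (e' : Module.Basis (Fin q.d) A' (secV N'.A0 N'.Ai)),
      N'.HasRho q ((ChRep.mapM q.d g).comp ρ) (fun i => g (u i)) h' w' e' ∧
      (∀ i, (e' i : N'.M) = F.f (e i)) ∧
      ∀ (m : twT N.Ai) (m' : twT N'.Ai), (m' : N'.M) = F.f m → w' m' = g (w m) := by
  classical
  have h' : Split N'.A0 N'.Ai := F.split_map h
  obtain ⟨w', hw', hsurj', hww⟩ := F.exists_eigen_map (w := w) H.cyc.eigen H.cyc.surj
  let ee : Fin q.d → secV N'.A0 N'.Ai := fun i => ⟨F.f (e i), F.mem_sec (e i).2⟩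
  have hcoords : ∀ i, h'.coords N'.act q.b q.n q.t w' (ee i) = Pi.single i 1 := by
    intro i
    ext l
    rw [F.coords_map h h' hww q.b q.n q.t (e i) (ee i) rfl l, H.coords i]
    by_cases hl : l = i
    · subst hl; simp
    · simp [Pi.single_eq_of_ne hl]
  have hsum : ∀ a : Fin q.d → A', h'.coords N'.act q.b q.n q.t w' (∑ i, a i • ee i) = a := by
    intro a
    rw [map_sum]
    ext l
    rw [Finset.sum_apply]
    simp [hcoords, Pi.single_apply]
  have hbij : Function.Bijective (h'.coords N'.act q.b q.n q.t w') := by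
    refine ⟨?_, fun a => ⟨_, hsum a⟩⟩
    rw [injective_iff_map_eq_zero]
    intro v' hv'
    obtain ⟨a, ha⟩ := F.exists_sum_sec h h' e v'
    have ha' : v' = ∑ i, a i • ee i := ha
    rw [ha', hsum] at hv'
    rw [ha', hv']
    simp
  let E : secV N'.A0 N'.Ai ≃ₗ[A'] (Fin q.d → A') := LinearEquiv.ofBijective _ hbij
  let e' : Module.Basis (Fin q.d) A' (secV N'.A0 N'.Ai) := Module.Basis.ofEquivFun E
  have he' : ∀ i, e' i = ee i := by
    intro i
    rw [Module.Basis.coe_ofEquivFun, LinearEquiv.symm_apply_eq]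
    exact (hcoords i).symm
  refine ⟨h', w', e', ⟨⟨hw', hsurj', hbij⟩, fun i => ?_, fun b l => ?_, fun i => ?_⟩,
    fun i => by rw [he'], hww⟩
  · rw [he', hcoords]
  · rw [he']
    change N'.act b (F.f (e l)) = _
    rw [← F.f_act, H.act, map_sum]
    refine Finset.sum_congr rfl fun i _ => ?_
    rw [F.f_lam, he']
    rfl
  · rw [← H.val]
    exact hww _ _ (by rw [he'])

end good

end Fermat.Agent.Jac
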