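import Fermat.Agent.Jac.Good
import Fermat.Agent.Jac.Emb
import Fermat.Agent.Jac.Basic

/-!
# The dimension of `V = N0 ∩ x Ni` is the degree of `x`
-/

universe u

set_option autoImplicit false
set_option linter.all false

open TensorProduct LaurentPolynomial Polynomial

namespace Fermat.Agent.Jac

variable {k : Type u} [Field k] {X : CurveData k} {K : Type u} [Field K] [Algebra k K]

section Rank

variable (N : LB X K)

/-- `M0` as a module over polynomials in `x` -/
noncomputable abbrev LB.polMod0 : Module K[X] N.M0 :=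
  Module.compHom N.M0 (aeval (X.x0 K) : K[X] →ₐ[K] X.R0 K).toRingHom

theorem LB.rank_polMod0 :
    letI := N.polMod0
    Module.rank K[X] N.M0 = X.deg := by
  letI := N.polMod0
  letI alg : Algebra K[X] (X.R0 K) := (aeval (X.x0 K)).toAlgebra
  have hsm : ∀ (p : K[X]) (r : X.R0 K), p • r = aeval (X.x0 K) p * r := fun p r => rfl
  have hsm' : ∀ (p : K[X]) (m : N.M0), p • m = aeval (X.x0 K) p • m := fun p r => rfl
  have hd : IsDomain (X.R0 K) := (X.ded0 K).toIsDomain
  have hinv := N.inv0
  obtain ⟨e, he, hp⟩ := exists_proportional (S := X.R0 K) (N := N.M0)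
  obtain ⟨c, -⟩ := X.exists_basis_aeval_x0 K
  have h1 : Module.rank K[X] (X.R0 K) = X.deg := by
    rw [rank_eq_card_basis c, Fintype.card_fin]
  rw [← h1]
  apply le_antisymm
  · let f : N.M0 →ₗ[K[X]] X.R0 K :=
      { toFun := e
        map_add' := map_add e
        map_smul' := fun p m => by
          rw [hsm', hsm, map_smul, smul_eq_mul]
          rfl }
    exact LinearMap.rank_le_of_injective f he
  · haveI : Nontrivial N.M0 := by
      by_contra hn
      rw [not_nontrivial_iff_subsingleton] at hn
      exact zero_ne_one ((Module.Invertible.toModuleEnd_bijective (X.R0 K) N.M0).injective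
        (LinearMap.ext fun a => Subsingleton.elim _ _))
    obtain ⟨m, hm⟩ := exists_ne (0 : N.M0)
    have hem : e m ≠ 0 := fun h0 => hm (he (by rw [h0, map_zero]))
    let f : X.R0 K →ₗ[K[X]] N.M0 :=
      { toFun := fun r => r • m
        map_add' := fun r s => add_smul r s m
        map_smul' := fun p r => mul_smul (aeval (X.x0 K) p) r m }
    refine LinearMap.rank_le_of_injective f fun r s hrs => ?_
    have h3 : r • m = s • m := hrs
    have h4 := congrArg e h3
    rw [map_smul, map_smul, smul_eq_mul, smul_eq_mul] at h4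
    exact mul_right_cancel₀ hem h4

variable {N} (h : Split N.A0 N.Ai)

/-- `V ⊂ M0` -/
def LB.secM0 (v : secV N.A0 N.Ai) : N.M0 := ⟨v, v.2.1⟩

theorem LB.coe_secM0 (v : secV N.A0 N.Ai) : ((LB.secM0 v : N.M0) : N.M) = v := rfl

/-- `M0 = ⊕ xⁿ V`: the coefficients of `f(x) v` -/
theorem cfV_J0_aeval (f : K[X]) (v : secV N.A0 N.Ai) (n : ℕ) :
    h.cfV ((T (-(n : ℤ)) : K[T;T⁻¹]) • (X.J0 K (aeval (X.x0 K) f) • (v : N.M))) =
      f.coeff n • v := by
  have h4 : X.J0 K (aeval (X.x0 K) f) • (v : N.M) =
      ∑ j ∈ Finset.range (f.natDegree + 1), f.coeff j • ((T j : K[T;T⁻¹]) • (v : N.M)) := by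
    rw [Polynomial.aeval_eq_sum_range, map_sum, Finset.sum_smul]
    refine Finset.sum_congr rfl fun j _ => ?_
    rw [map_smul, map_pow, X.J0_x0, smul_assoc]
    congr 1
    rw [LB.smul_lam, X.lam_T_nat]
  rw [h4, Finset.smul_sum, map_sum]
  have h6 : ∀ j ∈ Finset.range (f.natDegree + 1), h.cfV ((T (-(n : ℤ)) : K[T;T⁻¹]) •
      (f.coeff j • ((T j : K[T;T⁻¹]) • (v : N.M)))) = if n = j then f.coeff n • v else 0 := by
    intro j _
    rw [smul_comm, map_smul, T_smul_T_smul]
    split_ifs with hj
    · subst hj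
      rw [neg_add_cancel, T_zero, one_smul, h.cfV_coe]
    · rw [h.cfV_T_smul v (by omega), smul_zero]
  rw [Finset.sum_congr rfl h6, Finset.sum_ite_eq, ]
  split_ifs with hn
  · rfl
  · rw [Polynomial.coeff_eq_zero_of_natDegree_lt (by
      rw [Finset.mem_range] at hn; omega), zero_smul]

include h in
/-- independent elements of `V` are independent over polynomials in `x` -/
theorem linearIndependent_polMod0 {ι : Type*} [Fintype ι] {v : ι → secV N.A0 N.Ai}
    (hv : LinearIndependent K v) :
    letI := N.polMod0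
    LinearIndependent K[X] fun i => LB.secM0 (v i) := by
  letI := N.polMod0
  rw [Fintype.linearIndependent_iff] at hv
  refine (Fintype.linearIndependent_iff (ι := ι) (R := K[X]) (M := N.M0)).mpr ?_
  intro f hf i
  ext n
  have h1 : ∑ i, X.J0 K (aeval (X.x0 K) (f i)) • ((v i : secV N.A0 N.Ai) : N.M) = 0 := by
    have h2 := congrArg N.M0.subtype hf
    rw [map_sum, map_zero] at h2
    rw [← h2]
    refine Finset.sum_congr rfl fun i _ => ?_
    exact (N.smul0 _ _).symm
  have h3 := congrArg (fun m => h.cfV ((T (-(n : ℤ)) : K[T;T⁻¹]) • m)) h1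
  simp only [Finset.smul_sum, map_sum, smul_zero, map_zero] at h3
  simp_rw [cfV_J0_aeval h] at h3
  rw [hv _ h3 i, Polynomial.coeff_zero]

include h in
/-- a `K`-basis of `V` spans `M0` over polynomials in `x` -/
theorem span_polMod0 {ι : Type*} {v : ι → secV N.A0 N.Ai}
    (hv : ⊤ ≤ Submodule.span K (Set.range v)) :
    letI := N.polMod0
    ⊤ ≤ Submodule.span K[X] (Set.range fun i => LB.secM0 (v i)) := by
  letI := N.polMod0
  have hsm' : ∀ (p : K[X]) (m : N.M0), p • m = aeval (X.x0 K) p • m := fun p r => rfl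
  rintro ⟨m, hm⟩ -
  obtain ⟨n, hn⟩ := h.exi m
  obtain ⟨w, hw⟩ := h.exists_sum n hm hn
  have h1 : ∀ z : secV N.A0 N.Ai, LB.secM0 z ∈
      Submodule.span K[X] (Set.range fun i => LB.secM0 (v i)) := by
    intro z
    have hz : z ∈ Submodule.span K (Set.range v) := hv trivial
    induction hz using Submodule.span_induction with
    | mem z hz =>
      obtain ⟨i, rfl⟩ := hz
      exact Submodule.subset_span ⟨i, rfl⟩
    | zero => exact Submodule.zero_mem _
    | add a b _ _ ha hb => exact Submodule.add_mem _ ha hb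
    | smul c a _ ha =>
      have h2 : LB.secM0 (c • a) = (Polynomial.C c) • LB.secM0 a := by
        apply Subtype.ext
        rw [hsm', aeval_C]
        refine Eq.trans ?_ (N.smul0 _ _).symm
        rw [AlgHom.commutes]
        exact (algebraMap_smul (X.R K) c (a : N.M)).symm
      rw [h2]
      exact Submodule.smul_mem _ _ ha
  have h3 : (⟨m, hm⟩ : N.M0) = ∑ i ∈ Finset.range n, (Polynomial.X ^ i : K[X]) • LB.secM0 (w i) := by
    apply Subtype.ext
    have h4 : N.M0.subtype (∑ i ∈ Finset.range n, (Polynomial.X ^ i : K[X]) • LB.secM0 (w i)) =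
        ∑ i ∈ Finset.range n, (T i : K[T;T⁻¹]) • (w i : N.M) := by
      rw [map_sum]
      refine Finset.sum_congr rfl fun i _ => ?_
      rw [hsm', map_pow, aeval_X]
      refine (N.smul0 _ _).trans ?_
      rw [map_pow, X.J0_x0, LB.smul_lam, X.lam_T_nat]
      rfl
    exact hw.trans h4.symm
  rw [h3]
  exact Submodule.sum_mem _ fun i _ => Submodule.smul_mem _ _ (h1 _)

include h in
/-- `V` is finite dimensional -/
theorem LB.finite_secV : Module.Finite K (secV N.A0 N.Ai) := by
  letI := N.polMod0
  have h1 : Module.rank K (secV N.A0 N.Ai) ≤ X.deg := by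
    refine rank_le fun s hs => ?_
    have h2 := (linearIndependent_polMod0 h hs).cardinal_le_rank
    rw [N.rank_polMod0, Cardinal.mk_coe_finset] at h2
    exact_mod_cast h2
  exact Module.rank_lt_aleph0_iff.mp (h1.trans_lt (Cardinal.nat_lt_aleph0 _))

include h in
/-- **the dimension of `V` is the degree of `x`** -/
theorem LB.finrank_secV : Module.finrank K (secV N.A0 N.Ai) = X.deg := by
  letI := N.polMod0
  haveI := LB.finite_secV h
  let v := Module.finBasis K (secV N.A0 N.Ai)
  let b : Module.Basis (Fin (Module.finrank K (secV N.A0 N.Ai))) K[X] N.M0 :=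
    Module.Basis.mk (linearIndependent_polMod0 h v.linearIndependent) (span_polMod0 h v.span_eq.ge)
  have h1 := rank_eq_card_basis b
  rw [N.rank_polMod0, Fintype.card_fin] at h1
  exact_mod_cast h1.symm

end Rank

end Fermat.Agent.Jac
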