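import Mathlib

set_option autoImplicit false

/-!
# Submodules `M0 ⊆ M` over `R0 → R = S⁻¹ R0`, tensor products and duals
-/

open TensorProduct

namespace Fermat.Agent.Jac.Half

section Basic

variable {R0 R : Type*} [CommRing R0] [CommRing R] [Algebra R0 R] (S : Submonoid R0)
  {M : Type*} [AddCommGroup M] [Module R0 M] [Module R M] [IsScalarTower R0 R M]

/-- if every element of the `S⁻¹ R0`-module `M` has a multiple in `M0`, then `M = S⁻¹ M0` -/
theorem isLoc (hu : ∀ s ∈ S, IsUnit (algebraMap R0 R s)) (M0 : Submodule R0 M)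
    (h : ∀ m : M, ∃ s ∈ S, s • m ∈ M0) : IsLocalizedModule S M0.subtype where
  map_units s := by
    rw [← (Algebra.lsmul R0 (A := R) R0 M).commutes]
    exact (hu s.1 s.2).map _
  surj m := by
    obtain ⟨s, hs, h⟩ := h m
    exact ⟨⟨⟨s • m, h⟩, ⟨s, hs⟩⟩, rfl⟩
  exists_of_eq h := ⟨1, by rw [Subtype.val_injective h]⟩

/-- the localisation of a flat module at non-zero-divisors is injective -/
theorem inj_of_flat (hS : S ≤ nonZeroDivisors R0) {N0 N : Type*} [AddCommGroup N0] [Module R0 N0]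
    [AddCommGroup N] [Module R0 N] [Module.Flat R0 N0] (g : N0 →ₗ[R0] N) [IsLocalizedModule S g] :
    Function.Injective g :=
  (IsLocalizedModule.injective_iff_isRegular S g).2 fun c =>
    Module.Flat.isSMulRegular_of_nonZeroDivisors (hS c.2)

variable [IsLocalization S R] {M' : Type*} [AddCommGroup M'] [Module R0 M'] [Module R M']
  [IsScalarTower R0 R M']

variable (R) in
/-- `M0 ⊗ M0' → M ⊗ M'` -/
noncomputable def tm (M0 : Submodule R0 M) (M0' : Submodule R0 M') :
    M0 ⊗[R0] M0' →ₗ[R0] M ⊗[R] M' :=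
  ((IsLocalization.moduleTensorEquiv S R M M').symm.restrictScalars R0).toLinearMap ∘ₗ
    TensorProduct.map M0.subtype M0'.subtype

theorem tm_tmul (M0 : Submodule R0 M) (M0' : Submodule R0 M') (m : M0) (m' : M0') :
    tm R S M0 M0' (m ⊗ₜ m') = (m : M) ⊗ₜ[R] (m' : M') := by
  simp only [tm, LinearMap.comp_apply, TensorProduct.map_tmul, Submodule.subtype_apply,
    LinearEquiv.coe_coe, LinearEquiv.restrictScalars_apply]
  rw [LinearEquiv.symm_apply_eq]
  rfl

theorem tm_isLoc (M0 : Submodule R0 M) (M0' : Submodule R0 M')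
    (h : ∀ m : M, ∃ s ∈ S, s • m ∈ M0) (h' : ∀ m : M', ∃ s ∈ S, s • m ∈ M0') :
    IsLocalizedModule S (tm R S M0 M0') := by
  have := isLoc S (fun s hs => IsLocalization.map_units R ⟨s, hs⟩) M0 h
  have := isLoc S (fun s hs => IsLocalization.map_units R ⟨s, hs⟩) M0' h'
  exact IsLocalizedModule.of_linearEquiv S _ _

theorem tm_injective (hS : S ≤ nonZeroDivisors R0) (M0 : Submodule R0 M) (M0' : Submodule R0 M')
    [Module.Flat R0 M0] [Module.Flat R0 M0']
    (h : ∀ m : M, ∃ s ∈ S, s • m ∈ M0) (h' : ∀ m : M', ∃ s ∈ S, s • m ∈ M0') :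
    Function.Injective (tm R S M0 M0') := by
  have := tm_isLoc (R := R) S M0 M0' h h'
  exact inj_of_flat S hS _

variable {M'' : Type*} [AddCommGroup M''] [Module R0 M''] [Module R M''] [IsScalarTower R0 R M'']

/-- the image of a bilinear map -/
abbrev sp (M0 : Submodule R0 M) (M0' : Submodule R0 M') (β : M →ₗ[R] M' →ₗ[R] M'') :
    Submodule R0 M'' :=
  Submodule.span R0 {m'' | ∃ m ∈ M0, ∃ m' ∈ M0', β m m' = m''}

omit [IsLocalization S R] [Algebra R0 R] [IsScalarTower R0 R M] [IsScalarTower R0 R M']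
  [IsScalarTower R0 R M''] in
theorem apply_mem {M0 : Submodule R0 M} {M0' : Submodule R0 M'} {β : M →ₗ[R] M' →ₗ[R] M''}
    {M0'' : Submodule R0 M''} (hβ : sp M0 M0' β = M0'') {m : M} {m' : M'} (h : m ∈ M0)
    (h' : m' ∈ M0') : β m m' ∈ M0'' := hβ ▸ Submodule.subset_span ⟨m, h, m', h', rfl⟩

theorem sp_eq_range (M0 : Submodule R0 M) (M0' : Submodule R0 M') (β : M →ₗ[R] M' →ₗ[R] M'') :
    sp M0 M0' β =
      LinearMap.range (((TensorProduct.lift β).restrictScalars R0) ∘ₗ tm R S M0 M0') := by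
  refine le_antisymm (Submodule.span_le.2 ?_) ?_
  · rintro _ ⟨m, hm, m', hm', rfl⟩
    exact ⟨⟨m, hm⟩ ⊗ₜ ⟨m', hm'⟩, by
      rw [LinearMap.comp_apply, tm_tmul, LinearMap.restrictScalars_apply, TensorProduct.lift.tmul]⟩
  · rintro _ ⟨t, rfl⟩
    induction t using TensorProduct.induction_on with
    | zero => rw [map_zero]; exact zero_mem _
    | tmul m m' =>
      rw [LinearMap.comp_apply, tm_tmul, LinearMap.restrictScalars_apply, TensorProduct.lift.tmul]
      exact Submodule.subset_span ⟨m, m.2, m', m'.2, rfl⟩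
    | add r s hr hs => rw [map_add]; exact add_mem hr hs

/-- the map `M0 ⊗ M0' → M0''` induced by a bilinear map -/
noncomputable def t0 {M0 : Submodule R0 M} {M0' : Submodule R0 M'} {M0'' : Submodule R0 M''}
    {β : M →ₗ[R] M' →ₗ[R] M''} (hβ : sp M0 M0' β = M0'') : M0 ⊗[R0] M0' →ₗ[R0] M0'' :=
  LinearMap.codRestrict M0'' (((TensorProduct.lift β).restrictScalars R0) ∘ₗ tm R S M0 M0')
    fun t => by rw [← hβ, sp_eq_range S]; exact ⟨t, rfl⟩

theorem t0_tmul {M0 : Submodule R0 M} {M0' : Submodule R0 M'} {M0'' : Submodule R0 M''}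
    {β : M →ₗ[R] M' →ₗ[R] M''} (hβ : sp M0 M0' β = M0'') (m : M0) (m' : M0') :
    (t0 S hβ (m ⊗ₜ m') : M'') = β m m' := by
  rw [t0, LinearMap.codRestrict_apply, LinearMap.comp_apply, tm_tmul,
    LinearMap.restrictScalars_apply, TensorProduct.lift.tmul]

theorem t0_surjective {M0 : Submodule R0 M} {M0' : Submodule R0 M'} {M0'' : Submodule R0 M''}
    {β : M →ₗ[R] M' →ₗ[R] M''} (hβ : sp M0 M0' β = M0'') : Function.Surjective (t0 S hβ) := by
  rintro ⟨m, hm⟩
  have hm' := hm
  rw [← hβ, sp_eq_range S] at hm'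
  obtain ⟨t, ht⟩ := hm'
  exact ⟨t, Subtype.ext ht⟩

theorem t0_bijective {M0 : Submodule R0 M} {M0' : Submodule R0 M'} {M0'' : Submodule R0 M''}
    {β : M →ₗ[R] M' →ₗ[R] M''} (hβ : sp M0 M0' β = M0'')
    [Module.Invertible R0 M0] [Module.Invertible R0 M0'] [Module.Invertible R0 M0''] :
    Function.Bijective (t0 S hβ) :=
  Module.Invertible.bijective_of_surjective (t0_surjective S hβ)

/-- a bilinear map whose image on `M0 × M0'` spans the invertible module `M0''` is a tensor
product -/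
theorem lift_bijective {M0 : Submodule R0 M} {M0' : Submodule R0 M'} {M0'' : Submodule R0 M''}
    {β : M →ₗ[R] M' →ₗ[R] M''} (hβ : sp M0 M0' β = M0'')
    (i : Module.Invertible R0 M0) (i' : Module.Invertible R0 M0')
    (i'' : Module.Invertible R0 M0'')
    (h : ∀ m : M, ∃ s ∈ S, s • m ∈ M0) (h' : ∀ m : M', ∃ s ∈ S, s • m ∈ M0')
    (h'' : ∀ m : M'', ∃ s ∈ S, s • m ∈ M0'') :
    Function.Bijective (TensorProduct.lift β) := by
  have := tm_isLoc (R := R) S M0 M0' h h'
  have := isLoc S (fun s hs => IsLocalization.map_units R ⟨s, hs⟩) M0'' h''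
  let e0 := LinearEquiv.ofBijective _ (t0_bijective S hβ)
  have hl : IsLocalizedModule S (M0''.subtype ∘ₗ e0.toLinearMap) :=
    IsLocalizedModule.of_linearEquiv_right S _ _
  have heq : (TensorProduct.lift β).restrictScalars R0 =
      (IsLocalizedModule.linearEquiv S (tm R S M0 M0')
        (M0''.subtype ∘ₗ e0.toLinearMap)).toLinearMap := by
    refine IsLocalizedModule.linearMap_ext S (tm R S M0 M0') (M0''.subtype ∘ₗ e0.toLinearMap) ?_
    ext m m'
    simp only [AlgebraTensorModule.curry_apply, LinearMap.restrictScalars_self,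
      TensorProduct.curry_apply, LinearMap.comp_apply, LinearEquiv.coe_coe,
      IsLocalizedModule.linearEquiv_apply]
    rw [tm_tmul, LinearMap.restrictScalars_apply, TensorProduct.lift.tmul, Submodule.subtype_apply]
    exact (t0_tmul S hβ m m').symm
  have hf : (TensorProduct.lift β : M ⊗[R] M' → M'') =
      IsLocalizedModule.linearEquiv S (tm R S M0 M0') (M0''.subtype ∘ₗ e0.toLinearMap) := by
    ext t
    exact congrArg (fun f => f t) (congrArg DFunLike.coe heq)
  rw [hf]
  exact LinearEquiv.bijective _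

/-- existence: the image of `M0 ⊗ M0'` in `M ⊗ M'` is invertible -/
theorem sp_invertible (hS : S ≤ nonZeroDivisors R0) (M0 : Submodule R0 M) (M0' : Submodule R0 M')
    (i : Module.Invertible R0 M0) (i' : Module.Invertible R0 M0')
    (h : ∀ m : M, ∃ s ∈ S, s • m ∈ M0) (h' : ∀ m : M', ∃ s ∈ S, s • m ∈ M0') :
    Module.Invertible R0 (sp M0 M0' (TensorProduct.mk R M M')) := by
  have hr := sp_eq_range S M0 M0' (TensorProduct.mk R M M')
  have hid : ((TensorProduct.lift (TensorProduct.mk R M M')).restrictScalars R0) ∘ₗ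
      tm R S M0 M0' = tm R S M0 M0' := by
    rw [TensorProduct.lift_mk]
    rfl
  rw [hid] at hr
  rw [hr]
  exact .congr (LinearEquiv.ofInjective _ (tm_injective S hS M0 M0' h h'))

theorem sp_exh (M0 : Submodule R0 M) (M0' : Submodule R0 M') (β : M →ₗ[R] M' →ₗ[R] M'')
    (h : ∀ m : M, ∃ s ∈ S, s • m ∈ M0) (h' : ∀ m : M', ∃ s ∈ S, s • m ∈ M0')
    (hs : Function.Surjective (TensorProduct.lift β)) (m : M'') :
    ∃ s ∈ S, s • m ∈ sp M0 M0' β := by
  obtain ⟨t, rfl⟩ := hs m
  obtain ⟨⟨u, s⟩, hu⟩ := (tm_isLoc (R := R) S M0 M0' h h').surj t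
  refine ⟨s, s.2, ?_⟩
  rw [sp_eq_range S]
  refine ⟨u, ?_⟩
  rw [LinearMap.comp_apply, ← hu, LinearMap.restrictScalars_apply]
  exact ((TensorProduct.lift β).map_smul_of_tower s.1 t)

end Basic

section Semi

/-! semilinear functoriality -/

variable {R0 R R0' R' : Type*} [CommRing R0] [CommRing R] [Algebra R0 R] [CommRing R0']
  [CommRing R'] [Algebra R0' R'] (b0 : R0 →+* R0') (b : R →+* R')
  {M M' M'' : Type*} [AddCommGroup M] [Module R0 M] [Module R M] [IsScalarTower R0 R M]
  [AddCommGroup M'] [Module R0 M'] [Module R M'] [IsScalarTower R0 R M']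
  [AddCommGroup M''] [Module R0 M''] [Module R M''] [IsScalarTower R0 R M'']
  {N N' N'' : Type*} [AddCommGroup N] [Module R0' N] [Module R' N] [IsScalarTower R0' R' N]
  [AddCommGroup N'] [Module R0' N'] [Module R' N'] [IsScalarTower R0' R' N']
  [AddCommGroup N''] [Module R0' N''] [Module R' N''] [IsScalarTower R0' R' N'']

omit [IsScalarTower R0 R M''] [Algebra R0 R] [Module R0 M''] [IsScalarTower R0 R M]
  [IsScalarTower R0 R M'] [Module R0 M] [Module R0 M'] [CommRing R0] in
/-- a pair of semilinear maps extends to tensor products -/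
theorem exists_semi (β : M →ₗ[R] M' →ₗ[R] M'') (hβ : Function.Bijective (TensorProduct.lift β))
    (γ : N →ₗ[R'] N' →ₗ[R'] N'') (f : M →+ N) (f' : M' →+ N')
    (hf : ∀ (r : R) (m : M), f (r • m) = b r • f m)
    (hf' : ∀ (r : R) (m : M'), f' (r • m) = b r • f' m) :
    ∃ f'' : M'' →+ N'', (∀ (r : R) (m : M''), f'' (r • m) = b r • f'' m) ∧
      ∀ m m', f'' (β m m') = γ (f m) (f' m') := by
  let g : M ⊗[R] M' →+ N'' := TensorProduct.liftAddHom
    (AddMonoidHom.mk' (fun m => (γ (f m)).toAddMonoidHom.comp f') fun m n => by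
      ext x; simp) fun r m m' => by
      simp [hf, hf']
  have hg : ∀ (r : R) (t : M ⊗[R] M'), g (r • t) = b r • g t := by
    intro r t
    induction t using TensorProduct.induction_on with
    | zero => simp
    | tmul m m' =>
      rw [TensorProduct.smul_tmul']
      simp [g, TensorProduct.liftAddHom_tmul, hf]
    | add s t hs ht => rw [smul_add, map_add, map_add, hs, ht, smul_add]
  let e := LinearEquiv.ofBijective _ hβ
  refine ⟨g.comp e.symm.toLinearMap.toAddMonoidHom, fun r m => ?_, fun m m' => ?_⟩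
  · simp [hg]
  · have : e.symm (β m m') = m ⊗ₜ m' := by
      rw [LinearEquiv.symm_apply_eq]
      simp [e]
    simp [this, g, TensorProduct.liftAddHom_tmul]

omit [IsScalarTower R0 R M] [IsScalarTower R0 R M'] in
theorem span_semi (hb : ∀ r, b (algebraMap R0 R r) = algebraMap R0' R' (b0 r))
    {β : M →ₗ[R] M' →ₗ[R] M''} {γ : N →ₗ[R'] N' →ₗ[R'] N''} {f : M →+ N} {f' : M' →+ N'}
    {f'' : M'' →+ N''} (hf'' : ∀ (r : R) (m : M''), f'' (r • m) = b r • f'' m)
    (hfβ : ∀ m m', f'' (β m m') = γ (f m) (f' m'))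
    {M0 : Submodule R0 M} {M0' : Submodule R0 M'} {M0'' : Submodule R0 M''}
    (hβ : sp M0 M0' β = M0'')
    {N0 : Submodule R0' N} {N0' : Submodule R0' N'} {N0'' : Submodule R0' N''}
    (hN : Submodule.span R0' (f '' M0) = N0) (hN' : Submodule.span R0' (f' '' M0') = N0')
    (hγ : sp N0 N0' γ = N0'') :
    Submodule.span R0' (f'' '' M0'') = N0'' := by
  have hR0 : ∀ (r : R0) (m : M''), f'' (r • m) = b0 r • f'' m := fun r m => by
    rw [← algebraMap_smul R r m, hf'', hb, algebraMap_smul]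
  refine le_antisymm (Submodule.span_le.2 ?_) ?_
  · rintro _ ⟨m, hm, rfl⟩
    have hm' : m ∈ sp M0 M0' β := by rw [hβ]; exact hm
    clear hm
    induction hm' using Submodule.span_induction with
    | mem m hm =>
      obtain ⟨a, ha, a', ha', rfl⟩ := hm
      rw [hfβ]
      refine apply_mem hγ ?_ ?_
      · rw [← hN]; exact Submodule.subset_span ⟨a, ha, rfl⟩
      · rw [← hN']; exact Submodule.subset_span ⟨a', ha', rfl⟩
    | zero => rw [map_zero]; exact zero_mem _
    | add m n _ _ hm hn => rw [map_add]; exact add_mem hm hn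
    | smul r m _ hm => rw [hR0]; exact Submodule.smul_mem _ _ hm
  · rw [← hγ]
    refine Submodule.span_le.2 ?_
    rintro _ ⟨n, hn, n', hn', rfl⟩
    rw [← hN] at hn
    rw [← hN'] at hn'
    induction hn using Submodule.span_induction with
    | mem n hn =>
      obtain ⟨m, hm, rfl⟩ := hn
      induction hn' using Submodule.span_induction with
      | mem n' hn' =>
        obtain ⟨m', hm', rfl⟩ := hn'
        refine Submodule.subset_span ⟨β m m', ?_, hfβ m m'⟩
        exact apply_mem hβ hm hm'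
      | zero => rw [map_zero]; exact zero_mem _
      | add m n _ _ hm hn => rw [map_add]; exact add_mem hm hn
      | smul r m _ hm =>
        rw [LinearMap.map_smul_of_tower]; exact Submodule.smul_mem _ _ hm
    | zero => rw [map_zero, LinearMap.zero_apply]; exact zero_mem _
    | add m n _ _ hm hn => rw [map_add, LinearMap.add_apply]; exact add_mem hm hn
    | smul r m _ hm =>
      rw [LinearMap.map_smul_of_tower, LinearMap.smul_apply]; exact Submodule.smul_mem _ _ hm

end Semi

section Assoc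

variable {R0 R : Type*} [CommRing R0] [CommRing R]
  {M1 M2 M3 M12 M23 M : Type*} [AddCommGroup M1] [Module R0 M1] [Module R M1]
  [AddCommGroup M2] [Module R0 M2] [Module R M2]
  [AddCommGroup M3] [Module R0 M3] [Module R M3]
  [AddCommGroup M12] [Module R0 M12] [Module R M12]
  [AddCommGroup M23] [Module R0 M23] [Module R M23]
  [AddCommGroup M] [Module R0 M] [Module R M]

omit [CommRing R0] [Module R0 M1] [Module R0 M2] [Module R0 M3] [Module R0 M12]
  [Module R0 M23] [Module R0 M] in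
theorem exists_assoc (β : M1 →ₗ[R] M2 →ₗ[R] M12) (γ : M12 →ₗ[R] M3 →ₗ[R] M)
    (δ : M2 →ₗ[R] M3 →ₗ[R] M23) (hδ : Function.Bijective (TensorProduct.lift δ)) :
    ∃ ε : M1 →ₗ[R] M23 →ₗ[R] M, ∀ m1 m2 m3, ε m1 (δ m2 m3) = γ (β m1 m2) m3 := by
  let e := LinearEquiv.ofBijective _ hδ
  let g : M1 →ₗ[R] (M2 ⊗[R] M3 →ₗ[R] M) :=
    (TensorProduct.uncurry (.id R) M2 M3 M) ∘ₗ
      (LinearMap.llcomp R M2 M12 (M3 →ₗ[R] M) γ) ∘ₗ β
  refine ⟨(LinearMap.lcomp R M e.symm.toLinearMap) ∘ₗ g, fun m1 m2 m3 => ?_⟩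
  have : e.symm (δ m2 m3) = m2 ⊗ₜ m3 := by
    rw [LinearEquiv.symm_apply_eq]
    simp [e]
  simp [this, g]

variable [Algebra R0 R] [IsScalarTower R0 R M12] [IsScalarTower R0 R M23] [IsScalarTower R0 R M]

theorem sp_assoc {β : M1 →ₗ[R] M2 →ₗ[R] M12} {γ : M12 →ₗ[R] M3 →ₗ[R] M}
    {δ : M2 →ₗ[R] M3 →ₗ[R] M23} {ε : M1 →ₗ[R] M23 →ₗ[R] M}
    (hε : ∀ m1 m2 m3, ε m1 (δ m2 m3) = γ (β m1 m2) m3)
    {N1 : Submodule R0 M1} {N2 : Submodule R0 M2} {N3 : Submodule R0 M3}
    {N12 : Submodule R0 M12} {N23 : Submodule R0 M23} {N : Submodule R0 M}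
    (hβ : sp N1 N2 β = N12) (hγ : sp N12 N3 γ = N) (hδ : sp N2 N3 δ = N23) :
    sp N1 N23 ε = N := by
  refine le_antisymm (Submodule.span_le.2 ?_) ?_
  · rintro _ ⟨m1, h1, m, hm, rfl⟩
    rw [← hδ] at hm
    induction hm using Submodule.span_induction with
    | mem m hm =>
      obtain ⟨m2, h2, m3, h3, rfl⟩ := hm
      rw [hε]
      exact apply_mem hγ (apply_mem hβ h1 h2) h3
    | zero => rw [map_zero]; exact zero_mem _
    | add m n _ _ hm hn => rw [map_add]; exact add_mem hm hn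
    | smul r m _ hm => rw [LinearMap.map_smul_of_tower]; exact Submodule.smul_mem _ _ hm
  · rw [← hγ]
    refine Submodule.span_le.2 ?_
    rintro _ ⟨m, hm, m3, h3, rfl⟩
    rw [← hβ] at hm
    induction hm using Submodule.span_induction with
    | mem m hm =>
      obtain ⟨m1, h1, m2, h2, rfl⟩ := hm
      rw [← hε]
      exact Submodule.subset_span ⟨m1, h1, _, apply_mem hδ h2 h3, rfl⟩
    | zero => rw [map_zero, LinearMap.zero_apply]; exact zero_mem _
    | add m n _ _ hm hn => rw [map_add, LinearMap.add_apply]; exact add_mem hm hn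
    | smul r m _ hm =>
      rw [LinearMap.map_smul_of_tower, LinearMap.smul_apply]; exact Submodule.smul_mem _ _ hm

end Assoc

section Misc

variable {R0 R : Type*} [CommRing R0] [CommRing R] [Algebra R0 R]
  {M M' M'' N : Type*} [AddCommGroup M] [Module R0 M] [Module R M] [IsScalarTower R0 R M]
  [AddCommGroup M'] [Module R0 M'] [Module R M']
  [AddCommGroup M''] [Module R0 M''] [Module R M'']
  [AddCommGroup N] [Module R0 N] [Module R N]

theorem sp_lsmul (M0 : Submodule R0 M) :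
    sp (LinearMap.range (Algebra.linearMap R0 R)) M0 (LinearMap.lsmul R M) = M0 := by
  refine le_antisymm (Submodule.span_le.2 ?_) fun m hm => ?_
  · rintro _ ⟨_, ⟨r, rfl⟩, m, hm, rfl⟩
    rw [LinearMap.lsmul_apply, Algebra.linearMap_apply, algebraMap_smul]
    exact M0.smul_mem r hm
  · exact Submodule.subset_span ⟨1, ⟨1, by rw [Algebra.linearMap_apply, map_one]⟩, m, hm,
      by rw [LinearMap.lsmul_apply, one_smul]⟩

omit [IsScalarTower R0 R M] in
theorem sp_compr₂ {M0 : Submodule R0 M} {M0' : Submodule R0 M'} {M0'' : Submodule R0 M''}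
    {β : M →ₗ[R] M' →ₗ[R] M''} (hβ : sp M0 M0' β = M0'') (g : M'' →ₗ[R] N)
    [IsScalarTower R0 R M''] [IsScalarTower R0 R N] :
    sp M0 M0' (β.compr₂ g) = Submodule.span R0 (g '' M0'') := by
  have h : (g '' M0'' : Set N) = (Submodule.map (g.restrictScalars R0) M0'' : Set N) := rfl
  rw [h, Submodule.span_eq, ← hβ, Submodule.map_span]
  refine congrArg _ (Set.ext fun n => ?_)
  constructor
  · rintro ⟨m, hm, m', hm', rfl⟩
    exact ⟨_, ⟨m, hm, m', hm', rfl⟩, rfl⟩
  · rintro ⟨_, ⟨m, hm, m', hm', rfl⟩, rfl⟩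
    exact ⟨m, hm, m', hm', rfl⟩

end Misc

section Dual

variable {R0 R : Type*} [CommRing R0] [CommRing R] [Algebra R0 R] (S : Submonoid R0)
  [IsLocalization S R]
  {M : Type*} [AddCommGroup M] [Module R0 M] [Module R M] [IsScalarTower R0 R M]

variable (R) in
/-- functionals which are integral on `M0` -/
def du (M0 : Submodule R0 M) : Submodule R0 (M →ₗ[R] R) where
  carrier := {φ | ∀ m ∈ M0, φ m ∈ LinearMap.range (Algebra.linearMap R0 R)}
  add_mem' h h' m hm := add_mem (h m hm) (h' m hm)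
  zero_mem' _ _ := zero_mem _
  smul_mem' r _ h m hm := Submodule.smul_mem _ r (h m hm)

/-- extension of functionals -/
theorem exists_du (M0 : Submodule R0 M) (h : ∀ m : M, ∃ s ∈ S, s • m ∈ M0) :
    ∃ G : Module.Dual R0 M0 →ₗ[R0] (M →ₗ[R] R),
      (∀ ψ (m : M0), G ψ m = algebraMap R0 R (ψ m)) ∧
      (Function.Injective (algebraMap R0 R) → Function.Injective G ∧ LinearMap.range G = du R M0) := by
  have hl := isLoc S (fun s hs => IsLocalization.map_units R ⟨s, hs⟩) M0 h
  have hb : IsBaseChange R M0.subtype := hl.isBaseChange S R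
  let G : Module.Dual R0 M0 →ₗ[R0] (M →ₗ[R] R) :=
    { toFun := fun ψ => hb.lift (Algebra.linearMap R0 R ∘ₗ ψ)
      map_add' := fun ψ ψ' => hb.algHom_ext _ _ fun m => by
        simp only [LinearMap.add_apply, hb.lift_eq, LinearMap.comp_apply, map_add]
      map_smul' := fun r ψ => hb.algHom_ext _ _ fun m => by
        simp only [LinearMap.smul_apply, hb.lift_eq, LinearMap.comp_apply, map_smul,
          RingHom.id_apply] }
  have hG : ∀ ψ (m : M0), G ψ m = algebraMap R0 R (ψ m) := fun ψ m => hb.lift_eq _ m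
  refine ⟨G, hG, fun hi => ⟨fun ψ ψ' h => ?_, le_antisymm ?_ fun φ hφ => ?_⟩⟩
  · ext m
    exact hi (by rw [← hG, ← hG, h])
  · rintro _ ⟨ψ, rfl⟩ m hm
    exact ⟨ψ ⟨m, hm⟩, (hG ψ ⟨m, hm⟩).symm⟩
  · let e := LinearEquiv.ofInjective (Algebra.linearMap R0 R) hi
    let ψ : Module.Dual R0 M0 := e.symm.toLinearMap ∘ₗ
      LinearMap.codRestrict _ ((φ.restrictScalars R0) ∘ₗ M0.subtype) fun m => hφ m m.2
    refine ⟨ψ, hb.algHom_ext _ _ fun m => ?_⟩
    change G ψ (m : M) = φ m
    have h2 : e (ψ m) = ⟨φ m, hφ m m.2⟩ := by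
      simp only [ψ, LinearMap.comp_apply, LinearEquiv.coe_coe, LinearEquiv.apply_symm_apply]
      rfl
    exact (hG ψ m).trans (congrArg Subtype.val h2)

theorem du_invertible (M0 : Submodule R0 M) (h : ∀ m : M, ∃ s ∈ S, s • m ∈ M0)
    (hi : Function.Injective (algebraMap R0 R)) (i : Module.Invertible R0 M0) :
    Module.Invertible R0 (du R M0) := by
  obtain ⟨G, -, hG⟩ := exists_du (R := R) S M0 h
  obtain ⟨h1, h2⟩ := hG hi
  rw [← h2]
  exact .congr (LinearEquiv.ofInjective G h1)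

theorem du_exh (M0 : Submodule R0 M) [Module.Finite R0 M0] (φ : M →ₗ[R] R) :
    ∃ s ∈ S, s • φ ∈ du R M0 := by
  classical
  obtain ⟨T, hT⟩ := Module.Finite.fg_top (R := R0) (M := M0)
  obtain ⟨s, hs⟩ := IsLocalization.exist_integer_multiples_of_finset S
    (T.image fun m : M0 => φ (m : M))
  refine ⟨s, s.2, fun m hm => ?_⟩
  have hmT : (⟨m, hm⟩ : M0) ∈ Submodule.span R0 (T : Set M0) := hT ▸ Submodule.mem_top
  have key : ∀ n : M0, n ∈ Submodule.span R0 (T : Set M0) →
      (s.1 • φ) (n : M) ∈ LinearMap.range (Algebra.linearMap R0 R) := by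
    intro n hn
    induction hn using Submodule.span_induction with
    | mem n hn =>
      obtain ⟨r, hr⟩ := hs (φ n) (Finset.mem_image_of_mem _ hn)
      exact ⟨r, hr⟩
    | zero => rw [ZeroMemClass.coe_zero, map_zero]; exact zero_mem _
    | add m n _ _ hm hn => rw [Submodule.coe_add, map_add]; exact add_mem hm hn
    | smul r m _ hm =>
      rw [Submodule.coe_smul, LinearMap.map_smul_of_tower]; exact Submodule.smul_mem _ _ hm
  exact key _ hmT

theorem sp_du (M0 : Submodule R0 M) (h : ∀ m : M, ∃ s ∈ S, s • m ∈ M0)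
    (hi : Function.Injective (algebraMap R0 R)) (i : Module.Invertible R0 M0) :
    sp M0 (du R M0) (Module.Dual.eval R M) = LinearMap.range (Algebra.linearMap R0 R) := by
  refine le_antisymm (Submodule.span_le.2 ?_) ?_
  · rintro _ ⟨m, hm, φ, hφ, rfl⟩
    exact hφ m hm
  · obtain ⟨G, hG, hG'⟩ := exists_du (R := R) S M0 h
    obtain ⟨h1, h2⟩ := hG' hi
    have key : ∀ t : Module.Dual R0 M0 ⊗[R0] M0, algebraMap R0 R (contractLeft R0 M0 t) ∈
        sp M0 (du R M0) (Module.Dual.eval R M) := by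
      intro t
      induction t using TensorProduct.induction_on with
      | zero => rw [map_zero, map_zero]; exact zero_mem _
      | tmul ψ m =>
        rw [contractLeft_apply, ← hG]
        exact Submodule.subset_span ⟨m, m.2, G ψ, h2 ▸ ⟨ψ, rfl⟩, rfl⟩
      | add s t hs ht => rw [map_add, map_add]; exact add_mem hs ht
    rintro _ ⟨r, rfl⟩
    obtain ⟨t, ht⟩ := (Module.Invertible.bijective (R := R0) (M := M0)).2 r
    rw [Algebra.linearMap_apply, ← ht]
    exact key t

end Dual

end Fermat.Agent.Jac.Half
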