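import Fermat.Agent.Jac.InvMod

/-!
# Morphisms out of a sheaf of modules with local generators
-/

set_option autoImplicit false

universe u

open CategoryTheory CategoryTheory.Limits AlgebraicGeometry TopologicalSpace Opposite

namespace Fermat.Agent.Jac

variable {X Y : Scheme.{u}}

/-- the family `n` satisfies the relations of the family `s`. -/
def Compat {M N : X.Modules} {ι : Type*} {U : ι → X.Opens} (s : ∀ i, Γ(M, U i))
    (n : ∀ i, Γ(N, U i)) : Prop :=
  ∀ (i j : ι) (W : X.Opens) (hi : W ≤ U i) (hj : W ≤ U j) (r : Γ(X, W)),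
    res M hj (s j) = r • res M hi (s i) → res N hj (n j) = r • res N hi (n i)

theorem Compat.map {M N P : X.Modules} {ι : Type*} {U : ι → X.Opens} {s : ∀ i, Γ(M, U i)}
    {n : ∀ i, Γ(N, U i)} (h : Compat s n) (φ : N ⟶ P) : Compat s (fun i => ap φ (U i) (n i)) := by
  intro i j W hi hj r hr
  rw [← ap_res, ← ap_res, h i j W hi hj r hr, ap_smul]

theorem compat_self {M : X.Modules} {ι : Type*} {U : ι → X.Opens} (s : ∀ i, Γ(M, U i)) :
    Compat s s := fun _ _ _ _ _ _ h => h

theorem iSup_inf_cover {ι : Type*} {U : ι → X.Opens} (hU : ⨆ i, U i = ⊤) (V : X.Opens) :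
    V ≤ ⨆ i, V ⊓ U i := by
  rw [← inf_iSup_eq, hU, inf_top_eq]

section

variable {M N : X.Modules} {ι : Type*} {U : ι → X.Opens} (hU : ⨆ i, U i = ⊤)
  {s : ∀ i, Γ(M, U i)} (hs : ∀ i, IsGen M (s i)) {n : ∀ i, Γ(N, U i)} (hn : Compat s n)

include hU

theorem sec_ext {V : X.Opens} {m m' : Γ(M, V)}
    (h : ∀ i, res M (inf_le_left : V ⊓ U i ≤ V) m = res M (inf_le_left : V ⊓ U i ≤ V) m') :
    m = m' :=
  eq_of_locally M (fun i => V ⊓ U i) V (fun _ => inf_le_left) (iSup_inf_cover hU V) m m' h

theorem sec_ext' {V : X.Opens} {m m' : Γ(M, V)}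
    (h : ∀ i (W : X.Opens) (hW : W ≤ V) (_ : W ≤ U i), res M hW m = res M hW m') :
    m = m' := sec_ext hU fun i => h i _ inf_le_left inf_le_right

include hs hn

theorem existsUnique_value (V : X.Opens) (m : Γ(M, V)) :
    ∃! t : Γ(N, V), ∀ (i : ι) (W : X.Opens) (hW : W ≤ V) (hi : W ≤ U i) (r : Γ(X, W)),
      res M hW m = r • res M hi (s i) → res N hW t = r • res N hi (n i) := by
  have hr : ∀ i, ∃ r : Γ(X, V ⊓ U i), res M (inf_le_left : V ⊓ U i ≤ V) m =
      r • res M (inf_le_right : V ⊓ U i ≤ U i) (s i) := fun i => (hs i).exists_smul inf_le_right _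
  choose r hr using hr
  have hr' : ∀ i (W : X.Opens) (hW : W ≤ V) (hi : W ≤ U i), res M hW m =
      rs (le_inf hW hi) (r i) • res M hi (s i) := by
    intro i W hW hi
    have h1 := congrArg (res M (le_inf hW hi)) (hr i)
    rwa [res_res, res_smul, res_res] at h1
  have hcomp : ∀ i j, res N (inf_le_left : (V ⊓ U i) ⊓ (V ⊓ U j) ≤ V ⊓ U i)
      (r i • res N (inf_le_right : V ⊓ U i ≤ U i) (n i)) =
      res N (inf_le_right : (V ⊓ U i) ⊓ (V ⊓ U j) ≤ V ⊓ U j)
      (r j • res N (inf_le_right : V ⊓ U j ≤ U j) (n j)) := by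
    intro i j
    have hi : (V ⊓ U i) ⊓ (V ⊓ U j) ≤ U i := inf_le_left.trans inf_le_right
    have hj : (V ⊓ U i) ⊓ (V ⊓ U j) ≤ U j := inf_le_right.trans inf_le_right
    have hV : (V ⊓ U i) ⊓ (V ⊓ U j) ≤ V := inf_le_left.trans inf_le_left
    obtain ⟨g, hg⟩ := (hs i).exists_smul hi (res M hj (s j))
    have h1 := hn i j _ hi hj g hg
    rw [res_smul, res_smul, res_res, res_res, h1, ← mul_smul]
    congr 1
    apply (hs i).smul_inj hi
    rw [mul_smul, ← hg]
    have h2 := hr' i _ hV hi
    have h3 := hr' j _ hV hj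
    rw [← h2, ← h3]
  obtain ⟨t, ht, htu⟩ := existsUnique_glue N (fun i => V ⊓ U i) V (fun _ => inf_le_left)
    (iSup_inf_cover hU V) (fun i => r i • res N (inf_le_right : V ⊓ U i ≤ U i) (n i)) hcomp
  refine ⟨t, ?_, ?_⟩
  · intro i W hW hi r' hr1
    have h1 : r' = rs (le_inf hW hi) (r i) := by
      apply (hs i).smul_inj hi
      rw [← hr1]
      exact hr' i W hW hi
    rw [h1]
    have h2 := congrArg (res N (le_inf hW hi)) (ht i)
    rwa [res_res, res_smul, res_res] at h2
  · intro t' ht'
    apply htu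
    intro i
    exact ht' i _ inf_le_left inf_le_right (r i) (hr i)

/-- Morphisms out of a sheaf of modules with local generators are determined by compatible
families. -/
theorem exists_hom_of_gen : ∃ φ : M ⟶ N, ∀ i, ap φ (U i) (s i) = n i := by
  choose t ht htu using fun V m => existsUnique_value hU hs hn V m
  have hrel : ∀ (V : X.Opens) (m : Γ(M, V)) (t' : Γ(N, V)),
      (∀ (i : ι) (r : Γ(X, V ⊓ U i)), res M (inf_le_left : V ⊓ U i ≤ V) m =
        r • res M (inf_le_right : V ⊓ U i ≤ U i) (s i) →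
        res N (inf_le_left : V ⊓ U i ≤ V) t' = r • res N (inf_le_right : V ⊓ U i ≤ U i) (n i)) →
      t' = t V m := by
    intro V m t' h
    apply sec_ext hU
    intro i
    obtain ⟨r, hr⟩ := (hs i).exists_smul (inf_le_right : V ⊓ U i ≤ U i)
      (res M (inf_le_left : V ⊓ U i ≤ V) m)
    rw [h i r hr, ht V m i _ inf_le_left inf_le_right r hr]
  have hex : ∀ (V : X.Opens) (i : ι) (m : Γ(M, V)), ∃ r : Γ(X, V ⊓ U i),
      res M (inf_le_left : V ⊓ U i ≤ V) m = r • res M (inf_le_right : V ⊓ U i ≤ U i) (s i) :=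
    fun V i m => (hs i).exists_smul inf_le_right _
  obtain ⟨φ, hφ⟩ := exists_hom (M := M) (N := N)
    (fun V =>
      { toFun := t V
        map_zero' := by
          symm
          apply hrel
          intro i r hr
          rw [map_zero] at hr ⊢
          have : r = 0 := by
            apply (hs i).smul_inj inf_le_right
            rw [← hr, zero_smul]
          rw [this, zero_smul]
        map_add' := by
          intro m m'
          symm
          apply hrel
          intro i r hr
          obtain ⟨a, ha⟩ := hex V i m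
          obtain ⟨b, hb⟩ := hex V i m'
          have : r = a + b := by
            apply (hs i).smul_inj inf_le_right
            rw [← hr, add_smul, ← ha, ← hb, map_add]
          rw [this, add_smul, map_add, ht V m i _ inf_le_left inf_le_right a ha,
            ht V m' i _ inf_le_left inf_le_right b hb] })
    (by
      intro V c m
      symm
      apply hrel
      intro i r hr
      obtain ⟨a, ha⟩ := hex V i m
      have : r = rs inf_le_left c * a := by
        apply (hs i).smul_inj inf_le_right
        rw [← hr, mul_smul, ← ha, res_smul]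
      rw [this, mul_smul]
      change res N _ (c • t V m) = _
      rw [res_smul, ht V m i _ inf_le_left inf_le_right a ha])
    (by
      intro V W h m
      symm
      apply hrel
      intro i r hr
      change res N _ (res N h (t V m)) = _
      rw [res_res] at hr ⊢
      exact ht V m i _ _ inf_le_right r hr)
  refine ⟨φ, fun i => ?_⟩
  rw [hφ]
  change t (U i) (s i) = n i
  symm
  apply hrel
  intro j r hr
  have h1 := hn j i (U i ⊓ U j) inf_le_right inf_le_left r hr
  exact h1

omit hn in
/-- uniqueness -/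
theorem hom_ext_of_gen {φ ψ : M ⟶ N} (h : ∀ i, ap φ (U i) (s i) = ap ψ (U i) (s i)) : φ = ψ := by
  apply hom_ext_ap
  intro V m
  apply sec_ext hU
  intro i
  obtain ⟨r, hr⟩ := (hs i).exists_smul (inf_le_right : V ⊓ U i ≤ U i)
    (res M (inf_le_left : V ⊓ U i ≤ V) m)
  rw [← ap_res, ← ap_res, hr, ap_smul, ap_smul, ap_res, ap_res, h i]

omit hn in
/-- a morphism which maps local generators to local generators is an isomorphism. -/
theorem isIso_of_gen (φ : M ⟶ N) (h : ∀ i, IsGen N (ap φ (U i) (s i))) : IsIso φ := by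
  have hinj : ∀ V : X.Opens, Function.Injective (ap φ V) := by
    intro V
    rw [injective_iff_map_eq_zero]
    intro m hm
    apply sec_ext hU
    intro i
    obtain ⟨r, hr⟩ := (hs i).exists_smul (inf_le_right : V ⊓ U i ≤ U i)
      (res M (inf_le_left : V ⊓ U i ≤ V) m)
    have h1 : r • res N (inf_le_right : V ⊓ U i ≤ U i) (ap φ (U i) (s i)) = 0 := by
      rw [← ap_res, ← ap_smul, ← hr, ap_res, hm, map_zero]
    have h2 : r = 0 := by
      apply (h i).smul_inj inf_le_right
      rw [h1, zero_smul]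
    rw [hr, h2, zero_smul, map_zero]
  apply isIso_of_bijective
  intro V
  refine ⟨hinj V, fun t => ?_⟩
  have hex : ∀ i, ∃ m : Γ(M, V ⊓ U i), ap φ _ m = res N inf_le_left t := by
    intro i
    obtain ⟨r, hr⟩ := (h i).exists_smul (inf_le_right : V ⊓ U i ≤ U i)
      (res N (inf_le_left : V ⊓ U i ≤ V) t)
    exact ⟨r • res M inf_le_right (s i), by rw [hr, ap_smul, ap_res]⟩
  choose m hm using hex
  obtain ⟨m', hm', -⟩ := existsUnique_glue M (fun i => V ⊓ U i) V (fun _ => inf_le_left)
    (iSup_inf_cover hU V) m (by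
      intro i j
      apply hinj
      rw [ap_res, ap_res, hm, hm, res_res, res_res])
  refine ⟨m', ?_⟩
  apply sec_ext hU
  intro i
  rw [← ap_res, hm', hm]

end

end Fermat.Agent.Jac
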