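import Fermat.Agent.Jac.Gen

/-!
# Invertible sheaves are the locally generated ones
-/

set_option autoImplicit false

universe u

open CategoryTheory CategoryTheory.Limits AlgebraicGeometry TopologicalSpace Opposite

namespace Fermat.Agent.Jac

variable {X Y : Scheme.{u}}

section restrict

variable (j : Y ⟶ X) [IsOpenImmersion j]

theorem exists_image_eq {W : Y.Opens} {V : X.Opens} (h : V ≤ j ''ᵁ W) :
    ∃ W' ≤ W, V = j ''ᵁ W' := by
  refine ⟨j ⁻¹ᵁ V, ?_, ?_⟩
  · intro x hx
    obtain ⟨y, hy, hyx⟩ := h hx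
    rwa [← j.isOpenEmbedding.injective hyx]
  · ext x
    constructor
    · intro hx
      obtain ⟨y, hy, rfl⟩ := h hx
      exact ⟨y, hx, rfl⟩
    · rintro ⟨y, hy, rfl⟩
      exact hy

theorem isGen_restrict_iff (M : X.Modules) {W : Y.Opens} (s : Γ(M, j ''ᵁ W)) :
    IsGen (M.restrict j) (U := W) s ↔ IsGen M s := by
  have key : ∀ (W' : Y.Opens) (h : W' ≤ W),
      Function.Bijective (fun r : Γ(Y, W') => (r • res (M.restrict j) h s : Γ(M.restrict j, W'))) ↔
      Function.Bijective (fun r : Γ(X, j ''ᵁ W') => r • res M (j.image_mono h) s) := by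
    intro W' h
    have h1 : (fun r : Γ(Y, W') => (r • res (M.restrict j) h s : Γ(M.restrict j, W'))) =
        (fun r : Γ(X, j ''ᵁ W') => r • res M (j.image_mono h) s) ∘ (j.appIso W').inv.hom := by
      funext r
      rfl
    have h2 : Function.Bijective (j.appIso W').inv.hom :=
      ConcreteCategory.bijective_of_isIso (j.appIso W').inv
    rw [h1]
    exact Function.Bijective.of_comp_iff _ h2
  constructor
  · intro hs V hV
    obtain ⟨W', hW', rfl⟩ := exists_image_eq j hV
    exact (key W' hW').1 (hs W' hW')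
  · intro hs W' hW'
    exact (key W' hW').2 (hs _ (j.image_mono hW'))

end restrict

/-- an invertible sheaf has local generators -/
theorem exists_gen {M : X.Modules} (hM : M.IsInvertible) (x : X) :
    ∃ (U : X.Opens) (_ : x ∈ U) (s : Γ(M, U)), IsGen M s := by
  obtain ⟨U, hxU, ⟨φ⟩⟩ := hM.exists_trivialization x
  let ψ : M.restrict U.ι ≅ unitMod U.toScheme :=
    (Scheme.Modules.restrictFunctorIsoPullback U.ι).app M ≪≫ φ
  have h1 : IsGen (M.restrict U.ι) (ap ψ.inv ⊤ (show Γ(U.toScheme, ⊤) from 1)) :=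
    (isGen_one (X := U.toScheme) ⊤).map ψ.inv
  have h2 := (isGen_restrict_iff U.ι M _).1 h1
  exact ⟨_, by simpa using hxU, _, h2⟩

/-- a sheaf with local generators is invertible -/
theorem isInvertible_of_gen {M : X.Modules}
    (h : ∀ x : X, ∃ (U : X.Opens) (_ : x ∈ U) (s : Γ(M, U)), IsGen M s) : M.IsInvertible := by
  constructor
  intro x
  obtain ⟨U, hxU, s, hs⟩ := h x
  refine ⟨U, hxU, ?_⟩
  have hU : U.ι ''ᵁ ⊤ = U := by simp
  have h1 : IsGen M (res M hU.le s) := hs.res _
  have h2 : IsGen (M.restrict U.ι) (U := (⊤ : U.toScheme.Opens)) (res M hU.le s) :=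
    (isGen_restrict_iff U.ι M _).2 h1
  obtain ⟨φ, -⟩ := exists_iso_unit h2
  exact ⟨((Scheme.Modules.restrictFunctorIsoPullback U.ι).app M).symm ≪≫ φ.symm⟩

theorem isInvertible_iff {M : X.Modules} :
    M.IsInvertible ↔ ∀ x : X, ∃ (U : X.Opens) (_ : x ∈ U) (s : Γ(M, U)), IsGen M s :=
  ⟨exists_gen, isInvertible_of_gen⟩

end Fermat.Agent.Jac
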