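import Fermat.Agent.Jac.CohChi
import Fermat.Agent.Jac.Def

/-!
# Line bundles on the curve as lattices
-/

set_option autoImplicit false
set_option linter.unusedSectionVars false

universe u v

namespace Fermat.Agent.Jac

open TensorProduct Module Polynomial

section repr

variable {A : Type u} [CommRing A] {W : Type v} [AddCommGroup W] [Module A W]

/-- lattices from coordinates in `A[x]` -/
theorem isLat_of_repr {ι : Type} [Fintype ι] (x : W ≃ₗ[A] W) (E : Submodule A W)
    (hst : ∀ w ∈ E, x w ∈ E)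
    (hex : ∀ w, ∃ m : ℕ, (x ^ m) w ∈ E) (e : ι → W) (he : ∀ i, e i ∈ E) (φ : ι → (E →ₗ[A] A[X]))
    (hφ : ∀ i (w : E), φ i ⟨x w, hst _ w.2⟩ = X * φ i w)
    (hrep : ∀ w : E, (w : W) = ∑ i, (φ i w).sum fun a c => c • (x ^ a) (e i)) : IsLat x E := by
  classical
  have hpow : ∀ (m : ℕ) (w : E), (x ^ m) (w : W) ∈ E := fun m w => by
    induction m with
    | zero => exact w.2
    | succ m ih => rw [pow_succ', LinearEquiv.mul_apply]; exact hst _ ih
  have hφm : ∀ i (m : ℕ) (w : E), φ i ⟨(x ^ m) w, hpow m w⟩ = X ^ m * φ i w := fun i m w => by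
    induction m with
    | zero =>
      have h0 : (⟨(x ^ 0) w, hpow 0 w⟩ : E) = w := rfl
      rw [h0, pow_zero (X : A[X]), one_mul]
    | succ m ih =>
      have : (⟨(x ^ (m + 1)) w, hpow (m + 1) w⟩ : E) = ⟨x ((x ^ m) w), hst _ (hpow m w)⟩ := by
        apply Subtype.ext
        change (x ^ (m + 1)) (w : W) = x ((x ^ m) w)
        rw [pow_succ', LinearEquiv.mul_apply]
      rw [this]
      have h1 := hφ i ⟨(x ^ m) w, hpow m w⟩
      rw [h1, ih, pow_succ']
      ring
  -- the coordinate functions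
  choose n hn using hex
  have hindep : ∀ i (w : W) (m : ℕ) (hm : (x ^ m) w ∈ E),
      (φ i ⟨(x ^ n w) w, hn w⟩).coeff (n w) = (φ i ⟨(x ^ m) w, hm⟩).coeff m := by
    intro i w m hm
    have key : ∀ (a b : ℕ) (ha : (x ^ a) w ∈ E) (hb : (x ^ b) w ∈ E), a ≤ b →
        (φ i ⟨(x ^ a) w, ha⟩).coeff a = (φ i ⟨(x ^ b) w, hb⟩).coeff b := by
      intro a b ha hb hab
      obtain ⟨d, rfl⟩ := Nat.exists_eq_add_of_le hab
      have : (⟨(x ^ (a + d)) w, hb⟩ : E) = ⟨(x ^ d) ((x ^ a) w), hpow d ⟨_, ha⟩⟩ := by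
        apply Subtype.ext
        change (x ^ (a + d)) w = (x ^ d) ((x ^ a) w)
        rw [add_comm, pow_add, LinearEquiv.mul_apply]
      rw [this, hφm i d ⟨_, ha⟩, coeff_X_pow_mul]
    rcases le_total (n w) m with h | h
    · exact key _ _ _ _ h
    · exact (key _ _ _ _ h).symm
  let c : ι → (W →ₗ[A] A) := fun i =>
    { toFun := fun w => (φ i ⟨(x ^ n w) w, hn w⟩).coeff (n w)
      map_add' := fun w w' => by
        have h1 : (x ^ (n w + n w')) w ∈ E := by
          rw [add_comm, pow_add, LinearEquiv.mul_apply]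
          exact hpow _ ⟨_, hn w⟩
        have h2 : (x ^ (n w + n w')) w' ∈ E := by
          rw [pow_add, LinearEquiv.mul_apply]
          exact hpow _ ⟨_, hn w'⟩
        have h3 : (x ^ (n w + n w')) (w + w') ∈ E := by
          rw [map_add]; exact E.add_mem h1 h2
        rw [hindep i w _ h1, hindep i w' _ h2, hindep i (w + w') _ h3, ← coeff_add, ← map_add]
        congr 2
        apply Subtype.ext
        exact map_add _ _ _
      map_smul' := fun a w => by
        have h3 : (x ^ n w) (a • w) ∈ E := by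
          rw [map_smul]; exact E.smul_mem _ (hn w)
        rw [hindep i (a • w) _ h3, RingHom.id_apply, smul_eq_mul, ← smul_eq_mul, ← coeff_smul,
          ← map_smul]
        congr 2
        apply Subtype.ext
        exact map_smul _ _ _ }
  have hc : ∀ i (w : W) (m : ℕ) (hm : (x ^ m) w ∈ E), c i w = (φ i ⟨(x ^ m) w, hm⟩).coeff m :=
    fun i w m hm => hindep i w m hm
  have hca : ∀ i (w : E) (a : ℕ), c i ((x⁻¹ ^ a) w) = (φ i w).coeff a := fun i w a => by
    have h1 : (x ^ a) ((x⁻¹ ^ a) (w : W)) ∈ E := by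
      rw [pow_apply_inv_pow]; exact w.2
    rw [hc i _ a h1]
    congr 2
    apply Subtype.ext
    exact pow_apply_inv_pow x a w
  let eqv := Fintype.equivFin ι
  refine ⟨hst, fun w => ⟨n w, hn w⟩, ⟨⟨Fintype.card ι, fun i => e (eqv.symm i),
    fun i => c (eqv.symm i), fun i => he _, fun i w hw => ?_, fun w hw => ?_⟩⟩⟩
  · have h1 : (x ^ 0) (x w) ∈ E := hst w hw
    rw [hc _ _ 0 h1]
    have h2 := hφ (eqv.symm i) ⟨w, hw⟩
    have h3 : (⟨(x ^ 0) (x w), h1⟩ : E) = ⟨x w, hst w hw⟩ := rfl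
    rw [h3, h2, mul_coeff_zero, coeff_X_zero, zero_mul]
  · refine ⟨Finset.univ.sup fun i => (φ i ⟨w, hw⟩).natDegree + 1, fun i a ha => ?_, ?_⟩
    · have h1 := hca (eqv.symm i) ⟨w, hw⟩ a
      rw [h1]
      apply coeff_eq_zero_of_natDegree_lt
      have h2 := Finset.le_sup (f := fun i => (φ i ⟨w, hw⟩).natDegree + 1)
        (Finset.mem_univ (eqv.symm i))
      have h3 : (φ (eqv.symm i) ⟨w, hw⟩).natDegree + 1 ≤ _ := h2
      omega
    · have h1 := hrep ⟨w, hw⟩
      rw [Equiv.sum_comp eqv.symm fun i => ∑ a ∈ Finset.range (Finset.univ.sup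
        fun i => (φ i ⟨w, hw⟩).natDegree + 1), c i ((x⁻¹ ^ a) w) • (x ^ a) (e i)]
      change w = _ at h1
      conv_lhs => rw [h1]
      refine Finset.sum_congr rfl fun i _ => ?_
      rw [Polynomial.sum_over_range' _ _ (Finset.univ.sup fun i => (φ i ⟨w, hw⟩).natDegree + 1)]
      · refine Finset.sum_congr rfl fun a _ => ?_
        have h4 := hca i ⟨w, hw⟩ a
        rw [← h4]
      · exact Nat.lt_of_succ_le (Finset.le_sup (f := fun i => (φ i ⟨w, hw⟩).natDegree + 1)
          (Finset.mem_univ i))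
      · intro a; rw [zero_smul]

end repr

section proj

variable {k : Type u} [Field k] {C : Type u} [CommRing C] [Algebra k C]

/-- coordinates of a finite torsion free algebra over `k[t]` -/
theorem exists_coords [IsDomain C] (t : C)
    (hfin : (Polynomial.aeval t : k[X] →ₐ[k] C).toRingHom.Finite) (htr : Transcendental k t) :
    ∃ (d : ℕ) (b : Fin d → C) (ρ : Fin d → (C →ₗ[k] k[X])),
      (∀ j c, ρ j (t * c) = X * ρ j c) ∧ ∀ c, c = ∑ j, (ρ j c).sum fun a r => r • (t ^ a * b j) := by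
  let alg : Algebra k[X] C := (Polynomial.aeval t : k[X] →ₐ[k] C).toRingHom.toAlgebra
  have hfin' : Module.Finite k[X] C := hfin
  have halg : ∀ p : k[X], algebraMap k[X] C p = Polynomial.aeval t p := fun p => rfl
  have hsm : ∀ (p : k[X]) (c : C), p • c = Polynomial.aeval t p * c := fun p c => by
    rw [Algebra.smul_def, halg]
  have htf : Module.IsTorsionFree k[X] C :=
    Module.isTorsionFree_iff_algebraMap_injective.mpr (transcendental_iff_injective.mp htr)
  have hfree : Module.Free k[X] C := inferInstance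
  have : IsScalarTower k k[X] C := IsScalarTower.of_algebraMap_eq fun r => by
    rw [halg, Polynomial.algebraMap_eq, Polynomial.aeval_C]
  let b := Module.finBasis k[X] C
  refine ⟨_, b, fun j => (b.coord j).restrictScalars k, fun j c => ?_, fun c => ?_⟩
  · have h1 : t * c = (X : k[X]) • c := by rw [hsm, Polynomial.aeval_X]
    change b.coord j (t * c) = X * b.coord j c
    rw [h1, map_smul, smul_eq_mul]
  · conv_lhs => rw [← b.sum_repr c]
    refine Finset.sum_congr rfl fun j _ => ?_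
    rw [hsm, Polynomial.aeval_def, Polynomial.eval₂_eq_sum, Polynomial.sum_def, Polynomial.sum_def,
      Finset.sum_mul]
    refine Finset.sum_congr rfl fun a _ => ?_
    change algebraMap k C ((b.repr c j).coeff a) * t ^ a * b j =
      ((b.repr c j).coeff a) • (t ^ a * b j)
    rw [Algebra.smul_def, mul_assoc]

variable {A : Type u} [CommRing A] [Algebra k A]

/-- the base change of a coordinate function -/
noncomputable def coordA (A : Type u) [CommRing A] [Algebra k A] (ρ : C →ₗ[k] k[X]) :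
    A ⊗[k] C →ₗ[A] A[X] :=
  AlgebraTensorModule.lift
    (LinearMap.toSpanSingleton A (C →ₗ[k] A[X])
      ((Polynomial.mapAlgHom (Algebra.ofId k A)).toLinearMap.comp ρ))

theorem coordA_tmul (ρ : C →ₗ[k] k[X]) (a : A) (c : C) :
    coordA A ρ (a ⊗ₜ c) = a • (ρ c).map (algebraMap k A) := rfl

theorem coordA_mul (ρ : C →ₗ[k] k[X]) (t : C) (ht : ∀ c, ρ (t * c) = X * ρ c) (r : A ⊗[k] C) :
    coordA A ρ ((1 ⊗ₜ t) * r) = X * coordA A ρ r := by
  induction r using TensorProduct.induction_on with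
  | zero => rw [mul_zero, map_zero, mul_zero]
  | tmul a c =>
    rw [Algebra.TensorProduct.tmul_mul_tmul, one_mul, coordA_tmul, coordA_tmul, ht,
      Polynomial.map_mul, Polynomial.map_X, mul_smul_comm]
  | add r s hr hs => rw [mul_add, map_add, hr, hs, map_add, mul_add]

theorem sum_eq_aeval {S : Type v} [CommRing S] [Algebra A S] (p : A[X]) (T B : S) :
    (p.sum fun a s => s • (T ^ a * B)) = Polynomial.aeval T p * B := by
  rw [Polynomial.aeval_def, Polynomial.eval₂_eq_sum, Polynomial.sum_def, Polynomial.sum_def,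
    Finset.sum_mul]
  refine Finset.sum_congr rfl fun a _ => ?_
  rw [Algebra.smul_def, mul_assoc]

theorem coordA_repr {d : ℕ} (t : C) (b : Fin d → C) (ρ : Fin d → (C →ₗ[k] k[X]))
    (hrep : ∀ c, c = ∑ j, (ρ j c).sum fun a r => r • (t ^ a * b j)) (r : A ⊗[k] C) :
    r = ∑ j, Polynomial.aeval ((1 : A) ⊗ₜ[k] t) (coordA A (ρ j) r) * (1 ⊗ₜ b j) := by
  induction r using TensorProduct.induction_on with
  | zero => simp
  | tmul a c =>
    conv_lhs => rw [hrep c, tmul_sum]
    refine Finset.sum_congr rfl fun j _ => ?_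
    rw [coordA_tmul, sum_eq_aeval, map_smul, Polynomial.aeval_map_algebraMap]
    have h1 : Polynomial.aeval ((1 : A) ⊗ₜ[k] t) (ρ j c) =
        (1 : A) ⊗ₜ[k] (Polynomial.aeval t (ρ j c)) :=
      Polynomial.aeval_algHom_apply (Algebra.TensorProduct.includeRight : C →ₐ[k] A ⊗[k] C) t _
    rw [h1, smul_mul_assoc, Algebra.TensorProduct.tmul_mul_tmul, one_mul, smul_tmul', smul_eq_mul,
      mul_one]
  | add r s hr hs =>
    conv_lhs => rw [hr, hs]
    rw [← Finset.sum_add_distrib]
    refine Finset.sum_congr rfl fun j _ => ?_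
    rw [map_add, map_add, add_mul]

/-- **invertible (more generally: f.g. projective) modules over `A ⊗ C` are lattices** -/
theorem isLat_of_projective [IsDomain C] (t : C)
    (hfin : (Polynomial.aeval t : k[X] →ₐ[k] C).toRingHom.Finite) (htr : Transcendental k t)
    {M : Type v} [AddCommGroup M] [Module A M] [Module (A ⊗[k] C) M]
    [IsScalarTower A (A ⊗[k] C) M] (N : Submodule (A ⊗[k] C) M) [Module.Finite (A ⊗[k] C) N]
    [Module.Projective (A ⊗[k] C) N] (z : M ≃ₗ[A] M)
    (hz : ∀ m, z m = ((1 : A) ⊗ₜ[k] t) • m) (hex : ∀ m, ∃ n : ℕ, (z ^ n) m ∈ N) :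
    IsLat z (N.restrictScalars A) := by
  obtain ⟨d, b, ρ, hρ, hrep⟩ := exists_coords t hfin htr
  obtain ⟨n, π, hπ⟩ := Module.Finite.exists_fin' (A ⊗[k] C) N
  obtain ⟨σ, hσ⟩ := Module.projective_lifting_property π LinearMap.id hπ
  have hσ' : ∀ w, π (σ w) = w := fun w => LinearMap.congr_fun hσ w
  have hzp : ∀ (a : ℕ) (m : M), (z ^ a) m = ((1 : A) ⊗ₜ[k] t) ^ a • m := fun a m => by
    induction a with
    | zero => rw [pow_zero ((1 : A) ⊗ₜ[k] t), one_smul]; rfl
    | succ a ih => rw [pow_succ', LinearEquiv.mul_apply, ih, hz, smul_smul, ← pow_succ']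
  let ψ : Fin n → ((N.restrictScalars A : Submodule A M) →ₗ[A] A ⊗[k] C) := fun i =>
    { toFun := fun w => σ ⟨w.1, w.2⟩ i
      map_add' := fun w w' => by
        have h1 : (⟨w.1 + w'.1, N.add_mem w.2 w'.2⟩ : N) = ⟨w.1, w.2⟩ + ⟨w'.1, w'.2⟩ := rfl
        change σ ⟨w.1 + w'.1, N.add_mem w.2 w'.2⟩ i = _
        rw [h1, map_add, Pi.add_apply]
      map_smul' := fun a w => by
        have h0 : a • w.1 = (algebraMap A (A ⊗[k] C) a) • w.1 := (algebraMap_smul _ a w.1).symm
        have h1 : (a • w : (N.restrictScalars A : Submodule A M)).1 =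
          ((algebraMap A (A ⊗[k] C) a) • (⟨w.1, w.2⟩ : N) : N).1 := h0
        have h2 : (⟨(a • w : (N.restrictScalars A : Submodule A M)).1, (a • w).2⟩ : N) =
          (algebraMap A (A ⊗[k] C) a) • (⟨w.1, w.2⟩ : N) := Subtype.ext h1
        change σ (⟨(a • w : (N.restrictScalars A : Submodule A M)).1, (a • w).2⟩ : N) i = _
        rw [h2, map_smul, Pi.smul_apply, RingHom.id_apply, algebraMap_smul] }
  have hψ : ∀ i (r : A ⊗[k] C) (w : (N.restrictScalars A : Submodule A M))
      (h : r • w.1 ∈ N), ψ i ⟨r • w.1, h⟩ = r * ψ i w := fun i r w h => by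
    have h1 : (⟨r • w.1, h⟩ : N) = r • (⟨w.1, w.2⟩ : N) := rfl
    change σ (⟨r • w.1, h⟩ : N) i = r * σ ⟨w.1, w.2⟩ i
    rw [h1, map_smul, Pi.smul_apply, smul_eq_mul]
  have hψr : ∀ w : (N.restrictScalars A : Submodule A M),
      w.1 = ∑ i, ψ i w • ((π (Pi.single i 1) : N) : M) := fun w => by
    have h1 := hσ' ⟨w.1, w.2⟩
    have h2 : σ ⟨w.1, w.2⟩ = ∑ i, ψ i w • (Pi.single i 1 : Fin n → A ⊗[k] C) := by
      ext i
      rw [Finset.sum_apply, Finset.sum_eq_single i]
      · rw [Pi.smul_apply, Pi.single_eq_same, smul_eq_mul, mul_one]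
        rfl
      · intro j _ hj
        rw [Pi.smul_apply, Pi.single_eq_of_ne' hj, smul_zero]
      · intro h; exact absurd (Finset.mem_univ i) h
    rw [h2, map_sum] at h1
    have h3 := congrArg Subtype.val h1
    rw [← h3]
    simp only [map_smul, Submodule.coe_sum, Submodule.coe_smul]
  refine isLat_of_repr (ι := Fin n × Fin d) z (N.restrictScalars A) (fun w hw => ?_) hex
    (fun p => ((1 : A) ⊗ₜ[k] b p.2) • ((π (Pi.single p.1 1) : N) : M))
    (fun p => N.smul_mem _ (π (Pi.single p.1 1) : N).2)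
    (fun p => (coordA A (ρ p.2)).comp (ψ p.1)) (fun p w => ?_) fun w => ?_
  · rw [hz]
    exact N.smul_mem _ hw
  · rw [LinearMap.comp_apply, LinearMap.comp_apply]
    have h1 : ((1 : A) ⊗ₜ[k] t) • w.1 ∈ N := N.smul_mem _ w.2
    have h2 : (⟨z w.1, by rw [hz]; exact h1⟩ : (N.restrictScalars A : Submodule A M)) =
        ⟨((1 : A) ⊗ₜ[k] t) • w.1, h1⟩ := Subtype.ext (hz _)
    rw [h2, hψ, coordA_mul _ _ (hρ p.2)]
  · rw [Fintype.sum_prod_type]
    conv_lhs => rw [hψr w]
    refine Finset.sum_congr rfl fun i _ => ?_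
    conv_lhs => rw [coordA_repr t b ρ hrep (ψ i w), Finset.sum_smul]
    refine Finset.sum_congr rfl fun j _ => ?_
    rw [mul_smul, LinearMap.comp_apply]
    generalize coordA A (ρ j) (ψ i w) = p
    rw [Polynomial.aeval_def, Polynomial.eval₂_eq_sum, Polynomial.sum_def, Polynomial.sum_def,
      Finset.sum_smul]
    refine Finset.sum_congr rfl fun a _ => ?_
    rw [hzp, mul_smul, algebraMap_smul]

end proj

section LB

variable {k : Type u} [Field k] (X : CurveData k)

instance CurveData.isDomain0 : IsDomain X.B0 := by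
  have := X.ded0 k
  exact (Algebra.TensorProduct.lid k X.B0).symm.toMulEquiv.isDomain (k ⊗[k] X.B0)

instance CurveData.isDomaini : IsDomain X.Bi := by
  have := X.dedi k
  exact (Algebra.TensorProduct.lid k X.Bi).symm.toMulEquiv.isDomain (k ⊗[k] X.Bi)

theorem CurveData.trans0 : Transcendental k (⟨X.x, X.x_mem⟩ : X.B0) := fun h => by
  obtain ⟨p, hp, hp'⟩ := h
  refine X.trans ⟨p, hp, ?_⟩
  have h1 : Polynomial.aeval (X.B0.val ⟨X.x, X.x_mem⟩) p =
    X.B0.val (Polynomial.aeval (⟨X.x, X.x_mem⟩ : X.B0) p) := Polynomial.aeval_algHom_apply _ _ _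
  rw [hp', map_zero] at h1
  exact h1

theorem CurveData.transi : Transcendental k (⟨X.y, X.y_mem⟩ : X.Bi) := fun h => by
  obtain ⟨p, hp, hp'⟩ := h
  refine X.trans ⟨p.reverse, fun h0 => hp (Polynomial.reverse_eq_zero.mp h0), ?_⟩
  have h1 : Polynomial.aeval (X.Bi.val ⟨X.y, X.y_mem⟩) p =
    X.Bi.val (Polynomial.aeval (⟨X.y, X.y_mem⟩ : X.Bi) p) := Polynomial.aeval_algHom_apply _ _ _
  rw [hp', map_zero] at h1
  have h2 : Polynomial.aeval X.y p = 0 := h1
  let _ : Invertible X.y := ⟨X.x, X.xy, by rw [mul_comm, X.xy]⟩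
  have h3 := Polynomial.eval₂_reverse_mul_pow (algebraMap k X.B) X.y p
  rw [← Polynomial.aeval_def X.y p, h2] at h3
  have h4 : X.y ^ p.natDegree * X.x ^ p.natDegree = 1 := by
    rw [← mul_pow, mul_comm, X.xy, one_pow]
  have h5 : ⅟X.y = X.x := rfl
  rw [h5] at h3
  rw [Polynomial.aeval_def]
  calc Polynomial.eval₂ (algebraMap k X.B) X.x p.reverse
      = Polynomial.eval₂ (algebraMap k X.B) X.x p.reverse *
        (X.y ^ p.natDegree * X.x ^ p.natDegree) := by rw [h4, mul_one]
    _ = 0 := by rw [← mul_assoc, h3, zero_mul]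

variable {X} {A : Type u} [CommRing A] [Algebra k A]

namespace LB

/-- multiplication by `x` -/
noncomputable def xE (L : LB X A) : L.M ≃ₗ[A] L.M where
  toFun m := X.xA A • m
  map_add' := smul_add _
  map_smul' a m := smul_comm _ a m
  invFun m := X.yA A • m
  left_inv m := by
    change X.yA A • (X.xA A • m) = m
    rw [smul_smul, mul_comm, X.xA_yA, one_smul]
  right_inv m := by
    change X.xA A • (X.yA A • m) = m
    rw [smul_smul, X.xA_yA, one_smul]

theorem xE_apply (L : LB X A) (m : L.M) : L.xE m = X.xA A • m := rfl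
theorem xE_inv_apply (L : LB X A) (m : L.M) : L.xE⁻¹ m = X.yA A • m := rfl

theorem xE_pow_apply (L : LB X A) (n : ℕ) (m : L.M) : (L.xE ^ n) m = X.xA A ^ n • m := by
  induction n with
  | zero => rw [pow_zero (X.xA A), one_smul]; rfl
  | succ n ih => rw [pow_succ', LinearEquiv.mul_apply, ih, xE_apply, smul_smul, ← pow_succ']
theorem xE_inv_pow_apply (L : LB X A) (n : ℕ) (m : L.M) :
    (L.xE⁻¹ ^ n) m = X.yA A ^ n • m := by
  induction n with
  | zero => rw [pow_zero (X.yA A), one_smul]; rfl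
  | succ n ih => rw [pow_succ', LinearEquiv.mul_apply, ih, xE_inv_apply, smul_smul, ← pow_succ']

/-- `M0` is a lattice -/
theorem isLat0 (L : LB X A) : IsLat L.xE L.A0 := by
  have := L.inv0
  refine isLat_of_projective (⟨X.x, X.x_mem⟩ : X.B0) X.fin0 X.trans0 L.M0 L.xE (fun m => ?_)
    fun m => ?_
  · rw [xE_apply, L.smul0]
    change _ = X.J0 A (X.x0 A) • m
    rw [X.J0_x0]
  · obtain ⟨n, hn⟩ := L.ex0 m
    exact ⟨n, by rw [xE_pow_apply]; exact hn⟩

/-- `Mi` is a lattice -/
theorem isLati (L : LB X A) : IsLat L.xE⁻¹ L.Ai := by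
  have := L.invi
  refine isLat_of_projective (⟨X.y, X.y_mem⟩ : X.Bi) X.fini X.transi L.Mi L.xE⁻¹ (fun m => ?_)
    fun m => ?_
  · rw [xE_inv_apply, L.smuli]
    change _ = X.Ji A (X.yi A) • m
    rw [X.Ji_yi]
  · obtain ⟨n, hn⟩ := L.exi m
    exact ⟨n, by rw [xE_inv_pow_apply]; exact hn⟩

end LB

end LB

end Fermat.Agent.Jac
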