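import Fermat.Agent.Jac.LBLat
import Fermat.Agent.Jac.Stmts

/-!
# Base change of line bundles and lattices
-/

set_option autoImplicit false
set_option linter.unusedSectionVars false

universe u v

namespace Fermat.Agent.Jac

open TensorProduct Module

variable {k : Type u} [Field k] {X : CurveData k} {A : Type u} [CommRing A] [Algebra k A]
  {A' : Type u} [CommRing A'] [Algebra k A'] {h : A →ₐ[k] A'} {L : LB X A} {L' : LB X A'}

theorem LB.Map.map_smul0 (φ : LB.Map h L L') (r : X.R0 A) (m : L.M) :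
    φ.f (r • m) = X.b0 h r • φ.f m := by
  rw [L.smul0, L'.smul0, φ.map_smul, X.bb_J0]

theorem LB.Map.map_smuli (φ : LB.Map h L L') (r : X.Ri A) (m : L.M) :
    φ.f (r • m) = X.bi h r • φ.f m := by
  rw [L.smuli, L'.smuli, φ.map_smul, X.bb_Ji]

theorem LB.Map.map_smulA (φ : LB.Map h L L') (a : A) (m : L.M) :
    φ.f (a • m) = h a • φ.f m := by
  rw [L.smulA, L'.smulA, φ.map_smul]
  congr 1

section

variable [Algebra A A'] [Module A L'.M] [IsScalarTower A A' L'.M]

theorem LB.Map.bc_A0 (φ : LB.Map h L L') (f : L.M →ₗ[A] L'.M) (hf : ∀ m, f m = φ.f m) :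
    bc A' f L.A0 = L'.A0 := by
  apply le_antisymm
  · rw [bc, Submodule.span_le]
    rintro _ ⟨w, hw, rfl⟩
    rw [hf]
    change φ.f w ∈ L'.M0
    rw [← φ.span0]
    exact Submodule.subset_span ⟨w, hw, rfl⟩
  · have key : ∀ (r : X.R0 A') (m : L.M), m ∈ L.M0 → r • φ.f m ∈ bc A' f L.A0 := by
      intro r m hm
      induction r using TensorProduct.induction_on with
      | zero =>
        have h0 : (0 : X.R0 A') • φ.f m = 0 := zero_smul (X.R0 A') (φ.f m)
        exact h0 ▸ zero_mem _
      | tmul a b =>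
        have h1 : (a ⊗ₜ b : X.R0 A') = a • X.b0 h (1 ⊗ₜ b) := by
          simp [CurveData.b0, smul_tmul']
        rw [h1, smul_assoc, ← φ.map_smul0, ← hf]
        exact Submodule.smul_mem _ _ (mem_bc (L.M0.smul_mem _ hm))
      | add r s hr hs => rw [add_smul]; exact add_mem hr hs
    intro w hw
    have hw' : w ∈ Submodule.span (X.R0 A') (φ.f '' L.M0) := by rw [φ.span0]; exact hw
    clear hw
    rw [Submodule.mem_span_iff_exists_finset_subset] at hw'
    obtain ⟨c, t, ht, -, rfl⟩ := hw'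
    refine Submodule.sum_mem _ fun y hy => ?_
    obtain ⟨m, hm, rfl⟩ := ht hy
    exact key _ m hm

theorem LB.Map.bc_Ai (φ : LB.Map h L L') (f : L.M →ₗ[A] L'.M) (hf : ∀ m, f m = φ.f m) :
    bc A' f L.Ai = L'.Ai := by
  apply le_antisymm
  · rw [bc, Submodule.span_le]
    rintro _ ⟨w, hw, rfl⟩
    rw [hf]
    change φ.f w ∈ L'.Mi
    rw [← φ.spani]
    exact Submodule.subset_span ⟨w, hw, rfl⟩
  · have key : ∀ (r : X.Ri A') (m : L.M), m ∈ L.Mi → r • φ.f m ∈ bc A' f L.Ai := by
      intro r m hm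
      induction r using TensorProduct.induction_on with
      | zero =>
        have h0 : (0 : X.Ri A') • φ.f m = 0 := zero_smul (X.Ri A') (φ.f m)
        exact h0 ▸ zero_mem _
      | tmul a b =>
        have h1 : (a ⊗ₜ b : X.Ri A') = a • X.bi h (1 ⊗ₜ b) := by
          simp [CurveData.bi, smul_tmul']
        rw [h1, smul_assoc, ← φ.map_smuli, ← hf]
        exact Submodule.smul_mem _ _ (mem_bc (L.Mi.smul_mem _ hm))
      | add r s hr hs => rw [add_smul]; exact add_mem hr hs
    intro w hw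
    have hw' : w ∈ Submodule.span (X.Ri A') (φ.f '' L.Mi) := by rw [φ.spani]; exact hw
    clear hw
    rw [Submodule.mem_span_iff_exists_finset_subset] at hw'
    obtain ⟨c, t, ht, -, rfl⟩ := hw'
    refine Submodule.sum_mem _ fun y hy => ?_
    obtain ⟨m, hm, rfl⟩ := ht hy
    exact key _ m hm

theorem LB.Map.isBC (φ : LB.Map h L L') (f : L.M →ₗ[A] L'.M) (hf : ∀ m, f m = φ.f m) :
    IsBC f L.xE L'.xE := ⟨fun w => by
  rw [hf, hf, LB.xE_apply, LB.xE_apply, φ.map_smul]
  congr 1
  simp [CurveData.bb, CurveData.xA]⟩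

end

end Fermat.Agent.Jac
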