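import Mathlib

/-!
# Lattices over `A[x]` in a module with an automorphism `x`

`IsLat x E`: `E` is (the image of) a finitely generated projective `A[x]`-module in its
localization `W`. Pairs of a lattice for `x` and one for `x⁻¹` are vector bundles on `P¹_A`.
-/

set_option autoImplicit false

universe u v

namespace Fermat.Agent.Jac

variable {A : Type u} [CommRing A] {W : Type v} [AddCommGroup W] [Module A W]

/-- dual basis data of a lattice -/
structure LatBasis (x : W ≃ₗ[A] W) (E : Submodule A W) where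
  r : ℕ
  e : Fin r → W
  c : Fin r → (W →ₗ[A] A)
  e_mem : ∀ i, e i ∈ E
  c_x : ∀ i, ∀ w ∈ E, c i (x w) = 0
  repr : ∀ w ∈ E, ∃ M : ℕ, (∀ i, ∀ a, M ≤ a → c i ((x⁻¹ ^ a) w) = 0) ∧
      w = ∑ i, ∑ a ∈ Finset.range M, c i ((x⁻¹ ^ a) w) • (x ^ a) (e i)

/-- `E` is a finitely generated projective `A[x]`-lattice in `W` -/
structure IsLat (x : W ≃ₗ[A] W) (E : Submodule A W) : Prop where
  stable : ∀ w ∈ E, x w ∈ E
  ex_mem : ∀ w, ∃ m : ℕ, (x ^ m) w ∈ E
  dual : Nonempty (LatBasis x E)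

section pow

variable (x : W ≃ₗ[A] W)

theorem pow_apply_inv_pow (m : ℕ) (w : W) : (x ^ m) ((x⁻¹ ^ m) w) = w := by
  rw [← LinearEquiv.mul_apply, inv_pow, mul_inv_cancel]
  rfl

theorem inv_pow_apply_pow (m : ℕ) (w : W) : (x⁻¹ ^ m) ((x ^ m) w) = w := by
  rw [← LinearEquiv.mul_apply, inv_pow, inv_mul_cancel]
  rfl

theorem inv_pow_pow_of_le {a m : ℕ} (h : a ≤ m) (w : W) :
    (x⁻¹ ^ a) ((x ^ m) w) = (x ^ (m - a)) w := by
  obtain ⟨k, rfl⟩ := Nat.exists_eq_add_of_le h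
  rw [pow_add, LinearEquiv.mul_apply, inv_pow_apply_pow, Nat.add_sub_cancel_left]

theorem inv_pow_pow_of_ge {a m : ℕ} (h : m ≤ a) (w : W) :
    (x⁻¹ ^ a) ((x ^ m) w) = (x⁻¹ ^ (a - m)) w := by
  obtain ⟨k, rfl⟩ := Nat.exists_eq_add_of_le h
  rw [add_comm m k, pow_add, LinearEquiv.mul_apply, inv_pow_apply_pow, Nat.add_sub_cancel]

theorem inv_pow_inv_pow (a m : ℕ) (w : W) :
    (x⁻¹ ^ a) ((x⁻¹ ^ m) w) = (x⁻¹ ^ (a + m)) w := by
  rw [pow_add, LinearEquiv.mul_apply]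

theorem pow_pow_apply (a m : ℕ) (w : W) : (x ^ a) ((x ^ m) w) = (x ^ (a + m)) w := by
  rw [pow_add, LinearEquiv.mul_apply]

end pow

/-- the twist `x ^ n E` -/
def tw (x : W ≃ₗ[A] W) (n : ℕ) (E : Submodule A W) : Submodule A W :=
  E.comap ((x⁻¹ ^ n : W ≃ₗ[A] W) : W →ₗ[A] W)

theorem mem_tw {x : W ≃ₗ[A] W} {n : ℕ} {E : Submodule A W} {w : W} :
    w ∈ tw x n E ↔ (x⁻¹ ^ n) w ∈ E := Iff.rfl

theorem tw_zero (x : W ≃ₗ[A] W) (E : Submodule A W) : tw x 0 E = E := by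
  ext w
  rw [mem_tw, pow_zero]
  rfl

namespace IsLat

variable {x : W ≃ₗ[A] W} {E : Submodule A W}

theorem pow_mem (h : IsLat x E) (m : ℕ) {w : W} (hw : w ∈ E) : (x ^ m) w ∈ E := by
  induction m with
  | zero => simpa
  | succ m ih =>
    rw [pow_succ', LinearEquiv.mul_apply]
    exact h.stable _ ih

theorem mem_of_le (h : IsLat x E) {m n : ℕ} (hmn : m ≤ n) {w : W} (hw : (x ^ m) w ∈ E) :
    (x ^ n) w ∈ E := by
  obtain ⟨k, rfl⟩ := Nat.exists_eq_add_of_le hmn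
  rw [add_comm, pow_add, LinearEquiv.mul_apply]
  exact h.pow_mem k hw

end IsLat

namespace LatBasis

variable {x : W ≃ₗ[A] W} {E : Submodule A W}

theorem c_pow (b : LatBasis x E) (hs : IsLat x E) (i : Fin b.r) {a : ℕ} (ha : 1 ≤ a) {w : W}
    (hw : w ∈ E) : b.c i ((x ^ a) w) = 0 := by
  obtain ⟨k, rfl⟩ := Nat.exists_eq_add_of_le' ha
  rw [pow_succ', LinearEquiv.mul_apply]
  exact b.c_x i _ (hs.pow_mem k hw)

/-- finiteness of supports -/
theorem exists_bound (b : LatBasis x E) (hs : IsLat x E) (w : W) :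
    ∃ M : ℕ, ∀ i, ∀ a, M ≤ a → b.c i ((x⁻¹ ^ a) w) = 0 := by
  obtain ⟨m, hm⟩ := hs.ex_mem w
  obtain ⟨M, hM, -⟩ := b.repr _ hm
  refine ⟨M, fun i a ha => ?_⟩
  have h1 := hM i (a + m) (le_trans ha (Nat.le_add_right a m))
  rwa [pow_add, LinearEquiv.mul_apply, inv_pow_apply_pow] at h1

/-- the representation with any large bound -/
theorem repr_of_bound (b : LatBasis x E) {w : W} (hw : w ∈ E) {M : ℕ}
    (hM : ∀ i, ∀ a, M ≤ a → b.c i ((x⁻¹ ^ a) w) = 0) :
    w = ∑ i, ∑ a ∈ Finset.range M, b.c i ((x⁻¹ ^ a) w) • (x ^ a) (b.e i) := by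
  obtain ⟨M', hM', hrep⟩ := b.repr w hw
  conv_lhs => rw [hrep]
  refine Finset.sum_congr rfl fun i _ => ?_
  rcases le_total M M' with h | h
  · symm
    refine Finset.sum_subset (Finset.range_mono h) fun a _ ha => ?_
    rw [Finset.mem_range, not_lt] at ha
    rw [hM i a ha, zero_smul]
  · refine Finset.sum_subset (Finset.range_mono h) fun a _ ha => ?_
    rw [Finset.mem_range, not_lt] at ha
    rw [hM' i a ha, zero_smul]

/-- representation modulo the lattice -/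
theorem repr_mod (b : LatBasis x E) (hs : IsLat x E) {w : W} {m : ℕ} (hm : (x ^ m) w ∈ E) :
    w - ∑ i, ∑ a ∈ Finset.range m, b.c i ((x ^ (a + 1)) w) • (x⁻¹ ^ (a + 1)) (b.e i) ∈ E := by
  obtain ⟨M, hM, -⟩ := b.repr _ hm
  have hMm : ∀ i, ∀ a, M + m ≤ a → b.c i ((x⁻¹ ^ a) ((x ^ m) w)) = 0 :=
    fun i a ha => hM i a (by omega)
  have h1 := b.repr_of_bound hm hMm
  have h2 : w = ∑ i, ∑ a ∈ Finset.range (M + m),
      b.c i ((x⁻¹ ^ a) ((x ^ m) w)) • (x⁻¹ ^ m) ((x ^ a) (b.e i)) := by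
    conv_lhs => rw [← inv_pow_apply_pow x m w, h1]
    simp only [map_sum, map_smul]
  have h3 : ∀ i, ∑ a ∈ Finset.range (M + m),
      b.c i ((x⁻¹ ^ a) ((x ^ m) w)) • (x⁻¹ ^ m) ((x ^ a) (b.e i)) =
      ∑ a ∈ Finset.range m, b.c i ((x ^ (a + 1)) w) • (x⁻¹ ^ (a + 1)) (b.e i) +
      ∑ a ∈ Finset.range M, b.c i ((x⁻¹ ^ (m + a)) ((x ^ m) w)) • (x ^ a) (b.e i) := by
    intro i
    rw [add_comm M m, Finset.sum_range_add, ← Finset.sum_range_reflect]
    congr 1
    · refine Finset.sum_congr rfl fun a ha => ?_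
      rw [Finset.mem_range] at ha
      rw [inv_pow_pow_of_le x (show m - 1 - a ≤ m by omega),
        show m - (m - 1 - a) = a + 1 by omega]
      congr 1
      rw [show m = (a + 1) + (m - 1 - a) by omega, pow_add, LinearEquiv.mul_apply,
        show a + 1 + (m - 1 - a) - 1 - a = m - 1 - a by omega, inv_pow_apply_pow]
    · refine Finset.sum_congr rfl fun a _ => ?_
      congr 1
      rw [pow_add, LinearEquiv.mul_apply, inv_pow_apply_pow]
  have h4 : w - ∑ i, ∑ a ∈ Finset.range m, b.c i ((x ^ (a + 1)) w) • (x⁻¹ ^ (a + 1)) (b.e i) =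
      ∑ i, ∑ a ∈ Finset.range M, b.c i ((x⁻¹ ^ (m + a)) ((x ^ m) w)) • (x ^ a) (b.e i) := by
    conv_lhs =>
      enter [1]
      rw [h2]
    rw [Finset.sum_congr rfl fun i _ => h3 i, Finset.sum_add_distrib, add_sub_cancel_left]
  rw [h4]
  exact Submodule.sum_mem _ fun i _ => Submodule.sum_mem _ fun a _ =>
    Submodule.smul_mem _ _ (hs.pow_mem a (b.e_mem i))

end LatBasis

/-! ### Projectivity of the quotient -/

section Quot

variable {x : W ≃ₗ[A] W} {E : Submodule A W}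

/-- the coefficients of the polar part -/
noncomputable def polar (b : LatBasis x E) (hs : IsLat x E) :
    W ⧸ E →ₗ[A] (Fin b.r × ℕ →₀ A) := by
  classical
  have hfin : ∀ w : W, (Function.support fun p : Fin b.r × ℕ => b.c p.1 ((x ^ (p.2 + 1)) w)).Finite := by
    intro w
    obtain ⟨m, hm⟩ := hs.ex_mem w
    refine Set.Finite.subset (Set.finite_univ.prod (Set.finite_Iio m)) fun p hp => ?_
    refine ⟨Set.mem_univ _, ?_⟩
    by_contra hle
    rw [Set.mem_Iio, not_lt] at hle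
    apply hp
    change b.c p.1 ((x ^ (p.2 + 1)) w) = 0
    rw [show p.2 + 1 = (p.2 + 1 - m) + m by omega, pow_add, LinearEquiv.mul_apply]
    exact b.c_pow hs _ (by omega) hm
  refine E.liftQ
    { toFun := fun w => Finsupp.ofSupportFinite _ (hfin w)
      map_add' := fun w w' => by
        ext p
        simp [Finsupp.ofSupportFinite_coe]
      map_smul' := fun a w => by
        ext p
        simp [Finsupp.ofSupportFinite_coe] } ?_
  intro w hw
  rw [LinearMap.mem_ker]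
  ext p
  exact b.c_pow hs _ (by omega) hw

theorem polar_mk (b : LatBasis x E) (hs : IsLat x E) (w : W) (p : Fin b.r × ℕ) :
    polar b hs (E.mkQ w) p = b.c p.1 ((x ^ (p.2 + 1)) w) := by
  unfold polar
  rw [Submodule.mkQ_apply, Submodule.liftQ_apply]
  rfl

/-- the section of `polar` -/
noncomputable def unpolar (b : LatBasis x E) : (Fin b.r × ℕ →₀ A) →ₗ[A] W ⧸ E :=
  Finsupp.linearCombination A fun p => E.mkQ ((x⁻¹ ^ (p.2 + 1)) (b.e p.1))

theorem unpolar_polar (b : LatBasis x E) (hs : IsLat x E) (w : W ⧸ E) :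
    unpolar b (polar b hs w) = w := by
  classical
  obtain ⟨w, rfl⟩ := E.mkQ_surjective w
  obtain ⟨m, hm⟩ := hs.ex_mem w
  have hsub : (polar b hs (E.mkQ w)).support ⊆ Finset.univ ×ˢ Finset.range m := by
    intro p hp
    rw [Finsupp.mem_support_iff, polar_mk] at hp
    rw [Finset.mem_product, Finset.mem_range]
    refine ⟨Finset.mem_univ _, ?_⟩
    by_contra hle
    apply hp
    rw [show p.2 + 1 = (p.2 + 1 - m) + m by omega, pow_add, LinearEquiv.mul_apply]
    exact b.c_pow hs _ (by omega) hm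
  rw [unpolar, Finsupp.linearCombination_apply, Finsupp.sum_of_support_subset _ hsub _ (by simp),
    Finset.sum_product]
  have h1 := b.repr_mod hs hm
  rw [← Submodule.Quotient.mk_eq_zero, Submodule.Quotient.mk_sub, sub_eq_zero] at h1
  simp only [polar_mk]
  have h2 : E.mkQ w = E.mkQ (∑ i, ∑ a ∈ Finset.range m,
      b.c i ((x ^ (a + 1)) w) • (x⁻¹ ^ (a + 1)) (b.e i)) := h1
  rw [h2, map_sum]
  refine Finset.sum_congr rfl fun i _ => ?_
  rw [map_sum]
  refine Finset.sum_congr rfl fun a _ => ?_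
  rw [map_smul]

theorem IsLat.projective_quot (hs : IsLat x E) : Module.Projective A (W ⧸ E) := by
  obtain ⟨b⟩ := hs.dual
  exact Module.Projective.of_split (polar b hs) (unpolar b)
    (LinearMap.ext fun w => unpolar_polar b hs w)

end Quot

/-! ### Twists -/

section Twist

variable {x : W ≃ₗ[A] W} {E : Submodule A W}

theorem IsLat.comap (hs : IsLat x E) {g : W ≃ₗ[A] W} (hg : Commute g x) :
    IsLat x (E.comap (g : W →ₗ[A] W)) := by
  have hgx : ∀ w, g (x w) = x (g w) := fun w => by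
    rw [← LinearEquiv.mul_apply, hg.eq, LinearEquiv.mul_apply]
  have hgp : ∀ (m : ℕ) (w : W), g ((x ^ m) w) = (x ^ m) (g w) := fun m w => by
    rw [← LinearEquiv.mul_apply, (hg.pow_right m).eq, LinearEquiv.mul_apply]
  have hgi : ∀ (m : ℕ) (w : W), g ((x⁻¹ ^ m) w) = (x⁻¹ ^ m) (g w) := fun m w => by
    rw [← LinearEquiv.mul_apply, (hg.inv_right.pow_right m).eq, LinearEquiv.mul_apply]
  obtain ⟨b⟩ := hs.dual
  refine ⟨fun w hw => ?_, fun w => ?_, ⟨⟨b.r, fun i => g.symm (b.e i),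
    fun i => (b.c i).comp (g : W →ₗ[A] W), fun i => ?_, fun i w hw => ?_, fun w hw => ?_⟩⟩⟩
  · change g (x w) ∈ E
    rw [hgx]
    exact hs.stable _ hw
  · obtain ⟨m, hm⟩ := hs.ex_mem (g w)
    refine ⟨m, ?_⟩
    change g ((x ^ m) w) ∈ E
    rwa [hgp]
  · change g (g.symm (b.e i)) ∈ E
    rw [LinearEquiv.apply_symm_apply]
    exact b.e_mem i
  · change b.c i (g (x w)) = 0
    rw [hgx]
    exact b.c_x i _ hw
  · obtain ⟨M, hM, hrep⟩ := b.repr (g w) hw
    refine ⟨M, fun i a ha => ?_, ?_⟩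
    · change b.c i (g ((x⁻¹ ^ a) w)) = 0
      rw [hgi]
      exact hM i a ha
    · apply g.injective
      rw [hrep]
      simp only [map_sum, map_smul]
      refine Finset.sum_congr rfl fun i _ => Finset.sum_congr rfl fun a _ => ?_
      rw [hgp, LinearEquiv.apply_symm_apply]
      change _ = b.c i (g ((x⁻¹ ^ a) w)) • _
      rw [hgi]

theorem IsLat.tw (hs : IsLat x E) (n : ℕ) : IsLat x (tw x n E) :=
  hs.comap (((Commute.refl x).inv_left).pow_left n)

theorem IsLat.tw_inv {Ei : Submodule A W} (hs : IsLat x⁻¹ Ei) (n : ℕ) :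
    IsLat x⁻¹ (Jac.tw x n Ei) :=
  hs.comap ((Commute.refl x⁻¹).pow_left n)

/-- twists of a lattice for `x⁻¹` grow -/
theorem tw_mono {Ei : Submodule A W} (hs : IsLat x⁻¹ Ei) {m n : ℕ} (h : m ≤ n) :
    tw x m Ei ≤ tw x n Ei := by
  intro w hw
  rw [mem_tw] at hw ⊢
  exact hs.mem_of_le h hw

theorem le_tw {Ei : Submodule A W} (hs : IsLat x⁻¹ Ei) (n : ℕ) : Ei ≤ tw x n Ei := by
  have := tw_mono hs (Nat.zero_le n)
  rwa [tw_zero] at this

theorem exists_mem_tw {Ei : Submodule A W} (hs : IsLat x⁻¹ Ei) (w : W) :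
    ∃ n, w ∈ tw x n Ei := hs.ex_mem w

/-- **vanishing of `H¹` for large twists** -/
theorem exists_sup_eq_top {Ei : Submodule A W} (h0 : IsLat x E) (hi : IsLat x⁻¹ Ei) :
    ∃ N : ℕ, ∀ n, N ≤ n → E ⊔ tw x n Ei = ⊤ := by
  obtain ⟨b⟩ := h0.dual
  choose m hm using fun i => exists_mem_tw hi (b.e i)
  refine ⟨Finset.univ.sup m, fun n hn => ?_⟩
  have hmem : ∀ i, b.e i ∈ tw x n Ei := fun i =>
    tw_mono hi ((Finset.le_sup (Finset.mem_univ i)).trans hn) (hm i)
  rw [eq_top_iff]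
  rintro w -
  obtain ⟨k, hk⟩ := h0.ex_mem w
  have h1 := b.repr_mod h0 hk
  have h2 : ∑ i, ∑ a ∈ Finset.range k, b.c i ((x ^ (a + 1)) w) • (x⁻¹ ^ (a + 1)) (b.e i) ∈
      tw x n Ei := Submodule.sum_mem _ fun i _ => Submodule.sum_mem _ fun a _ =>
        Submodule.smul_mem _ _ ((hi.tw_inv n).pow_mem _ (hmem i))
  have h3 := Submodule.add_mem_sup h1 h2
  rwa [sub_add_cancel] at h3

end Twist

/-! ### `H⁰` -/

section HZero

variable {x : W ≃ₗ[A] W} {E Ei : Submodule A W}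

/-- the coefficients of elements of the opposite lattice are bounded -/
theorem exists_uniform_bound (b : LatBasis x E) (h0 : IsLat x E) (hi : IsLat x⁻¹ Ei) :
    ∃ M : ℕ, ∀ w ∈ Ei, ∀ i, ∀ a, M ≤ a → b.c i ((x⁻¹ ^ a) w) = 0 := by
  obtain ⟨d⟩ := hi.dual
  choose M hM using fun j => b.exists_bound h0 (d.e j)
  refine ⟨Finset.univ.sup M, fun w hw i a ha => ?_⟩
  obtain ⟨K, -, hrep⟩ := d.repr w hw
  rw [hrep]
  simp only [map_sum, map_smul]
  refine Finset.sum_eq_zero fun j _ => Finset.sum_eq_zero fun k _ => ?_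
  rw [inv_pow_inv_pow, hM j i (a + k) ?_, smul_zero]
  exact ((Finset.le_sup (Finset.mem_univ j)).trans ha).trans (Nat.le_add_right _ _)

/-- `H⁰` is finitely generated and projective if `H¹ = 0`. -/
theorem finite_projective_inf (h0 : IsLat x E) (hi : IsLat x⁻¹ Ei) (htop : E ⊔ Ei = ⊤) :
    Module.Finite A (E ⊓ Ei : Submodule A W) ∧ Module.Projective A (E ⊓ Ei : Submodule A W) := by
  obtain ⟨b⟩ := h0.dual
  obtain ⟨M, hM⟩ := exists_uniform_bound b h0 hi
  -- the retraction `E → E ⊓ Ei`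
  have hproj := hi.projective_quot
  let q : E →ₗ[A] W ⧸ Ei := Ei.mkQ.comp E.subtype
  have hq : Function.Surjective q := by
    intro z
    obtain ⟨w, rfl⟩ := Ei.mkQ_surjective z
    obtain ⟨a, ha, c, hc, rfl⟩ := Submodule.mem_sup.mp (htop ▸ Submodule.mem_top : w ∈ E ⊔ Ei)
    refine ⟨⟨a, ha⟩, ?_⟩
    change Ei.mkQ a = Ei.mkQ (a + c)
    rw [map_add, Submodule.mkQ_apply Ei c, (Submodule.Quotient.mk_eq_zero _).mpr hc, add_zero]
  obtain ⟨s, hs⟩ := Module.projective_lifting_property q LinearMap.id hq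
  have hs' : ∀ z, q (s z) = z := fun z => LinearMap.congr_fun hs z
  let π : E →ₗ[A] (E ⊓ Ei : Submodule A W) :=
    { toFun := fun w => ⟨w - s (q w), E.sub_mem w.2 (s (q w)).2, by
        have h1 : q (w - s (q w)) = 0 := by rw [map_sub, hs', sub_self]
        exact (Submodule.Quotient.mk_eq_zero _).mp h1⟩
      map_add' := fun w w' => by
        apply Subtype.ext
        simp only [map_add, Submodule.coe_add]
        abel
      map_smul' := fun a w => by
        apply Subtype.ext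
        simp [smul_sub] }
  have hπ : ∀ w : (E ⊓ Ei : Submodule A W), π ⟨w.1, w.2.1⟩ = w := by
    intro w
    apply Subtype.ext
    have h1 : q ⟨w.1, w.2.1⟩ = 0 := (Submodule.Quotient.mk_eq_zero _).mpr w.2.2
    change w.1 - (s (q ⟨w.1, w.2.1⟩)).1 = w.1
    rw [h1, map_zero]
    exact sub_zero _
  -- coordinates
  let ι : (E ⊓ Ei : Submodule A W) →ₗ[A] (Fin b.r × Fin M → A) :=
    LinearMap.pi fun p => ((b.c p.1).comp ((x⁻¹ ^ (p.2 : ℕ) : W ≃ₗ[A] W) : W →ₗ[A] W)).comp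
      (Submodule.subtype _)
  let ρ : (Fin b.r × Fin M → A) →ₗ[A] E :=
    Fintype.linearCombination A fun p => (⟨(x ^ (p.2 : ℕ)) (b.e p.1),
      h0.pow_mem _ (b.e_mem _)⟩ : E)
  have hρ : ∀ w : (E ⊓ Ei : Submodule A W), ρ (ι w) = ⟨w.1, w.2.1⟩ := by
    intro w
    apply Subtype.ext
    change ((ρ (ι w) : E) : W) = w.1
    conv_rhs => rw [b.repr_of_bound w.2.1 (hM w.1 w.2.2)]
    rw [Fintype.linearCombination_apply, Submodule.coe_sum, Fintype.sum_prod_type]
    refine Finset.sum_congr rfl fun i _ => ?_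
    rw [← Fin.sum_univ_eq_sum_range fun a => b.c i ((x⁻¹ ^ a) w.1) • (x ^ a) (b.e i)]
    rfl
  have hcomp : ∀ w, (π.comp ρ) (ι w) = w := fun w => by
    rw [LinearMap.comp_apply, hρ, hπ]
  constructor
  · exact Module.Finite.of_surjective (π.comp ρ) fun w => ⟨ι w, hcomp w⟩
  · exact Module.Projective.of_split ι (π.comp ρ) (LinearMap.ext hcomp)

end HZero

end Fermat.Agent.Jac
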