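import Fermat.Agent.Jac.Lat

/-!
# Base change of lattices
-/

set_option autoImplicit false
set_option linter.unusedSectionVars false

universe u v u' v'

namespace Fermat.Agent.Jac

open TensorProduct

variable {A : Type u} [CommRing A] {W : Type v} [AddCommGroup W] [Module A W]
  {A' : Type u'} [CommRing A'] [Algebra A A'] {W' : Type v'} [AddCommGroup W'] [Module A W']
  [Module A' W'] [IsScalarTower A A' W'] {f : W →ₗ[A] W'}

/-- the base change of a submodule -/
def bc (A' : Type u') [CommRing A'] [Algebra A A'] [Module A' W'] (f : W →ₗ[A] W')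
    (E : Submodule A W) : Submodule A' W' := Submodule.span A' (f '' (E : Set W))

theorem mem_bc {E : Submodule A W} {w : W} (hw : w ∈ E) : f w ∈ bc A' f E :=
  Submodule.subset_span ⟨w, hw, rfl⟩

@[elab_as_elim]
theorem bc_induction {E : Submodule A W} {P : (w : W') → w ∈ bc A' f E → Prop}
    (h0 : P 0 (zero_mem _))
    (hadd : ∀ w w' hw hw', P w hw → P w' hw' → P (w + w') (add_mem hw hw'))
    (hsmul : ∀ (a : A') w, (hw : w ∈ E) → P (a • f w) (Submodule.smul_mem _ a (mem_bc hw)))
    {w : W'} (hw : w ∈ bc A' f E) : P w hw := by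
  suffices h : ∃ h : w ∈ bc A' f E, P w h from h.2
  have hw0 := hw
  rw [bc, Submodule.mem_span_iff_exists_finset_subset] at hw
  obtain ⟨c, t, ht, -, rfl⟩ := hw
  refine Finset.sum_induction _ (fun w => ∃ h : w ∈ bc A' f E, P w h) ?_ ⟨_, h0⟩ fun y hy => ?_
  · rintro a b ⟨ha, ha'⟩ ⟨hb, hb'⟩
    exact ⟨_, hadd _ _ _ _ ha' hb'⟩
  · obtain ⟨w, hw, rfl⟩ := ht hy
    exact ⟨_, hsmul _ w hw⟩

theorem bc_sup (E F : Submodule A W) : bc A' f (E ⊔ F) = bc A' f E ⊔ bc A' f F := by
  apply le_antisymm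
  · rw [bc, Submodule.span_le]
    rintro _ ⟨w, hw, rfl⟩
    obtain ⟨a, ha, b, hb, rfl⟩ := Submodule.mem_sup.mp hw
    rw [map_add]
    exact Submodule.add_mem_sup (mem_bc ha) (mem_bc hb)
  · exact sup_le (Submodule.span_mono (Set.image_mono (SetLike.coe_subset_coe.mpr le_sup_left)))
      (Submodule.span_mono (Set.image_mono (SetLike.coe_subset_coe.mpr le_sup_right)))

theorem bc_mono {E F : Submodule A W} (h : E ≤ F) : bc A' f E ≤ bc A' f F :=
  Submodule.span_mono (Set.image_mono (SetLike.coe_subset_coe.mpr h))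

theorem bc_top (hf : IsBaseChange A' f) : bc A' f ⊤ = ⊤ := by
  rw [eq_top_iff]
  rintro w -
  induction w using hf.inductionOn with
  | zero => exact zero_mem _
  | tmul m => exact mem_bc Submodule.mem_top
  | smul s n hn => exact Submodule.smul_mem _ _ hn
  | add a b ha hb => exact add_mem ha hb

/-- the base change of an automorphism -/
structure IsBC (f : W →ₗ[A] W') (x : W ≃ₗ[A] W) (x' : W' ≃ₗ[A'] W') : Prop where
  comm : ∀ w, x' (f w) = f (x w)

namespace IsBC

variable {x : W ≃ₗ[A] W} {x' : W' ≃ₗ[A'] W'}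

theorem pow (h : IsBC f x x') (m : ℕ) (w : W) : (x' ^ m) (f w) = f ((x ^ m) w) := by
  induction m generalizing w with
  | zero => rfl
  | succ m ih =>
    rw [pow_succ, LinearEquiv.mul_apply, h.comm, ih, pow_succ, LinearEquiv.mul_apply]

theorem inv (h : IsBC f x x') : IsBC f x⁻¹ x'⁻¹ := ⟨fun w => by
  have h1 := h.comm (x⁻¹ w)
  have h2 : x (x⁻¹ w) = w := by
    rw [← LinearEquiv.mul_apply, mul_inv_cancel]; rfl
  rw [h2] at h1
  rw [← h1, ← LinearEquiv.mul_apply, inv_mul_cancel]
  rfl⟩

theorem inv_pow (h : IsBC f x x') (m : ℕ) (w : W) : (x'⁻¹ ^ m) (f w) = f ((x⁻¹ ^ m) w) :=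
  h.inv.pow m w

end IsBC

variable {x : W ≃ₗ[A] W} {x' : W' ≃ₗ[A'] W'} {E Ei : Submodule A W}

theorem IsLat.bc (hs : IsLat x E) (hf : IsBaseChange A' f) (hx : IsBC f x x') :
    IsLat x' (bc A' f E) := by
  obtain ⟨b⟩ := hs.dual
  let c : Fin b.r → (W' →ₗ[A'] A') := fun i => hf.lift ((Algebra.linearMap A A').comp (b.c i))
  have hc : ∀ i w, c i (f w) = algebraMap A A' (b.c i w) := fun i w => hf.lift_eq _ _
  refine ⟨fun w hw => ?_, fun w => ?_, ⟨⟨b.r, fun i => f (b.e i), c, fun i => mem_bc (b.e_mem i),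
    fun i w hw => ?_, fun w hw => ?_⟩⟩⟩
  · induction hw using bc_induction with
    | h0 => rw [map_zero]; exact zero_mem _
    | hadd w w' _ _ h h' => rw [map_add]; exact add_mem h h'
    | hsmul a w hw =>
      rw [map_smul, hx.comm]
      exact Submodule.smul_mem _ _ (mem_bc (hs.stable _ hw))
  · have hst : ∀ (w : W') (m n : ℕ), m ≤ n → (x' ^ m) w ∈ Jac.bc A' f E →
        (x' ^ n) w ∈ Jac.bc A' f E := by
      intro w m n hmn
      obtain ⟨k, rfl⟩ := Nat.exists_eq_add_of_le hmn
      rw [add_comm, pow_add, LinearEquiv.mul_apply]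
      generalize (x' ^ m) w = w
      intro hw
      induction hw using bc_induction with
      | h0 => rw [map_zero]; exact zero_mem _
      | hadd w w' _ _ h h' => rw [map_add]; exact add_mem h h'
      | hsmul a w hw =>
        rw [map_smul, hx.pow]
        exact Submodule.smul_mem _ _ (mem_bc (hs.pow_mem _ hw))
    induction w using hf.inductionOn with
    | zero => exact ⟨0, by rw [map_zero]; exact zero_mem _⟩
    | tmul m =>
      obtain ⟨k, hk⟩ := hs.ex_mem m
      exact ⟨k, by rw [hx.pow]; exact mem_bc hk⟩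
    | smul s n hn =>
      obtain ⟨k, hk⟩ := hn
      exact ⟨k, by rw [map_smul]; exact Submodule.smul_mem _ _ hk⟩
    | add a b ha hb =>
      obtain ⟨k, hk⟩ := ha
      obtain ⟨l, hl⟩ := hb
      exact ⟨max k l, by
        rw [map_add]
        exact add_mem (hst _ _ _ (le_max_left _ _) hk) (hst _ _ _ (le_max_right _ _) hl)⟩
  · induction hw using bc_induction with
    | h0 => rw [map_zero, map_zero]
    | hadd w w' _ _ h h' => rw [map_add, map_add, h, h', add_zero]
    | hsmul a w hw => rw [map_smul, hx.comm, map_smul, hc, b.c_x i w hw, map_zero, smul_zero]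
  · -- the representation, for all large `M`
    suffices h : ∃ M : ℕ, ∀ M', M ≤ M' → (∀ i, ∀ a, M' ≤ a → c i ((x'⁻¹ ^ a) w) = 0) ∧
        w = ∑ i, ∑ a ∈ Finset.range M', c i ((x'⁻¹ ^ a) w) • (x' ^ a) (f (b.e i)) by
      obtain ⟨M, hM⟩ := h
      exact ⟨M, hM M le_rfl⟩
    induction hw using bc_induction with
    | h0 => exact ⟨0, fun M' _ => ⟨fun i a _ => by rw [map_zero, map_zero], by simp⟩⟩
    | hadd w w' _ _ h h' =>
      obtain ⟨M, hM⟩ := h
      obtain ⟨N, hN⟩ := h'
      refine ⟨max M N, fun M' hM' => ?_⟩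
      obtain ⟨h1, h2⟩ := hM M' (le_trans (le_max_left _ _) hM')
      obtain ⟨h3, h4⟩ := hN M' (le_trans (le_max_right _ _) hM')
      refine ⟨fun i a ha => by rw [map_add, map_add, h1 i a ha, h3 i a ha, add_zero], ?_⟩
      conv_lhs => rw [h2, h4]
      rw [← Finset.sum_add_distrib]
      refine Finset.sum_congr rfl fun i _ => ?_
      rw [← Finset.sum_add_distrib]
      refine Finset.sum_congr rfl fun a _ => ?_
      rw [map_add, map_add, add_smul]
    | hsmul s w hw =>
      obtain ⟨M, hM, -⟩ := b.repr w hw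
      refine ⟨M, fun M' hM' => ⟨fun i a ha => ?_, ?_⟩⟩
      · rw [map_smul, hx.inv_pow, map_smul, hc, hM i a (hM'.trans ha), map_zero, smul_zero]
      · have h1 := b.repr_of_bound hw (M := M') fun i a ha => hM i a (hM'.trans ha)
        conv_lhs => rw [h1]
        simp only [map_sum, map_smul, Finset.smul_sum]
        refine Finset.sum_congr rfl fun i _ => Finset.sum_congr rfl fun a _ => ?_
        rw [hx.inv_pow, hc, hx.pow, smul_eq_mul, mul_smul, algebraMap_smul]

/-- the twist commutes with base change -/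
theorem bc_tw (hx : IsBC f x x') (n : ℕ) : bc A' f (tw x n E) = tw x' n (bc A' f E) := by
  apply le_antisymm
  · rw [bc, Submodule.span_le]
    rintro _ ⟨w, hw, rfl⟩
    change (x'⁻¹ ^ n) (f w) ∈ bc A' f E
    rw [hx.inv_pow]
    exact mem_bc hw
  · intro w hw
    have h1 : w = (x' ^ n) ((x'⁻¹ ^ n) w) := (pow_apply_inv_pow x' n w).symm
    rw [h1]
    rw [mem_tw] at hw
    generalize (x'⁻¹ ^ n) w = w' at hw
    induction hw using bc_induction with
    | h0 => rw [map_zero]; exact zero_mem _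
    | hadd w w' _ _ h h' => rw [map_add]; exact add_mem h h'
    | hsmul a w hw =>
      rw [map_smul, hx.pow]
      refine Submodule.smul_mem _ _ (mem_bc ?_)
      rw [mem_tw, inv_pow_apply_pow]
      exact hw

end Fermat.Agent.Jac
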