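import Fermat.Agent.Jac.LiftInv
import Fermat.Agent.Jac.BC

set_option autoImplicit false

/-!
# Properties of line bundles which lift along nilpotent thickenings
-/

universe u

open TensorProduct

namespace Fermat.Agent.Jac

section Nil

variable {A : Type*} [CommRing A] {I : Ideal A} {M : Type*} [AddCommGroup M] [Module A M]

/-- Nakayama for a nilpotent ideal, without finiteness -/
theorem eq_top_of_sup_smul (hI : IsNilpotent I) {N : Submodule A M}
    (h : N ⊔ I • (⊤ : Submodule A M) = ⊤) : N = ⊤ := by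
  obtain ⟨n, hn⟩ := hI
  have h1 : ∀ m : ℕ, N ⊔ I ^ m • (⊤ : Submodule A M) = ⊤ := by
    intro m
    induction m with
    | zero => rw [pow_zero, Ideal.one_eq_top, Submodule.top_smul, sup_top_eq]
    | succ m ih =>
      have h1 : I • (⊤ : Submodule A M) ≤ N ⊔ I ^ (m + 1) • (⊤ : Submodule A M) := by
        rw [pow_succ', mul_smul]
        calc I • (⊤ : Submodule A M) = I • (N ⊔ I ^ m • (⊤ : Submodule A M)) := by rw [ih]
          _ = I • N ⊔ I • I ^ m • (⊤ : Submodule A M) := Submodule.smul_sup _ _ _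
          _ ≤ N ⊔ I • I ^ m • (⊤ : Submodule A M) := sup_le_sup_right Submodule.smul_le_right _
      exact top_le_iff.1 (h.ge.trans (sup_le le_sup_left h1))
  have h2 := h1 n
  rwa [hn, Submodule.zero_eq_bot, Submodule.bot_smul, sup_bot_eq] at h2

theorem eq_bot_of_le_smul (hI : IsNilpotent I) {K : Submodule A M} (h : K ≤ I • K) : K = ⊥ := by
  obtain ⟨n, hn⟩ := hI
  have h1 : ∀ m : ℕ, K ≤ I ^ m • K := by
    intro m
    induction m with
    | zero => rw [pow_zero, Ideal.one_eq_top, Submodule.top_smul]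
    | succ m ih =>
      rw [pow_succ', mul_smul]
      exact h.trans (Submodule.smul_mono le_rfl ih)
  have h2 := h1 n
  rwa [hn, Submodule.zero_eq_bot, Submodule.bot_smul, le_bot_iff] at h2

theorem exists_sum_of_mem_smul {N : Submodule A M} {m : M} (hm : m ∈ I • N) :
    ∃ (n : ℕ) (a : Fin n → A) (x : Fin n → M), (∀ i, a i ∈ I) ∧ (∀ i, x i ∈ N) ∧
      m = ∑ i, a i • x i := by
  refine Submodule.smul_induction_on hm (fun r hr n hn ↦ ⟨1, fun _ ↦ r, fun _ ↦ n, fun _ ↦ hr,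
    fun _ ↦ hn, by simp⟩) ?_
  rintro _ _ ⟨n, a, x, ha, hx, rfl⟩ ⟨n', a', x', ha', hx', rfl⟩
  refine ⟨n + n', Fin.append a a', Fin.append x x', fun i ↦ ?_, fun i ↦ ?_, ?_⟩
  · refine Fin.addCases (fun i ↦ ?_) (fun i ↦ ?_) i
    · rw [Fin.append_left]; exact ha i
    · rw [Fin.append_right]; exact ha' i
  · refine Fin.addCases (fun i ↦ ?_) (fun i ↦ ?_) i
    · rw [Fin.append_left]; exact hx i
    · rw [Fin.append_right]; exact hx' i
  · rw [Fin.sum_univ_add]
    simp

/-- Complements lift along nilpotent thickenings. -/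
theorem isCompl_of_reduction [Module.Flat A M] (hI : IsNilpotent I) {P Q : Submodule A M}
    {M₁ : Type*} [AddCommGroup M₁] (f : M →+ M₁) {P₁ Q₁ : AddSubgroup M₁}
    (hP : ∀ p₁ ∈ P₁, ∃ p ∈ P, f p = p₁) (hQ : ∀ q₁ ∈ Q₁, ∃ q ∈ Q, f q = q₁)
    (hP' : ∀ p ∈ P, f p ∈ P₁) (hQ' : ∀ q ∈ Q, f q ∈ Q₁)
    (hPk : ∀ p ∈ P, f p = 0 → p ∈ I • P) (hQk : ∀ q ∈ Q, f q = 0 → q ∈ I • Q)
    (hk : ∀ m, f m = 0 → m ∈ I • (⊤ : Submodule A M)) (h : IsCompl P₁ Q₁) : IsCompl P Q := by
  have htop : P ⊔ Q = ⊤ := by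
    refine eq_top_of_sup_smul hI (eq_top_iff.2 fun m _ ↦ ?_)
    have h1 : f m ∈ P₁ ⊔ Q₁ := by rw [h.sup_eq_top]; trivial
    obtain ⟨p₁, hp₁, q₁, hq₁, h1⟩ := AddSubgroup.mem_sup.1 h1
    obtain ⟨p, hp, rfl⟩ := hP p₁ hp₁
    obtain ⟨q, hq, rfl⟩ := hQ q₁ hq₁
    have h2 : m - (p + q) ∈ I • (⊤ : Submodule A M) := hk _ (by
      rw [map_sub, map_add, h1, sub_self])
    have h3 : m = (p + q) + (m - (p + q)) := by abel
    rw [h3]
    exact add_mem (Submodule.mem_sup_left (Submodule.add_mem_sup hp hq))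
      (Submodule.mem_sup_right h2)
  refine IsCompl.of_eq (eq_bot_of_le_smul hI ?_) htop
  rintro m ⟨hmP, hmQ⟩
  have hm0 : f m = 0 := by
    have h1 : f m ∈ P₁ ⊓ Q₁ := ⟨hP' _ hmP, hQ' _ hmQ⟩
    rwa [h.inf_eq_bot, AddSubgroup.mem_bot] at h1
  obtain ⟨n, a, x, ha, hx, h1⟩ := exists_sum_of_mem_smul (hPk m hmP hm0)
  obtain ⟨n', b, y, hb, hy, h2⟩ := exists_sum_of_mem_smul (hQk m hmQ hm0)
  have h3 : ∑ i : Fin n ⊕ Fin n', Sum.elim a (fun j ↦ - b j) i • Sum.elim x y i = 0 := by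
    rw [Fintype.sum_sum_type]
    simp only [Sum.elim_inl, Sum.elim_inr, neg_smul, Finset.sum_neg_distrib]
    rw [← h1, ← h2, add_neg_cancel]
  obtain ⟨l, c, z, hz, hc⟩ := Module.Flat.isTrivialRelation_of_sum_smul_eq_zero h3
  have h4 : ∀ j, ∃ p ∈ P, ∃ q ∈ Q, p + q = z j := fun j ↦ by
    have h1 : z j ∈ P ⊔ Q := by rw [htop]; trivial
    exact Submodule.mem_sup.1 h1
  choose p hp q hq hpq using h4
  have hx' : ∀ i, x i = ∑ j, c (Sum.inl i) j • p j + ∑ j, c (Sum.inl i) j • q j := fun i ↦ by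
    rw [← Finset.sum_add_distrib]
    refine (hz (Sum.inl i)).trans (Finset.sum_congr rfl fun j _ ↦ ?_)
    rw [← smul_add, hpq]
  have hy' : ∀ i, y i = ∑ j, c (Sum.inr i) j • p j + ∑ j, c (Sum.inr i) j • q j := fun i ↦ by
    rw [← Finset.sum_add_distrib]
    refine (hz (Sum.inr i)).trans (Finset.sum_congr rfl fun j _ ↦ ?_)
    rw [← smul_add, hpq]
  have hκ : ∀ i, ∑ j, c (Sum.inl i) j • q j ∈ P ⊓ Q := fun i ↦ by
    refine ⟨?_, Submodule.sum_mem _ fun j _ ↦ Submodule.smul_mem _ _ (hq j)⟩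
    rw [← sub_eq_of_eq_add' (hx' i)]
    exact sub_mem (hx i) (Submodule.sum_mem _ fun j _ ↦ Submodule.smul_mem _ _ (hp j))
  have hκ' : ∀ i, ∑ j, c (Sum.inr i) j • p j ∈ P ⊓ Q := fun i ↦ by
    refine ⟨Submodule.sum_mem _ fun j _ ↦ Submodule.smul_mem _ _ (hp j), ?_⟩
    rw [← sub_eq_of_eq_add (hy' i)]
    exact sub_mem (hy i) (Submodule.sum_mem _ fun j _ ↦ Submodule.smul_mem _ _ (hq j))
  have h5 : m = ∑ i, b i • (∑ j, c (Sum.inr i) j • p j) +
      ∑ i, a i • (∑ j, c (Sum.inl i) j • q j) := by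
    have h6 : ∑ i, a i • (∑ j, c (Sum.inl i) j • p j) =
        ∑ i, b i • (∑ j, c (Sum.inr i) j • p j) := by
      simp only [Finset.smul_sum, smul_smul]
      rw [Finset.sum_comm]
      conv_rhs => rw [Finset.sum_comm]
      refine Finset.sum_congr rfl fun j _ ↦ ?_
      rw [← Finset.sum_smul, ← Finset.sum_smul]
      congr 1
      have h7 := hc j
      rw [Fintype.sum_sum_type] at h7
      simp only [Sum.elim_inl, Sum.elim_inr, neg_mul, Finset.sum_neg_distrib] at h7
      exact add_neg_eq_zero.1 h7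
    rw [← h6, ← Finset.sum_add_distrib, h1]
    refine Finset.sum_congr rfl fun i _ ↦ ?_
    rw [← smul_add, ← hx' i]
  rw [h5]
  exact add_mem (Submodule.sum_mem _ fun i _ ↦ Submodule.smul_mem_smul (hb i) (hκ' i))
    (Submodule.sum_mem _ fun i _ ↦ Submodule.smul_mem_smul (ha i) (hκ i))

end Nil

section Semi

/-- `ker_of_invertible` for semilinear maps -/
theorem ker_of_semilinear {R' R P M : Type*} [CommRing R'] [CommRing R] (φ : R' →+* R)
    [AddCommGroup P] [Module R' P] [AddCommGroup M] [Module R M] [Module.Invertible R' P]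
    [Module.Invertible R M] (f : P →+ M) (hf : Function.Surjective f)
    (hs : ∀ (r : R') (p : P), f (r • p) = φ r • f p) {p : P} (hp : f p = 0) :
    p ∈ RingHom.ker φ • (⊤ : Submodule R' P) := by
  let _ : Algebra R' R := φ.toAlgebra
  let _ : Module R' M := Module.compHom M φ
  have : IsScalarTower R' R M := ⟨fun a b m ↦ mul_smul (φ a) b m⟩
  exact ker_of_invertible (R := R) (M := M)
    { toFun := f, map_add' := map_add f, map_smul' := hs } hf hp

/-- `exists_lift_equiv` for semilinear maps -/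
theorem exists_lift_equiv_semilinear {R' R U V M : Type*} [CommRing R'] [CommRing R] (φ : R' →+* R)
    (hn : IsNilpotent (RingHom.ker φ))
    [AddCommGroup U] [Module R' U] [AddCommGroup V] [Module R' V] [AddCommGroup M] [Module R M]
    [Module.Invertible R' U] [Module.Invertible R' V] [Module.Invertible R M]
    (u : U →+ M) (hu : Function.Surjective u) (hus : ∀ (r : R') (p : U), u (r • p) = φ r • u p)
    (v : V →+ M) (hv : Function.Surjective v) (hvs : ∀ (r : R') (p : V), v (r • p) = φ r • v p) :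
    ∃ e : U ≃ₗ[R'] V, ∀ x, v (e x) = u x := by
  let _ : Algebra R' R := φ.toAlgebra
  let _ : Module R' M := Module.compHom M φ
  have : IsScalarTower R' R M := ⟨fun a b m ↦ mul_smul (φ a) b m⟩
  exact exists_lift_equiv (R := R) (M := M) hn
    { toFun := u, map_add' := map_add u, map_smul' := hus } hu
    { toFun := v, map_add' := map_add v, map_smul' := hvs } hv

/-- `exists_lift_invertible` for semilinear maps -/
theorem exists_lift_invertible_semilinear {R' R : Type u} [CommRing R'] [CommRing R] (φ : R' →+* R)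
    (hφ : Function.Surjective φ) (hn : IsNilpotent (RingHom.ker φ)) (M : Type u)
    [AddCommGroup M] [Module R M] [Module.Invertible R M] :
    ∃ (P : Type u) (_ : AddCommGroup P) (_ : Module R' P) (_ : Module.Invertible R' P)
      (f : P →+ M), Function.Surjective f ∧ ∀ (r : R') (p : P), f (r • p) = φ r • f p := by
  let _ : Algebra R' R := φ.toAlgebra
  let _ : Module R' M := Module.compHom M φ
  have : IsScalarTower R' R M := ⟨fun a b m ↦ mul_smul (φ a) b m⟩
  obtain ⟨P, _, _, hP, f, hf⟩ := exists_lift_invertible (R := R) hφ hn M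
  exact ⟨P, _, _, hP, f.toAddMonoidHom, hf, fun r p ↦ map_smul f r p⟩

theorem smul_mem_of_map {A S M : Type*} [CommRing A] [CommRing S] [Algebra A S] [AddCommGroup M]
    [Module A M] [Module S M] [IsScalarTower A S M] (N : Submodule S M) {I : Ideal A} {r : S}
    (hr : r ∈ I.map (algebraMap A S)) {m : M} (hm : m ∈ N) : r • m ∈ I • N.restrictScalars A := by
  refine Submodule.span_induction (p := fun r _ ↦ ∀ m ∈ N, r • m ∈ I • N.restrictScalars A)
    ?_ ?_ ?_ ?_ hr m hm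
  · rintro _ ⟨a, ha, rfl⟩ m hm
    rw [algebraMap_smul]
    exact Submodule.smul_mem_smul ha hm
  · intro m _
    rw [zero_smul]
    exact zero_mem _
  · intro r s _ _ hr hs m hm
    rw [add_smul]
    exact add_mem (hr m hm) (hs m hm)
  · intro s r _ hr m hm
    rw [smul_eq_mul, mul_comm, mul_smul]
    exact hr _ (Submodule.smul_mem _ _ hm)

theorem ker_restrict {A S S₁ M M₁ : Type*} [CommRing A] [CommRing S] [Algebra A S] [CommRing S₁]
    [AddCommGroup M] [Module A M] [Module S M] [IsScalarTower A S M] [AddCommGroup M₁]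
    [Module S₁ M₁] (φ : S →+* S₁) {I : Ideal A} (hφ : ∀ s, φ s = 0 → s ∈ I.map (algebraMap A S))
    {N : Submodule S M} {N₁ : Submodule S₁ M₁} (hN : Module.Invertible S N)
    (hN₁ : Module.Invertible S₁ N₁) (f : M →+ M₁) (hs : ∀ (s : S) (m : M), f (s • m) = φ s • f m)
    (h1 : ∀ m ∈ N, f m ∈ N₁) (h2 : ∀ m₁ ∈ N₁, ∃ m ∈ N, f m = m₁) {m : M} (hm : m ∈ N)
    (h0 : f m = 0) : m ∈ I • N.restrictScalars A := by
  let g : N →+ N₁ :=
    { toFun := fun m ↦ ⟨f m, h1 m m.2⟩
      map_zero' := Subtype.ext (map_zero f)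
      map_add' := fun m n ↦ Subtype.ext (map_add f (m : M) (n : M)) }
  have hg : Function.Surjective g := fun m ↦ by
    obtain ⟨m', hm', h1⟩ := h2 m m.2
    exact ⟨⟨m', hm'⟩, Subtype.ext h1⟩
  have h3 := ker_of_semilinear φ g hg (fun r m ↦ Subtype.ext (hs r m)) (p := ⟨m, hm⟩)
    (Subtype.ext h0)
  refine Submodule.smul_induction_on (p := fun n : N ↦ (n : M) ∈ I • N.restrictScalars A) h3 ?_ ?_
  · intro r hr n _
    exact smul_mem_of_map N (hφ r hr) n.2
  · intro m n hm hn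
    exact add_mem hm hn

theorem flat_restrictScalars {A S M : Type*} [CommRing A] [CommRing S] [Algebra A S]
    [Module.Flat A S] [AddCommGroup M] [Module A M] [Module S M] [IsScalarTower A S M]
    {N : Submodule S M} (hN : Module.Invertible S N) : Module.Flat A (N.restrictScalars A) := by
  have : Module.Flat A N := Module.Flat.trans A S N
  exact this

theorem flat_of_exists_equiv {A M : Type*} [CommRing A] [AddCommGroup M] [Module A M]
    {N : Submodule A M} (hN : Module.Flat A N)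
    (h : ∀ {l : ℕ} (x : Fin l → M), ∃ e : M ≃ₗ[A] M, ∀ i, e (x i) ∈ N) : Module.Flat A M := by
  refine Module.Flat.of_forall_isTrivialRelation fun {l f x} h0 ↦ ?_
  obtain ⟨e, he⟩ := h x
  obtain ⟨m, a, y, h3, h4⟩ := Module.Flat.isTrivialRelation_of_sum_smul_eq_zero
    (R := A) (M := N) (f := f) (x := fun i ↦ ⟨e (x i), he i⟩) (by
      refine Subtype.ext ?_
      rw [Submodule.coe_sum]
      have h1 := congrArg e h0
      rw [map_sum, map_zero] at h1
      simpa using h1)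
  refine ⟨m, a, fun j ↦ e.symm (y j : M), fun i ↦ ?_, h4⟩
  apply e.injective
  have h5 := congrArg Subtype.val (h3 i)
  simp only [Submodule.coe_sum, Submodule.coe_smul] at h5
  rw [h5, map_sum]
  simp

/-- lifting of eigenfunctionals -/
theorem exists_lift_functional {A S N : Type*} [CommRing A] [CommRing S] [Algebra A S]
    (ε : S →ₐ[A] A) {I : Ideal A} (hI : IsNilpotent I) [AddCommGroup N] [Module A N] [Module S N]
    [IsScalarTower A S N] (hN : Module.Invertible S N) (r : N →+ A ⧸ I)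
    (hr : ∀ (s : S) (n : N), r (s • n) = Ideal.Quotient.mk I (ε s) * r n)
    (hs : Function.Surjective r) :
    ∃ r' : N →ₗ[A] A, (∀ (s : S) (n : N), r' (s • n) = ε s * r' n) ∧ Function.Surjective r' ∧
      ∀ n, Ideal.Quotient.mk I (r' n) = r n := by
  let _ : Algebra S A := ε.toRingHom.toAlgebra
  have h1 : Module.Invertible A (A ⊗[S] N) := inferInstance
  let rS : N →ₗ[S] A ⧸ I :=
    { toFun := r
      map_add' := map_add r
      map_smul' := fun s n ↦ by
        rw [hr, RingHom.id_apply, Algebra.smul_def]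
        rfl }
  let u : A ⊗[S] N →ₗ[A] A ⧸ I := rS.liftBaseChange A
  have hu1 : ∀ n, u (1 ⊗ₜ n) = r n := fun n ↦ by
    rw [LinearMap.liftBaseChange_tmul, one_smul]
    rfl
  have hu : Function.Surjective u := fun y ↦ by
    obtain ⟨n, rfl⟩ := hs y
    exact ⟨1 ⊗ₜ n, hu1 n⟩
  have hn : IsNilpotent (RingHom.ker (algebraMap A (A ⧸ I))) := by
    rw [Ideal.Quotient.algebraMap_eq, Ideal.mk_ker]
    exact hI
  obtain ⟨φ, hφ⟩ := exists_lift_equiv (R := A ⧸ I) hn u hu (Algebra.linearMap A (A ⧸ I))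
    Ideal.Quotient.mk_surjective
  have hsm : ∀ (s : S) (n : N), φ (1 ⊗ₜ (s • n)) = ε s * φ (1 ⊗ₜ n) := fun s n ↦ by
    have h2 : (1 : A) ⊗ₜ[S] (s • n) = ε s • ((1 : A) ⊗ₜ[S] n) := by
      rw [← TensorProduct.smul_tmul, Algebra.smul_def, TensorProduct.smul_tmul', smul_eq_mul]
      rfl
    rw [h2, map_smul, smul_eq_mul]
  have hA : ∀ (a : A) (n : N), a • n = algebraMap A S a • n := fun a n ↦
    (algebraMap_smul S a n).symm
  refine ⟨{ toFun := fun n ↦ φ (1 ⊗ₜ n)
            map_add' := fun m n ↦ by rw [TensorProduct.tmul_add, map_add]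
            map_smul' := fun a n ↦ by
              rw [hA, hsm, AlgHom.commutes, RingHom.id_apply, smul_eq_mul,
                Algebra.algebraMap_self, RingHom.id_apply] }, hsm, fun a ↦ ?_, fun n ↦ ?_⟩
  · obtain ⟨t, rfl⟩ := φ.surjective a
    have h3 : ∃ n : N, (1 : A) ⊗ₜ[S] n = t := by
      induction t using TensorProduct.induction_on with
      | zero => exact ⟨0, TensorProduct.tmul_zero _ _⟩
      | tmul a n =>
        refine ⟨a • n, ?_⟩
        have h4 : (algebraMap A S a) • (1 : A) = a := by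
          rw [Algebra.smul_def, mul_one]
          exact ε.commutes a
        rw [hA, ← TensorProduct.smul_tmul, h4]
      | add x y hx hy =>
        obtain ⟨m, hm⟩ := hx
        obtain ⟨n, hn⟩ := hy
        exact ⟨m + n, by rw [TensorProduct.tmul_add, hm, hn]⟩
    obtain ⟨n, rfl⟩ := h3
    exact ⟨n, rfl⟩
  · exact (hφ (1 ⊗ₜ n)).trans (hu1 n)

end Semi

variable {k : Type u} [Field k] {X : CurveData k} {A : Type u} [CommRing A] [Algebra k A]

theorem CurveData.b0_surjective_nil {A' : Type u} [CommRing A'] [Algebra k A'] {h : A →ₐ[k] A'}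
    (hh : Function.Surjective h) : Function.Surjective (X.b0 h) :=
  TensorProduct.map_surjective hh Function.surjective_id

theorem CurveData.bi_surjective_nil {A' : Type u} [CommRing A'] [Algebra k A'] {h : A →ₐ[k] A'}
    (hh : Function.Surjective h) : Function.Surjective (X.bi h) :=
  TensorProduct.map_surjective hh Function.surjective_id

theorem CurveData.bb_surjective_nil {A' : Type u} [CommRing A'] [Algebra k A'] {h : A →ₐ[k] A'}
    (hh : Function.Surjective h) : Function.Surjective (X.bb h) :=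
  TensorProduct.map_surjective hh Function.surjective_id

theorem mem_map_of_rTensor {C : Type u} [CommRing C] [Algebra k C] {I : Ideal A}
    {r : A ⊗[k] C} (hr : Algebra.TensorProduct.map (Ideal.Quotient.mkₐ k I) (AlgHom.id k C) r = 0) :
    r ∈ I.map (algebraMap A (A ⊗[k] C)) := by
  have h := Algebra.TensorProduct.rTensor_ker (R := k) (S := k) (C := C) (Ideal.Quotient.mkₐ k I)
    (Ideal.Quotient.mkₐ_surjective k I)
  have h1 : RingHom.ker (Ideal.Quotient.mkₐ k I) = I := by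
    ext a
    rw [RingHom.mem_ker, Ideal.Quotient.mkₐ_eq_mk, Ideal.Quotient.eq_zero_iff_mem]
  rw [h1] at h
  exact h.le hr

namespace LB

variable {I : Ideal A} {L' : LB X A} {L : LB X (A ⧸ I)}

namespace Map

variable {A' : Type u} [CommRing A'] [Algebra k A'] {h : A →ₐ[k] A'} {L₁ : LB X A'}

theorem surj0_nil (F : LB.Map h L' L₁) (hh : Function.Surjective h) {m : L₁.M} (hm : m ∈ L₁.M0) :
    ∃ m' ∈ L'.M0, F.f m' = m := by
  rw [← F.span0] at hm
  refine Submodule.span_induction (fun m hm ↦ hm) ⟨0, zero_mem _, map_zero _⟩ ?_ ?_ hm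
  · rintro _ _ _ _ ⟨m, hm, rfl⟩ ⟨n, hn, rfl⟩
    exact ⟨m + n, add_mem hm hn, map_add _ _ _⟩
  · rintro r _ _ ⟨m, hm, rfl⟩
    obtain ⟨r', rfl⟩ := CurveData.b0_surjective_nil hh r
    exact ⟨r' • m, Submodule.smul_mem _ _ hm, F.smul0 r' m⟩

theorem surji_nil (F : LB.Map h L' L₁) (hh : Function.Surjective h) {m : L₁.M} (hm : m ∈ L₁.Mi) :
    ∃ m' ∈ L'.Mi, F.f m' = m := by
  rw [← F.spani] at hm
  refine Submodule.span_induction (fun m hm ↦ hm) ⟨0, zero_mem _, map_zero _⟩ ?_ ?_ hm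
  · rintro _ _ _ _ ⟨m, hm, rfl⟩ ⟨n, hn, rfl⟩
    exact ⟨m + n, add_mem hm hn, map_add _ _ _⟩
  · rintro r _ _ ⟨m, hm, rfl⟩
    obtain ⟨r', rfl⟩ := CurveData.bi_surjective_nil hh r
    exact ⟨r' • m, Submodule.smul_mem _ _ hm, F.smuli r' m⟩

end Map

theorem Map.ker0_nil (F : LB.Map (Ideal.Quotient.mkₐ k I) L' L) {m : L'.M} (hm : m ∈ L'.M0)
    (h0 : F.f m = 0) : m ∈ I • L'.A0 :=
  ker_restrict (X.b0 (Ideal.Quotient.mkₐ k I)).toRingHom (fun _ hr ↦ mem_map_of_rTensor hr)
    L'.inv0 L.inv0 F.f (F.smul0) (fun _ ↦ F.mem0)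
    (fun _ ↦ F.surj0_nil (Ideal.Quotient.mkₐ_surjective k I)) hm h0

theorem Map.keri_nil (F : LB.Map (Ideal.Quotient.mkₐ k I) L' L) {m : L'.M} (hm : m ∈ L'.Mi)
    (h0 : F.f m = 0) : m ∈ I • L'.Ai :=
  ker_restrict (X.bi (Ideal.Quotient.mkₐ k I)).toRingHom (fun _ hr ↦ mem_map_of_rTensor hr)
    L'.invi L.invi F.f (F.smuli) (fun _ ↦ F.memi)
    (fun _ ↦ F.surji_nil (Ideal.Quotient.mkₐ_surjective k I)) hm h0

/-- multiplication by powers of `x` -/
noncomputable def xPow (L : LB X A) (n : ℕ) : L.M ≃ₗ[A] L.M where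
  toFun m := X.xA A ^ n • m
  invFun m := X.yA A ^ n • m
  map_add' m m' := smul_add _ _ _
  map_smul' a m := by
    rw [L.smulA, smul_comm, ← L.smulA]
    rfl
  left_inv m := by
    change X.yA A ^ n • X.xA A ^ n • m = m
    rw [← mul_smul, ← mul_pow, mul_comm, X.xA_yA, one_pow, one_smul]
  right_inv m := by
    change X.xA A ^ n • X.yA A ^ n • m = m
    rw [← mul_smul, ← mul_pow, X.xA_yA, one_pow, one_smul]

theorem xPow_apply (L : LB X A) (n : ℕ) (m : L.M) : L.xPow n m = X.xA A ^ n • m := rfl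
theorem xPow_symm_apply (L : LB X A) (n : ℕ) (m : L.M) : (L.xPow n).symm m = X.yA A ^ n • m := rfl

theorem xPow_mem (L : LB X A) {n : ℕ} {m : L.M} (hm : m ∈ L.M0) : L.xPow n m ∈ L.M0 := by
  rw [xPow_apply, ← X.J0_x0, ← map_pow, ← L.smul0]
  exact Submodule.smul_mem _ _ hm

theorem Map.ker_nil (F : LB.Map (Ideal.Quotient.mkₐ k I) L' L) {m : L'.M} (h0 : F.f m = 0) :
    m ∈ I • (⊤ : Submodule A L'.M) := by
  obtain ⟨n, hn⟩ := L'.ex0 m
  have h1 : L'.xPow n m ∈ I • (⊤ : Submodule A L'.M) :=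
    Submodule.smul_mono le_rfl le_top (F.ker0_nil hn (by
      rw [xPow_apply, F.map_smul, h0, smul_zero]))
  rw [← (L'.xPow n).symm_apply_apply m]
  refine Submodule.smul_induction_on h1 (fun a ha m _ ↦ ?_) (fun m n hm hn ↦ ?_)
  · rw [LinearEquiv.map_smul]
    exact Submodule.smul_mem_smul ha trivial
  · rw [map_add]
    exact add_mem hm hn

/-- A line bundle is flat over the base. -/
instance flatM_nil (L : LB X A) : Module.Flat A L.M := by
  have h0 : Module.Flat A L.A0 := flat_restrictScalars L.inv0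
  refine flat_of_exists_equiv h0 fun {l} x ↦ ?_
  have h1 : ∀ i, ∃ n : ℕ, X.xA A ^ n • x i ∈ L.M0 := fun i ↦ L.ex0 (x i)
  choose n hn using h1
  refine ⟨L.xPow (∑ j, n j), fun i ↦ ?_⟩
  obtain ⟨e, he⟩ := Nat.exists_eq_add_of_le
    (Finset.single_le_sum (f := n) (fun _ _ ↦ Nat.zero_le _) (Finset.mem_univ i))
  rw [xPow_apply, he, add_comm, pow_add, mul_smul]
  exact L.xPow_mem (hn i)

/-- **Complementarity lifts along nilpotent thickenings** -/
theorem isCompl_lift (hI : IsNilpotent I) (h : LB.BC (Ideal.Quotient.mkₐ k I) L' L)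
    (hL : IsCompl L.A0 L.Ai) : IsCompl L'.A0 L'.Ai := by
  obtain ⟨F⟩ := h
  have hs := Ideal.Quotient.mkₐ_surjective k I
  refine isCompl_of_reduction hI F.f (P₁ := L.A0.toAddSubgroup) (Q₁ := L.Ai.toAddSubgroup)
    (fun _ hm ↦ F.surj0_nil hs hm) (fun _ hm ↦ F.surji_nil hs hm) (fun _ hm ↦ F.mem0 hm)
    (fun _ hm ↦ F.memi hm) (fun _ hm h0 ↦ F.ker0_nil hm h0) (fun _ hm h0 ↦ F.keri_nil hm h0)
    (fun _ h0 ↦ F.ker_nil h0) (IsCompl.of_eq ?_ ?_)
  · rw [eq_bot_iff]
    rintro m hm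
    have h1 : m ∈ L.A0 ⊓ L.Ai := hm
    rw [hL.inf_eq_bot, Submodule.mem_bot] at h1
    exact h1
  · rw [eq_top_iff]
    rintro m -
    have h1 : m ∈ L.A0 ⊔ L.Ai := by rw [hL.sup_eq_top]; trivial
    obtain ⟨p, hp, q, hq, rfl⟩ := Submodule.mem_sup.1 h1
    exact AddSubgroup.add_mem_sup hp hq

theorem eA_bi_nil {A' : Type u} [CommRing A'] [Algebra k A'] (h : A →ₐ[k] A') (r : X.Ri A) :
    h (X.eA A r) = X.eA A' (X.bi h r) := by
  induction r using TensorProduct.induction_on with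
  | zero => rw [map_zero, map_zero, map_zero, map_zero]
  | tmul a b => simp [CurveData.eA, CurveData.bi, Algebra.ofId_apply]
  | add r s hr hs => rw [map_add, map_add, hr, hs, map_add, map_add]

/-- lifting of rigidifications -/
theorem exists_lift_rig (hI : IsNilpotent I) (F : LB.Map (Ideal.Quotient.mkₐ k I) L' L)
    (r : L.Mi →ₗ[A ⧸ I] A ⧸ I) (hr : ∀ (b : X.Ri (A ⧸ I)) (m : L.Mi), r (b • m) = X.eA (A ⧸ I) b * r m)
    (hs : Function.Surjective r) :
    ∃ r' : L'.Mi →ₗ[A] A, (∀ (b : X.Ri A) (m : L'.Mi), r' (b • m) = X.eA A b * r' m) ∧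
      Function.Surjective r' ∧
      ∀ m : L'.Mi, Ideal.Quotient.mk I (r' m) = r ⟨F.f m, F.memi m.2⟩ := by
  have hmk := Ideal.Quotient.mkₐ_surjective k I
  let g : L'.Mi →+ A ⧸ I :=
    { toFun := fun m ↦ r ⟨F.f m, F.memi m.2⟩
      map_zero' := by
        rw [← map_zero r]
        exact congrArg r (Subtype.ext (map_zero F.f))
      map_add' := fun m n ↦ by
        rw [← map_add r]
        exact congrArg r (Subtype.ext (map_add F.f _ _)) }
  refine exists_lift_functional (X.eA A) hI L'.invi g (fun s n ↦ ?_) (fun y ↦ ?_)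
  · have h1 : g (s • n) = r (X.bi (Ideal.Quotient.mkₐ k I) s • ⟨F.f n, F.memi n.2⟩) :=
      congrArg r (Subtype.ext (F.smuli s n))
    rw [h1, hr, ← eA_bi_nil]
    rfl
  · obtain ⟨m, rfl⟩ := hs y
    obtain ⟨m', hm', h1⟩ := F.surji_nil hmk m.2
    exact ⟨⟨m', hm'⟩, congrArg r (Subtype.ext h1)⟩

/-- **Rigidifications lift along nilpotent thickenings** -/
theorem rig_lift (hI : IsNilpotent I) (h : LB.BC (Ideal.Quotient.mkₐ k I) L' L) (hL : L.Rig) :
    L'.Rig := by
  obtain ⟨F⟩ := h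
  obtain ⟨r, hr, hs⟩ := hL
  obtain ⟨r', hr', hs', -⟩ := exists_lift_rig hI F r hr hs
  exact ⟨r', hr', hs'⟩

end LB

end Fermat.Agent.Jac
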