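import Mathlib

set_option autoImplicit false

/-!
# Lifting invertible modules along nilpotent thickenings
-/

open TensorProduct

namespace Fermat.Agent.Jac

universe u v

section Nak

variable {R' R : Type*} [CommRing R'] [CommRing R] [Algebra R' R]

theorem ker_le_jacobson (hn : IsNilpotent (RingHom.ker (algebraMap R' R))) :
    RingHom.ker (algebraMap R' R) ≤ Ideal.jacobson ⊥ := by
  obtain ⟨n, hn⟩ := hn
  intro x hx
  rw [Ideal.jacobson_bot]
  refine nilradical_le_jacobson R' ?_
  rw [mem_nilradical]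
  refine ⟨n, ?_⟩
  have h := Ideal.pow_mem_pow hx n
  rwa [hn] at h

/-- Nakayama for a finite module over a nilpotent thickening. -/
theorem eq_top_of_sup (hn : IsNilpotent (RingHom.ker (algebraMap R' R))) {P : Type*}
    [AddCommGroup P] [Module R' P] [Module.Finite R' P] {N : Submodule R' P}
    (h : N ⊔ RingHom.ker (algebraMap R' R) • (⊤ : Submodule R' P) = ⊤) : N = ⊤ :=
  top_le_iff.1 (Submodule.le_of_le_smul_of_le_jacobson_bot Module.Finite.fg_top
    (ker_le_jacobson hn) h.ge)

theorem mk_one_surjective (hs : Function.Surjective (algebraMap R' R)) {P : Type*}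
    [AddCommGroup P] [Module R' P] : Function.Surjective (TensorProduct.mk R' R P 1) := by
  intro t
  induction t using TensorProduct.induction_on with
  | zero => exact ⟨0, map_zero _⟩
  | tmul r p =>
    obtain ⟨r', rfl⟩ := hs r
    refine ⟨r' • p, ?_⟩
    rw [TensorProduct.mk_apply, ← TensorProduct.smul_tmul, Algebra.smul_def, mul_one]
  | add x y hx hy =>
    obtain ⟨a, ha⟩ := hx
    obtain ⟨b, hb⟩ := hy
    exact ⟨a + b, by rw [map_add, ha, hb]⟩

theorem smul_eq_zero_of_mem {P : Type*} [AddCommGroup P] [Module R' P] {p : P}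
    (hp : p ∈ RingHom.ker (algebraMap R' R) • (⊤ : Submodule R' P)) :
    (1 : R) ⊗ₜ[R'] p = 0 := by
  refine Submodule.smul_induction_on hp (fun r hr n _ ↦ ?_) (fun x y hx hy ↦ ?_)
  · rw [← TensorProduct.smul_tmul, Algebra.smul_def, (RingHom.mem_ker).1 hr, zero_mul,
      TensorProduct.zero_tmul]
  · rw [TensorProduct.tmul_add, hx, hy, add_zero]

/-- The kernel of `P → R ⊗ P`, for a projective module. -/
theorem mem_smul_of_tmul_eq_zero {P : Type*} [AddCommGroup P] [Module R' P]
    [Module.Finite R' P] [Module.Projective R' P] {p : P} (hp : (1 : R) ⊗ₜ[R'] p = 0) :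
    p ∈ RingHom.ker (algebraMap R' R) • (⊤ : Submodule R' P) := by
  obtain ⟨n, f, hf⟩ := Module.Finite.exists_fin' R' P
  obtain ⟨s, hs⟩ := Module.projective_lifting_property f LinearMap.id hf
  have h1 : f (s p) = p := LinearMap.congr_fun hs p
  have h2 : ∀ i, algebraMap R' R (s p i) = 0 := by
    intro i
    have h3 := congrArg (LinearMap.lTensor R ((LinearMap.proj i).comp s : P →ₗ[R'] R')) hp
    rw [LinearMap.lTensor_tmul, map_zero] at h3
    have h4 := congrArg (TensorProduct.rid R' R) h3
    rw [TensorProduct.rid_tmul, map_zero, Algebra.smul_def, mul_one] at h4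
    exact h4
  rw [← h1, pi_eq_sum_univ' (s p), map_sum]
  refine Submodule.sum_mem _ fun i _ ↦ ?_
  rw [map_smul]
  exact Submodule.smul_mem_smul (RingHom.mem_ker.2 (h2 i)) trivial

/-- A finite projective module whose reduction is free of rank one is free of rank one. -/
theorem nonempty_equiv_of_reduction (hs : Function.Surjective (algebraMap R' R))
    (hn : IsNilpotent (RingHom.ker (algebraMap R' R))) {P : Type*} [AddCommGroup P] [Module R' P]
    [Module.Finite R' P] [Module.Projective R' P] (e : R ⊗[R'] P ≃ₗ[R] R) :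
    Nonempty (P ≃ₗ[R'] R') := by
  obtain ⟨p, hp⟩ := mk_one_surjective hs (e.symm 1)
  rw [TensorProduct.mk_apply] at hp
  let π : R' →ₗ[R'] P := LinearMap.toSpanSingleton R' P p
  have hπ : ∀ r, π r = r • p := fun r ↦ LinearMap.toSpanSingleton_apply R' P p r
  have hsurj : Function.Surjective π := by
    rw [← LinearMap.range_eq_top]
    refine eq_top_of_sup hn (top_le_iff.1 fun x _ ↦ ?_)
    obtain ⟨r, hr⟩ := hs (e ((1 : R) ⊗ₜ[R'] x))
    have h1 : (1 : R) ⊗ₜ[R'] (x - r • p) = 0 := by
      rw [TensorProduct.tmul_sub, sub_eq_zero, TensorProduct.tmul_smul, hp]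
      apply e.injective
      rw [← algebraMap_smul R r (e.symm 1), map_smul, e.apply_symm_apply, smul_eq_mul, mul_one,
        hr]
    rw [← sub_add_cancel x (r • p), add_comm]
    exact Submodule.add_mem_sup ⟨r, hπ r⟩ (mem_smul_of_tmul_eq_zero h1)
  obtain ⟨s, hs'⟩ := Module.projective_lifting_property π LinearMap.id hsurj
  have hs1 : ∀ x, π (s x) = x := fun x ↦ LinearMap.congr_fun hs' x
  -- the idempotent
  obtain ⟨ε, hε⟩ : ∃ ε : R', ε = 1 - s (π 1) := ⟨_, rfl⟩
  have h1 : ∀ x, x - s (π x) = x * ε := by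
    intro x
    have h2 : s (π x) = x * s (π 1) := by
      rw [← smul_eq_mul, ← map_smul, ← map_smul, smul_eq_mul, mul_one]
    rw [h2, hε, mul_sub, mul_one]
  have hπε : π ε = 0 := by rw [hε, map_sub, hs1, sub_self]
  have hidem : ε * ε = ε := by
    rw [← h1, hπε, map_zero, sub_zero]
  have hker : algebraMap R' R ε = 0 := by
    have h2 : (1 : R) ⊗ₜ[R'] (ε • p) = 0 := by rw [← hπ, hπε, TensorProduct.tmul_zero]
    rw [TensorProduct.tmul_smul, hp, ← algebraMap_smul R ε (e.symm 1), ← map_smul,
      smul_eq_mul, mul_one] at h2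
    exact (map_eq_zero_iff _ e.symm.injective).1 h2
  have hε0 : ε = 0 := by
    obtain ⟨n, hn⟩ := hn
    have h2 : ∀ m, ε ^ (m + 1) = ε := by
      intro m
      induction m with
      | zero => rw [zero_add, pow_one]
      | succ m ih => rw [pow_succ, ih, hidem]
    have h3 := Ideal.pow_mem_pow (RingHom.mem_ker.2 hker) (n + 1)
    rw [pow_succ, hn] at h3
    rw [h2] at h3
    have h4 : (0 : Ideal R') * RingHom.ker (algebraMap R' R) = 0 := zero_mul _
    rw [h4] at h3
    exact h3
  have hinj : Function.Injective π := by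
    rw [← LinearMap.ker_eq_bot, LinearMap.ker_eq_bot']
    intro x hx
    have h2 := h1 x
    rw [hx, map_zero, sub_zero, hε0, mul_zero] at h2
    exact h2
  exact ⟨(LinearEquiv.ofBijective π ⟨hinj, hsurj⟩).symm⟩

end Nak

section BC

variable {R' R : Type*} [CommRing R'] [CommRing R] [Algebra R' R]

/-- A surjection from a module `P` to `M` with kernel `I P` induces an isomorphism
`R ⊗ P ≃ M`. -/
theorem liftBaseChange_bijective (hs : Function.Surjective (algebraMap R' R)) {P M : Type*}
    [AddCommGroup P] [Module R' P] [AddCommGroup M] [Module R' M] [Module R M]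
    [IsScalarTower R' R M] (f : P →ₗ[R'] M) (hf : Function.Surjective f)
    (hk : ∀ p, f p = 0 → p ∈ RingHom.ker (algebraMap R' R) • (⊤ : Submodule R' P)) :
    Function.Bijective (f.liftBaseChange R) := by
  constructor
  · rw [← LinearMap.ker_eq_bot, LinearMap.ker_eq_bot']
    intro t ht
    obtain ⟨p, rfl⟩ := mk_one_surjective hs t
    rw [TensorProduct.mk_apply] at ht ⊢
    rw [LinearMap.liftBaseChange_tmul, one_smul] at ht
    exact smul_eq_zero_of_mem (hk p ht)
  · intro m
    obtain ⟨p, rfl⟩ := hf m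
    exact ⟨1 ⊗ₜ p, by rw [LinearMap.liftBaseChange_tmul, one_smul]⟩

/-- The kernel of a surjection between invertible modules over a surjection of rings. -/
theorem ker_of_invertible {P M : Type*}
    [AddCommGroup P] [Module R' P] [AddCommGroup M] [Module R' M] [Module R M]
    [IsScalarTower R' R M] [Module.Invertible R' P] [Module.Invertible R M] (f : P →ₗ[R'] M)
    (hf : Function.Surjective f) {p : P} (hp : f p = 0) :
    p ∈ RingHom.ker (algebraMap R' R) • (⊤ : Submodule R' P) := by
  have h1 : Function.Surjective (f.liftBaseChange R) := by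
    intro m
    obtain ⟨p, rfl⟩ := hf m
    exact ⟨1 ⊗ₜ p, by rw [LinearMap.liftBaseChange_tmul, one_smul]⟩
  have h2 := Module.Invertible.bijective_of_surjective h1
  apply mem_smul_of_tmul_eq_zero
  apply h2.1
  rw [LinearMap.liftBaseChange_tmul, one_smul, hp, map_zero]

/-- **Lifting isomorphisms.** -/
theorem exists_lift_equiv (hn : IsNilpotent (RingHom.ker (algebraMap R' R))) {U V M : Type*}
    [AddCommGroup U] [Module R' U] [AddCommGroup V] [Module R' V] [AddCommGroup M] [Module R' M]
    [Module R M] [IsScalarTower R' R M] [Module.Invertible R' U] [Module.Invertible R' V]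
    [Module.Invertible R M] (u : U →ₗ[R'] M) (hu : Function.Surjective u) (v : V →ₗ[R'] M)
    (hv : Function.Surjective v) : ∃ φ : U ≃ₗ[R'] V, ∀ x, v (φ x) = u x := by
  obtain ⟨φ, hφ⟩ := Module.projective_lifting_property v u hv
  have h1 : ∀ x, v (φ x) = u x := fun x ↦ LinearMap.congr_fun hφ x
  have h2 : Function.Surjective φ := by
    rw [← LinearMap.range_eq_top]
    refine eq_top_of_sup hn (top_le_iff.1 fun x _ ↦ ?_)
    obtain ⟨w, hw⟩ := hu (v x)
    have h3 : v (x - φ w) = 0 := by rw [map_sub, h1, hw, sub_self]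
    rw [← sub_add_cancel x (φ w), add_comm]
    exact Submodule.add_mem_sup ⟨w, rfl⟩ (ker_of_invertible v hv h3)
  exact ⟨LinearEquiv.ofBijective φ (Module.Invertible.bijective_of_surjective h2), h1⟩

end BC

section Lift

theorem matrix_pow_mem {R' : Type*} [CommRing R'] {n : ℕ} (I : Ideal R')
    {x : Matrix (Fin n) (Fin n) R'} (hx : ∀ i j, x i j ∈ I) (m : ℕ) (i j : Fin n) :
    (x ^ m) i j ∈ I ^ m := by
  induction m generalizing i j with
  | zero => rw [pow_zero I, Ideal.one_eq_top]; trivial
  | succ m ih =>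
    rw [pow_succ, pow_succ, Matrix.mul_apply]
    exact Ideal.sum_mem _ fun k _ ↦ Ideal.mul_mem_mul (ih i k) (hx k j)

variable {R' R : Type u} [CommRing R'] [CommRing R] [Algebra R' R]

/-- Lifting of finite projective modules. -/
theorem exists_lift_projective (hs : Function.Surjective (algebraMap R' R))
    (hn : IsNilpotent (RingHom.ker (algebraMap R' R))) (M : Type v) [AddCommGroup M]
    [Module R' M] [Module R M] [IsScalarTower R' R M] [Module.Finite R M]
    [Module.Projective R M] :
    ∃ (P : Type u) (_ : AddCommGroup P) (_ : Module R' P) (_ : Module.Finite R' P)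
      (_ : Module.Projective R' P) (f : P →ₗ[R'] M), Function.Surjective f ∧
      ∀ p, f p = 0 → p ∈ RingHom.ker (algebraMap R' R) • (⊤ : Submodule R' P) := by
  obtain ⟨n, f, hf⟩ := Module.Finite.exists_fin' R M
  obtain ⟨s, hs'⟩ := Module.projective_lifting_property f LinearMap.id hf
  have hfs : ∀ m, f (s m) = m := fun m ↦ LinearMap.congr_fun hs' m
  let F : Matrix (Fin n) (Fin n) R' →+* Matrix (Fin n) (Fin n) R := (algebraMap R' R).mapMatrix
  obtain ⟨e, he0⟩ : ∃ e : Matrix (Fin n) (Fin n) R, e = LinearMap.toMatrix' (s ∘ₗ f) := ⟨_, rfl⟩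
  have hev : ∀ x, e.mulVec x = s (f x) := fun x ↦ by
    rw [he0, LinearMap.toMatrix'_mulVec]
    rfl
  have he : IsIdempotentElem e := by
    change e * e = e
    rw [he0, ← LinearMap.toMatrix'_comp]
    congr 1
    exact LinearMap.ext fun x ↦ by
      change s (f (s (f x))) = s (f x)
      rw [hfs]
  obtain ⟨n₀, hn₀⟩ := hn
  have hker : ∀ x ∈ RingHom.ker F, IsNilpotent x := by
    intro x hx
    refine ⟨n₀, Matrix.ext fun i j ↦ ?_⟩
    have h0 : F x = 0 := hx
    have h1 : ∀ i j, x i j ∈ RingHom.ker (algebraMap R' R) := fun i j ↦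
      congrFun (congrFun h0 i) j
    have h2 := matrix_pow_mem _ h1 n₀ i j
    rw [hn₀] at h2
    exact h2
  have hrange : e ∈ F.range := by
    choose g hg using fun i j ↦ hs (e i j)
    exact ⟨Matrix.of g, Matrix.ext fun i j ↦ hg i j⟩
  obtain ⟨e', he', hFe'⟩ := exists_isIdempotentElem_eq_of_ker_isNilpotent F hker e hrange he
  let q : (Fin n → R') →ₗ[R'] (Fin n → R) := LinearMap.compLeft (Algebra.linearMap R' R) (Fin n)
  have hq : ∀ v, q (e'.mulVec v) = e.mulVec (q v) := by
    intro v
    funext i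
    rw [← hFe']
    change algebraMap R' R ((e'.mulVec v) i) = ((e'.map (algebraMap R' R)).mulVec (q v)) i
    rw [Matrix.mulVec, Matrix.mulVec, dotProduct, dotProduct, map_sum]
    exact Finset.sum_congr rfl fun j _ ↦ map_mul _ _ _
  let P : Submodule R' (Fin n → R') := LinearMap.range e'.mulVecLin
  have hidem : ∀ v, e'.mulVec (e'.mulVec v) = e'.mulVec v := fun v ↦ by
    rw [Matrix.mulVec_mulVec, he'.eq]
  have hP : ∀ v : P, e'.mulVec v.1 = v.1 := by
    rintro ⟨_, w, rfl⟩
    exact hidem w
  let g : P →ₗ[R'] M := (f.restrictScalars R').comp (q.comp P.subtype)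
  have hg : ∀ v : P, g v = f (q v.1) := fun _ ↦ rfl
  refine ⟨P, inferInstance, inferInstance, inferInstance, ?_, g, ?_, ?_⟩
  · exact Module.Projective.of_split P.subtype (e'.mulVecLin.rangeRestrict)
      (LinearMap.ext fun v ↦ Subtype.ext (hP v))
  · intro m
    obtain ⟨w, hw⟩ : ∃ w, q w = s m := by
      choose w hw using fun i ↦ hs (s m i)
      exact ⟨w, funext hw⟩
    refine ⟨⟨e'.mulVec w, w, rfl⟩, ?_⟩
    rw [hg]
    change f (q (e'.mulVec w)) = m
    rw [hq, hev, hw, hfs, hfs]
  · intro v hv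
    rw [hg] at hv
    have h1 : q v.1 = 0 := by
      rw [← hP v, hq, hev, hv, map_zero]
    obtain ⟨E, hE⟩ : ∃ E : Fin n → (Fin n → R'), ∀ v : Fin n → R', v = ∑ i, v i • E i :=
      ⟨_, fun v ↦ pi_eq_sum_univ' v⟩
    have h2 : v = ∑ i, v.1 i • (e'.mulVecLin.rangeRestrict (E i)) := by
      apply Subtype.ext
      rw [Submodule.coe_sum]
      calc v.1 = e'.mulVecLin v.1 := (hP v).symm
        _ = e'.mulVecLin (∑ i, v.1 i • E i) := by rw [← hE]
        _ = ∑ i, v.1 i • e'.mulVecLin (E i) := by
          rw [map_sum]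
          exact Finset.sum_congr rfl fun i _ ↦ map_smul _ _ _
    rw [h2]
    refine Submodule.sum_mem _ fun i _ ↦ Submodule.smul_mem_smul ?_ trivial
    exact RingHom.mem_ker.2 (congrFun h1 i)

/-- **Lifting of invertible modules.** -/
theorem exists_lift_invertible (hs : Function.Surjective (algebraMap R' R))
    (hn : IsNilpotent (RingHom.ker (algebraMap R' R))) (M : Type u) [AddCommGroup M]
    [Module R' M] [Module R M] [IsScalarTower R' R M] [Module.Invertible R M] :
    ∃ (P : Type u) (_ : AddCommGroup P) (_ : Module R' P) (_ : Module.Invertible R' P)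
      (f : P →ₗ[R'] M), Function.Surjective f := by
  obtain ⟨P, _, _, _, _, f, hf, hfk⟩ := exists_lift_projective hs hn M
  obtain ⟨Q, _, _, _, _, g, hg, hgk⟩ := exists_lift_projective hs hn (Module.Dual R M)
  let eP : R ⊗[R'] P ≃ₗ[R] M := LinearEquiv.ofBijective _ (liftBaseChange_bijective hs f hf hfk)
  let eQ : R ⊗[R'] Q ≃ₗ[R] Module.Dual R M := LinearEquiv.ofBijective _ (liftBaseChange_bijective hs g hg hgk)
  let e : R ⊗[R'] (Q ⊗[R'] P) ≃ₗ[R] R :=
    (TensorProduct.AlgebraTensorModule.distribBaseChange R' R Q P) ≪≫ₗ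
      (TensorProduct.congr eQ eP) ≪≫ₗ Module.Invertible.linearEquiv R M
  obtain ⟨E⟩ := nonempty_equiv_of_reduction hs hn e
  exact ⟨P, _, _, Module.Invertible.right E, f, hf⟩

end Lift

end Fermat.Agent.Jac
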