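import Fermat.Agent.Jac.PicGrp

/-!
# Homomorphisms of sheaves of modules over an open subset, on sections
-/

set_option autoImplicit false
set_option linter.unusedVariables false
set_option linter.style.haveILetI false

universe u

open CategoryTheory CategoryTheory.Limits AlgebraicGeometry TopologicalSpace Opposite

namespace Fermat.Agent.Jac

variable {X Y : Scheme.{u}}

/-- A homomorphism `M|_U ⟶ N|_U`, as a compatible family of maps on the sections over the open
subsets of `U`. -/
structure LocHom (U : X.Opens) (M N : X.Modules) where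
  app : ∀ V : X.Opens, V ≤ U → (Γ(M, V) →+ Γ(N, V))
  smul' : ∀ (V : X.Opens) (hV : V ≤ U) (r : Γ(X, V)) (m : Γ(M, V)),
    app V hV (r • m) = r • app V hV m
  res' : ∀ (V W : X.Opens) (hV : V ≤ U) (hW : W ≤ V) (m : Γ(M, V)),
    app W (hW.trans hV) (res M hW m) = res N hW (app V hV m)

namespace LocHom

variable {U : X.Opens} {M N P : X.Modules}

theorem app_smul (φ : LocHom U M N) {V : X.Opens} (hV : V ≤ U) (r : Γ(X, V)) (m : Γ(M, V)) :
    φ.app V hV (r • m) = r • φ.app V hV m := φ.smul' V hV r m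

theorem app_res (φ : LocHom U M N) {V W : X.Opens} (hV : V ≤ U) (hW : W ≤ V) (m : Γ(M, V)) :
    φ.app W (hW.trans hV) (res M hW m) = res N hW (φ.app V hV m) := φ.res' V W hV hW m

@[ext]
theorem ext {φ ψ : LocHom U M N} (h : ∀ V hV m, φ.app V hV m = ψ.app V hV m) : φ = ψ := by
  cases φ; cases ψ
  congr
  funext V hV
  ext m
  exact h V hV m

/-- the restriction of a morphism -/
@[simps]
noncomputable def ofHom (U : X.Opens) (φ : M ⟶ N) : LocHom U M N where
  app V _ := ap φ V
  smul' _ _ r m := ap_smul φ r m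
  res' _ _ _ hW m := ap_res φ hW m

/-- the identity -/
@[simps]
noncomputable def id (U : X.Opens) (M : X.Modules) : LocHom U M M where
  app V _ := AddMonoidHom.id _
  smul' _ _ r m := rfl
  res' _ _ _ hW m := rfl

/-- composition -/
@[simps]
noncomputable def comp (φ : LocHom U M N) (ψ : LocHom U N P) : LocHom U M P where
  app V hV := (ψ.app V hV).comp (φ.app V hV)
  smul' V hV r m := by
    simp only [AddMonoidHom.comp_apply]
    rw [φ.app_smul, ψ.app_smul]
  res' V W hV hW m := by
    simp only [AddMonoidHom.comp_apply]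
    rw [φ.app_res hV hW, ψ.app_res hV hW]

/-- restriction to a smaller open set -/
@[simps]
noncomputable def restrict (φ : LocHom U M N) {U' : X.Opens} (h : U' ≤ U) : LocHom U' M N where
  app V hV := φ.app V (hV.trans h)
  smul' V hV r m := φ.smul' V _ r m
  res' V W hV hW m := φ.res' V W _ hW m

/-- multiplication by a function -/
@[simps]
noncomputable def smulBy (φ : LocHom U M N) (a : Γ(X, U)) : LocHom U M N where
  app V hV :=
    { toFun := fun m => rs hV a • φ.app V hV m
      map_zero' := by rw [map_zero, smul_zero]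
      map_add' := fun m m' => by rw [map_add, smul_add] }
  smul' V hV r m := by
    simp only [AddMonoidHom.coe_mk, ZeroHom.coe_mk]
    rw [φ.app_smul, smul_smul, smul_smul, mul_comm]
  res' V W hV hW m := by
    simp only [AddMonoidHom.coe_mk, ZeroHom.coe_mk]
    rw [φ.app_res hV hW, res_smul, rs_rs]

/-- isomorphisms over `U` -/
def IsIso (φ : LocHom U M N) : Prop := ∀ V hV, Function.Bijective (φ.app V hV)

theorem isIso_ofHom (U : X.Opens) (φ : M ⟶ N) [CategoryTheory.IsIso φ] : (ofHom U φ).IsIso :=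
  fun V _ => bijective_ap φ V

theorem isIso_id (U : X.Opens) (M : X.Modules) : (LocHom.id U M).IsIso :=
  fun _ _ => Function.bijective_id

theorem IsIso.comp {φ : LocHom U M N} (hφ : φ.IsIso) {ψ : LocHom U N P} (hψ : ψ.IsIso) :
    (φ.comp ψ).IsIso := fun V hV => (hψ V hV).comp (hφ V hV)

theorem IsIso.restrict {φ : LocHom U M N} (hφ : φ.IsIso) {U' : X.Opens} (h : U' ≤ U) :
    (φ.restrict h).IsIso := fun V hV => hφ V (hV.trans h)

theorem IsIso.smulBy {φ : LocHom U M N} (hφ : φ.IsIso) {a : Γ(X, U)} (ha : IsUnit a) :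
    (φ.smulBy a).IsIso := by
  intro V hV
  obtain ⟨u, hu⟩ := ha.map (rs hV)
  have : ((φ.smulBy a).app V hV : Γ(M, V) → Γ(N, V)) = (fun n => u • n) ∘ (φ.app V hV) := by
    funext m
    change rs hV a • φ.app V hV m = u • φ.app V hV m
    rw [← hu]
    rfl
  rw [this]
  exact (MulAction.bijective u).comp (hφ V hV)

/-- the inverse of an isomorphism -/
noncomputable def inv (φ : LocHom U M N) (hφ : φ.IsIso) : LocHom U N M where
  app V hV := ((AddEquiv.ofBijective (φ.app V hV) (hφ V hV)).symm : Γ(N, V) →+ Γ(M, V))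
  smul' V hV r n := by
    apply (hφ V hV).1
    rw [φ.app_smul]
    have h1 : ∀ n, φ.app V hV ((AddEquiv.ofBijective (φ.app V hV) (hφ V hV)).symm n) = n :=
      fun n => (AddEquiv.ofBijective (φ.app V hV) (hφ V hV)).apply_symm_apply n
    simp only [AddMonoidHom.coe_coe]
    rw [h1, h1]
  res' V W hV hW n := by
    apply (hφ W (hW.trans hV)).1
    have h1 : ∀ V hV n, φ.app V hV ((AddEquiv.ofBijective (φ.app V hV) (hφ V hV)).symm n) = n :=
      fun V hV n => (AddEquiv.ofBijective (φ.app V hV) (hφ V hV)).apply_symm_apply n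
    simp only [AddMonoidHom.coe_coe]
    rw [h1, φ.app_res hV hW, h1]

theorem app_inv (φ : LocHom U M N) (hφ : φ.IsIso) {V : X.Opens} (hV : V ≤ U) (n : Γ(N, V)) :
    φ.app V hV ((φ.inv hφ).app V hV n) = n :=
  (AddEquiv.ofBijective (φ.app V hV) (hφ V hV)).apply_symm_apply n

theorem inv_app (φ : LocHom U M N) (hφ : φ.IsIso) {V : X.Opens} (hV : V ≤ U) (m : Γ(M, V)) :
    (φ.inv hφ).app V hV (φ.app V hV m) = m :=
  (AddEquiv.ofBijective (φ.app V hV) (hφ V hV)).symm_apply_apply m

theorem isIso_inv (φ : LocHom U M N) (hφ : φ.IsIso) : (φ.inv hφ).IsIso :=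
  fun V hV => (AddEquiv.ofBijective (φ.app V hV) (hφ V hV)).symm.bijective

theorem isGen_iff {φ : LocHom U M N} (hφ : φ.IsIso) {W : X.Opens} (hW : W ≤ U) (s : Γ(M, W)) :
    IsGen N (φ.app W hW s) ↔ IsGen M s := by
  refine forall₂_congr fun V hV => ?_
  have : (fun r : Γ(X, V) => r • res N hV (φ.app W hW s)) =
      φ.app V (hV.trans hW) ∘ (fun r : Γ(X, V) => r • res M hV s) := by
    funext r
    simp only [Function.comp_apply]
    rw [φ.app_smul, φ.app_res hW hV]
  rw [this]
  exact (hφ V (hV.trans hW)).of_comp_iff' _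

/-- local bijectivity -/
theorem isIso_of_cover (φ : LocHom U M N) {ι : Type*} (W : ι → X.Opens) (hW : U ≤ ⨆ i, W i)
    (h : ∀ i V (hV : V ≤ U), V ≤ W i → Function.Bijective (φ.app V hV)) : φ.IsIso := by
  intro V hV
  have hcov : V ≤ ⨆ i, V ⊓ W i := by
    rw [← inf_iSup_eq]
    exact le_inf le_rfl (hV.trans hW)
  constructor
  · intro m m' e
    refine eq_of_locally M (fun i => V ⊓ W i) V (fun _ => inf_le_left) hcov m m' fun i => ?_
    apply (h i (V ⊓ W i) (inf_le_left.trans hV) inf_le_right).1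
    rw [φ.app_res hV inf_le_left, φ.app_res hV inf_le_left, e]
  · intro n
    choose m hm using fun i => (h i (V ⊓ W i) (inf_le_left.trans hV) inf_le_right).2
      (res N inf_le_left n)
    obtain ⟨m', hm', -⟩ := existsUnique_glue M (fun i => V ⊓ W i) V (fun _ => inf_le_left) hcov m (by
      intro i j
      apply (h i _ ((inf_le_left.trans inf_le_left).trans hV) (inf_le_left.trans inf_le_right)).1
      rw [φ.app_res (inf_le_left.trans hV), φ.app_res (inf_le_left.trans hV), hm, hm, res_res,
        res_res])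
    refine ⟨m', ?_⟩
    refine eq_of_locally N (fun i => V ⊓ W i) V (fun _ => inf_le_left) hcov _ _ fun i => ?_
    rw [← φ.app_res hV inf_le_left]
    exact (congrArg _ (hm' i)).trans (hm i)

/-- generators to generators -/
theorem isIso_of_gen (φ : LocHom U M N)
    (h : ∀ x ∈ U, ∃ (W : X.Opens) (hW : W ≤ U) (s : Γ(M, W)), x ∈ W ∧ IsGen M s ∧
      IsGen N (φ.app W hW s)) : φ.IsIso := by
  choose W hW s hx hs hs' using h
  refine φ.isIso_of_cover (fun x : U => W x x.2) ?_ ?_
  · intro x hx'
    exact Opens.mem_iSup.mpr ⟨⟨x, hx'⟩, hx x hx'⟩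
  · intro x V hV hVW
    have h1 : (fun r : Γ(X, V) => r • res N hVW (φ.app _ (hW x x.2) (s x x.2))) =
      φ.app V hV ∘ (fun r : Γ(X, V) => r • res M hVW (s x x.2)) := by
      funext r
      simp only [Function.comp_apply]
      rw [φ.app_smul, φ.app_res (hW x x.2) hVW]
    have h2 := hs' x x.2 V hVW
    rw [h1] at h2
    exact (Function.Bijective.of_comp_iff _ (hs x x.2 V hVW)).mp h2

/-- local equality -/
theorem eq_of_cover {φ ψ : LocHom U M N} {ι : Type*} (W : ι → X.Opens) (hW : U ≤ ⨆ i, W i)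
    (h : ∀ i V (hV : V ≤ U), V ≤ W i → ∀ m, φ.app V hV m = ψ.app V hV m) : φ = ψ := by
  ext V hV m
  refine eq_of_locally N (fun i => V ⊓ W i) V (fun _ => inf_le_left) ?_ _ _ fun i => ?_
  · rw [← inf_iSup_eq]
    exact le_inf le_rfl (hV.trans hW)
  rw [← φ.app_res hV inf_le_left, ← ψ.app_res hV inf_le_left]
  exact h i _ _ inf_le_right _

/-- gluing of homomorphisms -/
theorem exists_glue {ι : Type*} (W : ι → X.Opens) (hWU : ∀ i, W i ≤ U) (hW : U ≤ ⨆ i, W i)
    (φ : ∀ i, LocHom (W i) M N)
    (h : ∀ i j V (hi : V ≤ W i) (hj : V ≤ W j) m, (φ i).app V hi m = (φ j).app V hj m) :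
    ∃ ψ : LocHom U M N, ∀ i V (hV : V ≤ W i) m, ψ.app V (hV.trans (hWU i)) m =
      (φ i).app V hV m := by
  have hcov : ∀ V ≤ U, V ≤ ⨆ i, V ⊓ W i := fun V hV => by
    rw [← inf_iSup_eq]
    exact le_inf le_rfl (hV.trans hW)
  have h1 : ∀ (V : X.Opens) (hV : V ≤ U) (m : Γ(M, V)), ∃! n : Γ(N, V), ∀ i,
      res N (inf_le_left : V ⊓ W i ≤ V) n = (φ i).app (V ⊓ W i) inf_le_right (res M inf_le_left m) := by
    intro V hV m
    refine existsUnique_glue N (fun i => V ⊓ W i) V (fun _ => inf_le_left) (hcov V hV) _ ?_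
    intro i j
    rw [← (φ i).app_res, ← (φ j).app_res, res_res, res_res]
    exact h i j _ _ _ _
  choose F hF hFu using h1
  have hFu' : ∀ (V : X.Opens) (hV : V ≤ U) (m : Γ(M, V)) (n : Γ(N, V)), (∀ i,
      res N (inf_le_left : V ⊓ W i ≤ V) n =
        (φ i).app (V ⊓ W i) inf_le_right (res M inf_le_left m)) → n = F V hV m :=
    fun V hV m n hn => hFu V hV m n hn
  refine ⟨{ app := fun V hV =>
              { toFun := F V hV
                map_zero' := (hFu' V hV 0 0 fun i => by simp only [map_zero]).symm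
                map_add' := fun m m' => (hFu' V hV _ _ fun i => by
                  rw [map_add, map_add, map_add, hF, hF]).symm }
            smul' := fun V hV r m => (hFu' V hV _ _ fun i => by
              change res N _ (r • F V hV m) = _
              rw [res_smul, res_smul, (φ i).app_smul, hF]).symm
            res' := fun V V' hV hV' m => by
              refine (hFu' V' (hV'.trans hV) _ _ fun i => ?_).symm
              change res N _ (res N _ (F V hV m)) = _
              have h2 := congrArg (res N (inf_le_inf_right (W i) hV')) (hF V hV m i)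
              rw [← (φ i).app_res, res_res, res_res] at h2
              rw [res_res, res_res]
              exact h2 }, ?_⟩
  intro i V hV m
  refine (hFu' V (hV.trans (hWU i)) m _ fun j => ?_).symm
  rw [← (φ i).app_res hV inf_le_left]
  exact h i j _ _ _ _

/-- a homomorphism over the whole space is a morphism -/
theorem exists_hom (φ : LocHom ⊤ M N) : ∃ ψ : M ⟶ N, ∀ V m, ap ψ V m = φ.app V le_top m :=
  Jac.exists_hom (fun V => φ.app V le_top) (fun V r m => φ.smul' V le_top r m)
    (fun V W hW m => φ.res' V W le_top hW m)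

theorem exists_iso (φ : LocHom ⊤ M N) (hφ : φ.IsIso) :
    ∃ ψ : M ≅ N, ∀ V m, ap ψ.hom V m = φ.app V le_top m := by
  obtain ⟨ψ, hψ⟩ := φ.exists_hom
  haveI : CategoryTheory.IsIso ψ := isIso_of_bijective ψ fun V => by
    have : (ap ψ V : Γ(M, V) → Γ(N, V)) = φ.app V le_top := funext (hψ V)
    rw [this]
    exact hφ V le_top
  exact ⟨asIso ψ, hψ⟩

end LocHom

end Fermat.Agent.Jac
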