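import Mathlib
import Fermat.Prelude.Def_AlgebraicGeometry_RelativePicardFunctor

/-!
# Sections of sheaves of modules on schemes: restriction, gluing, generators
-/

set_option autoImplicit false

universe u

open CategoryTheory CategoryTheory.Limits AlgebraicGeometry TopologicalSpace Opposite

namespace Fermat.Agent.Jac

variable {X Y : Scheme.{u}}

/-- restriction of functions -/
noncomputable def rs {U V : X.Opens} (h : V ≤ U) : Γ(X, U) →+* Γ(X, V) :=
  (X.presheaf.map (homOfLE h).op).hom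

/-- restriction of sections of a sheaf of modules -/
noncomputable def res (M : X.Modules) {U V : X.Opens} (h : V ≤ U) : Γ(M, U) →+ Γ(M, V) :=
  (M.presheaf.map (homOfLE h).op).hom

@[simp]
theorem rs_refl {U : X.Opens} (h : U ≤ U) (r : Γ(X, U)) : rs h r = r := by
  have : (homOfLE h).op = 𝟙 (op U) := rfl
  simp only [rs, this, X.presheaf.map_id]
  rfl

@[simp]
theorem rs_rs {U V W : X.Opens} (h : V ≤ U) (h' : W ≤ V) (r : Γ(X, U)) :
    rs h' (rs h r) = rs (h'.trans h) r := by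
  have : (homOfLE (h'.trans h)).op = (homOfLE h).op ≫ (homOfLE h').op := rfl
  simp only [rs, this, X.presheaf.map_comp]
  rfl

@[simp]
theorem res_refl (M : X.Modules) {U : X.Opens} (h : U ≤ U) (r : Γ(M, U)) : res M h r = r := by
  have : (homOfLE h).op = 𝟙 (op U) := rfl
  simp only [res, this, M.presheaf.map_id]
  rfl

@[simp]
theorem res_res (M : X.Modules) {U V W : X.Opens} (h : V ≤ U) (h' : W ≤ V) (r : Γ(M, U)) :
    res M h' (res M h r) = res M (h'.trans h) r := by
  have : (homOfLE (h'.trans h)).op = (homOfLE h).op ≫ (homOfLE h').op := rfl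
  simp only [res, this, M.presheaf.map_comp]
  rfl

@[simp]
theorem res_smul (M : X.Modules) {U V : X.Opens} (h : V ≤ U) (r : Γ(X, U)) (m : Γ(M, U)) :
    res M h (r • m) = rs h r • res M h m :=
  Scheme.Modules.map_smul M (homOfLE h) r m

/-- gluing of sections -/
theorem existsUnique_glue (M : X.Modules) {ι : Type*} (U : ι → X.Opens) (V : X.Opens)
    (hU : ∀ i, U i ≤ V) (hV : V ≤ ⨆ i, U i) (s : ∀ i, Γ(M, U i))
    (hs : ∀ i j, res M (inf_le_left : U i ⊓ U j ≤ U i) (s i) =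
      res M (inf_le_right : U i ⊓ U j ≤ U j) (s j)) :
    ∃! t : Γ(M, V), ∀ i, res M (hU i) t = s i :=
  TopCat.Sheaf.existsUnique_gluing' (⟨M.presheaf, M.isSheaf⟩ : TopCat.Sheaf Ab X) U V
    (fun i => homOfLE (hU i)) hV s hs

theorem eq_of_locally (M : X.Modules) {ι : Type*} (U : ι → X.Opens) (V : X.Opens)
    (hU : ∀ i, U i ≤ V) (hV : V ≤ ⨆ i, U i) (s t : Γ(M, V))
    (h : ∀ i, res M (hU i) s = res M (hU i) t) : s = t :=
  TopCat.Sheaf.eq_of_locally_eq' (⟨M.presheaf, M.isSheaf⟩ : TopCat.Sheaf Ab X) U V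
    (fun i => homOfLE (hU i)) hV s t h

theorem existsUnique_glueO {ι : Type*} (U : ι → X.Opens) (V : X.Opens)
    (hU : ∀ i, U i ≤ V) (hV : V ≤ ⨆ i, U i) (s : ∀ i, Γ(X, U i))
    (hs : ∀ i j, rs (inf_le_left : U i ⊓ U j ≤ U i) (s i) =
      rs (inf_le_right : U i ⊓ U j ≤ U j) (s j)) :
    ∃! t : Γ(X, V), ∀ i, rs (hU i) t = s i :=
  TopCat.Sheaf.existsUnique_gluing' X.sheaf U V
    (fun i => homOfLE (hU i)) hV s hs

theorem eq_of_locallyO {ι : Type*} (U : ι → X.Opens) (V : X.Opens)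
    (hU : ∀ i, U i ≤ V) (hV : V ≤ ⨆ i, U i) (s t : Γ(X, V))
    (h : ∀ i, rs (hU i) s = rs (hU i) t) : s = t :=
  TopCat.Sheaf.eq_of_locally_eq' X.sheaf U V
    (fun i => homOfLE (hU i)) hV s t h

/-- a morphism of sheaves of modules on sections -/
noncomputable def ap {M N : X.Modules} (φ : M ⟶ N) (U : X.Opens) : Γ(M, U) →+ Γ(N, U) :=
  (φ.app U).hom

@[simp]
theorem ap_smul {M N : X.Modules} (φ : M ⟶ N) {U : X.Opens} (r : Γ(X, U)) (m : Γ(M, U)) :
    ap φ U (r • m) = r • ap φ U m :=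
  Scheme.Modules.Hom.app_smul φ r m

theorem ap_res {M N : X.Modules} (φ : M ⟶ N) {U V : X.Opens} (h : V ≤ U) (m : Γ(M, U)) :
    ap φ V (res M h m) = res N h (ap φ U m) :=
  congr($(φ.mapPresheaf.naturality (homOfLE h).op) m)

@[simp]
theorem ap_comp {M N K : X.Modules} (φ : M ⟶ N) (ψ : N ⟶ K) {U : X.Opens} (m : Γ(M, U)) :
    ap (φ ≫ ψ) U m = ap ψ U (ap φ U m) := rfl

@[simp]
theorem ap_id {M : X.Modules} {U : X.Opens} (m : Γ(M, U)) : ap (𝟙 M) U m = m := rfl

theorem hom_ext_ap {M N : X.Modules} {φ ψ : M ⟶ N} (h : ∀ U m, ap φ U m = ap ψ U m) : φ = ψ := by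
  apply Scheme.Modules.hom_ext
  intro U
  ext m
  exact h U m

/-- constructor for morphisms of sheaves of modules -/
theorem exists_hom {M N : X.Modules} (φ : ∀ U : X.Opens, Γ(M, U) →+ Γ(N, U))
    (hφ : ∀ (U : X.Opens) (r : Γ(X, U)) (m : Γ(M, U)), φ U (r • m) = r • φ U m)
    (hres : ∀ (U V : X.Opens) (h : V ≤ U) (m : Γ(M, U)), φ V (res M h m) = res N h (φ U m)) :
    ∃ ψ : M ⟶ N, ∀ U m, ap ψ U m = φ U m := by
  let α : M.val.presheaf ⟶ N.val.presheaf :=
    { app := fun U => AddCommGrpCat.ofHom (φ U.unop)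
      naturality := fun U V f => by
        ext m
        exact hres U.unop V.unop (leOfHom f.unop) m }
  exact ⟨⟨PresheafOfModules.homMk α fun U r m => hφ U.unop r m⟩, fun U m => rfl⟩

theorem isIso_of_bijective {M N : X.Modules} (φ : M ⟶ N)
    (h : ∀ U : X.Opens, Function.Bijective (ap φ U)) : IsIso φ := by
  rw [Scheme.Modules.Hom.isIso_iff_isIso_app]
  intro U
  rw [ConcreteCategory.isIso_iff_bijective]
  exact h U

theorem bijective_ap {M N : X.Modules} (φ : M ⟶ N) [IsIso φ] (U : X.Opens) :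
    Function.Bijective (ap φ U) := by
  have h := Scheme.Modules.Hom.isIso_iff_isIso_app.mp (inferInstance : IsIso φ) U
  rw [ConcreteCategory.isIso_iff_bijective] at h
  exact h

end Fermat.Agent.Jac
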