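import Mathlib

set_option autoImplicit false

/-!
# Monic polynomials in `x` are non-zero-divisors
-/

universe u

open scoped TensorProduct
open Polynomial

namespace Fermat.Agent.Jac

theorem mem_nonZeroDivisors_tmul {k P B A : Type*} [CommRing k] [CommRing P] [CommRing B]
    [CommRing A] [Algebra k P] [Algebra P B] [Algebra k B] [IsScalarTower k P B] [Algebra k A]
    [Module.Flat P B] {q : P ⊗[k] A} (hq : q ∈ nonZeroDivisors (P ⊗[k] A)) :
    Algebra.TensorProduct.map (IsScalarTower.toAlgHom k P B) (AlgHom.id k A) q ∈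
      nonZeroDivisors (B ⊗[k] A) := by
  let e := Algebra.TensorProduct.cancelBaseChange k P B B A
  have he : ∀ q : P ⊗[k] A, e (1 ⊗ₜ q) =
      Algebra.TensorProduct.map (IsScalarTower.toAlgHom k P B) (AlgHom.id k A) q := by
    intro q
    induction q using TensorProduct.induction_on with
    | zero => rw [TensorProduct.tmul_zero, map_zero, map_zero]
    | tmul p a =>
      rw [Algebra.TensorProduct.cancelBaseChange_tmul, Algebra.TensorProduct.map_tmul,
        Algebra.smul_def, mul_one]
      rfl
    | add x y hx hy => rw [TensorProduct.tmul_add, map_add, map_add, hx, hy]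
  rw [← he]
  have hm : (1 : B) ⊗ₜ[P] q ∈ nonZeroDivisors (B ⊗[P] (P ⊗[k] A)) := by
    have hinj : Function.Injective (LinearMap.mulRight P q) := by
      intro a b hab
      have h1 : (a - b) * q = 0 := by
        rw [sub_mul, sub_eq_zero]
        exact hab
      exact sub_eq_zero.1 ((mem_nonZeroDivisors_iff_right.1 hq) _ h1)
    have h2 := Module.Flat.lTensor_preserves_injective_linearMap (M := B) _ hinj
    have h3 : ∀ z, LinearMap.lTensor B (LinearMap.mulRight P q) z = z * (1 ⊗ₜ q) := by
      intro z
      induction z using TensorProduct.induction_on with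
      | zero => rw [map_zero, zero_mul]
      | tmul b w => rw [LinearMap.lTensor_tmul, Algebra.TensorProduct.tmul_mul_tmul, mul_one]; rfl
      | add x y hx hy => rw [map_add, hx, hy, add_mul]
    rw [mem_nonZeroDivisors_iff_right]
    intro z hz
    rw [← h3] at hz
    exact h2 (hz.trans (map_zero _).symm)
  rw [mem_nonZeroDivisors_iff_right]
  intro z hz
  have h4 : e.symm z * (1 ⊗ₜ q) = 0 := by
    apply e.injective
    rw [map_mul, e.apply_symm_apply, hz, map_zero]
  have h5 := (mem_nonZeroDivisors_iff_right.1 hm) _ h4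
  rw [← e.apply_symm_apply z, h5, map_zero]


/-- monic polynomials in a transcendental element `x` are non-zero-divisors of `A ⊗ B0` -/
theorem aeval_mem_nonZeroDivisors {k B : Type u} [Field k] [CommRing B] [IsDomain B] [Algebra k B]
    {x : B} (hx : Transcendental k x) {A : Type u} [CommRing A] [Algebra k A] {p : A[X]}
    (hp : p.Monic) : aeval ((1 : A) ⊗ₜ[k] x) p ∈ nonZeroDivisors (A ⊗[k] B) := by
  let _ : Algebra k[X] B := (aeval x : k[X] →ₐ[k] B).toAlgebra
  have ht : IsScalarTower k k[X] B := IsScalarTower.of_algebraMap_eq fun a => by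
    change _ = aeval x (algebraMap k k[X] a)
    rw [Polynomial.algebraMap_eq, aeval_C]
  have hinj : Function.Injective (algebraMap k[X] B) := transcendental_iff_injective.1 hx
  have htf : Module.IsTorsionFree k[X] B := Module.isTorsionFree_iff_algebraMap_injective.2 hinj
  have hfl : Module.Flat k[X] B := inferInstance
  -- the polynomial as an element of `k[X] ⊗ A`
  let c1 : A ⊗[k] k[X] ≃ₐ[k] k[X] ⊗[k] A := Algebra.TensorProduct.comm k A k[X]
  let c2 : B ⊗[k] A ≃ₐ[k] A ⊗[k] B := Algebra.TensorProduct.comm k B A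
  let ψ : A[X] ≃ₐ[k] k[X] ⊗[k] A := (polyEquivTensor k A).trans c1
  let m : k[X] ⊗[k] A →ₐ[k] B ⊗[k] A :=
    Algebra.TensorProduct.map (IsScalarTower.toAlgHom k k[X] B) (AlgHom.id k A)
  have hq : ψ p ∈ nonZeroDivisors (k[X] ⊗[k] A) := by
    rw [mem_nonZeroDivisors_iff_right]
    intro z hz
    have h4 : ψ.symm z * p = 0 := by
      apply ψ.injective
      rw [map_mul, ψ.apply_symm_apply, hz, map_zero]
    have h5 := (mem_nonZeroDivisors_iff_right.1 hp.mem_nonZeroDivisors) _ h4
    rw [← ψ.apply_symm_apply z, h5, map_zero]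
  have h1 : m (ψ p) ∈ nonZeroDivisors (B ⊗[k] A) := mem_nonZeroDivisors_tmul hq
  have h2 : aeval ((1 : A) ⊗ₜ[k] x) p = c2 (m (ψ p)) := by
    have key : (aeval ((1 : A) ⊗ₜ[k] x) : A[X] →ₐ[A] A ⊗[k] B).toRingHom =
        ((c2 : B ⊗[k] A →ₐ[k] A ⊗[k] B).toRingHom.comp m.toRingHom).comp
          (ψ : A[X] →ₐ[k] k[X] ⊗[k] A).toRingHom := by
      apply Polynomial.ringHom_ext
      · intro a
        change aeval _ (C a) = c2 (m (c1 (polyEquivTensor k A (C a))))
        rw [aeval_C]
        have h3 : polyEquivTensor k A (C a) = a ⊗ₜ (1 : k[X]) := by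
          rw [← AlgEquiv.eq_symm_apply, polyEquivTensor_symm_apply_tmul_eq_smul, Polynomial.map_one,
            Polynomial.smul_eq_C_mul, mul_one]
        rw [h3]
        simp [c1, c2, m]
      · change aeval _ X = c2 (m (c1 (polyEquivTensor k A X)))
        have h3 : polyEquivTensor k A X = (1 : A) ⊗ₜ (X : k[X]) := by
          rw [← AlgEquiv.eq_symm_apply, polyEquivTensor_symm_apply_tmul_eq_smul]
          simp
        rw [h3, aeval_X]
        have h6 : algebraMap k[X] B X = x := aeval_X x
        simp [c1, c2, m, h6]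
    exact congrArg (fun f : A[X] →+* A ⊗[k] B => f p) key
  rw [h2, mem_nonZeroDivisors_iff_right]
  intro z hz
  have h4 : c2.symm z * m (ψ p) = 0 := by
    apply c2.injective
    rw [map_mul, c2.apply_symm_apply, hz, map_zero]
  have h5 := (mem_nonZeroDivisors_iff_right.1 h1) _ h4
  rw [← c2.apply_symm_apply z, h5, map_zero]

end Fermat.Agent.Jac
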