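import Fermat.Agent.Jac.PullCoc

/-!
# Rigidified invertible sheaves over an open subset of the base

`π : X ⟶ T` is a morphism with section `σ`.
-/

set_option autoImplicit false
set_option linter.unusedVariables false

universe u

open CategoryTheory CategoryTheory.Limits AlgebraicGeometry TopologicalSpace Opposite

noncomputable section

namespace Fermat.Agent.Jac

section basic

variable {X Y Z : Scheme.{u}}

theorem pf_comp (f : X ⟶ Y) (g : Y ⟶ Z) (U : Z.Opens) (r : Γ(Z, U)) :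
    pf (f ≫ g) U r = pf f (g ⁻¹ᵁ U) (pf g U r) := by
  change ((f ≫ g).app U).hom r = _
  rw [Scheme.Hom.comp_app]
  rfl

theorem pf_congr {f g : X ⟶ Y} (h : f = g) (U : Y.Opens) (r : Γ(Y, U)) :
    pf f U r = rs (show f ⁻¹ᵁ U ≤ g ⁻¹ᵁ U by rw [h]) (pf g U r) := by
  subst h
  simp

theorem pf_id (U : X.Opens) (r : Γ(X, U)) : pf (𝟙 X) U r = r := by
  simp only [pf, Scheme.Hom.id_app]
  rfl

theorem isUnit_of_locallyO {ι : Type*} (U : ι → X.Opens) (V : X.Opens)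
    (hU : ∀ i, U i ≤ V) (hV : V ≤ ⨆ i, U i) (s : Γ(X, V)) (h : ∀ i, IsUnit (rs (hU i) s)) :
    IsUnit s := by
  choose t ht using fun i => (h i).exists_right_inv
  obtain ⟨v, hv, -⟩ := existsUnique_glueO U V hU hV t (by
    intro i j
    have h1 : IsUnit (rs (inf_le_left.trans (hU i) : U i ⊓ U j ≤ V) s) := by
      have := (h i).map (rs (inf_le_left : U i ⊓ U j ≤ U i))
      rwa [rs_rs] at this
    apply h1.mul_left_cancel
    have e1 := congrArg (rs (inf_le_left : U i ⊓ U j ≤ U i)) (ht i)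
    have e2 := congrArg (rs (inf_le_right : U i ⊓ U j ≤ U j)) (ht j)
    rw [map_mul, rs_rs, map_one] at e1 e2
    rw [e1, e2])
  refine IsUnit.of_mul_eq_one v (eq_of_locallyO U V hU hV _ _ fun i => ?_)
  rw [map_mul, hv, ht, map_one]

end basic

variable {X T : Scheme.{u}} (π : X ⟶ T) (σ : T ⟶ X)

/-- a sheaf of modules which is invertible over `π ⁻¹ U` and rigidified along `σ`. -/
structure RM (U : T.Opens) where
  M : X.Modules
  gens : ∀ x ∈ π ⁻¹ᵁ U, ∃ V : X.Opens, x ∈ V ∧ V ≤ π ⁻¹ᵁ U ∧ ∃ s : Γ(M, V), IsGen M s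
  val : ∀ V : X.Opens, V ≤ π ⁻¹ᵁ U → Γ(M, V) →+ Γ(T, σ ⁻¹ᵁ V)
  val_smul : ∀ (V : X.Opens) (hV : V ≤ π ⁻¹ᵁ U) (r : Γ(X, V)) (m : Γ(M, V)),
    val V hV (r • m) = pf σ V r * val V hV m
  val_res : ∀ (V W : X.Opens) (hV : V ≤ π ⁻¹ᵁ U) (h : W ≤ V) (m : Γ(M, V)),
    val W (h.trans hV) (res M h m) = rs (pre_mono σ h) (val V hV m)
  val_gen : ∀ (V : X.Opens) (hV : V ≤ π ⁻¹ᵁ U) (s : Γ(M, V)), IsGen M s → IsUnit (val V hV s)

variable {π σ}

namespace RM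

variable {U U' U'' : T.Opens}

/-- isomorphisms over `W`, in terms of sections. -/
structure Hm (A : RM π σ U) (B : RM π σ U') (W : T.Opens) where
  f : ∀ V : X.Opens, V ≤ π ⁻¹ᵁ W → Γ(A.M, V) →+ Γ(B.M, V)
  f_smul : ∀ (V : X.Opens) (hV : V ≤ π ⁻¹ᵁ W) (r : Γ(X, V)) (m : Γ(A.M, V)),
    f V hV (r • m) = r • f V hV m
  f_res : ∀ (V V' : X.Opens) (hV : V ≤ π ⁻¹ᵁ W) (h : V' ≤ V) (m : Γ(A.M, V)),
    f V' (h.trans hV) (res A.M h m) = res B.M h (f V hV m)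
  f_gen : ∀ (V : X.Opens) (hV : V ≤ π ⁻¹ᵁ W) (s : Γ(A.M, V)), IsGen A.M s → IsGen B.M (f V hV s)

/-- compatibility with the rigidifications -/
def Norm {A : RM π σ U} {B : RM π σ U'} {W : T.Opens} (φ : Hm A B W) (hU : W ≤ U)
    (hU' : W ≤ U') : Prop :=
  ∀ (V : X.Opens) (hV : V ≤ π ⁻¹ᵁ W) (m : Γ(A.M, V)),
    B.val V (hV.trans (pre_mono π hU')) (φ.f V hV m) = A.val V (hV.trans (pre_mono π hU)) m

/-- restriction -/
def Hm.restr {A : RM π σ U} {B : RM π σ U'} {W W' : T.Opens} (φ : Hm A B W) (h : W' ≤ W) :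
    Hm A B W' where
  f V hV := φ.f V (hV.trans (pre_mono π h))
  f_smul V hV := φ.f_smul V _
  f_res V V' hV h' := φ.f_res V V' _ h'
  f_gen V hV := φ.f_gen V _

/-- composition -/
def Hm.comp {A : RM π σ U} {B : RM π σ U'} {C : RM π σ U''} {W : T.Opens} (ψ : Hm B C W)
    (φ : Hm A B W) : Hm A C W where
  f V hV := (ψ.f V hV).comp (φ.f V hV)
  f_smul V hV r m := by
    simp only [AddMonoidHom.comp_apply, φ.f_smul, ψ.f_smul]
  f_res V V' hV h m := by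
    simp only [AddMonoidHom.comp_apply]
    rw [φ.f_res V V' hV h, ψ.f_res V V' hV h]
  f_gen V hV s hs := ψ.f_gen V hV _ (φ.f_gen V hV _ hs)

/-- identity -/
def Hm.id (A : RM π σ U) (W : T.Opens) : Hm A A W where
  f V hV := AddMonoidHom.id _
  f_smul V hV r m := rfl
  f_res V V' hV h m := rfl
  f_gen V hV s hs := hs

theorem Norm.id (A : RM π σ U) (W : T.Opens) (h h' : W ≤ U) : Norm (Hm.id A W) h h' :=
  fun _ _ _ => rfl

theorem Norm.comp {A : RM π σ U} {B : RM π σ U'} {C : RM π σ U''} {W : T.Opens} {ψ : Hm B C W}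
    {φ : Hm A B W} {h : W ≤ U} {h' : W ≤ U'} {h'' : W ≤ U''} (hψ : Norm ψ h' h'')
    (hφ : Norm φ h h') : Norm (ψ.comp φ) h h'' := by
  intro V hV m
  exact (hψ V hV _).trans (hφ V hV m)

theorem Norm.restr {A : RM π σ U} {B : RM π σ U'} {W W' : T.Opens} {φ : Hm A B W} {h : W ≤ U}
    {h' : W ≤ U'} (hφ : Norm φ h h') (hW : W' ≤ W) :
    Norm (φ.restr hW) (hW.trans h) (hW.trans h') :=
  fun V hV m => hφ V (hV.trans (pre_mono π hW)) m

/-- the small opens with a generator -/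
structure Ix (A : RM π σ U) (V : X.Opens) where
  W : X.Opens
  le : W ≤ V
  s : Γ(A.M, W)
  gen : IsGen A.M s

theorem iSup_Ix (A : RM π σ U) {V : X.Opens} (hV : V ≤ π ⁻¹ᵁ U) : V ≤ ⨆ i : A.Ix V, i.W := by
  intro x hx
  obtain ⟨W, hxW, hW, s, hs⟩ := A.gens x (hV hx)
  refine Opens.mem_iSup.mpr ⟨⟨W ⊓ V, inf_le_right, res A.M inf_le_left s,
    hs.res _⟩, ⟨hxW, hx⟩⟩

theorem iSup_pre_Ix (A : RM π σ U) {V : X.Opens} (hV : V ≤ π ⁻¹ᵁ U) :
    σ ⁻¹ᵁ V ≤ ⨆ i : A.Ix V, σ ⁻¹ᵁ i.W := by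
  intro t ht
  obtain ⟨i, hi⟩ := Opens.mem_iSup.mp (A.iSup_Ix hV ht)
  exact Opens.mem_iSup.mpr ⟨i, hi⟩

/-- locality of sections -/
theorem ext_Ix (A : RM π σ U) {V : X.Opens} (hV : V ≤ π ⁻¹ᵁ U) {N : X.Modules} {m m' : Γ(N, V)}
    (h : ∀ i : A.Ix V, res N i.le m = res N i.le m') : m = m' :=
  eq_of_locally N (fun i : A.Ix V => i.W) V (fun i => i.le) (A.iSup_Ix hV) m m' h

theorem ext_Ix' (A : RM π σ U) {V : X.Opens} (hV : V ≤ π ⁻¹ᵁ U) {m m' : Γ(T, σ ⁻¹ᵁ V)}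
    (h : ∀ i : A.Ix V, rs (pre_mono σ i.le) m = rs (pre_mono σ i.le) m') : m = m' :=
  eq_of_locallyO (fun i : A.Ix V => σ ⁻¹ᵁ i.W) _ (fun i => pre_mono σ i.le) (A.iSup_pre_Ix hV) m m' h

variable (hσ : σ ≫ π = 𝟙 T)
include hσ

theorem pre_pre (W : T.Opens) : σ ⁻¹ᵁ (π ⁻¹ᵁ W) = W := by
  rw [← Scheme.Hom.comp_preimage, hσ]
  rfl

theorem le_pre {V : X.Opens} {W : T.Opens} (h : V ≤ π ⁻¹ᵁ W) : σ ⁻¹ᵁ V ≤ W :=
  (pre_mono σ h).trans (pre_pre hσ W).le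

theorem pf_pf {V : X.Opens} {W : T.Opens} (h : V ≤ π ⁻¹ᵁ W) (v : Γ(T, W)) :
    pf σ V (rs h (pf π W v)) = rs (le_pre hσ h) v := by
  have e : pf σ _ (pf π W v) = rs (le_pre hσ le_rfl) v :=
    (pf_comp σ π W v).symm.trans ((pf_congr hσ W v).trans (congrArg _ (pf_id W v)))
  rw [← rs_pf σ h, e, rs_rs]

theorem iSup_pre_Ix' (A : RM π σ U) {W : T.Opens} (hW : W ≤ U) :
    W ≤ ⨆ i : A.Ix (π ⁻¹ᵁ W), σ ⁻¹ᵁ i.W :=
  (pre_pre hσ W).ge.trans (A.iSup_pre_Ix (pre_mono π hW))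

omit hσ in
theorem unit_ratio {A : RM π σ U} {B : RM π σ U'} {W : T.Opens} (φ : Hm A B W) (h : W ≤ U)
    (h' : W ≤ U') {V : X.Opens} (hV : V ≤ π ⁻¹ᵁ W) {s s' : Γ(A.M, V)} (hs : IsGen A.M s)
    (hs' : IsGen A.M s') {u u' : Γ(T, σ ⁻¹ᵁ V)}
    (hu : A.val V (hV.trans (pre_mono π h)) s =
      u * B.val V (hV.trans (pre_mono π h')) (φ.f V hV s))
    (hu' : A.val V (hV.trans (pre_mono π h)) s' =
      u' * B.val V (hV.trans (pre_mono π h')) (φ.f V hV s')) : u = u' := by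
  obtain ⟨a, ha, rfl⟩ := hs.exists_unit hs'
  rw [φ.f_smul, A.val_smul, B.val_smul, hu] at hu'
  have h1 : IsUnit (pf σ V a * B.val V (hV.trans (pre_mono π h')) (φ.f V hV s)) :=
    (ha.map _).mul (B.val_gen _ _ _ (φ.f_gen V hV s hs))
  apply h1.mul_right_cancel
  rw [← hu']
  ring

/-- **normalisation** -/
theorem exists_norm {A : RM π σ U} {B : RM π σ U'} {W : T.Opens} (φ : Hm A B W) (h : W ≤ U)
    (h' : W ≤ U') : ∃ ψ : Hm A B W, Norm ψ h h' := by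
  have hu : ∀ i : A.Ix (π ⁻¹ᵁ W), ∃ u : Γ(T, σ ⁻¹ᵁ i.W), IsUnit u ∧
      A.val i.W (i.le.trans (pre_mono π h)) i.s =
        u * B.val i.W (i.le.trans (pre_mono π h')) (φ.f i.W i.le i.s) := by
    intro i
    have h1 := A.val_gen i.W (i.le.trans (pre_mono π h)) i.s i.gen
    have h2 := B.val_gen i.W (i.le.trans (pre_mono π h')) _ (φ.f_gen i.W i.le i.s i.gen)
    obtain ⟨b, hb⟩ := h2.exists_left_inv
    refine ⟨A.val i.W (i.le.trans (pre_mono π h)) i.s * b, h1.mul (IsUnit.of_mul_eq_one _ hb), ?_⟩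
    rw [mul_assoc, hb, mul_one]
  choose u huu hu using hu
  obtain ⟨v, hv, -⟩ := existsUnique_glueO (fun i : A.Ix (π ⁻¹ᵁ W) => σ ⁻¹ᵁ i.W) W
    (fun i => le_pre hσ i.le) (iSup_pre_Ix' hσ A h) u (by
      intro i j
      have hi : i.W ⊓ j.W ≤ π ⁻¹ᵁ W := inf_le_left.trans i.le
      have e1 := congrArg (rs (pre_mono σ (inf_le_left : i.W ⊓ j.W ≤ i.W))) (hu i)
      have e2 := congrArg (rs (pre_mono σ (inf_le_right : i.W ⊓ j.W ≤ j.W))) (hu j)
      rw [map_mul, ← A.val_res _ _ (i.le.trans (pre_mono π h)) inf_le_left, ← B.val_res _ _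
        (i.le.trans (pre_mono π h')) inf_le_left, ← φ.f_res _ _ i.le inf_le_left] at e1
      rw [map_mul, ← A.val_res _ _ (j.le.trans (pre_mono π h)) inf_le_right, ← B.val_res _ _
        (j.le.trans (pre_mono π h')) inf_le_right, ← φ.f_res _ _ j.le inf_le_right] at e2
      exact unit_ratio φ h h' hi (i.gen.res inf_le_left) (j.gen.res inf_le_right) e1 e2)
  have hvu : IsUnit v := isUnit_of_locallyO (fun i : A.Ix (π ⁻¹ᵁ W) => σ ⁻¹ᵁ i.W) W
    (fun i => le_pre hσ i.le) (iSup_pre_Ix' hσ A h) v fun i => by rw [hv]; exact huu i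
  refine ⟨{ f := fun V hV => (DistribSMul.toAddMonoidHom _ (rs hV (pf π W v))).comp (φ.f V hV)
            f_smul := ?_, f_res := ?_, f_gen := ?_ }, ?_⟩
  · intro V hV r m
    change rs hV (pf π W v) • φ.f V hV (r • m) = r • (rs hV (pf π W v) • φ.f V hV m)
    rw [φ.f_smul, smul_comm]
  · intro V V' hV hV' m
    change rs (hV'.trans hV) (pf π W v) • φ.f V' (hV'.trans hV) (res A.M hV' m) =
      res B.M hV' (rs hV (pf π W v) • φ.f V hV m)
    rw [res_smul, rs_rs, φ.f_res V V' hV hV']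
  · intro V hV s hs
    exact (φ.f_gen V hV s hs).smul_unit ((hvu.map _).map _)
  · intro V hV m
    change B.val V (hV.trans (pre_mono π h')) (rs hV (pf π W v) • φ.f V hV m) = _
    rw [B.val_smul, pf_pf hσ]
    apply A.ext_Ix' (hV.trans (pre_mono π h))
    intro i
    obtain ⟨r, hr⟩ := i.gen.exists_smul le_rfl (res A.M i.le m)
    rw [res_refl] at hr
    have hi := hu ⟨i.W, i.le.trans hV, i.s, i.gen⟩
    have hvi := hv ⟨i.W, i.le.trans hV, i.s, i.gen⟩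
    rw [map_mul, rs_rs, ← A.val_res V i.W (hV.trans (pre_mono π h)) i.le,
      ← B.val_res V i.W (hV.trans (pre_mono π h')) i.le, ← φ.f_res V i.W hV i.le, hr, φ.f_smul,
      A.val_smul, B.val_smul]
    rw [hi, ← hvi]
    ring

/-- **uniqueness of normalised isomorphisms** -/
theorem norm_unique (H : ∀ W : T.Opens, Function.Surjective (pf π W)) {A : RM π σ U}
    {B : RM π σ U'} {W : T.Opens} {φ ψ : Hm A B W} {h : W ≤ U} {h' : W ≤ U'} (hφ : Norm φ h h')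
    (hψ : Norm ψ h h') (V : X.Opens) (hV : V ≤ π ⁻¹ᵁ W) (m : Γ(A.M, V)) :
    φ.f V hV m = ψ.f V hV m := by
  have hr : ∀ i : A.Ix (π ⁻¹ᵁ W), ∃ r : Γ(X, i.W), ψ.f i.W i.le i.s = r • φ.f i.W i.le i.s := by
    intro i
    obtain ⟨r, hr⟩ := (φ.f_gen i.W i.le i.s i.gen).exists_smul le_rfl (ψ.f i.W i.le i.s)
    rw [res_refl] at hr
    exact ⟨r, hr⟩
  choose r hr using hr
  obtain ⟨R, hR, -⟩ := existsUnique_glueO (fun i : A.Ix (π ⁻¹ᵁ W) => i.W) (π ⁻¹ᵁ W)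
    (fun i => i.le) (A.iSup_Ix (pre_mono π h)) r (by
      intro i j
      have hi : i.W ⊓ j.W ≤ π ⁻¹ᵁ W := inf_le_left.trans i.le
      obtain ⟨a, ha, haa⟩ := (i.gen.res (inf_le_left : i.W ⊓ j.W ≤ i.W)).exists_unit
        (j.gen.res (inf_le_right : i.W ⊓ j.W ≤ j.W))
      have e1 := congrArg (res B.M (inf_le_left : i.W ⊓ j.W ≤ i.W)) (hr i)
      have e2 := congrArg (res B.M (inf_le_right : i.W ⊓ j.W ≤ j.W)) (hr j)
      rw [res_smul, ← φ.f_res i.W _ i.le inf_le_left, ← ψ.f_res i.W _ i.le inf_le_left] at e1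
      rw [res_smul, ← φ.f_res j.W _ j.le inf_le_right, ← ψ.f_res j.W _ j.le inf_le_right, haa,
        φ.f_smul, ψ.f_smul, e1] at e2
      have g1 : IsGen B.M (a • φ.f (i.W ⊓ j.W) hi (res A.M inf_le_left i.s)) :=
        (φ.f_gen _ hi _ (i.gen.res inf_le_left)).smul_unit ha
      apply g1.smul_inj le_rfl
      rw [res_refl, ← e2, smul_comm])
  obtain ⟨v, hv⟩ := H W R
  have hv1 : v = 1 := by
    refine eq_of_locallyO (fun i : A.Ix (π ⁻¹ᵁ W) => σ ⁻¹ᵁ i.W) W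
      (fun i => le_pre hσ i.le) (iSup_pre_Ix' hσ A h) v 1 fun i => ?_
    rw [map_one, ← pf_pf hσ i.le, hv, hR]
    have e1 := hψ i.W i.le i.s
    rw [hr, B.val_smul, ← hφ i.W i.le i.s] at e1
    exact (B.val_gen _ _ _ (φ.f_gen i.W i.le i.s i.gen)).mul_right_cancel (e1.trans (one_mul _).symm)
  have hR1 : R = 1 := by rw [← hv, hv1, map_one]
  have key : ∀ i : A.Ix (π ⁻¹ᵁ W), ψ.f i.W i.le i.s = φ.f i.W i.le i.s := by
    intro i
    rw [hr, ← hR, hR1, map_one, one_smul]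
  apply A.ext_Ix (hV.trans (pre_mono π h))
  intro i
  obtain ⟨c, hc⟩ := i.gen.exists_smul le_rfl (res A.M i.le m)
  rw [res_refl] at hc
  rw [← φ.f_res V i.W hV i.le, ← ψ.f_res V i.W hV i.le, hc, φ.f_smul, ψ.f_smul]
  exact congrArg (c • ·) (key ⟨i.W, i.le.trans hV, i.s, i.gen⟩).symm

/-- **separatedness** -/
theorem exists_iso_of_locally (H : ∀ W : T.Opens, Function.Surjective (pf π W))
    {A B : RM π σ (⊤ : T.Opens)} {ι : Type*} (U : ι → T.Opens) (hU : ⨆ i, U i = ⊤)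
    (hAB : ∀ i, Nonempty (Hm A B (U i))) : Nonempty (A.M ≅ B.M) := by
  choose φ hφ using fun i => exists_norm hσ (hAB i).some (le_top : U i ≤ ⊤) le_top
  have hx : ∀ x : X, ∃ (i : ι) (V : X.Opens), x ∈ V ∧ V ≤ π ⁻¹ᵁ U i ∧ ∃ s : Γ(A.M, V),
      IsGen A.M s := by
    intro x
    have h1 : π x ∈ ⨆ i, U i := by rw [hU]; trivial
    obtain ⟨i, hi⟩ := Opens.mem_iSup.mp h1
    obtain ⟨V, hxV, -, s, hs⟩ := A.gens x trivial
    exact ⟨i, V ⊓ π ⁻¹ᵁ U i, ⟨hxV, hi⟩, inf_le_right, res A.M inf_le_left s, hs.res _⟩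
  choose i V hxV hV s hs using hx
  have hVtop : ⨆ x, V x = ⊤ := by
    rw [eq_top_iff]
    intro x _
    exact Opens.mem_iSup.mpr ⟨x, hxV x⟩
  have hc : Compat s (fun x => (φ (i x)).f (V x) (hV x) (s x)) := by
    intro x y W hx hy r hr
    have hWx : W ≤ π ⁻¹ᵁ (U (i x) ⊓ U (i y)) := le_inf (hx.trans (hV x)) (hy.trans (hV y))
    have e1 := norm_unique hσ H ((hφ (i x)).restr (inf_le_left : U (i x) ⊓ U (i y) ≤ U (i x)))
      ((hφ (i y)).restr (inf_le_right : U (i x) ⊓ U (i y) ≤ U (i y))) W hWx (res A.M hy (s y))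
    change (φ (i x)).f W _ (res A.M hy (s y)) = (φ (i y)).f W _ (res A.M hy (s y)) at e1
    rw [← (φ (i y)).f_res (V y) W (hV y) hy, ← (φ (i x)).f_res (V x) W (hV x) hx, ← e1, hr,
      (φ (i x)).f_smul]
  obtain ⟨e, -⟩ := exists_iso_of_gen hVtop hs (fun x => (φ (i x)).f_gen (V x) (hV x) _ (hs x)) hc
  exact ⟨e⟩

end RM

end Fermat.Agent.Jac
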