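import Fermat.Agent.Jac.LocHom
import Fermat.Agent.Jac.RM

/-!
# Open immersions and homomorphisms over an open subset
-/

set_option autoImplicit false
set_option linter.unusedVariables false

universe u

open CategoryTheory CategoryTheory.Limits AlgebraicGeometry TopologicalSpace Opposite

namespace Fermat.Agent.Jac

variable {X X' X'' Y' : Scheme.{u}}

/-- functions on an open subset of the range of an open immersion -/
theorem bijective_pf_of_le (f : X' ⟶ X) [IsOpenImmersion f] {W : X.Opens}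
    (hW : W ≤ f.opensRange) : Function.Bijective (pf f W) := by
  have := f.isIso_app W hW
  exact ConcreteCategory.bijective_of_isIso (f.app W)

theorem exists_pre_eq (f : X' ⟶ X) [IsOpenImmersion f] {V : X.Opens} {W' : X'.Opens}
    (h : W' ≤ f ⁻¹ᵁ V) : ∃ W ≤ V, W' = f ⁻¹ᵁ W ∧ W ≤ f.opensRange := by
  refine ⟨f ''ᵁ W', ?_, (f.preimage_image_eq W').symm, ?_⟩
  · rintro _ ⟨x, hx, rfl⟩
    exact h hx
  · rintro _ ⟨x, hx, rfl⟩
    exact ⟨x, rfl⟩

/-- generators of the push-forward along an open immersion -/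
theorem isGen_push_iff (f : X' ⟶ X) [IsOpenImmersion f] {L : X'.Modules} {V : X.Opens}
    (hV : V ≤ f.opensRange) (s : Γ(L, f ⁻¹ᵁ V)) :
    IsGen ((Scheme.Modules.pushforward f).obj L)
      (show Γ((Scheme.Modules.pushforward f).obj L, V) from s) ↔ IsGen L s := by
  have key : ∀ (W : X.Opens) (h : W ≤ V),
      Function.Bijective (fun r : Γ(X, W) => (r • res ((Scheme.Modules.pushforward f).obj L) h
        (show Γ((Scheme.Modules.pushforward f).obj L, V) from s) :
          Γ((Scheme.Modules.pushforward f).obj L, W))) ↔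
      Function.Bijective (fun r : Γ(X', f ⁻¹ᵁ W) => r • res L (pre_mono f h) s) := by
    intro W h
    have h1 : (fun r : Γ(X, W) => (r • res ((Scheme.Modules.pushforward f).obj L) h
        (show Γ((Scheme.Modules.pushforward f).obj L, V) from s) :
          Γ((Scheme.Modules.pushforward f).obj L, W))) =
        (fun r : Γ(X', f ⁻¹ᵁ W) => r • res L (pre_mono f h) s) ∘ pf f W := by
      funext r
      rfl
    rw [h1]
    exact Function.Bijective.of_comp_iff _ (bijective_pf_of_le f (h.trans hV))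
  constructor
  · intro hs W' hW'
    obtain ⟨W, hW, rfl, -⟩ := exists_pre_eq f hW'
    exact (key W hW).1 (hs W hW)
  · intro hs W hW
    exact (key W hW).2 (hs _ (pre_mono f hW))

namespace LocHom

/-- the push-forward of a homomorphism -/
@[simps]
noncomputable def push (f : X' ⟶ X) {U' : X'.Opens} {M N : X'.Modules} (φ : LocHom U' M N)
    {U : X.Opens} (h : f ⁻¹ᵁ U ≤ U') : LocHom U ((Scheme.Modules.pushforward f).obj M)
      ((Scheme.Modules.pushforward f).obj N) where
  app V hV := φ.app (f ⁻¹ᵁ V) ((pre_mono f hV).trans h)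
  smul' V hV r m := φ.smul' (f ⁻¹ᵁ V) _ (pf f V r) m
  res' V W hV hW m := φ.res' (f ⁻¹ᵁ V) (f ⁻¹ᵁ W) _ (pre_mono f hW) m

theorem IsIso.push (f : X' ⟶ X) {U' : X'.Opens} {M N : X'.Modules} {φ : LocHom U' M N}
    (hφ : φ.IsIso) {U : X.Opens} (h : f ⁻¹ᵁ U ≤ U') : (φ.push f h).IsIso :=
  fun V hV => hφ (f ⁻¹ᵁ V) ((pre_mono f hV).trans h)

/-- comparison of the two iterated push-forwards in a commutative square -/
noncomputable def swap (p : X'' ⟶ X') (f : X' ⟶ X) (q : X'' ⟶ Y') (g : Y' ⟶ X) (e : p ≫ f = q ≫ g)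
    (U : X.Opens) (M : X''.Modules) :
    LocHom U ((Scheme.Modules.pushforward f).obj ((Scheme.Modules.pushforward p).obj M))
      ((Scheme.Modules.pushforward g).obj ((Scheme.Modules.pushforward q).obj M)) where
  app V hV := res M (show q ⁻¹ᵁ (g ⁻¹ᵁ V) ≤ p ⁻¹ᵁ (f ⁻¹ᵁ V) by
    rw [← Scheme.Hom.comp_preimage, ← Scheme.Hom.comp_preimage, e])
  smul' V hV r m := by
    have h : q ⁻¹ᵁ (g ⁻¹ᵁ V) ≤ p ⁻¹ᵁ (f ⁻¹ᵁ V) := by
      rw [← Scheme.Hom.comp_preimage, ← Scheme.Hom.comp_preimage, e]
    have h1 : rs h (pf p _ (pf f V r)) = pf q _ (pf g V r) := by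
      rw [← pf_comp, ← pf_comp, pf_congr e V r]
      exact rs_rs (X := X'') _ _ _ |>.trans (rs_refl _ _)
    have h2 := res_smul M h (pf p _ (pf f V r)) m
    rw [h1] at h2
    exact h2
  res' V W hV hW m := (res_res M _ _ _).trans (res_res M _ _ _).symm

theorem isIso_swap (p : X'' ⟶ X') (f : X' ⟶ X) (q : X'' ⟶ Y') (g : Y' ⟶ X) (e : p ≫ f = q ≫ g)
    (U : X.Opens) (M : X''.Modules) : (swap p f q g e U M).IsIso := by
  intro V hV
  have h : q ⁻¹ᵁ (g ⁻¹ᵁ V) = p ⁻¹ᵁ (f ⁻¹ᵁ V) := by
    rw [← Scheme.Hom.comp_preimage, ← Scheme.Hom.comp_preimage, e]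
  change Function.Bijective (res M h.le)
  constructor
  · intro m m' hm
    have := congrArg (res M h.ge) hm
    simpa using this
  · intro n
    exact ⟨res M h.ge n, by simp⟩

end LocHom

variable (f : X' ⟶ X) [IsOpenImmersion f]

/-- the unit of the adjunction is an isomorphism over the range -/
theorem isIso_adj {N : X.Modules} (hN : N.IsInvertible) :
    (LocHom.ofHom f.opensRange
      ((Scheme.Modules.pullbackPushforwardAdjunction f).unit.app N)).IsIso := by
  apply LocHom.isIso_of_gen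
  intro x hx
  obtain ⟨W, hxW, s, hs⟩ := exists_gen hN x
  refine ⟨W ⊓ f.opensRange, inf_le_right, res N inf_le_left s, ⟨hxW, hx⟩, hs.res _, ?_⟩
  exact (isGen_push_iff f inf_le_right _).2 ((hs.res inf_le_left).pullback f hN)

/-- for an isomorphism `f = 𝟙`-free form -/
theorem exists_locHom {N N' : X.Modules} (hN : N.IsInvertible) (hN' : N'.IsInvertible)
    (e : (Scheme.Modules.pullback f).obj N ≅ (Scheme.Modules.pullback f).obj N') :
    ∃ φ : LocHom f.opensRange N N', φ.IsIso := by
  let α := LocHom.ofHom f.opensRange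
    ((Scheme.Modules.pullbackPushforwardAdjunction f).unit.app N)
  let β := (LocHom.ofHom ⊤ e.hom).push f (le_top : f ⁻¹ᵁ f.opensRange ≤ ⊤)
  let γ := LocHom.ofHom f.opensRange
    ((Scheme.Modules.pullbackPushforwardAdjunction f).unit.app N')
  refine ⟨(α.comp β).comp (γ.inv (isIso_adj f hN')), ?_⟩
  exact LocHom.IsIso.comp (LocHom.IsIso.comp (isIso_adj f hN)
    (LocHom.IsIso.push f (LocHom.isIso_ofHom ⊤ e.hom) _)) (γ.isIso_inv (isIso_adj f hN'))

/-- isomorphisms after pullback to a common open subset -/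
theorem exists_locHom_push (p : X'' ⟶ X') [IsOpenImmersion p] (q : X'' ⟶ Y') [IsOpenImmersion q]
    (g : Y' ⟶ X) [IsOpenImmersion g] (e : p ≫ f = q ≫ g) {L : X'.Modules} {L' : Y'.Modules}
    (hL : L.IsInvertible) (hL' : L'.IsInvertible)
    (a : (Scheme.Modules.pullback p).obj L ≅ (Scheme.Modules.pullback q).obj L') :
    ∃ φ : LocHom (p ≫ f).opensRange ((Scheme.Modules.pushforward f).obj L)
      ((Scheme.Modules.pushforward g).obj L'), φ.IsIso := by
  have hp : f ⁻¹ᵁ (p ≫ f).opensRange ≤ p.opensRange := by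
    rintro x ⟨y, hy⟩
    refine ⟨y, f.isOpenEmbedding.injective ?_⟩
    simpa using hy
  have hq : g ⁻¹ᵁ (p ≫ f).opensRange ≤ q.opensRange := by
    rintro x ⟨y, hy⟩
    refine ⟨y, g.isOpenEmbedding.injective ?_⟩
    rw [e] at hy
    simpa using hy
  let α := (LocHom.ofHom p.opensRange
    ((Scheme.Modules.pullbackPushforwardAdjunction p).unit.app L)).push f hp
  let σ := LocHom.swap p f q g e (p ≫ f).opensRange ((Scheme.Modules.pullback p).obj L)
  let β := ((LocHom.ofHom ⊤ a.hom).push q (le_top : q ⁻¹ᵁ (⊤ : Y'.Opens) ≤ ⊤)).push g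
    (le_top : g ⁻¹ᵁ (p ≫ f).opensRange ≤ ⊤)
  let γ := (LocHom.ofHom q.opensRange
    ((Scheme.Modules.pullbackPushforwardAdjunction q).unit.app L')).push g hq
  have hγ : γ.IsIso := LocHom.IsIso.push g (isIso_adj q hL') hq
  refine ⟨((α.comp σ).comp β).comp (γ.inv hγ), ?_⟩
  refine LocHom.IsIso.comp (LocHom.IsIso.comp (LocHom.IsIso.comp ?_ ?_) ?_) (γ.isIso_inv hγ)
  · exact LocHom.IsIso.push f (isIso_adj p hL) hp
  · exact LocHom.isIso_swap p f q g e _ _
  · exact LocHom.IsIso.push g (LocHom.IsIso.push q (LocHom.isIso_ofHom ⊤ a.hom) _) _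

/-- recognition of the pullback along an open immersion -/
theorem exists_iso_of_locHom {N : X.Modules} {L : X'.Modules} (hN : N.IsInvertible)
    (φ : LocHom f.opensRange N ((Scheme.Modules.pushforward f).obj L)) (hφ : φ.IsIso) :
    Nonempty ((Scheme.Modules.pullback f).obj N ≅ L) := by
  have hle : ∀ V : X.Opens, f ⁻¹ᵁ V ≤ f ⁻¹ᵁ (V ⊓ f.opensRange) := fun V x hx =>
    ⟨hx, ⟨x, rfl⟩⟩
  obtain ⟨θ, hθ⟩ := exists_hom (M := N) (N := (Scheme.Modules.pushforward f).obj L)
    (fun V => (res L (hle V)).comp ((φ.app (V ⊓ f.opensRange) inf_le_right).comp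
      (res N inf_le_left)))
    (fun V r m => by
      have h1 := φ.app_smul (inf_le_right : V ⊓ f.opensRange ≤ f.opensRange) (rs inf_le_left r)
        (res N (inf_le_left : V ⊓ f.opensRange ≤ V) m)
      rw [← res_smul] at h1
      have h2 := congrArg (res L (hle V)) h1
      refine h2.trans ?_
      have h3 := res_smul L (hle V) (pf f _ (rs (inf_le_left : V ⊓ f.opensRange ≤ V) r))
        (φ.app (V ⊓ f.opensRange) inf_le_right (res N inf_le_left m))
      refine h3.trans ?_
      have h4 : rs (hle V) (pf f _ (rs (inf_le_left : V ⊓ f.opensRange ≤ V) r)) = pf f V r := by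
        rw [← rs_pf f (inf_le_left : V ⊓ f.opensRange ≤ V), rs_rs, rs_refl]
      rw [h4]
      rfl)
    (fun V W hW m => by
      have h1 := φ.app_res (inf_le_right : V ⊓ f.opensRange ≤ f.opensRange)
        (inf_le_inf_right f.opensRange hW) (res N (inf_le_left : V ⊓ f.opensRange ≤ V) m)
      rw [res_res] at h1
      change res L (hle W) (φ.app (W ⊓ f.opensRange) inf_le_right
        (res N inf_le_left (res N hW m))) =
        res L (pre_mono f hW) (res L (hle V) (φ.app (V ⊓ f.opensRange) inf_le_right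
          (res N inf_le_left m)))
      rw [res_res]
      refine (congrArg (res L (hle W)) h1).trans ?_
      exact (res_res L _ _ _).trans (res_res L _ _ _).symm)
  have hθ' : ∀ (V : X.Opens) (hV : V ≤ f.opensRange) (m : Γ(N, V)),
      ap θ V m = φ.app V hV m := by
    intro V hV m
    rw [hθ]
    change res L (hle V) (φ.app (V ⊓ f.opensRange) inf_le_right (res N inf_le_left m)) = _
    have h1 := φ.app_res hV (inf_le_left : V ⊓ f.opensRange ≤ V) m
    refine (congrArg (res L (hle V)) h1).trans ?_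
    exact (res_res L _ _ _).trans (res_refl L _ _)
  -- local generators
  choose W hxW s hs using exists_gen hN
  let U : X' → X.Opens := fun x => W (f x) ⊓ f.opensRange
  have hU : ⨆ x, f ⁻¹ᵁ U x = ⊤ := by
    rw [eq_top_iff]
    intro x _
    exact Opens.mem_iSup.mpr ⟨x, hxW (f x), ⟨x, rfl⟩⟩
  have hsU : ∀ x : X', IsGen N (res N (inf_le_left : U x ≤ W (f x)) (s (f x))) :=
    fun x => (hs (f x)).res _
  let β := ((Scheme.Modules.pullbackPushforwardAdjunction f).homEquiv N L).symm θ
  haveI : IsIso β := by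
    refine isIso_of_gen hU
      (s := fun x => ps f N (U x) (res N (inf_le_left : U x ≤ W (f x)) (s (f x))))
      (fun x => (hsU x).pullback f hN) β fun x => ?_
    have h1 := ap_homEquiv_symm f θ (res N (inf_le_left : U x ≤ W (f x)) (s (f x)))
    have h2 : ap β (f ⁻¹ᵁ U x) (ps f N (U x) (res N (inf_le_left : U x ≤ W (f x)) (s (f x)))) =
        φ.app (U x) inf_le_right (res N (inf_le_left : U x ≤ W (f x)) (s (f x))) :=
      h1.trans (hθ' (U x) inf_le_right _)
    rw [h2]
    exact (isGen_push_iff f inf_le_right _).1 ((LocHom.isGen_iff hφ inf_le_right _).2 (hsU x))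
  exact ⟨asIso β⟩

end Fermat.Agent.Jac
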