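import Fermat.Agent.Jac.PullCoc

/-!
# The Picard group of a scheme through cocycles
-/

set_option autoImplicit false

universe u

open CategoryTheory CategoryTheory.Limits AlgebraicGeometry TopologicalSpace Opposite

namespace Fermat.Agent.Jac

variable {X Y Z : Scheme.{u}}

/-- an isomorphism between two cocycles on possibly different coverings. -/
structure CocOn.IsoData {ι κ : Type u} (c : CocOn X ι) (d : CocOn X κ) where
  /-- `gen' k = a i k • gen i` -/
  a : ∀ i k, Γ(X, c.U i ⊓ d.U k)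
  isUnit : ∀ i k, IsUnit (a i k)
  left : ∀ (i j k) (W : X.Opens) (hi : W ≤ c.U i) (hj : W ≤ c.U j) (hk : W ≤ d.U k),
    c.t i j hi hj * rs (le_inf hj hk) (a j k) = rs (le_inf hi hk) (a i k)
  right : ∀ (i k l) (W : X.Opens) (hi : W ≤ c.U i) (hk : W ≤ d.U k) (hl : W ≤ d.U l),
    rs (le_inf hi hk) (a i k) * d.t k l hk hl = rs (le_inf hi hl) (a i l)

namespace CocOn

variable {ι κ : Type u}

theorem sec_ext_gen (d : CocOn X κ) (M : X.Modules) {V : X.Opens} {m m' : Γ(M, V)}
    (h : ∀ k, res M (inf_le_left : V ⊓ d.U k ≤ V) m = res M (inf_le_left : V ⊓ d.U k ≤ V) m') :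
    m = m' := sec_ext d.cover h

/-- isomorphism data give isomorphisms -/
theorem IsoData.exists_iso {c : CocOn X ι} {d : CocOn X κ} (D : IsoData c d) :
    ∃ e : c.toMod ≅ d.toMod, ∀ i k, res d.toMod (inf_le_right : c.U i ⊓ d.U k ≤ d.U k) (d.gen k) =
      D.a i k • res d.toMod (inf_le_left : c.U i ⊓ d.U k ≤ c.U i) (ap e.hom _ (c.gen i)) := by
  -- inverse units
  have hb : ∀ i k, ∃ b : Γ(X, c.U i ⊓ d.U k), D.a i k * b = 1 := fun i k =>
    (D.isUnit i k).exists_right_inv
  choose b hb using hb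
  have hb' : ∀ i k l (W : X.Opens) (hi : W ≤ c.U i) (hk : W ≤ d.U k) (hl : W ≤ d.U l),
      rs (le_inf hi hk) (b i k) = d.t k l hk hl * rs (le_inf hi hl) (b i l) := by
    intro i k l W hi hk hl
    have h1 := D.right i k l W hi hk hl
    have h2 := congrArg (rs (le_inf hi hk)) (hb i k)
    have h3 := congrArg (rs (le_inf hi hl)) (hb i l)
    rw [map_mul, map_one] at h2 h3
    rw [← h1] at h3
    calc rs (le_inf hi hk) (b i k) = rs (le_inf hi hk) (b i k) *
        (rs (le_inf hi hk) (D.a i k) * d.t k l hk hl * rs (le_inf hi hl) (b i l)) := by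
          rw [h3, mul_one]
      _ = (rs (le_inf hi hk) (D.a i k) * rs (le_inf hi hk) (b i k)) *
        (d.t k l hk hl * rs (le_inf hi hl) (b i l)) := by ring
      _ = _ := by rw [h2, one_mul]
  have hbl : ∀ i j k (W : X.Opens) (hi : W ≤ c.U i) (hj : W ≤ c.U j) (hk : W ≤ d.U k),
      rs (le_inf hj hk) (b j k) = c.t i j hi hj * rs (le_inf hi hk) (b i k) := by
    intro i j k W hi hj hk
    have h1 := D.left i j k W hi hj hk
    have h2 := congrArg (rs (le_inf hi hk)) (hb i k)
    have h3 := congrArg (rs (le_inf hj hk)) (hb j k)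
    rw [map_mul, map_one] at h2 h3
    rw [← h1] at h2
    calc rs (le_inf hj hk) (b j k) = rs (le_inf hj hk) (b j k) *
        (c.t i j hi hj * rs (le_inf hj hk) (D.a j k) * rs (le_inf hi hk) (b i k)) := by
          rw [h2, mul_one]
      _ = (rs (le_inf hj hk) (D.a j k) * rs (le_inf hj hk) (b j k)) *
        (c.t i j hi hj * rs (le_inf hi hk) (b i k)) := by ring
      _ = _ := by rw [h3, one_mul]
  -- the images of the generators
  have hn : ∀ i, ∃! n : Γ(d.toMod, c.U i), ∀ k,
      res d.toMod (inf_le_left : c.U i ⊓ d.U k ≤ c.U i) n =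
        b i k • res d.toMod (inf_le_right : c.U i ⊓ d.U k ≤ d.U k) (d.gen k) := by
    intro i
    refine existsUnique_glue d.toMod (fun k => c.U i ⊓ d.U k) (c.U i) (fun _ => inf_le_left)
      (iSup_inf_cover d.cover _) _ ?_
    intro k l
    rw [res_smul, res_smul, res_res, res_res]
    have hi : (c.U i ⊓ d.U k) ⊓ (c.U i ⊓ d.U l) ≤ c.U i := inf_le_left.trans inf_le_left
    have hk : (c.U i ⊓ d.U k) ⊓ (c.U i ⊓ d.U l) ≤ d.U k := inf_le_left.trans inf_le_right
    have hl : (c.U i ⊓ d.U k) ⊓ (c.U i ⊓ d.U l) ≤ d.U l := inf_le_right.trans inf_le_right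
    have h1 := hb' i k l _ hi hk hl
    rw [d.res_gen k l hk hl]
    change rs (le_inf hi hk) (b i k) • res d.toMod hk (d.gen k) =
      rs (le_inf hi hl) (b i l) • d.t k l hk hl • res d.toMod hk (d.gen k)
    rw [h1, ← mul_smul, mul_comm]
  choose n hn hnu using fun i => (hn i)
  have hn' : ∀ i k (W : X.Opens) (hi : W ≤ c.U i) (hk : W ≤ d.U k),
      res d.toMod hi (n i) = rs (le_inf hi hk) (b i k) • res d.toMod hk (d.gen k) := by
    intro i k W hi hk
    have h1 := congrArg (res d.toMod (le_inf hi hk)) (hn i k)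
    rwa [res_smul, res_res, res_res] at h1
  have hgen : ∀ i, IsGen d.toMod (n i) := by
    intro i V hV
    have hloc : ∀ k (W : X.Opens) (hW : W ≤ V) (hk : W ≤ d.U k), Function.Bijective
        (fun r : Γ(X, W) => r • res d.toMod (hW.trans hV) (n i)) := by
      intro k W hW hk
      have h1 : IsUnit (rs (le_inf (hW.trans hV) hk) (b i k)) :=
        (IsUnit.of_mul_eq_one_right _ (hb i k)).map _
      have h2 := ((d.isGen_gen k).res hk).smul_unit h1
      rw [← hn' i k W (hW.trans hV) hk] at h2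
      have h3 := h2 W le_rfl
      simpa only [res_refl] using h3
    constructor
    · intro r r' hrr
      refine eq_of_locallyO (fun k => V ⊓ d.U k) V (fun _ => inf_le_left)
        (iSup_inf_cover d.cover _) _ _ fun k => ?_
      apply (hloc k (V ⊓ d.U k) inf_le_left inf_le_right).1
      have h4 := congrArg (res d.toMod (inf_le_left : V ⊓ d.U k ≤ V)) hrr
      simpa only [res_smul, res_res] using h4
    · intro m
      have h5 : ∀ k, ∃ r : Γ(X, V ⊓ d.U k), r • res d.toMod (inf_le_left.trans hV) (n i) =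
          res d.toMod inf_le_left m := fun k =>
        (hloc k (V ⊓ d.U k) inf_le_left inf_le_right).2 _
      choose r hr using h5
      obtain ⟨r', hr', -⟩ := existsUnique_glueO (fun k => V ⊓ d.U k) V (fun _ => inf_le_left)
        (iSup_inf_cover d.cover _) r (by
          intro k l
          apply (hloc k _ (inf_le_left.trans inf_le_left) (inf_le_left.trans inf_le_right)).1
          have h6 := congrArg (res d.toMod
            (inf_le_left : (V ⊓ d.U k) ⊓ (V ⊓ d.U l) ≤ V ⊓ d.U k)) (hr k)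
          have h7 := congrArg (res d.toMod
            (inf_le_right : (V ⊓ d.U k) ⊓ (V ⊓ d.U l) ≤ V ⊓ d.U l)) (hr l)
          rw [res_smul, res_res, res_res] at h6 h7
          exact h6.trans h7.symm)
      refine ⟨r', ?_⟩
      apply d.sec_ext_gen
      intro k
      change res d.toMod _ (r' • res d.toMod hV (n i)) = _
      rw [res_smul, res_res, hr', hr]
  obtain ⟨e, he⟩ := c.exists_iso n hgen (by
    intro i j
    apply d.sec_ext_gen
    intro k
    rw [res_smul, res_res, res_res, rs_t]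
    have hi : (c.U i ⊓ c.U j) ⊓ d.U k ≤ c.U i := inf_le_left.trans inf_le_left
    have hj : (c.U i ⊓ c.U j) ⊓ d.U k ≤ c.U j := inf_le_left.trans inf_le_right
    have hk : (c.U i ⊓ c.U j) ⊓ d.U k ≤ d.U k := inf_le_right
    change res d.toMod hj (n j) = c.t i j hi hj • res d.toMod hi (n i)
    rw [hn' j k _ hj hk, hn' i k _ hi hk, hbl i j k _ hi hj hk, mul_smul])
  refine ⟨e, fun i k => ?_⟩
  rw [he i, hn i k, ← mul_smul, hb, one_smul]

/-- isomorphisms give isomorphism data -/
theorem exists_isoData {c : CocOn X ι} {d : CocOn X κ} (e : c.toMod ≅ d.toMod) :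
    ∃ D : IsoData c d, ∀ i k, res d.toMod (inf_le_right : c.U i ⊓ d.U k ≤ d.U k) (d.gen k) =
      D.a i k • res d.toMod (inf_le_left : c.U i ⊓ d.U k ≤ c.U i) (ap e.hom _ (c.gen i)) := by
  have hg : ∀ i, IsGen d.toMod (ap e.hom _ (c.gen i)) := fun i => (c.isGen_gen i).map e.hom
  have ha : ∀ i k, ∃ a : Γ(X, c.U i ⊓ d.U k), IsUnit a ∧
      res d.toMod (inf_le_right : c.U i ⊓ d.U k ≤ d.U k) (d.gen k) =
      a • res d.toMod (inf_le_left : c.U i ⊓ d.U k ≤ c.U i) (ap e.hom _ (c.gen i)) := fun i k =>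
    ((hg i).res inf_le_left).exists_unit ((d.isGen_gen k).res inf_le_right)
  choose a hau ha using ha
  have ha' : ∀ i k (W : X.Opens) (hi : W ≤ c.U i) (hk : W ≤ d.U k),
      res d.toMod hk (d.gen k) = rs (le_inf hi hk) (a i k) •
        res d.toMod hi (ap e.hom _ (c.gen i)) := by
    intro i k W hi hk
    have h1 := congrArg (res d.toMod (le_inf hi hk)) (ha i k)
    rwa [res_smul, res_res, res_res] at h1
  refine ⟨⟨a, hau, ?_, ?_⟩, ha⟩
  · intro i j k W hi hj hk
    apply (hg i).smul_inj hi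
    rw [← ha' i k W hi hk, mul_comm, mul_smul]
    have h2 := c.res_gen i j hi hj
    have h3 := congrArg (ap e.hom W) h2
    rw [ap_smul, ap_res, ap_res] at h3
    rw [← h3, ← ha' j k W hj hk]
  · intro i k l W hi hk hl
    apply (hg i).smul_inj hi
    rw [← ha' i l W hi hl, mul_comm, mul_smul, ← ha' i k W hi hk, ← d.res_gen k l hk hl]

theorem nonempty_iso_iff {c : CocOn X ι} {d : CocOn X κ} :
    Nonempty (c.toMod ≅ d.toMod) ↔ Nonempty (IsoData c d) := by
  constructor
  · rintro ⟨e⟩
    exact ⟨(exists_isoData e).choose⟩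
  · rintro ⟨D⟩
    exact ⟨D.exists_iso.choose⟩

end CocOn

end Fermat.Agent.Jac
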