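import Mathlib

/-!
# The valuative criterion with algebraically closed fraction fields
-/

set_option autoImplicit false
set_option linter.style.haveILetI false

noncomputable section

open CategoryTheory CategoryTheory.Limits AlgebraicGeometry

namespace Fermat.Agent.Jac

universe u

/-- existence part of the valuative criterion, algebraically closed fraction fields only -/
def ExistenceAC : MorphismProperty Scheme.{u} :=
  fun _ _ f ↦ ∀ S : ValuativeCommSq f, IsAlgClosed S.K → S.commSq.HasLift

/-- uniqueness part of the valuative criterion, algebraically closed fraction fields only -/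
def UniquenessAC : MorphismProperty Scheme.{u} :=
  fun _ _ f ↦ ∀ S : ValuativeCommSq f, IsAlgClosed S.K → Subsingleton S.commSq.LiftStruct

variable {X Y : Scheme.{u}} {f : X ⟶ Y}

open IsLocalRing

set_option backward.isDefEq.respectTransparency.types false in
theorem ExistenceAC.specializingMap (H : ExistenceAC f) : SpecializingMap f := by
  intro x' y h
  let K : Type u := AlgebraicClosure (X.residueField x')
  let j : (X.residueField x' : Type u) →+* K := algebraMap _ _
  let stalk_y_to_K : Y.presheaf.stalk y ⟶ CommRingCat.of K :=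
    Y.presheaf.stalkSpecializes h ≫ f.stalkMap x' ≫ X.residue x' ≫ CommRingCat.ofHom j
  obtain ⟨A, hA, hA_local⟩ := exists_factor_valuationRing (K := K) stalk_y_to_K.hom
  let stalk_y_to_A : Y.presheaf.stalk y ⟶ .of A :=
    CommRingCat.ofHom (stalk_y_to_K.hom.codRestrict _ hA)
  have w : (Spec.map (CommRingCat.ofHom j) ≫ X.fromSpecResidueField x') ≫ f =
      Spec.map (CommRingCat.ofHom (algebraMap A K)) ≫
        Spec.map stalk_y_to_A ≫ Y.fromSpecStalk y := by
    rw [Scheme.fromSpecResidueField, Category.assoc, Category.assoc,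
      ← Scheme.SpecMap_stalkMap_fromSpecStalk,
      ← Scheme.SpecMap_stalkSpecializes_fromSpecStalk h]
    simp_rw [← Spec.map_comp_assoc]
    rfl
  obtain ⟨l, hl₁, hl₂⟩ := (H { R := A, K := K, commSq := ⟨w⟩, .. }
    (inferInstanceAs (IsAlgClosed (AlgebraicClosure (X.residueField x'))))).exists_lift
  dsimp only at hl₁ hl₂
  refine ⟨l (closedPoint A), ?_, ?_⟩
  · have h1 : (Spec.map (CommRingCat.ofHom j) ≫ X.fromSpecResidueField x')
        (closedPoint K) = x' := by
      rw [Scheme.Hom.comp_apply, Scheme.fromSpecResidueField_apply]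
    have h2 : l (Spec.map (CommRingCat.ofHom (algebraMap A K)) (closedPoint K)) = x' := by
      rw [← Scheme.Hom.comp_apply]
      exact (congrArg (fun g : Spec (CommRingCat.of K) ⟶ X => g (closedPoint K)) hl₁).trans h1
    have h3 := (specializes_closedPoint (R := A)
      (Spec.map (CommRingCat.ofHom (algebraMap A K)) (closedPoint K))).map l.continuous
    rw [h2] at h3
    exact h3
  · rw [← Scheme.Hom.comp_apply, hl₂]
    simp only [Scheme.Hom.comp_base, TopCat.coe_comp, Function.comp_apply]
    have : Spec.map stalk_y_to_A (closedPoint A) = closedPoint (Y.presheaf.stalk y) :=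
      comap_closedPoint (S := A) (stalk_y_to_K.hom.codRestrict A.toSubring hA)
    rw [this, Y.fromSpecStalk_closedPoint]

instance stableUnderBaseChange_existenceAC : ExistenceAC.IsStableUnderBaseChange := by
  constructor
  intro Y' X X' Y Y'_to_Y f X'_to_X f' hP hf commSq hK
  let commSq' : ValuativeCommSq f :=
  { R := commSq.R
    K := commSq.K
    i₁ := commSq.i₁ ≫ X'_to_X
    i₂ := commSq.i₂ ≫ Y'_to_Y
    commSq := ⟨by simp only [Category.assoc, hP.w, reassoc_of% commSq.commSq.w]⟩ }
  obtain ⟨l₀, hl₁, hl₂⟩ := (hf commSq' hK).exists_lift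
  refine ⟨⟨⟨hP.lift l₀ commSq.i₂ (by simp_all only [commSq']), ?_, hP.lift_snd _ _ _⟩⟩⟩
  apply hP.hom_ext
  · simpa
  · simp only [Category.assoc]
    rw [hP.lift_snd]
    rw [commSq.commSq.w]

/-- The valuative criterion for universally closed morphisms. -/
theorem universallyClosed_of_existenceAC [QuasiCompact f] (hf : ExistenceAC f) :
    UniversallyClosed f := by
  rw [universallyClosed_eq_universallySpecializing]
  refine ⟨?_, ‹_›⟩
  have h1 : ExistenceAC ≤ (topologically @SpecializingMap).universally := by
    have h2 : (ExistenceAC : MorphismProperty Scheme.{u}).universally ≤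
        (topologically @SpecializingMap).universally :=
      MorphismProperty.universally_mono fun _ _ f hf => ExistenceAC.specializingMap hf
    rwa [MorphismProperty.IsStableUnderBaseChange.universally_eq] at h2
  exact h1 _ hf

/-- A torsion free algebra, local over a valuation ring, gives a surjective flat map. -/
theorem epi_specMap_of_valuationRing {R A : Type u} [CommRing R] [IsDomain R] [ValuationRing R]
    [CommRing A] [IsDomain A] [IsLocalRing A] [Algebra R A] [IsLocalHom (algebraMap R A)]
    (hinj : Function.Injective (algebraMap R A)) :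
    Epi (Spec.map (CommRingCat.ofHom (algebraMap R A))) := by
  haveI : Module.IsTorsionFree R A := by
    rw [Module.isTorsionFree_iff_algebraMap_injective]
    exact hinj
  haveI : Module.Flat R A := by
    rw [Module.Flat.flat_iff_torsion_eq_bot_of_isBezout, ← Submodule.isTorsionFree_iff_torsion_eq_bot]
    infer_instance
  haveI : Module.FaithfullyFlat R A := Module.FaithfullyFlat.of_flat_of_isLocalHom
  have h1 : Flat (Spec.map (CommRingCat.ofHom (algebraMap R A))) ∧
      Surjective (Spec.map (CommRingCat.ofHom (algebraMap R A))) := by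
    rw [flat_and_surjective_SpecMap_iff]
    exact (RingHom.faithfullyFlat_algebraMap_iff).mpr ‹_›
  haveI := h1.1
  haveI := h1.2
  exact Flat.epi_of_flat_of_surjective _

theorem UniquenessAC.uniqueness (H : UniquenessAC f) : ValuativeCriterion.Uniqueness f := by
  intro S
  constructor
  rintro ⟨l₁, hl₁, hl₁'⟩ ⟨l₂, hl₂, hl₂'⟩
  ext : 1
  dsimp at *
  let K : Type u := AlgebraicClosure S.K
  obtain ⟨A, hA, hA_local⟩ := exists_factor_valuationRing (K := K)
    ((algebraMap S.K K).comp (algebraMap S.R S.K))
  let ψ : S.R →+* A := ((algebraMap S.K K).comp (algebraMap S.R S.K)).codRestrict A.toSubring hA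
  let S' : ValuativeCommSq f :=
  { R := A
    K := K
    i₁ := Spec.map (CommRingCat.ofHom (algebraMap S.K K)) ≫ S.i₁
    i₂ := Spec.map (CommRingCat.ofHom ψ) ≫ S.i₂
    commSq := ⟨by
      rw [Category.assoc, S.commSq.w]
      simp only [← Spec.map_comp_assoc]
      rfl⟩ }
  have hS' : Subsingleton S'.commSq.LiftStruct :=
    H S' (inferInstanceAs (IsAlgClosed (AlgebraicClosure S.K)))
  have key : ∀ l : Spec (CommRingCat.of S.R) ⟶ X,
      Spec.map (CommRingCat.ofHom (algebraMap S.R S.K)) ≫ l = S.i₁ →
      Spec.map (CommRingCat.ofHom (algebraMap A K)) ≫ Spec.map (CommRingCat.ofHom ψ) ≫ l =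
        Spec.map (CommRingCat.ofHom (algebraMap S.K K)) ≫ S.i₁ := by
    intro l hl
    rw [← hl]
    simp only [← Spec.map_comp_assoc]
    rfl
  let L₁ : S'.commSq.LiftStruct := ⟨Spec.map (CommRingCat.ofHom ψ) ≫ l₁, key l₁ hl₁, by
    rw [Category.assoc, hl₁']⟩
  let L₂ : S'.commSq.LiftStruct := ⟨Spec.map (CommRingCat.ofHom ψ) ≫ l₂, key l₂ hl₂, by
    rw [Category.assoc, hl₂']⟩
  have h12 : L₁ = L₂ := Subsingleton.elim _ _
  have h3 : Spec.map (CommRingCat.ofHom ψ) ≫ l₁ = Spec.map (CommRingCat.ofHom ψ) ≫ l₂ :=
    congrArg CommSq.LiftStruct.l h12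
  letI : Algebra S.R A := ψ.toAlgebra
  haveI : IsLocalHom (algebraMap S.R A) := hA_local
  have hinj : Function.Injective (algebraMap S.R A) := by
    intro a b hab
    have h4 : algebraMap S.K K (algebraMap S.R S.K a) = algebraMap S.K K (algebraMap S.R S.K b) :=
      congrArg Subtype.val hab
    exact IsFractionRing.injective S.R S.K ((algebraMap S.K K).injective h4)
  haveI : Epi (Spec.map (CommRingCat.ofHom ψ)) := epi_specMap_of_valuationRing hinj
  exact (cancel_epi _).mp h3

/-- The valuative criterion for separated morphisms. -/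
theorem isSeparated_of_uniquenessAC [QuasiSeparated f] (hf : UniquenessAC f) : IsSeparated f :=
  IsSeparated.of_valuativeCriterion f hf.uniqueness

/-- The valuative criterion for proper morphisms. -/
theorem isProper_of_ac [QuasiCompact f] [QuasiSeparated f] [LocallyOfFiniteType f]
    (h1 : ExistenceAC f) (h2 : UniquenessAC f) : IsProper f := by
  haveI := universallyClosed_of_existenceAC h1
  haveI := isSeparated_of_uniquenessAC h2
  exact { }

end Fermat.Agent.Jac
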