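import Mathlib
import Fermat.Agent.Jac.Valu

/-!
# A scheme in which any two points lie in a common affine chart is separated
-/

set_option autoImplicit false
set_option linter.style.haveILetI false

noncomputable section

open CategoryTheory CategoryTheory.Limits AlgebraicGeometry

namespace Fermat.Agent.Jac

universe u

/-- The residue field of a valuation ring with algebraically closed fraction field is algebraically
closed. -/
theorem isAlgClosed_residueField (V K : Type u) [CommRing V] [IsDomain V] [ValuationRing V]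
    [Field K] [IsAlgClosed K] [Algebra V K] [IsFractionRing V K] :
    IsAlgClosed (IsLocalRing.ResidueField V) := by
  refine IsAlgClosed.of_exists_root _ fun p hp hirr => ?_
  obtain ⟨q, hq, hdeg, hmon⟩ := Polynomial.lifts_and_natDegree_eq_and_monic
    (f := IsLocalRing.residue V) (p := p)
    (Polynomial.mem_lifts_of_surjective IsLocalRing.residue_surjective p) hp
  have h1 : (q.map (algebraMap V K)).degree ≠ 0 := by
    rw [hmon.degree_map, Polynomial.degree_eq_natDegree hmon.ne_zero, hdeg]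
    have := hirr.natDegree_pos
    exact_mod_cast this.ne'
  obtain ⟨z, hz⟩ := IsAlgClosed.exists_root _ h1
  have h2 : IsIntegral V z := ⟨q, hmon, by
    rw [Polynomial.IsRoot.def, Polynomial.eval_map] at hz
    exact hz⟩
  obtain ⟨w, rfl⟩ := IsIntegrallyClosed.isIntegral_iff.mp h2
  refine ⟨IsLocalRing.residue V w, ?_⟩
  have h3 : q.eval w = 0 := by
    rw [Polynomial.IsRoot.def, Polynomial.eval_map_algebraMap, Polynomial.aeval_algebraMap_apply,
      map_eq_zero_iff _ (IsFractionRing.injective V K)] at hz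
    rwa [Polynomial.coe_aeval_eq_eval] at hz
  rw [← hq, Polynomial.eval_map, Polynomial.eval₂_at_apply, h3, map_zero]

theorem range_subset_of_closedPoint {V : Type u} [CommRing V] [IsLocalRing V] {X : Scheme.{u}}
    (l : Spec (CommRingCat.of V) ⟶ X) (U : X.Opens) (h : l (IsLocalRing.closedPoint V) ∈ U) :
    Set.range l ⊆ U := by
  rintro _ ⟨z, rfl⟩
  exact ((IsLocalRing.specializes_closedPoint (R := V) z).map l.continuous).mem_open U.2 h

theorem uniquenessAC_of_common_chart {X Y : Scheme.{u}} (f : X ⟶ Y)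
    {ι : Type*} (R : ι → CommRingCat.{u}) (a : ∀ i, Spec (R i) ⟶ X) [∀ i, IsOpenImmersion (a i)]
    (h : ∀ (κ : Type u) [Field κ] [IsAlgClosed κ] (p q : Spec (CommRingCat.of κ) ⟶ X),
      p ≫ f = q ≫ f → ∃ i, (∃ p', p' ≫ a i = p) ∧ ∃ q', q' ≫ a i = q) :
    UniquenessAC f := by
  intro S hK
  constructor
  rintro ⟨l₁, hl₁, hl₁'⟩ ⟨l₂, hl₂, hl₂'⟩
  ext : 1
  dsimp at *
  haveI := isAlgClosed_residueField S.R S.K
  let r : Spec (CommRingCat.of (IsLocalRing.ResidueField S.R)) ⟶ Spec (CommRingCat.of S.R) :=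
    Spec.map (CommRingCat.ofHom (IsLocalRing.residue S.R))
  have hr : r (IsLocalRing.closedPoint (IsLocalRing.ResidueField S.R)) =
      IsLocalRing.closedPoint S.R :=
    IsLocalRing.comap_closedPoint (IsLocalRing.residue S.R)
  obtain ⟨i, ⟨p', hp'⟩, ⟨q', hq'⟩⟩ := h (IsLocalRing.ResidueField S.R) (r ≫ l₁) (r ≫ l₂) (by
    rw [Category.assoc, Category.assoc, hl₁', hl₂'])
  have key : ∀ (l : Spec (CommRingCat.of S.R) ⟶ X)
      (p : Spec (CommRingCat.of (IsLocalRing.ResidueField S.R)) ⟶ Spec (R i)),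
      p ≫ a i = r ≫ l → ∃ m, m ≫ a i = l := by
    intro l p hp
    refine ⟨IsOpenImmersion.lift (a i) l ?_, IsOpenImmersion.lift_fac _ _ _⟩
    refine range_subset_of_closedPoint l (a i).opensRange ?_
    have h1 : l (IsLocalRing.closedPoint S.R) =
        a i (p (IsLocalRing.closedPoint (IsLocalRing.ResidueField S.R))) := by
      rw [← hr, ← Scheme.Hom.comp_apply, ← Scheme.Hom.comp_apply, hp]
    rw [h1]
    exact ⟨_, rfl⟩
  obtain ⟨m₁, rfl⟩ := key l₁ p' hp'
  obtain ⟨m₂, rfl⟩ := key l₂ q' hq'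
  congr 1
  have h2 : Spec.map (CommRingCat.ofHom (algebraMap S.R S.K)) ≫ m₁ =
      Spec.map (CommRingCat.ofHom (algebraMap S.R S.K)) ≫ m₂ := by
    rw [← cancel_mono (a i), Category.assoc, Category.assoc, hl₁, hl₂]
  obtain ⟨φ₁, rfl⟩ := Spec.map_surjective m₁
  obtain ⟨φ₂, rfl⟩ := Spec.map_surjective m₂
  rw [← Spec.map_comp, ← Spec.map_comp] at h2
  have h3 := Spec.map_injective h2
  congr 1
  ext z
  have h4 := congrArg (fun φ : R i ⟶ CommRingCat.of S.K => φ.hom z) h3
  exact IsFractionRing.injective S.R S.K h4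

/-- **Separatedness** from common charts. -/
theorem isSeparated_of_common_chart {X Y : Scheme.{u}} (f : X ⟶ Y) [QuasiSeparated f]
    {ι : Type*} (R : ι → CommRingCat.{u}) (a : ∀ i, Spec (R i) ⟶ X) [∀ i, IsOpenImmersion (a i)]
    (h : ∀ (κ : Type u) [Field κ] [IsAlgClosed κ] (p q : Spec (CommRingCat.of κ) ⟶ X),
      p ≫ f = q ≫ f → ∃ i, (∃ p', p' ≫ a i = p) ∧ ∃ q', q' ≫ a i = q) :
    IsSeparated f :=
  isSeparated_of_uniquenessAC (uniquenessAC_of_common_chart f R a h)

end Fermat.Agent.Jac
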