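import Fermat.Agent.Jac.ReprAff
import Fermat.Agent.Jac.SepChart

/-!
# Properties of a scheme representing a functor which is covered by finitely many affine charts
-/

set_option autoImplicit false

universe u w

open CategoryTheory CategoryTheory.Limits AlgebraicGeometry Opposite

noncomputable section

namespace Fermat.Agent.Jac

open ROver

section Repr

variable {k : Type u} [CommRing k] {F : (Over (Spec (CommRingCat.of k)))ᵒᵖ ⥤ Type w}
  {J : Over (Spec (CommRingCat.of k))} {ξ : F.obj (op J)}

/-- The valuative criterion (existence) in terms of the functor represented by `J`. -/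
theorem existenceAC_of_repr
    (univ : ∀ (T : Over (Spec (CommRingCat.of k))) (y : F.obj (op T)),
      ∃! g : T ⟶ J, F.map g.op ξ = y)
    (h : ∀ {V : Type u} [CommRing V] [IsDomain V] [ValuationRing V] [Algebra k V]
      {K : Type u} [Field K] [IsAlgClosed K] [Algebra k K] [Algebra V K] [IsScalarTower k V K]
      [IsFractionRing V K] (y : F.obj (op (specO k K))), ∃ z : F.obj (op (specO k V)),
        F.map (specMapO (IsScalarTower.toAlgHom k V K)).op z = y) :
    ExistenceAC J.hom := by
  intro S' hK
  let f : CommRingCat.of k ⟶ CommRingCat.of S'.R := Spec.preimage S'.i₂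
  have hf : Spec.map f = S'.i₂ := Spec.map_preimage _
  let : Algebra k S'.R := f.hom.toAlgebra
  let : Algebra k S'.K := ((algebraMap S'.R S'.K).comp f.hom).toAlgebra
  have : IsScalarTower k S'.R S'.K := IsScalarTower.of_algebraMap_eq fun _ => rfl
  have hV : (specO k S'.R).hom = S'.i₂ := hf
  have hK' : (specO k S'.K).hom =
      Spec.map (CommRingCat.ofHom (algebraMap S'.R S'.K)) ≫ S'.i₂ := by
    rw [← hf, ← Spec.map_comp]
    rfl
  let g₁ : specO k S'.K ⟶ J := Over.homMk S'.i₁ (by rw [hK']; exact S'.commSq.w)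
  obtain ⟨z, hz⟩ := h (V := S'.R) (K := S'.K) (F.map g₁.op ξ)
  obtain ⟨g, hg, -⟩ := univ _ z
  have key : specMapO (IsScalarTower.toAlgHom k S'.R S'.K) ≫ g = g₁ := by
    refine (univ _ (F.map g₁.op ξ)).unique ?_ rfl
    rw [map_comp', hg, hz]
  refine ⟨⟨⟨g.left, ?_, ?_⟩⟩⟩
  · exact congrArg CommaMorphism.left key
  · exact (Over.w g).trans hV

/-- The valuative criterion (uniqueness) in terms of the functor represented by `J`. -/
theorem uniquenessAC_of_repr
    (univ : ∀ (T : Over (Spec (CommRingCat.of k))) (y : F.obj (op T)),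
      ∃! g : T ⟶ J, F.map g.op ξ = y)
    (h : ∀ {V : Type u} [CommRing V] [IsDomain V] [ValuationRing V] [Algebra k V]
      {K : Type u} [Field K] [IsAlgClosed K] [Algebra k K] [Algebra V K] [IsScalarTower k V K]
      [IsFractionRing V K] (z z' : F.obj (op (specO k V))),
        F.map (specMapO (IsScalarTower.toAlgHom k V K)).op z =
          F.map (specMapO (IsScalarTower.toAlgHom k V K)).op z' → z = z') :
    UniquenessAC J.hom := by
  intro S' hK
  let f : CommRingCat.of k ⟶ CommRingCat.of S'.R := Spec.preimage S'.i₂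
  have hf : Spec.map f = S'.i₂ := Spec.map_preimage _
  let : Algebra k S'.R := f.hom.toAlgebra
  let : Algebra k S'.K := ((algebraMap S'.R S'.K).comp f.hom).toAlgebra
  have : IsScalarTower k S'.R S'.K := IsScalarTower.of_algebraMap_eq fun _ => rfl
  constructor
  rintro ⟨l₁, hl₁, hl₁'⟩ ⟨l₂, hl₂, hl₂'⟩
  ext : 1
  dsimp at *
  let g₁ : specO k S'.R ⟶ J := Over.homMk l₁ (hl₁'.trans hf.symm)
  let g₂ : specO k S'.R ⟶ J := Over.homMk l₂ (hl₂'.trans hf.symm)
  have h1 : specMapO (IsScalarTower.toAlgHom k S'.R S'.K) ≫ g₁ =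
      specMapO (IsScalarTower.toAlgHom k S'.R S'.K) ≫ g₂ := by
    ext1
    exact hl₁.trans hl₂.symm
  have h2 : F.map g₁.op ξ = F.map g₂.op ξ := by
    refine h (K := S'.K) _ _ ?_
    rw [← map_comp', ← map_comp', h1]
  have h3 : g₁ = g₂ := (univ _ (F.map g₂.op ξ)).unique h2 rfl
  exact congrArg CommaMorphism.left h3

/-- two geometric points in a common chart, in terms of the functor represented by `J` -/
theorem common_chart_of_repr
    (univ : ∀ (T : Over (Spec (CommRingCat.of k))) (y : F.obj (op T)),
      ∃! g : T ⟶ J, F.map g.op ξ = y)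
    {ι : Type*} {R : ι → Type u} [∀ i, CommRing (R i)] [∀ i, Algebra k (R i)]
    (x : ∀ i, F.obj (op (specO k (R i)))) (a : ∀ i, specO k (R i) ⟶ J)
    (ha : ∀ i, F.map (a i).op ξ = x i)
    (h : ∀ {K : Type u} [Field K] [IsAlgClosed K] [Algebra k K] (y y' : F.obj (op (specO k K))),
      ∃ (i : ι) (r r' : R i →ₐ[k] K), F.map (specMapO r).op (x i) = y ∧
        F.map (specMapO r').op (x i) = y')
    (κ : Type u) [Field κ] [IsAlgClosed κ] (p q : Spec (CommRingCat.of κ) ⟶ J.left)
    (hpq : p ≫ J.hom = q ≫ J.hom) :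
    ∃ i, (∃ p', p' ≫ (a i).left = p) ∧ ∃ q', q' ≫ (a i).left = q := by
  let f : CommRingCat.of k ⟶ CommRingCat.of κ := Spec.preimage (p ≫ J.hom)
  have hf : Spec.map f = p ≫ J.hom := Spec.map_preimage _
  let : Algebra k κ := f.hom.toAlgebra
  let P : specO k κ ⟶ J := Over.homMk p hf.symm
  let Q : specO k κ ⟶ J := Over.homMk q (hpq.symm.trans hf.symm)
  obtain ⟨i, r, r', hr, hr'⟩ := h (F.map P.op ξ) (F.map Q.op ξ)
  have h1 : specMapO r ≫ a i = P := by
    refine (univ _ (F.map P.op ξ)).unique ?_ rfl
    rw [map_comp', ha, hr]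
  have h2 : specMapO r' ≫ a i = Q := by
    refine (univ _ (F.map Q.op ξ)).unique ?_ rfl
    rw [map_comp', ha, hr']
  exact ⟨i, ⟨_, congrArg CommaMorphism.left h1⟩, ⟨_, congrArg CommaMorphism.left h2⟩⟩

end Repr

section Cover

variable {X Y : Scheme.{u}} (f : X ⟶ Y) {ι : Type u} {U : ι → Scheme.{u}} (a : ∀ i, U i ⟶ X)
  [∀ i, IsOpenImmersion (a i)]

/-- the open cover given by charts -/
def chartCover (ha : ∀ z : X, ∃ (i : ι) (v : U i), a i v = z) : X.OpenCover where
  I₀ := ι
  X i := U i
  f i := a i
  mem₀ := by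
    rw [Scheme.presieve₀_mem_precoverage_iff]
    exact ⟨fun x => ha x, inferInstance⟩

variable (ha : ∀ z : X, ∃ (i : ι) (v : U i), a i v = z)

include ha in
theorem compactSpace_of_charts [Finite ι] [∀ i, CompactSpace (U i)] : CompactSpace X := by
  have : Finite (chartCover a ha).I₀ := inferInstanceAs (Finite ι)
  have : ∀ i, CompactSpace ((chartCover a ha).X i) := fun i => inferInstanceAs (CompactSpace (U i))
  exact (chartCover a ha).compactSpace

include ha in
theorem locallyOfFiniteType_of_charts (h : ∀ i, LocallyOfFiniteType (a i ≫ f)) :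
    LocallyOfFiniteType f :=
  (IsZariskiLocalAtSource.iff_of_openCover (P := @LocallyOfFiniteType) (chartCover a ha)).2 h

include ha in
theorem smooth_of_charts (h : ∀ i, Smooth (a i ≫ f)) : Smooth f :=
  (IsZariskiLocalAtSource.iff_of_openCover (P := @Smooth) (chartCover a ha)).2 h

end Cover

section Final

variable {k : Type u} [Field k] {F : (Over (Spec (CommRingCat.of k)))ᵒᵖ ⥤ Type w}
  {J : Over (Spec (CommRingCat.of k))} {ξ : F.obj (op J)}
  {ι : Type u} {R : ι → Type u} [∀ i, CommRing (R i)] [∀ i, Algebra k (R i)]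
  (a : ∀ i, specO k (R i) ⟶ J)

/-- smoothness from charts -/
theorem smooth_of_repr (ha1 : ∀ i, IsOpenImmersion (a i).left)
    (ha2 : ∀ z : J.left, ∃ (i : ι) (v : (specO k (R i)).left), (a i).left v = z)
    (hR : ∀ i, Algebra.Smooth k (R i)) : Smooth J.hom := by
  refine smooth_of_charts (U := fun i => (specO k (R i)).left) J.hom (fun i => (a i).left) ha2
    fun i => ?_
  rw [Over.w]
  change Smooth (Spec.map (CommRingCat.ofHom (algebraMap k (R i))))
  rw [HasRingHomProperty.Spec_iff (P := @Smooth)]
  exact (RingHom.smooth_algebraMap).2 (hR i)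

/-- properness from charts and the valuative criterion -/
theorem isProper_of_repr'
    (univ : ∀ (T : Over (Spec (CommRingCat.of k))) (y : F.obj (op T)),
      ∃! g : T ⟶ J, F.map g.op ξ = y)
    (ha1 : ∀ i, IsOpenImmersion (a i).left)
    (ha2 : ∀ z : J.left, ∃ (i : ι) (v : (specO k (R i)).left), (a i).left v = z)
    (hι : Finite ι) (hR : ∀ i, Algebra.FiniteType k (R i)) (hS : UniquenessAC J.hom)
    (hU : ∀ {V : Type u} [CommRing V] [IsDomain V] [ValuationRing V] [Algebra k V]
      {K : Type u} [Field K] [IsAlgClosed K] [Algebra k K] [Algebra V K] [IsScalarTower k V K]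
      [IsFractionRing V K] (y : F.obj (op (specO k K))), ∃ z : F.obj (op (specO k V)),
        F.map (specMapO (IsScalarTower.toAlgHom k V K)).op z = y) : IsProper J.hom := by
  have h1 : LocallyOfFiniteType J.hom := by
    refine locallyOfFiniteType_of_charts (U := fun i => (specO k (R i)).left) J.hom
      (fun i => (a i).left) ha2 fun i => ?_
    rw [Over.w]
    change LocallyOfFiniteType (Spec.map (CommRingCat.ofHom (algebraMap k (R i))))
    rw [HasRingHomProperty.Spec_iff (P := @LocallyOfFiniteType)]
    exact RingHom.finiteType_algebraMap.2 (hR i)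
  have h2 : IsLocallyNoetherian J.left := by
    exact LocallyOfFiniteType.isLocallyNoetherian J.hom
  have h3 : CompactSpace J.left := by
    have : ∀ i, CompactSpace (specO k (R i)).left := fun i =>
      inferInstanceAs (CompactSpace (Spec (CommRingCat.of (R i))))
    exact compactSpace_of_charts (U := fun i => (specO k (R i)).left) (fun i => (a i).left) ha2
  have h4 : QuasiCompact J.hom := by
    rw [quasiCompact_iff_compactSpace]
    exact h3
  have h5 : QuasiSeparated J.hom := by
    rw [quasiSeparated_iff_quasiSeparatedSpace]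
    infer_instance
  have h6 : UniversallyClosed J.hom := universallyClosed_of_existenceAC
    (existenceAC_of_repr univ hU)
  have h7 : IsSeparated J.hom := isSeparated_of_uniquenessAC hS
  exact { }

/-- properness from charts and the valuative criterion -/
theorem isProper_of_repr
    (univ : ∀ (T : Over (Spec (CommRingCat.of k))) (y : F.obj (op T)),
      ∃! g : T ⟶ J, F.map g.op ξ = y)
    (ha1 : ∀ i, IsOpenImmersion (a i).left)
    (ha2 : ∀ z : J.left, ∃ (i : ι) (v : (specO k (R i)).left), (a i).left v = z)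
    (x : ∀ i, F.obj (op (specO k (R i)))) (ha3 : ∀ i, F.map (a i).op ξ = x i)
    (hι : Finite ι) (hR : ∀ i, Algebra.FiniteType k (R i))
    (hS : ∀ {K : Type u} [Field K] [IsAlgClosed K] [Algebra k K] (y y' : F.obj (op (specO k K))),
      ∃ (i : ι) (r r' : R i →ₐ[k] K), F.map (specMapO r).op (x i) = y ∧
        F.map (specMapO r').op (x i) = y')
    (hU : ∀ {V : Type u} [CommRing V] [IsDomain V] [ValuationRing V] [Algebra k V]
      {K : Type u} [Field K] [IsAlgClosed K] [Algebra k K] [Algebra V K] [IsScalarTower k V K]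
      [IsFractionRing V K] (y : F.obj (op (specO k K))), ∃ z : F.obj (op (specO k V)),
        F.map (specMapO (IsScalarTower.toAlgHom k V K)).op z = y) : IsProper J.hom :=
  isProper_of_repr' a univ ha1 ha2 hι hR (@uniquenessAC_of_common_chart _ _ J.hom _
    (fun i => CommRingCat.of (R i)) (fun i => (a i).left) ha1
    (common_chart_of_repr univ x a ha3 hS)) hU

end Final

end Fermat.Agent.Jac
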