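import Fermat.Agent.Jac.CocGen

/-!
# Pullback of invertible sheaves in terms of cocycles
-/

set_option autoImplicit false

universe u

open CategoryTheory CategoryTheory.Limits AlgebraicGeometry TopologicalSpace Opposite

namespace Fermat.Agent.Jac

variable {X Y : Scheme.{u}}

/-- pullback of functions -/
noncomputable def pf (f : X ⟶ Y) (U : Y.Opens) : Γ(Y, U) →+* Γ(X, f ⁻¹ᵁ U) := (f.app U).hom

theorem pre_mono (f : X ⟶ Y) {U V : Y.Opens} (h : V ≤ U) : f ⁻¹ᵁ V ≤ f ⁻¹ᵁ U :=
  fun _ hx => h hx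

theorem rs_pf (f : X ⟶ Y) {U V : Y.Opens} (h : V ≤ U) (r : Γ(Y, U)) :
    rs (pre_mono f h) (pf f U r) = pf f V (rs h r) :=
  congr($(f.naturality (homOfLE h).op) r).symm

theorem push_smul (f : X ⟶ Y) (M : X.Modules) {U : Y.Opens} (r : Γ(Y, U))
    (m : Γ(M, f ⁻¹ᵁ U)) : (r • (show Γ((Scheme.Modules.pushforward f).obj M, U) from m) :
      Γ((Scheme.Modules.pushforward f).obj M, U)) = (pf f U r • m : Γ(M, f ⁻¹ᵁ U)) := rfl

theorem push_res (f : X ⟶ Y) (M : X.Modules) {U V : Y.Opens} (h : V ≤ U)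
    (m : Γ(M, f ⁻¹ᵁ U)) : res ((Scheme.Modules.pushforward f).obj M) h m =
      res M (pre_mono f h) m := rfl

theorem push_ap (f : X ⟶ Y) {M N : X.Modules} (φ : M ⟶ N) {U : Y.Opens}
    (m : Γ(M, f ⁻¹ᵁ U)) : ap ((Scheme.Modules.pushforward f).map φ) U m = ap φ (f ⁻¹ᵁ U) m := rfl

/-- pullback of sections -/
noncomputable def ps (f : X ⟶ Y) (N : Y.Modules) (U : Y.Opens) :
    Γ(N, U) →+ Γ((Scheme.Modules.pullback f).obj N, f ⁻¹ᵁ U) :=
  ap ((Scheme.Modules.pullbackPushforwardAdjunction f).unit.app N) U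

theorem ps_smul (f : X ⟶ Y) (N : Y.Modules) {U : Y.Opens} (r : Γ(Y, U)) (s : Γ(N, U)) :
    ps f N U (r • s) = pf f U r • ps f N U s :=
  ap_smul ((Scheme.Modules.pullbackPushforwardAdjunction f).unit.app N) r s

theorem ps_res (f : X ⟶ Y) (N : Y.Modules) {U V : Y.Opens} (h : V ≤ U) (s : Γ(N, U)) :
    ps f N V (res N h s) = res _ (pre_mono f h) (ps f N U s) :=
  ap_res ((Scheme.Modules.pullbackPushforwardAdjunction f).unit.app N) h s

theorem ps_ap (f : X ⟶ Y) {N N' : Y.Modules} (φ : N ⟶ N') {U : Y.Opens} (s : Γ(N, U)) :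
    ps f N' U (ap φ U s) = ap ((Scheme.Modules.pullback f).map φ) (f ⁻¹ᵁ U) (ps f N U s) := by
  have h := (Scheme.Modules.pullbackPushforwardAdjunction f).unit.naturality φ
  exact congr(ap $h U s)

/-- the morphism adjoint to `θ` -/
theorem ap_homEquiv_symm (f : X ⟶ Y) {N : Y.Modules} {P : X.Modules}
    (θ : N ⟶ (Scheme.Modules.pushforward f).obj P) {U : Y.Opens} (s : Γ(N, U)) :
    ap (((Scheme.Modules.pullbackPushforwardAdjunction f).homEquiv N P).symm θ) (f ⁻¹ᵁ U)
      (ps f N U s) = ap θ U s := by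
  have h : (Scheme.Modules.pullbackPushforwardAdjunction f).unit.app N ≫
    (Scheme.Modules.pushforward f).map
      (((Scheme.Modules.pullbackPushforwardAdjunction f).homEquiv N P).symm θ) = θ :=
    ((Scheme.Modules.pullbackPushforwardAdjunction f).homEquiv_unit N P _).symm.trans
      (((Scheme.Modules.pullbackPushforwardAdjunction f).homEquiv N P).apply_symm_apply θ)
  exact congr(ap $h U s)

theorem cover_pre (f : X ⟶ Y) {ι : Type*} {U : ι → Y.Opens} (hU : ⨆ i, U i = ⊤) :
    ⨆ i, f ⁻¹ᵁ U i = ⊤ := by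
  rw [eq_top_iff]
  intro x _
  have hx : f x ∈ ⨆ i, U i := by rw [hU]; trivial
  obtain ⟨i, hi⟩ := Opens.mem_iSup.mp hx
  exact Opens.mem_iSup.mpr ⟨i, hi⟩

/-- **Recognition of pullbacks of invertible sheaves.** -/
theorem exists_pullback_iso (f : X ⟶ Y) {N : Y.Modules} {ι : Type*} {U : ι → Y.Opens}
    (hU : ⨆ i, U i = ⊤) {s : ∀ i, Γ(N, U i)} (hs : ∀ i, IsGen N (s i)) {N' : X.Modules}
    (s' : ∀ i, Γ(N', f ⁻¹ᵁ U i)) (hs' : ∀ i, IsGen N' (s' i))
    (h : ∀ i j (r : Γ(Y, U i ⊓ U j)), res N inf_le_right (s j) = r • res N inf_le_left (s i) →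
      res N' (pre_mono f (inf_le_right : U i ⊓ U j ≤ U j)) (s' j) =
        pf f _ r • res N' (pre_mono f (inf_le_left : U i ⊓ U j ≤ U i)) (s' i)) :
    ∃ e : (Scheme.Modules.pullback f).obj N ≅ N',
      ∀ i, ap e.hom (f ⁻¹ᵁ U i) (ps f N (U i) (s i)) = s' i := by
  -- the transition functions
  have hg : ∀ i j, ∃ r : Γ(Y, U i ⊓ U j), res N inf_le_right (s j) = r • res N inf_le_left (s i) :=
    fun i j => (hs i).exists_smul inf_le_left _
  choose g hg using hg
  -- the morphism `θ`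
  have hc : Compat (N := (Scheme.Modules.pushforward f).obj N') s
      (fun i => (s' i : Γ((Scheme.Modules.pushforward f).obj N', U i))) := by
    intro i j W hi hj r hr
    have h1 : r = rs (le_inf hi hj) (g i j) := by
      apply (hs i).smul_inj hi
      rw [← hr]
      have := congrArg (res N (le_inf hi hj)) (hg i j)
      rwa [res_smul, res_res, res_res] at this
    have h2 := congrArg (res N' (pre_mono f (le_inf hi hj))) (h i j (g i j) (hg i j))
    rw [res_smul, res_res, res_res, rs_pf f (le_inf hi hj), ← h1] at h2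
    exact h2
  obtain ⟨θ, hθ⟩ := exists_hom_of_gen hU hs hc
  -- the universal property
  have huniv : ∀ (P : X.Modules) (φ : N ⟶ (Scheme.Modules.pushforward f).obj P),
      ∃ ψ : N' ⟶ P, θ ≫ (Scheme.Modules.pushforward f).map ψ = φ := by
    intro P φ
    let p : ∀ i, Γ(P, f ⁻¹ᵁ U i) := fun i => ap φ (U i) (s i)
    have hc' : Compat s' p := by
      intro i j W hi hj r hr
      have hW : W ≤ f ⁻¹ᵁ (U i ⊓ U j) := le_inf hi hj
      have h1 : r = rs hW (pf f _ (g i j)) := by
        apply (hs' i).smul_inj hi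
        rw [← hr]
        have := congrArg (res N' hW) (h i j (g i j) (hg i j))
        rwa [res_smul, res_res, res_res] at this
      have h3 := congrArg (ap φ (U i ⊓ U j)) (hg i j)
      rw [ap_smul, ap_res, ap_res] at h3
      have h4 : res P (pre_mono f (inf_le_right : U i ⊓ U j ≤ U j)) (p j) =
        pf f _ (g i j) • res P (pre_mono f (inf_le_left : U i ⊓ U j ≤ U i))
          (p i) := h3
      have h5 := congrArg (res P hW) h4
      rw [res_smul, res_res, res_res, ← h1] at h5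
      exact h5
    obtain ⟨ψ, hψ⟩ := exists_hom_of_gen (cover_pre f hU) hs' hc'
    refine ⟨ψ, hom_ext_of_gen hU hs fun i => ?_⟩
    rw [ap_comp, hθ]
    exact hψ i
  have huniq : ∀ (P : X.Modules) (ψ ψ' : N' ⟶ P), θ ≫ (Scheme.Modules.pushforward f).map ψ =
      θ ≫ (Scheme.Modules.pushforward f).map ψ' → ψ = ψ' := by
    intro P ψ ψ' hψ
    refine hom_ext_of_gen (cover_pre f hU) hs' fun i => ?_
    have := congr(ap $hψ (U i) (s i))
    rw [ap_comp, ap_comp, hθ] at this
    exact this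
  let adj := Scheme.Modules.pullbackPushforwardAdjunction f
  let α : (Scheme.Modules.pullback f).obj N ⟶ N' := (adj.homEquiv N N').symm θ
  have hα : adj.unit.app N ≫ (Scheme.Modules.pushforward f).map α = θ :=
    (adj.homEquiv_unit N N' _).symm.trans ((adj.homEquiv N N').apply_symm_apply θ)
  obtain ⟨β, hβ⟩ := huniv _ (adj.unit.app N)
  have h1 : α ≫ β = 𝟙 _ := by
    apply (adj.homEquiv _ _).injective
    refine (adj.homEquiv_unit _ _ _).trans (Eq.trans ?_ (adj.homEquiv_unit _ _ _).symm)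
    have e1 : (Scheme.Modules.pushforward f).map (α ≫ β) =
      (Scheme.Modules.pushforward f).map α ≫ (Scheme.Modules.pushforward f).map β :=
      CategoryTheory.Functor.map_comp _ _ _
    have e2 : (Scheme.Modules.pushforward f).map (𝟙 ((Scheme.Modules.pullback f).obj N)) = 𝟙 _ :=
      CategoryTheory.Functor.map_id _ _
    rw [e1, e2, ← Category.assoc, hα, hβ]
    exact (Category.comp_id _).symm
  have h2 : β ≫ α = 𝟙 _ := by
    apply huniq
    have e1 : (Scheme.Modules.pushforward f).map (β ≫ α) =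
      (Scheme.Modules.pushforward f).map β ≫ (Scheme.Modules.pushforward f).map α :=
      CategoryTheory.Functor.map_comp _ _ _
    have e2 : (Scheme.Modules.pushforward f).map (𝟙 N') = 𝟙 _ :=
      CategoryTheory.Functor.map_id _ _
    rw [e1, e2, ← Category.assoc, hβ, hα]
    exact (Category.comp_id _).symm
  refine ⟨⟨α, β, h1, h2⟩, fun i => ?_⟩
  change ap α (f ⁻¹ᵁ U i) (ps f N (U i) (s i)) = s' i
  rw [← hθ i]
  exact ap_homEquiv_symm f θ (s i)

namespace CocOn

variable {ι : Type u}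

/-- the pullback of a cocycle. -/
noncomputable def pullback (f : X ⟶ Y) (c : CocOn Y ι) : CocOn X ι where
  U i := f ⁻¹ᵁ c.U i
  cover := cover_pre f c.cover
  g i j := pf f _ (c.g i j)
  g_self i := by rw [c.g_self, map_one]; rfl
  g_mul i j k W hi hj hk := by
    have h : W ≤ f ⁻¹ᵁ (c.U i ⊓ c.U j ⊓ c.U k) := le_inf (le_inf hi hj) hk
    have h1 := c.g_mul i j k (c.U i ⊓ c.U j ⊓ c.U k) (inf_le_left.trans inf_le_left)
      (inf_le_left.trans inf_le_right) inf_le_right
    have h2 := congrArg (fun z => rs h (pf f _ z)) h1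
    simp only [map_mul, ← rs_pf, rs_rs] at h2
    exact h2

theorem pullback_t (f : X ⟶ Y) (c : CocOn Y ι) (i j : ι) {W : Y.Opens} (hi : W ≤ c.U i)
    (hj : W ≤ c.U j) : (c.pullback f).t i j (pre_mono f hi) (pre_mono f hj) =
      pf f W (c.t i j hi hj) := rs_pf f (le_inf hi hj) (c.g i j)

/-- the pullback of the sheaf of a cocycle is the sheaf of the pullback. -/
theorem exists_pullback_iso (f : X ⟶ Y) (c : CocOn Y ι) :
    ∃ e : (Scheme.Modules.pullback f).obj c.toMod ≅ (c.pullback f).toMod,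
      ∀ i, ap e.hom (f ⁻¹ᵁ c.U i) (ps f c.toMod (c.U i) (c.gen i)) = (c.pullback f).gen i := by
  refine Jac.exists_pullback_iso f c.cover (fun i => c.isGen_gen i)
    (fun i => (c.pullback f).gen i) (fun i => (c.pullback f).isGen_gen i) ?_
  intro i j r hr
  have h1 : r = c.t i j inf_le_left inf_le_right := by
    apply (c.isGen_gen i).smul_inj inf_le_left
    rw [← hr, ← c.res_gen]
  rw [h1, ← pullback_t]
  exact (c.pullback f).res_gen i j _ _

end CocOn

theorem isGen_ps_family (f : X ⟶ Y) {N : Y.Modules} {ι : Type u} {U : ι → Y.Opens}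
    (hU : ⨆ i, U i = ⊤) {s : ∀ i, Γ(N, U i)} (hs : ∀ i, IsGen N (s i)) (i : ι) :
    IsGen ((Scheme.Modules.pullback f).obj N) (ps f N (U i) (s i)) := by
  let c := CocOn.ofGen N hU s hs
  obtain ⟨e, he⟩ := CocOn.exists_pullback_iso f c
  obtain ⟨e', he'⟩ := CocOn.ofGen_iso N hU s hs
  have h2 : IsGen ((Scheme.Modules.pullback f).obj c.toMod)
      (ps f c.toMod (c.U i) (c.gen i)) := by
    have h3 : ap e.inv (f ⁻¹ᵁ c.U i) (ap e.hom (f ⁻¹ᵁ c.U i) (ps f c.toMod (c.U i) (c.gen i))) =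
        ps f c.toMod (c.U i) (c.gen i) := by
      rw [← ap_comp, e.hom_inv_id, ap_id]
    rw [← h3, he i]
    exact ((c.pullback f).isGen_gen i).map e.inv
  have h1 : ps f N (U i) (s i) = ap ((Scheme.Modules.pullback f).map e'.hom) (f ⁻¹ᵁ c.U i)
      (ps f c.toMod (c.U i) (c.gen i)) := by
    rw [← ps_ap]
    exact congrArg (ps f N (U i)) (he' i).symm
  rw [h1]
  exact h2.map _

/-- the pullback of a generator is a generator -/
theorem IsGen.pullback (f : X ⟶ Y) {N : Y.Modules} (hN : N.IsInvertible) {V : Y.Opens}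
    {s : Γ(N, V)} (hs : IsGen N s) : IsGen ((Scheme.Modules.pullback f).obj N) (ps f N V s) := by
  choose U hxU t ht using exists_gen hN
  let U' : Option Y → Y.Opens := fun o => o.elim V U
  have hU' : ⨆ o, U' o = ⊤ := by
    rw [eq_top_iff]
    intro x _
    exact Opens.mem_iSup.mpr ⟨some x, hxU x⟩
  let s' : ∀ o, Γ(N, U' o) := fun o => match o with
    | none => s
    | some x => t x
  have hs' : ∀ o, IsGen N (s' o) := by
    rintro (_ | x)
    · exact hs
    · exact ht x
  exact isGen_ps_family f hU' hs' none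

end Fermat.Agent.Jac
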