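import Fermat.Agent.Jac.RM
import Fermat.Agent.Jac.GlueMod
import Fermat.Agent.Jac.OpenIm

/-!
# Gluing of rigidified invertible sheaves
-/

set_option autoImplicit false
set_option linter.unusedVariables false

universe u

open CategoryTheory CategoryTheory.Limits AlgebraicGeometry TopologicalSpace Opposite

noncomputable section

namespace Fermat.Agent.Jac

variable {X T : Scheme.{u}} {π : X ⟶ T} {σ : T ⟶ X}

namespace RM

variable {U U' U'' : T.Opens}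

/-- isomorphisms on sections -/
def Hm.ofLoc {A : RM π σ U} {B : RM π σ U'} {W : T.Opens} (φ : LocHom (π ⁻¹ᵁ W) A.M B.M)
    (hφ : φ.IsIso) : Hm A B W where
  f := φ.app
  f_smul V hV r m := φ.app_smul hV r m
  f_res V V' hV h m := φ.app_res hV h m
  f_gen V hV s hs := (LocHom.isGen_iff hφ hV s).2 hs

/-- isomorphisms on sections -/
def Hm.toLoc {A : RM π σ U} {B : RM π σ U'} {W : T.Opens} (φ : Hm A B W) :
    LocHom (π ⁻¹ᵁ W) A.M B.M where
  app := φ.f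
  smul' V hV r m := φ.f_smul V hV r m
  res' V V' hV h m := φ.f_res V V' hV h m

theorem Hm.isIso_toLoc {A : RM π σ U} {B : RM π σ U'} {W : T.Opens} (φ : Hm A B W)
    (h : W ≤ U) : φ.toLoc.IsIso := by
  refine φ.toLoc.isIso_of_gen fun x hx => ?_
  obtain ⟨V, hxV, hV, s, hs⟩ := A.gens x (pre_mono π h hx)
  exact ⟨V ⊓ π ⁻¹ᵁ W, inf_le_right, res A.M inf_le_left s, ⟨hxV, hx⟩, hs.res _,
    φ.f_gen _ inf_le_right _ (hs.res _)⟩

variable (σ) in
/-- functions on `T` as a module on `X` -/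
abbrev pshU : X.Modules := (Scheme.Modules.pushforward σ).obj (unitMod T)

/-- the rigidification as a homomorphism -/
def valLoc (A : RM π σ U) : LocHom (π ⁻¹ᵁ U) A.M (pshU σ) where
  app V hV := (A.val V hV : Γ(A.M, V) →+ Γ(pshU σ, V))
  smul' V hV r m := A.val_smul V hV r m
  res' V V' hV h m := A.val_res V V' hV h m

/-- construction from a homomorphism -/
def ofLoc (M : X.Modules) (gens : ∀ x ∈ π ⁻¹ᵁ U, ∃ V : X.Opens, x ∈ V ∧ V ≤ π ⁻¹ᵁ U ∧
    ∃ s : Γ(M, V), IsGen M s) (χ : LocHom (π ⁻¹ᵁ U) M (pshU σ))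
    (hχ : ∀ (V : X.Opens) (hV : V ≤ π ⁻¹ᵁ U) (s : Γ(M, V)), IsGen M s →
      IsUnit (show Γ(T, σ ⁻¹ᵁ V) from χ.app V hV s)) : RM π σ U where
  M := M
  gens := gens
  val V hV := χ.app V hV
  val_smul V hV r m := χ.app_smul hV r m
  val_res V W hV h m := χ.app_res hV h m
  val_gen := hχ

variable (hσ : σ ≫ π = 𝟙 T)
include hσ

/-- **gluing of rigidified modules** -/
theorem exists_glue (H : ∀ W : T.Opens, Function.Surjective (pf π W)) {ι : Type u}
    (U : ι → T.Opens) (hU : ⨆ i, U i = ⊤) (A : ∀ i, RM π σ (U i))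
    (hA : ∀ i j, Nonempty (Hm (A i) (A j) (U i ⊓ U j))) :
    ∃ M : RM π σ (⊤ : T.Opens), ∀ i, ∃ φ : LocHom (π ⁻¹ᵁ U i) M.M (A i).M, φ.IsIso := by
  choose φ hφ using fun i j => exists_norm hσ (hA i j).some inf_le_left inf_le_right
  have hcov : ⨆ i, π ⁻¹ᵁ U i = ⊤ := cover_pre π hU
  obtain ⟨N, ψ, hψ, hψc⟩ := LocHom.exists_glueMod (fun i => π ⁻¹ᵁ U i) hcov (fun i => (A i).M)
    (fun i j => (φ i j).toLoc) (fun i j => (φ i j).isIso_toLoc inf_le_left) (by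
      intro i j k V hi hj hk m
      have hij : U i ⊓ U j ⊓ U k ≤ U i ⊓ U j := inf_le_left
      have hjk : U i ⊓ U j ⊓ U k ≤ U j ⊓ U k := inf_le_inf_right _ inf_le_right
      have hik : U i ⊓ U j ⊓ U k ≤ U i ⊓ U k := inf_le_inf_right _ inf_le_left
      have hV : V ≤ π ⁻¹ᵁ (U i ⊓ U j ⊓ U k) := le_inf (le_inf hi hj) hk
      exact norm_unique hσ H (((hφ j k).restr hjk).comp ((hφ i j).restr hij))
        ((hφ i k).restr hik) V hV m)
  obtain ⟨χ, hχ⟩ := LocHom.exists_glue (U := π ⁻¹ᵁ (⊤ : T.Opens)) (fun i => π ⁻¹ᵁ U i)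
    (fun i => le_top) (by rw [hcov]; exact le_top) (fun i => (ψ i).comp (A i).valLoc) (by
      intro i j V hi hj m
      have e1 := hψc i j V hi hj m
      have e2 := hφ i j V (le_inf hi hj) ((ψ i).app V hi m)
      change (φ i j).f V _ ((ψ i).app V hi m) = (ψ j).app V hj m at e1
      rw [e1] at e2
      exact e2.symm)
  refine ⟨ofLoc N ?_ χ ?_, fun i => ⟨ψ i, hψ i⟩⟩
  · intro x _
    have h1 : π x ∈ ⨆ i, U i := by rw [hU]; trivial
    obtain ⟨i, hi⟩ := Opens.mem_iSup.mp h1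
    obtain ⟨V, hxV, hV, s, hs⟩ := (A i).gens x hi
    refine ⟨V, hxV, le_top, ((ψ i).inv (hψ i)).app V hV s, ?_⟩
    exact (LocHom.isGen_iff ((ψ i).isIso_inv (hψ i)) hV s).2 hs
  · intro V hV s hs
    have hc : V ≤ ⨆ i, V ⊓ π ⁻¹ᵁ U i := by
      rw [← inf_iSup_eq, hcov, inf_top_eq]
    refine isUnit_of_locallyO (fun i => σ ⁻¹ᵁ (V ⊓ π ⁻¹ᵁ U i)) (σ ⁻¹ᵁ V)
      (fun i => pre_mono σ inf_le_left) ?_ _ fun i => ?_
    · intro t ht
      obtain ⟨i, hi⟩ := Opens.mem_iSup.mp (hc ht)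
      exact Opens.mem_iSup.mpr ⟨i, hi⟩
    · have e1 := χ.app_res hV (inf_le_left : V ⊓ π ⁻¹ᵁ U i ≤ V) s
      have e2 := hχ i (V ⊓ π ⁻¹ᵁ U i) inf_le_right (res N inf_le_left s)
      have e3 := (A i).val_gen (V ⊓ π ⁻¹ᵁ U i) inf_le_right
        ((ψ i).app _ inf_le_right (res N inf_le_left s))
        ((LocHom.isGen_iff (hψ i) inf_le_right _).2 (hs.res _))
      have e4 : rs (pre_mono σ (inf_le_left : V ⊓ π ⁻¹ᵁ U i ≤ V))
          (show Γ(T, σ ⁻¹ᵁ V) from χ.app V hV s) =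
          (A i).val (V ⊓ π ⁻¹ᵁ U i) inf_le_right
            ((ψ i).app _ inf_le_right (res N inf_le_left s)) := e1.symm.trans e2
      rw [e4]
      exact e3

omit hσ in
theorem isInvertible (A : RM π σ (⊤ : T.Opens)) : A.M.IsInvertible :=
  isInvertible_of_gen fun x => by
    obtain ⟨V, hxV, -, s, hs⟩ := A.gens x trivial
    exact ⟨V, hxV, s, hs⟩

omit hσ in
/-- the rigidification of a rigidified module -/
theorem exists_rig (A : RM π σ (⊤ : T.Opens)) :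
    Nonempty ((Scheme.Modules.pullback σ).obj A.M ≅ unitMod T) := by
  have hx : ∀ x : X, ∃ V : X.Opens, x ∈ V ∧ ∃ s : Γ(A.M, V), IsGen A.M s := fun x => by
    obtain ⟨V, hxV, -, s, hs⟩ := A.gens x trivial
    exact ⟨V, hxV, s, hs⟩
  choose V hxV s hs using hx
  have hcov : ⨆ x, V x = ⊤ := by
    rw [eq_top_iff]
    intro x _
    exact Opens.mem_iSup.mpr ⟨x, hxV x⟩
  obtain ⟨e, -⟩ := exists_pullback_iso σ (N' := unitMod T) hcov hs
    (fun x => (show Γ(unitMod T, σ ⁻¹ᵁ V x) from A.val (V x) le_top (s x))) (by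
      intro x
      have h1 := (isGen_one (σ ⁻¹ᵁ V x)).smul_unit (A.val_gen (V x) le_top (s x) (hs x))
      have h2 : (A.val (V x) le_top (s x) • (show Γ(unitMod T, σ ⁻¹ᵁ V x) from
          (1 : Γ(T, σ ⁻¹ᵁ V x))) : Γ(unitMod T, σ ⁻¹ᵁ V x)) =
          (show Γ(unitMod T, σ ⁻¹ᵁ V x) from A.val (V x) le_top (s x)) :=
        mul_one (A.val (V x) le_top (s x))
      rwa [h2] at h1) (by
      intro x y r hr
      have e1 := A.val_res (V y) (V x ⊓ V y) le_top inf_le_right (s y)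
      rw [hr, A.val_smul, A.val_res (V x) (V x ⊓ V y) le_top inf_le_left] at e1
      exact e1.symm)
  exact ⟨e⟩

end RM

end Fermat.Agent.Jac
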