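import Fermat.Agent.Jac.RMGlue

/-!
# Rigidified modules from open subschemes
-/

set_option autoImplicit false
set_option linter.unusedVariables false

universe u

open CategoryTheory CategoryTheory.Limits AlgebraicGeometry TopologicalSpace Opposite

noncomputable section

namespace Fermat.Agent.Jac

theorem isUnit_of_isGen {X : Scheme.{u}} {V : X.Opens} {s : Γ(X, V)}
    (hs : IsGen (unitMod X) (show Γ(unitMod X, V) from s)) : IsUnit s := by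
  obtain ⟨r, hr⟩ := hs.exists_smul le_rfl (show Γ(unitMod X, V) from (1 : Γ(X, V)))
  rw [res_refl] at hr
  have h1 : (1 : Γ(X, V)) = r * s := hr
  exact IsUnit.of_mul_eq_one r ((mul_comm s r).trans h1.symm)

section nu

variable {X T X' T' : Scheme.{u}} {σ : T ⟶ X} {σ' : T' ⟶ X'} {j : X' ⟶ X} {ι : T' ⟶ T}

/-- values of sections along a trivialised section -/
def nu (σ' : T' ⟶ X') {L : X'.Modules} (e : (Scheme.Modules.pullback σ').obj L ≅ unitMod T')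
    (V : X'.Opens) : Γ(L, V) →+ Γ(T', σ' ⁻¹ᵁ V) :=
  (ap e.hom (σ' ⁻¹ᵁ V) : _ →+ Γ(unitMod T', σ' ⁻¹ᵁ V)).comp (ps σ' L V)

variable {L : X'.Modules} (e : (Scheme.Modules.pullback σ').obj L ≅ unitMod T')

theorem nu_smul {V : X'.Opens} (r : Γ(X', V)) (m : Γ(L, V)) :
    nu σ' e V (r • m) = pf σ' V r * nu σ' e V m := by
  change ap e.hom (σ' ⁻¹ᵁ V) (ps σ' L V (r • m)) = _
  rw [ps_smul, ap_smul]
  rfl

theorem nu_res {V W : X'.Opens} (h : W ≤ V) (m : Γ(L, V)) :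
    nu σ' e W (res L h m) = rs (pre_mono σ' h) (nu σ' e V m) := by
  change ap e.hom (σ' ⁻¹ᵁ W) (ps σ' L W (res L h m)) = _
  rw [ps_res, ap_res]
  rfl

theorem nu_gen (hL : L.IsInvertible) {V : X'.Opens} {s : Γ(L, V)} (hs : IsGen L s) :
    IsUnit (nu σ' e V s) :=
  isUnit_of_isGen ((hs.pullback σ' hL).map e.hom)

theorem pre_sq (hσ' : σ' ≫ j = ι ≫ σ) (V : X.Opens) :
    ι ⁻¹ᵁ (σ ⁻¹ᵁ V) ≤ σ' ⁻¹ᵁ (j ⁻¹ᵁ V) := by
  rw [← Scheme.Hom.comp_preimage, ← Scheme.Hom.comp_preimage, hσ']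

theorem pf_sq (hσ' : σ' ≫ j = ι ≫ σ) (V : X.Opens) (r : Γ(X, V)) :
    rs (pre_sq hσ' V) (pf σ' _ (pf j V r)) = pf ι _ (pf σ V r) := by
  have h1 : pf σ' (j ⁻¹ᵁ V) (pf j V r) = rs (U := ι ⁻¹ᵁ (σ ⁻¹ᵁ V)) (V := σ' ⁻¹ᵁ (j ⁻¹ᵁ V))
      (by rw [← Scheme.Hom.comp_preimage, ← Scheme.Hom.comp_preimage, hσ'])
      (pf ι (σ ⁻¹ᵁ V) (pf σ V r)) :=
    (pf_comp σ' j V r).symm.trans ((pf_congr hσ' V r).trans
      (congrArg (rs (X := T') (U := ι ⁻¹ᵁ (σ ⁻¹ᵁ V)) (V := σ' ⁻¹ᵁ (j ⁻¹ᵁ V))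
        (by rw [← Scheme.Hom.comp_preimage, ← Scheme.Hom.comp_preimage, hσ']))
        (pf_comp ι σ V r)))
  rw [h1, rs_rs]
  exact rs_refl _ _

/-- values on an open subscheme -/
def nuPush (hσ' : σ' ≫ j = ι ≫ σ) (V : X.Opens) : Γ(L, j ⁻¹ᵁ V) →+ Γ(T', ι ⁻¹ᵁ (σ ⁻¹ᵁ V)) :=
  ((rs (pre_sq hσ' V)).toAddMonoidHom).comp (nu σ' e (j ⁻¹ᵁ V))

theorem nuPush_smul (hσ' : σ' ≫ j = ι ≫ σ) (V : X.Opens) (r : Γ(X, V)) (m : Γ(L, j ⁻¹ᵁ V)) :
    nuPush e hσ' V (pf j V r • m) = pf ι _ (pf σ V r) * nuPush e hσ' V m := by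
  change rs (pre_sq hσ' V) (nu σ' e (j ⁻¹ᵁ V) (pf j V r • m)) =
    pf ι _ (pf σ V r) * rs (pre_sq hσ' V) (nu σ' e (j ⁻¹ᵁ V) m)
  rw [nu_smul, map_mul, pf_sq hσ']

theorem nuPush_res (hσ' : σ' ≫ j = ι ≫ σ) (V W : X.Opens) (h : W ≤ V) (m : Γ(L, j ⁻¹ᵁ V)) :
    nuPush e hσ' W (res L (pre_mono j h) m) =
      rs (pre_mono ι (pre_mono σ h)) (nuPush e hσ' V m) := by
  change rs (pre_sq hσ' W) (nu σ' e (j ⁻¹ᵁ W) (res L (pre_mono j h) m)) =
    rs (pre_mono ι (pre_mono σ h)) (rs (pre_sq hσ' V) (nu σ' e (j ⁻¹ᵁ V) m))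
  rw [nu_res, rs_rs, rs_rs]

end nu

variable {X T : Scheme.{u}} {π : X ⟶ T} {σ : T ⟶ X}

namespace RM

/-- an invertible module with a trivialisation along the section -/
def ofGlobal (π : X ⟶ T) {N : X.Modules} (hN : N.IsInvertible)
    (e : (Scheme.Modules.pullback σ).obj N ≅ unitMod T) : RM π σ (⊤ : T.Opens) :=
  ofLoc N
    (fun x _ => by
      obtain ⟨V, hxV, s, hs⟩ := exists_gen hN x
      exact ⟨V, hxV, le_top, s, hs⟩)
    (LocHom.ofHom _ ((Scheme.Modules.pullbackPushforwardAdjunction σ).unit.app N ≫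
      (Scheme.Modules.pushforward σ).map e.hom))
    (fun V hV s hs => isUnit_of_isGen ((hs.pullback σ hN).map e.hom))

/-- an invertible module on an open subscheme with a trivialisation along the section -/
def ofOpen {X' T' : Scheme.{u}} {U : T.Opens} (j : X' ⟶ X) [IsOpenImmersion j]
    (hj : j.opensRange = π ⁻¹ᵁ U) (ι : T' ⟶ T) [IsOpenImmersion ι] (hι : ι.opensRange = U)
    (hσ : σ ≫ π = 𝟙 T) (σ' : T' ⟶ X') (hσ' : σ' ≫ j = ι ≫ σ) {L : X'.Modules}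
    (hL : L.IsInvertible) (e : (Scheme.Modules.pullback σ').obj L ≅ unitMod T') :
    RM π σ U :=
  let N : X.Modules := (Scheme.Modules.pushforward σ).obj
    ((Scheme.Modules.pushforward ι).obj (unitMod T'))
  let α : LocHom (π ⁻¹ᵁ U) ((Scheme.Modules.pushforward j).obj L) N :=
    { app := fun V hV => (nuPush e hσ' V : Γ(L, j ⁻¹ᵁ V) →+ Γ(T', ι ⁻¹ᵁ (σ ⁻¹ᵁ V)))
      smul' := fun V hV r m => nuPush_smul e hσ' V r m
      res' := fun V W hV hW m => nuPush_res e hσ' V W hW m }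
  let β : LocHom (π ⁻¹ᵁ U) (pshU σ) N :=
    { app := fun V hV => ((pf ι (σ ⁻¹ᵁ V)).toAddMonoidHom : Γ(T, σ ⁻¹ᵁ V) →+ _)
      smul' := fun V hV r m => map_mul (pf ι (σ ⁻¹ᵁ V)) _ _
      res' := fun V W hV hW m => (rs_pf ι (pre_mono σ hW) _).symm }
  have hβ : β.IsIso := fun V hV => bijective_pf_of_le ι (by rw [hι]; exact le_pre hσ hV)
  ofLoc ((Scheme.Modules.pushforward j).obj L)
    (fun x hx => by
      rw [← hj] at hx
      obtain ⟨x', rfl⟩ := hx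
      obtain ⟨V', hxV, s, hs⟩ := exists_gen hL x'
      have h1 : j ⁻¹ᵁ (j ''ᵁ V') = V' := Scheme.Hom.preimage_image_eq j V'
      refine ⟨j ''ᵁ V', ⟨x', hxV, rfl⟩, ?_, ?_⟩
      · rw [← hj]
        exact Scheme.Hom.image_le_opensRange j V'
      · exact ⟨_, (isGen_push_iff j (Scheme.Hom.image_le_opensRange j V')
          (res L h1.le s)).2 (hs.res _)⟩)
    (α.comp (β.inv hβ))
    (fun V hV s hs => by
      have h1 := (isGen_push_iff j (hV.trans hj.ge) s).1 hs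
      have h3 : IsUnit (nuPush e hσ' V s) := (nu_gen e hL h1).map (rs (pre_sq hσ' V))
      have h4 : pf ι (σ ⁻¹ᵁ V) (show Γ(T, σ ⁻¹ᵁ V) from (α.comp (β.inv hβ)).app V hV s) =
        nuPush e hσ' V s := β.app_inv hβ hV _
      have h5 : Function.Bijective (pf ι (σ ⁻¹ᵁ V)) := hβ V hV
      rw [← h4] at h3
      exact (MulEquiv.isUnit_map (RingEquiv.ofBijective _ h5)).1 h3)

end RM

end Fermat.Agent.Jac
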