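import Mathlib

/-!
# Representability by gluing charts, absolute form

`F : Schemeᵒᵖ ⥤ Type w` (any universe) is a Zariski sheaf covered by charts `X i`, `x i`; then `F`
is represented by a scheme glued from the `X i`.
-/

set_option autoImplicit false

universe u w

open CategoryTheory CategoryTheory.Limits AlgebraicGeometry Opposite

noncomputable section

namespace Fermat.Agent.Jac.Abs

/-- gluing of morphisms -/
theorem exists_glue_hom {T X : Scheme.{u}} {ι : Type*} (U : ι → T.Opens)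
    (hU : ∀ t : T, ∃ i, t ∈ U i) (h : ∀ i, (U i).toScheme ⟶ X)
    (hc : ∀ i j (W : Scheme.{u}) (p : W ⟶ (U i).toScheme) (q : W ⟶ (U j).toScheme),
      p ≫ (U i).ι = q ≫ (U j).ι → p ≫ h i = q ≫ h j) :
    ∃ g : T ⟶ X, ∀ i, (U i).ι ≫ g = h i := by
  let 𝒰 : T.OpenCover := {
    I₀ := ι, X i := (U i), f i := (U i).ι,
    mem₀ := by
      rw [Scheme.presieve₀_mem_precoverage_iff]
      refine ⟨fun x => ?_, inferInstance⟩
      obtain ⟨i, hi⟩ := hU x
      exact ⟨i, by simpa using hi⟩ }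
  exact ⟨𝒰.glueMorphisms h fun i j => hc i j _ _ _ pullback.condition,
    fun i => 𝒰.ι_glueMorphisms h _ i⟩

variable (F : Scheme.{u}ᵒᵖ ⥤ Type w)

/-- pull-back of an element -/
def pb {T T' : Scheme.{u}} (g : T' ⟶ T) (y : F.obj (op T)) : F.obj (op T') := F.map g.op y

variable {F}

@[simp]
theorem pb_id {T : Scheme.{u}} (y : F.obj (op T)) : pb F (𝟙 T) y = y := by
  simp [pb]

theorem pb_comp {T T' T'' : Scheme.{u}} (g' : T'' ⟶ T') (g : T' ⟶ T) (y : F.obj (op T)) :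
    pb F (g' ≫ g) y = pb F g' (pb F g y) := by
  simp [pb]

variable (F) in
/-- Zariski sheaves on the category of schemes -/
structure IsZSheaf : Prop where
  sep : ∀ (T : Scheme.{u}) {ι : Type u} (U : ι → T.Opens), (∀ t : T, ∃ i, t ∈ U i) →
    ∀ y y' : F.obj (op T), (∀ i, pb F (U i).ι y = pb F (U i).ι y') → y = y'
  glue : ∀ (T : Scheme.{u}) {ι : Type u} (U : ι → T.Opens), (∀ t : T, ∃ i, t ∈ U i) →
    ∀ y : ∀ i, F.obj (op (U i).toScheme),
    (∀ i j (W : Scheme.{u}) (p : W ⟶ (U i).toScheme) (q : W ⟶ (U j).toScheme),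
      p ≫ (U i).ι = q ≫ (U j).ι → pb F p (y i) = pb F q (y j)) →
    ∃ z, ∀ i, pb F (U i).ι z = y i

/-- local separation -/
theorem IsZSheaf.ext (hF : IsZSheaf F) {T : Scheme.{u}} {y y' : F.obj (op T)}
    (h : ∀ t : T, ∃ U : T.Opens, t ∈ U ∧ pb F U.ι y = pb F U.ι y') : y = y' := by
  choose U hU h using h
  exact hF.sep T U (fun t => ⟨t, hU t⟩) y y' h

/-- gluing along a jointly surjective family of open immersions -/
theorem IsZSheaf.glue' (hF : IsZSheaf F) {J : Scheme.{u}} {ι : Type u} {X : ι → Scheme.{u}}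
    (a : ∀ i, X i ⟶ J) [∀ i, IsOpenImmersion (a i)] (ha : ∀ z : J, ∃ (i : ι) (v : X i), a i v = z)
    (x : ∀ i, F.obj (op (X i)))
    (hx : ∀ i j (W : Scheme.{u}) (p : W ⟶ X i) (q : W ⟶ X j), p ≫ a i = q ≫ a j →
      pb F p (x i) = pb F q (x j)) : ∃ z, ∀ i, pb F (a i) z = x i := by
  let U : ι → J.Opens := fun i => (a i).opensRange
  let e : ∀ i, (U i).toScheme ⟶ X i := fun i => IsOpenImmersion.lift (a i) (U i).ι (by
    rw [Scheme.Opens.range_ι]; exact subset_rfl)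
  have he : ∀ i, e i ≫ a i = (U i).ι := fun i => IsOpenImmersion.lift_fac _ _ _
  let f : ∀ i, X i ⟶ (U i).toScheme := fun i => IsOpenImmersion.lift (U i).ι (a i) (by
    rw [Scheme.Opens.range_ι]; exact subset_rfl)
  have hf : ∀ i, f i ≫ (U i).ι = a i := fun i => IsOpenImmersion.lift_fac _ _ _
  have hfe : ∀ i, f i ≫ e i = 𝟙 _ := fun i => by
    rw [← cancel_mono (a i), Category.assoc, he, hf, Category.id_comp]
  obtain ⟨z, hz⟩ := hF.glue J U (fun z => by
    obtain ⟨i, v, hv⟩ := ha z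
    exact ⟨i, v, hv⟩) (fun i => pb F (e i) (x i)) fun i j W p q hpq => by
      rw [← pb_comp, ← pb_comp]
      exact hx i j W _ _ (by rw [Category.assoc, Category.assoc, he, he, hpq])
  refine ⟨z, fun i => ?_⟩
  rw [← hf i, pb_comp, hz, ← pb_comp, hfe, pb_id]

variable (F) in
/-- Charts of a functor -/
structure Charts where
  /-- the index set -/
  ι : Type u
  /-- the charts -/
  X : ι → Scheme.{u}
  /-- the universal elements -/
  x : ∀ i, F.obj (op (X i))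
  mono : ∀ (i : ι) {T : Scheme.{u}} (g g' : T ⟶ X i), pb F g (x i) = pb F g' (x i) → g = g'
  isOpen : ∀ (i : ι) {T W : Scheme.{u}} (y : F.obj (op T)) (g : W ⟶ T) (h' : W ⟶ X i),
    pb F h' (x i) = pb F g y → ∀ v : W, ∃ U : T.Opens, g v ∈ U ∧
      ∃ h : U.toScheme ⟶ X i, pb F h (x i) = pb F U.ι y
  cover : ∀ {T : Scheme.{u}} (y : F.obj (op T)) (t : T), ∃ (i : ι) (U : T.Opens), t ∈ U ∧
      ∃ h : U.toScheme ⟶ X i, pb F h (x i) = pb F U.ι y

namespace Charts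

variable (H : Charts F)

/-- an element which is locally in the chart is in the chart -/
theorem exists_of_local (hF : IsZSheaf F) (i : H.ι) {T : Scheme.{u}} (y : F.obj (op T))
    (h : ∀ t : T, ∃ U : T.Opens, t ∈ U ∧ ∃ h : U.toScheme ⟶ H.X i, pb F h (H.x i) = pb F U.ι y) :
    ∃ h : T ⟶ H.X i, pb F h (H.x i) = y := by
  choose U hU g hg using h
  obtain ⟨h, hh⟩ := exists_glue_hom U (fun t => ⟨t, hU t⟩) g fun a b W p q hpq => by
    refine H.mono i _ _ ?_
    rw [pb_comp, pb_comp, hg, hg, ← pb_comp, ← pb_comp, hpq]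
  refine ⟨h, hF.ext fun t => ⟨U t, hU t, ?_⟩⟩
  rw [← pb_comp, hh, hg]

/-- the domain of the `i`-th chart on `T` -/
def dom (i : H.ι) {T : Scheme.{u}} (y : F.obj (op T)) : T.Opens :=
  sSup {U | ∃ h : U.toScheme ⟶ H.X i, pb F h (H.x i) = pb F U.ι y}

theorem mem_dom {i : H.ι} {T : Scheme.{u}} {y : F.obj (op T)} {t : T} :
    t ∈ H.dom i y ↔ ∃ U : T.Opens, t ∈ U ∧ ∃ h : U.toScheme ⟶ H.X i,
      pb F h (H.x i) = pb F U.ι y := by
  rw [dom, TopologicalSpace.Opens.mem_sSup]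
  constructor
  · rintro ⟨U, hU, ht⟩
    exact ⟨U, ht, hU⟩
  · rintro ⟨U, ht, hU⟩
    exact ⟨U, hU, ht⟩

theorem mem_dom_of_eq {i : H.ι} {T W : Scheme.{u}} {y : F.obj (op T)} {g : W ⟶ T}
    {h' : W ⟶ H.X i} (h : pb F h' (H.x i) = pb F g y) (v : W) : g v ∈ H.dom i y :=
  H.mem_dom.2 (H.isOpen i y g h' h v)

theorem exists_lift (hF : IsZSheaf F) (i : H.ι) {T : Scheme.{u}} (y : F.obj (op T)) :
    ∃ h : (H.dom i y).toScheme ⟶ H.X i, pb F h (H.x i) = pb F (H.dom i y).ι y := by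
  refine H.exists_of_local hF i _ fun t => ?_
  obtain ⟨U, hU, h, hh⟩ := H.mem_dom.1 t.2
  refine ⟨(H.dom i y).ι ⁻¹ᵁ U, hU, ((H.dom i y).ι ∣_ U) ≫ h, ?_⟩
  rw [pb_comp, hh, ← pb_comp, ← pb_comp, morphismRestrict_ι]

/-- the lift to the chart -/
def lft (hF : IsZSheaf F) (i : H.ι) {T : Scheme.{u}} (y : F.obj (op T)) :
    (H.dom i y).toScheme ⟶ H.X i := (H.exists_lift hF i y).choose

theorem pb_lft (hF : IsZSheaf F) (i : H.ι) {T : Scheme.{u}} (y : F.obj (op T)) :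
    pb F (H.lft hF i y) (H.x i) = pb F (H.dom i y).ι y := (H.exists_lift hF i y).choose_spec

/-- factorisation through the domain -/
def toDom {i : H.ι} {T W : Scheme.{u}} {y : F.obj (op T)} {g : W ⟶ T}
    {h' : W ⟶ H.X i} (h : pb F h' (H.x i) = pb F g y) : W ⟶ (H.dom i y).toScheme :=
  IsOpenImmersion.lift (H.dom i y).ι g (by
    rintro _ ⟨v, rfl⟩
    rw [Scheme.Opens.range_ι]
    exact H.mem_dom_of_eq h v)

@[reassoc]
theorem toDom_ι {i : H.ι} {T W : Scheme.{u}} {y : F.obj (op T)} {g : W ⟶ T}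
    {h' : W ⟶ H.X i} (h : pb F h' (H.x i) = pb F g y) : H.toDom h ≫ (H.dom i y).ι = g :=
  IsOpenImmersion.lift_fac _ _ _

theorem toDom_lft (hF : IsZSheaf F) {i : H.ι} {T W : Scheme.{u}} {y : F.obj (op T)} {g : W ⟶ T}
    {h' : W ⟶ H.X i} (h : pb F h' (H.x i) = pb F g y) : H.toDom h ≫ H.lft hF i y = h' := by
  refine H.mono i _ _ ?_
  rw [pb_comp, pb_lft, ← pb_comp, toDom_ι, h]

/-- the opens `V (i, j) ⊆ X i` -/
abbrev V (i j : H.ι) : (H.X i).Opens := H.dom j (H.x i)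

theorem V_self (i : H.ι) : H.V i i = ⊤ := by
  refine top_le_iff.1 fun v _ => ?_
  have h : pb F (𝟙 (H.X i)) (H.x i) = pb F (𝟙 (H.X i)) (H.x i) := rfl
  exact H.mem_dom_of_eq (g := 𝟙 (H.X i)) h v

variable (hF : IsZSheaf F)

theorem pb_ι_eq (i j : H.ι) : pb F (H.V i j).ι (H.x i) = pb F (H.lft hF j (H.x i)) (H.x j) :=
  (H.pb_lft hF j (H.x i)).symm

/-- the transition map -/
def tr (i j : H.ι) : (H.V i j).toScheme ⟶ (H.V j i).toScheme := H.toDom (H.pb_ι_eq hF i j)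

@[reassoc]
theorem tr_ι (i j : H.ι) : H.tr hF i j ≫ (H.V j i).ι = H.lft hF j (H.x i) := H.toDom_ι _

@[reassoc]
theorem tr_lft (i j : H.ι) : H.tr hF i j ≫ H.lft hF i (H.x j) = (H.V i j).ι := H.toDom_lft hF _

theorem tr_self (i : H.ι) : H.tr hF i i = 𝟙 _ := by
  rw [← cancel_mono (H.V i i).ι, tr_ι, Category.id_comp]
  exact H.mono i _ _ (H.pb_lft hF i (H.x i))

/-- the first projection of a triple intersection, followed by the transition map -/
theorem triple_eq (i j k : H.ι) :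
    pb F (pullback.snd (H.V i j).ι (H.V i k).ι ≫ H.lft hF k (H.x i)) (H.x k) =
      pb F (pullback.fst (H.V i j).ι (H.V i k).ι ≫ H.lft hF j (H.x i)) (H.x j) := by
  rw [pb_comp, pb_lft, ← pb_comp, pb_comp _ (H.lft hF j (H.x i)), pb_lft, ← pb_comp,
    pullback.condition]

/-- the transition map of triple intersections -/
def tr3 (i j k : H.ι) : pullback (H.V i j).ι (H.V i k).ι ⟶ pullback (H.V j k).ι (H.V j i).ι :=
  pullback.lift (H.toDom (H.triple_eq hF i j k)) (pullback.fst _ _ ≫ H.tr hF i j) (by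
    rw [toDom_ι, Category.assoc, tr_ι])

@[reassoc]
theorem tr3_snd (i j k : H.ι) : H.tr3 hF i j k ≫ pullback.snd _ _ =
    pullback.fst _ _ ≫ H.tr hF i j := pullback.lift_snd _ _ _

/-- the projection of a triple intersection to `X i` -/
abbrev pr (i j k : H.ι) : pullback (H.V i j).ι (H.V i k).ι ⟶ H.X i :=
  pullback.fst (H.V i j).ι (H.V i k).ι ≫ (H.V i j).ι

theorem pb_tr3 (i j k : H.ι) :
    pb F (H.tr3 hF i j k ≫ H.pr j k i) (H.x j) = pb F (H.pr i j k) (H.x i) := by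
  have h1 : H.tr3 hF i j k ≫ H.pr j k i = pullback.fst _ _ ≫ H.lft hF j (H.x i) := by
    rw [pr, pullback.condition, ← Category.assoc, tr3_snd, Category.assoc, tr_ι]
  rw [h1, pb_comp, pb_lft, ← pb_comp]

theorem cocycle (i j k : H.ι) : H.tr3 hF i j k ≫ H.tr3 hF j k i ≫ H.tr3 hF k i j = 𝟙 _ := by
  have hmono : Mono (H.pr i j k) := mono_comp _ _
  rw [← cancel_mono (H.pr i j k), Category.id_comp]
  refine H.mono i _ _ ?_
  have h1 := H.pb_tr3 hF i j k
  have h2 := H.pb_tr3 hF j k i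
  have h3 := H.pb_tr3 hF k i j
  rw [pb_comp] at h1 h2
  rw [Category.assoc, Category.assoc, pb_comp, pb_comp, h3, h2, h1]

/-- the gluing data -/
def glueData : Scheme.GlueData.{u} where
  J := H.ι
  U := H.X
  V := fun ij => (H.V ij.1 ij.2).toScheme
  f i j := (H.V i j).ι
  f_mono i j := inferInstance
  f_hasPullback i j k := inferInstance
  f_id i := by
    apply isIso_of_isOpenImmersion_of_opensRange_eq_top
    rw [Scheme.Opens.opensRange_ι, V_self]
  t i j := H.tr hF i j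
  t_id i := H.tr_self hF i
  t' i j k := H.tr3 hF i j k
  t_fac i j k := H.tr3_snd hF i j k
  cocycle i j k := H.cocycle hF i j k
  f_open i j := inferInstance

/-- the representing scheme -/
def J : Scheme.{u} := (H.glueData hF).glued

/-- the inclusion of the charts -/
def a (i : H.ι) : H.X i ⟶ H.J hF := (H.glueData hF).ι i

instance (i : H.ι) : IsOpenImmersion (H.a hF i) :=
  Scheme.GlueData.ι_isOpenImmersion (D := H.glueData hF) i

theorem a_surj (z : H.J hF) : ∃ (i : H.ι) (v : H.X i), H.a hF i v = z :=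
  (H.glueData hF).ι_jointly_surjective z

theorem glue_condition (i j : H.ι) :
    H.tr hF i j ≫ (H.V j i).ι ≫ H.a hF j = (H.V i j).ι ≫ H.a hF i :=
  (H.glueData hF).glue_condition i j

/-- two points of charts with the same element are equal in `J` -/
theorem comp_a_eq {i j : H.ι} {W : Scheme.{u}} {p : W ⟶ H.X i} {q : W ⟶ H.X j}
    (h : pb F p (H.x i) = pb F q (H.x j)) : p ≫ H.a hF i = q ≫ H.a hF j := by
  have h1 := H.toDom_ι (y := H.x i) h.symm
  have h2 := H.toDom_lft hF (y := H.x i) h.symm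
  have h3 := H.glue_condition hF i j
  rw [← Category.assoc, tr_ι] at h3
  calc p ≫ H.a hF i = (H.toDom h.symm ≫ (H.V i j).ι) ≫ H.a hF i := by rw [h1]
    _ = (H.toDom h.symm ≫ H.lft hF j (H.x i)) ≫ H.a hF j := by
      rw [Category.assoc, Category.assoc, h3]
    _ = q ≫ H.a hF j := by rw [h2]

/-- points of charts which are equal in `J` have the same element -/
theorem eq_of_comp_a {i j : H.ι} {W : Scheme.{u}} {p : W ⟶ H.X i} {q : W ⟶ H.X j}
    (h : p ≫ H.a hF i = q ≫ H.a hF j) : pb F p (H.x i) = pb F q (H.x j) := by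
  obtain ⟨r, h1, h2⟩ : ∃ r : W ⟶ (H.V i j).toScheme, r ≫ (H.V i j).ι = p ∧
      r ≫ H.tr hF i j ≫ (H.V j i).ι = q := by
    obtain ⟨r, hr1, hr2⟩ := PullbackCone.IsLimit.lift' ((H.glueData hF).vPullbackConeIsLimit i j)
      p q h
    exact ⟨r, hr1, hr2⟩
  rw [tr_ι] at h2
  rw [← h1, ← h2, pb_comp, pb_comp, pb_ι_eq]

/-- the universal element -/
theorem exists_xi : ∃ ξ : F.obj (op (H.J hF)), ∀ i, pb F (H.a hF i) ξ = H.x i :=
  hF.glue' (H.a hF) (H.a_surj hF) H.x fun _ _ _ _ _ h => H.eq_of_comp_a hF h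

/-- the universal element -/
def xi : F.obj (op (H.J hF)) := (H.exists_xi hF).choose

theorem pb_xi (i : H.ι) : pb F (H.a hF i) (H.xi hF) = H.x i := (H.exists_xi hF).choose_spec i

theorem exists_hom {T : Scheme.{u}} (y : F.obj (op T)) :
    ∃ g : T ⟶ H.J hF, pb F g (H.xi hF) = y := by
  choose i U hU h hh using H.cover y
  obtain ⟨g, hg⟩ := exists_glue_hom U (fun t => ⟨t, hU t⟩) (fun t => h t ≫ H.a hF (i t))
    fun s t W p q hpq => by
      rw [← Category.assoc, ← Category.assoc]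
      refine H.comp_a_eq hF ?_
      rw [pb_comp, pb_comp, hh, hh, ← pb_comp, ← pb_comp, hpq]
  refine ⟨g, hF.ext fun t => ⟨U t, hU t, ?_⟩⟩
  rw [← pb_comp, hg, pb_comp, pb_xi, hh]

theorem hom_unique {T : Scheme.{u}} {g g' : T ⟶ H.J hF}
    (h : pb F g (H.xi hF) = pb F g' (H.xi hF)) : g = g' := by
  refine Scheme.hom_ext_of_forall g g' fun t => ?_
  obtain ⟨i, v, hv⟩ := H.a_surj hF (g t)
  obtain ⟨j, v', hv'⟩ := H.a_surj hF (g' t)
  let U : T.Opens := g ⁻¹ᵁ (H.a hF i).opensRange ⊓ g' ⁻¹ᵁ (H.a hF j).opensRange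
  refine ⟨U, ⟨⟨v, hv⟩, ⟨v', hv'⟩⟩, ?_⟩
  have h1 : Set.range (U.ι ≫ g) ⊆ Set.range (H.a hF i) := by
    rintro _ ⟨s, rfl⟩
    exact s.2.1
  have h2 : Set.range (U.ι ≫ g') ⊆ Set.range (H.a hF j) := by
    rintro _ ⟨s, rfl⟩
    exact s.2.2
  have e1 := IsOpenImmersion.lift_fac (H.a hF i) (U.ι ≫ g) h1
  have e2 := IsOpenImmersion.lift_fac (H.a hF j) (U.ι ≫ g') h2
  rw [← e1, ← e2]
  refine H.comp_a_eq hF ?_
  rw [← H.pb_xi hF i, ← H.pb_xi hF j, ← pb_comp, ← pb_comp, e1, e2, pb_comp, pb_comp, h]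

end Charts

/-- **Representability by gluing charts.** -/
theorem exists_repr (hF : IsZSheaf F) (H : Charts F) :
    ∃ (J : Scheme.{u}) (ξ : F.obj (op J)) (a : ∀ i, H.X i ⟶ J), (∀ i, IsOpenImmersion (a i)) ∧
      (∀ z : J, ∃ (i : H.ι) (v : H.X i), a i v = z) ∧ (∀ i, pb F (a i) ξ = H.x i) ∧
      ∀ (T : Scheme.{u}) (y : F.obj (op T)), ∃! g : T ⟶ J, pb F g ξ = y :=
  ⟨H.J hF, H.xi hF, H.a hF, fun i => inferInstance, H.a_surj hF, H.pb_xi hF, fun T y => by
    obtain ⟨g, hg⟩ := H.exists_hom hF y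
    exact ⟨g, hg, fun g' hg' => H.hom_unique hF (hg'.trans hg.symm)⟩⟩

namespace Charts

end Charts

end Fermat.Agent.Jac.Abs
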