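import Fermat.Agent.Jac.ReprOver

/-!
# Representability by gluing affine charts over an affine base
-/

set_option autoImplicit false

universe u w

open CategoryTheory CategoryTheory.Limits AlgebraicGeometry Opposite

noncomputable section

namespace Fermat.Agent.Jac

section Spec

variable (k : Type u) [CommRing k]

/-- `Spec A` over `Spec k` -/
def specO (A : Type u) [CommRing A] [Algebra k A] : Over (Spec (CommRingCat.of k)) :=
  Over.mk (Spec.map (CommRingCat.ofHom (algebraMap k A)))

variable {k} {A B C : Type u} [CommRing A] [Algebra k A] [CommRing B] [Algebra k B]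
  [CommRing C] [Algebra k C]

/-- the map of spectra over `Spec k` of a homomorphism of algebras -/
def specMapO (φ : A →ₐ[k] B) : specO k B ⟶ specO k A :=
  Over.homMk (Spec.map (CommRingCat.ofHom (φ : A →+* B))) (by
    change Spec.map _ ≫ Spec.map _ = Spec.map _
    rw [← Spec.map_comp, ← CommRingCat.ofHom_comp]
    congr 2
    exact φ.comp_algebraMap)

@[simp]
theorem specMapO_left (φ : A →ₐ[k] B) :
    (specMapO φ).left = Spec.map (CommRingCat.ofHom (φ : A →+* B)) := rfl

theorem specMapO_comp (φ : A →ₐ[k] B) (ψ : B →ₐ[k] C) :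
    specMapO (ψ.comp φ) = specMapO ψ ≫ specMapO φ := by
  ext
  change Spec.map _ = Spec.map _ ≫ Spec.map _
  rw [← Spec.map_comp, ← CommRingCat.ofHom_comp]
  rfl

theorem specMapO_id : specMapO (AlgHom.id k A) = 𝟙 (specO k A) := by
  ext
  exact Spec.map_id _

theorem specMapO_surjective (g : specO k B ⟶ specO k A) : ∃ φ : A →ₐ[k] B, specMapO φ = g := by
  let f : CommRingCat.of A ⟶ CommRingCat.of B := Spec.preimage g.left
  have hf : Spec.map f = g.left := Spec.map_preimage _
  have h1 : CommRingCat.ofHom (algebraMap k A) ≫ f = CommRingCat.ofHom (algebraMap k B) := by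
    apply Spec.map_injective
    rw [Spec.map_comp, hf]
    exact Over.w g
  let φ : A →ₐ[k] B :=
    { f.hom with
      commutes' := fun r => by
        have := congrArg (fun z => z.hom r) h1
        exact this }
  refine ⟨φ, ?_⟩
  ext
  rw [specMapO_left, ← hf]
  rfl

theorem specMapO_injective {φ ψ : A →ₐ[k] B} (h : specMapO φ = specMapO ψ) : φ = ψ := by
  have h1 : Spec.map (CommRingCat.ofHom (φ : A →+* B)) = Spec.map (CommRingCat.ofHom
    (ψ : A →+* B)) := congrArg CommaMorphism.left h
  have h2 := congrArg CommRingCat.Hom.hom (Spec.map_injective h1)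
  exact AlgHom.coe_ringHom_injective h2

/-- affine objects over `Spec k` are spectra of algebras -/
theorem exists_iso_specO (W : Over (Spec (CommRingCat.of k))) [IsAffine W.left] :
    ∃ (A : Type u) (_ : CommRing A) (_ : Algebra k A), Nonempty (specO k A ≅ W) := by
  let f : CommRingCat.of k ⟶ Γ(W.left, ⊤) := Spec.preimage (W.left.isoSpec.inv ≫ W.hom)
  let : Algebra k Γ(W.left, ⊤) := f.hom.toAlgebra
  refine ⟨Γ(W.left, ⊤), inferInstance, inferInstance, ⟨Over.isoMk W.left.isoSpec.symm ?_⟩⟩
  have hf : Spec.map f = W.left.isoSpec.inv ≫ W.hom := Spec.map_preimage _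
  exact hf.symm

/-- geometric points through a given point -/
theorem exists_geomPt (T : Over (Spec (CommRingCat.of k))) (t : T.left) :
    ∃ (K : Type u) (_ : Field K) (_ : Algebra k K) (_ : IsAlgClosed K) (s : specO k K ⟶ T)
      (v : (specO k K).left), s.left v = t := by
  let K : Type u := AlgebraicClosure (T.left.residueField t)
  let s : Spec (CommRingCat.of K) ⟶ T.left :=
    Spec.map (CommRingCat.ofHom (algebraMap (T.left.residueField t) K)) ≫
      T.left.fromSpecResidueField t
  let f : CommRingCat.of k ⟶ CommRingCat.of K := Spec.preimage (s ≫ T.hom)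
  have hf : Spec.map f = s ≫ T.hom := Spec.map_preimage _
  let : Algebra k K := f.hom.toAlgebra
  refine ⟨K, inferInstance, inferInstance, inferInstance, Over.homMk s hf.symm,
    (default : PrimeSpectrum K), ?_⟩
  exact (Scheme.Hom.comp_apply _ _ _).trans (Scheme.fromSpecResidueField_apply _ _)

/-- the homomorphism to the localization -/
def awayHom (A : Type u) [CommRing A] [Algebra k A] (f : A) : A →ₐ[k] Localization.Away f :=
  IsScalarTower.toAlgHom k A (Localization.Away f)

theorem awayHom_apply (f a : A) : awayHom (k := k) A f a = algebraMap A (Localization.Away f) a :=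
  rfl

instance isOpenImmersion_awayHom (f : A) :
    IsOpenImmersion (specMapO (awayHom (k := k) A f)).left := by
  change IsOpenImmersion (Spec.map (CommRingCat.ofHom (algebraMap A (Localization.Away f))))
  infer_instance

/-- factorization through a localization -/
theorem exists_away_lift {K : Type u} [Field K] [Algebra k K] (φ : A →ₐ[k] K) (f : A)
    (hf : φ f ≠ 0) : ∃ φ' : Localization.Away f →ₐ[k] K, φ'.comp (awayHom A f) = φ := by
  have h : ∀ y : Submonoid.powers f, IsUnit (φ y) := by
    rintro ⟨_, n, rfl⟩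
    simpa using (isUnit_iff_ne_zero.2 hf).pow n
  refine ⟨IsLocalization.liftAlgHom (M := Submonoid.powers f) h, ?_⟩
  ext a
  exact IsLocalization.lift_eq _ _

end Spec

/-- **Charts** of a functor over `Spec k`, in terms of affine test objects and geometric points -/
structure Charts (k : Type u) [CommRing k] (F : (Over (Spec (CommRingCat.of k)))ᵒᵖ ⥤ Type w) where
  /-- the index set -/
  ι : Type u
  /-- the coordinate rings -/
  R : ι → Type u
  [commRing : ∀ i, CommRing (R i)]
  [algebra : ∀ i, Algebra k (R i)]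
  /-- the universal elements -/
  x : ∀ i, F.obj (op (specO k (R i)))
  mono : ∀ (i : ι) {A : Type u} [CommRing A] [Algebra k A] (φ ψ : R i →ₐ[k] A),
    F.map (specMapO φ).op (x i) = F.map (specMapO ψ).op (x i) → φ = ψ
  isOpen : ∀ (i : ι) {A : Type u} [CommRing A] [Algebra k A] (y : F.obj (op (specO k A)))
    {K : Type u} [Field K] [Algebra k K] [IsAlgClosed K] (φ : A →ₐ[k] K) (r : R i →ₐ[k] K),
    F.map (specMapO r).op (x i) = F.map (specMapO φ).op y →
    ∃ f : A, φ f ≠ 0 ∧ ∃ s : R i →ₐ[k] Localization.Away f,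
      F.map (specMapO s).op (x i) = F.map (specMapO (awayHom A f)).op y
  cover : ∀ {K : Type u} [Field K] [Algebra k K] [IsAlgClosed K] (y : F.obj (op (specO k K))),
    ∃ (i : ι) (r : R i →ₐ[k] K), F.map (specMapO r).op (x i) = y

namespace Charts

attribute [instance] Charts.commRing Charts.algebra

variable {k : Type u} [CommRing k] {F : (Over (Spec (CommRingCat.of k)))ᵒᵖ ⥤ Type w}
  (H : Charts k F)

/-- affine neighbourhoods -/
theorem exists_affine_nhds (T : Over (Spec (CommRingCat.of k))) (t : T.left) :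
    ∃ U : T.left.Opens, t ∈ U ∧ ∃ (A : Type u) (_ : CommRing A) (_ : Algebra k A),
      Nonempty (specO k A ≅ resO T U) := by
  obtain ⟨U, hU, ht, -⟩ := exists_isAffineOpen_mem_and_subset (X := T.left) (x := t) (U := ⊤)
    trivial
  have : IsAffine (resO T U).left := hU
  exact ⟨U, ht, exists_iso_specO (resO T U)⟩

open ROver

theorem mono' (i : H.ι) {T : Over (Spec (CommRingCat.of k))} (g g' : T ⟶ specO k (H.R i))
    (h : F.map g.op (H.x i) = F.map g'.op (H.x i)) : g = g' := by
  ext1
  refine Scheme.hom_ext_of_forall _ _ fun t => ?_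
  obtain ⟨U, ht, A, _, _, ⟨e⟩⟩ := exists_affine_nhds T t
  refine ⟨U, ht, ?_⟩
  obtain ⟨φ, hφ⟩ := specMapO_surjective (e.hom ≫ resι T U ≫ g)
  obtain ⟨ψ, hψ⟩ := specMapO_surjective (e.hom ≫ resι T U ≫ g')
  have h1 : φ = ψ := by
    refine H.mono i φ ψ ?_
    rw [hφ, hψ, map_comp', map_comp', map_comp', map_comp', h]
  have h2 : resι T U ≫ g = resι T U ≫ g' := by
    rw [← cancel_epi e.hom, ← hφ, ← hψ, h1]
  exact congrArg CommaMorphism.left h2

theorem isOpen' (i : H.ι) {T W : Over (Spec (CommRingCat.of k))} (y : F.obj (op T)) (g : W ⟶ T)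
    (h' : W ⟶ specO k (H.R i)) (h : F.map h'.op (H.x i) = F.map g.op y) (v : W.left) :
    ∃ (T' : Over (Spec (CommRingCat.of k))) (j : T' ⟶ T),
      IsOpenImmersion j.left ∧ g.left v ∈ Set.range j.left ∧
      ∃ h : T' ⟶ specO k (H.R i), F.map h.op (H.x i) = F.map j.op y := by
  obtain ⟨U, ht, A, _, _, ⟨e⟩⟩ := exists_affine_nhds T (g.left v)
  obtain ⟨K, _, _, _, s, p, hs⟩ := exists_geomPt W v
  have hp : ∀ z : (specO k K).left, z = p := fun z => by
    have : Subsingleton (specO k K).left :=
      inferInstanceAs (Subsingleton (PrimeSpectrum K))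
    exact Subsingleton.elim _ _
  -- factor through `U`
  have hι : IsOpenImmersion (resι T U).left := inferInstanceAs (IsOpenImmersion U.ι)
  have hr : Set.range (s ≫ g).left ⊆ Set.range (resι T U).left := by
    rintro _ ⟨z, rfl⟩
    rw [hp z]
    change _ ∈ Set.range U.ι
    rw [Scheme.Opens.range_ι, Over.comp_left, Scheme.Hom.comp_apply, hs]
    exact ht
  let q : specO k K ⟶ resO T U := Over.homMk (IsOpenImmersion.lift (resι T U).left
    (s ≫ g).left hr) (by
      rw [← Over.w (resι T U), IsOpenImmersion.lift_fac_assoc, Over.w])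
  have hq : q ≫ resι T U = s ≫ g := by
    ext1
    exact IsOpenImmersion.lift_fac _ _ _
  obtain ⟨φ, hφ⟩ := specMapO_surjective (q ≫ e.inv)
  obtain ⟨r, hr'⟩ := specMapO_surjective (s ≫ h')
  obtain ⟨f, hf, σ, hσ⟩ := H.isOpen i (F.map (e.hom ≫ resι T U).op y) φ r (by
    rw [hφ, hr', map_comp', h, ← map_comp', ← map_comp']
    refine map_congr F ?_ y
    rw [Category.assoc, Iso.inv_hom_id_assoc, hq])
  obtain ⟨φ', hφ'⟩ := exists_away_lift φ f hf
  refine ⟨_, specMapO (awayHom A f) ≫ e.hom ≫ resι T U, ?_, ?_, specMapO σ, ?_⟩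
  · rw [Over.comp_left, Over.comp_left]
    have h1 : IsOpenImmersion (specMapO (awayHom (k := k) A f)).left := isOpenImmersion_awayHom f
    have h3 : IsIso e.hom.left := ((Over.forget _).mapIso e).isIso_hom
    have h2 : IsOpenImmersion e.hom.left := IsOpenImmersion.of_isIso _
    exact @IsOpenImmersion.comp _ _ _ _ _ h1 (@IsOpenImmersion.comp _ _ _ _ _ h2 hι)
  · refine ⟨(specMapO φ').left p, ?_⟩
    rw [← Scheme.Hom.comp_apply, ← Over.comp_left, ← Category.assoc, ← specMapO_comp, hφ', hφ,
      Category.assoc, Iso.inv_hom_id_assoc, hq, Over.comp_left, Scheme.Hom.comp_apply, hs]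
  · rw [hσ, ← map_comp']

/-- the charts in terms of open immersions -/
def toO : OCharts F where
  ι := H.ι
  X i := specO k (H.R i)
  x i := H.x i
  mono i T g g' h := H.mono' i g g' h
  isOpen i T W y g h' h v := H.isOpen' i y g h' h v
  cover {T} y t := by
    obtain ⟨K, _, _, _, s, p, hs⟩ := exists_geomPt T t
    obtain ⟨i, r, hr⟩ := H.cover (F.map s.op y)
    refine ⟨i, ?_⟩
    have := H.isOpen' i y s (specMapO r) hr p
    rwa [hs] at this

end Charts

open Charts in
/-- **Representability by affine charts** -/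
theorem exists_repr {k : Type u} [CommRing k] {F : (Over (Spec (CommRingCat.of k)))ᵒᵖ ⥤ Type w}
    (hF : IsZarSheaf F) (H : Charts k F) :
    ∃ (J : Over (Spec (CommRingCat.of k))) (ξ : F.obj (op J)) (a : ∀ i, specO k (H.R i) ⟶ J),
      (∀ i, IsOpenImmersion (a i).left) ∧
      (∀ z : J.left, ∃ (i : H.ι) (v : (specO k (H.R i)).left), (a i).left v = z) ∧
      (∀ i, F.map (a i).op ξ = H.x i) ∧
      ∀ (T : Over (Spec (CommRingCat.of k))) (y : F.obj (op T)),
        ∃! g : T ⟶ J, F.map g.op ξ = y :=
  exists_reprO hF H.toO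

end Fermat.Agent.Jac
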