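import Fermat.Agent.Jac.ReprPic
import Fermat.Agent.Jac.Stmts

/-!
# From the charts of the algebra world to charts of a functor over `Spec k`
-/

set_option autoImplicit false

universe u w

open CategoryTheory CategoryTheory.Limits AlgebraicGeometry Opposite

noncomputable section

namespace Fermat.Agent.Jac

variable {k : Type u} [Field k] (X : CurveData k)

/-- The dictionary between a functor `F` over `Spec k`, evaluated on affine schemes, and rigidified
line bundles of degree `0` in the algebra world. -/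
structure Dict (F : (Over (Spec (CommRingCat.of k)))ᵒᵖ ⥤ Type w) where
  /-- the element `y` is given by the line bundle `E` -/
  Rep : ∀ {A : Type u} [CommRing A] [Algebra k A], F.obj (op (specO k A)) → LB X A → Prop
  exists_rep : ∀ {A : Type u} [CommRing A] [Algebra k A] (y : F.obj (op (specO k A))),
    ∃ E : LB X A, E.Rig ∧ E.Deg0 ∧ Rep y E
  exists_elt : ∀ {A : Type u} [CommRing A] [Algebra k A] (E : LB X A), E.Rig → E.Deg0 →
    ∃ y : F.obj (op (specO k A)), Rep y E
  eq_iff : ∀ {A : Type u} [CommRing A] [Algebra k A] {y y' : F.obj (op (specO k A))}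
    {E E' : LB X A}, Rep y E → Rep y' E' → (y = y' ↔ LB.Iso E E')
  map_iff : ∀ {A : Type u} [CommRing A] [Algebra k A] {A' : Type u} [CommRing A'] [Algebra k A']
    (h : A →ₐ[k] A') {y : F.obj (op (specO k A))} {E : LB X A} {E' : LB X A'}, Rep y E →
    (Rep (F.map (specMapO h).op y) E' ↔ LB.BC h E E')

variable {X} {F : (Over (Spec (CommRingCat.of k)))ᵒᵖ ⥤ Type w} (D : Dict X F) (Z : ChartsData X)

namespace Dict

variable {A : Type u} [CommRing A] [Algebra k A] {A' : Type u} [CommRing A'] [Algebra k A']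

theorem map_eq_iff {h : A →ₐ[k] A'} {y : F.obj (op (specO k A))} {E : LB X A}
    {y' : F.obj (op (specO k A'))} {E' : LB X A'} (hy : D.Rep y E) (hy' : D.Rep y' E') :
    F.map (specMapO h).op y = y' ↔ LB.BC h E E' := by
  constructor
  · rintro rfl
    exact (D.map_iff h hy).1 hy'
  · intro hh
    have h1 := (D.map_iff h hy).2 hh
    refine (D.eq_iff h1 hy').2 ?_
    have h2 : F.map (specMapO (AlgHom.id k A')).op y' = y' := by
      rw [specMapO_id]
      simp
    exact (D.map_iff (AlgHom.id k A') hy').1 (by rw [h2]; exact hy')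

/-- over a field, elements have Euler characteristic `1 - g` -/
theorem chi_eq {K : Type u} [Field K] [IsAlgClosed K] [Algebra k K] {E : LB X K}
    {y : F.obj (op (specO k K))} (hy : D.Rep y E) (hE : E.Deg0) :
    E.chi = 1 - (X.genus : ℤ) := by
  refine hE K (AlgHom.id k K) E ((D.map_iff (AlgHom.id k K) hy).1 ?_)
  rw [specMapO_id]
  simpa using hy

/-- the universal elements of the charts -/
def x (i : Z.ι) : F.obj (op (specO k (Z.R i))) :=
  (D.exists_elt (Z.L i) (Z.rig i) (Z.deg i)).choose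

theorem rep_x (i : Z.ι) : D.Rep (D.x Z i) (Z.L i) :=
  (D.exists_elt (Z.L i) (Z.rig i) (Z.deg i)).choose_spec

/-- two points are in a common chart -/
theorem cover₂ {K : Type u} [Field K] [IsAlgClosed K] [Algebra k K]
    (y y' : F.obj (op (specO k K))) : ∃ i : Z.ι,
      (∃ r : Z.R i →ₐ[k] K, F.map (specMapO r).op (D.x Z i) = y) ∧
      ∃ r' : Z.R i →ₐ[k] K, F.map (specMapO r').op (D.x Z i) = y' := by
  obtain ⟨E, -, hd, hE⟩ := D.exists_rep y
  obtain ⟨E', -, hd', hE'⟩ := D.exists_rep y'
  obtain ⟨i, ⟨r, hr⟩, r', hr'⟩ := Z.cover₂ E E' (D.chi_eq hE hd) (D.chi_eq hE' hd')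
  exact ⟨i, ⟨r, (D.map_eq_iff (D.rep_x Z i) hE).2 hr⟩,
    r', (D.map_eq_iff (D.rep_x Z i) hE').2 hr'⟩

/-- the charts of the functor -/
def charts : Charts k F where
  ι := Z.ι
  R := Z.R
  commRing := Z.cr
  algebra := Z.alg
  x := D.x Z
  mono i {A} _ _ φ ψ h := by
    obtain ⟨E, -, -, hE⟩ := D.exists_rep (F.map (specMapO φ).op (D.x Z i))
    have h1 := (D.map_iff φ (D.rep_x Z i)).1 hE
    rw [h] at hE
    exact Z.mono i φ ψ E h1 ((D.map_iff ψ (D.rep_x Z i)).1 hE)
  isOpen i {A} _ _ y {K} _ _ _ φ r h := by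
    obtain ⟨E, hr, -, hE⟩ := D.exists_rep y
    obtain ⟨E', -, -, hE'⟩ := D.exists_rep (F.map (specMapO φ).op y)
    have h1 := (D.map_iff φ hE).1 hE'
    rw [← h] at hE'
    obtain ⟨f, hf, s, E'', h3, h4⟩ := Z.isOpen i E hr φ r E' h1
      ((D.map_iff r (D.rep_x Z i)).1 hE')
    refine ⟨f, hf, s, ?_⟩
    have h5 := (D.map_iff (awayHom A f) hE).2 h4
    exact (D.map_eq_iff (D.rep_x Z i) h5).2 h3
  cover y := by
    obtain ⟨i, h, -⟩ := D.cover₂ Z y y
    exact ⟨i, h⟩

include D in
/-- the functor form of the existence part of the valuative criterion -/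
theorem exists_valuation (hU : UCStmt X) {V : Type u} [CommRing V] [IsDomain V] [ValuationRing V]
    [Algebra k V] {K : Type u} [Field K] [IsAlgClosed K] [Algebra k K] [Algebra V K]
    [IsScalarTower k V K] [IsFractionRing V K] (y : F.obj (op (specO k K))) :
    ∃ z : F.obj (op (specO k V)),
      F.map (specMapO (IsScalarTower.toAlgHom k V K)).op z = y := by
  obtain ⟨E, -, hd, hE⟩ := D.exists_rep y
  obtain ⟨L, hr, hd', hL⟩ := hU (V := V) E (D.chi_eq hE hd)
  obtain ⟨z, hz⟩ := D.exists_elt L hr hd'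
  exact ⟨z, (D.map_eq_iff hz hE).2 hL⟩

end Dict

/-- **Representability from the dictionary**: the functor `F` is represented by a scheme covered by
the spectra of the rings of the charts. -/
theorem Dict.exists_repr (hF : IsZarSheaf F) :
    ∃ (J : Over (Spec (CommRingCat.of k))) (ξ : F.obj (op J)) (a : ∀ i, specO k (Z.R i) ⟶ J),
      (∀ i, IsOpenImmersion (a i).left) ∧
      (∀ z : J.left, ∃ (i : Z.ι) (v : (specO k (Z.R i)).left), (a i).left v = z) ∧
      (∀ i, F.map (a i).op ξ = D.x Z i) ∧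
      ∀ (T : Over (Spec (CommRingCat.of k))) (y : F.obj (op T)),
        ∃! g : T ⟶ J, F.map g.op ξ = y :=
  Fermat.Agent.Jac.exists_repr hF (D.charts Z)

end Fermat.Agent.Jac
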