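import Fermat.Agent.Jac.ReprAbs

/-!
# Representability by gluing charts, over a base scheme
-/

set_option autoImplicit false

universe u w

open CategoryTheory CategoryTheory.Limits AlgebraicGeometry Opposite

noncomputable section

namespace Fermat.Agent.Jac

variable {S : Scheme.{u}}

/-- an open subscheme over the base -/
def resO (T : Over S) (U : T.left.Opens) : Over S := Over.mk (U.ι ≫ T.hom)

/-- the inclusion of an open subscheme -/
def resι (T : Over S) (U : T.left.Opens) : resO T U ⟶ T := Over.homMk U.ι rfl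

@[simp]
theorem resι_left (T : Over S) (U : T.left.Opens) : (resι T U).left = U.ι := rfl

/-- Zariski sheaves over the base -/
structure IsZarSheaf (F : (Over S)ᵒᵖ ⥤ Type w) : Prop where
  sep : ∀ (T : Over S) {ι : Type u} (U : ι → T.left.Opens), ⨆ i, U i = ⊤ →
    ∀ y y' : F.obj (op T), (∀ i, F.map (resι T (U i)).op y = F.map (resι T (U i)).op y') → y = y'
  glue : ∀ (T : Over S) {ι : Type u} (U : ι → T.left.Opens), ⨆ i, U i = ⊤ →
    ∀ y : ∀ i, F.obj (op (resO T (U i))),
    (∀ i j (W : Over S) (p : W ⟶ resO T (U i)) (q : W ⟶ resO T (U j)),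
      p ≫ resι T (U i) = q ≫ resι T (U j) → F.map p.op (y i) = F.map q.op (y j)) →
    ∃ z, ∀ i, F.map (resι T (U i)).op z = y i

namespace ROver

variable (F : (Over S)ᵒᵖ ⥤ Type w)

theorem map_congr {T T' : Over S} {g g' : T' ⟶ T} (h : g = g') (y : F.obj (op T)) :
    F.map g.op y = F.map g'.op y := by rw [h]

theorem map_id' {T : Over S} {g : T ⟶ T} (h : g = 𝟙 T) (y : F.obj (op T)) :
    F.map g.op y = y := by rw [h]; simp

theorem map_comp' {T T' T'' : Over S} (g' : T'' ⟶ T') (g : T' ⟶ T) (y : F.obj (op T)) :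
    F.map (g' ≫ g).op y = F.map g'.op (F.map g.op y) := by simp

/-- the associated functor on schemes -/
def absF : Scheme.{u}ᵒᵖ ⥤ Type (max u w) where
  obj T := Σ t : T.unop ⟶ S, F.obj (op (Over.mk t))
  map {T T'} g := TypeCat.ofHom fun z => ⟨g.unop ≫ z.1,
    F.map (Over.homMk g.unop rfl : Over.mk (g.unop ≫ z.1) ⟶ Over.mk z.1).op z.2⟩
  map_id T := by
    refine TypeCat.homEquiv.injective (funext fun z => ?_)
    obtain ⟨t, y⟩ := z
    have key : ∀ (t' : T.unop ⟶ S) (h : t' = t),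
        (⟨t', F.map (Over.homMk (𝟙 T.unop) (by simp [h]) : Over.mk t' ⟶ Over.mk t).op y⟩ :
          Σ t : T.unop ⟶ S, F.obj (op (Over.mk t))) = ⟨t, y⟩ := by
      rintro t' rfl
      exact Sigma.ext rfl (heq_of_eq (map_id' F (by ext; rfl) y))
    exact key (𝟙 T.unop ≫ t) (Category.id_comp t)
  map_comp {T T' T''} g g' := by
    refine TypeCat.homEquiv.injective (funext fun z => ?_)
    obtain ⟨t, y⟩ := z
    have key : ∀ (t' : T''.unop ⟶ S) (h : t' = g'.unop ≫ g.unop ≫ t),
        (⟨t', F.map (Over.homMk (g'.unop ≫ g.unop) (by simp [h]) : Over.mk t' ⟶ Over.mk t).op y⟩ :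
          Σ t : T''.unop ⟶ S, F.obj (op (Over.mk t))) = ⟨g'.unop ≫ g.unop ≫ t,
            F.map (Over.homMk g'.unop rfl : Over.mk (g'.unop ≫ g.unop ≫ t) ⟶
              Over.mk (g.unop ≫ t)).op (F.map (Over.homMk g.unop rfl :
                Over.mk (g.unop ≫ t) ⟶ Over.mk t).op y)⟩ := by
      rintro t' rfl
      refine Sigma.ext rfl (heq_of_eq ?_)
      rw [← map_comp']
      exact map_congr F (by ext; rfl) y
    exact key ((g'.unop ≫ g.unop) ≫ t) (Category.assoc _ _ _)

variable {F}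

/-- constructor -/
def mkA {T : Scheme.{u}} (t : T ⟶ S) (y : F.obj (op (Over.mk t))) : (absF F).obj (op T) := ⟨t, y⟩

/-- the structure morphism of an element -/
def base {T : Scheme.{u}} (s : (absF F).obj (op T)) : T ⟶ S := s.1

@[simp]
theorem base_mkA {T : Scheme.{u}} (t : T ⟶ S) (y : F.obj (op (Over.mk t))) :
    base (mkA t y) = t := rfl

theorem mkA_ex {T : Scheme.{u}} (s : (absF F).obj (op T)) :
    ∃ (t : T ⟶ S) (y : F.obj (op (Over.mk t))), s = mkA t y := ⟨s.1, s.2, rfl⟩

theorem pb_mkA {T T' : Scheme.{u}} (g : T' ⟶ T) (t : T ⟶ S) (y : F.obj (op (Over.mk t))) :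
    Abs.pb (absF F) g (mkA t y) =
      mkA (g ≫ t) (F.map (Over.homMk g rfl : Over.mk (g ≫ t) ⟶ Over.mk t).op y) := rfl

@[simp]
theorem base_pb {T T' : Scheme.{u}} (g : T' ⟶ T) (z : (absF F).obj (op T)) :
    base (Abs.pb (absF F) g z) = g ≫ base z := rfl

theorem mkA_congr {T : Scheme.{u}} {t t' : T ⟶ S} (h : t' = t) (y : F.obj (op (Over.mk t)))
    (g : Over.mk t' ⟶ Over.mk t) (hg : g.left = 𝟙 T) : mkA t' (F.map g.op y) = mkA t y := by
  subst h
  rw [map_id' F (by ext; exact hg) y]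

theorem mkA_inj {T : Scheme.{u}} {t : T ⟶ S} {y y' : F.obj (op (Over.mk t))}
    (h : mkA t y = mkA t y') : y = y' := eq_of_heq (Sigma.mk.inj h).2

/-- the element with its structure morphism -/
def tot (T : Over S) (y : F.obj (op T)) : (absF F).obj (op T.left) :=
  mkA T.hom (F.map (Over.homMk (𝟙 T.left) (by simp) : Over.mk T.hom ⟶ T).op y)

@[simp]
theorem base_tot (T : Over S) (y : F.obj (op T)) : base (tot T y) = T.hom := rfl

theorem tot_injective {T : Over S} {y y' : F.obj (op T)} (h : tot T y = tot T y') : y = y' := by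
  have h1 := mkA_inj h
  have h2 := congrArg (F.map (Over.homMk (𝟙 T.left) (by simp) : T ⟶ Over.mk T.hom).op) h1
  rw [← map_comp', ← map_comp', map_id' F (by ext; simp), map_id' F (by ext; simp)] at h2
  exact h2

theorem exists_tot (T : Over S) (s : (absF F).obj (op T.left)) (hs : base s = T.hom) :
    ∃ y : F.obj (op T), tot T y = s := by
  obtain ⟨t, y, rfl⟩ := mkA_ex s
  refine ⟨F.map (Over.homMk (𝟙 T.left) (by rw [Category.id_comp]; exact hs) :
    T ⟶ Over.mk t).op y, ?_⟩
  rw [tot, ← map_comp']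
  exact mkA_congr hs.symm y _ (by simp)

theorem pb_tot {T T' : Over S} (g : T' ⟶ T) (y : F.obj (op T)) :
    Abs.pb (absF F) g.left (tot T y) = tot T' (F.map g.op y) := by
  rw [tot, pb_mkA, tot, ← map_comp', ← map_comp']
  have h := mkA_congr (F := F) (t := T'.hom) (t' := g.left ≫ T.hom) (Over.w g)
    (F.map ((Over.homMk (𝟙 T'.left) (by simp) : Over.mk T'.hom ⟶ T') ≫ g).op y)
    (Over.homMk (𝟙 _) (by simp)) rfl
  rw [← h, ← map_comp']
  congr 1

theorem map_eq_iff {T T' T'' : Over S} {g : T' ⟶ T} {g' : T' ⟶ T''} {y : F.obj (op T)}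
    {y'' : F.obj (op T'')} : F.map g.op y = F.map g'.op y'' ↔
      Abs.pb (absF F) g.left (tot T y) = Abs.pb (absF F) g'.left (tot T'' y'') := by
  rw [pb_tot, pb_tot]
  exact ⟨fun h => by rw [h], tot_injective⟩

/-- two maps over the base with the same pull-back -/
theorem base_eq_of_pb {W : Scheme.{u}} {T T' : Over S} {g : W ⟶ T.left} {g' : W ⟶ T'.left}
    {y : F.obj (op T)} {y' : F.obj (op T')}
    (h : Abs.pb (absF F) g (tot T y) = Abs.pb (absF F) g' (tot T' y')) :
    g ≫ T.hom = g' ≫ T'.hom := congrArg base h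

end ROver

open ROver

variable {F : (Over S)ᵒᵖ ⥤ Type w}

theorem iSup_eq_top_iff {T : Scheme.{u}} {ι : Type*} {U : ι → T.Opens} :
    ⨆ i, U i = ⊤ ↔ ∀ t : T, ∃ i, t ∈ U i := by
  rw [← top_le_iff]
  constructor
  · intro h t
    exact TopologicalSpace.Opens.mem_iSup.1 (h (x := t) trivial)
  · intro h t _
    exact TopologicalSpace.Opens.mem_iSup.2 (h t)

/-- the associated functor on schemes is a Zariski sheaf -/
theorem IsZarSheaf.abs (hF : IsZarSheaf F) : Abs.IsZSheaf (absF F) where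
  sep T ι U hU z z' h := by
    have hb : base z = base z' := by
      refine Scheme.hom_ext_of_forall _ _ fun t => ?_
      obtain ⟨i, hi⟩ := hU t
      exact ⟨U i, hi, congrArg base (h i)⟩
    let T' : Over S := Over.mk (base z)
    obtain ⟨y, hy⟩ := exists_tot T' z rfl
    obtain ⟨y', hy'⟩ := exists_tot T' z' hb.symm
    rw [← hy, ← hy']
    congr 1
    refine hF.sep T' U (iSup_eq_top_iff.2 hU) y y' fun i => ?_
    rw [map_eq_iff, hy, hy']
    exact h i
  glue T ι U hU z hz := by
    obtain ⟨t, ht⟩ := Abs.exists_glue_hom U hU (fun i => base (z i)) fun i j W p q hpq =>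
      congrArg base (hz i j W p q hpq)
    let T' : Over S := Over.mk t
    have h1 : ∀ i, ∃ y : F.obj (op (resO T' (U i))), tot (resO T' (U i)) y = z i := fun i =>
      exists_tot (resO T' (U i)) (z i) (ht i).symm
    choose y hy using h1
    obtain ⟨x, hx⟩ := hF.glue T' U (iSup_eq_top_iff.2 hU) y fun i j W p q hpq => by
      rw [map_eq_iff, hy, hy]
      exact hz i j W.left p.left q.left (congrArg CommaMorphism.left hpq)
    refine ⟨tot T' x, fun i => ?_⟩
    rw [← hy i, ← hx i, ← pb_tot]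
    rfl

/-- Charts of a functor over the base, in terms of open immersions -/
structure OCharts (F : (Over S)ᵒᵖ ⥤ Type w) where
  /-- the index set -/
  ι : Type u
  /-- the charts -/
  X : ι → Over S
  /-- the universal elements -/
  x : ∀ i, F.obj (op (X i))
  mono : ∀ (i : ι) {T : Over S} (g g' : T ⟶ X i), F.map g.op (x i) = F.map g'.op (x i) → g = g'
  isOpen : ∀ (i : ι) {T W : Over S} (y : F.obj (op T)) (g : W ⟶ T) (h' : W ⟶ X i),
    F.map h'.op (x i) = F.map g.op y → ∀ v : W.left, ∃ (T' : Over S) (j : T' ⟶ T),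
      IsOpenImmersion j.left ∧ g.left v ∈ Set.range j.left ∧
      ∃ h : T' ⟶ X i, F.map h.op (x i) = F.map j.op y
  cover : ∀ {T : Over S} (y : F.obj (op T)) (t : T.left), ∃ (i : ι) (T' : Over S) (j : T' ⟶ T),
      IsOpenImmersion j.left ∧ t ∈ Set.range j.left ∧
      ∃ h : T' ⟶ X i, F.map h.op (x i) = F.map j.op y

namespace OCharts

variable (H : OCharts F)

theorem to_opens {i : H.ι} {T : Scheme.{u}} {z : (absF F).obj (op T)} {t : T}
    (y : F.obj (op (Over.mk (base z)))) (hy : tot (Over.mk (base z)) y = z)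
    (h : ∃ (T' : Over S) (j : T' ⟶ Over.mk (base z)), IsOpenImmersion j.left ∧
      t ∈ Set.range j.left ∧ ∃ h : T' ⟶ H.X i, F.map h.op (H.x i) = F.map j.op y) :
    ∃ U : T.Opens, t ∈ U ∧ ∃ h : U.toScheme ⟶ (H.X i).left,
      Abs.pb (absF F) h (tot _ (H.x i)) = Abs.pb (absF F) U.ι z := by
  obtain ⟨T', j, hj, ht, h, hh⟩ := h
  let U : T.Opens := j.left.opensRange
  let e : U.toScheme ⟶ T'.left := IsOpenImmersion.lift j.left U.ι (by
    rw [Scheme.Opens.range_ι]; exact subset_rfl)
  have he : e ≫ j.left = U.ι := IsOpenImmersion.lift_fac _ _ _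
  refine ⟨U, ht, e ≫ h.left, ?_⟩
  rw [Abs.pb_comp, pb_tot, hh, ← pb_tot, ← Abs.pb_comp, he, hy]

/-- the charts of the associated functor -/
def abs : Abs.Charts (absF F) where
  ι := H.ι
  X i := (H.X i).left
  x i := tot (H.X i) (H.x i)
  mono i T g g' h := by
    have hb := base_eq_of_pb h
    let T' : Over S := Over.mk (g ≫ (H.X i).hom)
    have h1 : (Over.homMk g rfl : T' ⟶ H.X i) = Over.homMk g' hb.symm := by
      refine H.mono i _ _ ?_
      rw [map_eq_iff]
      exact h
    exact congrArg CommaMorphism.left h1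
  isOpen i T W z g h' h v := by
    obtain ⟨y, hy⟩ := exists_tot (Over.mk (base z)) z rfl
    have hb : h' ≫ (H.X i).hom = g ≫ base z := congrArg base h
    refine H.to_opens y hy (H.isOpen i (W := Over.mk (g ≫ base z)) y (Over.homMk g rfl)
      (Over.homMk h' hb) ?_ v)
    rw [map_eq_iff, hy]
    exact h
  cover {T} z t := by
    obtain ⟨y, hy⟩ := exists_tot (Over.mk (base z)) z rfl
    obtain ⟨i, h⟩ := H.cover y t
    exact ⟨i, H.to_opens y hy h⟩

end OCharts

/-- **Representability by gluing charts**, over a base scheme -/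
theorem exists_reprO (hF : IsZarSheaf F) (H : OCharts F) :
    ∃ (J : Over S) (ξ : F.obj (op J)) (a : ∀ i, H.X i ⟶ J), (∀ i, IsOpenImmersion (a i).left) ∧
      (∀ z : J.left, ∃ (i : H.ι) (v : (H.X i).left), (a i).left v = z) ∧
      (∀ i, F.map (a i).op ξ = H.x i) ∧
      ∀ (T : Over S) (y : F.obj (op T)), ∃! g : T ⟶ J, F.map g.op ξ = y := by
  obtain ⟨J, z, a, ha1, ha2, ha3, ha4⟩ := Abs.exists_repr hF.abs H.abs
  obtain ⟨ξ, hξ⟩ := exists_tot (Over.mk (base z)) z rfl
  refine ⟨Over.mk (base z), ξ, fun i => Over.homMk (a i) (congrArg base (ha3 i)), ha1, ha2,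
    fun i => ?_, fun T y => ?_⟩
  · apply tot_injective
    rw [← pb_tot, hξ]
    exact ha3 i
  · obtain ⟨g, hg, hu⟩ := ha4 T.left (tot T y)
    refine ⟨Over.homMk g (congrArg base hg), ?_, fun g' hg' => ?_⟩
    · apply tot_injective
      rw [← pb_tot, hξ]
      exact hg
    · ext
      refine hu _ ?_
      rw [← hg', ← pb_tot, hξ]

end Fermat.Agent.Jac
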