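import Fermat.Agent.Jac.ReprAff
import Fermat.Prelude.Def_AlgebraicGeometry_RepresentsRelSubPic

/-!
# Sub-presheaves of the relative Picard functor and their representability
-/

set_option autoImplicit false

universe u

open CategoryTheory CategoryTheory.Limits AlgebraicGeometry AlgebraicGeometry.RelPicard
  NeronModelInfra GoodReductionJacobian Opposite

noncomputable section

namespace Fermat.Agent.Jac

variable {R : Type u} [CommRing R] {C : Scheme.{u}} {c : C ⟶ Spec (CommRingCat.of R)}
  {ε : SchemeHomOver (𝟙 (Spec (CommRingCat.of R))) c} (P : SubPicCondition c ε)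

/-- the classes of rigidified line bundles satisfying the condition -/
def picMem (T : Over (Spec (CommRingCat.of R))) (x : RigidifiedLineBundle.Classes c ε T.hom) :
    Prop :=
  ∃ M : RigidifiedLineBundle c ε T.hom, P.P T.hom M ∧ Quotient.mk _ M = x

variable {P}

theorem picMem_mk {T : Over (Spec (CommRingCat.of R))} {M : RigidifiedLineBundle c ε T.hom} :
    picMem P T (Quotient.mk _ M) ↔ P.P T.hom M := by
  refine ⟨?_, fun h => ⟨M, h, rfl⟩⟩
  rintro ⟨M', hM', h⟩
  exact P.congr _ _ _ (Quotient.exact h) hM'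

/-- morphisms over the base -/
def toSHO {T T' : Over (Spec (CommRingCat.of R))} (g : T' ⟶ T) : SchemeHomOver T'.hom T.hom :=
  ⟨g.left, Over.w g⟩

theorem picMem_map {T T' : Over (Spec (CommRingCat.of R))} (g : T' ⟶ T)
    {x : RigidifiedLineBundle.Classes c ε T.hom} (hx : picMem P T x) :
    picMem P T' (RigidifiedLineBundle.classesMap (c := c) (ε := ε) (toSHO g) x) := by
  obtain ⟨M, hM, rfl⟩ := hx
  exact ⟨M.pullbackAlong (toSHO g), P.pullback_mem _ _ _ _ hM, rfl⟩

variable (c ε P)

/-- The sub-presheaf of the relative Picard functor (rigidified line bundles up to isomorphism)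
cut out by the condition. -/
def picSub : (Over (Spec (CommRingCat.of R)))ᵒᵖ ⥤ Type (u + 1) where
  obj X := {x : RigidifiedLineBundle.Classes c ε X.unop.hom // picMem P X.unop x}
  map g := TypeCat.ofHom fun x =>
    ⟨RigidifiedLineBundle.classesMap (c := c) (ε := ε) (toSHO g.unop) x.1, picMem_map g.unop x.2⟩
  map_id X := TypeCat.homEquiv.injective (funext fun x => Subtype.ext
    (congrFun (congrArg TypeCat.homEquiv ((relPicardPresheaf c ε).map_id X)) x.1))
  map_comp g g' := TypeCat.homEquiv.injective (funext fun x => Subtype.ext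
    (congrFun (congrArg TypeCat.homEquiv ((relPicardPresheaf c ε).map_comp g g')) x.1))

variable {c ε P}

namespace picSub

/-- the element given by a rigidified line bundle -/
def mk {T : Over (Spec (CommRingCat.of R))} (M : RigidifiedLineBundle c ε T.hom)
    (hM : P.P T.hom M) : (picSub c ε P).obj (op T) := ⟨Quotient.mk _ M, M, hM, rfl⟩

theorem exists_mk {T : Over (Spec (CommRingCat.of R))} (y : (picSub c ε P).obj (op T)) :
    ∃ (M : RigidifiedLineBundle c ε T.hom) (hM : P.P T.hom M), mk M hM = y := by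
  obtain ⟨x, M, hM, rfl⟩ := y
  exact ⟨M, hM, rfl⟩

theorem mk_eq_iff {T : Over (Spec (CommRingCat.of R))} {M M' : RigidifiedLineBundle c ε T.hom}
    {hM : P.P T.hom M} {hM' : P.P T.hom M'} :
    mk M hM = mk M' hM' ↔ Nonempty (M.L ≅ M'.L) :=
  ⟨fun h => Quotient.exact (congrArg Subtype.val h), fun h => Subtype.ext (Quotient.sound h)⟩

theorem map_mk {T T' : Over (Spec (CommRingCat.of R))} (g : T' ⟶ T)
    (M : RigidifiedLineBundle c ε T.hom) (hM : P.P T.hom M) :
    (picSub c ε P).map g.op (mk M hM) =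
      mk (M.pullbackAlong (toSHO g)) (P.pullback_mem _ _ _ _ hM) := rfl

/-- the inclusion in the relative Picard functor -/
theorem map_val {T T' : Over (Spec (CommRingCat.of R))} (g : T' ⟶ T)
    (y : (picSub c ε P).obj (op T)) :
    ((picSub c ε P).map g.op y).1 = (relPicardPresheaf c ε).map g.op y.1 := rfl

theorem map_mk_eq_iff {T T' : Over (Spec (CommRingCat.of R))} {g : T' ⟶ T}
    {M : RigidifiedLineBundle c ε T.hom} {hM : P.P T.hom M}
    {M' : RigidifiedLineBundle c ε T'.hom} {hM' : P.P T'.hom M'} :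
    (picSub c ε P).map g.op (mk M hM) = mk M' hM' ↔
      Nonempty ((M.pullbackAlong (toSHO g)).L ≅ M'.L) := by
  rw [map_mk, mk_eq_iff]

end picSub

/-- **The designation**: if `ξ` on `J` is a universal element of the sub-presheaf, then `J` with the
classifying map of the trivial bundle represents the sub-functor. -/
theorem exists_representsRelSubPic {J : Over (Spec (CommRingCat.of R))}
    (ξ : (picSub c ε P).obj (op J))
    (hu : ∀ (T : Over (Spec (CommRingCat.of R))) (y : (picSub c ε P).obj (op T)),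
      ∃! g : T ⟶ J, (picSub c ε P).map g.op ξ = y) :
    ∃ (z : Spec (CommRingCat.of R) ⟶ J.left) (hz : z ≫ J.hom = 𝟙 _)
      (r : RepresentsRelSubPic c ε P ⟨J.left, J.hom, z, hz⟩),
        picSub.mk (T := J) r.poincare r.poincare_mem = ξ := by
  obtain ⟨L, hL, rfl⟩ := picSub.exists_mk ξ
  obtain ⟨z, hz, -⟩ := hu (Over.mk (𝟙 (Spec (CommRingCat.of R))))
    (picSub.mk (RigidifiedLineBundle.unit _) (P.unit_mem _))
  refine ⟨z.left, Over.w z, ⟨L, hL, fun {T} t M hM => ?_, ?_⟩, rfl⟩
  · obtain ⟨g, hg, hg'⟩ := hu (Over.mk t) (picSub.mk M hM)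
    refine ⟨toSHO g, picSub.map_mk_eq_iff.1 hg, fun g' h' => ?_⟩
    have h1 := hg' (Over.homMk g'.1 g'.2) (picSub.map_mk_eq_iff.2 h')
    exact Subtype.ext (congrArg CommaMorphism.left h1)
  · exact picSub.map_mk_eq_iff.1 hz

/-- **Representability** from the sheaf property and charts. -/
theorem exists_designation (hF : IsZarSheaf (picSub c ε P)) (H : Charts R (picSub c ε P)) :
    ∃ (J : Over (Spec (CommRingCat.of R))) (z : Spec (CommRingCat.of R) ⟶ J.left)
      (hz : z ≫ J.hom = 𝟙 _) (r : RepresentsRelSubPic c ε P ⟨J.left, J.hom, z, hz⟩)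
      (a : ∀ i, specO R (H.R i) ⟶ J),
      (∀ i, IsOpenImmersion (a i).left) ∧
      (∀ z : J.left, ∃ (i : H.ι) (v : (specO R (H.R i)).left), (a i).left v = z) ∧
      (∀ i, (picSub c ε P).map (a i).op (picSub.mk (T := J) r.poincare r.poincare_mem) = H.x i) ∧
      ∀ (T : Over (Spec (CommRingCat.of R))) (y : (picSub c ε P).obj (op T)),
        ∃! g : T ⟶ J, (picSub c ε P).map g.op
          (picSub.mk (T := J) r.poincare r.poincare_mem) = y := by
  obtain ⟨J, ξ, a, h1, h2, h3, h4⟩ := exists_repr hF H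
  obtain ⟨z, hz, r, hr⟩ := exists_representsRelSubPic ξ h4
  subst hr
  exact ⟨J, z, hz, r, a, h1, h2, h3, h4⟩

end Fermat.Agent.Jac
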