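import Fermat.Agent.Jac.ChRho

/-!
# Construction of `HasRho` from the action
-/

universe u

set_option autoImplicit false

namespace Fermat.Agent.Jac

open LaurentPolynomial Submodule

theorem coeff_zero_mul_of_nonpos {A : Type*} [CommRing A] {f g : A[T;T⁻¹]}
    (hf : ∀ n : ℤ, 0 < n → f.coeff n = 0) (hg : ∀ n : ℤ, 0 < n → g.coeff n = 0) :
    (f * g).coeff 0 = f.coeff 0 * g.coeff 0 := by
  classical
  conv_lhs => rw [lp_eq_sum f _ (Finset.subset_insert 0 _)]
  rw [Finset.sum_mul, AddMonoidAlgebra.coeff_sum, Finsupp.finsetSum_apply,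
    Finset.sum_eq_single 0]
  · rw [T_zero, mul_one, ← smul_eq_C_mul, AddMonoidAlgebra.coeff_smul, Finsupp.smul_apply,
      smul_eq_mul]
  · intro n _ hn
    rw [mul_assoc, ← smul_eq_C_mul, AddMonoidAlgebra.coeff_smul, Finsupp.smul_apply, smul_eq_mul,
      coeff_T_mul]
    rcases lt_or_gt_of_ne hn with hn | hn
    · rw [hg _ (by omega), mul_zero]
    · rw [hf _ hn, zero_mul]
  · intro h
    exact absurd (Finset.mem_insert_self _ _) h

variable {k : Type u} [Field k] {X : CurveData k} {A : Type u} [CommRing A] [Algebra k A]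
  {q : Frame X} {N : LB X A}

/-- the functional with values `u` on the basis `e` of `V`. -/
noncomputable def funW (h : Split N.A0 N.Ai) (e : Module.Basis (Fin q.d) A (secV N.A0 N.Ai))
    (u : Fin q.d → A) : twT N.Ai →ₗ[A] A where
  toFun v := ∑ i, u i * ((h.basis e).repr (v : N.M) i).coeff 0
  map_add' v v' := by
    rw [← Finset.sum_add_distrib]
    refine Finset.sum_congr rfl fun i _ => ?_
    rw [Submodule.coe_add, map_add, Finsupp.add_apply, AddMonoidAlgebra.coeff_add,
      Finsupp.add_apply, mul_add]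
  map_smul' c v := by
    rw [RingHom.id_apply, smul_eq_mul, Finset.mul_sum]
    refine Finset.sum_congr rfl fun i _ => ?_
    rw [Submodule.coe_smul, ← C_smul', map_smul, Finsupp.smul_apply, smul_eq_mul, ← smul_eq_C_mul,
      AddMonoidAlgebra.coeff_smul, Finsupp.smul_apply, smul_eq_mul]
    ring

theorem funW_apply (h : Split N.A0 N.Ai) (e : Module.Basis (Fin q.d) A (secV N.A0 N.Ai))
    (u : Fin q.d → A) (v : twT N.Ai) :
    funW h e u v = ∑ i, u i * ((h.basis e).repr (v : N.M) i).coeff 0 := rfl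

theorem funW_secV (h : Split N.A0 N.Ai) (e : Module.Basis (Fin q.d) A (secV N.A0 N.Ai))
    (u : Fin q.d → A) (v : secV N.A0 N.Ai) (hv : (v : N.M) ∈ twT N.Ai) :
    funW h e u ⟨v, hv⟩ = ∑ i, u i * e.repr v i := by
  rw [funW_apply]
  refine Finset.sum_congr rfl fun i _ => ?_
  change u i * ((h.basis e).repr (v : N.M) i).coeff 0 = _
  rw [h.repr_secV e, C_apply, if_pos rfl]

/-- the action on `N` in coordinates -/
theorem repr_act_of {ρ : X.B →ₐ[k] Matrix (Fin q.d) (Fin q.d) A[T;T⁻¹]}
    (h : Split N.A0 N.Ai) (e : Module.Basis (Fin q.d) A (secV N.A0 N.Ai))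
    (hact : ∀ b l, N.act b (e l : N.M) = ∑ i, ρ b i l • ((e i : secV N.A0 N.Ai) : N.M))
    (b : X.B) (m : N.M) (i : Fin q.d) :
    (h.basis e).repr (N.act b m) i = ∑ l, ρ b i l * (h.basis e).repr m l := by
  conv_lhs => rw [← (h.basis e).sum_repr m]
  rw [map_sum, map_sum, Finsupp.finsetSum_apply]
  refine Finset.sum_congr rfl fun l _ => ?_
  rw [map_smul, map_smul, Finsupp.smul_apply, h.basis_apply e l, hact, h.repr_sum_smul e,
    smul_eq_mul, mul_comm]

/-- matrices satisfying the equations of the chart which describe the action of `B` on `N.M`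
make `N` a good bundle -/
theorem LB.hasRho_of_act {ρ : X.B →ₐ[k] Matrix (Fin q.d) (Fin q.d) A[T;T⁻¹]} {u : Fin q.d → A}
    (h : Split N.A0 N.Ai) (e : Module.Basis (Fin q.d) A (secV N.A0 N.Ai)) (hρ : IsRho q ρ u)
    (hact : ∀ b l, N.act b (e l : N.M) = ∑ i, ρ b i l • ((e i : secV N.A0 N.Ai) : N.M)) :
    N.HasRho q ρ u h (funW h e u) e := by
  classical
  have hcoords : ∀ l, h.coords N.act q.b q.n q.t (funW h e u) (e l) = Pi.single l 1 := by
    intro l
    ext i
    rw [h.coords_apply, Pi.single_apply, ← hρ.frame i l]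
    refine Finset.sum_congr rfl fun j _ => ?_
    congr 1
    rw [h.coords0_apply, h.cfV_eq e]
    refine (funW_secV h e u _ _).trans ?_
    rw [e.repr_sum_self]
    refine Finset.sum_congr rfl fun r _ => ?_
    congr 2
    rw [hact, h.repr_sum_smul e]
  refine ⟨⟨?_, ?_, ?_⟩, hcoords, hact, ?_⟩
  · intro β v v' hv'
    rw [funW_apply, funW_apply, hv']
    have h1 : ∀ i, ((h.basis e).repr (N.act (β : X.B) (v : N.M)) i).coeff 0 =
        ∑ l, (ρ (β : X.B) i l).coeff 0 * ((h.basis e).repr (v : N.M) l).coeff 0 := by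
      intro i
      rw [repr_act_of h e hact, AddMonoidAlgebra.coeff_sum, Finsupp.finsetSum_apply]
      refine Finset.sum_congr rfl fun l _ => ?_
      exact coeff_zero_mul_of_nonpos (fun n hn => hρ.memi _ β.2 _ _ n hn)
        (fun n hn => h.coeff_eq_zero_of_mem_twT e v.2 l hn)
    calc ∑ i, u i * ((h.basis e).repr (N.act (β : X.B) (v : N.M)) i).coeff 0
        = ∑ i, ∑ l, (u i * (ρ (β : X.B) i l).coeff 0) *
            ((h.basis e).repr (v : N.M) l).coeff 0 := by
          refine Finset.sum_congr rfl fun i _ => ?_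
          rw [h1, Finset.mul_sum]
          exact Finset.sum_congr rfl fun l _ => by ring
      _ = ∑ l, (∑ i, u i * (ρ (β : X.B) i l).coeff 0) *
            ((h.basis e).repr (v : N.M) l).coeff 0 := by
          rw [Finset.sum_comm]
          exact Finset.sum_congr rfl fun l _ => by rw [Finset.sum_mul]
      _ = _ := by
          rw [Finset.mul_sum]
          refine Finset.sum_congr rfl fun l _ => ?_
          rw [hρ.eigen]
          ring
  · intro a
    obtain ⟨c, hc⟩ := hρ.surj
    refine ⟨⟨((∑ i, (a * c i) • e i : secV N.A0 N.Ai) : N.M),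
      (∑ i, (a * c i) • e i : secV N.A0 N.Ai).2.2⟩, ?_⟩
    rw [funW_secV, e.repr_sum_self]
    calc ∑ i, u i * (a * c i) = a * ∑ i, u i * c i := by
          rw [Finset.mul_sum]; exact Finset.sum_congr rfl fun i _ => by ring
      _ = a := by rw [hc, mul_one]
  · have h1 : h.coords N.act q.b q.n q.t (funW h e u) = e.equivFun.toLinearMap := by
      refine e.ext fun l => ?_
      rw [hcoords, LinearEquiv.coe_coe]
      ext i
      rw [e.equivFun_apply, e.repr_self, Finsupp.single_eq_pi_single]
    rw [h1]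
    exact e.equivFun.bijective
  · intro i
    rw [funW_secV]
    simp [Finsupp.single_apply]

end Fermat.Agent.Jac
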