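import Fermat.Agent.Jac.RigPf

set_option autoImplicit false

/-!
# Rigidifications in a neighbourhood of a point
-/

universe u

open TensorProduct

namespace Fermat.Agent.Jac.LB

variable {k : Type u} [Field k] {X : CurveData k}
  {A : Type u} [CommRing A] [Algebra k A]

/-- a functional on the fibre of `L` along the base section, with a prescribed non-zero value -/
theorem exists_pre_rig {K : Type u} [Field K] [Algebra k K] (φ : A →ₐ[k] K) (L : LB X A) :
    ∃ (s : A) (r : L.Mi →+ A) (m : L.Mi), φ s ≠ 0 ∧ r m = s ∧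
      ∀ (b : X.Ri A) (m : L.Mi), r (b • m) = X.eA A b * r m := by
  obtain ⟨N, _, _, _, f, hf, hs⟩ := exists_bcMod (X.eA A).toRingHom L.Mi
  have hf' : ∀ (b : X.Ri A) (m : L.Mi), f (b • m) = X.eA A b • f m := hf
  -- the range of `f` is a submodule
  have h1 : ∀ n ∈ Submodule.span A (Set.range f), ∃ m, f m = n := by
    intro n hn
    refine Submodule.span_induction (p := fun n _ => ∃ m, f m = n) ?_ ?_ ?_ ?_ hn
    · rintro _ ⟨m, rfl⟩
      exact ⟨m, rfl⟩
    · exact ⟨0, map_zero f⟩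
    · rintro _ _ _ _ ⟨m, rfl⟩ ⟨m', rfl⟩
      exact ⟨m + m', map_add f m m'⟩
    · rintro a _ _ ⟨m, rfl⟩
      refine ⟨algebraMap A (X.Ri A) a • m, ?_⟩
      rw [hf', AlgHom.commutes]
      rfl
  -- a functional
  obtain ⟨t, ht⟩ := (Module.Invertible.bijective (R := A) (M := N)).2 1
  have h2 : ∀ t : Module.Dual A N ⊗[A] N, φ (contractLeft A N t) ≠ 0 →
      ∃ (ψ : Module.Dual A N) (n : N), φ (ψ n) ≠ 0 := by
    intro t
    induction t using TensorProduct.induction_on with
    | zero => intro h; rw [map_zero, map_zero] at h; exact absurd rfl h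
    | tmul ψ n => intro h; exact ⟨ψ, n, h⟩
    | add x y hx hy =>
      intro h
      by_cases hx0 : φ (contractLeft A N x) = 0
      · refine hy fun h0 => h ?_
        rw [map_add, map_add, hx0, h0, add_zero]
      · exact hx hx0
  obtain ⟨ψ, n, hψ⟩ := h2 t (by rw [ht, map_one]; exact one_ne_zero)
  obtain ⟨m, hm⟩ := h1 n (hs ▸ Submodule.mem_top)
  refine ⟨ψ n, (ψ : N →+ A).comp f, m, hψ, ?_, fun b m => ?_⟩
  · change ψ (f m) = ψ n
    rw [hm]
  · change ψ (f (b • m)) = X.eA A b * ψ (f m)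
    rw [hf', map_smul]
    rfl

/-- every line bundle can be rigidified in a neighbourhood of a given point -/
theorem exists_rig_open {K : Type u} [Field K] [Algebra k K] (φ : A →ₐ[k] K) (L : LB X A) :
    ∃ s : A, φ s ≠ 0 ∧ ∀ {A'' : Type u} [CommRing A''] [Algebra k A''] (g : A →ₐ[k] A'')
      (L'' : LB X A''), IsUnit (g s) → BC g L L'' → L''.Rig := by
  obtain ⟨s, r, m, hs, hm, hr⟩ := exists_pre_rig φ L
  refine ⟨s, hs, fun {A''} _ _ g L'' hu hb => ?_⟩
  obtain ⟨F⟩ := hb
  obtain ⟨r', hr', hrf⟩ := exists_lift_of_span (X.bi g).toRingHom (X.eA A'').toRingHom F.fi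
    F.fi_smul F.span_rangei ((g : A →+* A'').toAddMonoidHom.comp r) (fun s m => by
      change g (r (s • m)) = X.eA A'' (X.bi g s) • g (r m)
      rw [hr, map_mul, CurveData.eA_bi]
      rfl)
  have hr'' : ∀ (b : X.Ri A'') (m : L''.Mi), r' (b • m) = X.eA A'' b * r' m := hr'
  refine Rig.of_addMonoidHom r' hr'' ?_
  obtain ⟨u, hu⟩ := hu
  refine ⟨algebraMap A'' (X.Ri A'') (↑u⁻¹ : A'') • F.fi m, ?_⟩
  have h1 : r' (F.fi m) = g s := (hrf m).trans (congrArg g hm)
  rw [hr'', AlgHom.commutes, h1, ← hu]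
  exact u.inv_mul

end Fermat.Agent.Jac.LB
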