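import Fermat.Agent.Jac.RM
import Fermat.Agent.Jac.Connected
import Fermat.Agent.Jac.Model

/-!
# Functions on `π⁻¹ W`, `π : C × T ⟶ T`, come from `W`
-/

set_option autoImplicit false
set_option linter.style.haveILetI false

universe u

open CategoryTheory CategoryTheory.Limits AlgebraicGeometry TopologicalSpace Opposite
  AlgebraicGeometry.RelPicard NeronModelInfra

namespace Fermat.Agent.Jac

section General

variable {X Y Z : Scheme.{u}}

theorem pf_bijective_of_le (f : X ⟶ Y) [IsOpenImmersion f] {W : Y.Opens} (h : W ≤ f.opensRange) :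
    Function.Bijective (pf f W) := by
  have := f.isIso_app W h
  exact ConcreteCategory.bijective_of_isIso (f.app W)

theorem rs_pf_comp' {g : X ⟶ Y} {p : Y ⟶ Z} {p' : X ⟶ Z} (h : g ≫ p = p') (U : Z.Opens)
    {W : X.Opens} (hpre : W ≤ g ⁻¹ᵁ (p ⁻¹ᵁ U)) (hpre' : W ≤ p' ⁻¹ᵁ U) (s : Γ(Z, U)) :
    rs hpre (pf g _ (pf p U s)) = rs hpre' (pf p' U s) := by
  subst h
  rfl

/-- commutative squares -/
theorem rs_pf_sq {X' : Scheme.{u}} {q : X' ⟶ X} {p : X ⟶ Z} {p' : X' ⟶ Y} {f : Y ⟶ Z}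
    (h : q ≫ p = p' ≫ f) (V : Z.Opens) {W : X'.Opens} (h1 : W ≤ q ⁻¹ᵁ (p ⁻¹ᵁ V))
    (h2 : W ≤ p' ⁻¹ᵁ (f ⁻¹ᵁ V)) (v : Γ(Z, V)) :
    rs h1 (pf q _ (pf p V v)) = rs h2 (pf p' _ (pf f V v)) :=
  (rs_pf_comp' (p' := q ≫ p) rfl V h1 h1 v).trans (rs_pf_comp' h.symm V h2 h1 v).symm

/-- cartesian squares over an open immersion: surjectivity on functions descends. -/
theorem surjective_pf_of_isPullback {X' : Scheme.{u}} {q : X' ⟶ X} {p : X ⟶ Z} {p' : X' ⟶ Y}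
    {f : Y ⟶ Z} [IsOpenImmersion f] (h : IsPullback q p' p f)
    (H : Function.Surjective (pf p' ⊤)) : Function.Surjective (pf p f.opensRange) := by
  have hq : IsOpenImmersion q :=
    MorphismProperty.of_isPullback (P := @IsOpenImmersion) h.flip inferInstance
  set V := f.opensRange with hV
  have hle : p ⁻¹ᵁ V ≤ q.opensRange := by
    rintro x ⟨y, hy⟩
    obtain ⟨z, hz, -⟩ := Scheme.exists_preimage_of_isPullback h x y hy.symm
    exact ⟨z, hz⟩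
  have hq1 := pf_bijective_of_le q hle
  have hf1 := pf_bijective_of_le f (W := V) le_rfl
  have e1 : (⊤ : Y.Opens) ≤ f ⁻¹ᵁ V := fun y _ => ⟨y, rfl⟩
  have e2 : p' ⁻¹ᵁ (⊤ : Y.Opens) ≤ q ⁻¹ᵁ (p ⁻¹ᵁ V) := fun x _ => by
    change (p (q x)) ∈ V
    rw [← Scheme.Hom.comp_apply, h.w, Scheme.Hom.comp_apply]
    exact ⟨_, rfl⟩
  have e3 : q ⁻¹ᵁ (p ⁻¹ᵁ V) ≤ p' ⁻¹ᵁ (⊤ : Y.Opens) := fun x _ => trivial
  have e4 : f ⁻¹ᵁ V ≤ (⊤ : Y.Opens) := fun x _ => trivial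
  intro R
  obtain ⟨b, hb⟩ := H (rs e2 (pf q _ R))
  obtain ⟨v, hv⟩ := hf1.2 (rs e4 b)
  refine ⟨v, hq1.1 ?_⟩
  have e5 : q ⁻¹ᵁ (p ⁻¹ᵁ V) ≤ p' ⁻¹ᵁ (f ⁻¹ᵁ V) := e3.trans (pre_mono p' e1)
  have h1 := rs_pf_sq h.w V (W := q ⁻¹ᵁ (p ⁻¹ᵁ V)) le_rfl e5 v
  rw [rs_refl, hv, ← rs_pf p' e4, rs_rs, hb, rs_rs, rs_refl] at h1
  exact h1

end General

variable {k : Type u} [Field k] {C : Scheme.{u}}

theorem isPullback_baseChangeSnd (c : C ⟶ Spec (CommRingCat.of k)) {T T' : Scheme.{u}}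
    {t : T ⟶ Spec (CommRingCat.of k)} {t' : T' ⟶ Spec (CommRingCat.of k)}
    (s : SchemeHomOver t' t) :
    IsPullback (baseChangeSnd c s) (pullback.snd c t') (pullback.snd c t) s.1 := by
  refine IsPullback.of_right (h₁₂ := pullback.fst c t) (v₁₃ := c) (h₂₂ := t) ?_
    (baseChangeSnd_snd' c s) (IsPullback.of_hasPullback c t)
  rw [baseChangeSnd_fst', s.2]
  exact IsPullback.of_hasPullback c t'

theorem rigSection_comp_snd (c : C ⟶ Spec (CommRingCat.of k))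
    (ε : SchemeHomOver (𝟙 (Spec (CommRingCat.of k))) c) {T : Scheme.{u}}
    (t : T ⟶ Spec (CommRingCat.of k)) : rigSection c t ε ≫ pullback.snd c t = 𝟙 T :=
  pullback.lift_snd _ _ _

/-- **(H)** -/
theorem surjective_pf_snd (c : C ⟶ Spec (CommRingCat.of k))
    (ε : SchemeHomOver (𝟙 (Spec (CommRingCat.of k))) c)
    (H : ∀ (A : Type u) [CommRing A] [Algebra k A],
      Function.Surjective (pf (pullback.snd c (tA k A)) ⊤)) {T : Scheme.{u}}
    (t : T ⟶ Spec (CommRingCat.of k)) (W : T.Opens) :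
    Function.Surjective (pf (pullback.snd c t) W) := by
  -- affine opens
  have haff : ∀ V : T.Opens, IsAffineOpen V → Function.Surjective (pf (pullback.snd c t) V) := by
    intro V hV
    obtain ⟨φ, hφ⟩ := Spec.map_surjective (hV.fromSpec ≫ t)
    letI : Algebra k Γ(T, V) := φ.hom.toAlgebra
    have hs : hV.fromSpec ≫ t = tA k Γ(T, V) := hφ.symm
    have h1 := surjective_pf_of_isPullback (isPullback_baseChangeSnd c
      (⟨hV.fromSpec, hs⟩ : SchemeHomOver (tA k Γ(T, V)) t)) (H Γ(T, V))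
    have h2 : (hV.fromSpec).opensRange = V := hV.opensRange_fromSpec
    rw [h2] at h1
    exact h1
  set π := pullback.snd c t with hπ
  set σ := rigSection c t ε with hσ'
  have hσ : σ ≫ π = 𝟙 T := rigSection_comp_snd c ε t
  have hpre : ∀ V : T.Opens, V ≤ σ ⁻¹ᵁ (π ⁻¹ᵁ V) := fun V x hx => by
    change π (σ x) ∈ V
    rw [← Scheme.Hom.comp_apply, hσ]
    exact hx
  intro R
  refine ⟨rs (hpre W) (pf σ _ R), ?_⟩
  refine eq_of_locallyO (fun V : {V : T.Opens // IsAffineOpen V ∧ V ≤ W} => π ⁻¹ᵁ V.1) (π ⁻¹ᵁ W)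
    (fun V => pre_mono π V.2.2) ?_ _ _ fun V => ?_
  · intro x hx
    obtain ⟨V, hVa, hxV, hVW⟩ := (Opens.isBasis_iff_nbhd.1 T.isBasis_affineOpens) hx
    exact Opens.mem_iSup.2 ⟨⟨V, hVa, hVW⟩, hxV⟩
  · obtain ⟨v, hv⟩ := haff V.1 V.2.1 (rs (pre_mono π V.2.2) R)
    rw [rs_pf π V.2.2, ← hv]
    congr 1
    rw [rs_rs]
    have h1 : rs (V.2.2.trans (hpre W)) (pf σ _ R) =
        rs (hpre V.1) (rs (pre_mono σ (pre_mono π V.2.2)) (pf σ _ R)) := (rs_rs _ _ _).symm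
    rw [h1, rs_pf σ (pre_mono π V.2.2), ← hv]
    refine (rs_pf_comp' hσ V.1 (hpre V.1) (le_refl V.1) v).trans ?_
    exact (rs_refl _ _).trans (pf_id _ _)

end Fermat.Agent.Jac
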