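import Fermat.Agent.Jac.ReprPic
import Fermat.Prelude.Def_AlgebraicGeometry_RelPicardAlgEquivZeroCut

/-!
# Algebraic equivalence to zero is local on the base
-/

set_option autoImplicit false

universe u

open CategoryTheory CategoryTheory.Limits AlgebraicGeometry AlgebraicGeometry.RelPicard
  NeronModelInfra GoodReductionJacobian Opposite

noncomputable section

namespace Fermat.Agent.Jac

variable {R : Type u} [CommRing R] {C : Scheme.{u}} {c : C ⟶ Spec (CommRingCat.of R)}

theorem shl_fst (c : C ⟶ Spec (CommRingCat.of R)) {T T' : Scheme.{u}}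
    {t : T ⟶ Spec (CommRingCat.of R)} {t' : T' ⟶ Spec (CommRingCat.of R)}
    (s : SchemeHomOver t' t) : baseChangeSnd c s ≫ pullback.fst c t = pullback.fst c t' :=
  (pullback.lift_fst _ _ _).trans (Category.comp_id _)

theorem shl_snd (c : C ⟶ Spec (CommRingCat.of R)) {T T' : Scheme.{u}}
    {t : T ⟶ Spec (CommRingCat.of R)} {t' : T' ⟶ Spec (CommRingCat.of R)}
    (s : SchemeHomOver t' t) : baseChangeSnd c s ≫ pullback.snd c t = pullback.snd c t' ≫ s.1 :=
  pullback.lift_snd _ _ _

/-- `C_{T'} → C_T` is the base change of `T' → T` -/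
theorem isPullback_shl (c : C ⟶ Spec (CommRingCat.of R)) {T T' : Scheme.{u}}
    {t : T ⟶ Spec (CommRingCat.of R)} {t' : T' ⟶ Spec (CommRingCat.of R)}
    (s : SchemeHomOver t' t) :
    IsPullback (baseChangeSnd c s) (pullback.snd c t') (pullback.snd c t) s.1 := by
  have h1 : IsPullback (pullback.fst c t) (pullback.snd c t) c t := .of_hasPullback c t
  refine IsPullback.of_right (h₁₂ := pullback.fst c t) (h₂₂ := t) (v₁₃ := c) ?_
    (shl_snd c s) h1
  have h2 : IsPullback (pullback.fst c t') (pullback.snd c t') c t' := .of_hasPullback c t'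
  have h3 : s.1 ≫ t = t' := s.2
  rw [shl_fst, h3]
  exact h2

/-- for an open subscheme `U` of the base, `C_U → C_T` is the open immersion of the preimage -/
theorem opensRange_baseChangeSnd (T : Over (Spec (CommRingCat.of R))) (U : T.left.Opens) :
    ∃ _ : IsOpenImmersion (baseChangeSnd c (toSHO (resι T U))),
      (baseChangeSnd c (toSHO (resι T U))).opensRange = pullback.snd c T.hom ⁻¹ᵁ U := by
  have h := isPullback_shl c (toSHO (resι T U))
  have h0 : (toSHO (resι T U)).1 = U.ι := rfl
  rw [h0] at h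
  have hi : IsOpenImmersion (baseChangeSnd c (toSHO (resι T U))) :=
    MorphismProperty.of_isPullback h.flip (inferInstance : IsOpenImmersion U.ι)
  refine ⟨hi, ?_⟩
  have e1 : baseChangeSnd c (toSHO (resι T U)) =
      h.isoPullback.hom ≫ pullback.fst (pullback.snd c T.hom) U.ι := h.isoPullback_hom_fst.symm
  have hi2 : IsOpenImmersion (pullback.fst (pullback.snd c T.hom) U.ι) := inferInstance
  have h3 := Scheme.Hom.opensRange_pullbackFst U.ι (pullback.snd c T.hom)
  rw [Scheme.Opens.opensRange_ι] at h3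
  rw [← h3]
  apply TopologicalSpace.Opens.ext
  change Set.range (baseChangeSnd c (toSHO (resι T U))) =
    Set.range (pullback.fst (pullback.snd c T.hom) U.ι)
  rw [e1]
  ext x
  constructor
  · rintro ⟨y, rfl⟩
    exact ⟨h.isoPullback.hom y, (Scheme.Hom.comp_apply _ _ _).symm⟩
  · rintro ⟨y, rfl⟩
    refine ⟨h.isoPullback.inv y, (Scheme.Hom.comp_apply _ _ _).symm.trans ?_⟩
    exact congrArg (fun (k : pullback (pullback.snd c T.hom) U.ι ⟶ _) => k y)
      (h.isoPullback.inv_hom_id_assoc _)

variable {ε : SchemeHomOver (𝟙 (Spec (CommRingCat.of R))) c}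

/-- a point with values in a field factors through a member of an open covering -/
theorem exists_factor_open {T : Scheme.{u}} {ι : Type u} (U : ι → T.Opens) (hU : ⨆ i, U i = ⊤)
    {K : Type u} [Field K] (s : Spec (CommRingCat.of K) ⟶ T) :
    ∃ (i : ι) (s' : Spec (CommRingCat.of K) ⟶ (U i).toScheme), s' ≫ (U i).ι = s := by
  have hmem : s (IsLocalRing.closedPoint K) ∈ ⨆ i, U i := by rw [hU]; trivial
  rw [TopologicalSpace.Opens.mem_iSup] at hmem
  obtain ⟨i, hi⟩ := hmem
  refine ⟨i, IsOpenImmersion.lift (U i).ι s ?_, IsOpenImmersion.lift_fac _ _ _⟩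
  rintro _ ⟨z, rfl⟩
  have hz : z = IsLocalRing.closedPoint K :=
    Subsingleton.elim (α := PrimeSpectrum K) _ _
  rw [hz, Scheme.Opens.range_ι]
  exact hi

/-- the fibre functor along a `K`-point which factors through an object over the base -/
theorem isAlgEquivZero_of_factor {T T' : Scheme.{u}} {t : T ⟶ Spec (CommRingCat.of R)}
    {t' : T' ⟶ Spec (CommRingCat.of R)} (ψ : SchemeHomOver t' t) {K : Type u} [Field K]
    (s' : Spec (CommRingCat.of K) ⟶ T') (s : Spec (CommRingCat.of K) ⟶ T) (hs : s' ≫ ψ.1 = s)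
    (L : (pullback c t).Modules)
    (h1 : IsAlgEquivZero (fibreAt c t' s')
      (((Scheme.Modules.pullback (pullback.fst (pullback.snd c t') s')).obj
        ((Scheme.Modules.pullback (baseChangeSnd c ψ)).obj L)))) :
    IsAlgEquivZero (fibreAt c t s)
      ((Scheme.Modules.pullback (pullback.fst (pullback.snd c t) s)).obj L) := by
  subst hs
  have hψ : ψ.1 ≫ t = t' := ψ.2
  let a : pullback (pullback.snd c t) (s' ≫ ψ.1) ⟶ pullback c t' :=
    pullback.lift (pullback.fst _ _ ≫ pullback.fst _ _) (pullback.snd _ _ ≫ s') (by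
      rw [Category.assoc, pullback.condition, pullback.condition_assoc]
      simp only [Category.assoc]
      rw [hψ])
  have ha1 : a ≫ pullback.fst _ _ = pullback.fst _ _ ≫ pullback.fst _ _ := pullback.lift_fst _ _ _
  have ha2 : a ≫ pullback.snd _ _ = pullback.snd _ _ ≫ s' := pullback.lift_snd _ _ _
  let e : pullback (pullback.snd c t) (s' ≫ ψ.1) ⟶ pullback (pullback.snd c t') s' :=
    pullback.lift a (pullback.snd _ _) ha2
  have he : e ≫ fibreAt c t' s' = fibreAt c t (s' ≫ ψ.1) := pullback.lift_snd _ _ _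
  have he1 : e ≫ pullback.fst _ _ = a := pullback.lift_fst _ _ _
  have hfst : (e ≫ pullback.fst (pullback.snd c t') s') ≫ baseChangeSnd c ψ =
      pullback.fst (pullback.snd c t) (s' ≫ ψ.1) := by
    rw [he1]
    apply pullback.hom_ext
    · rw [Category.assoc, shl_fst, ha1]
    · rw [Category.assoc, shl_snd, ← Category.assoc, ha2, Category.assoc]
      exact pullback.condition.symm
  refine IsAlgEquivZero.of_iso ?_ (h1.pullback e he)
  exact (Scheme.Modules.pullbackComp _ _).app _ ≪≫
    (Scheme.Modules.pullbackComp _ _).app L ≪≫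
    (Scheme.Modules.pullbackCongr hfst).app L

theorem algEquivZero_of_cover (T : Over (Spec (CommRingCat.of R))) {ι : Type u}
    (U : ι → T.left.Opens) (hU : ⨆ i, U i = ⊤) (M : RigidifiedLineBundle c ε T.hom)
    (h : ∀ i, (algEquivZeroCut c ε).P (resO T (U i)).hom
      (M.pullbackAlong (toSHO (resι T (U i))))) : (algEquivZeroCut c ε).P T.hom M := by
  intro K _ _ s
  obtain ⟨i, s', hs⟩ := exists_factor_open U hU s
  exact isAlgEquivZero_of_factor (toSHO (resι T (U i))) s' s hs M.L (h i K s')

end Fermat.Agent.Jac
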