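import Fermat.Agent.Jac.RMOpen
import Fermat.Agent.Jac.ShFun
import Fermat.Agent.Jac.ShLocal

/-!
# The relative Picard functor of a curve with a section is a Zariski sheaf
-/

set_option autoImplicit false
set_option linter.unusedVariables false

universe u

open CategoryTheory CategoryTheory.Limits AlgebraicGeometry AlgebraicGeometry.RelPicard
  NeronModelInfra TopologicalSpace Opposite

noncomputable section

namespace Fermat.Agent.Jac

section general

variable {R : Type u} [CommRing R] {C : Scheme.{u}} {c : C ⟶ Spec (CommRingCat.of R)}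
  {ε : SchemeHomOver (𝟙 (Spec (CommRingCat.of R))) c}

theorem rigSection_sndO {T : Scheme.{u}} (t : T ⟶ Spec (CommRingCat.of R)) :
    rigSection c t ε ≫ pullback.snd c t = 𝟙 T := by
  unfold rigSection
  rw [pullback.lift_snd]

/-- the rigidified module on `C_T` of a rigidified line bundle over an open subset of `T` -/
def rmOf (T : Over (Spec (CommRingCat.of R))) (U : T.left.Opens)
    (L : RigidifiedLineBundle c ε (resO T U).hom) :
    RM (pullback.snd c T.hom) (rigSection c T.hom ε) U :=
  haveI : IsOpenImmersion (baseChangeSnd c (toSHO (resι T U))) :=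
    (opensRange_baseChangeSnd T U).choose
  RM.ofOpen (baseChangeSnd c (toSHO (resι T U))) (opensRange_baseChangeSnd T U).choose_spec U.ι
    (Scheme.Opens.opensRange_ι U) (rigSection_sndO T.hom) (rigSection c (resO T U).hom ε)
    (rigSection_baseChangeSnd c ε (toSHO (resι T U))) L.isInvertible L.rigidified.some

theorem rmOf_M (T : Over (Spec (CommRingCat.of R))) (U : T.left.Opens)
    (L : RigidifiedLineBundle c ε (resO T U).hom) :
    (rmOf T U L).M = (Scheme.Modules.pushforward (baseChangeSnd c (toSHO (resι T U)))).obj L.L :=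
  rfl

/-- the inclusions of the intersection -/
def resL (T : Over (Spec (CommRingCat.of R))) {U V : T.left.Opens} (h : V ≤ U) :
    resO T V ⟶ resO T U :=
  Over.homMk (T.left.homOfLE h) (by simp [resO])

theorem resL_resι (T : Over (Spec (CommRingCat.of R))) {U V : T.left.Opens} (h : V ≤ U) :
    resL T h ≫ resι T U = resι T V := by
  ext : 1
  exact T.left.homOfLE_ι h

theorem baseChangeSnd_resL (T : Over (Spec (CommRingCat.of R))) {U V : T.left.Opens}
    (h : V ≤ U) : baseChangeSnd c (toSHO (resL T h)) ≫ baseChangeSnd c (toSHO (resι T U)) =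
      baseChangeSnd c (toSHO (resι T V)) := by
  rw [baseChangeSnd_comp]
  congr 1
  exact Subtype.ext (congrArg CommaMorphism.left (resL_resι T h))

theorem isOpenImmersion_resL (c : C ⟶ Spec (CommRingCat.of R)) (T : Over (Spec (CommRingCat.of R)))
    {U V : T.left.Opens} (h : V ≤ U) : IsOpenImmersion (baseChangeSnd c (toSHO (resL T h))) := by
  haveI : IsOpenImmersion (baseChangeSnd c (toSHO (resι T U))) :=
    (opensRange_baseChangeSnd T U).choose
  haveI : IsOpenImmersion (baseChangeSnd c (toSHO (resι T V))) :=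
    (opensRange_baseChangeSnd T V).choose
  haveI : IsOpenImmersion (baseChangeSnd c (toSHO (resL T h)) ≫
      baseChangeSnd c (toSHO (resι T U))) := by
    rw [baseChangeSnd_resL]
    infer_instance
  exact IsOpenImmersion.of_comp _ (baseChangeSnd c (toSHO (resι T U)))

/-- **The sheaf property**, from the surjectivity on functions. -/
theorem isZarSheaf_picSub_of (H : ∀ {T : Scheme.{u}} (t : T ⟶ Spec (CommRingCat.of R))
    (W : T.Opens), Function.Surjective (pf (pullback.snd c t) W)) (P : SubPicCondition c ε)
    (hP : ∀ (T : Over (Spec (CommRingCat.of R))) {ι : Type u} (U : ι → T.left.Opens),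
      ⨆ i, U i = ⊤ → ∀ M : RigidifiedLineBundle c ε T.hom,
      (∀ i, P.P (resO T (U i)).hom (M.pullbackAlong (toSHO (resι T (U i))))) → P.P T.hom M) :
    IsZarSheaf (picSub c ε P) where
  sep T ι U hU y y' h := by
    obtain ⟨M, hM, rfl⟩ := picSub.exists_mk y
    obtain ⟨M', hM', rfl⟩ := picSub.exists_mk y'
    rw [picSub.mk_eq_iff]
    refine RM.exists_iso_of_locally (rigSection_sndO T.hom) (H T.hom)
      (A := RM.ofGlobal (pullback.snd c T.hom) M.isInvertible M.rigidified.some)
      (B := RM.ofGlobal (pullback.snd c T.hom) M'.isInvertible M'.rigidified.some) U hU ?_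
    intro i
    have h1 := h i
    rw [picSub.map_mk, picSub.map_mk, picSub.mk_eq_iff] at h1
    obtain ⟨hi, hr⟩ := opensRange_baseChangeSnd (c := c) T (U i)
    obtain ⟨φ, hφ⟩ := exists_locHom (baseChangeSnd c (toSHO (resι T (U i)))) M.isInvertible
      M'.isInvertible h1.some
    exact ⟨RM.Hm.ofLoc (φ.restrict hr.ge) (hφ.restrict hr.ge)⟩
  glue T ι U hU y h := by
    choose L hL hLy using fun i => picSub.exists_mk (y i)
    have hA : ∀ i j, Nonempty (RM.Hm (rmOf T (U i) (L i)) (rmOf T (U j) (L j)) (U i ⊓ U j)) := by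
      intro i j
      have h1 := h i j (resO T (U i ⊓ U j)) (resL T inf_le_left) (resL T inf_le_right)
        ((resL_resι T _).trans (resL_resι T _).symm)
      rw [← hLy i, ← hLy j, picSub.map_mk, picSub.map_mk, picSub.mk_eq_iff] at h1
      obtain ⟨hi, -⟩ := opensRange_baseChangeSnd (c := c) T (U i)
      obtain ⟨hj, -⟩ := opensRange_baseChangeSnd (c := c) T (U j)
      obtain ⟨hij, hr⟩ := opensRange_baseChangeSnd (c := c) T (U i ⊓ U j)
      haveI := isOpenImmersion_resL c T (inf_le_left : U i ⊓ U j ≤ U i)
      haveI := isOpenImmersion_resL c T (inf_le_right : U i ⊓ U j ≤ U j)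
      obtain ⟨φ, hφ⟩ := exists_locHom_push
        (baseChangeSnd c (toSHO (resι T (U i))))
        (baseChangeSnd c (toSHO (resL T (inf_le_left : U i ⊓ U j ≤ U i))))
        (baseChangeSnd c (toSHO (resL T (inf_le_right : U i ⊓ U j ≤ U j))))
        (baseChangeSnd c (toSHO (resι T (U j))))
        ((baseChangeSnd_resL T _).trans (baseChangeSnd_resL T _).symm)
        (L i).isInvertible (L j).isInvertible h1.some
      have hr' : pullback.snd c T.hom ⁻¹ᵁ (U i ⊓ U j) ≤
          (baseChangeSnd c (toSHO (resL T (inf_le_left : U i ⊓ U j ≤ U i))) ≫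
            baseChangeSnd c (toSHO (resι T (U i)))).opensRange := by
        rw [← hr]
        intro x hx
        rw [Scheme.Hom.mem_opensRange] at hx ⊢
        rw [baseChangeSnd_resL]
        exact hx
      exact ⟨RM.Hm.ofLoc (A := rmOf T (U i) (L i)) (B := rmOf T (U j) (L j))
        (φ.restrict hr') (hφ.restrict hr')⟩
    obtain ⟨M, hM⟩ := RM.exists_glue (rigSection_sndO T.hom) (H T.hom) U hU
      (fun i => rmOf T (U i) (L i)) hA
    let N : RigidifiedLineBundle c ε T.hom := ⟨M.M, M.isInvertible, M.exists_rig⟩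
    have hN : ∀ i, Nonempty ((N.pullbackAlong (toSHO (resι T (U i)))).L ≅ (L i).L) := by
      intro i
      obtain ⟨φ, hφ⟩ := hM i
      obtain ⟨hi, hr⟩ := opensRange_baseChangeSnd (c := c) T (U i)
      exact exists_iso_of_locHom (baseChangeSnd c (toSHO (resι T (U i)))) M.isInvertible
        (φ.restrict hr.le) (hφ.restrict hr.le)
    have hPN : P.P T.hom N := hP T U hU N fun i =>
      P.congr _ _ _ ⟨(hN i).some.symm⟩ (hL i)
    refine ⟨picSub.mk N hPN, fun i => ?_⟩
    rw [← hLy i, picSub.map_mk_eq_iff]
    exact hN i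

end general

/-- **The relative Picard functor of degree zero of a curve with a section is a sheaf.** -/
theorem isZarSheaf_algEquivZero {k : Type u} [Field k] {C : Scheme.{u}}
    (c : C ⟶ Spec (CommRingCat.of k)) (ε : SchemeHomOver (𝟙 (Spec (CommRingCat.of k))) c)
    (H : ∀ (A : Type u) [CommRing A] [Algebra k A],
      Function.Surjective (pf (pullback.snd c (tA k A)) ⊤)) :
    IsZarSheaf (picSub c ε (algEquivZeroCut c ε)) :=
  isZarSheaf_picSub_of (fun t W => surjective_pf_snd c ε H t W) _
    (fun T _ U hU M h => algEquivZero_of_cover T U hU M h)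

end Fermat.Agent.Jac
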