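import Fermat.Agent.Jac.Good
import Fermat.Agent.Jac.Emb
import Fermat.Agent.Jac.FibBridge

/-!
# The coordinate functionals of a rigidified bundle span the dual
-/

universe u

set_option autoImplicit false
set_option linter.all false

open TensorProduct LaurentPolynomial

namespace Fermat.Agent.Jac

section Split

variable {A M : Type*} [CommRing A] [AddCommGroup M] [Module A M] [Module A[T;T⁻¹] M]
  [IsScalarTower A A[T;T⁻¹] M] {N0 Ni : Submodule A M} (h : Split N0 Ni)

theorem Split.cfV_of_mem0 {m : M} (hm : (T (-1) : A[T;T⁻¹]) • m ∈ N0) : h.cfV m = 0 := by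
  have h1 : m ∈ N0 := by
    have := h.st0 _ hm
    rwa [T_smul_T_smul, show (1 : ℤ) + -1 = 0 by ring, T_zero, one_smul] at this
  ext
  rw [Split.coe_cfV, N0.projection_apply_of_mem_left h.compl h1,
    (Ni.projection_apply_eq_zero_iff h.compl.symm).mpr hm]
  simp

theorem Split.cfV_of_memi {m : M} (hm : m ∈ Ni) : h.cfV m = 0 := by
  ext
  rw [Split.coe_cfV, (N0.projection_apply_eq_zero_iff h.compl).mpr hm]
  simp

include h in
/-- decomposition of `W = T Ni` -/
theorem Split.exists_add_twT {w : M} (hw : w ∈ twT Ni) : ∃ v ∈ secV N0 Ni, ∃ b ∈ Ni, w = v + b := by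
  obtain ⟨a, ha, b, hb, rfl⟩ := h.exists_add w
  refine ⟨a, ⟨ha, ?_⟩, b, hb, rfl⟩
  have h1 : (T (-1) : A[T;T⁻¹]) • (a + b) ∈ Ni := hw
  rw [smul_add] at h1
  have h2 := Ni.sub_mem h1 (h.sti b hb)
  rwa [add_sub_cancel_right] at h2

end Split

variable {k : Type u} [Field k] {X : CurveData k} {K : Type u} [Field K] [Algebra k K]

/-- the functional `v ↦ u (c_n (b v))` -/
noncomputable def covF {N : LB X K} (h : Split N.A0 N.Ai) (u : twT N.Ai →ₗ[K] K) (b : X.B) (n : ℤ)
    (v : secV N.A0 N.Ai) : K :=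
  u (Submodule.inclusion (show secV N.A0 N.Ai ≤ twT N.Ai from fun _ hm => hm.2)
    (h.cfV ((T (-n) : K[T;T⁻¹]) • N.act b (v : N.M))))

section Span

variable {N : LB X K} (h : Split N.A0 N.Ai) (u : twT N.Ai →ₗ[K] K)
  (heig : ∀ (β : X.Bi) (w w' : twT N.Ai), (w' : N.M) = N.act β w →
    u w' = algebraMap k K (X.e β) * u w)
  (hsurj : Function.Surjective u)

include heig in
/-- the functional is determined by its restriction to `V` -/
theorem u_memi {w : twT N.Ai} (hw : (w : N.M) ∈ N.Ai) : u w = 0 := by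
  have h1 : (T 1 : K[T;T⁻¹]) • (w : N.M) ∈ twT N.Ai := by
    rw [mem_twT, T_smul_T_smul]
    simpa using hw
  have h2 := heig ⟨X.y, X.y_mem⟩ ⟨_, h1⟩ w (by
    show (w : N.M) = N.act X.y ((T 1 : K[T;T⁻¹]) • (w : N.M))
    rw [LB.act_y, T_smul_T_smul]
    simp)
  rw [h2, X.e_y, map_zero, zero_mul]

include h heig hsurj in
theorem exists_u_ne_zero : ∃ v : secV N.A0 N.Ai, u ⟨v, v.2.2⟩ ≠ 0 := by
  by_contra hcon
  push Not at hcon
  obtain ⟨w, hw⟩ := hsurj 1
  obtain ⟨v, hv, b, hb, hwb⟩ := h.exists_add_twT w.2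
  have hb' : b ∈ twT N.Ai := h.sti b hb
  have h1 : w = ⟨v, hv.2⟩ + ⟨b, hb'⟩ := Subtype.ext hwb
  rw [h1, map_add, hcon ⟨v, hv⟩, u_memi u heig hb, add_zero] at hw
  exact zero_ne_one hw

/-- a polynomial in `x` divisible by `r` -/
theorem exists_poly_mul (r : X.R0 K) (hr : r ≠ 0) : ∃ (f : Polynomial K) (s : X.R0 K), f ≠ 0 ∧
    Polynomial.aeval (X.x0 K) f = s * r := by
  have hsp : Ideal.span {r} ≠ ⊥ := by rwa [ne_eq, Ideal.span_singleton_eq_bot]
  haveI := X.ff_quo0 K _ hsp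
  have h1 : IsAlgebraic K (Ideal.Quotient.mkₐ K (Ideal.span {r}) (X.x0 K)) :=
    Algebra.IsAlgebraic.isAlgebraic _
  obtain ⟨f, hf, h0⟩ := h1
  rw [Polynomial.aeval_algHom_apply] at h0
  have h2 : Polynomial.aeval (X.x0 K) f ∈ Ideal.span {r} := Ideal.Quotient.eq_zero_iff_mem.mp h0
  obtain ⟨s, hs⟩ := Ideal.mem_span_singleton'.mp h2
  exact ⟨f, s, hf, hs.symm⟩

theorem covF_all (v : secV N.A0 N.Ai) (hv : ∀ (b : X.B) (n : ℤ), covF h u b n v = 0)
    (r : X.R K) (n : ℤ) :
    u (Submodule.inclusion (show secV N.A0 N.Ai ≤ twT N.Ai from fun _ hm => hm.2)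
    (h.cfV ((T (-n) : K[T;T⁻¹]) • (r • (v : N.M))))) = 0 := by
  induction r using TensorProduct.induction_on with
  | zero => rw [zero_smul, smul_zero, map_zero, map_zero, map_zero]
  | add r s hr hs => rw [add_smul, smul_add, map_add, map_add, map_add, hr, hs, add_zero]
  | tmul a b =>
    have h1 : (a ⊗ₜ b : X.R K) • (v : N.M) = a • N.act b (v : N.M) := by
      rw [LB.act_apply, ← smul_assoc, TensorProduct.smul_tmul', smul_eq_mul, mul_one]
    rw [h1, smul_comm (T (-n) : K[T;T⁻¹]) a, map_smul, map_smul, map_smul]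
    have h2 := hv b n
    rw [covF] at h2
    rw [h2, smul_zero]

include heig hsurj in
/-- **the span lemma** -/
theorem span_cov (v : secV N.A0 N.Ai) (hv : ∀ (b : X.B) (n : ℤ), covF h u b n v = 0) :
    v = 0 := by
  by_contra hv0
  have hd : IsDomain (X.R0 K) := (X.ded0 K).toIsDomain
  have hinv := N.inv0
  obtain ⟨e, he, hp⟩ := exists_proportional (S := X.R0 K) (N := N.M0)
  obtain ⟨v', hv'⟩ := exists_u_ne_zero h u heig hsurj
  have hr : e ⟨v, v.2.1⟩ ≠ 0 := by
    intro h0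
    apply hv0
    have h1 : (⟨v, v.2.1⟩ : N.M0) = 0 := he (by rw [h0, map_zero])
    exact Subtype.ext (show (v : N.M) = 0 from congrArg Subtype.val h1)
  obtain ⟨f, s, hf, hs⟩ := exists_poly_mul _ hr
  -- `f(x) v' = s e(v') v`
  have h1 : X.J0 K (Polynomial.aeval (X.x0 K) f) • (v' : N.M) =
      X.J0 K (s * e ⟨v', v'.2.1⟩) • (v : N.M) := by
    have h2 := congrArg Subtype.val (hp ⟨v, v.2.1⟩ ⟨v', v'.2.1⟩)
    have h3 : X.J0 K (e ⟨v, v.2.1⟩) • (v' : N.M) = X.J0 K (e ⟨v', v'.2.1⟩) • (v : N.M) := by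
      rw [← N.smul0, ← N.smul0]
      exact h2
    rw [hs, map_mul, map_mul, mul_smul, mul_smul, h3]
  -- coefficients
  have h2 : ∀ n : ℕ, f.coeff n • u ⟨v', v'.2.2⟩ = 0 := by
    intro n
    have h3 := covF_all h u v hv (X.J0 K (s * e ⟨v', v'.2.1⟩)) n
    rw [← h1] at h3
    have h4 : X.J0 K (Polynomial.aeval (X.x0 K) f) • (v' : N.M) =
        ∑ j ∈ Finset.range (f.natDegree + 1), f.coeff j • ((T j : K[T;T⁻¹]) • (v' : N.M)) := by
      rw [Polynomial.aeval_eq_sum_range, map_sum, Finset.sum_smul]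
      refine Finset.sum_congr rfl fun j _ => ?_
      rw [map_smul, map_pow, X.J0_x0, smul_assoc]
      congr 1
      rw [LB.smul_lam, X.lam_T_nat]
    have h5 : h.cfV ((T (-(n : ℤ)) : K[T;T⁻¹]) • (X.J0 K (Polynomial.aeval (X.x0 K) f) •
        (v' : N.M))) = f.coeff n • v' := by
      rw [h4, Finset.smul_sum, map_sum]
      have h6 : ∀ j ∈ Finset.range (f.natDegree + 1), h.cfV ((T (-(n : ℤ)) : K[T;T⁻¹]) •
          (f.coeff j • ((T j : K[T;T⁻¹]) • (v' : N.M)))) = if n = j then f.coeff n • v' else 0 := by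
        intro j _
        rw [smul_comm, map_smul, T_smul_T_smul]
        split_ifs with hj
        · subst hj
          rw [neg_add_cancel, T_zero, one_smul, h.cfV_coe]
        · rw [h.cfV_T_smul v' (by omega), smul_zero]
      rw [Finset.sum_congr rfl h6, Finset.sum_ite_eq, ]
      split_ifs with hn
      · rfl
      · rw [Polynomial.coeff_eq_zero_of_natDegree_lt (by
          rw [Finset.mem_range] at hn; omega), zero_smul]
    rw [h5, map_smul, map_smul] at h3
    exact h3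
  apply hf
  ext n
  have h3 := h2 n
  rw [smul_eq_mul] at h3
  exact (mul_eq_zero.mp h3).resolve_right hv'

end Span

end Fermat.Agent.Jac
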