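import Fermat.Agent.Jac.BC
import Fermat.Agent.Jac.Half

set_option autoImplicit false

/-!
# Tensor products of line bundles on `C × Spec A`
-/

universe u

open TensorProduct

namespace Fermat.Agent.Jac

variable {k : Type u} [Field k] (X : CurveData k)

section Loc

variable (A : Type u) [CommRing A] [Algebra k A]

/-- powers of `x` -/
noncomputable abbrev CurveData.S0 : Submonoid (X.R0 A) := Submonoid.powers (X.x0 A)
/-- powers of `y` -/
noncomputable abbrev CurveData.Si : Submonoid (X.Ri A) := Submonoid.powers (X.yi A)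

theorem CurveData.isLocS0 : IsLocalization (X.S0 A) (X.R A) := X.isLocalization0 A
theorem CurveData.isLocSi : IsLocalization (X.Si A) (X.R A) := X.isLocalizationi A

theorem CurveData.S0_le : X.S0 A ≤ nonZeroDivisors (X.R0 A) := by
  rintro _ ⟨n, rfl⟩
  refine mem_nonZeroDivisors_of_injective (X.J0_injective A) ?_
  rw [map_pow, X.J0_x0]
  exact ((X.isUnit_xA A).pow n).mem_nonZeroDivisors
theorem CurveData.Si_le : X.Si A ≤ nonZeroDivisors (X.Ri A) := by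
  rintro _ ⟨n, rfl⟩
  refine mem_nonZeroDivisors_of_injective (X.Ji_injective A) ?_
  rw [map_pow, X.Ji_yi]
  exact ((X.isUnit_yA A).pow n).mem_nonZeroDivisors

end Loc

namespace LB

variable {X} {A : Type u} [CommRing A] [Algebra k A] {A' : Type u} [CommRing A'] [Algebra k A']

theorem exS0 (L : LB X A) (m : L.M) : ∃ s ∈ X.S0 A, s • m ∈ L.M0 := by
  obtain ⟨n, hn⟩ := L.ex0 m
  exact ⟨_, ⟨n, rfl⟩, by rw [L.smul0, map_pow, X.J0_x0]; exact hn⟩
theorem exSi (L : LB X A) (m : L.M) : ∃ s ∈ X.Si A, s • m ∈ L.Mi := by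
  obtain ⟨n, hn⟩ := L.exi m
  exact ⟨_, ⟨n, rfl⟩, by rw [L.smuli, map_pow, X.Ji_yi]; exact hn⟩

/-- the universal property of the tensor product -/
theorem tens_bijective {L L' L'' : LB X A} {β : L.M →ₗ[X.R A] L'.M →ₗ[X.R A] L''.M}
    (hβ : Submodule.span (X.R0 A) {m'' | ∃ m ∈ L.M0, ∃ m' ∈ L'.M0, β m m' = m''} = L''.M0) :
    Function.Bijective (TensorProduct.lift β) :=
  haveI := X.isLocS0 A
  Half.lift_bijective (X.S0 A) hβ L.inv0 L'.inv0 L''.inv0 L.exS0 L'.exS0 L''.exS0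

/-- existence of tensor products -/
noncomputable def tens (L L' : LB X A) : LB X A where
  M := L.M ⊗[X.R A] L'.M
  M0 := Half.sp L.M0 L'.M0 (TensorProduct.mk (X.R A) L.M L'.M)
  Mi := Half.sp L.Mi L'.Mi (TensorProduct.mk (X.R A) L.M L'.M)
  inv0 := haveI := X.isLocS0 A
    Half.sp_invertible (X.S0 A) (X.S0_le A) L.M0 L'.M0 L.inv0 L'.inv0 L.exS0 L'.exS0
  invi := haveI := X.isLocSi A
    Half.sp_invertible (X.Si A) (X.Si_le A) L.Mi L'.Mi L.invi L'.invi L.exSi L'.exSi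
  ex0 m := by
    have := X.isLocS0 A
    obtain ⟨_, ⟨n, rfl⟩, h⟩ := Half.sp_exh (X.S0 A) L.M0 L'.M0 (TensorProduct.mk (X.R A) L.M L'.M)
      L.exS0 L'.exS0 (by rw [TensorProduct.lift_mk]; exact Function.surjective_id) m
    refine ⟨n, ?_⟩
    have h2 : X.xA A ^ n • m = X.x0 A ^ n • m := by
      rw [← algebraMap_smul (X.R A) (X.x0 A ^ n) m, X.algebraMap0, map_pow, X.J0_x0]
    rw [h2]
    exact h
  exi m := by
    have := X.isLocSi A
    obtain ⟨_, ⟨n, rfl⟩, h⟩ := Half.sp_exh (X.Si A) L.Mi L'.Mi (TensorProduct.mk (X.R A) L.M L'.M)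
      L.exSi L'.exSi (by rw [TensorProduct.lift_mk]; exact Function.surjective_id) m
    refine ⟨n, ?_⟩
    have h2 : X.yA A ^ n • m = X.yi A ^ n • m := by
      rw [← algebraMap_smul (X.R A) (X.yi A ^ n) m, X.algebraMapi, map_pow, X.Ji_yi]
    rw [h2]
    exact h

theorem tens_tens (L L' : LB X A) : Tens L L' (tens L L') :=
  ⟨TensorProduct.mk (X.R A) L.M L'.M, rfl, rfl⟩

theorem exists_tens (L L' : LB X A) : ∃ L'', Tens L L' L'' := ⟨_, tens_tens L L'⟩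

/-- base change is compatible with tensor products -/
theorem Tens.bc {h : A →ₐ[k] A'} {L L' L'' : LB X A} {N N' N'' : LB X A'} (hT : Tens L L' L'')
    (hT' : Tens N N' N'') (hb : BC h L N) (hb' : BC h L' N') : BC h L'' N'' := by
  obtain ⟨β, hβ0, hβi⟩ := hT
  obtain ⟨γ, hγ0, hγi⟩ := hT'
  obtain ⟨⟨f, hf, hf0, hfi⟩⟩ := hb
  obtain ⟨⟨f', hf', hf0', hfi'⟩⟩ := hb'
  obtain ⟨f'', hf'', h3⟩ := Half.exists_semi (X.bb h : X.R A →+* X.R A') β (tens_bijective hβ0) γ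
    f f' hf hf'
  refine ⟨⟨f'', hf'', ?_, ?_⟩⟩
  · exact Half.span_semi (X.b0 h : X.R0 A →+* X.R0 A') (X.bb h : X.R A →+* X.R A')
      (fun r => X.bb_J0 h r) hf'' h3 hβ0 hf0 hf0' hγ0
  · exact Half.span_semi (X.bi h : X.Ri A →+* X.Ri A') (X.bb h : X.R A →+* X.R A')
      (fun r => X.bb_Ji h r) hf'' h3 hβi hfi hfi' hγi

theorem Tens.comm {L L' L'' : LB X A} (hT : Tens L L' L'') : Tens L' L L'' := by
  obtain ⟨β, hβ0, hβi⟩ := hT
  refine ⟨β.flip, ?_, ?_⟩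
  · rw [← hβ0]
    congr 1
    ext m
    exact ⟨fun ⟨a, ha, b, hb, h⟩ => ⟨b, hb, a, ha, h⟩, fun ⟨a, ha, b, hb, h⟩ => ⟨b, hb, a, ha, h⟩⟩
  · rw [← hβi]
    congr 1
    ext m
    exact ⟨fun ⟨a, ha, b, hb, h⟩ => ⟨b, hb, a, ha, h⟩, fun ⟨a, ha, b, hb, h⟩ => ⟨b, hb, a, ha, h⟩⟩

theorem tens_one (L : LB X A) : Tens (LB.one X A) L L := by
  refine ⟨LinearMap.lsmul (X.R A) L.M, ?_, ?_⟩
  · have h := Half.sp_lsmul (R := X.R A) L.M0
    exact h
  · have h := Half.sp_lsmul (R := X.R A) L.Mi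
    exact h

theorem Tens.assoc {L1 L2 L3 L12 L23 L : LB X A} (h12 : Tens L1 L2 L12) (h : Tens L12 L3 L)
    (h23 : Tens L2 L3 L23) : Tens L1 L23 L := by
  obtain ⟨β, hβ0, hβi⟩ := h12
  obtain ⟨γ, hγ0, hγi⟩ := h
  obtain ⟨δ, hδ0, hδi⟩ := h23
  obtain ⟨ε, hε⟩ := Half.exists_assoc β γ δ (tens_bijective hδ0)
  exact ⟨ε, Half.sp_assoc hε hβ0 hγ0 hδ0, Half.sp_assoc hε hβi hγi hδi⟩

/-- the dual line bundle -/
noncomputable def dual (L : LB X A) : LB X A where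
  M := L.M →ₗ[X.R A] X.R A
  M0 := Half.du (X.R A) L.M0
  Mi := Half.du (X.R A) L.Mi
  inv0 := haveI := X.isLocS0 A
    Half.du_invertible (X.S0 A) L.M0 L.exS0 (X.J0_injective A) L.inv0
  invi := haveI := X.isLocSi A
    Half.du_invertible (X.Si A) L.Mi L.exSi (X.Ji_injective A) L.invi
  ex0 φ := by
    have := X.isLocS0 A
    have := L.inv0
    obtain ⟨_, ⟨n, rfl⟩, h⟩ := Half.du_exh (R := X.R A) (X.S0 A) L.M0 φ
    refine ⟨n, ?_⟩
    have h2 : X.xA A ^ n • φ = X.x0 A ^ n • φ := by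
      rw [← algebraMap_smul (X.R A) (X.x0 A ^ n) φ, X.algebraMap0, map_pow, X.J0_x0]
    rw [h2]
    exact h
  exi φ := by
    have := X.isLocSi A
    have := L.invi
    obtain ⟨_, ⟨n, rfl⟩, h⟩ := Half.du_exh (R := X.R A) (X.Si A) L.Mi φ
    refine ⟨n, ?_⟩
    have h2 : X.yA A ^ n • φ = X.yi A ^ n • φ := by
      rw [← algebraMap_smul (X.R A) (X.yi A ^ n) φ, X.algebraMapi, map_pow, X.Ji_yi]
    rw [h2]
    exact h

theorem tens_dual (L : LB X A) : Tens L L.dual (LB.one X A) :=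
  ⟨Module.Dual.eval (X.R A) L.M,
    haveI := X.isLocS0 A
    Half.sp_du (X.S0 A) L.M0 L.exS0 (X.J0_injective A) L.inv0,
    haveI := X.isLocSi A
    Half.sp_du (X.Si A) L.Mi L.exSi (X.Ji_injective A) L.invi⟩

theorem exists_inv (L : LB X A) : ∃ L', Tens L L' (LB.one X A) := ⟨_, tens_dual L⟩

theorem Tens.congr_out {L L' L'' N'' : LB X A} (hT : Tens L L' L'') (h : Iso L'' N'') :
    Tens L L' N'' := by
  obtain ⟨β, hβ0, hβi⟩ := hT
  obtain ⟨φ⟩ := h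
  exact ⟨β.compr₂ φ.lin, (Half.sp_compr₂ hβ0 φ.lin).trans φ.span0,
    (Half.sp_compr₂ hβi φ.lin).trans φ.spani⟩

end LB

end Fermat.Agent.Jac
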