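import Fermat.Agent.Jac.ReprData
import Fermat.Agent.Jac.GeoStmt
import Fermat.Agent.Jac.PropJ

/-!
# Translation: the dictionary for the sub-presheaf of the relative Picard functor
-/

set_option autoImplicit false

universe u w

open CategoryTheory CategoryTheory.Limits AlgebraicGeometry AlgebraicGeometry.RelPicard
  NeronModelInfra GoodReductionJacobian Opposite TensorProduct

noncomputable section

namespace Fermat.Agent.Jac

variable {k : Type u} [Field k] {X : CurveData k}

namespace Trans

variable {A : Type u} [CommRing A] [Algebra k A] {A' : Type u} [CommRing A'] [Algebra k A']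
  {A'' : Type u} [CommRing A''] [Algebra k A'']

theorem bb_comp (h : A →ₐ[k] A') (h' : A' →ₐ[k] A'') (r : X.R A) :
    X.bb (h'.comp h) r = X.bb h' (X.bb h r) := by
  induction r using TensorProduct.induction_on with
  | zero => simp
  | tmul a b => simp [CurveData.bb]
  | add r s hr hs => rw [map_add, map_add, hr, hs, map_add]

theorem map_smul0 {h : A →ₐ[k] A'} {L : LB X A} {L' : LB X A'} (f : LB.Map h L L') (r : X.R0 A)
    (m : L.M) : f.f (r • m) = X.b0 h r • f.f m := by
  rw [L.smul0, f.map_smul, X.bb_J0, ← L'.smul0]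

theorem map_smuli {h : A →ₐ[k] A'} {L : LB X A} {L' : LB X A'} (f : LB.Map h L L') (r : X.Ri A)
    (m : L.M) : f.f (r • m) = X.bi h r • f.f m := by
  rw [L.smuli, f.map_smul, X.bb_Ji, ← L'.smuli]

/-- composition -/
def comp {h : A →ₐ[k] A'} {h' : A' →ₐ[k] A''} {L : LB X A} {L' : LB X A'} {L'' : LB X A''}
    (f : LB.Map h L L') (g : LB.Map h' L' L'') : LB.Map (h'.comp h) L L'' where
  f := g.f.comp f.f
  map_smul r m := by
    rw [AddMonoidHom.comp_apply, AddMonoidHom.comp_apply, f.map_smul, g.map_smul, bb_comp]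
  span0 := by
    apply le_antisymm
    · rw [Submodule.span_le]
      rintro _ ⟨m, hm, rfl⟩
      rw [← g.span0]
      refine Submodule.subset_span ⟨f.f m, ?_, rfl⟩
      rw [← f.span0]
      exact Submodule.subset_span ⟨m, hm, rfl⟩
    · rw [← g.span0, Submodule.span_le]
      rintro _ ⟨m', hm', rfl⟩
      rw [← f.span0] at hm'
      induction hm' using Submodule.span_induction with
      | mem m' h =>
        obtain ⟨m, hm, rfl⟩ := h
        exact Submodule.subset_span ⟨m, hm, rfl⟩
      | zero => rw [map_zero]; exact Submodule.zero_mem _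
      | add x y _ _ hx hy => rw [map_add]; exact Submodule.add_mem _ hx hy
      | smul r x _ hx =>
        rw [map_smul0]
        exact Submodule.smul_mem _ _ hx
  spani := by
    apply le_antisymm
    · rw [Submodule.span_le]
      rintro _ ⟨m, hm, rfl⟩
      rw [← g.spani]
      refine Submodule.subset_span ⟨f.f m, ?_, rfl⟩
      rw [← f.spani]
      exact Submodule.subset_span ⟨m, hm, rfl⟩
    · rw [← g.spani, Submodule.span_le]
      rintro _ ⟨m', hm', rfl⟩
      rw [← f.spani] at hm'
      induction hm' using Submodule.span_induction with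
      | mem m' h =>
        obtain ⟨m, hm, rfl⟩ := h
        exact Submodule.subset_span ⟨m, hm, rfl⟩
      | zero => rw [map_zero]; exact Submodule.zero_mem _
      | add x y _ _ hx hy => rw [map_add]; exact Submodule.add_mem _ hx hy
      | smul r x _ hx =>
        rw [map_smuli]
        exact Submodule.smul_mem _ _ hx

theorem bc_iso {h : A →ₐ[k] A'} {L : LB X A} {L' L'' : LB X A'} (h1 : LB.BC h L L')
    (h2 : LB.Iso L' L'') : LB.BC h L L'' := by
  obtain ⟨f⟩ := h1
  obtain ⟨g⟩ := h2
  exact ⟨comp f g⟩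

end Trans

variable {C : Scheme.{u}} {c : C ⟶ Spec (CommRingCat.of k)}
  {ε : SchemeHomOver (𝟙 (Spec (CommRingCat.of k))) c}

/-- **The dictionary** for the sub-presheaf of the relative Picard functor. -/
def dict (G : GeoData X c ε) (hcut : CutStmt G) (hbc : BCExists X) :
    Dict X (picSub c ε (algEquivZeroCut c ε)) where
  Rep {A} _ _ y E := ∃ (M : RigidifiedLineBundle c ε (tA k A)) (hM : FibrewiseAlgEquivZero M),
    picSub.mk (T := specO k A) (P := algEquivZeroCut c ε) M hM = y ∧ G.Rep M.L E
  exists_rep {A} _ _ y := by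
    obtain ⟨M, hM, rfl⟩ := picSub.exists_mk y
    obtain ⟨E, hE⟩ := G.exists_rep (A := A) M.L M.isInvertible
    exact ⟨E, (G.rig_iff M.isInvertible hE).1 M.rigidified, (hcut M E hE).1 hM, M, hM, rfl, hE⟩
  exists_elt {A} _ _ E hr hd := by
    obtain ⟨L, hL, hE⟩ := G.exists_mod E
    let M : RigidifiedLineBundle c ε (tA k A) := ⟨L, hL, (G.rig_iff hL hE).2 hr⟩
    have hM : FibrewiseAlgEquivZero M := (hcut M E hE).2 hd
    exact ⟨_, M, hM, rfl, hE⟩
  eq_iff {A} _ _ {y y' E E'} := by
    rintro ⟨M, hM, rfl, h⟩ ⟨M', hM', rfl, h'⟩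
    exact (picSub.mk_eq_iff (T := specO k A)).trans
      (G.iso_iff M.isInvertible M'.isInvertible h h')
  map_iff {A} _ _ {A'} _ _ h {y E E'} := by
    rintro ⟨M, hM, rfl, hE⟩
    have hM1 : FibrewiseAlgEquivZero (M.pullbackAlong (tMap h)) := hM.pullback _
    have e1 : (picSub c ε (algEquivZeroCut c ε)).map (specMapO h).op
        (picSub.mk (T := specO k A) (P := algEquivZeroCut c ε) M hM) =
          picSub.mk (T := specO k A') (P := algEquivZeroCut c ε)
            (M.pullbackAlong (tMap h)) hM1 := rfl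
    constructor
    · rintro ⟨M', hM', h1, h2⟩
      have h1' := (picSub.mk_eq_iff (T := specO k A')).1 (h1.trans e1)
      obtain ⟨E'', h3⟩ := hbc h E
      have h4 := G.bc h M.isInvertible hE h3
      have h5 := (G.iso_iff (M.pullbackAlong (tMap h)).isInvertible M'.isInvertible h4 h2).1
        ⟨h1'.some.symm⟩
      exact Trans.bc_iso h3 h5
    · intro h1
      exact ⟨M.pullbackAlong (tMap h), hM1, e1.symm, G.bc h M.isInvertible hE h1⟩

variable (c ε) in
/-- **Assembly**: the sub-functor of the relative Picard functor is represented by a smooth proper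
scheme over `k`. -/
theorem exists_smooth_proper (G : GeoData X c ε) (hcut : CutStmt G) (hbc : BCExists X)
    (hF : IsZarSheaf (picSub c ε (algEquivZeroCut c ε))) (Z : ChartsData X) (hU : UCStmt X) :
    ∃ D : RelativePic0Designation k c,
      Nonempty (RepresentsRelSubPic c ε (algEquivZeroCut c ε) D) ∧
        Smooth D.toBase ∧ IsProper D.toBase := by
  let Δ := dict G hcut hbc
  obtain ⟨J, ξ, a, h1, h2, h3, h4⟩ := Δ.exists_repr Z hF
  obtain ⟨z, hz, r, -⟩ := exists_representsRelSubPic ξ h4
  refine ⟨⟨J.left, J.hom, z, hz⟩, ⟨r⟩, ?_, ?_⟩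
  · exact smooth_of_repr a h1 h2 Z.smooth
  · refine isProper_of_repr a h4 h1 h2 (fun i => Δ.x Z i) h3 Z.fin Z.fintype ?_ ?_
    · intro K _ _ _ y y'
      obtain ⟨i, ⟨r, hr⟩, r', hr'⟩ := Δ.cover₂ Z y y'
      exact ⟨i, r, r', hr, hr'⟩
    · intro V _ _ _ _ K _ _ _ _ _ _ y
      exact Δ.exists_valuation hU (V := V) y

end Fermat.Agent.Jac
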