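import Fermat.Agent.Jac.Diag

set_option autoImplicit false

/-!
# Extending an ideal from one chart to the other
-/

open Module

namespace Fermat.Agent.Jac

/-- If `J * J'` is generated by a non-zero-divisor then `J` is invertible. -/
theorem invertible_of_mul_eq_span {S : Type*} [CommRing S] {J J' : Ideal S} {g : S}
    (hg : g ∈ nonZeroDivisors S) (h : J * J' = Ideal.span {g}) : Module.Invertible S J := by
  set Q := FractionRing S
  have hinj : Function.Injective (Algebra.linearMap S Q) := IsFractionRing.injective S Q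
  have hgu : IsUnit (algebraMap S Q g) := IsLocalization.map_units Q (⟨g, hg⟩ : nonZeroDivisors S)
  obtain ⟨u, hu⟩ := hgu
  set I1 : Submodule S Q := Submodule.map (Algebra.linearMap S Q) J with hI1
  set I2 : Submodule S Q := Submodule.map (Algebra.linearMap S Q) J' with hI2
  have h1 : I1 * I2 = Submodule.span S {algebraMap S Q g} := by
    have h2 : Submodule.map (Algebra.linearMap S Q) (J * J') = I1 * I2 := by
      rw [hI1, hI2]
      exact Submodule.map_mul J J' (Algebra.ofId S Q)
    rw [← h2, h]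
    rw [Ideal.span, Submodule.map_span, Set.image_singleton]
    rfl
  have h3 : I1 * (I2 * Submodule.span S {(↑u⁻¹ : Q)}) = 1 := by
    rw [← mul_assoc, h1, Submodule.span_mul_span, Set.singleton_mul_singleton, ← hu,
      Units.mul_inv, Submodule.one_eq_span]
  have h4 : IsUnit I1 := IsUnit.of_mul_eq_one _ h3
  obtain ⟨v, hv⟩ := h4
  let e : J ≃ₗ[S] (v : Submodule S Q) :=
    (Submodule.equivMapOfInjective _ hinj J).trans (LinearEquiv.ofEq _ _ hv.symm)
  exact Module.Invertible.congr e.symm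

/-- Two charts glued along the locus where `x0`, resp. `yi`, is invertible. -/
structure Glue {S0 Si R : Type*} [CommRing S0] [CommRing Si] [CommRing R] (j0 : S0 →+* R)
    (ji : Si →+* R) (x0 : S0) (yi : Si) : Prop where
  inj0 : Function.Injective j0
  inji : Function.Injective ji
  mul : j0 x0 * ji yi = 1
  loc0 : ∀ r : R, ∃ (n : ℕ) (s : S0), j0 x0 ^ n * r = j0 s
  loci : ∀ r : R, ∃ (n : ℕ) (s : Si), ji yi ^ n * r = ji s

namespace Glue

variable {S0 Si R : Type*} [CommRing S0] [CommRing Si] [CommRing R] {j0 : S0 →+* R}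
  {ji : Si →+* R} {x0 : S0} {yi : Si} (G : Glue j0 ji x0 yi)

include G

theorem symm : Glue ji j0 yi x0 where
  inj0 := G.inji
  inji := G.inj0
  mul := by rw [mul_comm]; exact G.mul
  loc0 := G.loci
  loci := G.loc0

omit G in
/-- An ideal of `Si` containing `1 + yi c` is determined by its localisation at `yi`. -/
theorem patch {J1 J2 : Ideal Si} {c : Si} (h1 : 1 + yi * c ∈ J1)
    (h : ∀ b ∈ J2, ∃ n : ℕ, yi ^ n * b ∈ J1) : J2 ≤ J1 := by
  intro b hb
  obtain ⟨n, hn⟩ := h b hb
  have hcop : IsCoprime (yi ^ n) (1 + yi * c) := by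
    apply IsCoprime.pow_left
    exact ⟨-c, 1, by ring⟩
  obtain ⟨u, v, huv⟩ := hcop
  have h2 : b = u * (yi ^ n * b) + (v * b) * (1 + yi * c) := by
    linear_combination (-b) * huv
  rw [h2]
  exact add_mem (Ideal.mul_mem_left _ _ hn) (Ideal.mul_mem_left _ _ h1)

theorem pow_mul_pow (n : ℕ) : j0 x0 ^ n * ji yi ^ n = 1 := by
  rw [← mul_pow, G.mul, one_pow]

/-- elements of `I R`, up to powers of `x0` -/
theorem exists_of_mem_map0 {I : Ideal S0} {r : R} (hr : r ∈ I.map j0) :
    ∃ (n : ℕ) (s : S0), s ∈ I ∧ j0 x0 ^ n * r = j0 s := by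
  rw [Ideal.map, ← Ideal.submodule_span_eq] at hr
  induction hr using Submodule.span_induction with
  | mem r hr =>
    obtain ⟨s, hs, rfl⟩ := hr
    exact ⟨0, s, hs, by rw [pow_zero, one_mul]⟩
  | zero => exact ⟨0, 0, I.zero_mem, by simp⟩
  | add r r' _ _ h h' =>
    obtain ⟨n, s, hs, e⟩ := h
    obtain ⟨n', s', hs', e'⟩ := h'
    refine ⟨n + n', x0 ^ n' * s + x0 ^ n * s', add_mem (Ideal.mul_mem_left _ _ hs)
      (Ideal.mul_mem_left _ _ hs'), ?_⟩
    rw [map_add, map_mul, map_mul, map_pow, map_pow, ← e, ← e']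
    ring
  | smul a r _ h =>
    obtain ⟨n, s, hs, e⟩ := h
    obtain ⟨m, t, ht⟩ := G.loc0 a
    refine ⟨n + m, t * s, Ideal.mul_mem_left _ _ hs, ?_⟩
    rw [smul_eq_mul, map_mul, ← e, ← ht]
    ring

theorem mem_map0_of_pow {I : Ideal S0} {r : R} {n : ℕ} (h : j0 x0 ^ n * r ∈ I.map j0) :
    r ∈ I.map j0 := by
  have h1 : r = ji yi ^ n * (j0 x0 ^ n * r) := by
    rw [← mul_assoc, mul_comm (ji yi ^ n), G.pow_mul_pow, one_mul]
  rw [h1]
  exact Ideal.mul_mem_left _ _ h

/-- the ideal on the other chart -/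
def other (_G : Glue j0 ji x0 yi) (I : Ideal S0) : Ideal Si := (I.map j0).comap ji

theorem mem_other {I : Ideal S0} {b : Si} : b ∈ G.other I ↔ ji b ∈ I.map j0 := Iff.rfl

/-- elements of `I R`, up to powers of `yi` -/
theorem exists_of_mem_mapi {I : Ideal S0} {r : R} (hr : r ∈ I.map j0) :
    ∃ (n : ℕ) (s : Si), s ∈ G.other I ∧ ji yi ^ n * r = ji s := by
  obtain ⟨n, s, hs⟩ := G.loci r
  exact ⟨n, s, by rw [G.mem_other, ← hs]; exact Ideal.mul_mem_left _ _ hr, hs⟩

theorem map_other (I : Ideal S0) : (G.other I).map ji = I.map j0 := by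
  apply le_antisymm
  · exact Ideal.map_comap_le
  · intro r hr
    obtain ⟨n, s, hs, h⟩ := G.exists_of_mem_mapi hr
    have h1 : r = j0 x0 ^ n * (ji yi ^ n * r) := by
      rw [← mul_assoc, G.pow_mul_pow, one_mul]
    rw [h1, h]
    exact Ideal.mul_mem_left _ _ (Ideal.mem_map_of_mem _ hs)

/-- products -/
theorem other_mul {I I' : Ideal S0} {c c' : Si} (h : 1 + yi * c ∈ G.other I)
    (h' : 1 + yi * c' ∈ G.other I') : G.other (I * I') = G.other I * G.other I' := by
  apply le_antisymm
  · refine patch (yi := yi) (c := c + c' + yi * c * c') ?_ ?_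
    · have h1 : 1 + yi * (c + c' + yi * c * c') = (1 + yi * c) * (1 + yi * c') := by ring
      rw [h1]
      exact Ideal.mul_mem_mul h h'
    · intro b hb
      rw [G.mem_other, Ideal.map_mul] at hb
      have key : ∀ r ∈ I.map j0 * I'.map j0, ∃ (n : ℕ) (s : Si), s ∈ G.other I * G.other I' ∧
          ji yi ^ n * r = ji s := by
        intro r hr
        refine Submodule.mul_induction_on hr ?_ ?_
        · intro a ha a' ha'
          obtain ⟨n, s, hs, e⟩ := G.exists_of_mem_mapi ha
          obtain ⟨n', s', hs', e'⟩ := G.exists_of_mem_mapi ha'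
          exact ⟨n + n', s * s', Ideal.mul_mem_mul hs hs', by rw [map_mul, ← e, ← e']; ring⟩
        · rintro a a' ⟨n, s, hs, e⟩ ⟨n', s', hs', e'⟩
          refine ⟨n + n', yi ^ n' * s + yi ^ n * s', add_mem (Ideal.mul_mem_left _ _ hs)
            (Ideal.mul_mem_left _ _ hs'), ?_⟩
          rw [map_add, map_mul, map_mul, map_pow, map_pow, ← e, ← e']
          ring
      obtain ⟨n, s, hs, e⟩ := key _ hb
      refine ⟨n, ?_⟩
      have h2 : yi ^ n * b = s := G.inji (by rw [map_mul, map_pow, e])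
      rw [h2]
      exact hs
  · rw [Ideal.mul_le]
    intro a ha a' ha'
    rw [G.mem_other, map_mul, Ideal.map_mul]
    exact Ideal.mul_mem_mul ha ha'

/-- the ideal generated by `f` with `f = x0 ^ e * g`, `g = 1 + yi * c` -/
theorem other_span {f : S0} {c : Si} {e : ℕ} (h : j0 f * ji yi ^ e = ji (1 + yi * c)) :
    G.other (Ideal.span {f}) = Ideal.span {1 + yi * c} := by
  have hmem : 1 + yi * c ∈ G.other (Ideal.span {f}) := by
    rw [G.mem_other, ← h]
    exact Ideal.mul_mem_right _ _ (Ideal.mem_map_of_mem _ (Ideal.mem_span_singleton_self f))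
  apply le_antisymm
  · refine patch (c := c) (Ideal.mem_span_singleton_self _) fun b hb => ?_
    rw [G.mem_other, Ideal.map_span, Set.image_singleton, Ideal.mem_span_singleton'] at hb
    obtain ⟨r, hr⟩ := hb
    obtain ⟨n, s, hs⟩ := G.loci r
    have h1 : j0 x0 ^ e * ji (1 + yi * c) = j0 f := by
      rw [← h, mul_comm (j0 f), ← mul_assoc, G.pow_mul_pow, one_mul]
    refine ⟨n + e, Ideal.mem_span_singleton'.2 ⟨s, G.inji ?_⟩⟩
    rw [map_mul, map_mul, map_pow, ← hs, ← hr, ← h1]
    have h2 := G.pow_mul_pow e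
    linear_combination (-(ji yi ^ n * r * ji (1 + yi * c))) * h2
  · rw [Ideal.span_singleton_le_iff_mem]
    exact hmem

/-- base change -/
theorem other_map {S0' Si' R' : Type*} [CommRing S0'] [CommRing Si'] [CommRing R']
    {j0' : S0' →+* R'} {ji' : Si' →+* R'} {x0' : S0'} {yi' : Si'} (G' : Glue j0' ji' x0' yi')
    (b0 : S0 →+* S0') (bi : Si →+* Si') (bb : R →+* R') (h0 : bb.comp j0 = j0'.comp b0)
    (hi : bb.comp ji = ji'.comp bi) (hy : bi yi = yi') {I : Ideal S0} {c : Si}
    (h : 1 + yi * c ∈ G.other I) : G'.other (I.map b0) = (G.other I).map bi := by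
  have e1 : (I.map b0).map j0' = ((G.other I).map bi).map ji' := by
    rw [Ideal.map_map, ← h0, ← Ideal.map_map, ← G.map_other, Ideal.map_map, hi, ← Ideal.map_map]
  apply le_antisymm
  · refine patch (yi := yi') (c := bi c) ?_ fun b hb => ?_
    · have h1 := Ideal.mem_map_of_mem bi h
      rwa [map_add, map_mul, map_one, hy] at h1
    · rw [G'.mem_other, e1] at hb
      obtain ⟨n, s, hs, e⟩ := G'.symm.exists_of_mem_map0 hb
      refine ⟨n, ?_⟩
      have h2 : yi' ^ n * b = s := G'.inji (by rw [map_mul, map_pow, e])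
      rw [h2]
      exact hs
  · rw [Ideal.map_le_iff_le_comap]
    intro b hb
    rw [Ideal.mem_comap, G'.mem_other, e1]
    exact Ideal.mem_map_of_mem _ (Ideal.mem_map_of_mem _ hb)

end Glue

end Fermat.Agent.Jac
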