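import Fermat.Agent.Jac.Def
import Fermat.Agent.Jac.TwistRing
import Fermat.Agent.Jac.NzdMonic
import Fermat.Agent.Jac.InvBC

set_option autoImplicit false

/-!
# Line bundles `O(-D)`
-/

universe u

open scoped TensorProduct
open Polynomial

namespace Fermat.Agent.Jac

/-! ## Submodules of ideals -/

section Sub

variable {S R : Type*} [CommRing S] [CommRing R] [Algebra S R]

/-- the `S`-submodule of the ideal `J` of `R` generated by the ideal `K` of `S` -/
def sub (J : Ideal R) (K : Ideal S) : Submodule S J :=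
  Submodule.comap (J.subtype.restrictScalars S) (Submodule.map (Algebra.linearMap S R) K)

theorem mem_sub {J : Ideal R} {K : Ideal S} {m : J} :
    m ∈ sub J K ↔ ∃ s ∈ K, algebraMap S R s = m := Iff.rfl

theorem invertible_sub (hinj : Function.Injective (algebraMap S R)) {J : Ideal R} {K : Ideal S}
    (hK : K.map (algebraMap S R) ≤ J) (hinv : Module.Invertible S K) :
    Module.Invertible S (sub J K) := by
  let f : K →ₗ[S] sub J K :=
    { toFun := fun s => ⟨⟨algebraMap S R s, hK (Ideal.mem_map_of_mem _ s.2)⟩, ⟨s, s.2, rfl⟩⟩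
      map_add' := fun s t => Subtype.ext (Subtype.ext (map_add _ _ _))
      map_smul' := fun r s => Subtype.ext (Subtype.ext (by
        change algebraMap S R (r * s) = r • algebraMap S R s
        rw [map_mul, Algebra.smul_def])) }
  have hf : Function.Bijective f := by
    constructor
    · intro s t hst
      exact Subtype.ext (hinj (congrArg (fun m => ((m : J) : R)) (congrArg Subtype.val hst)))
    · rintro ⟨m, s, hs, hm⟩
      exact ⟨⟨s, hs⟩, Subtype.ext (Subtype.ext hm)⟩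
  exact Module.Invertible.congr (LinearEquiv.ofBijective f hf)

end Sub

variable {k : Type u} [Field k] (X : CurveData k)

section

variable (A : Type u) [CommRing A] [Algebra k A]

/-- the two charts -/
theorem CurveData.glue : Glue (algebraMap (X.R0 A) (X.R A)) (algebraMap (X.Ri A) (X.R A))
    (X.x0 A) (X.yi A) where
  inj0 := X.J0_injective A
  inji := X.Ji_injective A
  mul := by
    change X.J0 A (X.x0 A) * X.Ji A (X.yi A) = 1
    rw [X.J0_x0, X.Ji_yi, X.xA_yA]
  loc0 r := by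
    obtain ⟨n, s, h⟩ := X.exists_pow_mul_xA A r
    refine ⟨n, s, ?_⟩
    change X.J0 A (X.x0 A) ^ n * r = X.J0 A s
    rw [X.J0_x0, h]
  loci r := by
    obtain ⟨n, s, h⟩ := X.exists_pow_mul_yA A r
    refine ⟨n, s, ?_⟩
    change X.Ji A (X.yi A) ^ n * r = X.Ji A s
    rw [X.Ji_yi, h]

end

section Div

variable {X} {A : Type u} [CommRing A] [Algebra k A] {A' : Type u} [CommRing A'] [Algebra k A']

/-- An effective Cartier divisor on `C × Spec A`, flat over `A`: a pair of ideals which agree over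
`V₀ ∩ V∞` and are invertible after every base change. -/
structure IsDiv (K0 : Ideal (X.R0 A)) (Ki : Ideal (X.Ri A)) : Prop where
  glue : K0.map (algebraMap (X.R0 A) (X.R A)) = Ki.map (algebraMap (X.Ri A) (X.R A))
  inv0 : ∀ (A' : Type u) [CommRing A'] [Algebra k A'] (h : A →ₐ[k] A'),
    Module.Invertible (X.R0 A') (K0.map (X.b0 h))
  invi : ∀ (A' : Type u) [CommRing A'] [Algebra k A'] (h : A →ₐ[k] A'),
    Module.Invertible (X.Ri A') (Ki.map (X.bi h))

theorem CurveData.b0_id : X.b0 (AlgHom.id k A) = AlgHom.id k (X.R0 A) :=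
  Algebra.TensorProduct.map_id
theorem CurveData.bi_id : X.bi (AlgHom.id k A) = AlgHom.id k (X.Ri A) :=
  Algebra.TensorProduct.map_id

theorem IsDiv.inv0' {K0 : Ideal (X.R0 A)} {Ki : Ideal (X.Ri A)} (h : IsDiv K0 Ki) :
    Module.Invertible (X.R0 A) K0 := by
  have h1 := h.inv0 A (AlgHom.id k A)
  rw [CurveData.b0_id] at h1
  have h2 : K0.map (AlgHom.id k (X.R0 A)) = K0 := Ideal.map_id K0
  rwa [h2] at h1

theorem IsDiv.invi' {K0 : Ideal (X.R0 A)} {Ki : Ideal (X.Ri A)} (h : IsDiv K0 Ki) :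
    Module.Invertible (X.Ri A) Ki := by
  have h1 := h.invi A (AlgHom.id k A)
  rw [CurveData.bi_id] at h1
  have h2 : Ki.map (AlgHom.id k (X.Ri A)) = Ki := Ideal.map_id Ki
  rwa [h2] at h1

/-- **The line bundle `O(-D)`** of the effective divisor with ideals `K0`, `Ki`. -/
noncomputable def LB.div (K0 : Ideal (X.R0 A)) (Ki : Ideal (X.Ri A)) (h : IsDiv K0 Ki) :
    LB X A where
  M := (K0.map (algebraMap (X.R0 A) (X.R A)) : Ideal (X.R A))
  M0 := sub _ K0
  Mi := sub _ Ki
  inv0 := invertible_sub (X.J0_injective A) le_rfl h.inv0'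
  invi := invertible_sub (X.Ji_injective A) h.glue.ge h.invi'
  ex0 m := by
    obtain ⟨n, s, hs, e⟩ := (X.glue A).exists_of_mem_map0 m.2
    refine ⟨n, s, hs, e.symm.trans ?_⟩
    change X.J0 A (X.x0 A) ^ n * (m : X.R A) = X.xA A ^ n * (m : X.R A)
    rw [X.J0_x0]
  exi m := by
    have hm : (m : X.R A) ∈ Ki.map (algebraMap (X.Ri A) (X.R A)) := h.glue ▸ m.2
    obtain ⟨n, s, hs, e⟩ := (X.glue A).symm.exists_of_mem_map0 hm
    refine ⟨n, s, hs, e.symm.trans ?_⟩
    change X.Ji A (X.yi A) ^ n * (m : X.R A) = X.yA A ^ n * (m : X.R A)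
    rw [X.Ji_yi]

theorem CurveData.b0_comp {A'' : Type u} [CommRing A''] [Algebra k A''] (h : A →ₐ[k] A')
    (g : A' →ₐ[k] A'') : X.b0 (g.comp h) = (X.b0 g).comp (X.b0 h) := by
  apply Algebra.TensorProduct.ext'
  intro a b
  simp [CurveData.b0]
theorem CurveData.bi_comp {A'' : Type u} [CommRing A''] [Algebra k A''] (h : A →ₐ[k] A')
    (g : A' →ₐ[k] A'') : X.bi (g.comp h) = (X.bi g).comp (X.bi h) := by
  apply Algebra.TensorProduct.ext'
  intro a b
  simp [CurveData.bi]

theorem CurveData.bb_comp_0 (h : A →ₐ[k] A') :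
    (X.bb h : X.R A →+* X.R A').comp (algebraMap (X.R0 A) (X.R A)) =
      (algebraMap (X.R0 A') (X.R A')).comp (X.b0 h : X.R0 A →+* X.R0 A') :=
  RingHom.ext fun r => X.bb_J0 h r
theorem CurveData.bb_comp_i (h : A →ₐ[k] A') :
    (X.bb h : X.R A →+* X.R A').comp (algebraMap (X.Ri A) (X.R A)) =
      (algebraMap (X.Ri A') (X.R A')).comp (X.bi h : X.Ri A →+* X.Ri A') :=
  RingHom.ext fun r => X.bb_Ji h r

theorem map_map0 (h : A →ₐ[k] A') (K0 : Ideal (X.R0 A)) :
    (K0.map (X.b0 h)).map (algebraMap (X.R0 A') (X.R A')) =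
      (K0.map (algebraMap (X.R0 A) (X.R A))).map (X.bb h : X.R A →+* X.R A') := by
  rw [Ideal.map_map, CurveData.bb_comp_0]
  exact Ideal.map_map (X.b0 h : X.R0 A →+* X.R0 A') _
theorem map_mapi (h : A →ₐ[k] A') (Ki : Ideal (X.Ri A)) :
    (Ki.map (X.bi h)).map (algebraMap (X.Ri A') (X.R A')) =
      (Ki.map (algebraMap (X.Ri A) (X.R A))).map (X.bb h : X.R A →+* X.R A') := by
  rw [Ideal.map_map, CurveData.bb_comp_i]
  exact Ideal.map_map (X.bi h : X.Ri A →+* X.Ri A') _

/-- base change of divisors -/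
theorem IsDiv.map {K0 : Ideal (X.R0 A)} {Ki : Ideal (X.Ri A)} (hK : IsDiv K0 Ki)
    (h : A →ₐ[k] A') : IsDiv (K0.map (X.b0 h)) (Ki.map (X.bi h)) where
  glue := by rw [map_map0, map_mapi, hK.glue]
  inv0 A'' _ _ g := by
    have h1 := hK.inv0 A'' (g.comp h)
    rw [CurveData.b0_comp] at h1
    have h2 : K0.map ((X.b0 g).comp (X.b0 h)) = (K0.map (X.b0 h)).map (X.b0 g) :=
      (Ideal.map_map (X.b0 h : X.R0 A →+* X.R0 A') (X.b0 g : X.R0 A' →+* X.R0 A'')).symm
    rwa [h2] at h1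
  invi A'' _ _ g := by
    have h1 := hK.invi A'' (g.comp h)
    rw [CurveData.bi_comp] at h1
    have h2 : Ki.map ((X.bi g).comp (X.bi h)) = (Ki.map (X.bi h)).map (X.bi g) :=
      (Ideal.map_map (X.bi h : X.Ri A →+* X.Ri A') (X.bi g : X.Ri A' →+* X.Ri A'')).symm
    rwa [h2] at h1

/-- sums of divisors -/
theorem IsDiv.mul {K0 K0' : Ideal (X.R0 A)} {Ki Ki' : Ideal (X.Ri A)} (hK : IsDiv K0 Ki)
    (hK' : IsDiv K0' Ki') : IsDiv (K0 * K0') (Ki * Ki') where
  glue := by rw [Ideal.map_mul, Ideal.map_mul, hK.glue, hK'.glue]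
  inv0 A'' _ _ g := by
    have h1 := hK.inv0 A'' g
    have h2 := hK'.inv0 A'' g
    rw [Ideal.map_mul]
    exact invertible_mul _ _
  invi A'' _ _ g := by
    have h1 := hK.invi A'' g
    have h2 := hK'.invi A'' g
    rw [Ideal.map_mul]
    exact invertible_mul _ _

theorem IsDiv.top : IsDiv (⊤ : Ideal (X.R0 A)) (⊤ : Ideal (X.Ri A)) where
  glue := by rw [Ideal.map_top, Ideal.map_top]
  inv0 A'' _ _ g := by
    rw [Ideal.map_top]
    exact Module.Invertible.congr (Submodule.topEquiv (R := X.R0 A'') (M := X.R0 A'')).symm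
  invi A'' _ _ g := by
    rw [Ideal.map_top]
    exact Module.Invertible.congr (Submodule.topEquiv (R := X.Ri A'') (M := X.Ri A'')).symm

theorem IsDiv.prod {ι : Type*} (s : Finset ι) {K0 : ι → Ideal (X.R0 A)} {Ki : ι → Ideal (X.Ri A)}
    (h : ∀ i ∈ s, IsDiv (K0 i) (Ki i)) : IsDiv (∏ i ∈ s, K0 i) (∏ i ∈ s, Ki i) := by
  classical
  induction s using Finset.induction_on with
  | empty =>
    rw [Finset.prod_empty, Finset.prod_empty, Ideal.one_eq_top, Ideal.one_eq_top]
    exact IsDiv.top (X := X) (A := A)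
  | insert a s ha ih =>
    rw [Finset.prod_insert ha, Finset.prod_insert ha]
    exact (h a (Finset.mem_insert_self a s)).mul
      (ih fun i hi => h i (Finset.mem_insert_of_mem hi))

/-- semilinear image of `sub` -/
theorem span_image_sub {S R S' R' : Type*} [CommRing S] [CommRing R] [Algebra S R] [CommRing S']
    [CommRing R'] [Algebra S' R'] (b : S →+* S') (bb : R →+* R')
    (hb : bb.comp (algebraMap S R) = (algebraMap S' R').comp b) {J : Ideal R} {J' : Ideal R'}
    {K : Ideal S} (hJ : K.map (algebraMap S R) ≤ J) (f : J →+ J')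
    (hf : ∀ m : J, (f m : R') = bb m) :
    Submodule.span S' (f '' (sub J K : Set J)) = sub J' (K.map b) := by
  apply le_antisymm
  · rw [Submodule.span_le]
    rintro _ ⟨m, ⟨s, hs, e⟩, rfl⟩
    refine ⟨b s, Ideal.mem_map_of_mem _ hs, ?_⟩
    change algebraMap S' R' (b s) = (f m : R')
    rw [hf]
    change algebraMap S R s = (m : R) at e
    rw [← e]
    exact (RingHom.congr_fun hb s).symm
  · rintro m ⟨s', hs', e⟩
    have key : ∀ s' ∈ K.map b, ∃ n ∈ Submodule.span S' (f '' (sub J K : Set J)),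
        (n : R') = algebraMap S' R' s' := by
      intro s' hs'
      rw [Ideal.map, ← Ideal.submodule_span_eq] at hs'
      induction hs' using Submodule.span_induction with
      | mem r hr =>
        obtain ⟨s, hs, rfl⟩ := hr
        refine ⟨f ⟨algebraMap S R s, hJ (Ideal.mem_map_of_mem _ hs)⟩,
          Submodule.subset_span ⟨_, ⟨s, hs, rfl⟩, rfl⟩, ?_⟩
        rw [hf]
        exact RingHom.congr_fun hb s
      | zero => exact ⟨0, zero_mem _, by rw [map_zero]; rfl⟩
      | add r r' _ _ h h' =>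
        obtain ⟨n, hn, e⟩ := h
        obtain ⟨n', hn', e'⟩ := h'
        exact ⟨n + n', add_mem hn hn', by rw [map_add, ← e, ← e']; rfl⟩
      | smul a r _ h =>
        obtain ⟨n, hn, e⟩ := h
        refine ⟨a • n, Submodule.smul_mem _ _ hn, ?_⟩
        rw [smul_eq_mul, map_mul, ← e, ← Algebra.smul_def]
        rfl
    obtain ⟨n, hn, e'⟩ := key s' hs'
    change algebraMap S' R' s' = (m : R') at e
    have : m = n := Subtype.ext (by rw [← e, e'])
    rw [this]
    exact hn

/-- **Base change of `O(-D)`.** -/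
theorem LB.div_bc {K0 : Ideal (X.R0 A)} {Ki : Ideal (X.Ri A)} (hK : IsDiv K0 Ki)
    (h : A →ₐ[k] A') : LB.BC h (LB.div K0 Ki hK)
      (LB.div (K0.map (X.b0 h)) (Ki.map (X.bi h)) (hK.map h)) := by
  let f : (K0.map (algebraMap (X.R0 A) (X.R A)) : Ideal (X.R A)) →+
      ((K0.map (X.b0 h)).map (algebraMap (X.R0 A') (X.R A')) : Ideal (X.R A')) :=
    { toFun := fun m => ⟨X.bb h m, by
        rw [map_map0]
        exact Ideal.mem_map_of_mem (X.bb h : X.R A →+* X.R A') m.2⟩
      map_zero' := Subtype.ext (map_zero (X.bb h))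
      map_add' := fun m n => Subtype.ext (map_add (X.bb h) _ _) }
  refine ⟨⟨f, ?_, ?_, ?_⟩⟩
  · intro (r : X.R A) (m : (K0.map (algebraMap (X.R0 A) (X.R A)) : Ideal (X.R A)))
    refine Subtype.ext ?_
    change X.bb h (r * (m : X.R A)) = X.bb h r * X.bb h (m : X.R A)
    exact map_mul _ _ _
  · exact span_image_sub (X.b0 h : X.R0 A →+* X.R0 A') (X.bb h : X.R A →+* X.R A')
      (CurveData.bb_comp_0 h) le_rfl f (fun m => rfl)
  · exact span_image_sub (X.bi h : X.Ri A →+* X.Ri A') (X.bb h : X.R A →+* X.R A')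
      (CurveData.bb_comp_i h) hK.glue.ge f (fun m => rfl)

theorem LB.div_congr {K0 K0' : Ideal (X.R0 A)} {Ki Ki' : Ideal (X.Ri A)} (hK : IsDiv K0 Ki)
    (hK' : IsDiv K0' Ki') (h0 : K0 = K0') (hi : Ki = Ki') : LB.div K0 Ki hK = LB.div K0' Ki' hK' := by
  subst h0 hi
  rfl

/-- multiplication of ideals -/
def mulBil {R : Type*} [CommRing R] {J J' J'' : Ideal R} (h : J * J' ≤ J'') :
    J →ₗ[R] J' →ₗ[R] J'' :=
  LinearMap.mk₂ R (fun m m' => (⟨m * m', h (Ideal.mul_mem_mul m.2 m'.2)⟩ : J''))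
    (fun a b c => Subtype.ext (add_mul (a : R) b c))
    (fun r a b => Subtype.ext (mul_assoc r (a : R) b))
    (fun a b c => Subtype.ext (mul_add (a : R) b c))
    (fun r a b => Subtype.ext (mul_left_comm (a : R) r b))

theorem mulBil_coe {R : Type*} [CommRing R] {J J' J'' : Ideal R} (h : J * J' ≤ J'') (m : J)
    (m' : J') : (mulBil h m m' : R) = m * m' := rfl

theorem span_mul_sub {S R : Type*} [CommRing S] [CommRing R] [Algebra S R]
    {J J' J'' : Ideal R} (h : J * J' ≤ J'') {K K' : Ideal S}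
    (hJ : K.map (algebraMap S R) ≤ J) (hJ' : K'.map (algebraMap S R) ≤ J') :
    Submodule.span S {m'' | ∃ m ∈ sub J K, ∃ m' ∈ sub J' K', mulBil h m m' = m''} =
      sub J'' (K * K') := by
  apply le_antisymm
  · rw [Submodule.span_le]
    rintro _ ⟨m, ⟨s, hs, e⟩, m', ⟨s', hs', e'⟩, rfl⟩
    refine ⟨s * s', Ideal.mul_mem_mul hs hs', ?_⟩
    change algebraMap S R (s * s') = (m : R) * (m' : R)
    change algebraMap S R s = (m : R) at e
    change algebraMap S R s' = (m' : R) at e'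
    rw [map_mul, e, e']
  · rintro m ⟨t, ht, e⟩
    have key : ∀ t ∈ K * K', ∃ n ∈ Submodule.span S
        {m'' | ∃ m ∈ sub J K, ∃ m' ∈ sub J' K', mulBil h m m' = m''},
        (n : R) = algebraMap S R t := by
      intro t ht
      refine Submodule.mul_induction_on ht ?_ ?_
      · intro s hs s' hs'
        refine ⟨_, Submodule.subset_span
          ⟨⟨algebraMap S R s, hJ (Ideal.mem_map_of_mem _ hs)⟩, ⟨s, hs, rfl⟩,
           ⟨algebraMap S R s', hJ' (Ideal.mem_map_of_mem _ hs')⟩, ⟨s', hs', rfl⟩, rfl⟩, ?_⟩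
        rw [mulBil_coe, map_mul (algebraMap S R)]
      · rintro r r' ⟨n, hn, e⟩ ⟨n', hn', e'⟩
        exact ⟨n + n', add_mem hn hn', by rw [map_add, ← e, ← e']; rfl⟩
    obtain ⟨n, hn, e'⟩ := key t ht
    change algebraMap S R t = (m : R) at e
    have : m = n := Subtype.ext (by rw [← e, e'])
    rw [this]
    exact hn

/-- **Products.** -/
theorem LB.div_tens {K0 K0' : Ideal (X.R0 A)} {Ki Ki' : Ideal (X.Ri A)} (hK : IsDiv K0 Ki)
    (hK' : IsDiv K0' Ki') : LB.Tens (LB.div K0 Ki hK) (LB.div K0' Ki' hK')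
      (LB.div (K0 * K0') (Ki * Ki') (hK.mul hK')) := by
  have h : K0.map (algebraMap (X.R0 A) (X.R A)) * K0'.map (algebraMap (X.R0 A) (X.R A)) ≤
      (K0 * K0').map (algebraMap (X.R0 A) (X.R A)) := (Ideal.map_mul _ _ _).ge
  exact ⟨mulBil h, span_mul_sub h le_rfl le_rfl, span_mul_sub h hK.glue.ge hK'.glue.ge⟩

/-- the trivial divisor -/
theorem LB.div_top : LB.Iso (LB.one X A) (LB.div ⊤ ⊤ IsDiv.top) := by
  have hbb : ∀ r : X.R A, X.bb (AlgHom.id k A) r = r := fun r => by
    have h1 : X.bb (AlgHom.id k A) = AlgHom.id k (X.R A) := Algebra.TensorProduct.map_id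
    rw [h1]
    rfl
  have htop : ∀ r : X.R A, r ∈ (⊤ : Ideal (X.R0 A)).map (algebraMap (X.R0 A) (X.R A)) := fun r => by
    rw [Ideal.map_top]
    trivial
  let f : X.R A →+ ((⊤ : Ideal (X.R0 A)).map (algebraMap (X.R0 A) (X.R A)) : Ideal (X.R A)) :=
    { toFun := fun m => ⟨m, htop m⟩
      map_zero' := rfl
      map_add' := fun m n => rfl }
  have h0 : f '' (LinearMap.range (Algebra.linearMap (X.R0 A) (X.R A)) : Set (X.R A)) =
      ((sub ((⊤ : Ideal (X.R0 A)).map (algebraMap (X.R0 A) (X.R A))) (⊤ : Ideal (X.R0 A)) :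
        Submodule (X.R0 A) _) : Set _) := by
    ext m
    constructor
    · rintro ⟨_, ⟨s, rfl⟩, rfl⟩
      exact ⟨s, trivial, rfl⟩
    · rintro ⟨s, _, hs⟩
      exact ⟨m, ⟨s, hs⟩, rfl⟩
  have hi : f '' (LinearMap.range (Algebra.linearMap (X.Ri A) (X.R A)) : Set (X.R A)) =
      ((sub ((⊤ : Ideal (X.R0 A)).map (algebraMap (X.R0 A) (X.R A))) (⊤ : Ideal (X.Ri A)) :
        Submodule (X.Ri A) _) : Set _) := by
    ext m
    constructor
    · rintro ⟨_, ⟨s, rfl⟩, rfl⟩
      exact ⟨s, trivial, rfl⟩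
    · rintro ⟨s, _, hs⟩
      exact ⟨m, ⟨s, hs⟩, rfl⟩
  refine ⟨⟨f, ?_, ?_, ?_⟩⟩
  · intro (r : X.R A) (m : X.R A)
    refine Subtype.ext ?_
    change r * m = X.bb (AlgHom.id k A) r * m
    rw [hbb]
  · change Submodule.span _ (f '' (LinearMap.range (Algebra.linearMap (X.R0 A) (X.R A)) :
      Set (X.R A))) = sub _ ⊤
    rw [h0, Submodule.span_eq]
  · change Submodule.span _ (f '' (LinearMap.range (Algebra.linearMap (X.Ri A) (X.R A)) :
      Set (X.R A))) = sub _ ⊤
    rw [hi, Submodule.span_eq]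

end Div

end Fermat.Agent.Jac
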