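import Fermat.Agent.Jac.Twist
import Fermat.Agent.Jac.GlueEff
import Fermat.Agent.Jac.LBLat

set_option autoImplicit false

/-!
# Effective divisors supported in one of the charts
-/

universe u

open scoped TensorProduct
open Polynomial

namespace Fermat.Agent.Jac

theorem mul_mul_mul_span {S : Type*} [CommRing S] {I J I' J' : Ideal S} {a b : S}
    (h : I * I' = Ideal.span {a}) (h' : J * J' = Ideal.span {b}) :
    I * J * (I' * J') = Ideal.span {a * b} := by
  rw [mul_mul_mul_comm, h, h', Ideal.span_singleton_mul_span_singleton]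

variable {k : Type u} [Field k] {X : CurveData k}

section

variable {A : Type u} [CommRing A] [Algebra k A] {A' : Type u} [CommRing A'] [Algebra k A']

theorem CurveData.aeval_x0_mem (X : CurveData k) {p : A[X]} (hp : p.Monic) :
    aeval (X.x0 A) p ∈ nonZeroDivisors (X.R0 A) := by
  exact aeval_mem_nonZeroDivisors X.trans0 hp
theorem CurveData.aeval_yi_mem (X : CurveData k) {p : A[X]} (hp : p.Monic) :
    aeval (X.yi A) p ∈ nonZeroDivisors (X.Ri A) := by
  exact aeval_mem_nonZeroDivisors X.transi hp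

theorem CurveData.algebraMap_comp (X : CurveData k) (A : Type u) [CommRing A] [Algebra k A] :
    (algebraMap (X.R0 A) (X.R A)).comp (algebraMap A (X.R0 A)) =
      (algebraMap (X.Ri A) (X.R A)).comp (algebraMap A (X.Ri A)) :=
  RingHom.ext fun a => (((X.J0 A).commutes a).trans ((X.Ji A).commutes a).symm)

theorem CurveData.b0_x0 (h : A →ₐ[k] A') : X.b0 h (X.x0 A) = X.x0 A' := by
  simp [CurveData.b0, CurveData.x0]
theorem CurveData.bi_yi (h : A →ₐ[k] A') : X.bi h (X.yi A) = X.yi A' := by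
  simp [CurveData.bi, CurveData.yi]
theorem CurveData.b0_aeval (h : A →ₐ[k] A') (p : A[X]) :
    X.b0 h (aeval (X.x0 A) p) = aeval (X.x0 A') (p.map (h : A →+* A')) := by
  have h1 : (X.b0 h : X.R0 A →+* X.R0 A').comp (algebraMap A (X.R0 A)) =
      (algebraMap A' (X.R0 A')).comp (h : A →+* A') :=
    RingHom.ext fun a => by simp [CurveData.b0]
  rw [aeval_def, aeval_def, eval₂_map]
  change (X.b0 h : X.R0 A →+* X.R0 A') _ = _
  rw [hom_eval₂, h1, ← CurveData.b0_x0 h]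
  rfl
theorem CurveData.bi_aeval (h : A →ₐ[k] A') (p : A[X]) :
    X.bi h (aeval (X.yi A) p) = aeval (X.yi A') (p.map (h : A →+* A')) := by
  have h1 : (X.bi h : X.Ri A →+* X.Ri A').comp (algebraMap A (X.Ri A)) =
      (algebraMap A' (X.Ri A')).comp (h : A →+* A') :=
    RingHom.ext fun a => by simp [CurveData.bi]
  rw [aeval_def, aeval_def, eval₂_map]
  change (X.bi h : X.Ri A →+* X.Ri A') _ = _
  rw [hom_eval₂, h1, ← CurveData.bi_yi h]
  rfl

/-- Effective divisors supported in `V₀ × Spec A`, flat over `A`. -/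
def IsEff0 (I : Ideal (X.R0 A)) : Prop :=
  ∃ (I' : Ideal (X.R0 A)) (p : A[X]), p.Monic ∧ I * I' = Ideal.span {aeval (X.x0 A) p}
/-- Effective divisors supported in `V∞ × Spec A`, flat over `A`. -/
def IsEffi (I : Ideal (X.Ri A)) : Prop :=
  ∃ (I' : Ideal (X.Ri A)) (p : A[X]), p.Monic ∧ I * I' = Ideal.span {aeval (X.yi A) p}

theorem IsEff0.eff {I : Ideal (X.R0 A)} (h : IsEff0 I) : (X.glue A).Eff I := by
  obtain ⟨I', p, hp, h1⟩ := h
  exact (X.glue A).eff_of_monic (X.algebraMap_comp A) hp (X.aeval_x0_mem hp) h1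
theorem IsEffi.eff {I : Ideal (X.Ri A)} (h : IsEffi I) : (X.glue A).symm.Eff I := by
  obtain ⟨I', p, hp, h1⟩ := h
  exact (X.glue A).symm.eff_of_monic (X.algebraMap_comp A).symm hp (X.aeval_yi_mem hp) h1

theorem IsEff0.mul {I J : Ideal (X.R0 A)} (hI : IsEff0 I) (hJ : IsEff0 J) : IsEff0 (I * J) := by
  obtain ⟨I', p, hp, h1⟩ := hI
  obtain ⟨J', q, hq, h2⟩ := hJ
  refine ⟨I' * J', p * q, hp.mul hq, ?_⟩
  rw [map_mul]
  exact mul_mul_mul_span h1 h2
theorem IsEffi.mul {I J : Ideal (X.Ri A)} (hI : IsEffi I) (hJ : IsEffi J) : IsEffi (I * J) := by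
  obtain ⟨I', p, hp, h1⟩ := hI
  obtain ⟨J', q, hq, h2⟩ := hJ
  refine ⟨I' * J', p * q, hp.mul hq, ?_⟩
  rw [map_mul]
  exact mul_mul_mul_span h1 h2

theorem IsEff0.of_mul_left {I J : Ideal (X.R0 A)} (h : IsEff0 (I * J)) : IsEff0 I := by
  obtain ⟨I', p, hp, h1⟩ := h
  exact ⟨J * I', p, hp, by rw [← mul_assoc, h1]⟩
theorem IsEffi.of_mul_left {I J : Ideal (X.Ri A)} (h : IsEffi (I * J)) : IsEffi I := by
  obtain ⟨I', p, hp, h1⟩ := h
  exact ⟨J * I', p, hp, by rw [← mul_assoc, h1]⟩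

theorem isEff0_top : IsEff0 (⊤ : Ideal (X.R0 A)) :=
  ⟨⊤, 1, monic_one, by rw [Ideal.mul_top, map_one, Ideal.span_singleton_one]⟩
theorem isEffi_top : IsEffi (⊤ : Ideal (X.Ri A)) :=
  ⟨⊤, 1, monic_one, by rw [Ideal.mul_top, map_one, Ideal.span_singleton_one]⟩

theorem isEff0_span {p : A[X]} (hp : p.Monic) : IsEff0 (Ideal.span {aeval (X.x0 A) p}) :=
  ⟨⊤, p, hp, by rw [Ideal.mul_top]⟩
theorem isEffi_span {p : A[X]} (hp : p.Monic) : IsEffi (Ideal.span {aeval (X.yi A) p}) :=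
  ⟨⊤, p, hp, by rw [Ideal.mul_top]⟩

theorem IsEff0.list_prod {l : List (Ideal (X.R0 A))} (h : ∀ I ∈ l, IsEff0 I) : IsEff0 l.prod := by
  induction l with
  | nil => rw [List.prod_nil, Ideal.one_eq_top]; exact isEff0_top
  | cons I l ih =>
    rw [List.prod_cons]
    exact (h I List.mem_cons_self).mul (ih fun J hJ => h J (List.mem_cons_of_mem _ hJ))
theorem IsEffi.list_prod {l : List (Ideal (X.Ri A))} (h : ∀ I ∈ l, IsEffi I) : IsEffi l.prod := by
  induction l with
  | nil => rw [List.prod_nil, Ideal.one_eq_top]; exact isEffi_top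
  | cons I l ih =>
    rw [List.prod_cons]
    exact (h I List.mem_cons_self).mul (ih fun J hJ => h J (List.mem_cons_of_mem _ hJ))

theorem IsEff0.map {I : Ideal (X.R0 A)} (hI : IsEff0 I) (h : A →ₐ[k] A') :
    IsEff0 (I.map (X.b0 h)) := by
  obtain ⟨I', p, hp, h1⟩ := hI
  refine ⟨I'.map (X.b0 h), p.map (h : A →+* A'), hp.map _, ?_⟩
  rw [← Ideal.map_mul, h1, Ideal.map_span, Set.image_singleton, CurveData.b0_aeval]
theorem IsEffi.map {I : Ideal (X.Ri A)} (hI : IsEffi I) (h : A →ₐ[k] A') :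
    IsEffi (I.map (X.bi h)) := by
  obtain ⟨I', p, hp, h1⟩ := hI
  refine ⟨I'.map (X.bi h), p.map (h : A →+* A'), hp.map _, ?_⟩
  rw [← Ideal.map_mul, h1, Ideal.map_span, Set.image_singleton, CurveData.bi_aeval]

variable (X) in
/-- the ideal on `V∞` of an effective divisor supported in `V₀` -/
noncomputable def CurveData.other0 (I : Ideal (X.R0 A)) : Ideal (X.Ri A) := (X.glue A).other I
variable (X) in
/-- the ideal on `V₀` of an effective divisor supported in `V∞` -/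
noncomputable def CurveData.otheri (I : Ideal (X.Ri A)) : Ideal (X.R0 A) := (X.glue A).symm.other I

theorem mem_other0 {I : Ideal (X.R0 A)} {s : X.Ri A} :
    s ∈ X.other0 I ↔ X.Ji A s ∈ I.map (algebraMap (X.R0 A) (X.R A)) := Iff.rfl
theorem mem_otheri {I : Ideal (X.Ri A)} {s : X.R0 A} :
    s ∈ X.otheri I ↔ X.J0 A s ∈ I.map (algebraMap (X.Ri A) (X.R A)) := Iff.rfl

theorem IsEff0.one_add_mem {I : Ideal (X.R0 A)} (hI : IsEff0 I) :
    ∃ c : X.Ri A, 1 + X.yi A * c ∈ X.other0 I := hI.eff.one_add_mem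
theorem IsEffi.one_add_mem {I : Ideal (X.Ri A)} (hI : IsEffi I) :
    ∃ c : X.R0 A, 1 + X.x0 A * c ∈ X.otheri I := hI.eff.one_add_mem

theorem IsEff0.other_mul {I J : Ideal (X.R0 A)} (hI : IsEff0 I) (hJ : IsEff0 J) :
    X.other0 (I * J) = X.other0 I * X.other0 J := hI.eff.other_mul hJ.eff
theorem IsEffi.other_mul {I J : Ideal (X.Ri A)} (hI : IsEffi I) (hJ : IsEffi J) :
    X.otheri (I * J) = X.otheri I * X.otheri J := hI.eff.other_mul hJ.eff

theorem IsEff0.other_map {I : Ideal (X.R0 A)} (hI : IsEff0 I) (h : A →ₐ[k] A') :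
    X.other0 (I.map (X.b0 h)) = (X.other0 I).map (X.bi h) := by
  obtain ⟨c, hc⟩ := hI.one_add_mem
  exact (X.glue A).other_map (X.glue A') (X.b0 h : X.R0 A →+* X.R0 A')
    (X.bi h : X.Ri A →+* X.Ri A') (X.bb h : X.R A →+* X.R A') (CurveData.bb_comp_0 h)
    (CurveData.bb_comp_i h) (CurveData.bi_yi h) hc
theorem IsEffi.other_map {I : Ideal (X.Ri A)} (hI : IsEffi I) (h : A →ₐ[k] A') :
    X.otheri (I.map (X.bi h)) = (X.otheri I).map (X.b0 h) := by
  obtain ⟨c, hc⟩ := hI.one_add_mem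
  exact (X.glue A).symm.other_map (X.glue A').symm (X.bi h : X.Ri A →+* X.Ri A')
    (X.b0 h : X.R0 A →+* X.R0 A') (X.bb h : X.R A →+* X.R A') (CurveData.bb_comp_i h)
    (CurveData.bb_comp_0 h) (CurveData.b0_x0 h) hc

/-- An effective divisor supported in `V₀` is a divisor. -/
theorem IsEff0.isDiv {I : Ideal (X.R0 A)} (hI : IsEff0 I) : IsDiv I (X.other0 I) where
  glue := ((X.glue A).map_other I).symm
  inv0 A' _ _ h := (hI.map h).eff.inv
  invi A' _ _ h := by
    rw [← hI.other_map h]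
    exact (hI.map h).eff.inv_other
/-- An effective divisor supported in `V∞` is a divisor. -/
theorem IsEffi.isDiv {I : Ideal (X.Ri A)} (hI : IsEffi I) : IsDiv (X.otheri I) I where
  glue := (X.glue A).symm.map_other I
  inv0 A' _ _ h := by
    rw [← hI.other_map h]
    exact (hI.map h).eff.inv_other
  invi A' _ _ h := (hI.map h).eff.inv

/-- **The line bundle `O(-D)`** for an effective divisor `D` supported in `V₀`. -/
noncomputable def LB.eff0 (I : Ideal (X.R0 A)) (hI : IsEff0 I) : LB X A :=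
  LB.div I (X.other0 I) hI.isDiv
/-- **The line bundle `O(-D)`** for an effective divisor `D` supported in `V∞`. -/
noncomputable def LB.effi (I : Ideal (X.Ri A)) (hI : IsEffi I) : LB X A :=
  LB.div (X.otheri I) I hI.isDiv

theorem LB.eff0_bc {I : Ideal (X.R0 A)} (hI : IsEff0 I) (h : A →ₐ[k] A') :
    LB.BC h (LB.eff0 I hI) (LB.eff0 (I.map (X.b0 h)) (hI.map h)) := by
  have h1 := LB.div_bc hI.isDiv h
  rwa [LB.div_congr (hI.isDiv.map h) (hI.map h).isDiv rfl (hI.other_map h).symm] at h1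
theorem LB.effi_bc {I : Ideal (X.Ri A)} (hI : IsEffi I) (h : A →ₐ[k] A') :
    LB.BC h (LB.effi I hI) (LB.effi (I.map (X.bi h)) (hI.map h)) := by
  have h1 := LB.div_bc hI.isDiv h
  rwa [LB.div_congr (hI.isDiv.map h) (hI.map h).isDiv (hI.other_map h).symm rfl] at h1

theorem LB.eff0_tens {I J : Ideal (X.R0 A)} (hI : IsEff0 I) (hJ : IsEff0 J) :
    LB.Tens (LB.eff0 I hI) (LB.eff0 J hJ) (LB.eff0 (I * J) (hI.mul hJ)) := by
  have h1 := LB.div_tens hI.isDiv hJ.isDiv
  rwa [LB.div_congr (hI.isDiv.mul hJ.isDiv) (hI.mul hJ).isDiv rfl (hI.other_mul hJ).symm] at h1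
theorem LB.effi_tens {I J : Ideal (X.Ri A)} (hI : IsEffi I) (hJ : IsEffi J) :
    LB.Tens (LB.effi I hI) (LB.effi J hJ) (LB.effi (I * J) (hI.mul hJ)) := by
  have h1 := LB.div_tens hI.isDiv hJ.isDiv
  rwa [LB.div_congr (hI.isDiv.mul hJ.isDiv) (hI.mul hJ).isDiv (hI.other_mul hJ).symm rfl] at h1

/-- products of divisors supported in both charts -/
theorem LB.eff0_effi_tens {I : Ideal (X.R0 A)} {J : Ideal (X.Ri A)} (hI : IsEff0 I)
    (hJ : IsEffi J) : LB.Tens (LB.eff0 I hI) (LB.effi J hJ)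
      (LB.div (I * X.otheri J) (X.other0 I * J) (hI.isDiv.mul hJ.isDiv)) :=
  LB.div_tens hI.isDiv hJ.isDiv

theorem LB.eff0_top : LB.Iso (LB.one X A) (LB.eff0 ⊤ isEff0_top) := by
  have h1 := LB.div_top (X := X) (A := A)
  have h2 : X.other0 (⊤ : Ideal (X.R0 A)) = ⊤ := by
    rw [CurveData.other0, Glue.other, Ideal.map_top, Ideal.comap_top]
  rwa [LB.div_congr IsDiv.top isEff0_top.isDiv rfl h2.symm] at h1
theorem LB.effi_top : LB.Iso (LB.one X A) (LB.effi ⊤ isEffi_top) := by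
  have h1 := LB.div_top (X := X) (A := A)
  have h2 : X.otheri (⊤ : Ideal (X.Ri A)) = ⊤ := by
    rw [CurveData.otheri, Glue.other, Ideal.map_top, Ideal.comap_top]
  rwa [LB.div_congr IsDiv.top isEffi_top.isDiv h2.symm rfl] at h1

end

end Fermat.Agent.Jac
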